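import Mathlib

/-!
# Class field theory program (P3), global layer: definitions

The global layer is built from the *semilocal algebras* `A_q(L) = L ⊗[ℚ] ℚ_[q]` of a field `L`
of characteristic zero (a number field in all applications), on which a group `G` acting on `L` by
field automorphisms acts through the left factor.  No completions of number fields, no
archimedean places and no ideals of rings of integers enter the definitions.

* `SemiLocal L q` : the semilocal algebra `L ⊗[ℚ] ℚ_[q]` (`= ∏_{w ∣ q} L_w`);
* `localUnits L q ≤ (SemiLocal L q)ˣ` : units `x` with `x`, `x⁻¹` integral over `ℤ_[q]`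
  (the units of the maximal order, `∏_{w ∣ q} 𝒪_w^×`);
* `IdeleProd L = ∏_q (SemiLocal L q)ˣ`, `finIdele L` the restricted product with respect to the
  `localUnits` (the finite ideles), `principal L : Lˣ →* IdeleProd L` the diagonal map;
* `unitsOutside S L = ∏_{q ∉ S} U_q(L)`, `supportedOn S L = ∏_{q ∈ S} A_q(L)ˣ`,
  `sUnits S L ≤ Lˣ` the `S`-units;
* the `G`-modules (objects of Mathlib's `Rep ℤ G`, underlying groups written additively):
  `unitsRep G L` (`Lˣ`), `ideleRep G L` (finite ideles `J_L`), `classRep G L` (`C_L = J_L / Lˣ`),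
  `classRepS G S L` (`C_S(L) = J_L / (Lˣ · ∏_{q ∉ S} U_q(L))`), `sIdeleRep G S L`
  (`J_S(L) = ∏_{q ∈ S} A_q(L)ˣ`), `sUnitsRep G S L` (`E_S(L)`), `localRep G L q` (`A_q(L)ˣ`),
  `localUnitsRep G L q` (`U_q(L)`), with the structure maps between them.

The archimedean components of the idele class group are omitted on purpose: the program only
uses `p`-primary statements for an odd prime `p`, and the archimedean components contribute
only `2`-torsion to Tate cohomology.
-/

set_option autoImplicit false

open scoped TensorProduct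

noncomputable section

namespace Fermat.Agent.CFT.Global

instance instFactPrime (q : Nat.Primes) : Fact (q : ℕ).Prime := ⟨q.2⟩

/-! ## The semilocal algebra `L ⊗[ℚ] ℚ_[q]` -/

/-- The semilocal algebra `A_q(L) = L ⊗[ℚ] ℚ_[q]`. -/
abbrev SemiLocal (L : Type) [Field L] [CharZero L] (q : ℕ) [Fact q.Prime] : Type :=
  L ⊗[ℚ] ℚ_[q]

section Action

variable (G : Type) [Group G] (L : Type) [Field L] [CharZero L] [MulSemiringAction G L]
variable (q : ℕ) [Fact q.Prime]

theorem smul_tmul_eq (g : G) (a : L) (b : ℚ_[q]) :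
    g • (a ⊗ₜ[ℚ] b : SemiLocal L q) = (g • a) ⊗ₜ[ℚ] b := rfl

/-- `G` acts on `L ⊗[ℚ] ℚ_[q]` by ring automorphisms through the left factor. -/
instance instMulSemiringActionSemiLocal : MulSemiringAction G (SemiLocal L q) where
  __ := (inferInstance : DistribMulAction G (SemiLocal L q))
  smul_one g := by
    rw [Algebra.TensorProduct.one_def, smul_tmul_eq, smul_one]
  smul_mul g x y := by
    induction x using TensorProduct.induction_on with
    | zero => simp
    | tmul a b =>
      induction y using TensorProduct.induction_on with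
      | zero => simp
      | tmul c d =>
        rw [Algebra.TensorProduct.tmul_mul_tmul, smul_tmul_eq, smul_tmul_eq, smul_tmul_eq,
          Algebra.TensorProduct.tmul_mul_tmul, smul_mul']
      | add y₁ y₂ h₁ h₂ => rw [mul_add, smul_add, h₁, h₂, smul_add, mul_add]
    | add x₁ x₂ h₁ h₂ => rw [add_mul, smul_add, h₁, h₂, smul_add, add_mul]

end Action

section Functoriality

variable {L L' : Type} [Field L] [CharZero L] [Field L'] [CharZero L'] (q : ℕ) [Fact q.Prime]

/-- Functoriality of the semilocal algebra in the field: a field embedding `f : L →+* L'`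
induces `L ⊗[ℚ] ℚ_[q] → L' ⊗[ℚ] ℚ_[q]`. -/
def semiLocalMap (f : L →+* L') : SemiLocal L q →+* SemiLocal L' q :=
  (Algebra.TensorProduct.map f.toRatAlgHom (AlgHom.id ℚ ℚ_[q])).toRingHom

theorem semiLocalMap_tmul (f : L →+* L') (a : L) (b : ℚ_[q]) :
    semiLocalMap q f (a ⊗ₜ[ℚ] b) = f a ⊗ₜ[ℚ] b := rfl

end Functoriality

/-! ## Integrality over `ℤ_[q]` and the local units -/

section LocalUnits

variable (L : Type) [Field L] [CharZero L] (q : ℕ) [Fact q.Prime]

/-- The structure map `ℤ_[q] → L ⊗[ℚ] ℚ_[q]`. -/
def intHom : ℤ_[q] →+* SemiLocal L q :=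
  (Algebra.TensorProduct.includeRight (R := ℚ) (A := L) (B := ℚ_[q])).toRingHom.comp
    PadicInt.Coe.ringHom

theorem intHom_apply (z : ℤ_[q]) : intHom L q z = (1 : L) ⊗ₜ[ℚ] (z : ℚ_[q]) := rfl

/-- `x ∈ A_q(L)` is integral over `ℤ_[q]`. -/
def IsInt (x : SemiLocal L q) : Prop := (intHom L q).IsIntegralElem x

variable {L q}

theorem IsInt.mul {x y : SemiLocal L q} (hx : IsInt L q x) (hy : IsInt L q y) :
    IsInt L q (x * y) :=
  RingHom.IsIntegralElem.mul _ hx hy

theorem isInt_one : IsInt L q (1 : SemiLocal L q) := by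
  have h := (intHom L q).isIntegralElem_map (x := (1 : ℤ_[q]))
  rwa [map_one] at h

/-- Integrality is preserved by every ring homomorphism compatible with the structure maps. -/
theorem IsInt.map {L' : Type} [Field L'] [CharZero L'] {x : SemiLocal L q}
    (hx : IsInt L q x) (ψ : SemiLocal L q →+* SemiLocal L' q)
    (hψ : ψ.comp (intHom L q) = intHom L' q) : IsInt L' q (ψ x) := by
  obtain ⟨P, hP, hx⟩ := hx
  refine ⟨P, hP, ?_⟩
  have h := congrArg ψ hx
  rwa [Polynomial.hom_eval₂, hψ, map_zero] at h

theorem IsInt.smul {G : Type} [Group G] [MulSemiringAction G L] {x : SemiLocal L q}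
    (hx : IsInt L q x) (g : G) : IsInt L q (g • x) := by
  refine hx.map (MulSemiringAction.toRingHom G (SemiLocal L q) g) ?_
  ext z
  show g • ((1 : L) ⊗ₜ[ℚ] (z : ℚ_[q]) : SemiLocal L q) = (1 : L) ⊗ₜ[ℚ] (z : ℚ_[q])
  rw [smul_tmul_eq, smul_one]

theorem IsInt.semiLocalMap {L' : Type} [Field L'] [CharZero L'] {x : SemiLocal L q}
    (hx : IsInt L q x) (f : L →+* L') : IsInt L' q (semiLocalMap q f x) := by
  refine hx.map (Global.semiLocalMap q f) ?_
  ext z
  show Global.semiLocalMap q f ((1 : L) ⊗ₜ[ℚ] (z : ℚ_[q])) = (1 : L') ⊗ₜ[ℚ] (z : ℚ_[q])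
  rw [semiLocalMap_tmul, map_one]

variable (L q)

/-- The local unit group `U_q(L)`: units of `L ⊗[ℚ] ℚ_[q]` which are integral over `ℤ_[q]`
together with their inverse. -/
def localUnits : Subgroup (SemiLocal L q)ˣ where
  carrier := {x | IsInt L q (x : SemiLocal L q) ∧
    IsInt L q ((x⁻¹ : (SemiLocal L q)ˣ) : SemiLocal L q)}
  one_mem' := ⟨isInt_one, by simpa using isInt_one⟩
  mul_mem' := by
    rintro x y ⟨hx, hx'⟩ ⟨hy, hy'⟩
    refine ⟨by simpa using hx.mul hy, ?_⟩
    rw [mul_inv_rev]
    simpa using hy'.mul hx'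
  inv_mem' := by
    rintro x ⟨hx, hx'⟩
    exact ⟨hx', by simpa using hx⟩

theorem mem_localUnits_iff (x : (SemiLocal L q)ˣ) :
    x ∈ localUnits L q ↔ IsInt L q (x : SemiLocal L q) ∧
      IsInt L q ((x⁻¹ : (SemiLocal L q)ˣ) : SemiLocal L q) :=
  Iff.rfl

end LocalUnits

/-! ## The action on unit groups -/

section UnitsAction

/-- A group acting on a semiring by ring automorphisms acts on its unit group.  (Mathlib has this
only for `AlgEquiv`; the instance is scoped to this namespace.) -/
@[reducible] def unitsMulDistribMulAction (G R : Type) [Group G] [Semiring R]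
    [MulSemiringAction G R] : MulDistribMulAction G Rˣ where
  smul g u := Units.map (MulSemiringAction.toRingHom G R g).toMonoidHom u
  one_smul u := Units.ext (one_smul G (u : R))
  mul_smul g h u := Units.ext (mul_smul g h (u : R))
  smul_mul g u v := Units.ext (smul_mul' g (u : R) (v : R))
  smul_one g := Units.ext (smul_one g)

scoped[Fermat.Agent.CFT.Global] attribute [instance] unitsMulDistribMulAction

theorem coe_smul_units {G R : Type} [Group G] [Semiring R] [MulSemiringAction G R] (g : G)
    (u : Rˣ) : ((g • u : Rˣ) : R) = g • (u : R) := rfl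

end UnitsAction

/-! ## Ideles -/

section Ideles

variable (L : Type) [Field L] [CharZero L]

/-- The full product `∏_q (L ⊗[ℚ] ℚ_[q])ˣ` over all rational primes. -/
abbrev IdeleProd : Type := ∀ q : Nat.Primes, (SemiLocal L q)ˣ

/-- The finite ideles of `L`: the restricted product of the `(L ⊗[ℚ] ℚ_[q])ˣ` with respect to
the local unit groups. -/
def finIdele : Subgroup (IdeleProd L) where
  carrier := {x | {q : Nat.Primes | x q ∉ localUnits L q}.Finite}
  one_mem' := by
    have : {q : Nat.Primes | (1 : IdeleProd L) q ∉ localUnits L q} = ∅ := by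
      ext q; simp [one_mem]
    show Set.Finite _
    rw [this]
    exact Set.finite_empty
  mul_mem' := by
    intro x y hx hy
    refine (hx.union hy).subset ?_
    intro q hq
    by_contra h
    have h1 : x q ∈ localUnits L q := by
      by_contra h1
      exact h (Or.inl h1)
    have h2 : y q ∈ localUnits L q := by
      by_contra h2
      exact h (Or.inr h2)
    exact hq (mul_mem h1 h2)
  inv_mem' := by
    intro x hx
    refine hx.subset ?_
    intro q hq h
    exact hq (by simpa using inv_mem h)

theorem mem_finIdele_iff (x : IdeleProd L) :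
    x ∈ finIdele L ↔ {q : Nat.Primes | x q ∉ localUnits L q}.Finite := Iff.rfl

/-- The diagonal map `Lˣ → ∏_q (L ⊗[ℚ] ℚ_[q])ˣ`. -/
def principal : Lˣ →* IdeleProd L :=
  MonoidHom.pi fun q : Nat.Primes =>
    Units.map (Algebra.TensorProduct.includeLeft (R := ℚ) (S := ℚ) (A := L)
      (B := ℚ_[(q : ℕ)])).toRingHom.toMonoidHom

theorem principal_apply_coe (u : Lˣ) (q : Nat.Primes) :
    ((principal L u q : (SemiLocal L q)ˣ) : SemiLocal L q) = (u : L) ⊗ₜ[ℚ] (1 : ℚ_[(q : ℕ)]) :=
  rfl

variable (S : Finset Nat.Primes)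

/-- `∏_{q ∉ S} U_q(L)`: ideles which are local units everywhere and trivial at `S`. -/
def unitsOutside : Subgroup (IdeleProd L) where
  carrier := {x | (∀ q : Nat.Primes, x q ∈ localUnits L q) ∧ ∀ q ∈ S, x q = 1}
  one_mem' := ⟨fun q => one_mem _, fun _ _ => rfl⟩
  mul_mem' := by
    rintro x y ⟨hx, hx'⟩ ⟨hy, hy'⟩
    exact ⟨fun q => mul_mem (hx q) (hy q), fun q hq => by simp [hx' q hq, hy' q hq]⟩
  inv_mem' := by
    rintro x ⟨hx, hx'⟩
    exact ⟨fun q => by simpa using inv_mem (hx q), fun q hq => by simp [hx' q hq]⟩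

/-- `J_S(L) = ∏_{q ∈ S} (L ⊗[ℚ] ℚ_[q])ˣ`, as the ideles which are trivial outside `S`. -/
def supportedOn : Subgroup (IdeleProd L) where
  carrier := {x | ∀ q : Nat.Primes, q ∉ S → x q = 1}
  one_mem' := fun _ _ => rfl
  mul_mem' := by
    intro x y hx hy q hq
    simp [hx q hq, hy q hq]
  inv_mem' := by
    intro x hx q hq
    simp [hx q hq]

/-- The `S`-units of `L`: elements of `Lˣ` which are local units at every prime outside `S`. -/
def sUnits : Subgroup Lˣ where
  carrier := {u | ∀ q : Nat.Primes, q ∉ S → principal L u q ∈ localUnits L q}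
  one_mem' := fun q _ => by rw [map_one]; exact one_mem _
  mul_mem' := by
    intro x y hx hy q hq
    rw [map_mul]
    exact mul_mem (hx q hq) (hy q hq)
  inv_mem' := by
    intro x hx q hq
    rw [map_inv]
    exact inv_mem (hx q hq)

/-- The `S`-part of a unit: `u ↦ (u)_{q ∈ S}`, trivial outside `S`. -/
def sDiag : Lˣ →* IdeleProd L where
  toFun u := fun q => if q ∈ S then principal L u q else 1
  map_one' := by
    funext q
    by_cases h : q ∈ S <;> simp [h]
  map_mul' x y := by
    funext q
    by_cases h : q ∈ S <;> simp [h]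

end Ideles

/-! ## Galois stability -/

section Stability

variable (G : Type) [Group G] (L : Type) [Field L] [CharZero L] [MulSemiringAction G L]

theorem smul_mem_localUnits (q : ℕ) [Fact q.Prime] (g : G) {x : (SemiLocal L q)ˣ}
    (hx : x ∈ localUnits L q) : g • x ∈ localUnits L q := by
  refine ⟨hx.1.smul g, ?_⟩
  have h := hx.2.smul g
  rwa [← coe_smul_units, smul_inv'] at h

theorem smul_mem_finIdele (g : G) {x : IdeleProd L} (hx : x ∈ finIdele L) :
    g • x ∈ finIdele L := by
  refine Set.Finite.subset hx ?_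
  intro q hq h
  exact hq (smul_mem_localUnits G L q g h)

theorem smul_principal (g : G) (u : Lˣ) : g • principal L u = principal L (g • u) := by
  funext q
  apply Units.ext
  rfl

theorem smul_mem_range_principal (g : G) {x : IdeleProd L} (hx : x ∈ (principal L).range) :
    g • x ∈ (principal L).range := by
  obtain ⟨u, rfl⟩ := hx
  exact ⟨g • u, (smul_principal G L g u).symm⟩

variable (S : Finset Nat.Primes)

theorem smul_mem_unitsOutside (g : G) {x : IdeleProd L} (hx : x ∈ unitsOutside L S) :
    g • x ∈ unitsOutside L S := by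
  refine ⟨fun q => smul_mem_localUnits G L q g (hx.1 q), fun q hq => ?_⟩
  show g • x q = 1
  rw [hx.2 q hq, smul_one]

theorem smul_mem_supportedOn (g : G) {x : IdeleProd L} (hx : x ∈ supportedOn L S) :
    g • x ∈ supportedOn L S := by
  intro q hq
  show g • x q = 1
  rw [hx q hq, smul_one]

theorem smul_mem_sUnits (g : G) {u : Lˣ} (hu : u ∈ sUnits L S) : g • u ∈ sUnits L S := by
  intro q hq
  rw [← smul_principal]
  exact smul_mem_localUnits G L q g (hu q hq)

theorem supportedOn_le_finIdele : supportedOn L S ≤ finIdele L := by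
  intro x hx
  refine Set.Finite.subset S.finite_toSet ?_
  intro q hq
  by_contra h
  exact hq (by rw [hx q h]; exact one_mem _)

theorem unitsOutside_le_finIdele : unitsOutside L S ≤ finIdele L := by
  intro x hx
  refine Set.Finite.subset Set.finite_empty ?_
  intro q hq
  exact hq (hx.1 q)

end Stability

/-! ## The Galois modules -/

section Reps

/-- The `ℤ`-submodule of `Additive M` attached to a subgroup of a commutative group `M`. -/
def addSub {M : Type} [CommGroup M] (H : Subgroup M) : Submodule ℤ (Additive M) :=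
  AddSubgroup.toIntSubmodule H.toAddSubgroup

theorem mem_addSub {M : Type} [CommGroup M] (H : Subgroup M) (x : Additive M) :
    x ∈ addSub H ↔ x.toMul ∈ H := Iff.rfl

variable (G : Type) [Group G]

/-- The representation of `G` on (the additive version of) a `G`-stable subgroup `H` of a
commutative group with `G`-action, as a `Representation`. -/
def subRepn {M : Type} [CommGroup M] [MulDistribMulAction G M] (H : Subgroup M)
    (hH : ∀ (g : G), ∀ x ∈ H, g • x ∈ H) : Representation ℤ G ↥(addSub H) :=
  (Representation.ofMulDistribMulAction G M).subrepresentation (addSub H)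
    (fun g _ hx => hH g _ hx)

/-- The representation of `G` on (the additive version of) a `G`-stable subgroup `H` of a
commutative group with `G`-action. -/
def subRep {M : Type} [CommGroup M] [MulDistribMulAction G M] (H : Subgroup M)
    (hH : ∀ (g : G), ∀ x ∈ H, g • x ∈ H) : Rep ℤ G :=
  Rep.of (subRepn G H hH)

/-- The representation of `G` on (the additive version of) `H ⧸ (H ⊓ N)` for `G`-stable
subgroups `H`, `N` of a commutative group with `G`-action, as a `Representation`. -/
def subQuotRepn {M : Type} [CommGroup M] [MulDistribMulAction G M] (H N : Subgroup M)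
    (hH : ∀ (g : G), ∀ x ∈ H, g • x ∈ H) (hN : ∀ (g : G), ∀ x ∈ N, g • x ∈ N) :
    Representation ℤ G (↥(addSub H) ⧸ (addSub N).comap (addSub H).subtype) :=
  (subRepn G H hH).quotient ((addSub N).comap (addSub H).subtype) (fun g _ hx => hN g _ hx)

/-- The representation of `G` on (the additive version of) `H ⧸ (H ⊓ N)` for `G`-stable
subgroups `H`, `N` of a commutative group with `G`-action. -/
def subQuotRep {M : Type} [CommGroup M] [MulDistribMulAction G M] (H N : Subgroup M)
    (hH : ∀ (g : G), ∀ x ∈ H, g • x ∈ H) (hN : ∀ (g : G), ∀ x ∈ N, g • x ∈ N) : Rep ℤ G :=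
  Rep.of (subQuotRepn G H N hH hN)

/-- The projection `H → H ⧸ (H ⊓ N)`. -/
def subQuotMk {M : Type} [CommGroup M] [MulDistribMulAction G M] (H N : Subgroup M)
    (hH : ∀ (g : G), ∀ x ∈ H, g • x ∈ H) (hN : ∀ (g : G), ∀ x ∈ N, g • x ∈ N) :
    subRep G H hH ⟶ subQuotRep G H N hH hN :=
  Rep.ofHom ⟨((addSub N).comap (addSub H).subtype).mkQ, fun _ => rfl⟩

/-- The inclusion of a `G`-stable subgroup, as a morphism to the ambient `G`-module. -/
def subRepIncl {M : Type} [CommGroup M] [MulDistribMulAction G M] (H : Subgroup M)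
    (hH : ∀ (g : G), ∀ x ∈ H, g • x ∈ H) : subRep G H hH ⟶ Rep.ofMulDistribMulAction G M :=
  Rep.ofHom ⟨(addSub H).subtype, fun _ => rfl⟩

/-- The inclusion `H ≤ H'` of `G`-stable subgroups, as a morphism of `G`-modules. -/
def subRepMap {M : Type} [CommGroup M] [MulDistribMulAction G M] (H H' : Subgroup M)
    (hH : ∀ (g : G), ∀ x ∈ H, g • x ∈ H) (hH' : ∀ (g : G), ∀ x ∈ H', g • x ∈ H')
    (h : H ≤ H') : subRep G H hH ⟶ subRep G H' hH' :=
  Rep.ofHom ⟨Submodule.inclusion (show addSub H ≤ addSub H' from fun _ hx => h hx),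
    fun _ => rfl⟩

variable (L : Type) [Field L] [CharZero L] [MulSemiringAction G L]

/-- `Lˣ` as a `G`-module. -/
def unitsRep : Rep ℤ G := Rep.ofMulDistribMulAction G Lˣ

/-- `(L ⊗[ℚ] ℚ_[q])ˣ` as a `G`-module. -/
def localRep (q : ℕ) [Fact q.Prime] : Rep ℤ G := Rep.ofMulDistribMulAction G (SemiLocal L q)ˣ

/-- The local units `U_q(L)` as a `G`-module. -/
def localUnitsRep (q : ℕ) [Fact q.Prime] : Rep ℤ G :=
  subRep G (localUnits L q) (fun g _ hx => smul_mem_localUnits G L q g hx)

/-- The finite ideles `J_L` as a `G`-module. -/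
def ideleRep : Rep ℤ G := subRep G (finIdele L) (fun g _ hx => smul_mem_finIdele G L g hx)

/-- The (finite) idele class group `C_L = J_L / Lˣ` as a `G`-module. -/
def classRep : Rep ℤ G :=
  subQuotRep G (finIdele L) (principal L).range (fun g _ hx => smul_mem_finIdele G L g hx)
    (fun g _ hx => smul_mem_range_principal G L g hx)

/-- The projection `J_L → C_L`. -/
def classMk : ideleRep G L ⟶ classRep G L := subQuotMk G _ _ _ _

variable (S : Finset Nat.Primes)

/-- The `S`-idele class group `C_S(L) = J_L / (Lˣ · ∏_{q ∉ S} U_q(L))` as a `G`-module. -/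
def classRepS : Rep ℤ G :=
  subQuotRep G (finIdele L) ((principal L).range ⊔ unitsOutside L S)
    (fun g _ hx => smul_mem_finIdele G L g hx)
    (fun g x hx => by
      obtain ⟨y, hy, z, hz, rfl⟩ := Subgroup.mem_sup.mp hx
      rw [smul_mul']
      exact Subgroup.mul_mem_sup (smul_mem_range_principal G L g hy)
        (smul_mem_unitsOutside G L S g hz))

/-- The projection `J_L → C_S(L)`. -/
def classMkS : ideleRep G L ⟶ classRepS G L S := subQuotMk G _ _ _ _

/-- `J_S(L) = ∏_{q ∈ S} (L ⊗[ℚ] ℚ_[q])ˣ` as a `G`-module. -/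
def sIdeleRep : Rep ℤ G :=
  subRep G (supportedOn L S) (fun g _ hx => smul_mem_supportedOn G L S g hx)

/-- The `S`-units `E_S(L)` as a `G`-module. -/
def sUnitsRep : Rep ℤ G := subRep G (sUnits L S) (fun g _ hx => smul_mem_sUnits G L S g hx)

end Reps

/-! ## Structure maps -/

section Maps

variable (G : Type) [Group G] (L : Type) [Field L] [CharZero L] [MulSemiringAction G L]

/-- The inclusion of the `q`-component `(L ⊗[ℚ] ℚ_[q])ˣ → J_L`. -/
def localToIdele (q : Nat.Primes) : localRep G L q ⟶ ideleRep G L :=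
  Rep.ofHom ⟨LinearMap.codRestrict (addSub (finIdele L))
      (MonoidHom.toAdditive
        (MonoidHom.mulSingle (fun q : Nat.Primes => (SemiLocal L q)ˣ) q)).toIntLinearMap
      (fun x => by
        show Pi.mulSingle q (Additive.toMul x) ∈ finIdele L
        refine Set.Finite.subset (Set.finite_singleton q) ?_
        intro q' hq'
        by_contra h
        have h' : q' ≠ q := h
        exact hq' (by rw [Pi.mulSingle_eq_of_ne h']; exact one_mem _)),
    fun g => by
      apply LinearMap.ext
      intro x
      apply Subtype.ext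
      show Additive.ofMul (Pi.mulSingle q (g • (Additive.toMul x : (SemiLocal L q)ˣ)) :
          IdeleProd L) =
        Additive.ofMul (g • (Pi.mulSingle q (Additive.toMul x : (SemiLocal L q)ˣ) :
          IdeleProd L))
      congr 1
      funext q'
      by_cases h : q' = q
      · subst h
        simp
      · show _ = g • ((Pi.mulSingle q (Additive.toMul x : (SemiLocal L q)ˣ) : IdeleProd L) q')
        rw [Pi.mulSingle_eq_of_ne h, Pi.mulSingle_eq_of_ne h, smul_one]⟩

/-- The map `(L ⊗[ℚ] ℚ_[q])ˣ → C_L`. -/
def localToClass (q : Nat.Primes) : localRep G L q ⟶ classRep G L :=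
  CategoryTheory.CategoryStruct.comp (localToIdele G L q) (classMk G L)

variable (S : Finset Nat.Primes)

/-- The inclusion `J_S(L) → J_L`. -/
def sIdeleToIdele : sIdeleRep G L S ⟶ ideleRep G L :=
  subRepMap G _ _ _ _ (supportedOn_le_finIdele L S)

/-- The map `J_S(L) → C_S(L)`. -/
def sIdeleToClassS : sIdeleRep G L S ⟶ classRepS G L S :=
  CategoryTheory.CategoryStruct.comp (sIdeleToIdele G L S) (classMkS G L S)

/-- The projection `C_L → C_S(L)`. -/
def classToClassS : classRep G L ⟶ classRepS G L S :=
  Rep.ofHom ⟨Submodule.mapQ _ _ LinearMap.id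
      (fun x hx => by
        show (x : Additive (IdeleProd L)).toMul ∈ (principal L).range ⊔ unitsOutside L S
        exact (le_sup_left : (principal L).range ≤ _) hx),
    fun g => by
      apply LinearMap.ext
      intro x
      induction x using Submodule.Quotient.induction_on with
      | _ x => rfl⟩

end Maps

/-! ## Local components: decomposition groups and the completions `L_w` -/

section Decomp

variable (G : Type) [Group G] (L : Type) [Field L] [CharZero L] [MulSemiringAction G L]
variable (q : ℕ) [Fact q.Prime] (m : Ideal (SemiLocal L q))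

/-- The decomposition group of an ideal `m` of `L ⊗[ℚ] ℚ_[q]` (in the applications: a maximal
ideal, i.e. a place `w ∣ q` of `L`). -/
def decompGroup : Subgroup G where
  carrier := {g | ∀ x : SemiLocal L q, g • x ∈ m ↔ x ∈ m}
  one_mem' := fun x => by rw [one_smul]
  mul_mem' := fun {a b} ha hb x => by rw [mul_smul, ha, hb]
  inv_mem' := fun {a} ha x => by rw [← ha, smul_inv_smul]

theorem mem_decompGroup_iff (g : G) :
    g ∈ decompGroup G L q m ↔ ∀ x : SemiLocal L q, g • x ∈ m ↔ x ∈ m := Iff.rfl

/-- The ring endomorphism of `(L ⊗[ℚ] ℚ_[q]) ⧸ m` induced by an element of the decomposition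
group. -/
def decompQuotHom (d : decompGroup G L q m) : SemiLocal L q ⧸ m →+* SemiLocal L q ⧸ m :=
  Ideal.quotientMap m (MulSemiringAction.toRingHom G (SemiLocal L q) (d : G))
    (fun x hx => (d.2 x).mpr hx)

theorem decompQuotHom_mk (d : decompGroup G L q m) (x : SemiLocal L q) :
    decompQuotHom G L q m d (Ideal.Quotient.mk m x) = Ideal.Quotient.mk m ((d : G) • x) := rfl

/-- The decomposition group acts on the local component `(L ⊗[ℚ] ℚ_[q]) ⧸ m`. -/
instance instMulSemiringActionDecomp :
    MulSemiringAction (decompGroup G L q m) (SemiLocal L q ⧸ m) where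
  smul d x := decompQuotHom G L q m d x
  one_smul x := by
    obtain ⟨x, rfl⟩ := Ideal.Quotient.mk_surjective x
    show decompQuotHom G L q m 1 _ = _
    rw [decompQuotHom_mk]
    simp
  mul_smul a b x := by
    obtain ⟨x, rfl⟩ := Ideal.Quotient.mk_surjective x
    show decompQuotHom G L q m (a * b) _ = decompQuotHom G L q m a (decompQuotHom G L q m b _)
    rw [decompQuotHom_mk, decompQuotHom_mk, decompQuotHom_mk]
    simp [mul_smul]
  smul_zero d := map_zero (decompQuotHom G L q m d)
  smul_add d := map_add (decompQuotHom G L q m d)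
  smul_one d := map_one (decompQuotHom G L q m d)
  smul_mul d := map_mul (decompQuotHom G L q m d)

theorem decomp_smul_mk (d : decompGroup G L q m) (x : SemiLocal L q) :
    d • (Ideal.Quotient.mk m x) = Ideal.Quotient.mk m ((d : G) • x) := rfl

/-- The multiplicative group of the local component `(L ⊗[ℚ] ℚ_[q]) ⧸ m` (`= L_wˣ` for a
maximal ideal `m`) as a module over the decomposition group. -/
def localCompRep : Rep ℤ (decompGroup G L q m) :=
  Rep.ofMulDistribMulAction (decompGroup G L q m) (SemiLocal L q ⧸ m)ˣ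

/-- The projection `(L ⊗[ℚ] ℚ_[q])ˣ → ((L ⊗[ℚ] ℚ_[q]) ⧸ m)ˣ`, equivariant for the decomposition
group. -/
def localProj :
    Rep.res (decompGroup G L q m).subtype (localRep G L q) ⟶ localCompRep G L q m :=
  Rep.ofHom ⟨(MonoidHom.toAdditive
      (Units.map (Ideal.Quotient.mk m).toMonoidHom)).toIntLinearMap,
    fun d => by
      apply LinearMap.ext
      intro x
      rfl⟩

/-- The units of `L ⊗[ℚ] ℚ_[q]` which are `≡ 1` modulo every maximal ideal outside the
`G`-orbit of `m`: the block `∏_{w' ∈ G·w} L_{w'}ˣ` of the place of the base field below `m`. -/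
def orbitUnits : Subgroup (SemiLocal L q)ˣ where
  carrier := {x | ∀ m' : Ideal (SemiLocal L q), m'.IsMaximal →
    (∀ g : G, ∃ a : SemiLocal L q, ¬ (a ∈ m' ↔ g • a ∈ m)) → (x : SemiLocal L q) - 1 ∈ m'}
  one_mem' := fun m' _ _ => by simp
  mul_mem' := by
    intro x y hx hy m' hm' h
    have h1 := hx m' hm' h
    have h2 := hy m' hm' h
    have : ((x * y : (SemiLocal L q)ˣ) : SemiLocal L q) - 1
        = ((x : SemiLocal L q) - 1) * (y : SemiLocal L q) + ((y : SemiLocal L q) - 1) := by
      push_cast; ring
    rw [this]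
    exact m'.add_mem (m'.mul_mem_right _ h1) h2
  inv_mem' := by
    intro x hx m' hm' h
    have h1 := hx m' hm' h
    have : ((x⁻¹ : (SemiLocal L q)ˣ) : SemiLocal L q) - 1
        = -(((x⁻¹ : (SemiLocal L q)ˣ) : SemiLocal L q) * ((x : SemiLocal L q) - 1)) := by
      rw [mul_sub, Units.inv_mul, mul_one]; ring
    rw [this]
    exact m'.neg_mem (m'.mul_mem_left _ h1)

theorem smul_mem_orbitUnits (g : G) {x : (SemiLocal L q)ˣ} (hx : x ∈ orbitUnits G L q m) :
    g • x ∈ orbitUnits G L q m := by
  intro m' hm' h
  -- the ideal `g⁻¹ m'`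
  have hmax : (Ideal.comap (MulSemiringAction.toRingEquiv G (SemiLocal L q) g) m').IsMaximal :=
    Ideal.comap_isMaximal_of_equiv _
  have h' : ∀ g' : G, ∃ a : SemiLocal L q,
      ¬ (a ∈ Ideal.comap (MulSemiringAction.toRingEquiv G (SemiLocal L q) g) m' ↔ g' • a ∈ m) := by
    intro g'
    obtain ⟨a, ha⟩ := h (g' * g⁻¹)
    refine ⟨g⁻¹ • a, fun hiff => ha ?_⟩
    have e1 : g⁻¹ • a ∈ Ideal.comap (MulSemiringAction.toRingEquiv G (SemiLocal L q) g) m' ↔
        a ∈ m' := by
      rw [Ideal.mem_comap]
      show g • g⁻¹ • a ∈ m' ↔ _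
      rw [smul_inv_smul]
    rw [← e1, hiff, mul_smul]
  have h1 := hx _ hmax h'
  rw [Ideal.mem_comap] at h1
  have : ((g • x : (SemiLocal L q)ˣ) : SemiLocal L q) - 1 = g • ((x : SemiLocal L q) - 1) := by
    rw [smul_sub, smul_one]; rfl
  rw [this]
  exact h1

/-- The block `∏_{w' ∈ G·w} L_{w'}ˣ` as a `G`-module. -/
def orbitRep : Rep ℤ G :=
  subRep G (orbitUnits G L q m) (fun g _ hx => smul_mem_orbitUnits G L q m g hx)

/-- The inclusion of the block into `(L ⊗[ℚ] ℚ_[q])ˣ`. -/
def orbitToLocal : orbitRep G L q m ⟶ localRep G L q := subRepIncl G _ _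

end Decomp

section OrbitMaps

variable (G : Type) [Group G] (L : Type) [Field L] [CharZero L] [MulSemiringAction G L]
variable (q : Nat.Primes) (m : Ideal (SemiLocal L q))

/-- The map `∏_{w' ∈ G·w} L_{w'}ˣ → C_L`. -/
def orbitToClass : orbitRep G L q m ⟶ classRep G L :=
  CategoryTheory.CategoryStruct.comp (orbitToLocal G L q m) (localToClass G L q)

/-- The map `(L ⊗[ℚ] ℚ_[q])ˣ → C_S(L)`. -/
def localToClassS (S : Finset Nat.Primes) : localRep G L q ⟶ classRepS G L S :=
  CategoryTheory.CategoryStruct.comp (localToIdele G L q) (classMkS G L S)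

/-- The map `∏_{w' ∈ G·w} L_{w'}ˣ → C_S(L)`. -/
def orbitToClassS (S : Finset Nat.Primes) : orbitRep G L q m ⟶ classRepS G L S :=
  CategoryTheory.CategoryStruct.comp (orbitToLocal G L q m) (localToClassS G L q S)

end OrbitMaps

/-! ## Local components, continued -/

section OrbitProj

variable (G : Type) [Group G] (L : Type) [Field L] [CharZero L] [MulSemiringAction G L]
variable (q : ℕ) [Fact q.Prime] (m : Ideal (SemiLocal L q))

/-- The projection of the block `∏_{w' ∈ G·w} L_{w'}ˣ` onto its component `L_wˣ`, equivariant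
for the decomposition group (the explicit Shapiro map is `res` followed by this). -/
def orbitProj :
    Rep.res (decompGroup G L q m).subtype (orbitRep G L q m) ⟶ localCompRep G L q m :=
  Rep.ofHom ⟨(MonoidHom.toAdditive
      (Units.map (Ideal.Quotient.mk m).toMonoidHom)).toIntLinearMap ∘ₗ
        (addSub (orbitUnits G L q m)).subtype,
    fun d => by
      apply LinearMap.ext
      intro x
      rfl⟩

end OrbitProj

/-! ## Functoriality in the field and towers -/

section Tower

variable {L L' : Type} [Field L] [CharZero L] [Field L'] [CharZero L']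

/-- Functoriality of the idele product for a field embedding `f : L →+* L'`. -/
def ideleProdMap (f : L →+* L') : IdeleProd L →* IdeleProd L' :=
  MonoidHom.pi fun q : Nat.Primes =>
    (Units.map (semiLocalMap (q : ℕ) f).toMonoidHom).comp
      (Pi.evalMonoidHom (fun q : Nat.Primes => (SemiLocal L q)ˣ) q)

theorem ideleProdMap_apply (f : L →+* L') (x : IdeleProd L) (q : Nat.Primes) :
    ideleProdMap f x q = Units.map (semiLocalMap (q : ℕ) f).toMonoidHom (x q) := rfl

theorem map_mem_localUnits (f : L →+* L') (q : ℕ) [Fact q.Prime] {x : (SemiLocal L q)ˣ}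
    (hx : x ∈ localUnits L q) :
    Units.map (semiLocalMap q f).toMonoidHom x ∈ localUnits L' q :=
  ⟨hx.1.semiLocalMap f, by
    have h := hx.2.semiLocalMap f
    rw [← map_inv]
    exact h⟩

theorem ideleProdMap_mem_finIdele (f : L →+* L') {x : IdeleProd L} (hx : x ∈ finIdele L) :
    ideleProdMap f x ∈ finIdele L' := by
  refine Set.Finite.subset hx ?_
  intro q hq h
  exact hq (map_mem_localUnits f q h)

theorem ideleProdMap_principal (f : L →+* L') (u : Lˣ) :
    ideleProdMap f (principal L u) = principal L' (Units.map f.toMonoidHom u) := by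
  funext q
  apply Units.ext
  rfl

/-- The underlying group of the finite ideles `J_L` (additive notation). -/
abbrev IdeleGroupOf (L : Type) [Field L] [CharZero L] : Type := ↥(addSub (finIdele L))

/-- The underlying group of the idele class group `C_L` (additive notation). -/
abbrev ClassGroupOf (L : Type) [Field L] [CharZero L] : Type :=
  ↥(addSub (finIdele L)) ⧸ (addSub (principal L).range).comap (addSub (finIdele L)).subtype

/-- The underlying group of the `S`-idele class group `C_S(L)` (additive notation). -/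
abbrev ClassGroupSOf (L : Type) [Field L] [CharZero L] (S : Finset Nat.Primes) : Type :=
  ↥(addSub (finIdele L)) ⧸
    (addSub ((principal L).range ⊔ unitsOutside L S)).comap (addSub (finIdele L)).subtype

/-- `J_L → J_{L'}` for a field embedding `f : L →+* L'`. -/
def ideleMap (f : L →+* L') : IdeleGroupOf L →ₗ[ℤ] IdeleGroupOf L' :=
  LinearMap.restrict (MonoidHom.toAdditive (ideleProdMap f)).toIntLinearMap
    (fun _ hx => ideleProdMap_mem_finIdele f hx)

/-- `C_L → C_{L'}` for a field embedding `f : L →+* L'`. -/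
def classMap (f : L →+* L') : ClassGroupOf L →ₗ[ℤ] ClassGroupOf L' :=
  Submodule.mapQ _ _ (ideleMap f) (by
    rintro x ⟨u, hu⟩
    exact ⟨Units.map f.toMonoidHom u, by
      rw [← ideleProdMap_principal, hu]
      rfl⟩)

theorem map_mem_unitsOutside (f : L →+* L') (S : Finset Nat.Primes) {x : IdeleProd L}
    (hx : x ∈ unitsOutside L S) : ideleProdMap f x ∈ unitsOutside L' S :=
  ⟨fun q => map_mem_localUnits f q (hx.1 q), fun q hq => by
    rw [ideleProdMap_apply, hx.2 q hq, map_one]⟩

/-- `C_S(L) → C_S(L')` for a field embedding `f : L →+* L'`. -/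
def classMapS (f : L →+* L') (S : Finset Nat.Primes) :
    ClassGroupSOf L S →ₗ[ℤ] ClassGroupSOf L' S :=
  Submodule.mapQ _ _ (ideleMap f) (by
    intro x hx
    obtain ⟨y, ⟨u, hu⟩, z, hz, hyz⟩ := Subgroup.mem_sup.mp (show
      (x : Additive (IdeleProd L)).toMul ∈ (principal L).range ⊔ unitsOutside L S from hx)
    show ideleProdMap f (x : Additive (IdeleProd L)).toMul ∈
      (principal L').range ⊔ unitsOutside L' S
    rw [← hyz, map_mul, ← hu, ideleProdMap_principal]
    exact Subgroup.mul_mem_sup ⟨_, rfl⟩ (map_mem_unitsOutside f S hz))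

/-- A *tower datum*: `f : L →+* L'` is a field embedding, `G'` acts on `L'`, `G` acts on `L`,
`π : G' →* G` is surjective, `f` is equivariant, and `f(L)` is the fixed field of `ker π`.
(For number fields: `L'/f(L)` is Galois with group `ker π`.) -/
structure IsTower {G G' : Type} [Group G] [Group G'] [MulSemiringAction G L]
    [MulSemiringAction G' L'] (f : L →+* L') (π : G' →* G) : Prop where
  surj : Function.Surjective π
  equivariant : ∀ (g : G') (x : L), f (π g • x) = g • f x
  fixed : ∀ y : L', (∀ n ∈ π.ker, n • y = y) → y ∈ f.range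

end Tower

/-! ## Unramifiedness -/

section Unram

open NumberField

/-- The number field `L` is unramified at the rational prime `q`. -/
def UnramAt (L : Type) [Field L] [NumberField L] (q : ℕ) : Prop :=
  IsReduced (𝓞 L ⧸ Ideal.span {(q : 𝓞 L)})

/-- The number field `L` is unramified (over `ℚ`) at all primes outside `S`. -/
def UnramOutside (S : Finset Nat.Primes) (L : Type) [Field L] [NumberField L] : Prop :=
  ∀ q : Nat.Primes, q ∉ S → UnramAt L q

end Unram

end Fermat.Agent.CFT.Global
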