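import Mathlib

/-!
# Bridge between the semilocal algebra `L ⊗[ℚ] ℚ_[q]` and the primes of `𝓞 L` above `q`

For a number field `L` and a prime number `q`, the element `x ⊗ 1` of `L ⊗[ℚ] ℚ_[q]` is integral
over `ℤ_[q]` if and only if `x` has `w`-adic valuation `≤ 1` at every prime `w` of `𝓞 L` above `q`.
Everything is stated for the ring homomorphism `qInt q L : ℤ_[q] →+* L ⊗[ℚ] ℚ_[q]`, `c ↦ 1 ⊗ c`
(no `Algebra ℤ_[q] (L ⊗[ℚ] ℚ_[q])` instance is chosen here).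
-/

set_option autoImplicit false

noncomputable section

namespace Fermat.Agent.CFT.Global.QBridge

open Polynomial TensorProduct IsDedekindDomain NumberField

/-! ## 1. Polynomials vanishing at `x ⊗ 1` -/

section General

variable {K L K' : Type*} [Field K] [Field L] [Algebra K L] [Field K'] [Algebra K K']

/-- A `K`-linear functional on `L` dual to the power `x ^ j`, `j < deg (minpoly K x)`. -/
theorem exists_dual_pow (x : L) (j : Fin (minpoly K x).natDegree) :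
    ∃ φ : L →ₗ[K] K, ∀ i : Fin (minpoly K x).natDegree,
      φ (x ^ (i : ℕ)) = if i = j then 1 else 0 := by
  classical
  have hv := linearIndependent_pow (K := K) x
  obtain ⟨φ, hφ⟩ := LinearMap.exists_extend ((Module.Basis.span hv).coord j)
  refine ⟨φ, fun i => ?_⟩
  have h1 : φ (x ^ (i : ℕ)) = (Module.Basis.span hv).coord j (Module.Basis.span hv i) := by
    rw [← hφ]
    simp [Module.Basis.span_apply]
  rw [h1, Module.Basis.coord_apply, Module.Basis.repr_self, Finsupp.single_apply]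

/-- The coefficient-extracting map `L ⊗[K] K' → K'` attached to a functional on `L`. -/
def tmulFunctional (φ : L →ₗ[K] K) : L ⊗[K] K' →ₗ[K] K' :=
  (TensorProduct.lid K K').toLinearMap ∘ₗ LinearMap.rTensor K' φ

@[simp] theorem tmulFunctional_tmul (φ : L →ₗ[K] K) (y : L) (c : K') :
    tmulFunctional φ (y ⊗ₜ[K] c) = φ y • c := by
  simp [tmulFunctional]

/-- If a polynomial over `K'` vanishes at `x ⊗ 1 ∈ L ⊗[K] K'`, then it is divisible by the
minimal polynomial of `x` over `K`. -/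
theorem minpoly_map_dvd_of_eval₂_tmul (x : L) (hx : IsIntegral K x) (g : K'[X])
    (hg : eval₂ (Algebra.TensorProduct.includeRight : K' →ₐ[K] L ⊗[K] K').toRingHom
      (x ⊗ₜ[K] (1 : K')) g = 0) :
    (minpoly K x).map (algebraMap K K') ∣ g := by
  classical
  set m' := (minpoly K x).map (algebraMap K K') with hm'
  set ι : K' →+* L ⊗[K] K' :=
    (Algebra.TensorProduct.includeRight : K' →ₐ[K] L ⊗[K] K').toRingHom with hι
  have hmon : m'.Monic := (minpoly.monic hx).map _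
  have hdeg : m'.natDegree = (minpoly K x).natDegree := natDegree_map _
  -- `m'` vanishes at `x ⊗ 1`
  have hm0 : eval₂ ι (x ⊗ₜ[K] (1 : K')) m' = 0 := by
    have h1 : ι.comp (algebraMap K K') =
        (Algebra.TensorProduct.includeLeft : L →ₐ[K] L ⊗[K] K').toRingHom.comp
          (algebraMap K L) := by
      ext c
      simp [hι, Algebra.algebraMap_eq_smul_one]
    rw [hm', eval₂_map, h1]
    have h2 : (x ⊗ₜ[K] (1 : K')) =
        (Algebra.TensorProduct.includeLeft : L →ₐ[K] L ⊗[K] K').toRingHom x := rfl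
    rw [h2, ← hom_eval₂, ← aeval_def, minpoly.aeval, map_zero]
  -- the remainder
  set r := g %ₘ m' with hr
  have hr0 : eval₂ ι (x ⊗ₜ[K] (1 : K')) r = 0 := by
    have h3 := modByMonic_add_div g m'
    have h4 : eval₂ ι (x ⊗ₜ[K] (1 : K')) g =
        eval₂ ι (x ⊗ₜ[K] (1 : K')) r +
          eval₂ ι (x ⊗ₜ[K] (1 : K')) m' * eval₂ ι (x ⊗ₜ[K] (1 : K')) (g /ₘ m') := by
      rw [← eval₂_mul, ← eval₂_add]
      exact congrArg (eval₂ ι _) h3.symm
    rw [hg, hm0, zero_mul, add_zero] at h4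
    exact h4.symm
  have hrdeg : r = 0 ∨ r.natDegree < (minpoly K x).natDegree := by
    by_cases h : r = 0
    · exact Or.inl h
    · right
      rw [← hdeg]
      have hm1 : m' ≠ 1 := by
        intro h1
        have := (minpoly.natDegree_pos hx)
        rw [← hdeg, h1, natDegree_one] at this
        exact lt_irrefl _ this
      exact natDegree_modByMonic_lt g hmon hm1
  suffices hr' : r = 0 from (modByMonic_eq_zero_iff_dvd hmon).mp hr'
  rcases hrdeg with h | hlt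
  · exact h
  · ext j
    rw [coeff_zero]
    by_cases hj : j < (minpoly K x).natDegree
    · obtain ⟨φ, hφ⟩ := exists_dual_pow (K := K) x ⟨j, hj⟩
      have h5 := congrArg (tmulFunctional (K' := K') φ) hr0
      rw [eval₂_eq_sum_range, map_sum, map_zero] at h5
      have h6 : ∀ i ∈ Finset.range (r.natDegree + 1),
          tmulFunctional (K' := K') φ (ι (r.coeff i) * (x ⊗ₜ[K] (1 : K')) ^ i) =
            if i = j then r.coeff j else 0 := by
        intro i hi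
        have hi' : i < (minpoly K x).natDegree :=
          lt_of_le_of_lt (Nat.lt_succ_iff.mp (Finset.mem_range.mp hi)) hlt
        have h7 : ι (r.coeff i) * (x ⊗ₜ[K] (1 : K')) ^ i = (x ^ i) ⊗ₜ[K] (r.coeff i) := by
          simp [hι, Algebra.TensorProduct.includeRight_apply, Algebra.TensorProduct.tmul_pow]
        rw [h7, tmulFunctional_tmul]
        have h8 := hφ ⟨i, hi'⟩
        simp only [Fin.mk.injEq] at h8
        rw [h8]
        split_ifs with hij
        · rw [one_smul, hij]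
        · rw [zero_smul]
      rw [Finset.sum_congr rfl h6, Finset.sum_ite_eq'] at h5
      by_cases hjr : j ∈ Finset.range (r.natDegree + 1)
      · rwa [if_pos hjr] at h5
      · exact coeff_eq_zero_of_natDegree_lt (by
          rw [Finset.mem_range, not_lt] at hjr; omega)
    · exact coeff_eq_zero_of_natDegree_lt (by omega)

end General

/-! ## 2. The `q`-adic side -/

section Padic

variable (q : ℕ) [Fact q.Prime]

/-- The ring homomorphism `ℤ_[q] → L ⊗[ℚ] ℚ_[q]`, `c ↦ 1 ⊗ c`. -/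
def qInt (L : Type*) [Field L] [Algebra ℚ L] : ℤ_[q] →+* L ⊗[ℚ] ℚ_[q] :=
  (Algebra.TensorProduct.includeRight : ℚ_[q] →ₐ[ℚ] L ⊗[ℚ] ℚ_[q]).toRingHom.comp
    (algebraMap ℤ_[q] ℚ_[q])

theorem qInt_apply (L : Type*) [Field L] [Algebra ℚ L] (c : ℤ_[q]) :
    qInt q L c = (1 : L) ⊗ₜ[ℚ] (c : ℚ_[q]) := rfl

variable {q} {L : Type*} [Field L] [Algebra ℚ L]

/-- If `x ⊗ 1` is integral over `ℤ_[q]`, the minimal polynomial of `x` has `q`-integral
coefficients. -/
theorem norm_coeff_minpoly_le_one {x : L} (hx : IsIntegral ℚ x)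
    (h : (qInt q L).IsIntegralElem (x ⊗ₜ[ℚ] (1 : ℚ_[q]))) (i : ℕ) :
    ‖(((minpoly ℚ x).coeff i : ℚ) : ℚ_[q])‖ ≤ 1 := by
  obtain ⟨g, hgm, hg⟩ := h
  have hg' : eval₂ (Algebra.TensorProduct.includeRight : ℚ_[q] →ₐ[ℚ] L ⊗[ℚ] ℚ_[q]).toRingHom
      (x ⊗ₜ[ℚ] (1 : ℚ_[q])) (g.map (algebraMap ℤ_[q] ℚ_[q])) = 0 := by
    rw [eval₂_map]
    exact hg
  have hdvd := minpoly_map_dvd_of_eval₂_tmul x hx _ hg'
  obtain ⟨g', hg'eq⟩ := IsIntegrallyClosed.eq_map_mul_C_of_dvd ℚ_[q] hgm hdvd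
  have hmon : ((minpoly ℚ x).map (algebraMap ℚ ℚ_[q])).Monic := (minpoly.monic hx).map _
  rw [hmon.leadingCoeff, C_1, mul_one] at hg'eq
  have h1 : ((minpoly ℚ x).map (algebraMap ℚ ℚ_[q])).coeff i =
      algebraMap ℤ_[q] ℚ_[q] (g'.coeff i) := by
    rw [← hg'eq, coeff_map]
  rw [coeff_map, eq_ratCast, PadicInt.algebraMap_apply] at h1
  rw [h1]
  exact PadicInt.norm_le_one _

/-- A rational number of `q`-adic norm `≤ 1` has denominator prime to `q`. -/
theorem not_dvd_den_of_norm_le_one {c : ℚ} (h : ‖(c : ℚ_[q])‖ ≤ 1) : ¬ q ∣ c.den := by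
  intro hdiv
  have hq : q.Prime := Fact.out
  have hcop : IsCoprime c.num (q : ℤ) := by
    rw [Int.isCoprime_iff_gcd_eq_one, Int.gcd_eq_natAbs, Int.natAbs_natCast]
    have h1 : Nat.Coprime c.num.natAbs c.den := c.reduced
    exact Nat.Coprime.coprime_dvd_right hdiv h1
  have hnum : ‖((c.num : ℤ) : ℚ_[q])‖ = 1 := Padic.norm_intCast_eq_one_iff.mpr hcop
  have hden : ‖((c.den : ℕ) : ℚ_[q])‖ < 1 := Padic.norm_natCast_lt_one_iff.mpr hdiv
  have hmul : (c : ℚ_[q]) * ((c.den : ℕ) : ℚ_[q]) = ((c.num : ℤ) : ℚ_[q]) := by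
    have := Rat.mul_den_eq_num c
    exact_mod_cast congrArg (fun r : ℚ => (r : ℚ_[q])) this
  have h2 : ‖(c : ℚ_[q])‖ * ‖((c.den : ℕ) : ℚ_[q])‖ = 1 := by
    rw [← norm_mul, hmul, hnum]
  have h3 : ‖(c : ℚ_[q])‖ * ‖((c.den : ℕ) : ℚ_[q])‖ < 1 := by
    calc ‖(c : ℚ_[q])‖ * ‖((c.den : ℕ) : ℚ_[q])‖ ≤ 1 * ‖((c.den : ℕ) : ℚ_[q])‖ :=
          mul_le_mul_of_nonneg_right h (norm_nonneg _)
      _ < 1 := by rw [one_mul]; exact hden
  rw [h2] at h3
  exact lt_irrefl _ h3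

/-- If the minimal polynomial of `x` over `ℚ` has coefficients with denominators prime to `q`,
then some integer multiple `m₀ x`, `q ∤ m₀`, is integral over `ℤ`. -/
theorem exists_nat_mul_isIntegral {x : L} (hx : IsIntegral ℚ x)
    (h : ∀ i, ¬ q ∣ ((minpoly ℚ x).coeff i).den) :
    ∃ m₀ : ℕ, ¬ q ∣ m₀ ∧ IsIntegral ℤ ((m₀ : L) * x) := by
  have hq : q.Prime := Fact.out
  set m := minpoly ℚ x with hm
  set d := m.natDegree with hd
  set m₀ : ℕ := ∏ i ∈ Finset.range d, (m.coeff i).den with hm₀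
  refine ⟨m₀, ?_, ?_⟩
  · rw [hm₀, hq.prime.dvd_finsetProd_iff]
    rintro ⟨i, -, hi⟩
    exact h i hi
  · have hmonic : (scaleRoots m (m₀ : ℚ)).Monic := (monic_scaleRoots_iff _).mpr (minpoly.monic hx)
    have hlifts : scaleRoots m (m₀ : ℚ) ∈ lifts (Int.castRingHom ℚ) := by
      rw [lifts_iff_coeff_lifts]
      intro n
      rw [coeff_scaleRoots]
      rcases lt_trichotomy n d with hn | hn | hn
      · obtain ⟨k, hk⟩ : (m.coeff n).den ∣ m₀ :=
          Finset.dvd_prod_of_mem _ (Finset.mem_range.mpr hn)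
        obtain ⟨e, h1⟩ : ∃ e, d - n = e + 1 := ⟨d - n - 1, by omega⟩
        refine ⟨(m.coeff n).num * k * (m₀ : ℤ) ^ e, ?_⟩
        have h2 : (m.coeff n) * ((m.coeff n).den : ℚ) = ((m.coeff n).num : ℚ) :=
          Rat.mul_den_eq_num _
        rw [← hd, h1, pow_succ, hk]
        simp only [eq_intCast, Int.cast_mul, Int.cast_pow, Int.cast_natCast, Nat.cast_mul]
        rw [← h2]
        ring
      · refine ⟨1, ?_⟩
        rw [hn, hd, coeff_natDegree, (minpoly.monic hx).leadingCoeff]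
        simp
      · refine ⟨0, ?_⟩
        rw [coeff_eq_zero_of_natDegree_lt (by omega)]
        simp
    obtain ⟨g, hg_map, -, hg_monic⟩ := lifts_and_natDegree_eq_and_monic hlifts hmonic
    have h0 : aeval (algebraMap ℚ L (m₀ : ℚ) * x) (scaleRoots m (m₀ : ℚ)) = 0 :=
      scaleRoots_aeval_eq_zero (minpoly.aeval ℚ x)
    refine ⟨g, hg_monic, ?_⟩
    rw [← hg_map, aeval_def, eval₂_map] at h0
    have h3 : (algebraMap ℚ L).comp (Int.castRingHom ℚ) = algebraMap ℤ L := RingHom.ext_int _ _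
    rw [h3, map_natCast] at h0
    exact h0

end Padic

/-! ## 3. Number fields: integrality of `x ⊗ 1` and the primes above `q` -/

section NumberField

variable {q : ℕ} [Fact q.Prime] {L : Type*} [Field L] [NumberField L]

/-- An integer prime to `q` is a unit at every prime above `q`. -/
theorem valuation_natCast_eq_one {m₀ : ℕ} (hm : ¬ q ∣ m₀) (w : HeightOneSpectrum (𝓞 L))
    (hw : (q : 𝓞 L) ∈ w.asIdeal) : w.valuation L (m₀ : L) = 1 := by
  have hq : q.Prime := Fact.out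
  have h1 : (m₀ : L) = algebraMap (𝓞 L) L (m₀ : 𝓞 L) := by simp
  rw [h1, HeightOneSpectrum.valuation_eq_one_iff_notMem]
  intro hmem
  have hcop : IsCoprime (m₀ : ℤ) (q : ℤ) :=
    Nat.isCoprime_iff_coprime.mpr ((Nat.Prime.coprime_iff_not_dvd hq).mpr hm).symm
  obtain ⟨a, b, hab⟩ := hcop
  have h2 : ((a : 𝓞 L) * (m₀ : 𝓞 L) + (b : 𝓞 L) * (q : 𝓞 L)) = 1 := by
    exact_mod_cast congrArg (Int.cast : ℤ → 𝓞 L) hab
  have h3 : (1 : 𝓞 L) ∈ w.asIdeal := by
    rw [← h2]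
    exact add_mem (Ideal.mul_mem_left _ _ hmem) (Ideal.mul_mem_left _ _ hw)
  exact w.isPrime.ne_top ((Ideal.eq_top_iff_one _).mpr h3)

/-- (B1, `⇒`) -/
theorem valuation_le_one_of_isIntegralElem (x : L)
    (h : (qInt q L).IsIntegralElem (x ⊗ₜ[ℚ] (1 : ℚ_[q])))
    (w : HeightOneSpectrum (𝓞 L)) (hw : (q : 𝓞 L) ∈ w.asIdeal) : w.valuation L x ≤ 1 := by
  have hx : IsIntegral ℚ x := Algebra.IsIntegral.isIntegral x
  obtain ⟨m₀, hm₀, hint⟩ := exists_nat_mul_isIntegral hx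
    (fun i => not_dvd_den_of_norm_le_one (norm_coeff_minpoly_le_one hx h i))
  have h1 : w.valuation L ((m₀ : L) * x) ≤ 1 := by
    obtain ⟨y, hy⟩ : ∃ y : 𝓞 L, algebraMap (𝓞 L) L y = (m₀ : L) * x := ⟨⟨_, hint⟩, rfl⟩
    rw [← hy]
    exact w.valuation_le_one y
  rw [map_mul, valuation_natCast_eq_one hm₀ w hw, one_mul] at h1
  exact h1

/-- The norm of a prime not above `q` is prime to `q`. -/
theorem not_dvd_absNorm (w : HeightOneSpectrum (𝓞 L)) (hw : (q : 𝓞 L) ∉ w.asIdeal) :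
    ¬ q ∣ Ideal.absNorm w.asIdeal := by
  intro hdvd
  have hmax : w.asIdeal.IsMaximal := w.isMaximal
  have hfin : Finite (𝓞 L ⧸ w.asIdeal) := Ideal.finiteQuotientOfFreeOfNeBot w.asIdeal w.ne_bot
  let _ := Ideal.Quotient.field w.asIdeal
  rw [Ideal.absNorm_apply, Submodule.cardQuot_apply] at hdvd
  obtain ⟨y, hy⟩ := exists_prime_addOrderOf_dvd_card' (G := 𝓞 L ⧸ w.asIdeal) q hdvd
  have hy0 : y ≠ 0 := by
    rintro rfl
    rw [addOrderOf_zero] at hy
    exact (Fact.out : q.Prime).one_lt.ne hy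
  have h1 : q • y = 0 := by rw [← hy]; exact addOrderOf_nsmul_eq_zero y
  rw [nsmul_eq_mul] at h1
  rcases mul_eq_zero.mp h1 with h2 | h2
  · apply hw
    rw [← Ideal.Quotient.eq_zero_iff_mem, map_natCast]
    exact h2
  · exact hy0 h2

/-- If `x` is integral at every prime above `q`, then `m₀ x ∈ 𝓞 L` for some integer `m₀` prime
to `q`. -/
theorem exists_nat_mul_mem_of_valuation_le_one (x : L)
    (h : ∀ w : HeightOneSpectrum (𝓞 L), (q : 𝓞 L) ∈ w.asIdeal → w.valuation L x ≤ 1) :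
    ∃ m₀ : ℕ, ¬ q ∣ m₀ ∧ ∃ y : 𝓞 L, algebraMap (𝓞 L) L y = (m₀ : L) * x := by
  classical
  have hq : q.Prime := Fact.out
  have hfin := HeightOneSpectrum.Support.finite (𝓞 L) x
  set B := hfin.toFinset with hB
  have hBmem : ∀ w, w ∈ B ↔ 1 < w.valuation L x := by
    intro w
    simp [hB, HeightOneSpectrum.Support]
  set N : ℕ := ∏ w ∈ B, Ideal.absNorm w.asIdeal with hN
  have hqN : ¬ q ∣ N := by
    rw [hN, hq.prime.dvd_finsetProd_iff]
    rintro ⟨w, hw, hdvd⟩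
    refine not_dvd_absNorm w (fun hmem => ?_) hdvd
    exact absurd (h w hmem) (not_le.mpr ((hBmem w).mp hw))
  have hcast : (N : L) = algebraMap (𝓞 L) L (N : 𝓞 L) := by simp
  have hNlt : ∀ w ∈ B, w.valuation L (N : L) < 1 := by
    intro w hw
    rw [hcast, HeightOneSpectrum.valuation_lt_one_iff_mem]
    obtain ⟨k, hk⟩ : Ideal.absNorm w.asIdeal ∣ N := Finset.dvd_prod_of_mem _ hw
    rw [hk]
    push_cast
    exact Ideal.mul_mem_right _ _ (Ideal.absNorm_mem _)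
  have hNle : ∀ w : HeightOneSpectrum (𝓞 L), w.valuation L (N : L) ≤ 1 := by
    intro w
    rw [hcast]
    exact w.valuation_le_one _
  have hex : ∀ w ∈ B, ∃ e : ℕ, w.valuation L (N : L) ^ e * w.valuation L x < 1 := by
    intro w hw
    have hx0 : w.valuation L x ≠ 0 := ne_of_gt (lt_trans zero_lt_one ((hBmem w).mp hw))
    obtain ⟨e, he⟩ := exists_pow_lt₀ (hNlt w hw) (Units.mk0 _ (inv_ne_zero hx0))
    refine ⟨e, ?_⟩
    rw [Units.val_mk0] at he
    calc w.valuation L (N : L) ^ e * w.valuation L x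
        < (w.valuation L x)⁻¹ * w.valuation L x :=
          mul_lt_mul_of_pos_right he (zero_lt_iff.mpr hx0)
      _ = 1 := inv_mul_cancel₀ hx0
  choose! e he using hex
  set E := B.sup e with hE
  refine ⟨N ^ E, fun hd => hqN (hq.dvd_of_dvd_pow hd), ?_⟩
  have hval : ∀ w : HeightOneSpectrum (𝓞 L), w.valuation L (((N ^ E : ℕ) : L) * x) ≤ 1 := by
    intro w
    rw [map_mul, Nat.cast_pow, map_pow]
    by_cases hw : w ∈ B
    · have h1 : w.valuation L (N : L) ^ E ≤ w.valuation L (N : L) ^ e w :=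
        pow_le_pow_right_of_le_one' (hNle w) (Finset.le_sup hw)
      exact le_of_lt (lt_of_le_of_lt (mul_le_mul' h1 le_rfl) (he w hw))
    · have h1 : w.valuation L x ≤ 1 := not_lt.mp (fun hlt => hw ((hBmem w).mpr hlt))
      exact mul_le_one' (pow_le_one' (hNle w) _) h1
  obtain ⟨y, hy⟩ := HeightOneSpectrum.mem_integers_of_valuation_le_one L _ hval
  exact ⟨y, hy⟩

/-- (B1, `⇐`) -/
theorem isIntegralElem_of_valuation_le_one (x : L)
    (h : ∀ w : HeightOneSpectrum (𝓞 L), (q : 𝓞 L) ∈ w.asIdeal → w.valuation L x ≤ 1) :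
    (qInt q L).IsIntegralElem (x ⊗ₜ[ℚ] (1 : ℚ_[q])) := by
  obtain ⟨m₀, hm₀, y, hy⟩ := exists_nat_mul_mem_of_valuation_le_one x h
  have hnorm : ‖((m₀ : ℕ) : ℚ_[q])‖ = 1 :=
    Padic.norm_natCast_eq_one_iff.mpr ((Nat.Prime.coprime_iff_not_dvd Fact.out).mpr hm₀)
  have hm0 : ((m₀ : ℕ) : ℚ_[q]) ≠ 0 := by
    intro h0
    rw [h0, norm_zero] at hnorm
    exact zero_ne_one hnorm
  let c : ℤ_[q] := ⟨((m₀ : ℕ) : ℚ_[q])⁻¹, by rw [norm_inv, hnorm, inv_one]⟩
  have hprod : x ⊗ₜ[ℚ] (1 : ℚ_[q]) =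
      ((algebraMap (𝓞 L) L y) ⊗ₜ[ℚ] (1 : ℚ_[q])) * qInt q L c := by
    rw [qInt_apply, Algebra.TensorProduct.tmul_mul_tmul, mul_one, one_mul, hy]
    have h1 : ((m₀ : L) * x) = (m₀ : ℚ) • x := by
      rw [Algebra.smul_def]
      simp
    rw [h1, TensorProduct.smul_tmul]
    congr 1
    show (1 : ℚ_[q]) = (m₀ : ℚ) • ((m₀ : ℕ) : ℚ_[q])⁻¹
    rw [Algebra.smul_def]
    simp [hm0]
  rw [hprod]
  refine RingHom.IsIntegralElem.mul _ ?_ (RingHom.isIntegralElem_map _)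
  obtain ⟨g, hgm, hg⟩ := RingOfIntegers.isIntegral_coe y
  refine ⟨g.map (Int.castRingHom ℤ_[q]), hgm.map _, ?_⟩
  rw [eval₂_map]
  have h1 : (qInt q L).comp (Int.castRingHom ℤ_[q]) =
      (Algebra.TensorProduct.includeLeft : L →ₐ[ℚ] L ⊗[ℚ] ℚ_[q]).toRingHom.comp
        (algebraMap ℤ L) := RingHom.ext_int _ _
  rw [h1]
  have h2 : ((algebraMap (𝓞 L) L y) ⊗ₜ[ℚ] (1 : ℚ_[q])) =
      (Algebra.TensorProduct.includeLeft : L →ₐ[ℚ] L ⊗[ℚ] ℚ_[q]).toRingHom
        (algebraMap (𝓞 L) L y) := rfl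
  rw [h2, ← hom_eval₂]
  have h3 : eval₂ (algebraMap ℤ L) (algebraMap (𝓞 L) L y) g = 0 := hg
  rw [h3, map_zero]

/-- **(B1)** For `x` in a number field `L`: `x ⊗ 1 ∈ L ⊗[ℚ] ℚ_[q]` is integral over `ℤ_[q]` iff
`x` is integral at every prime of `𝓞 L` above `q`. -/
theorem isIntegralElem_tmul_one_iff (x : L) :
    (qInt q L).IsIntegralElem (x ⊗ₜ[ℚ] (1 : ℚ_[q])) ↔
      ∀ w : HeightOneSpectrum (𝓞 L), (q : 𝓞 L) ∈ w.asIdeal → w.valuation L x ≤ 1 :=
  ⟨valuation_le_one_of_isIntegralElem x, isIntegralElem_of_valuation_le_one x⟩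

/-- **(B1u)** For a unit `x` of a number field `L`: `x ⊗ 1` and `x⁻¹ ⊗ 1` are both integral
over `ℤ_[q]` iff `x` is a unit at every prime of `𝓞 L` above `q`. -/
theorem isIntegralElem_units_iff (x : Lˣ) :
    ((qInt q L).IsIntegralElem ((x : L) ⊗ₜ[ℚ] (1 : ℚ_[q])) ∧
        (qInt q L).IsIntegralElem (((x⁻¹ : Lˣ) : L) ⊗ₜ[ℚ] (1 : ℚ_[q]))) ↔
      ∀ w : HeightOneSpectrum (𝓞 L), (q : 𝓞 L) ∈ w.asIdeal → w.valuation L (x : L) = 1 := by
  rw [isIntegralElem_tmul_one_iff, isIntegralElem_tmul_one_iff]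
  constructor
  · rintro ⟨h1, h2⟩ w hw
    have h3 := h2 w hw
    rw [Units.val_inv_eq_inv_val, map_inv₀] at h3
    have hx0 : w.valuation L (x : L) ≠ 0 := (Valuation.ne_zero_iff _).mpr x.ne_zero
    refine le_antisymm (h1 w hw) ?_
    exact (inv_le_one₀ (zero_lt_iff.mpr hx0)).mp h3
  · intro h
    refine ⟨fun w hw => (h w hw).le, fun w hw => ?_⟩
    rw [Units.val_inv_eq_inv_val, map_inv₀, h w hw, inv_one]

end NumberField

/-! ## 4. `S`-units: the semilocal description agrees with `Set.unit` -/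

section SUnits

variable {L : Type*} [Field L] [NumberField L]

/-- Every prime of `𝓞 L` lies above a rational prime. -/
theorem exists_prime_mem (w : HeightOneSpectrum (𝓞 L)) :
    ∃ q : ℕ, q.Prime ∧ (q : 𝓞 L) ∈ w.asIdeal := by
  have hmax : w.asIdeal.IsMaximal := w.isMaximal
  have hfin : Finite (𝓞 L ⧸ w.asIdeal) := Ideal.finiteQuotientOfFreeOfNeBot w.asIdeal w.ne_bot
  let _ := Ideal.Quotient.field w.asIdeal
  have hchar : CharP (𝓞 L ⧸ w.asIdeal) (ringChar (𝓞 L ⧸ w.asIdeal)) := ringChar.charP _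
  refine ⟨ringChar (𝓞 L ⧸ w.asIdeal), ?_, ?_⟩
  · exact (CharP.char_is_prime_or_zero (𝓞 L ⧸ w.asIdeal) _).resolve_right
      (CharP.char_ne_zero_of_finite (𝓞 L ⧸ w.asIdeal) _)
  · rw [← Ideal.Quotient.eq_zero_iff_mem, map_natCast]
    exact CharP.cast_eq_zero _ _

/-- Two rational primes in the same prime of `𝓞 L` are equal. -/
theorem prime_eq_of_mem (w : HeightOneSpectrum (𝓞 L)) {q q' : ℕ} (hq : q.Prime) (hq' : q'.Prime)
    (h : (q : 𝓞 L) ∈ w.asIdeal) (h' : (q' : 𝓞 L) ∈ w.asIdeal) : q = q' := by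
  by_contra hne
  have hcop : IsCoprime (q : ℤ) (q' : ℤ) :=
    Nat.isCoprime_iff_coprime.mpr ((Nat.coprime_primes hq hq').mpr hne)
  obtain ⟨a, b, hab⟩ := hcop
  have h2 : ((a : 𝓞 L) * (q : 𝓞 L) + (b : 𝓞 L) * (q' : 𝓞 L)) = 1 := by
    exact_mod_cast congrArg (Int.cast : ℤ → 𝓞 L) hab
  have h3 : (1 : 𝓞 L) ∈ w.asIdeal := by
    rw [← h2]
    exact add_mem (Ideal.mul_mem_left _ _ h) (Ideal.mul_mem_left _ _ h')
  exact w.isPrime.ne_top ((Ideal.eq_top_iff_one _).mpr h3)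

/-- The set of primes of `𝓞 L` above the rational primes in `S`. -/
def primesAbove (L : Type*) [Field L] [NumberField L] (S : Set ℕ) :
    Set (HeightOneSpectrum (𝓞 L)) :=
  {w | ∃ q ∈ S, q.Prime ∧ (q : 𝓞 L) ∈ w.asIdeal}

/-- **`E_S(L)` is `Set.unit`**: a unit `x` of `L` is an `S`-unit (for the primes above `S`) iff
for every rational prime `q ∉ S` both `x ⊗ 1` and `x⁻¹ ⊗ 1` are integral over `ℤ_[q]` in
`L ⊗[ℚ] ℚ_[q]`. -/
theorem mem_unit_primesAbove_iff (S : Set ℕ) (x : Lˣ) :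
    x ∈ (primesAbove L S).unit L ↔
      ∀ (q : ℕ) [Fact q.Prime], q ∉ S →
        (qInt q L).IsIntegralElem ((x : L) ⊗ₜ[ℚ] (1 : ℚ_[q])) ∧
        (qInt q L).IsIntegralElem (((x⁻¹ : Lˣ) : L) ⊗ₜ[ℚ] (1 : ℚ_[q])) := by
  constructor
  · intro hx q hq hqS
    rw [isIntegralElem_units_iff]
    intro w hw
    refine hx w ?_
    rintro ⟨q', hq'S, hq', hq'w⟩
    exact hqS (prime_eq_of_mem w hq.out hq' hw hq'w ▸ hq'S)
  · intro h w hw
    obtain ⟨q, hq, hqw⟩ := exists_prime_mem w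
    have hqS : q ∉ S := fun hqS => hw ⟨q, hqS, hq, hqw⟩
    have : Fact q.Prime := ⟨hq⟩
    exact (isIntegralElem_units_iff x).mp (h q hqS) w hqw

end SUnits

end Fermat.Agent.CFT.Global.QBridge
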