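/-
CFT program, layer Global, L7 (second inequality): raw semilocal definitions (helper59).

Everything in L7 is a statement about the semilocal algebras `A_q(K) = K ⊗[ℚ] ℚ_[q]`
(`q` a rational prime, `K` a number field), their unit groups, and finite products of them:

* `Aq K q`        : `K ⊗[ℚ] ℚ_[q]`;
* `Uq K q`        : the units of the maximal order (`x`, `x⁻¹` integral over `ℤ_[q]`, in the sense
                    of `QBridge.qInt`);
* `loc K q`       : `Kˣ → A_q(K)ˣ`;
* `Jall K`        : `∏_q A_q(K)ˣ` (full product), `diag K : Kˣ → Jall K`;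
* `Jsupp K S`     : the elements supported on the finite set `S` (`= J_S(K) = ∏_{q ∈ S} A_q(K)ˣ`);
* `trunc K S`     : the projection `Jall K → Jsupp K S`;
* `sUnits K S`    : the `S`-units `{a ∈ Kˣ | ∀ q ∉ S, a ∈ U_q(K)}`;
* `part e he`     : `x ↦ e x + (1 - e)` for an idempotent `e` (the `e`-component of a unit);
* `IsPrimIdem e`  : `e` is a primitive idempotent (`e ≠ 0` and `e · A` is a field);
* for an extension `L/K`: `baseCh`, `galAct`, `normq`, `IsNormq`, `normGroup`, `normRes`;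
* the two statements `SIraw` (second inequality) and `FIraw` (the input from the first
  inequality).
-/
import Mathlib
import Fermat.Agent.CFT.Global.QBridge

set_option autoImplicit false

noncomputable section

namespace Fermat.Agent.CFT.Global.L7

open TensorProduct
open Fermat.Agent.CFT.Global.QBridge (qInt)

/-- Any two instances of this `Prop` are equal; it lets `ℚ_[q]` be written for `q : Nat.Primes`. -/
instance factPrimeL7 (q : Nat.Primes) : Fact (q : ℕ).Prime := ⟨q.2⟩

section Absolute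

variable (K : Type) [Field K] [NumberField K]

/-- The semilocal algebra `A_q(K) = K ⊗[ℚ] ℚ_[q]`. -/
abbrev Aq (q : Nat.Primes) : Type := K ⊗[ℚ] ℚ_[(q : ℕ)]

/-- The units of the maximal order of `A_q(K)`. -/
def Uq (q : Nat.Primes) : Subgroup (Aq K q)ˣ where
  carrier := {u | (qInt (q : ℕ) K).IsIntegralElem (u : Aq K q) ∧
    (qInt (q : ℕ) K).IsIntegralElem ((u⁻¹ : (Aq K q)ˣ) : Aq K q)}
  mul_mem' := by
    rintro a b ⟨ha, ha'⟩ ⟨hb, hb'⟩
    refine ⟨?_, ?_⟩
    · rw [Units.val_mul]; exact RingHom.IsIntegralElem.mul _ ha hb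
    · rw [mul_inv, Units.val_mul]; exact RingHom.IsIntegralElem.mul _ ha' hb'
  one_mem' := by
    refine ⟨?_, ?_⟩
    · rw [Units.val_one]; exact RingHom.isIntegralElem_one _
    · rw [inv_one, Units.val_one]; exact RingHom.isIntegralElem_one _
  inv_mem' := by
    rintro a ⟨ha, ha'⟩
    exact ⟨ha', by rw [inv_inv]; exact ha⟩

theorem mem_Uq {q : Nat.Primes} {u : (Aq K q)ˣ} :
    u ∈ Uq K q ↔ (qInt (q : ℕ) K).IsIntegralElem (u : Aq K q) ∧
      (qInt (q : ℕ) K).IsIntegralElem ((u⁻¹ : (Aq K q)ˣ) : Aq K q) := Iff.rfl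

/-- The diagonal map at `q`: `a ↦ a ⊗ 1`. -/
def loc (q : Nat.Primes) : Kˣ →* (Aq K q)ˣ :=
  Units.map ((Algebra.TensorProduct.includeLeft : K →ₐ[ℚ] K ⊗[ℚ] ℚ_[(q : ℕ)]) : K →* Aq K q)

@[simp] theorem loc_val (q : Nat.Primes) (a : Kˣ) :
    ((loc K q a : (Aq K q)ˣ) : Aq K q) = (a : K) ⊗ₜ[ℚ] (1 : ℚ_[(q : ℕ)]) := rfl

/-- The full product `∏_q A_q(K)ˣ`. -/
abbrev Jall : Type := ∀ q : Nat.Primes, (Aq K q)ˣ

/-- The diagonal map `Kˣ → ∏_q A_q(K)ˣ`. -/
def diag : Kˣ →* Jall K := MonoidHom.pi (loc K)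

@[simp] theorem diag_apply (a : Kˣ) (q : Nat.Primes) : diag K a q = loc K q a := rfl

/-- `J_S(K)`: the elements of the product supported on `S`. -/
def Jsupp (S : Finset Nat.Primes) : Subgroup (Jall K) where
  carrier := {x | ∀ q, q ∉ S → x q = 1}
  mul_mem' := by
    intro a b ha hb q hq
    rw [Pi.mul_apply, ha q hq, hb q hq, mul_one]
  one_mem' := fun _ _ => rfl
  inv_mem' := by
    intro a ha q hq
    rw [Pi.inv_apply, ha q hq, inv_one]

theorem mem_Jsupp {S : Finset Nat.Primes} {x : Jall K} :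
    x ∈ Jsupp K S ↔ ∀ q, q ∉ S → x q = 1 := Iff.rfl

open Classical in
/-- The projection of the full product onto `J_S(K)`. -/
def trunc (S : Finset Nat.Primes) : Jall K →* Jall K where
  toFun x := fun q => if q ∈ S then x q else 1
  map_one' := by
    funext q
    by_cases h : q ∈ S <;> simp [h]
  map_mul' x y := by
    funext q
    by_cases h : q ∈ S <;> simp [h]

theorem trunc_apply_of_mem {S : Finset Nat.Primes} (x : Jall K) {q : Nat.Primes} (h : q ∈ S) :
    trunc K S x q = x q := by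
  simp [trunc, h]

theorem trunc_apply_of_notMem {S : Finset Nat.Primes} (x : Jall K) {q : Nat.Primes}
    (h : q ∉ S) : trunc K S x q = 1 := by
  simp [trunc, h]

theorem trunc_mem_Jsupp (S : Finset Nat.Primes) (x : Jall K) : trunc K S x ∈ Jsupp K S :=
  fun _ hq => trunc_apply_of_notMem K x hq

/-- The `S`-units of `K`: units at every rational prime outside `S`. -/
def sUnits (S : Finset Nat.Primes) : Subgroup Kˣ where
  carrier := {a | ∀ q, q ∉ S → loc K q a ∈ Uq K q}
  mul_mem' := by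
    intro a b ha hb q hq
    rw [map_mul]; exact mul_mem (ha q hq) (hb q hq)
  one_mem' := by
    intro q _
    rw [map_one]; exact one_mem _
  inv_mem' := by
    intro a ha q hq
    rw [map_inv]; exact inv_mem (ha q hq)

theorem mem_sUnits {S : Finset Nat.Primes} {a : Kˣ} :
    a ∈ sUnits K S ↔ ∀ q, q ∉ S → loc K q a ∈ Uq K q := Iff.rfl

/-- The diagonal map into `J_S(K)`. -/
def locS (S : Finset Nat.Primes) : Kˣ →* Jall K := (trunc K S).comp (diag K)

end Absolute

section Idempotent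

variable {A : Type*} [CommRing A]

/-- The `e`-component of a unit, for an idempotent `e`: `x ↦ e x + (1 - e)`. -/
def part (e : A) (he : IsIdempotentElem e) : Aˣ →* Aˣ where
  toFun x :=
    { val := e * x + (1 - e)
      inv := e * (x⁻¹ : Aˣ) + (1 - e)
      val_inv := by
        have h1 : (x : A) * ((x⁻¹ : Aˣ) : A) = 1 := x.mul_inv
        have h2 : e * e = e := he
        linear_combination (e * e) * h1 + (2 - (x : A) - ((x⁻¹ : Aˣ) : A)) * h2
      inv_val := by
        have h1 : ((x⁻¹ : Aˣ) : A) * (x : A) = 1 := x.inv_mul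
        have h2 : e * e = e := he
        linear_combination (e * e) * h1 + (2 - (x : A) - ((x⁻¹ : Aˣ) : A)) * h2 }
  map_one' := by
    apply Units.ext
    show e * ((1 : Aˣ) : A) + (1 - e) = 1
    rw [Units.val_one]; ring
  map_mul' x y := by
    apply Units.ext
    show e * ((x * y : Aˣ) : A) + (1 - e) = (e * x + (1 - e)) * (e * y + (1 - e))
    have h2 : e * e = e := he
    rw [Units.val_mul]
    linear_combination (-(x : A) * (y : A) + (x : A) + (y : A) - 1) * h2

@[simp] theorem part_val (e : A) (he : IsIdempotentElem e) (x : Aˣ) :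
    ((part e he x : Aˣ) : A) = e * x + (1 - e) := rfl

/-- `e` is a primitive idempotent: `e ≠ 0` and `e · A` is a field. -/
def IsPrimIdem (e : A) : Prop :=
  IsIdempotentElem e ∧ e ≠ 0 ∧ ∀ x : A, e * x ≠ 0 → ∃ y : A, e * x * y = e

end Idempotent

section Relative

variable (K L : Type) [Field K] [NumberField K] [Field L] [NumberField L] [Algebra K L]

/-- The base change map `A_q(K) → A_q(L)`. -/
def baseCh (q : Nat.Primes) : Aq K q →+* Aq L q :=
  (Algebra.TensorProduct.map ((Algebra.ofId K L).restrictScalars ℚ)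
    (AlgHom.id ℚ ℚ_[(q : ℕ)])).toRingHom

@[simp] theorem baseCh_tmul (q : Nat.Primes) (a : K) (c : ℚ_[(q : ℕ)]) :
    baseCh K L q (a ⊗ₜ[ℚ] c) = (algebraMap K L a) ⊗ₜ[ℚ] c := rfl

/-- The action of `Gal(L/K)` on `A_q(L)`. -/
def galAct (q : Nat.Primes) (g : L ≃ₐ[K] L) : Aq L q ≃+* Aq L q :=
  (Algebra.TensorProduct.congr (g.restrictScalars ℚ)
    (AlgEquiv.refl : ℚ_[(q : ℕ)] ≃ₐ[ℚ] ℚ_[(q : ℕ)])).toRingEquiv

@[simp] theorem galAct_tmul (q : Nat.Primes) (g : L ≃ₐ[K] L) (x : L) (c : ℚ_[(q : ℕ)]) :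
    galAct K L q g (x ⊗ₜ[ℚ] c) = (g x) ⊗ₜ[ℚ] c := rfl

variable [FiniteDimensional K L]

/-- The Galois norm on `A_q(L)ˣ`: `y ↦ ∏_{g ∈ Gal(L/K)} g y`. -/
def normq (q : Nat.Primes) : (Aq L q)ˣ →* (Aq L q)ˣ :=
  ∏ g : L ≃ₐ[K] L, Units.map ((galAct K L q g : Aq L q ≃+* Aq L q) : Aq L q →* Aq L q)

theorem normq_apply (q : Nat.Primes) (y : (Aq L q)ˣ) :
    normq K L q y =
      ∏ g : L ≃ₐ[K] L, Units.map ((galAct K L q g : Aq L q ≃+* Aq L q) : Aq L q →* Aq L q) y :=
  MonoidHom.finsetProd_apply _ _ _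

/-- `x ∈ A_q(K)ˣ` is a norm from `A_q(L)ˣ`. -/
def IsNormq (q : Nat.Primes) (x : (Aq K q)ˣ) : Prop :=
  ∃ y : (Aq L q)ˣ, normq K L q y = Units.map (baseCh K L q : Aq K q →* Aq L q) x

/-- The group of families that are norms at every `q`. -/
def normGroup : Subgroup (Jall K) where
  carrier := {x | ∀ q, IsNormq K L q (x q)}
  mul_mem' := by
    intro a b ha hb q
    obtain ⟨y, hy⟩ := ha q
    obtain ⟨z, hz⟩ := hb q
    exact ⟨y * z, by rw [map_mul, hy, hz, Pi.mul_apply, map_mul]⟩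
  one_mem' := fun q => ⟨1, by rw [map_one, Pi.one_apply, map_one]⟩
  inv_mem' := by
    intro a ha q
    obtain ⟨y, hy⟩ := ha q
    exact ⟨y⁻¹, by rw [map_inv, hy, Pi.inv_apply, map_inv]⟩

theorem mem_normGroup {x : Jall K} : x ∈ normGroup K L ↔ ∀ q, IsNormq K L q (x q) := Iff.rfl

/-- The subgroup of `J_S(K)` generated by the norms from `J_S(L)` and the `S`-units. -/
def normRes (S : Finset Nat.Primes) : Subgroup (Jall K) :=
  (Jsupp K S ⊓ normGroup K L) ⊔ (sUnits K S).map (locS K S)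

/-- **Second inequality, raw form**: for cofinally many finite `S`, the index of
`K_S · N J_S(L)` in `J_S(K)` divides `p`. -/
def SIraw (p : ℕ) : Prop :=
  ∀ S₀ : Finset Nat.Primes, ∃ S : Finset Nat.Primes, S₀ ⊆ S ∧
    (normRes K L S).relIndex (Jsupp K S) ∣ p

/-- **Input from the first inequality, raw form**: for all sufficiently large finite `S`,
`K_S · N J_S(L) ≠ J_S(K)`. -/
def FIraw : Prop :=
  ∃ S₁ : Finset Nat.Primes, ∀ S : Finset Nat.Primes, S₁ ⊆ S → ¬ (Jsupp K S ≤ normRes K L S)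

end Relative

end Fermat.Agent.CFT.Global.L7
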