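/-
CFT program, layer Global, L7 (second inequality): the Plan (helper59).

Only `def … : Prop`.  Each prop is a leaf of the Kummer-theory proof of the second inequality
(Cassels–Fröhlich VII.9) in the raw semilocal vocabulary of `L7Defs.lean`.  Providers prove
`theorem x … : Plan.X …`; the spine (`L7*.lean`, helper59) proves
`SIraw K L p` from these props.

Conventions: `p` is the (odd) prime of the extension, `K` the base field (`ζ ∈ K` a primitive
`p`-th root of unity), a *place outside `S`* is a pair `(q, e)` with `e` a primitive idempotent of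
`A_q(K)`; `part e he x = e x + (1 - e)` is the `e`-component of a unit.
-/
import Mathlib
import Fermat.Agent.CFT.Global.L7Defs

set_option autoImplicit false

noncomputable section

namespace Fermat.Agent.CFT.Global.L7

open TensorProduct NumberField IsDedekindDomain

namespace Plan

/-- The number of primes of `𝓞 K` above the rational primes in `S`. -/
def nAbove (K : Type) [Field K] [NumberField K] (S : Finset Nat.Primes) : ℕ :=
  Nat.card {w : HeightOneSpectrum (𝓞 K) // ∃ q ∈ S, ((q : ℕ) : 𝓞 K) ∈ w.asIdeal}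

/-- The exponent `s = r₂ + #{primes above S}` (for a totally complex field). -/
def sExp (K : Type) [Field K] [NumberField K] (S : Finset Nat.Primes) : ℕ :=
  Fintype.card (InfinitePlace K) + nAbove K S

/-- **[L7.1] `S`-unit count**: `[K_S : K_S^p] = p^s` when `μ_p ⊆ K`. -/
def SUnitCount (p : ℕ) (K : Type) [Field K] [NumberField K] : Prop :=
  ∀ ζ : K, IsPrimitiveRoot ζ p → ∀ S : Finset Nat.Primes,
    (powMonoidHom p : ↥(sUnits K S) →* ↥(sUnits K S)).range.index = p ^ sExp K S

/-- **[L7.2] local index**: `[J_S(K) : J_S(K)^p] = p^(2s)` when `μ_p ⊆ K`, `p` odd, `p ∈ S`. -/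
def LocalIndex (p : ℕ) (K : Type) [Field K] [NumberField K] : Prop :=
  ∀ ζ : K, IsPrimitiveRoot ζ p → p ≠ 2 → ∀ S : Finset Nat.Primes,
    (∀ hp : p.Prime, (⟨p, hp⟩ : Nat.Primes) ∈ S) →
    (powMonoidHom p : ↥(Jsupp K S) →* ↥(Jsupp K S)).range.index = p ^ (2 * sExp K S)

/-- **[L7.3a] character of a place**: for `q ≠ p` and a primitive idempotent `e` of `A_q(K)`,
`U_e / U_e^p` embeds into `ℤ/p`: there is a character of `U_q(K)` whose kernel is the set of
units that are `p`-th powers on the `e`-part. -/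
def PlaceChar (p : ℕ) (K : Type) [Field K] [NumberField K] : Prop :=
  ∀ ζ : K, IsPrimitiveRoot ζ p → ∀ q : Nat.Primes, (q : ℕ) ≠ p → ∀ e : Aq K q, IsPrimIdem e →
    ∀ he : IsIdempotentElem e, ∃ ψ : ↥(Uq K q) →* Multiplicative (ZMod p),
      ∀ u : ↥(Uq K q), ψ u = 1 ↔ ∃ y : (Aq K q)ˣ, part e he (u : (Aq K q)ˣ) = y ^ p

/-- **[L7.3b] valuation of a place**: for a primitive idempotent `e` of `A_q(K)` there is a
surjective `ord : A_q(K)ˣ → ℤ` whose kernel is the set of elements that are units on the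
`e`-part. -/
def PlaceOrd (K : Type) [Field K] [NumberField K] : Prop :=
  ∀ q : Nat.Primes, ∀ e : Aq K q, IsPrimIdem e → ∀ he : IsIdempotentElem e,
    ∃ ord : (Aq K q)ˣ →* Multiplicative ℤ,
      (∀ x, ord x = 1 ↔ part e he x ∈ Uq K q) ∧ ∃ x, ord x = Multiplicative.ofAdd 1

/-- **[L7.3c] decomposition into places**: an element of `A_q(K)ˣ` which is an `n`-th power on
every primitive part is an `n`-th power. -/
def PrimDecomp (K : Type) [Field K] [NumberField K] : Prop :=
  ∀ q : Nat.Primes, ∀ x : (Aq K q)ˣ, ∀ n : ℕ,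
    (∀ e : Aq K q, IsPrimIdem e → ∀ he : IsIdempotentElem e,
      ∃ y : (Aq K q)ˣ, part e he x = y ^ n) → ∃ y : (Aq K q)ˣ, x = y ^ n

/-- **[L7.4] split part**: `L = K(α)`, `α^p = a`.  If `a` is a `p`-th power on the `e`-part of
`A_q(K)` (`e` any idempotent, `q` any prime), every unit supported on the `e`-part is a norm. -/
def SplitNorm (p : ℕ) (K L : Type) [Field K] [NumberField K] [Field L] [NumberField L]
    [Algebra K L] [FiniteDimensional K L] : Prop :=
  ∀ ζ : K, IsPrimitiveRoot ζ p → Nat.card (L ≃ₐ[K] L) = p → ∀ (a : Kˣ) (α : L),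
    α ^ p = algebraMap K L a → IntermediateField.adjoin K {α} = ⊤ →
    ∀ q : Nat.Primes, ∀ e : Aq K q, ∀ he : IsIdempotentElem e,
      (∃ y : (Aq K q)ˣ, part e he (loc K q a) = y ^ p) →
      ∀ x : (Aq K q)ˣ, IsNormq K L q (part e he x)

/-- **[L7.5] unramified part**: `L = K(α)`, `α^p = a`, `q ≠ p`.  If `a` is a unit on the `e`-part
of `A_q(K)`, every unit of the maximal order supported on the `e`-part is a norm. -/
def UnramNorm (p : ℕ) (K L : Type) [Field K] [NumberField K] [Field L] [NumberField L]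
    [Algebra K L] [FiniteDimensional K L] : Prop :=
  ∀ ζ : K, IsPrimitiveRoot ζ p → Nat.card (L ≃ₐ[K] L) = p → ∀ (a : Kˣ) (α : L),
    α ^ p = algebraMap K L a → IntermediateField.adjoin K {α} = ⊤ →
    ∀ q : Nat.Primes, (q : ℕ) ≠ p → ∀ e : Aq K q, ∀ he : IsIdempotentElem e,
      part e he (loc K q a) ∈ Uq K q →
      ∀ u : (Aq K q)ˣ, u ∈ Uq K q → IsNormq K L q (part e he u)

/-- **[L7.6] weak approximation, `S`-unit form**: for a finite set `Σ` of primes there is a finite
`S₂ ⊇ Σ` such that every element of `J_Σ(F)` is, modulo `p`-th powers, the image of an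
`S₂`-unit. -/
def WeakApprox (p : ℕ) (F : Type) [Field F] [NumberField F] : Prop :=
  ∀ T : Finset Nat.Primes, ∃ S₂ : Finset Nat.Primes, T ⊆ S₂ ∧
    ∀ y ∈ Jsupp F T, ∃ b ∈ sUnits F S₂, ∃ z ∈ Jsupp F T, y = locS F T b * z ^ p

/-- **[L7.7] class group**: for all sufficiently large `S` and `q ∉ S`, every element of
`A_q(K)ˣ` is an `(S ∪ {q})`-unit times a unit of the maximal order. -/
def ClassGroupS (K : Type) [Field K] [NumberField K] : Prop :=
  ∃ S₀ : Finset Nat.Primes, ∀ S : Finset Nat.Primes, S₀ ⊆ S → ∀ q : Nat.Primes, q ∉ S →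
    ∀ x : (Aq K q)ˣ, ∃ b ∈ sUnits K (insert q S), ∃ u ∈ Uq K q, x = loc K q b * u

/-- **[L7.0] Kummer fields exist as number fields**: for `a ∈ Kˣ` not a `p`-th power there is a
number field `L = K(α)`, `α^p = a`, Galois over `K` with group of order `p`. -/
def KummerField (p : ℕ) (K : Type) [Field K] [NumberField K] : Prop :=
  ∀ ζ : K, IsPrimitiveRoot ζ p → ∀ a : Kˣ, (∀ c : Kˣ, c ^ p ≠ a) →
    ∃ (L : Type) (_ : Field L) (_ : NumberField L) (_ : Algebra K L)
      (_ : FiniteDimensional K L) (_ : IsGalois K L),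
      Nat.card (L ≃ₐ[K] L) = p ∧
        ∃ α : L, α ^ p = algebraMap K L a ∧ IntermediateField.adjoin K {α} = ⊤

/-- **[L7.K] Kummer saturation**: `L = K(α)`, `α^p = a` of degree `p`; an element of `Kˣ` that
is a `p`-th power in `L` lies in `⟨a⟩ · Kˣᵖ`. -/
def KummerSat (p : ℕ) (K L : Type) [Field K] [NumberField K] [Field L] [NumberField L]
    [Algebra K L] [FiniteDimensional K L] : Prop :=
  ∀ ζ : K, IsPrimitiveRoot ζ p → Nat.card (L ≃ₐ[K] L) = p → ∀ (a : Kˣ) (α : L),
    α ^ p = algebraMap K L a → IntermediateField.adjoin K {α} = ⊤ →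
    ∀ x : Kˣ, (∃ β : L, β ^ p = algebraMap K L x) → ∃ (m : ℕ) (c : Kˣ), x = a ^ m * c ^ p

/-- **[FI] the input from L6** (first inequality): for every cyclic extension `N/F` of degree
`p` of number fields with `μ_p ⊆ F`, `F_S · N J_S(N) ≠ J_S(F)` for all large `S`. -/
def FirstIneq (p : ℕ) : Prop :=
  ∀ (F N : Type) [Field F] [NumberField F] [Field N] [NumberField N] [Algebra F N]
    [FiniteDimensional F N] [IsGalois F N],
    (∃ ζ : F, IsPrimitiveRoot ζ p) → Nat.card (N ≃ₐ[F] N) = p → FIraw F N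

/-- **[SI] the output of L7** (second inequality): for every cyclic extension `L/K` of degree
`p` of number fields with `μ_p ⊆ K`, `[J_S(K) : K_S · N J_S(L)]` divides `p` for cofinally many
`S`. -/
def SecondIneq (p : ℕ) : Prop :=
  ∀ (K L : Type) [Field K] [NumberField K] [Field L] [NumberField L] [Algebra K L]
    [FiniteDimensional K L] [IsGalois K L],
    (∃ ζ : K, IsPrimitiveRoot ζ p) → Nat.card (L ≃ₐ[K] L) = p → SIraw K L p

/-- **[L7.3d] primitive idempotents sum to one**: `A_q(K)` is a finite product of fields, i.e.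
there is a finite set of primitive idempotents with sum `1`. -/
def PrimSum (K : Type) [Field K] [NumberField K] : Prop :=
  ∀ q : Nat.Primes, ∃ s : Finset (Aq K q), (∀ e ∈ s, IsPrimIdem e) ∧ ∑ e ∈ s, e = 1

/-- **[L7.8] Frobenius substitute**: `a, x` are `S`-units (`p ∈ S`, `μ_p ⊆ K`) and
`x ∉ ⟨a⟩ · Kˣᵖ`.  Then outside any finite set of primes there is a place `(q, e)` at which `a` is
a `p`-th power and `x` is not. -/
def Frob (p : ℕ) (K : Type) [Field K] [NumberField K] : Prop :=
  ∀ ζ : K, IsPrimitiveRoot ζ p → ∀ S : Finset Nat.Primes,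
    (∀ hp : p.Prime, (⟨p, hp⟩ : Nat.Primes) ∈ S) →
    ∀ a ∈ sUnits K S, ∀ x ∈ sUnits K S, (∀ (m : ℕ) (c : Kˣ), x ≠ a ^ m * c ^ p) →
    ∀ T : Finset Nat.Primes, ∃ q : Nat.Primes, q ∉ T ∧ q ∉ S ∧ ∃ e : Aq K q, IsPrimIdem e ∧
      ∃ he : IsIdempotentElem e, (∃ y : (Aq K q)ˣ, part e he (loc K q a) = y ^ p) ∧
        ¬ ∃ y : (Aq K q)ˣ, part e he (loc K q x) = y ^ p

end Plan

end Fermat.Agent.CFT.Global.L7
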