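import Mathlib
import Fermat.Agent.CFT.Global.QBridge

/-!
# The maximal order of `L ⊗[ℚ] ℚ_[q]`

`maxOrder q L` is the subring of `L ⊗[ℚ] ℚ_[q]` generated by the tensors `y ⊗ c`, `y ∈ 𝓞 L`,
`c ∈ ℤ_[q]`.  We show that it is exactly the set of elements integral over `ℤ_[q]` (B2), and that
every unit of `L ⊗[ℚ] ℚ_[q]` is the product of `x ⊗ 1`, `x ∈ Lˣ`, and a unit of the maximal
order (B3a).
-/

set_option autoImplicit false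

noncomputable section

namespace Fermat.Agent.CFT.Global.QBridge

open Polynomial TensorProduct IsDedekindDomain NumberField

variable (q : ℕ) [Fact q.Prime] (L : Type*) [Field L] [NumberField L]

/-- The generators `y ⊗ c`, `y ∈ 𝓞 L`, `c ∈ ℤ_[q]`. -/
def orderGens : Submonoid (L ⊗[ℚ] ℚ_[q]) where
  carrier := {a | ∃ (y : 𝓞 L) (c : ℤ_[q]), a = (y : L) ⊗ₜ[ℚ] (c : ℚ_[q])}
  one_mem' := ⟨1, 1, by simp [Algebra.TensorProduct.one_def]⟩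
  mul_mem' := by
    rintro _ _ ⟨y, c, rfl⟩ ⟨y', c', rfl⟩
    exact ⟨y * y', c * c', by simp [Algebra.TensorProduct.tmul_mul_tmul]⟩

/-- The maximal order of `L ⊗[ℚ] ℚ_[q]`: the subring generated by `𝓞 L ⊗ ℤ_[q]`. -/
def maxOrder : Subring (L ⊗[ℚ] ℚ_[q]) := Subring.closure (orderGens q L : Set (L ⊗[ℚ] ℚ_[q]))

variable {q L}

theorem tmul_mem_maxOrder (y : 𝓞 L) (c : ℤ_[q]) :
    (y : L) ⊗ₜ[ℚ] (c : ℚ_[q]) ∈ maxOrder q L :=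
  Subring.subset_closure ⟨y, c, rfl⟩

theorem qInt_mem_maxOrder (c : ℤ_[q]) : qInt q L c ∈ maxOrder q L := by
  have := tmul_mem_maxOrder (q := q) (L := L) 1 c
  simpa [qInt_apply] using this

theorem mem_maxOrder_iff_addClosure (a : L ⊗[ℚ] ℚ_[q]) :
    a ∈ maxOrder q L ↔ a ∈ AddSubgroup.closure (orderGens q L : Set (L ⊗[ℚ] ℚ_[q])) := by
  rw [maxOrder, Subring.mem_closure_iff, Submonoid.closure_eq]

/-- `y ⊗ 1` is integral over `ℤ_[q]` for `y ∈ 𝓞 L`. -/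
theorem isIntegralElem_coe_tmul_one (y : 𝓞 L) :
    (qInt q L).IsIntegralElem ((y : L) ⊗ₜ[ℚ] (1 : ℚ_[q])) := by
  obtain ⟨g, hgm, hg⟩ := RingOfIntegers.isIntegral_coe y
  refine ⟨g.map (Int.castRingHom ℤ_[q]), hgm.map _, ?_⟩
  rw [eval₂_map]
  have h1 : (qInt q L).comp (Int.castRingHom ℤ_[q]) =
      (Algebra.TensorProduct.includeLeft : L →ₐ[ℚ] L ⊗[ℚ] ℚ_[q]).toRingHom.comp
        (algebraMap ℤ L) := RingHom.ext_int _ _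
  rw [h1]
  have h2 : ((y : L) ⊗ₜ[ℚ] (1 : ℚ_[q])) =
      (Algebra.TensorProduct.includeLeft : L →ₐ[ℚ] L ⊗[ℚ] ℚ_[q]).toRingHom (y : L) := rfl
  rw [h2, ← hom_eval₂]
  have h3 : eval₂ (algebraMap ℤ L) (y : L) g = 0 := hg
  rw [h3, map_zero]

/-- Step 1: every element of the maximal order is integral over `ℤ_[q]`. -/
theorem isIntegralElem_of_mem_maxOrder {a : L ⊗[ℚ] ℚ_[q]} (ha : a ∈ maxOrder q L) :
    (qInt q L).IsIntegralElem a := by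
  induction ha using Subring.closure_induction with
  | mem x hx =>
    obtain ⟨y, c, rfl⟩ := hx
    have h1 : (y : L) ⊗ₜ[ℚ] (c : ℚ_[q]) = ((y : L) ⊗ₜ[ℚ] (1 : ℚ_[q])) * qInt q L c := by
      rw [qInt_apply, Algebra.TensorProduct.tmul_mul_tmul, mul_one, one_mul]
    rw [h1]
    exact RingHom.IsIntegralElem.mul _ (isIntegralElem_coe_tmul_one y)
      (RingHom.isIntegralElem_map _)
  | zero => exact RingHom.isIntegralElem_zero _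
  | one => exact RingHom.isIntegralElem_one _
  | add x y _ _ hx hy => exact RingHom.IsIntegralElem.add _ hx hy
  | neg x _ hx => exact RingHom.IsIntegralElem.neg _ hx
  | mul x y _ _ hx hy => exact RingHom.IsIntegralElem.mul _ hx hy

/-! ### Natural numbers in the tensor product -/

theorem natCast_eq_one_tmul (n : ℕ) :
    (n : L ⊗[ℚ] ℚ_[q]) = (1 : L) ⊗ₜ[ℚ] (n : ℚ_[q]) := by
  rw [← Algebra.TensorProduct.includeRight_apply, map_natCast]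

theorem natCast_eq_tmul_one (n : ℕ) :
    (n : L ⊗[ℚ] ℚ_[q]) = (n : L) ⊗ₜ[ℚ] (1 : ℚ_[q]) := by
  rw [← Algebra.TensorProduct.includeLeft_apply (S := ℚ), map_natCast]

theorem natCast_pow_mul_tmul (n N : ℕ) (y : L) (c : ℚ_[q]) :
    (n : L ⊗[ℚ] ℚ_[q]) ^ N * (y ⊗ₜ[ℚ] c) = y ⊗ₜ[ℚ] ((n : ℚ_[q]) ^ N * c) := by
  rw [natCast_eq_one_tmul, Algebra.TensorProduct.tmul_pow, one_pow,
    Algebra.TensorProduct.tmul_mul_tmul, one_mul]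

theorem isUnit_natCast_pow (N : ℕ) : IsUnit ((q : L ⊗[ℚ] ℚ_[q]) ^ N) := by
  have hq0 : (q : L) ≠ 0 := by exact_mod_cast (Fact.out : q.Prime).ne_zero
  have h1 : IsUnit ((q : L) ^ N) := (isUnit_iff_ne_zero.mpr hq0).pow N
  have h2 := h1.map (Algebra.TensorProduct.includeLeft : L →ₐ[ℚ] L ⊗[ℚ] ℚ_[q])
  rwa [map_pow, map_natCast] at h2

/-! ### Step 2: denominators -/

theorem exists_padic_pow_mul_norm_le_one (c : ℚ_[q]) : ∃ N : ℕ, ‖(q : ℚ_[q]) ^ N * c‖ ≤ 1 := by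
  have hq1 : (1 : ℝ) < q := by exact_mod_cast (Fact.out : q.Prime).one_lt
  obtain ⟨N, hN⟩ := pow_unbounded_of_one_lt ‖c‖ hq1
  refine ⟨N, ?_⟩
  have hpos : (0 : ℝ) < (q : ℝ) ^ N := by positivity
  rw [norm_mul, Padic.norm_p_pow, zpow_neg, zpow_natCast, inv_mul_le_iff₀ hpos, mul_one]
  exact hN.le

/-- Step 2: every element of `L ⊗[ℚ] ℚ_[q]` has a `q`-power multiple in the maximal order. -/
theorem exists_pow_mul_mem_maxOrder (a : L ⊗[ℚ] ℚ_[q]) :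
    ∃ N : ℕ, (q : L ⊗[ℚ] ℚ_[q]) ^ N * a ∈ maxOrder q L := by
  induction a using TensorProduct.induction_on with
  | zero => exact ⟨0, by simp [zero_mem]⟩
  | tmul x c =>
    obtain ⟨n, hn0, hn⟩ := exists_integral_multiples ℤ ℚ ({x} : Finset L)
    have hnx : IsIntegral ℤ (n • x) := hn x (Finset.mem_singleton_self x)
    have hnq : (n : ℚ) ≠ 0 := by exact_mod_cast hn0
    obtain ⟨N, hN⟩ := exists_padic_pow_mul_norm_le_one (q := q) ((n : ℚ)⁻¹ • c)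
    refine ⟨N, ?_⟩
    have h1 : x ⊗ₜ[ℚ] c = (n • x) ⊗ₜ[ℚ] ((n : ℚ)⁻¹ • c) := by
      have h2 : n • x = (n : ℚ) • x := by
        rw [zsmul_eq_mul, Algebra.smul_def]
        simp
      rw [h2, TensorProduct.smul_tmul, smul_smul, mul_inv_cancel₀ hnq, one_smul]
    rw [h1, natCast_pow_mul_tmul]
    exact tmul_mem_maxOrder (⟨n • x, hnx⟩ : 𝓞 L) (⟨_, hN⟩ : ℤ_[q])
  | add a b ha hb =>
    obtain ⟨N, hN⟩ := ha
    obtain ⟨N', hN'⟩ := hb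
    refine ⟨N + N', ?_⟩
    have hq : ∀ k : ℕ, (q : L ⊗[ℚ] ℚ_[q]) ^ k ∈ maxOrder q L :=
      fun k => pow_mem (natCast_mem _ q) k
    have h1 : (q : L ⊗[ℚ] ℚ_[q]) ^ (N + N') * (a + b) =
        (q : L ⊗[ℚ] ℚ_[q]) ^ N' * ((q : L ⊗[ℚ] ℚ_[q]) ^ N * a) +
          (q : L ⊗[ℚ] ℚ_[q]) ^ N * ((q : L ⊗[ℚ] ℚ_[q]) ^ N' * b) := by
      ring
    rw [h1]
    exact add_mem (mul_mem (hq N') hN) (mul_mem (hq N) hN')

/-! ### Step 3: approximation by elements of `𝓞 L` -/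

/-- Step 3: modulo `q ^ M`, every element of the maximal order is of the form `y ⊗ 1`,
`y ∈ 𝓞 L`. -/
theorem exists_approx {b : L ⊗[ℚ] ℚ_[q]} (hb : b ∈ maxOrder q L) (M : ℕ) :
    ∃ (y : 𝓞 L) (b' : L ⊗[ℚ] ℚ_[q]), b' ∈ maxOrder q L ∧
      b = (y : L) ⊗ₜ[ℚ] (1 : ℚ_[q]) + (q : L ⊗[ℚ] ℚ_[q]) ^ M * b' := by
  rw [mem_maxOrder_iff_addClosure] at hb
  induction hb using AddSubgroup.closure_induction with
  | mem x hx =>
    obtain ⟨y, c, rfl⟩ := hx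
    have h1 := PadicInt.appr_spec M c
    rw [Ideal.mem_span_singleton] at h1
    obtain ⟨c', hc'⟩ := h1
    refine ⟨(c.appr M : 𝓞 L) * y, (y : L) ⊗ₜ[ℚ] (c' : ℚ_[q]), tmul_mem_maxOrder y c', ?_⟩
    have h2 : (c : ℚ_[q]) = ((c.appr M : ℕ) : ℚ_[q]) + (q : ℚ_[q]) ^ M * (c' : ℚ_[q]) := by
      have h3 := congrArg (fun z : ℤ_[q] => (z : ℚ_[q])) hc'
      simp only [PadicInt.coe_sub, PadicInt.coe_natCast, PadicInt.coe_mul, PadicInt.coe_pow]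
        at h3
      linear_combination h3
    have h4 : ((((c.appr M : ℕ) : 𝓞 L) * y : 𝓞 L) : L) ⊗ₜ[ℚ] (1 : ℚ_[q]) =
        (y : L) ⊗ₜ[ℚ] ((c.appr M : ℕ) : ℚ_[q]) := by
      have h5 : ((((c.appr M : ℕ) : 𝓞 L) * y : 𝓞 L) : L) = ((c.appr M : ℕ) : ℚ) • (y : L) := by
        rw [Algebra.smul_def]
        simp
      have h6 : ((c.appr M : ℕ) : ℚ_[q]) = ((c.appr M : ℕ) : ℚ) • (1 : ℚ_[q]) := by
        rw [Algebra.smul_def]
        simp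
      rw [h5, h6, TensorProduct.smul_tmul]
    rw [natCast_pow_mul_tmul, h4, ← TensorProduct.tmul_add, ← h2]
  | zero => exact ⟨0, 0, zero_mem _, by simp⟩
  | add x y _ _ hx hy =>
    obtain ⟨y₁, b₁, hb₁, rfl⟩ := hx
    obtain ⟨y₂, b₂, hb₂, rfl⟩ := hy
    refine ⟨y₁ + y₂, b₁ + b₂, add_mem hb₁ hb₂, ?_⟩
    simp only [map_add, TensorProduct.add_tmul]
    ring
  | neg x _ hx =>
    obtain ⟨y₁, b₁, hb₁, rfl⟩ := hx
    refine ⟨-y₁, -b₁, neg_mem hb₁, ?_⟩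
    simp only [map_neg, TensorProduct.neg_tmul]
    ring

/-! ### Step 5: `1 + q b` is a unit of the maximal order -/

theorem eval₂_qInt_mem_maxOrder {u : L ⊗[ℚ] ℚ_[q]} (hu : u ∈ maxOrder q L) (G : ℤ_[q][X]) :
    eval₂ (qInt q L) u G ∈ maxOrder q L := by
  rw [eval₂_eq_sum_range]
  exact sum_mem fun i _ => mul_mem (qInt_mem_maxOrder _) (pow_mem hu i)

/-- The value at `-1` of `scaleRoots f q`, `f` monic, is a unit of `ℤ_[q]`. -/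
theorem isUnit_eval_neg_one_scaleRoots {f : ℤ_[q][X]} (hf : f.Monic) :
    IsUnit (eval (-1) (scaleRoots f (q : ℤ_[q]))) := by
  by_contra hnu
  have h1 : (q : ℤ_[q]) ∣ eval (-1) (scaleRoots f (q : ℤ_[q])) := by
    rw [← PadicInt.norm_lt_one_iff_dvd, ← PadicInt.mem_nonunits]
    exact hnu
  have hmon : (scaleRoots f (q : ℤ_[q])).Monic := (monic_scaleRoots_iff _).mpr hf
  rw [eval_eq_sum_range, natDegree_scaleRoots, Finset.sum_range_succ] at h1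
  have h2 : (q : ℤ_[q]) ∣ ∑ i ∈ Finset.range f.natDegree,
      (scaleRoots f (q : ℤ_[q])).coeff i * (-1) ^ i := by
    refine Finset.dvd_sum fun i hi => ?_
    rw [coeff_scaleRoots]
    have hi' : i < f.natDegree := Finset.mem_range.mp hi
    exact Dvd.dvd.mul_right (Dvd.dvd.mul_left (dvd_pow_self _ (by omega)) _) _
  have h3 : (q : ℤ_[q]) ∣ (scaleRoots f (q : ℤ_[q])).coeff f.natDegree * (-1) ^ f.natDegree :=
    (dvd_add_right h2).mp h1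
  have h4 : (scaleRoots f (q : ℤ_[q])).coeff f.natDegree = 1 := by
    rw [← natDegree_scaleRoots f (q : ℤ_[q])]
    exact hmon.coeff_natDegree
  rw [h4, one_mul] at h3
  have h5 : (q : ℤ_[q]) ∣ 1 := by
    have h6 : ((-1 : ℤ_[q]) ^ f.natDegree) * ((-1) ^ f.natDegree) = 1 := by
      rw [← mul_pow]
      simp
    rw [← h6]
    exact Dvd.dvd.mul_right h3 _
  exact PadicInt.p_nonunit (isUnit_of_dvd_one h5)

/-- Step 5: for `b` in the maximal order, `1 + q b` is invertible in the maximal order. -/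
theorem exists_inv_one_add_mul {b : L ⊗[ℚ] ℚ_[q]} (hb : b ∈ maxOrder q L) :
    ∃ u' ∈ maxOrder q L, (1 + (q : L ⊗[ℚ] ℚ_[q]) * b) * u' = 1 := by
  obtain ⟨f, hf, hfb⟩ := isIntegralElem_of_mem_maxOrder hb
  have hιq : qInt q L (q : ℤ_[q]) = (q : L ⊗[ℚ] ℚ_[q]) := map_natCast _ q
  have hs : eval₂ (qInt q L) ((q : L ⊗[ℚ] ℚ_[q]) * b) (scaleRoots f (q : ℤ_[q])) = 0 := by
    rw [← hιq]
    exact scaleRoots_eval₂_eq_zero _ hfb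
  set u : L ⊗[ℚ] ℚ_[q] := 1 + (q : L ⊗[ℚ] ℚ_[q]) * b with hu
  have hu_mem : u ∈ maxOrder q L := add_mem (one_mem _) (mul_mem (natCast_mem _ q) hb)
  set F : ℤ_[q][X] := (scaleRoots f (q : ℤ_[q])).comp (X - C 1) with hF
  have hFu : eval₂ (qInt q L) u F = 0 := by
    rw [hF, eval₂_comp, eval₂_sub, eval₂_X, eval₂_C, map_one, hu, add_sub_cancel_left]
    exact hs
  have hcoeff : F.coeff 0 = eval (-1) (scaleRoots f (q : ℤ_[q])) := by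
    rw [coeff_zero_eq_eval_zero, hF, eval_comp]
    simp
  obtain ⟨c₀, hc₀⟩ := isUnit_eval_neg_one_scaleRoots (q := q) hf
  have h0 : eval₂ (qInt q L) u (divX F) * u + qInt q L (F.coeff 0) = 0 := by
    have h1 := congrArg (eval₂ (qInt q L) u) (divX_mul_X_add F)
    rw [eval₂_add, eval₂_mul, eval₂_X, eval₂_C, hFu] at h1
    exact h1
  refine ⟨-(eval₂ (qInt q L) u (divX F)) * qInt q L ((c₀⁻¹ : ℤ_[q]ˣ) : ℤ_[q]),
    mul_mem (neg_mem (eval₂_qInt_mem_maxOrder hu_mem _)) (qInt_mem_maxOrder _), ?_⟩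
  have h2 : eval₂ (qInt q L) u (divX F) * u = -qInt q L (F.coeff 0) :=
    eq_neg_of_add_eq_zero_left h0
  calc u * (-(eval₂ (qInt q L) u (divX F)) * qInt q L ((c₀⁻¹ : ℤ_[q]ˣ) : ℤ_[q]))
      = -(eval₂ (qInt q L) u (divX F) * u) * qInt q L ((c₀⁻¹ : ℤ_[q]ˣ) : ℤ_[q]) := by ring
    _ = qInt q L (F.coeff 0) * qInt q L ((c₀⁻¹ : ℤ_[q]ˣ) : ℤ_[q]) := by rw [h2, neg_neg]
    _ = 1 := by
      rw [← map_mul, hcoeff, ← hc₀, Units.mul_inv, map_one]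

/-! ### (B2): the maximal order is the integral closure of `ℤ_[q]` -/

/-- `x ⊗ 1` lies in the maximal order if `x` is integral at all primes above `q`. -/
theorem tmul_one_mem_maxOrder_of_valuation_le_one (x : L)
    (h : ∀ w : HeightOneSpectrum (𝓞 L), (q : 𝓞 L) ∈ w.asIdeal → w.valuation L x ≤ 1) :
    x ⊗ₜ[ℚ] (1 : ℚ_[q]) ∈ maxOrder q L := by
  obtain ⟨m₀, hm₀, y, hy⟩ := exists_nat_mul_mem_of_valuation_le_one x h
  have hnorm : ‖((m₀ : ℕ) : ℚ_[q])‖ = 1 :=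
    Padic.norm_natCast_eq_one_iff.mpr ((Nat.Prime.coprime_iff_not_dvd Fact.out).mpr hm₀)
  have hm0 : ((m₀ : ℕ) : ℚ_[q]) ≠ 0 := by
    intro h0
    rw [h0, norm_zero] at hnorm
    exact zero_ne_one hnorm
  have hmem := tmul_mem_maxOrder (q := q) y
    (⟨((m₀ : ℕ) : ℚ_[q])⁻¹, by rw [norm_inv, hnorm, inv_one]⟩ : ℤ_[q])
  have h1 : x ⊗ₜ[ℚ] (1 : ℚ_[q]) =
      (algebraMap (𝓞 L) L y) ⊗ₜ[ℚ] (((m₀ : ℕ) : ℚ_[q])⁻¹) := by
    rw [hy]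
    have h2 : ((m₀ : L) * x) = (m₀ : ℚ) • x := by
      rw [Algebra.smul_def]
      simp
    rw [h2, TensorProduct.smul_tmul]
    congr 1
    rw [Algebra.smul_def]
    simp [hm0]
  rw [h1]
  exact hmem

/-- **(B2)** The maximal order is exactly the set of elements integral over `ℤ_[q]`. -/
theorem mem_maxOrder_iff (a : L ⊗[ℚ] ℚ_[q]) :
    a ∈ maxOrder q L ↔ (qInt q L).IsIntegralElem a := by
  refine ⟨isIntegralElem_of_mem_maxOrder, fun ha => ?_⟩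
  obtain ⟨N, hN⟩ := exists_pow_mul_mem_maxOrder a
  obtain ⟨y, b', hb', hyb⟩ := exists_approx hN N
  have hq0 : (q : L) ≠ 0 := by exact_mod_cast (Fact.out : q.Prime).ne_zero
  have hx : ((y : L) / (q : L) ^ N) ⊗ₜ[ℚ] (1 : ℚ_[q]) = a - b' := by
    apply (isUnit_natCast_pow (q := q) (L := L) N).mul_left_cancel
    rw [mul_sub, hyb, add_sub_cancel_right, natCast_eq_tmul_one, Algebra.TensorProduct.tmul_pow,
      Algebra.TensorProduct.tmul_mul_tmul, one_pow, one_mul, mul_div_cancel₀ _ (pow_ne_zero N hq0)]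
  have hint : (qInt q L).IsIntegralElem (((y : L) / (q : L) ^ N) ⊗ₜ[ℚ] (1 : ℚ_[q])) := by
    rw [hx]
    exact RingHom.IsIntegralElem.sub _ ha (isIntegralElem_of_mem_maxOrder hb')
  rw [isIntegralElem_tmul_one_iff] at hint
  have h3 := tmul_one_mem_maxOrder_of_valuation_le_one _ hint
  rw [hx] at h3
  have h4 : a = (a - b') + b' := by ring
  rw [h4]
  exact add_mem h3 hb'

/-! ### (B3a): units of `L ⊗[ℚ] ℚ_[q]` -/

/-- **(B3a)** Every unit of `L ⊗[ℚ] ℚ_[q]` is `x ⊗ 1`, `x ∈ Lˣ`, times a unit of the maximal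
order. -/
theorem exists_eq_tmul_mul_unit (a : (L ⊗[ℚ] ℚ_[q])ˣ) :
    ∃ (x : Lˣ) (u : (L ⊗[ℚ] ℚ_[q])ˣ),
      (u : L ⊗[ℚ] ℚ_[q]) ∈ maxOrder q L ∧
      ((u⁻¹ : (L ⊗[ℚ] ℚ_[q])ˣ) : L ⊗[ℚ] ℚ_[q]) ∈ maxOrder q L ∧
      (a : L ⊗[ℚ] ℚ_[q]) = ((x : L) ⊗ₜ[ℚ] (1 : ℚ_[q])) * u := by
  have hq0 : (q : L) ≠ 0 := by exact_mod_cast (Fact.out : q.Prime).ne_zero
  have hqmem : ∀ k : ℕ, (q : L ⊗[ℚ] ℚ_[q]) ^ k ∈ maxOrder q L :=
    fun k => pow_mem (natCast_mem _ q) k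
  obtain ⟨N₁, hN₁⟩ := exists_pow_mul_mem_maxOrder (a : L ⊗[ℚ] ℚ_[q])
  obtain ⟨N₂, hN₂⟩ := exists_pow_mul_mem_maxOrder ((a⁻¹ : (L ⊗[ℚ] ℚ_[q])ˣ) : L ⊗[ℚ] ℚ_[q])
  set N := N₁ + N₂ with hNdef
  set Q : L ⊗[ℚ] ℚ_[q] := (q : L ⊗[ℚ] ℚ_[q]) with hQ
  have hNa : Q ^ N * (a : L ⊗[ℚ] ℚ_[q]) ∈ maxOrder q L := by
    have h1 : Q ^ N * (a : L ⊗[ℚ] ℚ_[q]) = Q ^ N₂ * (Q ^ N₁ * a) := by
      rw [hNdef, pow_add]; ring
    rw [h1]
    exact mul_mem (hqmem N₂) hN₁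
  have hNa' : Q ^ N * ((a⁻¹ : (L ⊗[ℚ] ℚ_[q])ˣ) : L ⊗[ℚ] ℚ_[q]) ∈ maxOrder q L := by
    have h1 : Q ^ N * ((a⁻¹ : (L ⊗[ℚ] ℚ_[q])ˣ) : L ⊗[ℚ] ℚ_[q]) =
        Q ^ N₁ * (Q ^ N₂ * ((a⁻¹ : (L ⊗[ℚ] ℚ_[q])ˣ) : L ⊗[ℚ] ℚ_[q])) := by
      rw [hNdef, pow_add]; ring
    rw [h1]
    exact mul_mem (hqmem N₁) hN₂
  obtain ⟨y, b', hb', hyb⟩ := exists_approx hNa (2 * N + 1)
  -- `y ⊗ 1 = q^N a (1 + q b'')`
  set b'' : L ⊗[ℚ] ℚ_[q] := -(Q ^ N * ((a⁻¹ : (L ⊗[ℚ] ℚ_[q])ˣ) : L ⊗[ℚ] ℚ_[q])) * b' with hb''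
  have hb''mem : b'' ∈ maxOrder q L := mul_mem (neg_mem hNa') hb'
  obtain ⟨u', hu'mem, hu'⟩ := exists_inv_one_add_mul hb''mem
  have hy1 : (y : L) ⊗ₜ[ℚ] (1 : ℚ_[q]) = Q ^ N * (a : L ⊗[ℚ] ℚ_[q]) * (1 + Q * b'') := by
    have h1 : (y : L) ⊗ₜ[ℚ] (1 : ℚ_[q]) = Q ^ N * (a : L ⊗[ℚ] ℚ_[q]) - Q ^ (2 * N + 1) * b' := by
      rw [hyb]; ring
    have h2 : (a : L ⊗[ℚ] ℚ_[q]) * ((a⁻¹ : (L ⊗[ℚ] ℚ_[q])ˣ) : L ⊗[ℚ] ℚ_[q]) = 1 :=
      Units.mul_inv a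
    rw [h1, hb'']
    have h3 : Q ^ N * (a : L ⊗[ℚ] ℚ_[q]) *
        (1 + Q * (-(Q ^ N * ((a⁻¹ : (L ⊗[ℚ] ℚ_[q])ˣ) : L ⊗[ℚ] ℚ_[q])) * b')) =
        Q ^ N * (a : L ⊗[ℚ] ℚ_[q]) - Q ^ (2 * N + 1) *
          ((a : L ⊗[ℚ] ℚ_[q]) * ((a⁻¹ : (L ⊗[ℚ] ℚ_[q])ˣ) : L ⊗[ℚ] ℚ_[q])) * b' := by
      ring
    rw [h3, h2, mul_one]
  -- the unit `u₁ = 1 + q b''` with inverse `u'`
  let u₁ : (L ⊗[ℚ] ℚ_[q])ˣ := ⟨1 + Q * b'', u', hu', by rw [mul_comm]; exact hu'⟩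
  have hu₁mem : (u₁ : L ⊗[ℚ] ℚ_[q]) ∈ maxOrder q L :=
    add_mem (one_mem _) (mul_mem (natCast_mem _ q) hb''mem)
  by_cases hy0 : (y : L) = 0
  · -- then the ring is trivial
    have h0 : (0 : L ⊗[ℚ] ℚ_[q]) = Q ^ N * (a : L ⊗[ℚ] ℚ_[q]) * (1 + Q * b'') := by
      rw [← hy1, hy0, TensorProduct.zero_tmul]
    have hunit : IsUnit (Q ^ N * (a : L ⊗[ℚ] ℚ_[q]) * (1 + Q * b'')) :=
      ((isUnit_natCast_pow N).mul a.isUnit).mul u₁.isUnit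
    rw [← h0] at hunit
    have hsub : Subsingleton (L ⊗[ℚ] ℚ_[q]) :=
      subsingleton_of_zero_eq_one (isUnit_zero_iff.mp hunit)
    exact ⟨1, 1, by simp [one_mem], by simp [one_mem], Subsingleton.elim _ _⟩
  · have hx0 : (y : L) / (q : L) ^ N ≠ 0 := div_ne_zero hy0 (pow_ne_zero N hq0)
    refine ⟨Units.mk0 _ hx0, u₁⁻¹, ?_, ?_, ?_⟩
    · exact hu'mem
    · rw [inv_inv]
      exact hu₁mem
    · -- `a = ((y / q^N) ⊗ 1) * u'`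
      have h5 : (a : L ⊗[ℚ] ℚ_[q]) * (u₁ : L ⊗[ℚ] ℚ_[q]) =
          ((y : L) / (q : L) ^ N) ⊗ₜ[ℚ] (1 : ℚ_[q]) := by
        apply (isUnit_natCast_pow (q := q) (L := L) N).mul_left_cancel
        rw [← mul_assoc]
        show Q ^ N * (a : L ⊗[ℚ] ℚ_[q]) * (1 + Q * b'') = _
        rw [← hy1, natCast_eq_tmul_one, Algebra.TensorProduct.tmul_pow,
          Algebra.TensorProduct.tmul_mul_tmul, one_pow, one_mul,
          mul_div_cancel₀ _ (pow_ne_zero N hq0)]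
      rw [Units.val_mk0, ← h5, mul_assoc, Units.mul_inv, mul_one]

end Fermat.Agent.CFT.Global.QBridge
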