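/-
CFT program, layer Global: the COUNT / PLACE DICTIONARY between the semilocal algebra
`A_q(K) = K ⊗[ℚ] ℚ_[q]` and the primes of `𝓞 K` above `q` (helper42).

* `primeOf π hπ`, `placeOf π hπ` : for a ring hom `π : K ⊗[ℚ] ℚ_[q] →+* E` into an algebraic
  field extension `E` of `ℚ_[q]` (compatible with `c ↦ 1 ⊗ c`), the prime of `𝓞 K` of elements
  whose image has spectral norm `< 1`; it contains `q`.
* `primIdemEquiv` : in a reduced Artinian ring, primitive idempotents (`L7.IsPrimIdem`)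
  correspond to maximal ideals via `e ↦ (1 - e)`; `idemOfMax m` is the inverse.
* `placeBelow m`, `placeEquiv` : maximal ideals of `K ⊗[ℚ] ℚ_[q]` ≃ primes of `𝓞 K` above `q`.
* `isIntegralElem_iff_forall_sn_le_one` : integrality over `ℤ_[q]` is componentwise.
* `card_maximalSpectrum` (CD1), `card_primIdem_tensor` (CD1'), `finsum_finrank_quotient` (CD2),
  and in the `L7Defs` vocabulary `card_maximalSpectrum_Aq`, `card_primIdem_Aq`,
  `finsum_finrank_quotient_Aq`, `sum_card_maximalSpectrum_Aq` (CD3, `= Plan.nAbove K S`).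
-/
import Mathlib
import Fermat.Agent.CFT.Global.L7Plan
import Fermat.Agent.CFT.Global.QBridgeOrder
import Fermat.Agent.CFT.Glob.GaloisTensor
import Fermat.Agent.CFT.Local.FiniteExtInt

set_option autoImplicit false

noncomputable section

namespace Fermat.Agent.CFT.Global.CountDict

open TensorProduct NumberField IsDedekindDomain Polynomial
open Fermat.Agent.CFT.Global.QBridge (qInt maxOrder)

/-! ### 1. The spectral norm of an algebraic extension of `ℚ_[q]` -/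

section Local

variable {q : ℕ} [Fact q.Prime] {E : Type*} [Field E] [Algebra ℚ_[q] E]
  [Algebra.IsAlgebraic ℚ_[q] E]

/-- The spectral norm of an algebraic extension of `ℚ_[q]` is multiplicative. -/
theorem sn_mul (x y : E) :
    spectralNorm ℚ_[q] E (x * y) = spectralNorm ℚ_[q] E x * spectralNorm ℚ_[q] E y := by
  have h := spectralAlgNorm_mul (K := ℚ_[q]) (L := E) x y
  simpa only [spectralAlgNorm_def] using h

/-- The spectral norm is nonarchimedean. -/
theorem sn_add_le (x y : E) :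
    spectralNorm ℚ_[q] E (x + y) ≤ max (spectralNorm ℚ_[q] E x) (spectralNorm ℚ_[q] E y) :=
  isNonarchimedean_spectralNorm x y

theorem sn_neg (x : E) : spectralNorm ℚ_[q] E (-x) = spectralNorm ℚ_[q] E x :=
  spectralNorm_neg (Algebra.IsAlgebraic.isAlgebraic x)

theorem sn_natCast_prime : spectralNorm ℚ_[q] E ((q : ℕ) : E) < 1 := by
  have h : ((q : ℕ) : E) = algebraMap ℚ_[q] E ((q : ℕ) : ℚ_[q]) := by rw [map_natCast]
  rw [h, spectralNorm_extends]
  exact Padic.norm_p_lt_one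

/-- An element of `E` is integral over `ℤ_[q]` iff its spectral norm is at most one. -/
theorem isIntegralElem_iff_sn_le_one (x : E) :
    ((algebraMap ℚ_[q] E).comp (algebraMap ℤ_[q] ℚ_[q])).IsIntegralElem x ↔
      spectralNorm ℚ_[q] E x ≤ 1 := by
  let _ : Algebra ℤ_[q] E := ((algebraMap ℚ_[q] E).comp (algebraMap ℤ_[q] ℚ_[q])).toAlgebra
  have _ : IsScalarTower ℤ_[q] ℚ_[q] E := IsScalarTower.of_algebraMap_eq (fun _ => rfl)
  have hA : ∀ c : ℚ_[q], ‖c‖ ≤ 1 ↔ c ∈ Set.range (algebraMap ℤ_[q] ℚ_[q]) := by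
    intro c
    constructor
    · intro hc
      exact ⟨⟨c, hc⟩, rfl⟩
    · rintro ⟨z, rfl⟩
      exact z.2
  exact Fermat.Agent.CFT.Local.FiniteExtInt.isIntegral_iff_spectralNorm_le_one ℤ_[q] hA x

/-- If `‖x - 1‖ < 1` then `‖x‖ = 1`. -/
theorem sn_eq_one_of_sub_one_lt {x : E} (h : spectralNorm ℚ_[q] E (x - 1) < 1) :
    spectralNorm ℚ_[q] E x = 1 := by
  apply le_antisymm
  · have h1 : x = (x - 1) + 1 := by ring
    rw [h1]
    refine (sn_add_le _ _).trans (max_le h.le ?_)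
    rw [spectralNorm_one]
  · by_contra hlt
    rw [not_le] at hlt
    have h1 : (1 : E) = x + -(x - 1) := by ring
    have h2 : spectralNorm ℚ_[q] E (1 : E) < 1 := by
      rw [h1]
      refine lt_of_le_of_lt (sn_add_le _ _) (max_lt hlt ?_)
      rw [sn_neg]
      exact h
    rw [spectralNorm_one] at h2
    exact lt_irrefl _ h2

end Local

/-! ### 2. The prime of `𝓞 K` below a field quotient of `K ⊗[ℚ] ℚ_[q]` -/

section Pi

variable {q : ℕ} [Fact q.Prime] {K : Type*} [Field K] [NumberField K]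
  {E : Type*} [Field E] [Algebra ℚ_[q] E] [Algebra.IsAlgebraic ℚ_[q] E]
  (π : K ⊗[ℚ] ℚ_[q] →+* E)

/-- The composite `𝓞 K → K → K ⊗[ℚ] ℚ_[q] → E`. -/
def iota : 𝓞 K →+* E :=
  π.comp ((Algebra.TensorProduct.includeLeft : K →ₐ[ℚ] K ⊗[ℚ] ℚ_[q]).toRingHom.comp
    (algebraMap (𝓞 K) K))

theorem iota_apply (y : 𝓞 K) : iota π y = π ((y : K) ⊗ₜ[ℚ] (1 : ℚ_[q])) := rfl

variable (hπ : ∀ c : ℚ_[q], π ((1 : K) ⊗ₜ[ℚ] c) = algebraMap ℚ_[q] E c)
include hπ

/-- The image in `E` of an element integral over `ℤ_[q]` has spectral norm `≤ 1`. -/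
theorem sn_le_one_of_isIntegralElem {a : K ⊗[ℚ] ℚ_[q]} (ha : (qInt q K).IsIntegralElem a) :
    spectralNorm ℚ_[q] E (π a) ≤ 1 := by
  rw [← isIntegralElem_iff_sn_le_one]
  have hcomp : π.comp (qInt q K) = (algebraMap ℚ_[q] E).comp (algebraMap ℤ_[q] ℚ_[q]) := by
    ext c
    simp only [RingHom.comp_apply, QBridge.qInt_apply, hπ]
    rfl
  rw [← hcomp]
  obtain ⟨p, hp, hpa⟩ := ha
  exact ⟨p, hp, by rw [← hom_eval₂, hpa, map_zero]⟩

/-- If the image in `E` of `a` has spectral norm `≤ 1`, some monic polynomial over `ℤ_[q]`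
evaluated at `a` lies in the kernel of `π`. -/
theorem exists_monic_eval₂_mem_ker {a : K ⊗[ℚ] ℚ_[q]} (ha : spectralNorm ℚ_[q] E (π a) ≤ 1) :
    ∃ p : ℤ_[q][X], p.Monic ∧ π (eval₂ (qInt q K) a p) = 0 := by
  rw [← isIntegralElem_iff_sn_le_one] at ha
  have hcomp : π.comp (qInt q K) = (algebraMap ℚ_[q] E).comp (algebraMap ℤ_[q] ℚ_[q]) := by
    ext c
    simp only [RingHom.comp_apply, QBridge.qInt_apply, hπ]
    rfl
  rw [← hcomp] at ha
  obtain ⟨p, hp, hpa⟩ := ha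
  exact ⟨p, hp, by rw [hom_eval₂, hpa]⟩

/-- `q` times an integral element has spectral norm `< 1` in `E`. -/
theorem sn_natCast_mul_lt_one {b : K ⊗[ℚ] ℚ_[q]} (hb : (qInt q K).IsIntegralElem b) :
    spectralNorm ℚ_[q] E (π (((q : ℕ) : K ⊗[ℚ] ℚ_[q]) * b)) < 1 := by
  rw [map_mul, map_natCast, sn_mul]
  calc spectralNorm ℚ_[q] E ((q : ℕ) : E) * spectralNorm ℚ_[q] E (π b)
      ≤ spectralNorm ℚ_[q] E ((q : ℕ) : E) * 1 :=
        mul_le_mul_of_nonneg_left (sn_le_one_of_isIntegralElem π hπ hb) (spectralNorm_nonneg _)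
    _ < 1 := by rw [mul_one]; exact sn_natCast_prime

theorem sn_iota_le_one (y : 𝓞 K) : spectralNorm ℚ_[q] E (iota π y) ≤ 1 :=
  sn_le_one_of_isIntegralElem π hπ (QBridge.isIntegralElem_coe_tmul_one y)

/-- The prime of `𝓞 K` below `π`: the elements whose image in `E` has spectral norm `< 1`. -/
def primeOf : Ideal (𝓞 K) where
  carrier := {y | spectralNorm ℚ_[q] E (iota π y) < 1}
  add_mem' := by
    intro a b ha hb
    show spectralNorm ℚ_[q] E (iota π (a + b)) < 1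
    rw [map_add]
    exact lt_of_le_of_lt (sn_add_le _ _) (max_lt ha hb)
  zero_mem' := by
    show spectralNorm ℚ_[q] E (iota π 0) < 1
    rw [map_zero, spectralNorm_zero]
    exact zero_lt_one
  smul_mem' := by
    intro c x hx
    show spectralNorm ℚ_[q] E (iota π (c • x)) < 1
    rw [smul_eq_mul, map_mul, sn_mul]
    calc spectralNorm ℚ_[q] E (iota π c) * spectralNorm ℚ_[q] E (iota π x)
        ≤ 1 * spectralNorm ℚ_[q] E (iota π x) :=
          mul_le_mul_of_nonneg_right (sn_iota_le_one π hπ c) (spectralNorm_nonneg _)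
      _ < 1 := by rw [one_mul]; exact hx

theorem mem_primeOf (y : 𝓞 K) :
    y ∈ primeOf π hπ ↔ spectralNorm ℚ_[q] E (π ((y : K) ⊗ₜ[ℚ] (1 : ℚ_[q]))) < 1 := Iff.rfl

theorem primeOf_isPrime : (primeOf π hπ).IsPrime := by
  rw [Ideal.isPrime_iff]
  refine ⟨?_, ?_⟩
  · rw [Ideal.ne_top_iff_one]
    intro h
    have h1 : spectralNorm ℚ_[q] E (iota π 1) < 1 := h
    rw [map_one, spectralNorm_one] at h1
    exact lt_irrefl _ h1
  · intro x y hxy
    by_contra hcon
    rw [not_or] at hcon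
    have hx : spectralNorm ℚ_[q] E (iota π x) = 1 :=
      le_antisymm (sn_iota_le_one π hπ x) (not_lt.mp hcon.1)
    have hy : spectralNorm ℚ_[q] E (iota π y) = 1 :=
      le_antisymm (sn_iota_le_one π hπ y) (not_lt.mp hcon.2)
    have h1 : spectralNorm ℚ_[q] E (iota π (x * y)) < 1 := hxy
    rw [map_mul, sn_mul, hx, hy, one_mul] at h1
    exact lt_irrefl _ h1

theorem natCast_mem_primeOf : ((q : ℕ) : 𝓞 K) ∈ primeOf π hπ := by
  show spectralNorm ℚ_[q] E (iota π ((q : ℕ) : 𝓞 K)) < 1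
  rw [map_natCast]
  exact sn_natCast_prime

theorem primeOf_ne_bot : primeOf π hπ ≠ ⊥ := by
  intro h
  have h1 := natCast_mem_primeOf π hπ
  rw [h, Ideal.mem_bot] at h1
  exact (Fact.out : q.Prime).ne_zero (by exact_mod_cast h1)

/-- The place of `K` below `π`. -/
def placeOf : HeightOneSpectrum (𝓞 K) :=
  ⟨primeOf π hπ, primeOf_isPrime π hπ, primeOf_ne_bot π hπ⟩

theorem placeOf_asIdeal : (placeOf π hπ).asIdeal = primeOf π hπ := rfl

end Pi


/-! ### 3. Reduced Artinian rings: primitive idempotents and maximal ideals -/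

section Artinian

open Fermat.Agent.CFT.Global.L7 (IsPrimIdem)

variable {R : Type*} [CommRing R]

/-- For a primitive idempotent `e`, the ideal `(1 - e)` is maximal. -/
theorem isMaximal_span_one_sub {e : R} (he : IsPrimIdem e) :
    (Ideal.span {1 - e} : Ideal R).IsMaximal := by
  obtain ⟨hid, hne, hinv⟩ := he
  have hee : e * e = e := hid
  rw [Ideal.isMaximal_iff]
  refine ⟨?_, ?_⟩
  · intro h1
    rw [Ideal.mem_span_singleton'] at h1
    obtain ⟨r, hr⟩ := h1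
    apply hne
    have h2 : e = r * (1 - e) * e := by rw [hr, one_mul]
    rw [h2]
    linear_combination (-r) * hee
  · intro J x hJ hx hxJ
    have hex : e * x ≠ 0 := by
      intro h0
      apply hx
      rw [Ideal.mem_span_singleton']
      exact ⟨x, by linear_combination (-1 : R) * h0⟩
    obtain ⟨y, hy⟩ := hinv x hex
    have h1 : (1 : R) = x * (e * y) + (1 - e) := by linear_combination (-1 : R) * hy
    rw [h1]
    exact J.add_mem (J.mul_mem_right _ hxJ) (hJ (Ideal.subset_span rfl))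

/-- The maximal ideal `(1 - e)` of a primitive idempotent `e`. -/
def maxOfPrimIdem (e : {e : R // IsPrimIdem e}) : MaximalSpectrum R :=
  ⟨Ideal.span {1 - e.1}, isMaximal_span_one_sub e.2⟩

theorem maxOfPrimIdem_asIdeal (e : {e : R // IsPrimIdem e}) :
    (maxOfPrimIdem e).asIdeal = Ideal.span {1 - e.1} := rfl

theorem maxOfPrimIdem_injective :
    Function.Injective (maxOfPrimIdem : {e : R // IsPrimIdem e} → MaximalSpectrum R) := by
  rintro ⟨e, he⟩ ⟨e', he'⟩ h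
  have h1 : Ideal.span {1 - e} = (Ideal.span {1 - e'} : Ideal R) :=
    congrArg MaximalSpectrum.asIdeal h
  have hee : e * e = e := he.1
  have hee' : e' * e' = e' := he'.1
  have h2 : (1 - e) ∈ (Ideal.span {1 - e'} : Ideal R) := by
    rw [← h1]; exact Ideal.subset_span rfl
  have h3 : (1 - e') ∈ (Ideal.span {1 - e} : Ideal R) := by
    rw [h1]; exact Ideal.subset_span rfl
  rw [Ideal.mem_span_singleton'] at h2 h3
  obtain ⟨r, hr⟩ := h2
  obtain ⟨s, hs⟩ := h3
  -- `(1 - e) e' = 0` and `(1 - e') e = 0`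
  have h4 : (1 - e) * e' = 0 := by
    rw [← hr]; linear_combination (-r) * hee'
  have h5 : (1 - e') * e = 0 := by
    rw [← hs]; linear_combination (-s) * hee
  apply Subtype.ext
  show e = e'
  linear_combination h5 - h4

variable [IsArtinianRing R] [IsReduced R]

/-- The primitive idempotent of a maximal ideal of a reduced Artinian ring. -/
def idemOfMax (m : MaximalSpectrum R) : R :=
  haveI : DecidableEq (MaximalSpectrum R) := Classical.decEq _
  (IsArtinianRing.equivPi R).symm (Pi.single m 1)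

open Classical in
theorem mk_idemOfMax (m m' : MaximalSpectrum R) :
    Ideal.Quotient.mk m'.asIdeal (idemOfMax m) = if m' = m then 1 else 0 := by
  have h := IsArtinianRing.equivPi_apply (R := R) (idemOfMax m) m'
  rw [← h, idemOfMax, AlgEquiv.apply_symm_apply]
  by_cases h1 : m' = m
  · subst h1
    rw [if_pos rfl]
    exact Pi.single_eq_same _ _
  · rw [if_neg h1]
    exact Pi.single_eq_of_ne h1 _

theorem idemOfMax_sub_one_mem (m : MaximalSpectrum R) : 1 - idemOfMax m ∈ m.asIdeal := by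
  rw [← Ideal.Quotient.eq_zero_iff_mem, map_sub, map_one, mk_idemOfMax, if_pos rfl, sub_self]

theorem idemOfMax_mem {m m' : MaximalSpectrum R} (h : m' ≠ m) : idemOfMax m ∈ m'.asIdeal := by
  rw [← Ideal.Quotient.eq_zero_iff_mem, mk_idemOfMax, if_neg h]

/-- An element of a reduced Artinian ring lying in every maximal ideal is zero. -/
theorem eq_zero_of_forall_mem {x : R} (h : ∀ m : MaximalSpectrum R, x ∈ m.asIdeal) : x = 0 := by
  apply (IsArtinianRing.equivPi R).injective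
  rw [map_zero]
  funext m
  rw [IsArtinianRing.equivPi_apply, Pi.zero_apply]
  exact Ideal.Quotient.eq_zero_iff_mem.mpr (h m)

theorem eq_of_forall_sub_mem {x y : R} (h : ∀ m : MaximalSpectrum R, x - y ∈ m.asIdeal) :
    x = y :=
  sub_eq_zero.mp (eq_zero_of_forall_mem h)

theorem isIdempotentElem_idemOfMax (m : MaximalSpectrum R) : IsIdempotentElem (idemOfMax m) := by
  apply eq_of_forall_sub_mem
  intro m'
  rw [← Ideal.Quotient.eq_zero_iff_mem, map_sub, map_mul, mk_idemOfMax]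
  split_ifs <;> simp

theorem isPrimIdem_idemOfMax (m : MaximalSpectrum R) : IsPrimIdem (idemOfMax m) := by
  refine ⟨isIdempotentElem_idemOfMax m, ?_, ?_⟩
  · intro h0
    have h1 := mk_idemOfMax m m
    rw [h0, map_zero, if_pos rfl] at h1
    have h2 : (1 : R) ∈ m.asIdeal := Ideal.Quotient.eq_zero_iff_mem.mp h1.symm
    exact m.isMaximal.ne_top ((Ideal.eq_top_iff_one _).mpr h2)
  · intro x hx
    have hxm : x ∉ m.asIdeal := by
      intro hmem
      apply hx
      apply eq_zero_of_forall_mem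
      intro m'
      by_cases h : m' = m
      · subst h; exact Ideal.mul_mem_left _ _ hmem
      · exact Ideal.mul_mem_right _ _ (idemOfMax_mem h)
    obtain ⟨y, z, hz, hy⟩ := Ideal.IsMaximal.exists_inv m.isMaximal hxm
    refine ⟨y, ?_⟩
    apply eq_of_forall_sub_mem
    intro m'
    by_cases h : m' = m
    · subst h
      have h1 : idemOfMax m' * x * y - idemOfMax m' = idemOfMax m' * (-z) := by
        linear_combination (idemOfMax m') * hy
      rw [h1]
      exact Ideal.mul_mem_left _ _ (neg_mem hz)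
    · have h1 : idemOfMax m * x * y - idemOfMax m = idemOfMax m * (x * y - 1) := by ring
      rw [h1]
      exact Ideal.mul_mem_right _ _ (idemOfMax_mem h)

theorem maxOfPrimIdem_idemOfMax (m : MaximalSpectrum R) :
    maxOfPrimIdem ⟨idemOfMax m, isPrimIdem_idemOfMax m⟩ = m := by
  apply MaximalSpectrum.ext
  have hle : (Ideal.span {1 - idemOfMax m} : Ideal R) ≤ m.asIdeal := by
    rw [Ideal.span_le, Set.singleton_subset_iff]
    exact idemOfMax_sub_one_mem m
  exact (isMaximal_span_one_sub (isPrimIdem_idemOfMax m)).eq_of_le m.isMaximal.ne_top hle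

/-- **Primitive idempotents of a reduced Artinian ring correspond to its maximal ideals**,
`e ↦ (1 - e)`. -/
def primIdemEquiv : {e : R // IsPrimIdem e} ≃ MaximalSpectrum R :=
  Equiv.ofBijective maxOfPrimIdem
    ⟨maxOfPrimIdem_injective, fun m => ⟨⟨idemOfMax m, isPrimIdem_idemOfMax m⟩,
      maxOfPrimIdem_idemOfMax m⟩⟩

theorem primIdemEquiv_asIdeal (e : {e : R // IsPrimIdem e}) :
    (primIdemEquiv e).asIdeal = Ideal.span {1 - e.1} := rfl

theorem primIdemEquiv_symm_apply (m : MaximalSpectrum R) :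
    ((primIdemEquiv.symm m : {e : R // IsPrimIdem e}) : R) = idemOfMax m := by
  have h : primIdemEquiv.symm m = ⟨idemOfMax m, isPrimIdem_idemOfMax m⟩ := by
    rw [Equiv.symm_apply_eq]
    exact (maxOfPrimIdem_idemOfMax m).symm
  rw [h]

theorem card_primIdem :
    Nat.card {e : R // IsPrimIdem e} = Nat.card (MaximalSpectrum R) :=
  Nat.card_congr primIdemEquiv

end Artinian

/-- Two algebra structures with the same structure map have the same `finrank`. -/
theorem finrank_eq_of_algebraMap_eq {F E : Type*} [Field F] [CommRing E] (i₁ i₂ : Algebra F E)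
    (h : ∀ c : F, @algebraMap F E _ _ i₁ c = @algebraMap F E _ _ i₂ c) :
    @Module.finrank F E _ _ i₁.toModule = @Module.finrank F E _ _ i₂.toModule := by
  have h1 : i₁ = i₂ := Algebra.algebra_ext _ _ h
  subst h1
  rfl

/-! ### 4. Maximal ideals of `K ⊗[ℚ] ℚ_[q]` and primes of `𝓞 K` above `q` -/

section Quot

attribute [local instance] Algebra.TensorProduct.rightAlgebra Ideal.Quotient.field

variable (q : ℕ) [Fact q.Prime] (K : Type*) [Field K] [NumberField K]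

theorem isArtinianRing : IsArtinianRing (K ⊗[ℚ] ℚ_[q]) :=
  Fermat.Agent.CFT.Glob.GaloisTensor.isArtinianRing ℚ K ℚ_[q]

theorem isReduced : IsReduced (K ⊗[ℚ] ℚ_[q]) :=
  Fermat.Agent.CFT.Glob.GaloisTensor.isReduced ℚ K ℚ_[q]

attribute [local instance] isArtinianRing isReduced

theorem finite_right : Module.Finite ℚ_[q] (K ⊗[ℚ] ℚ_[q]) :=
  Module.Finite.equiv (Algebra.TensorProduct.commRight ℚ ℚ_[q] K).toLinearEquiv

theorem finrank_right : Module.finrank ℚ_[q] (K ⊗[ℚ] ℚ_[q]) = Module.finrank ℚ K := by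
  rw [← (Algebra.TensorProduct.commRight ℚ ℚ_[q] K).toLinearEquiv.finrank_eq,
    Module.finrank_baseChange]

attribute [local instance] finite_right

theorem nontrivial_tensor : Nontrivial (K ⊗[ℚ] ℚ_[q]) := by
  have h := Module.finrank_pos_iff (R := ℚ_[q]) (M := K ⊗[ℚ] ℚ_[q])
  rw [finrank_right] at h
  exact h.mp Module.finrank_pos

attribute [local instance] nontrivial_tensor

variable {q K}

theorem quot_compat (m : MaximalSpectrum (K ⊗[ℚ] ℚ_[q])) (c : ℚ_[q]) :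
    Ideal.Quotient.mk m.asIdeal ((1 : K) ⊗ₜ[ℚ] c) =
      algebraMap ℚ_[q] ((K ⊗[ℚ] ℚ_[q]) ⧸ m.asIdeal) c := rfl

/-- The prime of `𝓞 K` below a maximal ideal of `K ⊗[ℚ] ℚ_[q]`. -/
def placeBelow (m : MaximalSpectrum (K ⊗[ℚ] ℚ_[q])) : HeightOneSpectrum (𝓞 K) :=
  placeOf (Ideal.Quotient.mk m.asIdeal) (quot_compat m)

theorem mem_placeBelow (m : MaximalSpectrum (K ⊗[ℚ] ℚ_[q])) (y : 𝓞 K) :
    y ∈ (placeBelow m).asIdeal ↔
      spectralNorm ℚ_[q] ((K ⊗[ℚ] ℚ_[q]) ⧸ m.asIdeal)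
        (Ideal.Quotient.mk m.asIdeal ((y : K) ⊗ₜ[ℚ] (1 : ℚ_[q]))) < 1 := Iff.rfl

theorem natCast_mem_placeBelow (m : MaximalSpectrum (K ⊗[ℚ] ℚ_[q])) :
    ((q : ℕ) : 𝓞 K) ∈ (placeBelow m).asIdeal :=
  natCast_mem_primeOf _ (quot_compat m)

theorem isIntegralElem_of_isIdempotentElem {e : K ⊗[ℚ] ℚ_[q]} (he : IsIdempotentElem e) :
    (qInt q K).IsIntegralElem e := by
  refine ⟨X ^ 2 - X, ?_, ?_⟩
  · exact monic_X_pow_sub (by rw [degree_X]; exact_mod_cast one_lt_two)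
  · rw [eval₂_sub, eval₂_pow, eval₂_X, pow_two, he.eq, sub_self]

theorem placeBelow_injective :
    Function.Injective (placeBelow : MaximalSpectrum (K ⊗[ℚ] ℚ_[q]) → _) := by
  intro m m' h
  by_contra hne
  have hne' : m' ≠ m := fun h' => hne h'.symm
  have hmem : idemOfMax m ∈ maxOrder q K :=
    (QBridge.mem_maxOrder_iff _).mpr
      (isIntegralElem_of_isIdempotentElem (isIdempotentElem_idemOfMax m))
  obtain ⟨y, b', hb', hyb⟩ := QBridge.exists_approx hmem 1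
  rw [pow_one] at hyb
  have hb'' := QBridge.isIntegralElem_of_mem_maxOrder hb'
  have hy : ∀ π : K ⊗[ℚ] ℚ_[q] →+* (K ⊗[ℚ] ℚ_[q]) ⧸ m.asIdeal,
      iota π y = π (idemOfMax m) - π (((q : ℕ) : K ⊗[ℚ] ℚ_[q]) * b') := by
    intro π
    rw [iota_apply, hyb, map_add, add_sub_cancel_right]
  have hy' : ∀ π : K ⊗[ℚ] ℚ_[q] →+* (K ⊗[ℚ] ℚ_[q]) ⧸ m'.asIdeal,
      iota π y = π (idemOfMax m) - π (((q : ℕ) : K ⊗[ℚ] ℚ_[q]) * b') := by
    intro π
    rw [iota_apply, hyb, map_add, add_sub_cancel_right]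
  -- `y - 1 ∈ P_m`
  have h1 : y - 1 ∈ (placeBelow m).asIdeal := by
    show spectralNorm ℚ_[q] _ (iota (Ideal.Quotient.mk m.asIdeal) (y - 1)) < 1
    rw [map_sub, map_one, hy, mk_idemOfMax, if_pos rfl, sub_sub_cancel_left, sn_neg]
    exact sn_natCast_mul_lt_one _ (quot_compat m) hb''
  -- `y ∈ P_m'`
  have h2 : y ∈ (placeBelow m').asIdeal := by
    show spectralNorm ℚ_[q] _ (iota (Ideal.Quotient.mk m'.asIdeal) y) < 1
    rw [hy', mk_idemOfMax, if_neg hne', zero_sub, sn_neg]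
    exact sn_natCast_mul_lt_one _ (quot_compat m') hb''
  rw [← h] at h2
  have h3 : (1 : 𝓞 K) ∈ (placeBelow m).asIdeal := by
    have h4 := sub_mem h2 h1
    rwa [sub_sub_cancel] at h4
  exact (placeBelow m).isPrime.ne_top ((Ideal.eq_top_iff_one _).mpr h3)

/-- **Integrality is componentwise**: an element of `K ⊗[ℚ] ℚ_[q]` is integral over `ℤ_[q]` iff
its image in every field quotient has spectral norm `≤ 1`. -/
theorem isIntegralElem_iff_forall_sn_le_one (a : K ⊗[ℚ] ℚ_[q]) :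
    (qInt q K).IsIntegralElem a ↔ ∀ m : MaximalSpectrum (K ⊗[ℚ] ℚ_[q]),
      spectralNorm ℚ_[q] ((K ⊗[ℚ] ℚ_[q]) ⧸ m.asIdeal) (Ideal.Quotient.mk m.asIdeal a) ≤ 1 := by
  classical
  refine ⟨fun ha m => sn_le_one_of_isIntegralElem _ (quot_compat m) ha, fun h => ?_⟩
  have : Fintype (MaximalSpectrum (K ⊗[ℚ] ℚ_[q])) := Fintype.ofFinite _
  have ht : ∀ m : MaximalSpectrum (K ⊗[ℚ] ℚ_[q]), ∃ p : ℤ_[q][X], p.Monic ∧
      eval₂ (qInt q K) a p ∈ m.asIdeal := by
    intro m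
    obtain ⟨p, hp, hp0⟩ := exists_monic_eval₂_mem_ker _ (quot_compat m) (h m)
    exact ⟨p, hp, Ideal.Quotient.eq_zero_iff_mem.mp hp0⟩
  choose p hp hpm using ht
  refine ⟨∏ m, p m, monic_prod_of_monic _ _ (fun m _ => hp m), ?_⟩
  apply eq_zero_of_forall_mem
  intro m
  rw [eval₂_finsetProd, ← Finset.prod_erase_mul _ _ (Finset.mem_univ m)]
  exact Ideal.mul_mem_left _ _ (hpm m)

/-- A unit of `K ⊗[ℚ] ℚ_[q]` is a unit of the maximal order iff its image in every field quotient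
has spectral norm `1`. -/
theorem isIntegralElem_units_iff_forall_sn_eq_one (u : (K ⊗[ℚ] ℚ_[q])ˣ) :
    ((qInt q K).IsIntegralElem (u : K ⊗[ℚ] ℚ_[q]) ∧
        (qInt q K).IsIntegralElem ((u⁻¹ : (K ⊗[ℚ] ℚ_[q])ˣ) : K ⊗[ℚ] ℚ_[q])) ↔
      ∀ m : MaximalSpectrum (K ⊗[ℚ] ℚ_[q]),
        spectralNorm ℚ_[q] ((K ⊗[ℚ] ℚ_[q]) ⧸ m.asIdeal)
          (Ideal.Quotient.mk m.asIdeal (u : K ⊗[ℚ] ℚ_[q])) = 1 := by
  rw [isIntegralElem_iff_forall_sn_le_one, isIntegralElem_iff_forall_sn_le_one]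
  have hmul : ∀ m : MaximalSpectrum (K ⊗[ℚ] ℚ_[q]),
      spectralNorm ℚ_[q] ((K ⊗[ℚ] ℚ_[q]) ⧸ m.asIdeal)
          (Ideal.Quotient.mk m.asIdeal (u : K ⊗[ℚ] ℚ_[q])) *
        spectralNorm ℚ_[q] ((K ⊗[ℚ] ℚ_[q]) ⧸ m.asIdeal)
          (Ideal.Quotient.mk m.asIdeal ((u⁻¹ : (K ⊗[ℚ] ℚ_[q])ˣ) : K ⊗[ℚ] ℚ_[q])) = 1 := by
    intro m
    rw [← sn_mul, ← map_mul, Units.mul_inv, map_one, spectralNorm_one]
  constructor
  · rintro ⟨h1, h2⟩ m
    refine le_antisymm (h1 m) ?_
    by_contra hlt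
    rw [not_le] at hlt
    have h3 := hmul m
    have h4 : spectralNorm ℚ_[q] ((K ⊗[ℚ] ℚ_[q]) ⧸ m.asIdeal)
          (Ideal.Quotient.mk m.asIdeal (u : K ⊗[ℚ] ℚ_[q])) *
        spectralNorm ℚ_[q] ((K ⊗[ℚ] ℚ_[q]) ⧸ m.asIdeal)
          (Ideal.Quotient.mk m.asIdeal ((u⁻¹ : (K ⊗[ℚ] ℚ_[q])ˣ) : K ⊗[ℚ] ℚ_[q])) < 1 :=
      mul_lt_one_of_nonneg_of_lt_one_left (spectralNorm_nonneg _) hlt (h2 m)
    rw [h3] at h4
    exact lt_irrefl _ h4
  · intro h
    refine ⟨fun m => (h m).le, fun m => ?_⟩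
    have h3 := hmul m
    rw [h m, one_mul] at h3
    exact h3.le

theorem placeBelow_surjective (w : HeightOneSpectrum (𝓞 K))
    (hw : ((q : ℕ) : 𝓞 K) ∈ w.asIdeal) :
    ∃ m : MaximalSpectrum (K ⊗[ℚ] ℚ_[q]), placeBelow m = w := by
  classical
  by_contra hcon
  rw [not_exists] at hcon
  have : Fintype (MaximalSpectrum (K ⊗[ℚ] ℚ_[q])) := Fintype.ofFinite _
  set I : Ideal (𝓞 K) := ∏ m : MaximalSpectrum (K ⊗[ℚ] ℚ_[q]), (placeBelow m).asIdeal with hI
  have hsup : w.asIdeal ⊔ I = ⊤ := by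
    by_contra hne
    have hle : I ≤ w.asIdeal := by
      have h1 := w.isMaximal.eq_of_le hne le_sup_left
      exact le_sup_right.trans h1.ge
    rw [hI, Ideal.IsPrime.prod_le w.isPrime] at hle
    obtain ⟨m, -, hm⟩ := hle
    have h2 := (placeBelow m).isMaximal.eq_of_le w.isPrime.ne_top hm
    exact hcon m (HeightOneSpectrum.ext h2)
  obtain ⟨y, hy, z, hz, hyz⟩ := Submodule.mem_sup.mp ((Ideal.eq_top_iff_one _).mp hsup)
  -- `y` is a unit at every `m`
  have hym : ∀ m : MaximalSpectrum (K ⊗[ℚ] ℚ_[q]),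
      spectralNorm ℚ_[q] ((K ⊗[ℚ] ℚ_[q]) ⧸ m.asIdeal)
        (iota (Ideal.Quotient.mk m.asIdeal) y) = 1 := by
    intro m
    apply sn_eq_one_of_sub_one_lt
    have hzm : z ∈ (placeBelow m).asIdeal :=
      Ideal.le_of_dvd (Finset.dvd_prod_of_mem _ (Finset.mem_univ m)) hz
    have h1 : iota (Ideal.Quotient.mk m.asIdeal) y - 1 =
        -(iota (Ideal.Quotient.mk m.asIdeal) z) := by
      rw [← map_one (iota (Ideal.Quotient.mk m.asIdeal)), ← map_sub, ← map_neg]
      congr 1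
      linear_combination hyz
    rw [h1, sn_neg]
    exact hzm
  obtain ⟨m₀, hm₀⟩ := Ideal.exists_maximal (K ⊗[ℚ] ℚ_[q])
  have hy0 : (y : K) ≠ 0 := by
    intro h0
    have h1 := hym ⟨m₀, hm₀⟩
    rw [iota_apply, h0, zero_tmul, map_zero, spectralNorm_zero] at h1
    exact zero_ne_one h1
  -- `y⁻¹ ⊗ 1` is integral at every `m`
  have hint : (qInt q K).IsIntegralElem ((y : K)⁻¹ ⊗ₜ[ℚ] (1 : ℚ_[q])) := by
    rw [isIntegralElem_iff_forall_sn_le_one]
    intro m
    have h1 : Ideal.Quotient.mk m.asIdeal ((y : K)⁻¹ ⊗ₜ[ℚ] (1 : ℚ_[q])) *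
        iota (Ideal.Quotient.mk m.asIdeal) y = 1 := by
      rw [iota_apply, ← map_mul, Algebra.TensorProduct.tmul_mul_tmul, inv_mul_cancel₀ hy0,
        mul_one, ← Algebra.TensorProduct.one_def, map_one]
    have h3 := congrArg (spectralNorm ℚ_[q] ((K ⊗[ℚ] ℚ_[q]) ⧸ m.asIdeal)) h1
    rw [sn_mul, hym m, mul_one, spectralNorm_one] at h3
    exact h3.le
  rw [QBridge.isIntegralElem_tmul_one_iff] at hint
  have h1 := hint w hw
  have h2 : w.valuation K (y : K) < 1 := (w.valuation_lt_one_iff_mem y).mpr hy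
  have h3 : w.valuation K (y : K) ≠ 0 := (Valuation.ne_zero_iff _).mpr hy0
  rw [map_inv₀, inv_le_one₀ (zero_lt_iff.mpr h3)] at h1
  exact absurd h2 (not_lt.mpr h1)

/-- **The places of `K` above `q` are the maximal ideals of `K ⊗[ℚ] ℚ_[q]`.** -/
def placeEquiv : MaximalSpectrum (K ⊗[ℚ] ℚ_[q]) ≃
    {w : HeightOneSpectrum (𝓞 K) // ((q : ℕ) : 𝓞 K) ∈ w.asIdeal} :=
  Equiv.ofBijective (fun m => ⟨placeBelow m, natCast_mem_placeBelow m⟩)
    ⟨fun m m' h => placeBelow_injective (congrArg Subtype.val h),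
      fun w => by
        obtain ⟨m, hm⟩ := placeBelow_surjective w.1 w.2
        exact ⟨m, Subtype.ext hm⟩⟩

theorem placeEquiv_apply (m : MaximalSpectrum (K ⊗[ℚ] ℚ_[q])) :
    ((placeEquiv m : {w : HeightOneSpectrum (𝓞 K) // ((q : ℕ) : 𝓞 K) ∈ w.asIdeal}) :
      HeightOneSpectrum (𝓞 K)) = placeBelow m := rfl

variable (q K)

/-- **(CD1)** The number of maximal ideals of `K ⊗[ℚ] ℚ_[q]` is the number of primes of `𝓞 K`
above `q`. -/
theorem card_maximalSpectrum :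
    Nat.card (MaximalSpectrum (K ⊗[ℚ] ℚ_[q])) =
      Nat.card {w : HeightOneSpectrum (𝓞 K) // ((q : ℕ) : 𝓞 K) ∈ w.asIdeal} :=
  Nat.card_congr placeEquiv

/-! ### 5. Local degrees -/

/-- The decomposition of `K ⊗[ℚ] ℚ_[q]` into its field quotients, as a `ℚ_[q]`-algebra
isomorphism. -/
def quotEquiv : (K ⊗[ℚ] ℚ_[q]) ≃ₐ[ℚ_[q]]
    ∀ m : MaximalSpectrum (K ⊗[ℚ] ℚ_[q]), (K ⊗[ℚ] ℚ_[q]) ⧸ m.asIdeal :=
  (IsArtinianRing.equivPi (K ⊗[ℚ] ℚ_[q])).restrictScalars ℚ_[q]

theorem quotEquiv_apply (x : K ⊗[ℚ] ℚ_[q]) (m : MaximalSpectrum (K ⊗[ℚ] ℚ_[q])) :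
    quotEquiv q K x m = Ideal.Quotient.mk m.asIdeal x :=
  IsArtinianRing.equivPi_apply (R := K ⊗[ℚ] ℚ_[q]) x m

/-- **(CD2)** The local degrees at the places above `q` add up to `[K : ℚ]`. -/
theorem finsum_finrank_quotient :
    ∑ᶠ m : MaximalSpectrum (K ⊗[ℚ] ℚ_[q]),
      Module.finrank ℚ_[q] ((K ⊗[ℚ] ℚ_[q]) ⧸ m.asIdeal) = Module.finrank ℚ K := by
  classical
  have : Fintype (MaximalSpectrum (K ⊗[ℚ] ℚ_[q])) := Fintype.ofFinite _
  rw [finsum_eq_sum_of_fintype, ← Module.finrank_pi_fintype,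
    ← (quotEquiv q K).toLinearEquiv.finrank_eq, finrank_right]

/-- **(CD2)** for any family of `ℚ_[q]`-algebra structures on the quotients whose structure map
is `c ↦ 1 ⊗ c`. -/
theorem finsum_finrank_quotient_of_algebra
    (inst : ∀ m : MaximalSpectrum (K ⊗[ℚ] ℚ_[q]), Algebra ℚ_[q] ((K ⊗[ℚ] ℚ_[q]) ⧸ m.asIdeal))
    (h : ∀ (m : MaximalSpectrum (K ⊗[ℚ] ℚ_[q])) (c : ℚ_[q]),
      @algebraMap ℚ_[q] ((K ⊗[ℚ] ℚ_[q]) ⧸ m.asIdeal) _ _ (inst m) c =
        Ideal.Quotient.mk m.asIdeal ((1 : K) ⊗ₜ[ℚ] c)) :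
    ∑ᶠ m : MaximalSpectrum (K ⊗[ℚ] ℚ_[q]),
      @Module.finrank ℚ_[q] ((K ⊗[ℚ] ℚ_[q]) ⧸ m.asIdeal) _ _ (inst m).toModule =
        Module.finrank ℚ K := by
  rw [← finsum_finrank_quotient q K]
  refine finsum_congr (fun m => ?_)
  exact finrank_eq_of_algebraMap_eq (inst m) _ (fun c => (h m c).trans (quot_compat m c))

/-- **(CD2)**, indexed by the primitive idempotents. -/
theorem finsum_finrank_quotient_primIdem :
    ∑ᶠ e : {e : K ⊗[ℚ] ℚ_[q] // L7.IsPrimIdem e},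
      Module.finrank ℚ_[q] ((K ⊗[ℚ] ℚ_[q]) ⧸ (Ideal.span {1 - e.1} : Ideal (K ⊗[ℚ] ℚ_[q]))) =
        Module.finrank ℚ K := by
  rw [← finsum_finrank_quotient q K]
  exact finsum_comp_equiv (primIdemEquiv (R := K ⊗[ℚ] ℚ_[q]))
    (f := fun m : MaximalSpectrum (K ⊗[ℚ] ℚ_[q]) =>
      Module.finrank ℚ_[q] ((K ⊗[ℚ] ℚ_[q]) ⧸ m.asIdeal))

/-- **(CD1')** The number of primitive idempotents of `K ⊗[ℚ] ℚ_[q]` is the number of primes of
`𝓞 K` above `q`. -/
theorem card_primIdem_tensor :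
    Nat.card {e : K ⊗[ℚ] ℚ_[q] // L7.IsPrimIdem e} =
      Nat.card {w : HeightOneSpectrum (𝓞 K) // ((q : ℕ) : 𝓞 K) ∈ w.asIdeal} := by
  rw [card_primIdem, card_maximalSpectrum]

/-- There are finitely many primes of `𝓞 K` above `q`. -/
theorem finite_placesAbove :
    Finite {w : HeightOneSpectrum (𝓞 K) // ((q : ℕ) : 𝓞 K) ∈ w.asIdeal} :=
  Finite.of_equiv _ (placeEquiv (q := q) (K := K))

/-- There is a prime of `𝓞 K` above `q`. -/
theorem nonempty_placesAbove :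
    Nonempty {w : HeightOneSpectrum (𝓞 K) // ((q : ℕ) : 𝓞 K) ∈ w.asIdeal} := by
  obtain ⟨m₀, hm₀⟩ := Ideal.exists_maximal (K ⊗[ℚ] ℚ_[q])
  exact ⟨placeEquiv ⟨m₀, hm₀⟩⟩

end Quot

/-! ### 6. The statements in the vocabulary of `L7Defs` -/

section L7

open Fermat.Agent.CFT.Global.L7

variable (K : Type) [Field K] [NumberField K]

/-- **(CD1)** `#MaxSpec (A_q(K))` is the number of primes of `𝓞 K` above `q`. -/
theorem card_maximalSpectrum_Aq (q : Nat.Primes) :
    Nat.card (MaximalSpectrum (Aq K q)) =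
      Nat.card {w : HeightOneSpectrum (𝓞 K) // ((q : ℕ) : 𝓞 K) ∈ w.asIdeal} :=
  card_maximalSpectrum (q : ℕ) K

/-- **(CD1')** The number of primitive idempotents of `A_q(K)` is the number of primes of
`𝓞 K` above `q`. -/
theorem card_primIdem_Aq (q : Nat.Primes) :
    Nat.card {e : Aq K q // IsPrimIdem e} =
      Nat.card {w : HeightOneSpectrum (𝓞 K) // ((q : ℕ) : 𝓞 K) ∈ w.asIdeal} :=
  card_primIdem_tensor (q : ℕ) K

/-- **(CD3)** Summing over `q ∈ S` gives `Plan.nAbove K S`. -/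
theorem sum_card_maximalSpectrum_Aq (S : Finset Nat.Primes) :
    ∑ q ∈ S, Nat.card (MaximalSpectrum (Aq K q)) = Plan.nAbove K S := by
  classical
  unfold Plan.nAbove
  have hfin : ∀ q : Nat.Primes,
      Finite {w : HeightOneSpectrum (𝓞 K) // ((q : ℕ) : 𝓞 K) ∈ w.asIdeal} :=
    fun q => finite_placesAbove (q : ℕ) K
  let f : (Σ q : S, {w : HeightOneSpectrum (𝓞 K) // ((q.1 : ℕ) : 𝓞 K) ∈ w.asIdeal}) →
      {w : HeightOneSpectrum (𝓞 K) // ∃ q ∈ S, ((q : ℕ) : 𝓞 K) ∈ w.asIdeal} :=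
    fun x => ⟨x.2.1, x.1.1, x.1.2, x.2.2⟩
  have hf : Function.Bijective f := by
    constructor
    · rintro ⟨q, w, hw⟩ ⟨q', w', hw'⟩ h
      have hww : w = w' := congrArg Subtype.val h
      subst hww
      have hqq : (q.1 : ℕ) = (q'.1 : ℕ) := QBridge.prime_eq_of_mem w q.1.2 q'.1.2 hw hw'
      have hq : q = q' := Subtype.ext (Subtype.ext hqq)
      subst hq
      rfl
    · rintro ⟨w, q, hq, hw⟩
      exact ⟨⟨⟨q, hq⟩, w, hw⟩, rfl⟩
  rw [← Nat.card_eq_of_bijective f hf, Nat.card_sigma,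
    Finset.sum_coe_sort S
      (fun q => Nat.card {w : HeightOneSpectrum (𝓞 K) // ((q : ℕ) : 𝓞 K) ∈ w.asIdeal})]
  exact Finset.sum_congr rfl (fun q _ => card_maximalSpectrum_Aq K q)

/-- **(CD3')** The same count with primitive idempotents. -/
theorem sum_card_primIdem_Aq (S : Finset Nat.Primes) :
    ∑ q ∈ S, Nat.card {e : Aq K q // IsPrimIdem e} = Plan.nAbove K S := by
  rw [← sum_card_maximalSpectrum_Aq]
  refine Finset.sum_congr rfl (fun q _ => ?_)
  rw [card_primIdem_Aq, card_maximalSpectrum_Aq]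

attribute [local instance] Algebra.TensorProduct.rightAlgebra in
/-- **(CD2)** The local degrees at the places above `q` add up to `[K : ℚ]` (the quotients are
`ℚ_[q]`-algebras through the right factor). -/
theorem finsum_finrank_quotient_Aq (q : Nat.Primes) :
    ∑ᶠ m : MaximalSpectrum (Aq K q), Module.finrank ℚ_[(q : ℕ)] (Aq K q ⧸ m.asIdeal) =
      Module.finrank ℚ K :=
  finsum_finrank_quotient (q : ℕ) K

attribute [local instance] Algebra.TensorProduct.rightAlgebra Ideal.Quotient.field in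
/-- A unit of `A_q(K)` lies in `U_q(K)` iff it has spectral norm `1` in every field quotient. -/
theorem mem_Uq_iff_forall_sn_eq_one (q : Nat.Primes) (u : (Aq K q)ˣ) :
    u ∈ Uq K q ↔ ∀ m : MaximalSpectrum (Aq K q),
      spectralNorm ℚ_[(q : ℕ)] (Aq K q ⧸ m.asIdeal)
        (Ideal.Quotient.mk m.asIdeal (u : Aq K q)) = 1 :=
  isIntegralElem_units_iff_forall_sn_eq_one u

end L7

end Fermat.Agent.CFT.Global.CountDict
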