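import Mathlib

set_option autoImplicit false
set_option linter.unusedSectionVars false

namespace Fermat.Agent.CFT.Global.SUnitLattice

open NumberField IsDedekindDomain HeightOneSpectrum
open scoped nonZeroDivisors

noncomputable section

variable (K : Type*) [Field K] [NumberField K]

/-- `log ‖x‖_v` for a finite place `v` (normalised absolute value `N(v)^(-ord_v x)`). -/
def logFin (v : HeightOneSpectrum (𝓞 K)) (x : K) : ℝ := Real.log (FinitePlace.mk v x)

/-- `mult w * log |x|_w` for an infinite place `w`. -/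
def logInf (w : InfinitePlace K) (x : K) : ℝ := (w.mult : ℝ) * Real.log (w x)

variable {K}

theorem finitePlace_mk_eq (v : HeightOneSpectrum (𝓞 K)) (x : K) :
    FinitePlace.mk v x =
      ((WithZeroMulInt.toNNReal (absNorm_ne_zero v) (v.valuation K x) : NNReal) : ℝ) := by
  rw [FinitePlace.mk_apply, FinitePlace.norm_embedding']

theorem finitePlace_mk_pos (v : HeightOneSpectrum (𝓞 K)) {x : K} (hx : x ≠ 0) :
    0 < FinitePlace.mk v x := FinitePlace.pos_iff.2 hx

theorem finitePlace_mk_eq_one_iff (v : HeightOneSpectrum (𝓞 K)) (x : K) :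
    FinitePlace.mk v x = 1 ↔ v.valuation K x = 1 := by
  rw [finitePlace_mk_eq, NNReal.coe_eq_one]
  exact WithZeroMulInt.toNNReal_eq_one_iff _ (absNorm_ne_zero v) (one_lt_absNorm_nnreal v).ne'

theorem logFin_mul (v : HeightOneSpectrum (𝓞 K)) {x y : K} (hx : x ≠ 0) (hy : y ≠ 0) :
    logFin K v (x * y) = logFin K v x + logFin K v y := by
  unfold logFin
  rw [map_mul, Real.log_mul (finitePlace_mk_pos v hx).ne' (finitePlace_mk_pos v hy).ne']

theorem logFin_one (v : HeightOneSpectrum (𝓞 K)) : logFin K v 1 = 0 := by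
  unfold logFin
  rw [map_one, Real.log_one]

theorem logFin_eq_zero_iff (v : HeightOneSpectrum (𝓞 K)) {x : K} (hx : x ≠ 0) :
    logFin K v x = 0 ↔ v.valuation K x = 1 := by
  unfold logFin
  rw [← finitePlace_mk_eq_one_iff]
  constructor
  · intro h
    exact Real.eq_one_of_pos_of_log_eq_zero (finitePlace_mk_pos v hx) h
  · intro h
    rw [h, Real.log_one]

/-- The value of `logFin` is an integer multiple of `log N(v)`. -/
theorem logFin_eq_int_mul (v : HeightOneSpectrum (𝓞 K)) {x : K} (hx : x ≠ 0) :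
    ∃ k : ℤ, logFin K v x = k * Real.log (Ideal.absNorm v.asIdeal) := by
  have hv : v.valuation K x ≠ 0 := (Valuation.ne_zero_iff _).2 hx
  refine ⟨(WithZero.unzero hv).toAdd, ?_⟩
  unfold logFin
  rw [finitePlace_mk_eq, WithZeroMulInt.toNNReal_neg_apply _ hv]
  push_cast
  rw [Real.log_zpow]

theorem two_le_absNorm (v : HeightOneSpectrum (𝓞 K)) : (2 : ℝ) ≤ Ideal.absNorm v.asIdeal := by
  have := one_lt_absNorm v
  exact_mod_cast this

/-- Discreteness at a finite place: a small `logFin` vanishes. -/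
theorem logFin_eq_zero_of_abs_lt (v : HeightOneSpectrum (𝓞 K)) {x : K} (hx : x ≠ 0)
    (h : |logFin K v x| < Real.log 2) : logFin K v x = 0 := by
  obtain ⟨k, hk⟩ := logFin_eq_int_mul v hx
  have h2 : Real.log 2 ≤ Real.log (Ideal.absNorm v.asIdeal) :=
    Real.log_le_log (by norm_num) (two_le_absNorm v)
  have hpos : 0 < Real.log 2 := Real.log_pos (by norm_num)
  by_contra hne
  have hk0 : k ≠ 0 := by
    rintro rfl
    apply hne
    rw [hk]; simp
  have hk1 : (1 : ℝ) ≤ |(k : ℝ)| := by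
    have : (1 : ℤ) ≤ |k| := Int.one_le_abs hk0
    exact_mod_cast this
  rw [hk, abs_mul, abs_of_nonneg (le_trans hpos.le h2)] at h
  nlinarith


theorem logInf_mul (w : InfinitePlace K) {x y : K} (hx : x ≠ 0) (hy : y ≠ 0) :
    logInf K w (x * y) = logInf K w x + logInf K w y := by
  unfold logInf
  rw [map_mul, Real.log_mul ((map_ne_zero w).2 hx) ((map_ne_zero w).2 hy), mul_add]

theorem logInf_one (w : InfinitePlace K) : logInf K w 1 = 0 := by
  unfold logInf
  rw [map_one, Real.log_one, mul_zero]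

theorem logInf_eq_zero_iff (w : InfinitePlace K) {x : K} (hx : x ≠ 0) :
    logInf K w x = 0 ↔ w x = 1 := by
  unfold logInf
  have hpos : 0 < w x := InfinitePlace.pos_iff.2 hx
  constructor
  · intro h
    rcases mul_eq_zero.1 h with h | h
    · exact absurd h (by exact_mod_cast InfinitePlace.mult_ne_zero)
    · exact Real.eq_one_of_pos_of_log_eq_zero hpos h
  · intro h
    rw [h, Real.log_one, mul_zero]

variable (K)

/-- The group of `S`-units of `K` (Mathlib's `Set.unit`), for a finite set of primes `S`. -/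
abbrev SUnits (S : Finset (HeightOneSpectrum (𝓞 K))) : Subgroup Kˣ :=
  (S : Set (HeightOneSpectrum (𝓞 K))).unit K

/-- The places in `∞ ⊔ S`. -/
abbrev Pl (S : Finset (HeightOneSpectrum (𝓞 K))) : Type _ := InfinitePlace K ⊕ S

/-- The logarithm of the normalised absolute value of `x` at a place of `∞ ⊔ S`. -/
def logAt (S : Finset (HeightOneSpectrum (𝓞 K))) (x : K) : Pl K S → ℝ :=
  Sum.elim (fun w => logInf K w x) (fun v => logFin K v.1 x)

variable {K}

theorem logAt_mul (S : Finset (HeightOneSpectrum (𝓞 K))) {x y : K} (hx : x ≠ 0) (hy : y ≠ 0) :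
    logAt K S (x * y) = logAt K S x + logAt K S y := by
  funext i
  rcases i with w | v
  · simp [logAt, logInf_mul w hx hy]
  · simp [logAt, logFin_mul v.1 hx hy]

theorem logAt_one (S : Finset (HeightOneSpectrum (𝓞 K))) : logAt K S 1 = 0 := by
  funext i
  rcases i with w | v
  · simp [logAt, logInf_one]
  · simp [logAt, logFin_one]

variable (K)

/-- The logarithmic embedding of the `S`-units into `ℝ^(∞ ⊔ S)`. -/
def logS (S : Finset (HeightOneSpectrum (𝓞 K))) : Additive (SUnits K S) →+ (Pl K S → ℝ) where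
  toFun u := logAt K S (((Additive.toMul u : SUnits K S) : Kˣ) : K)
  map_zero' := by
    simp [logAt_one]
  map_add' u u' := by
    simp only [toMul_add, Subgroup.coe_mul, Units.val_mul]
    exact logAt_mul S (Units.ne_zero _) (Units.ne_zero _)

variable {K}

@[simp] theorem logS_apply_inl (S : Finset (HeightOneSpectrum (𝓞 K))) (u : SUnits K S)
    (w : InfinitePlace K) :
    logS K S (Additive.ofMul u) (Sum.inl w) = (w.mult : ℝ) * Real.log (w ((u : Kˣ) : K)) := rfl

@[simp] theorem logS_apply_inr (S : Finset (HeightOneSpectrum (𝓞 K))) (u : SUnits K S)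
    (v : S) :
    logS K S (Additive.ofMul u) (Sum.inr v) = Real.log (FinitePlace.mk v.1 ((u : Kˣ) : K)) := rfl

/-- `S`-units have trivial absolute value outside `S`. -/
theorem finitePlace_mk_sunit (S : Finset (HeightOneSpectrum (𝓞 K))) (u : SUnits K S)
    {v : HeightOneSpectrum (𝓞 K)} (hv : v ∉ S) : FinitePlace.mk v ((u : Kˣ) : K) = 1 := by
  rw [finitePlace_mk_eq_one_iff]
  exact Set.unit_valuation_eq_one _ K u (by simpa using hv)

/-- (U2) The product formula: the coordinates of `logS u` sum to zero. -/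
theorem sum_logS (S : Finset (HeightOneSpectrum (𝓞 K))) (u : Additive (SUnits K S)) :
    ∑ i, logS K S u i = 0 := by
  obtain ⟨u, rfl⟩ := Additive.ofMul.surjective u
  have hx : ((u : Kˣ) : K) ≠ 0 := Units.ne_zero _
  have h := prod_abs_eq_one hx
  have hfin : ∏ᶠ w : FinitePlace K, w ((u : Kˣ) : K) =
      ∏ v ∈ S, FinitePlace.mk v ((u : Kˣ) : K) := by
    rw [← finprod_comp_equiv FinitePlace.equivHeightOneSpectrum.symm]
    simp only [FinitePlace.equivHeightOneSpectrum_symm_apply]
    refine finprod_eq_prod_of_mulSupport_subset _ ?_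
    intro v hv
    by_contra hvS
    exact hv (finitePlace_mk_sunit S u (by simpa using hvS))
  rw [hfin] at h
  have h2 := congrArg Real.log h
  rw [Real.log_one, Real.log_mul, Real.log_prod, Real.log_prod] at h2
  · rw [Fintype.sum_sum_type]
    simp only [logS_apply_inl, logS_apply_inr]
    rw [← h2, Finset.sum_coe_sort S (fun v => Real.log (FinitePlace.mk v ((u : Kˣ) : K)))]
    congr 1
    refine Finset.sum_congr rfl fun w _ => ?_
    rw [Real.log_pow]
  · intro v _
    exact (finitePlace_mk_pos v hx).ne'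
  · intro w _
    exact pow_ne_zero _ ((map_ne_zero w).2 hx)
  · exact Finset.prod_ne_zero_iff.2 fun w _ => pow_ne_zero _ ((map_ne_zero w).2 hx)
  · exact Finset.prod_ne_zero_iff.2 fun v _ => (finitePlace_mk_pos v hx).ne'


/-- A unit of `𝓞 K` has trivial valuation at every prime. -/
theorem valuation_unit_eq_one (ε : (𝓞 K)ˣ) (v : HeightOneSpectrum (𝓞 K)) :
    v.valuation K (algebraMap (𝓞 K) K (ε : 𝓞 K)) = 1 := by
  have h1 : v.valuation K (algebraMap (𝓞 K) K (ε : 𝓞 K)) ≤ 1 := v.valuation_le_one _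
  have h2 : v.valuation K (algebraMap (𝓞 K) K ((ε⁻¹ : (𝓞 K)ˣ) : 𝓞 K)) ≤ 1 := v.valuation_le_one _
  have h3 : v.valuation K (algebraMap (𝓞 K) K (ε : 𝓞 K)) *
      v.valuation K (algebraMap (𝓞 K) K ((ε⁻¹ : (𝓞 K)ˣ) : 𝓞 K)) = 1 := by
    rw [← map_mul, ← map_mul, Units.mul_inv, map_one, map_one]
  exact eq_one_of_one_le_mul_left h1 h2 h3.ge

/-- An element of `Kˣ` with trivial valuation at every prime is a unit of `𝓞 K`. -/
theorem exists_unit_of_valuation_eq_one (x : Kˣ)
    (h : ∀ v : HeightOneSpectrum (𝓞 K), v.valuation K (x : K) = 1) :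
    ∃ ε : (𝓞 K)ˣ, algebraMap (𝓞 K) K (ε : 𝓞 K) = (x : K) := by
  obtain ⟨a, ha⟩ := HeightOneSpectrum.mem_integers_of_valuation_le_one K (x : K)
    (fun v => (h v).le)
  obtain ⟨b, hb⟩ := HeightOneSpectrum.mem_integers_of_valuation_le_one K ((x⁻¹ : Kˣ) : K)
    (fun v => by
      rw [Units.val_inv_eq_inv_val, map_inv₀, h v, inv_one])
  have hab : a * b = 1 := by
    apply FaithfulSMul.algebraMap_injective (𝓞 K) K
    rw [map_mul, ha, hb, map_one, Units.mul_inv]
  exact ⟨⟨a, b, hab, by rw [mul_comm]; exact hab⟩, ha⟩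

variable (K)

/-- Units of `𝓞 K` are `S`-units. -/
def ofUnit (S : Finset (HeightOneSpectrum (𝓞 K))) : (𝓞 K)ˣ →* SUnits K S where
  toFun ε := ⟨Units.map (algebraMap (𝓞 K) K).toMonoidHom ε, fun v _ => valuation_unit_eq_one ε v⟩
  map_one' := by
    apply Subtype.ext
    simp
  map_mul' ε ε' := by
    apply Subtype.ext
    simp

variable {K}

@[simp] theorem coe_ofUnit (S : Finset (HeightOneSpectrum (𝓞 K))) (ε : (𝓞 K)ˣ) :
    (((ofUnit K S ε : SUnits K S) : Kˣ) : K) = algebraMap (𝓞 K) K (ε : 𝓞 K) := rfl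

theorem logS_ofUnit_inr (S : Finset (HeightOneSpectrum (𝓞 K))) (ε : (𝓞 K)ˣ) (v : S) :
    logS K S (Additive.ofMul (ofUnit K S ε)) (Sum.inr v) = 0 := by
  rw [logS_apply_inr, coe_ofUnit, (finitePlace_mk_eq_one_iff v.1 _).2 (valuation_unit_eq_one ε v.1),
    Real.log_one]

theorem logS_ofUnit_inl (S : Finset (HeightOneSpectrum (𝓞 K))) (ε : (𝓞 K)ˣ)
    (w : InfinitePlace K) :
    logS K S (Additive.ofMul (ofUnit K S ε)) (Sum.inl w) =
      (w.mult : ℝ) * Real.log (w (algebraMap (𝓞 K) K (ε : 𝓞 K))) := rfl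

/-- An `S`-unit all of whose finite coordinates vanish is a unit of `𝓞 K`. -/
theorem exists_unit_of_logS_inr_eq_zero (S : Finset (HeightOneSpectrum (𝓞 K))) (u : SUnits K S)
    (h : ∀ v : S, logS K S (Additive.ofMul u) (Sum.inr v) = 0) :
    ∃ ε : (𝓞 K)ˣ, ofUnit K S ε = u := by
  have hx : ((u : Kˣ) : K) ≠ 0 := Units.ne_zero _
  obtain ⟨ε, hε⟩ := exists_unit_of_valuation_eq_one (u : Kˣ) (fun v => by
    by_cases hv : v ∈ S
    · have := h ⟨v, hv⟩
      rw [logS_apply_inr] at this
      exact (logFin_eq_zero_iff v hx).1 this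
    · exact Set.unit_valuation_eq_one _ K u (by simpa using hv))
  refine ⟨ε, ?_⟩
  apply Subtype.ext
  apply Units.ext
  rw [coe_ofUnit, hε]

/-- (U3) The kernel of `logS` consists of the roots of unity. -/
theorem logS_eq_zero_iff (S : Finset (HeightOneSpectrum (𝓞 K))) (u : SUnits K S) :
    logS K S (Additive.ofMul u) = 0 ↔ ∃ ε ∈ NumberField.Units.torsion K, ofUnit K S ε = u := by
  constructor
  · intro h
    obtain ⟨ε, rfl⟩ := exists_unit_of_logS_inr_eq_zero S u (fun v => by rw [h]; rfl)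
    refine ⟨ε, ?_, rfl⟩
    rw [NumberField.Units.mem_torsion]
    intro w
    have hw := congrFun h (Sum.inl w)
    rw [logS_ofUnit_inl] at hw
    have hne : algebraMap (𝓞 K) K (ε : 𝓞 K) ≠ 0 := by
      rw [← coe_ofUnit S ε]; exact Units.ne_zero _
    exact (logInf_eq_zero_iff w hne).1 hw
  · rintro ⟨ε, hε, rfl⟩
    rw [NumberField.Units.mem_torsion] at hε
    funext i
    rcases i with w | v
    · rw [logS_ofUnit_inl]
      have := hε w
      simp only [Pi.zero_apply]
      rw [show w (algebraMap (𝓞 K) K (ε : 𝓞 K)) = 1 from this, Real.log_one, mul_zero]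
    · exact logS_ofUnit_inr S ε v

theorem ofUnit_injective (S : Finset (HeightOneSpectrum (𝓞 K))) :
    Function.Injective (ofUnit K S) := by
  intro ε ε' h
  have h2 := congrArg (fun u : SUnits K S => ((u : Kˣ) : K)) h
  simp only [coe_ofUnit] at h2
  exact Units.ext (FaithfulSMul.algebraMap_injective (𝓞 K) K h2)

/-- (U3) The kernel of `logS` is finite. -/
theorem finite_ker_logS (S : Finset (HeightOneSpectrum (𝓞 K))) : Finite (logS K S).ker := by
  have hsub : ((logS K S).ker : Set (Additive (SUnits K S))) ⊆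
      (fun ε : NumberField.Units.torsion K => Additive.ofMul (ofUnit K S ε.1)) '' Set.univ := by
    intro u hu
    obtain ⟨u, rfl⟩ := Additive.ofMul.surjective u
    obtain ⟨ε, hε, rfl⟩ := (logS_eq_zero_iff S u).1 hu
    exact ⟨⟨ε, hε⟩, trivial, rfl⟩
  exact (Set.Finite.subset (Set.finite_univ.image _) hsub).to_subtype


/-! ### Discreteness -/

/-- Only finitely many points of the image of `logS` lie in a small ball. -/
theorem range_logS_inter_ball_finite (S : Finset (HeightOneSpectrum (𝓞 K))) :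
    (((logS K S).range : Set (Pl K S → ℝ)) ∩ Metric.closedBall 0 (Real.log 2 / 2)).Finite := by
  have hlog2 : 0 < Real.log 2 := Real.log_pos (by norm_num)
  have hfin := Embeddings.finite_of_norm_le K ℂ (Real.exp (Real.log 2 / 2))
  have hfin2 : {ε : (𝓞 K)ˣ | ∀ φ : K →+* ℂ,
      ‖φ (algebraMap (𝓞 K) K (ε : 𝓞 K))‖ ≤ Real.exp (Real.log 2 / 2)}.Finite := by
    refine Set.Finite.of_finite_image (f := fun ε : (𝓞 K)ˣ => algebraMap (𝓞 K) K (ε : 𝓞 K))
      (hfin.subset ?_) ?_
    · rintro _ ⟨ε, hε, rfl⟩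
      exact ⟨(ε : 𝓞 K).2, hε⟩
    · intro ε _ ε' _ h
      exact Units.ext (FaithfulSMul.algebraMap_injective (𝓞 K) K h)
  refine (hfin2.image (fun ε => logS K S (Additive.ofMul (ofUnit K S ε)))).subset ?_
  rintro _ ⟨⟨u, rfl⟩, hu⟩
  obtain ⟨u, rfl⟩ := Additive.ofMul.surjective u
  rw [mem_closedBall_zero_iff, pi_norm_le_iff_of_nonneg (by positivity)] at hu
  have hx : ((u : Kˣ) : K) ≠ 0 := Units.ne_zero _
  obtain ⟨ε, rfl⟩ := exists_unit_of_logS_inr_eq_zero S u (fun v => by
    have h1 := hu (Sum.inr v)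
    rw [Real.norm_eq_abs, logS_apply_inr] at h1
    rw [logS_apply_inr]
    exact logFin_eq_zero_of_abs_lt v.1 hx (lt_of_le_of_lt h1 (by linarith)))
  refine ⟨ε, ?_, rfl⟩
  rw [Set.mem_ofPred_eq, ← InfinitePlace.le_iff_le]
  intro w
  have h1 := hu (Sum.inl w)
  rw [Real.norm_eq_abs, logS_ofUnit_inl] at h1
  have hne : algebraMap (𝓞 K) K (ε : 𝓞 K) ≠ 0 := by
    rw [← coe_ofUnit S ε]; exact Units.ne_zero _
  have hpos : 0 < w (algebraMap (𝓞 K) K (ε : 𝓞 K)) := InfinitePlace.pos_iff.2 hne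
  rw [← Real.log_le_iff_le_exp hpos]
  have hm : (1 : ℝ) ≤ (w.mult : ℝ) := by
    exact_mod_cast InfinitePlace.one_le_mult
  have h2 := (abs_le.1 h1).2
  by_cases hl : 0 ≤ Real.log (w (algebraMap (𝓞 K) K (ε : 𝓞 K)))
  · nlinarith
  · linarith

instance instDiscreteRangeLogS (S : Finset (HeightOneSpectrum (𝓞 K))) :
    DiscreteTopology (logS K S).range := by
  refine discreteTopology_of_isOpen_singleton_zero ?_
  refine isOpen_singleton_of_finite_mem_nhds 0 (s := Metric.closedBall 0 (Real.log 2 / 2)) ?_ ?_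
  · exact Metric.closedBall_mem_nhds _ (by
      have : 0 < Real.log 2 := Real.log_pos (by norm_num)
      positivity)
  · refine Set.Finite.of_finite_image ?_ (Set.injOn_of_injective Subtype.val_injective)
    refine (range_logS_inter_ball_finite S).subset ?_
    rintro _ ⟨x, hx, rfl⟩
    exact ⟨x.2, hx⟩


/-! ### The span -/

/-- For every prime `v` some power `v ^ n`, `n > 0`, is principal. -/
theorem exists_generator_pow (v : HeightOneSpectrum (𝓞 K)) :
    ∃ (n : ℕ) (a : 𝓞 K), 0 < n ∧ Ideal.span {a} = v.asIdeal ^ n := by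
  have hv : v.asIdeal ∈ (Ideal (𝓞 K))⁰ := mem_nonZeroDivisors_of_ne_zero v.ne_bot
  have h1 : (ClassGroup.mk0 ⟨v.asIdeal, hv⟩) ^ (Fintype.card (ClassGroup (𝓞 K))) = 1 :=
    pow_card_eq_one
  rw [← map_pow, SubmonoidClass.mk_pow, ClassGroup.mk0_eq_one_iff] at h1
  obtain ⟨a, ha⟩ := h1
  exact ⟨_, a, Fintype.card_pos, ha.symm⟩

/-- For every `v ∈ S` there is an `S`-unit whose `logS` is nonzero at `v` and zero at the other
primes of `S`. -/
theorem exists_sunit_at (S : Finset (HeightOneSpectrum (𝓞 K))) (v : S) :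
    ∃ u : SUnits K S, logS K S (Additive.ofMul u) (Sum.inr v) ≠ 0 ∧
      ∀ v' : S, v' ≠ v → logS K S (Additive.ofMul u) (Sum.inr v') = 0 := by
  obtain ⟨n, a, hn, ha⟩ := exists_generator_pow v.1
  have ha0 : a ≠ 0 := by
    rintro rfl
    have : v.1.asIdeal ^ n = ⊥ := by rw [← ha]; simp
    exact v.1.ne_bot (pow_eq_zero_iff hn.ne' |>.1 this)
  have hax : algebraMap (𝓞 K) K a ≠ 0 := by
    simp [ha0]
  have hav : a ∈ v.1.asIdeal := by
    have h1 : a ∈ v.1.asIdeal ^ n := by rw [← ha]; exact Ideal.mem_span_singleton_self a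
    exact Ideal.pow_le_self hn.ne' h1
  have hav' : ∀ v' : HeightOneSpectrum (𝓞 K), v' ≠ v.1 → a ∉ v'.asIdeal := by
    intro v' hne hmem
    have h1 : v.1.asIdeal ^ n ≤ v'.asIdeal := by
      rw [← ha, Ideal.span_singleton_le_iff_mem]; exact hmem
    have h2 : v.1.asIdeal ≤ v'.asIdeal := v'.isPrime.le_of_pow_le h1
    have h3 : v.1.asIdeal = v'.asIdeal := v.1.isMaximal.eq_of_le v'.isPrime.ne_top h2
    exact hne (HeightOneSpectrum.ext h3.symm)
  refine ⟨⟨Units.mk0 (algebraMap (𝓞 K) K a) hax, fun v' hv' => ?_⟩, ?_, ?_⟩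
  · rw [Units.val_mk0, valuation_eq_one_iff_notMem]
    refine hav' v' ?_
    rintro rfl
    exact hv' (by simp)
  · rw [logS_apply_inr]
    intro h
    have h1 := (logFin_eq_zero_iff v.1 hax).1 h
    rw [valuation_eq_one_iff_notMem] at h1
    exact h1 hav
  · intro v' hne
    rw [logS_apply_inr]
    refine (logFin_eq_zero_iff v'.1 hax).2 ?_
    rw [valuation_eq_one_iff_notMem]
    exact hav' v'.1 (fun h => hne (Subtype.ext h))

variable (K)

/-- The hyperplane `∑ x_i = 0` of `ℝ^(∞ ⊔ S)`. -/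
def hyperplane (S : Finset (HeightOneSpectrum (𝓞 K))) : Submodule ℝ (Pl K S → ℝ) where
  carrier := {x | ∑ i, x i = 0}
  add_mem' {x y} hx hy := by
    simp only [Set.mem_ofPred_eq] at hx hy ⊢
    simp [Finset.sum_add_distrib, hx, hy]
  zero_mem' := by simp
  smul_mem' c x hx := by
    simp only [Set.mem_ofPred_eq] at hx ⊢
    simp [← Finset.mul_sum, hx]

/-- The subspace of vectors supported on the infinite places. -/
def infSupported (S : Finset (HeightOneSpectrum (𝓞 K))) : Submodule ℝ (Pl K S → ℝ) where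
  carrier := {x | ∀ v : S, x (Sum.inr v) = 0}
  add_mem' {x y} hx hy v := by
    simp [hx v, hy v]
  zero_mem' v := rfl
  smul_mem' c x hx v := by
    simp [hx v]

/-- Forgetting the coordinates outside `∞ ∖ {w₀}`. -/
def toLogSpace (S : Finset (HeightOneSpectrum (𝓞 K))) :
    (Pl K S → ℝ) →ₗ[ℝ] NumberField.Units.dirichletUnitTheorem.logSpace K :=
  LinearMap.pi fun w => LinearMap.proj (Sum.inl w.1)

variable {K}

theorem mem_hyperplane (S : Finset (HeightOneSpectrum (𝓞 K))) (x : Pl K S → ℝ) :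
    x ∈ hyperplane K S ↔ ∑ i, x i = 0 := Iff.rfl

theorem mem_infSupported (S : Finset (HeightOneSpectrum (𝓞 K))) (x : Pl K S → ℝ) :
    x ∈ infSupported K S ↔ ∀ v : S, x (Sum.inr v) = 0 := Iff.rfl

@[simp] theorem toLogSpace_apply (S : Finset (HeightOneSpectrum (𝓞 K))) (x : Pl K S → ℝ)
    (w : {w : InfinitePlace K // w ≠ NumberField.Units.dirichletUnitTheorem.w₀}) :
    toLogSpace K S x w = x (Sum.inl w.1) := rfl

theorem logS_mem_hyperplane (S : Finset (HeightOneSpectrum (𝓞 K))) (u : Additive (SUnits K S)) :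
    logS K S u ∈ hyperplane K S := sum_logS S u

theorem toLogSpace_logS_ofUnit (S : Finset (HeightOneSpectrum (𝓞 K))) (ε : (𝓞 K)ˣ) :
    toLogSpace K S (logS K S (Additive.ofMul (ofUnit K S ε))) =
      NumberField.Units.logEmbedding K (Additive.ofMul ε) := by
  funext w
  rfl

/-- On the trace-zero vectors supported at infinity, forgetting the `w₀`-coordinate is
injective. -/
theorem eq_zero_of_toLogSpace_eq_zero (S : Finset (HeightOneSpectrum (𝓞 K))) {x : Pl K S → ℝ}
    (h1 : x ∈ hyperplane K S) (h2 : x ∈ infSupported K S) (h3 : toLogSpace K S x = 0) :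
    x = 0 := by
  classical
  have hinl : ∀ w : InfinitePlace K, w ≠ NumberField.Units.dirichletUnitTheorem.w₀ →
      x (Sum.inl w) = 0 := fun w hw => congrFun h3 ⟨w, hw⟩
  have hsum : ∑ i, x i = 0 := h1
  rw [Fintype.sum_sum_type] at hsum
  have hS : ∑ v : S, x (Sum.inr v) = 0 := Finset.sum_eq_zero fun v _ => h2 v
  rw [hS, add_zero,
    Finset.sum_eq_single_of_mem NumberField.Units.dirichletUnitTheorem.w₀ (Finset.mem_univ _)
      (fun w _ hw => hinl w hw)] at hsum
  funext i
  rcases i with w | v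
  · by_cases hw : w = NumberField.Units.dirichletUnitTheorem.w₀
    · rw [hw]; exact hsum
    · exact hinl w hw
  · exact h2 v

/-- (U4) The image of `logS` spans the hyperplane `∑ x_i = 0`. -/
theorem span_range_logS (S : Finset (HeightOneSpectrum (𝓞 K))) :
    Submodule.span ℝ (Set.range (logS K S)) = hyperplane K S := by
  classical
  apply le_antisymm
  · rw [Submodule.span_le]
    rintro _ ⟨u, rfl⟩
    exact logS_mem_hyperplane S u
  · intro x hx
    choose u hu1 hu2 using exists_sunit_at (K := K) S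
    set y : Pl K S → ℝ := x - ∑ v : S, (x (Sum.inr v) / logS K S (Additive.ofMul (u v)) (Sum.inr v)) •
      logS K S (Additive.ofMul (u v)) with hy
    have hsub : ∑ v : S, (x (Sum.inr v) / logS K S (Additive.ofMul (u v)) (Sum.inr v)) •
        logS K S (Additive.ofMul (u v)) ∈ Submodule.span ℝ (Set.range (logS K S)) :=
      Submodule.sum_mem _ fun v _ => Submodule.smul_mem _ _ (Submodule.subset_span ⟨_, rfl⟩)
    have hyH : y ∈ hyperplane K S := by
      refine Submodule.sub_mem _ hx ?_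
      exact Submodule.sum_mem _ fun v _ => Submodule.smul_mem _ _ (logS_mem_hyperplane S _)
    have hyI : y ∈ infSupported K S := by
      intro v'
      rw [hy]
      simp only [Pi.sub_apply, Finset.sum_apply, Pi.smul_apply, smul_eq_mul]
      rw [Finset.sum_eq_single_of_mem v' (Finset.mem_univ _) (fun v _ hv => by
        rw [hu2 v v' (Ne.symm hv), mul_zero]), div_mul_cancel₀ _ (hu1 v'), sub_self]
    -- the part supported at infinity comes from the units
    set A : Set (Pl K S → ℝ) := Set.range fun ε : (𝓞 K)ˣ => logS K S (Additive.ofMul (ofUnit K S ε))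
      with hA
    have hAspan : Submodule.span ℝ A ≤ Submodule.span ℝ (Set.range (logS K S)) := by
      apply Submodule.span_mono
      rintro _ ⟨ε, rfl⟩
      exact ⟨_, rfl⟩
    have hAH : Submodule.span ℝ A ≤ hyperplane K S := by
      rw [Submodule.span_le]
      rintro _ ⟨ε, rfl⟩
      exact logS_mem_hyperplane S _
    have hAI : Submodule.span ℝ A ≤ infSupported K S := by
      rw [Submodule.span_le]
      rintro _ ⟨ε, rfl⟩
      exact fun v => logS_ofUnit_inr S ε v
    have himage : (toLogSpace K S) '' A =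
        (NumberField.Units.unitLattice K : Set (NumberField.Units.dirichletUnitTheorem.logSpace K)) := by
      ext z
      constructor
      · rintro ⟨_, ⟨ε, rfl⟩, rfl⟩
        rw [toLogSpace_logS_ofUnit]
        exact ⟨Additive.ofMul ε, trivial, rfl⟩
      · rintro ⟨ε, _, rfl⟩
        obtain ⟨ε, rfl⟩ := Additive.ofMul.surjective ε
        exact ⟨_, ⟨ε, rfl⟩, toLogSpace_logS_ofUnit S ε⟩
    have hmap : Submodule.map (toLogSpace K S) (Submodule.span ℝ A) = ⊤ := by
      rw [Submodule.map_span, himage]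
      exact NumberField.Units.dirichletUnitTheorem.unitLattice_span_eq_top K
    have hz : toLogSpace K S y ∈ Submodule.map (toLogSpace K S) (Submodule.span ℝ A) := by
      rw [hmap]; trivial
    obtain ⟨z, hz, hzy⟩ := hz
    have hyz : y - z = 0 := eq_zero_of_toLogSpace_eq_zero S
      (Submodule.sub_mem _ hyH (hAH hz)) (Submodule.sub_mem _ hyI (hAI hz))
      (by rw [map_sub, hzy, sub_self])
    have hyz' : y = z := sub_eq_zero.1 hyz
    have hxy : x = y + ∑ v : S, (x (Sum.inr v) / logS K S (Additive.ofMul (u v)) (Sum.inr v)) •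
        logS K S (Additive.ofMul (u v)) := by
      rw [hy]; abel
    rw [hxy]
    exact Submodule.add_mem _ (hyz' ▸ hAspan hz) hsub


/-! ### The full lattice `Λ = logS(E_S) + ℤ·𝟙` -/

variable (K)

/-- The full lattice `logS(E_S) + ℤ·𝟙` in `ℝ^(∞ ⊔ S)`; `𝟙` is the all-ones vector (fixed by all
permutations of the places). -/
def latS (S : Finset (HeightOneSpectrum (𝓞 K))) : Submodule ℤ (Pl K S → ℝ) :=
  AddSubgroup.toIntSubmodule ((logS K S).range ⊔ AddSubgroup.zmultiples (1 : Pl K S → ℝ))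

variable {K}

theorem mem_latS (S : Finset (HeightOneSpectrum (𝓞 K))) (x : Pl K S → ℝ) :
    x ∈ latS K S ↔ ∃ (u : Additive (SUnits K S)) (n : ℤ), logS K S u + n • (1 : Pl K S → ℝ) = x := by
  change x ∈ ((logS K S).range ⊔ AddSubgroup.zmultiples (1 : Pl K S → ℝ)) ↔ _
  rw [AddSubgroup.mem_sup]
  constructor
  · rintro ⟨_, ⟨u, rfl⟩, z, hz, rfl⟩
    obtain ⟨n, rfl⟩ := AddSubgroup.mem_zmultiples_iff.1 hz
    exact ⟨u, n, rfl⟩
  · rintro ⟨u, n, rfl⟩
    exact ⟨_, ⟨u, rfl⟩, _, AddSubgroup.mem_zmultiples_iff.2 ⟨n, rfl⟩, rfl⟩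

theorem logS_mem_latS (S : Finset (HeightOneSpectrum (𝓞 K))) (u : Additive (SUnits K S)) :
    logS K S u ∈ latS K S := (mem_latS S _).2 ⟨u, 0, by simp⟩

theorem one_mem_latS (S : Finset (HeightOneSpectrum (𝓞 K))) : (1 : Pl K S → ℝ) ∈ latS K S :=
  (mem_latS S _).2 ⟨0, 1, by simp⟩

theorem range_logS_le_latS (S : Finset (HeightOneSpectrum (𝓞 K))) :
    (logS K S).range ≤ (latS K S).toAddSubgroup := by
  rintro _ ⟨u, rfl⟩
  exact logS_mem_latS S u

/-- A point of `Λ` in a small ball lies in `logS(E_S)`. -/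
theorem mem_range_logS_of_mem_latS_of_norm_le (S : Finset (HeightOneSpectrum (𝓞 K)))
    {x : Pl K S → ℝ} (hx : x ∈ latS K S) (hn : ‖x‖ ≤ Real.log 2 / 2) :
    x ∈ (logS K S).range := by
  obtain ⟨u, n, rfl⟩ := (mem_latS S x).1 hx
  have hlog2 : Real.log 2 < 1 := by
    have := Real.log_two_lt_d9
    linarith
  have hlog2' : 0 < Real.log 2 := Real.log_pos (by norm_num)
  have hcard : 0 < (Fintype.card (Pl K S) : ℝ) := by
    exact_mod_cast Fintype.card_pos
  have hpt : ∀ i, (logS K S u + n • (1 : Pl K S → ℝ)) i = logS K S u i + n := fun i => by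
    rw [Pi.add_apply, Pi.smul_apply, Pi.one_apply, zsmul_eq_mul, mul_one]
  have hsum : ∑ i, (logS K S u + n • (1 : Pl K S → ℝ)) i = n * Fintype.card (Pl K S) := by
    simp only [hpt, Finset.sum_add_distrib, sum_logS, zero_add, Finset.sum_const,
      Finset.card_univ, nsmul_eq_mul]
    ring
  have hbound : |∑ i, (logS K S u + n • (1 : Pl K S → ℝ)) i| ≤
      Fintype.card (Pl K S) * (Real.log 2 / 2) := by
    refine (Finset.abs_sum_le_sum_abs _ _).trans ?_
    have : ∀ i ∈ (Finset.univ : Finset (Pl K S)),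
        |(logS K S u + n • (1 : Pl K S → ℝ)) i| ≤ Real.log 2 / 2 := fun i _ =>
      (norm_le_pi_norm _ i).trans hn
    refine (Finset.sum_le_card_nsmul _ _ _ this).trans ?_
    simp
  rw [hsum, abs_mul, abs_of_pos hcard] at hbound
  have hn1 : |(n : ℝ)| < 1 := by
    rcases lt_or_ge |(n : ℝ)| 1 with h | h
    · exact h
    · nlinarith
  have hn0 : n = 0 := by
    have : |n| < 1 := by exact_mod_cast hn1
    exact Int.abs_lt_one_iff.1 this
  subst hn0
  exact ⟨u, by simp⟩

instance instDiscreteLatS (S : Finset (HeightOneSpectrum (𝓞 K))) :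
    DiscreteTopology (latS K S) := by
  refine discreteTopology_of_isOpen_singleton_zero ?_
  refine isOpen_singleton_of_finite_mem_nhds 0 (s := Metric.closedBall 0 (Real.log 2 / 2)) ?_ ?_
  · exact Metric.closedBall_mem_nhds _ (by
      have : 0 < Real.log 2 := Real.log_pos (by norm_num)
      positivity)
  · refine Set.Finite.of_finite_image ?_ (Set.injOn_of_injective Subtype.val_injective)
    refine (range_logS_inter_ball_finite S).subset ?_
    rintro _ ⟨x, hx, rfl⟩
    have hx' : ‖(x : Pl K S → ℝ)‖ ≤ Real.log 2 / 2 := by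
      have := mem_closedBall_zero_iff.1 hx
      exact this
    exact ⟨mem_range_logS_of_mem_latS_of_norm_le S x.2 hx', mem_closedBall_zero_iff.2 hx'⟩

/-- (U5) `Λ` spans `ℝ^(∞ ⊔ S)`. -/
theorem span_latS (S : Finset (HeightOneSpectrum (𝓞 K))) :
    Submodule.span ℝ (latS K S : Set (Pl K S → ℝ)) = ⊤ := by
  rw [eq_top_iff]
  intro x _
  have hcard : (Fintype.card (Pl K S) : ℝ) ≠ 0 := by
    exact_mod_cast Fintype.card_ne_zero
  set m : ℝ := (∑ i, x i) / Fintype.card (Pl K S) with hm
  have h1 : x - m • (1 : Pl K S → ℝ) ∈ hyperplane K S := by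
    rw [mem_hyperplane]
    simp only [Pi.sub_apply, Pi.smul_apply, Pi.one_apply, smul_eq_mul, mul_one,
      Finset.sum_sub_distrib, Finset.sum_const, Finset.card_univ, nsmul_eq_mul]
    rw [hm]; field_simp; ring
  rw [← span_range_logS] at h1
  have h2 : Submodule.span ℝ (Set.range (logS K S)) ≤
      Submodule.span ℝ (latS K S : Set (Pl K S → ℝ)) := by
    apply Submodule.span_mono
    rintro _ ⟨u, rfl⟩
    exact logS_mem_latS S u
  have h3 : m • (1 : Pl K S → ℝ) ∈ Submodule.span ℝ (latS K S : Set (Pl K S → ℝ)) :=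
    Submodule.smul_mem _ _ (Submodule.subset_span (one_mem_latS S))
  have := Submodule.add_mem _ (h2 h1) h3
  simpa using this

/-- (U5) `Λ = logS(E_S) + ℤ·𝟙` is a full `ℤ`-lattice in `ℝ^(∞ ⊔ S)`. -/
instance instIsZLatticeLatS (S : Finset (HeightOneSpectrum (𝓞 K))) : IsZLattice ℝ (latS K S) where
  span_top := span_latS S


/-! ### The exact sequence `0 → logS(E_S) → Λ → ℤ → 0` -/

theorem sum_eq_of_mem_latS (S : Finset (HeightOneSpectrum (𝓞 K))) (u : Additive (SUnits K S))
    (n : ℤ) : ∑ i, (logS K S u + n • (1 : Pl K S → ℝ)) i = n * Fintype.card (Pl K S) := by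
  have hpt : ∀ i, (logS K S u + n • (1 : Pl K S → ℝ)) i = logS K S u i + n := fun i => by
    rw [Pi.add_apply, Pi.smul_apply, Pi.one_apply, zsmul_eq_mul, mul_one]
  simp only [hpt, Finset.sum_add_distrib, sum_logS, zero_add, Finset.sum_const,
    Finset.card_univ, nsmul_eq_mul]
  ring

/-- For `x ∈ Λ` the mean of the coordinates is an integer. -/
theorem exists_int_of_mem_latS (S : Finset (HeightOneSpectrum (𝓞 K))) {x : Pl K S → ℝ}
    (hx : x ∈ latS K S) : ∃ n : ℤ, ∑ i, x i = n * Fintype.card (Pl K S) := by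
  obtain ⟨u, n, rfl⟩ := (mem_latS S x).1 hx
  exact ⟨n, sum_eq_of_mem_latS S u n⟩

variable (K)

/-- The mean of the coordinates, rounded down (an honest integer on `Λ`). -/
def degFun (S : Finset (HeightOneSpectrum (𝓞 K))) (x : Pl K S → ℝ) : ℤ :=
  ⌊(∑ i, x i) / Fintype.card (Pl K S)⌋

variable {K}

theorem degFun_spec (S : Finset (HeightOneSpectrum (𝓞 K))) {x : Pl K S → ℝ} (hx : x ∈ latS K S) :
    ∑ i, x i = (degFun K S x : ℝ) * Fintype.card (Pl K S) := by
  obtain ⟨n, hn⟩ := exists_int_of_mem_latS S hx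
  have hcard : (Fintype.card (Pl K S) : ℝ) ≠ 0 := by exact_mod_cast Fintype.card_ne_zero
  unfold degFun
  rw [hn, mul_div_assoc, div_self hcard, mul_one, Int.floor_intCast]

variable (K)

/-- The degree map `Λ → ℤ`, `logS u + n·𝟙 ↦ n` (the mean of the coordinates). -/
def degLat (S : Finset (HeightOneSpectrum (𝓞 K))) : latS K S →+ ℤ where
  toFun x := degFun K S x
  map_zero' := by
    simp [degFun]
  map_add' x y := by
    have hx := degFun_spec S x.2
    have hy := degFun_spec S y.2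
    have hxy := degFun_spec S (x + y).2
    have hcard : (Fintype.card (Pl K S) : ℝ) ≠ 0 := by exact_mod_cast Fintype.card_ne_zero
    have h3 : ∑ i, ((x + y : latS K S) : Pl K S → ℝ) i =
        ∑ i, (x : Pl K S → ℝ) i + ∑ i, (y : Pl K S → ℝ) i := by
      rw [← Finset.sum_add_distrib]
      rfl
    rw [h3, hx, hy, ← add_mul] at hxy
    have h2 := mul_right_cancel₀ hcard hxy
    exact_mod_cast h2.symm

variable {K}

theorem degLat_spec (S : Finset (HeightOneSpectrum (𝓞 K))) (x : latS K S) :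
    ∑ i, (x : Pl K S → ℝ) i = (degLat K S x : ℝ) * Fintype.card (Pl K S) :=
  degFun_spec S x.2

theorem degLat_apply (S : Finset (HeightOneSpectrum (𝓞 K))) (u : Additive (SUnits K S)) (n : ℤ)
    (h : logS K S u + n • (1 : Pl K S → ℝ) ∈ latS K S) :
    degLat K S ⟨_, h⟩ = n := by
  have h1 := degLat_spec S ⟨_, h⟩
  have hcard : (Fintype.card (Pl K S) : ℝ) ≠ 0 := by exact_mod_cast Fintype.card_ne_zero
  rw [sum_eq_of_mem_latS] at h1
  have h2 := mul_right_cancel₀ hcard h1
  exact_mod_cast h2.symm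

theorem degLat_surjective (S : Finset (HeightOneSpectrum (𝓞 K))) :
    Function.Surjective (degLat K S) := fun n =>
  ⟨⟨_, (mem_latS S _).2 ⟨0, n, rfl⟩⟩, degLat_apply S 0 n _⟩

/-- The kernel of the degree map is exactly the image of `logS`. -/
theorem degLat_eq_zero_iff (S : Finset (HeightOneSpectrum (𝓞 K))) (x : latS K S) :
    degLat K S x = 0 ↔ (x : Pl K S → ℝ) ∈ (logS K S).range := by
  obtain ⟨x, hx⟩ := x
  obtain ⟨u, n, rfl⟩ := (mem_latS S x).1 hx
  rw [degLat_apply S u n hx]
  constructor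
  · rintro rfl
    exact ⟨u, by simp⟩
  · rintro ⟨u', hu'⟩
    have h1 := sum_eq_of_mem_latS S u n
    have hu'' : logS K S u' = logS K S u + n • (1 : Pl K S → ℝ) := hu'
    rw [← hu'', sum_logS] at h1
    have hcard : (Fintype.card (Pl K S) : ℝ) ≠ 0 := by exact_mod_cast Fintype.card_ne_zero
    have h2 := (mul_eq_zero.1 h1.symm).resolve_right hcard
    exact_mod_cast h2

/-- The degree of a vector of `Λ` only depends on the sum of its coordinates, hence it is
invariant under every permutation of the places. -/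
theorem degLat_eq_of_sum_eq (S : Finset (HeightOneSpectrum (𝓞 K))) (x y : latS K S)
    (h : ∑ i, (x : Pl K S → ℝ) i = ∑ i, (y : Pl K S → ℝ) i) : degLat K S x = degLat K S y := by
  have hcard : (Fintype.card (Pl K S) : ℝ) ≠ 0 := by exact_mod_cast Fintype.card_ne_zero
  rw [degLat_spec, degLat_spec] at h
  have h2 := mul_right_cancel₀ hcard h
  exact_mod_cast h2

/-- `Λ` is stable under every permutation of the places that preserves `logS(E_S)`. -/
theorem comp_mem_latS (S : Finset (HeightOneSpectrum (𝓞 K))) (τ : Pl K S ≃ Pl K S)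
    (hτ : ∀ u : Additive (SUnits K S), (logS K S u) ∘ τ ∈ (logS K S).range)
    {x : Pl K S → ℝ} (hx : x ∈ latS K S) : x ∘ τ ∈ latS K S := by
  obtain ⟨u, n, rfl⟩ := (mem_latS S x).1 hx
  obtain ⟨u', hu'⟩ := hτ u
  refine (mem_latS S _).2 ⟨u', n, ?_⟩
  rw [hu']
  funext i
  simp

end

end Fermat.Agent.CFT.Global.SUnitLattice
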