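import Mathlib
import Fermat.Agent.CFT.Global.SUnitLattice

set_option autoImplicit false
set_option linter.unusedSectionVars false

namespace Fermat.Agent.CFT.Global.SUnitLattice

open NumberField IsDedekindDomain HeightOneSpectrum
open scoped nonZeroDivisors

noncomputable section

variable {K : Type*} [Field K] [NumberField K]

/-! ### Finiteness of bounded sets of `S`-units, sign-pattern `S`-units -/

/-- Only finitely many points of `logS(E_S)` lie in a bounded set. -/
theorem range_logS_inter_closedBall_finite (S : Finset (HeightOneSpectrum (𝓞 K))) (r : ℝ) :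
    (Metric.closedBall (0 : Pl K S → ℝ) r ∩ ((logS K S).range : Set (Pl K S → ℝ))).Finite := by
  have hd : DiscreteTopology ((logS K S).range : Set (Pl K S → ℝ)) := instDiscreteRangeLogS S
  refine Metric.finite_isBounded_inter_isClosed (isDiscrete_iff_discreteTopology.2 hd)
    Metric.isBounded_closedBall ?_
  exact AddSubgroup.isClosed_of_discrete

/-- Only finitely many `S`-units have all logarithmic coordinates bounded by `r`. -/
theorem finite_logS_le (S : Finset (HeightOneSpectrum (𝓞 K))) (r : ℝ) :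
    {u : Additive (SUnits K S) | ∀ i, |logS K S u i| ≤ r}.Finite := by
  rcases lt_or_ge r 0 with hr | hr
  · convert Set.finite_empty
    ext u
    simp only [Set.mem_ofPred_eq, Set.mem_empty_iff_false, iff_false, not_forall, not_le]
    obtain ⟨i⟩ : Nonempty (Pl K S) := inferInstance
    exact ⟨i, lt_of_lt_of_le hr (abs_nonneg _)⟩
  have hfin := range_logS_inter_closedBall_finite S r
  refine Set.Finite.of_finite_fibers (logS K S) (hfin.subset ?_) ?_
  · rintro _ ⟨u, hu, rfl⟩
    refine ⟨?_, u, rfl⟩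
    rw [mem_closedBall_zero_iff, pi_norm_le_iff_of_nonneg hr]
    exact hu
  · rintro _ ⟨u₀, _, rfl⟩
    have hker : (Set.univ : Set (logS K S).ker).Finite := by
      have := finite_ker_logS S
      exact Set.finite_univ
    refine (hker.image (fun k : (logS K S).ker => (k : Additive (SUnits K S)) + u₀)).subset ?_
    rintro u ⟨_, hu⟩
    refine ⟨⟨u - u₀, ?_⟩, trivial, by simp⟩
    rw [AddMonoidHom.mem_ker, map_sub, sub_eq_zero]
    exact hu

/-- Sign-pattern `S`-units: for every place `i₀ ∈ ∞ ⊔ S` there is an `S`-unit whose normalised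
absolute value is `< 1` at all the other places of `∞ ⊔ S`. -/
theorem exists_sunit_neg (S : Finset (HeightOneSpectrum (𝓞 K))) (i₀ : Pl K S) :
    ∃ u : Additive (SUnits K S), ∀ i, i ≠ i₀ → logS K S u i < 0 := by
  classical
  -- the target direction: `-1` away from `i₀`
  set c : Pl K S → ℝ := fun i => if i = i₀ then (Fintype.card (Pl K S) : ℝ) - 1 else -1 with hc
  have hcH : c ∈ hyperplane K S := by
    rw [mem_hyperplane, ← Finset.add_sum_erase _ _ (Finset.mem_univ i₀)]
    have h1 : c i₀ = (Fintype.card (Pl K S) : ℝ) - 1 := by simp [hc]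
    have h2 : ∑ i ∈ Finset.univ.erase i₀, c i = ∑ i ∈ Finset.univ.erase i₀, (-1 : ℝ) := by
      refine Finset.sum_congr rfl fun i hi => ?_
      simp [hc, Finset.ne_of_mem_erase hi]
    rw [h1, h2, Finset.sum_const, Finset.card_erase_of_mem (Finset.mem_univ _), Finset.card_univ,
      nsmul_eq_mul, Nat.cast_sub Fintype.card_pos]
    simp
  rw [← span_range_logS, Finsupp.mem_span_range_iff_exists_finsupp] at hcH
  obtain ⟨t, ht⟩ := hcH
  -- a bound for the rounding error
  set D : ℝ := ∑ j ∈ t.support, ‖logS K S j‖ with hD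
  obtain ⟨N, hN⟩ := exists_nat_gt D
  refine ⟨∑ j ∈ t.support, ⌊(N : ℝ) * t j⌋ • j, fun i hi => ?_⟩
  have hci : c i = -1 := by simp [hc, hi]
  have hsum : ∑ j ∈ t.support, t j * logS K S j i = c i := by
    have := congrFun ht i
    rw [Finsupp.sum, Finset.sum_apply] at this
    simpa using this
  rw [map_sum, Finset.sum_apply]
  have hle : ∑ j ∈ t.support, (logS K S (⌊(N : ℝ) * t j⌋ • j)) i ≤
      ∑ j ∈ t.support, ((N : ℝ) * (t j * logS K S j i) + ‖logS K S j‖) := by
    refine Finset.sum_le_sum fun j _ => ?_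
    rw [map_zsmul, Pi.smul_apply, zsmul_eq_mul]
    have h1 : |logS K S j i| ≤ ‖logS K S j‖ := norm_le_pi_norm (logS K S j) i
    have h2 : |(⌊(N : ℝ) * t j⌋ : ℝ) - (N : ℝ) * t j| ≤ 1 := by
      rw [abs_le]
      constructor
      · linarith [Int.lt_floor_add_one ((N : ℝ) * t j)]
      · linarith [Int.floor_le ((N : ℝ) * t j)]
    have h3 : ((⌊(N : ℝ) * t j⌋ : ℝ) - (N : ℝ) * t j) * logS K S j i ≤ ‖logS K S j‖ := by
      calc ((⌊(N : ℝ) * t j⌋ : ℝ) - (N : ℝ) * t j) * logS K S j i
          ≤ |((⌊(N : ℝ) * t j⌋ : ℝ) - (N : ℝ) * t j) * logS K S j i| := le_abs_self _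
        _ = |(⌊(N : ℝ) * t j⌋ : ℝ) - (N : ℝ) * t j| * |logS K S j i| := abs_mul _ _
        _ ≤ 1 * ‖logS K S j‖ := mul_le_mul h2 h1 (abs_nonneg _) zero_le_one
        _ = ‖logS K S j‖ := one_mul _
    linarith
  refine lt_of_le_of_lt hle ?_
  rw [Finset.sum_add_distrib, ← Finset.mul_sum, hsum, hci, ← hD]
  linarith


/-! ### Equivariance under field automorphisms -/

/-- The permutation of the infinite places induced by a field automorphism: `w ↦ w ∘ σ⁻¹`
(for `σ : Gal(K/k)` this is Mathlib's `σ • w`). -/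
def infMap (σ : K ≃+* K) : InfinitePlace K ≃ InfinitePlace K where
  toFun w := w.comap (σ.symm : K →+* K)
  invFun w := w.comap (σ : K →+* K)
  left_inv w := by
    apply InfinitePlace.ext
    intro x
    simp
  right_inv w := by
    apply InfinitePlace.ext
    intro x
    simp

theorem infMap_apply (σ : K ≃+* K) (w : InfinitePlace K) (x : K) :
    infMap σ w (σ x) = w x := by
  simp [infMap]

theorem mult_infMap (σ : K ≃+* K) (w : InfinitePlace K) : (infMap σ w).mult = w.mult := by
  have h : InfinitePlace.IsReal (infMap σ w) ↔ InfinitePlace.IsReal w :=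
    InfinitePlace.isReal_comap_iff (f := σ.symm)
  rw [InfinitePlace.mult, InfinitePlace.mult]
  by_cases hw : InfinitePlace.IsReal w
  · rw [if_pos hw, if_pos (h.2 hw)]
  · rw [if_neg hw, if_neg (fun h' => hw (h.1 h'))]

/-- The permutation of the primes induced by a field automorphism: `v ↦ σ(v)`. -/
def primeMap (σ : K ≃+* K) : HeightOneSpectrum (𝓞 K) ≃ HeightOneSpectrum (𝓞 K) :=
  HeightOneSpectrum.equivOfRingEquiv (RingOfIntegers.mapRingEquiv σ)

theorem primeMap_asIdeal (σ : K ≃+* K) (v : HeightOneSpectrum (𝓞 K)) :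
    (primeMap σ v).asIdeal = v.asIdeal.map (RingOfIntegers.mapRingEquiv σ) := by
  change v.asIdeal.comap ((RingOfIntegers.mapRingEquiv σ).symm : 𝓞 K →+* 𝓞 K) = _
  exact Ideal.comap_symm (RingOfIntegers.mapRingEquiv σ)

theorem mem_primeMap_pow (σ : K ≃+* K) (v : HeightOneSpectrum (𝓞 K)) (a : 𝓞 K) (n : ℕ) :
    RingOfIntegers.mapRingEquiv σ a ∈ (primeMap σ v).asIdeal ^ n ↔ a ∈ v.asIdeal ^ n := by
  rw [primeMap_asIdeal, ← Ideal.map_pow, ← Ideal.comap_symm, Ideal.mem_comap]
  simp

theorem intValuation_primeMap (σ : K ≃+* K) (v : HeightOneSpectrum (𝓞 K)) (a : 𝓞 K) :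
    (primeMap σ v).intValuation (RingOfIntegers.mapRingEquiv σ a) = v.intValuation a := by
  by_cases ha : a = 0
  · subst ha; simp
  have ha' : RingOfIntegers.mapRingEquiv σ a ≠ 0 := by
    simpa using ha
  have key : ∀ n : ℕ, (primeMap σ v).intValuation (RingOfIntegers.mapRingEquiv σ a) ≤
      WithZero.exp (-(n : ℤ)) ↔ v.intValuation a ≤ WithZero.exp (-(n : ℤ)) := fun n => by
    rw [intValuation_le_pow_iff_mem, intValuation_le_pow_iff_mem, mem_primeMap_pow]
  rw [(primeMap σ v).intValuation_if_neg ha', v.intValuation_if_neg ha] at key ⊢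
  set k := (Associates.mk (primeMap σ v).asIdeal).count
    (Associates.mk (Ideal.span {RingOfIntegers.mapRingEquiv σ a} : Ideal (𝓞 K))).factors
  set l := (Associates.mk v.asIdeal).count (Associates.mk (Ideal.span {a} : Ideal (𝓞 K))).factors
  have h1 := (key k).1 le_rfl
  have h2 := (key l).2 le_rfl
  rw [WithZero.exp_le_exp] at h1 h2
  have : k = l := by omega
  rw [this]

theorem valuation_primeMap (σ : K ≃+* K) (v : HeightOneSpectrum (𝓞 K)) (x : K) :
    (primeMap σ v).valuation K (σ x) = v.valuation K x := by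
  obtain ⟨a, b, hb, rfl⟩ := IsFractionRing.div_surjective (A := 𝓞 K) x
  have h1 : ∀ c : 𝓞 K, σ (algebraMap (𝓞 K) K c) =
      algebraMap (𝓞 K) K (RingOfIntegers.mapRingEquiv σ c) := fun c => rfl
  rw [map_div₀, h1, h1, map_div₀, map_div₀, valuation_of_algebraMap, valuation_of_algebraMap,
    valuation_of_algebraMap, valuation_of_algebraMap, intValuation_primeMap, intValuation_primeMap]

theorem absNorm_primeMap (σ : K ≃+* K) (v : HeightOneSpectrum (𝓞 K)) :
    Ideal.absNorm (primeMap σ v).asIdeal = Ideal.absNorm v.asIdeal := by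
  rw [Ideal.absNorm_apply, Ideal.absNorm_apply, Submodule.cardQuot_apply, Submodule.cardQuot_apply]
  exact (Nat.card_congr (Ideal.quotientEquiv v.asIdeal (primeMap σ v).asIdeal
    (RingOfIntegers.mapRingEquiv σ) (primeMap_asIdeal σ v)).toEquiv).symm

theorem toNNReal_congr {e e' : NNReal} (he : e ≠ 0) (he' : e' ≠ 0) (h : e = e')
    (x : WithZero (Multiplicative ℤ)) :
    WithZeroMulInt.toNNReal he x = WithZeroMulInt.toNNReal he' x := by
  subst h; rfl

theorem finitePlace_mk_primeMap (σ : K ≃+* K) (v : HeightOneSpectrum (𝓞 K)) (x : K) :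
    FinitePlace.mk (primeMap σ v) (σ x) = FinitePlace.mk v x := by
  rw [finitePlace_mk_eq, finitePlace_mk_eq, valuation_primeMap]
  congr 1
  exact toNNReal_congr _ _ (by rw [absNorm_primeMap]) _

/-- A field automorphism preserving `S` acts on the `S`-units. -/
def sunitMap (σ : K ≃+* K) (S : Finset (HeightOneSpectrum (𝓞 K)))
    (hS : ∀ v, primeMap σ v ∈ S ↔ v ∈ S) : SUnits K S →* SUnits K S where
  toFun u := ⟨Units.map (σ : K →* K) (u : Kˣ), fun v hv => by
    have h1 : v = primeMap σ ((primeMap σ).symm v) := by simp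
    have h2 : (primeMap σ).symm v ∉ S := by
      rw [← hS, ← h1]
      simpa using hv
    rw [h1]
    exact (valuation_primeMap σ _ _).trans (Set.unit_valuation_eq_one _ K u (by simpa using h2))⟩
  map_one' := by
    apply Subtype.ext
    simp
  map_mul' u u' := by
    apply Subtype.ext
    simp

@[simp] theorem coe_sunitMap (σ : K ≃+* K) (S : Finset (HeightOneSpectrum (𝓞 K)))
    (hS : ∀ v, primeMap σ v ∈ S ↔ v ∈ S) (u : SUnits K S) :
    (((sunitMap σ S hS u : SUnits K S) : Kˣ) : K) = σ ((u : Kˣ) : K) := rfl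

/-- The permutation of the places of `∞ ⊔ S` induced by a field automorphism preserving `S`. -/
def placeMap (σ : K ≃+* K) (S : Finset (HeightOneSpectrum (𝓞 K)))
    (hS : ∀ v, primeMap σ v ∈ S ↔ v ∈ S) : Pl K S ≃ Pl K S :=
  Equiv.sumCongr (infMap σ) ((primeMap σ).subtypeEquiv (fun v => (hS v).symm))

@[simp] theorem placeMap_inl (σ : K ≃+* K) (S : Finset (HeightOneSpectrum (𝓞 K)))
    (hS : ∀ v, primeMap σ v ∈ S ↔ v ∈ S) (w : InfinitePlace K) :
    placeMap σ S hS (Sum.inl w) = Sum.inl (infMap σ w) := rfl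

@[simp] theorem placeMap_inr (σ : K ≃+* K) (S : Finset (HeightOneSpectrum (𝓞 K)))
    (hS : ∀ v, primeMap σ v ∈ S ↔ v ∈ S) (v : S) :
    placeMap σ S hS (Sum.inr v) = Sum.inr ⟨primeMap σ v.1, (hS v.1).2 v.2⟩ := rfl

/-- (U6) Equivariance of the logarithmic embedding: `logS (σ u) (σ i) = logS u i`. -/
theorem logS_sunitMap (σ : K ≃+* K) (S : Finset (HeightOneSpectrum (𝓞 K)))
    (hS : ∀ v, primeMap σ v ∈ S ↔ v ∈ S) (u : SUnits K S) (i : Pl K S) :
    logS K S (Additive.ofMul (sunitMap σ S hS u)) (placeMap σ S hS i) =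
      logS K S (Additive.ofMul u) i := by
  rcases i with w | v
  · rw [placeMap_inl, logS_apply_inl, logS_apply_inl, coe_sunitMap, infMap_apply, mult_infMap]
  · rw [placeMap_inr, logS_apply_inr, logS_apply_inr, coe_sunitMap]
    exact congrArg Real.log (finitePlace_mk_primeMap σ v.1 _)

/-- (U6), function form: `logS (σ u) = logS u ∘ σ⁻¹`. -/
theorem logS_sunitMap_eq_comp (σ : K ≃+* K) (S : Finset (HeightOneSpectrum (𝓞 K)))
    (hS : ∀ v, primeMap σ v ∈ S ↔ v ∈ S) (u : SUnits K S) :
    logS K S (Additive.ofMul (sunitMap σ S hS u)) =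
      logS K S (Additive.ofMul u) ∘ (placeMap σ S hS).symm := by
  funext i
  have := logS_sunitMap σ S hS u ((placeMap σ S hS).symm i)
  rw [Equiv.apply_symm_apply] at this
  exact this

/-- The lattice `Λ` is stable under the permutation induced by a field automorphism. -/
theorem comp_placeMap_symm_mem_latS (σ : K ≃+* K) (S : Finset (HeightOneSpectrum (𝓞 K)))
    (hS : ∀ v, primeMap σ v ∈ S ↔ v ∈ S) {x : Pl K S → ℝ} (hx : x ∈ latS K S) :
    x ∘ (placeMap σ S hS).symm ∈ latS K S := by
  refine comp_mem_latS S _ (fun u => ?_) hx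
  obtain ⟨u, rfl⟩ := Additive.ofMul.surjective u
  exact ⟨Additive.ofMul (sunitMap σ S hS u), logS_sunitMap_eq_comp σ S hS u⟩


/-! ### Functoriality of the induced permutations (to build group actions) -/

theorem infMap_refl : infMap (RingEquiv.refl K) = Equiv.refl (InfinitePlace K) := by
  ext w x
  rfl

theorem infMap_trans (σ τ : K ≃+* K) : infMap (σ.trans τ) = (infMap σ).trans (infMap τ) := by
  ext w x
  rfl

theorem mem_primeMap (σ : K ≃+* K) (v : HeightOneSpectrum (𝓞 K)) (a : 𝓞 K) :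
    a ∈ (primeMap σ v).asIdeal ↔ (RingOfIntegers.mapRingEquiv σ).symm a ∈ v.asIdeal := Iff.rfl

theorem primeMap_refl :
    primeMap (RingEquiv.refl K) = Equiv.refl (HeightOneSpectrum (𝓞 K)) := by
  ext v : 1
  apply HeightOneSpectrum.ext
  ext a
  rw [mem_primeMap]
  rfl

theorem primeMap_trans (σ τ : K ≃+* K) :
    primeMap (σ.trans τ) = (primeMap σ).trans (primeMap τ) := by
  ext v : 1
  apply HeightOneSpectrum.ext
  ext a
  rw [Equiv.trans_apply, mem_primeMap, mem_primeMap, mem_primeMap]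
  rfl

theorem placeMap_refl (S : Finset (HeightOneSpectrum (𝓞 K)))
    (hS : ∀ v, primeMap (RingEquiv.refl K) v ∈ S ↔ v ∈ S) :
    placeMap (RingEquiv.refl K) S hS = Equiv.refl (Pl K S) := by
  ext i
  rcases i with w | v
  · rw [placeMap_inl, infMap_refl]; rfl
  · rw [placeMap_inr]
    simp only [Equiv.refl_apply]
    congr 1

theorem placeMap_trans (σ τ : K ≃+* K) (S : Finset (HeightOneSpectrum (𝓞 K)))
    (hσ : ∀ v, primeMap σ v ∈ S ↔ v ∈ S) (hτ : ∀ v, primeMap τ v ∈ S ↔ v ∈ S)
    (hστ : ∀ v, primeMap (σ.trans τ) v ∈ S ↔ v ∈ S) :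
    placeMap (σ.trans τ) S hστ = (placeMap σ S hσ).trans (placeMap τ S hτ) := by
  ext i
  rcases i with w | v
  · rw [placeMap_inl, infMap_trans]; rfl
  · rw [placeMap_inr, Equiv.trans_apply, placeMap_inr, placeMap_inr]
    congr 1

theorem sunitMap_refl (S : Finset (HeightOneSpectrum (𝓞 K)))
    (hS : ∀ v, primeMap (RingEquiv.refl K) v ∈ S ↔ v ∈ S) (u : SUnits K S) :
    sunitMap (RingEquiv.refl K) S hS u = u := by
  apply Subtype.ext
  apply Units.ext
  rfl

theorem sunitMap_trans (σ τ : K ≃+* K) (S : Finset (HeightOneSpectrum (𝓞 K)))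
    (hσ : ∀ v, primeMap σ v ∈ S ↔ v ∈ S) (hτ : ∀ v, primeMap τ v ∈ S ↔ v ∈ S)
    (hστ : ∀ v, primeMap (σ.trans τ) v ∈ S ↔ v ∈ S) (u : SUnits K S) :
    sunitMap (σ.trans τ) S hστ u = sunitMap τ S hτ (sunitMap σ S hσ u) := by
  apply Subtype.ext
  apply Units.ext
  rfl

end

end Fermat.Agent.CFT.Global.SUnitLattice
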