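import Mathlib
import Fermat.Agent.CFT.Global.QBridge
import Fermat.Agent.CFT.Global.QBridgeOrder
import Fermat.Agent.CFT.Global.SUnitMore

/-!
# The divisor map of the semilocal units

`L` a number field, `q` a rational prime, `A = L ⊗[ℚ] ℚ_[q]`, `P = PrimesOver q L` the finite set
of primes of `𝓞 L` above `q`.  Every unit of `A` is `(a ⊗ 1) * u` with `a ∈ Lˣ` and `u` a unit of
the maximal order (`QBridge.exists_eq_tmul_mul_unit`); the function `w ↦ ord_w(a)` on `P` does not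
depend on the decomposition.  This defines

* `divq q L : Aˣ →* Multiplicative (PrimesOver q L → ℤ)`,

a surjective homomorphism (`divq_surjective`) whose kernel is the group `orderUnits q L` of units
of the maximal order (`ker_divq`), and which is equivariant for the automorphisms of `L`
(`divq_map`): `A_q(L)ˣ / U_q(L) ≅ ℤ[P]`.
-/

set_option autoImplicit false

noncomputable section

namespace Fermat.Agent.CFT.Global.QBridge

open TensorProduct IsDedekindDomain NumberField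
open Fermat.Agent.CFT.Global.SUnitLattice (primeMap valuation_primeMap mem_primeMap_pow)

/-! ### The normalised valuations -/

section Ord

variable {L : Type*} [Field L] [NumberField L]

/-- The normalised valuation at a prime `w` of `𝓞 L`, as an integer:
`ord_w(a) = - log v_w(a)`. -/
def ordZ (w : HeightOneSpectrum (𝓞 L)) (a : Lˣ) : ℤ := -WithZero.log (w.valuation L (a : L))

theorem valuation_unit_ne_zero (w : HeightOneSpectrum (𝓞 L)) (a : Lˣ) :
    w.valuation L (a : L) ≠ 0 := (Valuation.ne_zero_iff _).mpr a.ne_zero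

theorem valuation_eq_exp_neg_ordZ (w : HeightOneSpectrum (𝓞 L)) (a : Lˣ) :
    w.valuation L (a : L) = WithZero.exp (-ordZ w a) := by
  rw [ordZ, neg_neg, WithZero.exp_log (valuation_unit_ne_zero w a)]

theorem ordZ_eq_iff (w : HeightOneSpectrum (𝓞 L)) (a : Lˣ) (n : ℤ) :
    ordZ w a = n ↔ w.valuation L (a : L) = WithZero.exp (-n) := by
  constructor
  · rintro rfl
    exact valuation_eq_exp_neg_ordZ w a
  · intro h
    rw [ordZ, h, WithZero.log_exp, neg_neg]

theorem ordZ_eq_zero_iff (w : HeightOneSpectrum (𝓞 L)) (a : Lˣ) :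
    ordZ w a = 0 ↔ w.valuation L (a : L) = 1 := by
  rw [ordZ_eq_iff, neg_zero, WithZero.exp_zero]

theorem ordZ_mul (w : HeightOneSpectrum (𝓞 L)) (a b : Lˣ) :
    ordZ w (a * b) = ordZ w a + ordZ w b := by
  rw [ordZ, ordZ, ordZ, Units.val_mul, map_mul,
    WithZero.log_mul (valuation_unit_ne_zero w a) (valuation_unit_ne_zero w b)]
  ring

theorem ordZ_one (w : HeightOneSpectrum (𝓞 L)) : ordZ w (1 : Lˣ) = 0 := by
  rw [ordZ_eq_zero_iff, Units.val_one, map_one]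

theorem ordZ_inv (w : HeightOneSpectrum (𝓞 L)) (a : Lˣ) : ordZ w a⁻¹ = -ordZ w a := by
  have h := ordZ_mul w a a⁻¹
  rw [mul_inv_cancel, ordZ_one] at h
  linarith

/-- `ord_w` as a homomorphism. -/
def ordHom (w : HeightOneSpectrum (𝓞 L)) : Lˣ →* Multiplicative ℤ where
  toFun a := Multiplicative.ofAdd (ordZ w a)
  map_one' := by rw [ordZ_one]; rfl
  map_mul' a b := by rw [ordZ_mul]; rfl

theorem ordZ_zpow (w : HeightOneSpectrum (𝓞 L)) (a : Lˣ) (k : ℤ) :
    ordZ w (a ^ k) = k * ordZ w a := by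
  have h := congrArg Multiplicative.toAdd (map_zpow (ordHom w) a k)
  rw [toAdd_zpow] at h
  simpa [ordHom] using h

theorem ordZ_primeMap (σ : L ≃+* L) (w : HeightOneSpectrum (𝓞 L)) (a : Lˣ) :
    ordZ (primeMap σ w) (Units.map (σ : L →* L) a) = ordZ w a := by
  rw [ordZ, ordZ]
  congr 2
  exact valuation_primeMap σ w (a : L)

theorem natCast_mem_primeMap_iff (σ : L ≃+* L) (w : HeightOneSpectrum (𝓞 L)) (n : ℕ) :
    (n : 𝓞 L) ∈ (primeMap σ w).asIdeal ↔ (n : 𝓞 L) ∈ w.asIdeal := by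
  have h := mem_primeMap_pow σ w (n : 𝓞 L) 1
  rw [pow_one, pow_one, map_natCast] at h
  exact h

/-! ### Prescribed valuations at finitely many primes -/

/-- A uniformizer at `w` which is a unit at the other primes of a finite set. -/
theorem exists_ordZ_eq_single (T : Finset (HeightOneSpectrum (𝓞 L)))
    (w : HeightOneSpectrum (𝓞 L)) :
    ∃ b : Lˣ, ordZ w b = 1 ∧ ∀ w' ∈ T, w' ≠ w → ordZ w' b = 0 := by
  classical
  obtain ⟨π, hπ⟩ := w.intValuation_exists_uniformizer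
  obtain ⟨y, hy⟩ := IsDedekindDomain.exists_forall_sub_mem_ideal (s := insert w T)
    (fun v : HeightOneSpectrum (𝓞 L) => v.asIdeal) (fun v => if v = w then 2 else 1)
    (fun v _ => v.prime) (fun v _ v' _ h hEq => h (HeightOneSpectrum.ext hEq))
    (fun v => if (v : HeightOneSpectrum (𝓞 L)) = w then π else 1)
  have hyw : w.intValuation y = WithZero.exp (-1 : ℤ) := by
    have h1 := hy w (Finset.mem_insert_self w T)
    simp only [if_true] at h1
    have h2 : w.intValuation (y - π) ≤ WithZero.exp (-((2 : ℕ) : ℤ)) :=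
      (w.intValuation_le_pow_iff_mem (y - π) 2).mpr h1
    have h3 : w.intValuation (y - π) < w.intValuation π := by
      rw [hπ]
      refine lt_of_le_of_lt h2 ?_
      rw [WithZero.exp_lt_exp]
      norm_num
    have h4 := Valuation.map_add_eq_of_lt_left (v := w.intValuation) h3
    rw [add_comm, sub_add_cancel] at h4
    rw [h4, hπ]
  have hy0 : y ≠ 0 := by
    rintro rfl
    rw [map_zero] at hyw
    exact WithZero.exp_ne_zero.symm hyw
  have hy0' : algebraMap (𝓞 L) L y ≠ 0 := by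
    simpa using hy0
  refine ⟨Units.mk0 (algebraMap (𝓞 L) L y) hy0', ?_, ?_⟩
  · rw [ordZ_eq_iff, Units.val_mk0, HeightOneSpectrum.valuation_of_algebraMap, hyw]
  · intro w' hw' hne
    rw [ordZ_eq_zero_iff, Units.val_mk0, HeightOneSpectrum.valuation_of_algebraMap,
      HeightOneSpectrum.intValuation_eq_one_iff]
    intro hmem
    have h1 := hy w' (Finset.mem_insert_of_mem hw')
    simp only [if_neg hne, pow_one] at h1
    have h2 : (1 : 𝓞 L) ∈ w'.asIdeal := by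
      have h3 := sub_mem hmem h1
      rwa [sub_sub_cancel] at h3
    exact w'.isPrime.ne_top ((Ideal.eq_top_iff_one _).mpr h2)

/-- **Weak approximation for valuations**: arbitrary integers can be prescribed as the
valuations of an element of `Lˣ` at finitely many primes. -/
theorem exists_ordZ_eq (T : Finset (HeightOneSpectrum (𝓞 L)))
    (n : HeightOneSpectrum (𝓞 L) → ℤ) : ∃ a : Lˣ, ∀ w ∈ T, ordZ w a = n w := by
  classical
  induction T using Finset.induction_on with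
  | empty => exact ⟨1, by simp⟩
  | insert w T hwT ih =>
    obtain ⟨a, ha⟩ := ih
    obtain ⟨b, hb1, hb2⟩ := exists_ordZ_eq_single T w
    refine ⟨a * b ^ (n w - ordZ w a), fun w' hw' => ?_⟩
    rw [ordZ_mul, ordZ_zpow]
    rcases Finset.mem_insert.mp hw' with rfl | hw'T
    · rw [hb1]; ring
    · have hne : w' ≠ w := fun h => hwT (h ▸ hw'T)
      rw [hb2 w' hw'T hne, ha w' hw'T]; ring

end Ord

/-! ### The divisor map -/

section Div

variable (q : ℕ) [Fact q.Prime] (L : Type*) [Field L] [NumberField L]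

/-- The primes of `𝓞 L` above the rational prime `q`. -/
abbrev PrimesOver : Type _ := {w : HeightOneSpectrum (𝓞 L) // (q : 𝓞 L) ∈ w.asIdeal}

theorem finite_setOf_natCast_mem :
    {w : HeightOneSpectrum (𝓞 L) | (q : 𝓞 L) ∈ w.asIdeal}.Finite := by
  have hq0 : (q : L) ≠ 0 := by exact_mod_cast (Fact.out : q.Prime).ne_zero
  refine (HeightOneSpectrum.Support.finite (𝓞 L) ((q : L)⁻¹)).subset ?_
  intro w hw
  show 1 < w.valuation L ((q : L)⁻¹)
  rw [map_inv₀]
  have h1 : w.valuation L (q : L) < 1 := by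
    have h2 : (q : L) = algebraMap (𝓞 L) L (q : 𝓞 L) := by simp
    rw [h2, HeightOneSpectrum.valuation_lt_one_iff_mem]
    exact hw
  have h0 : w.valuation L (q : L) ≠ 0 := (Valuation.ne_zero_iff _).mpr hq0
  exact (one_lt_inv₀ (zero_lt_iff.mpr h0)).mpr h1

instance finite_primesOver : Finite (PrimesOver q L) :=
  (finite_setOf_natCast_mem q L).to_subtype

/-- The action of an automorphism of `L` on the primes above `q`. -/
def primesOverMap (σ : L ≃+* L) : PrimesOver q L ≃ PrimesOver q L :=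
  (primeMap σ).subtypeEquiv fun w => (natCast_mem_primeMap_iff σ w q).symm

omit [Fact (Nat.Prime q)] in
@[simp] theorem primesOverMap_coe (σ : L ≃+* L) (w : PrimesOver q L) :
    ((primesOverMap q L σ w : PrimesOver q L) : HeightOneSpectrum (𝓞 L)) = primeMap σ w.1 := rfl

/-- The diagonal map `a ↦ a ⊗ 1` on units. -/
def lamq : Lˣ →* (L ⊗[ℚ] ℚ_[q])ˣ :=
  Units.map ((Algebra.TensorProduct.includeLeft : L →ₐ[ℚ] L ⊗[ℚ] ℚ_[q]) : L →* L ⊗[ℚ] ℚ_[q])

@[simp] theorem lamq_val (a : Lˣ) :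
    ((lamq q L a : (L ⊗[ℚ] ℚ_[q])ˣ) : L ⊗[ℚ] ℚ_[q]) = (a : L) ⊗ₜ[ℚ] (1 : ℚ_[q]) := rfl

/-- The units of the maximal order of `L ⊗[ℚ] ℚ_[q]`. -/
def orderUnits : Subgroup (L ⊗[ℚ] ℚ_[q])ˣ where
  carrier := {u | (u : L ⊗[ℚ] ℚ_[q]) ∈ maxOrder q L ∧
    ((u⁻¹ : (L ⊗[ℚ] ℚ_[q])ˣ) : L ⊗[ℚ] ℚ_[q]) ∈ maxOrder q L}
  mul_mem' := by
    rintro a b ⟨ha, ha'⟩ ⟨hb, hb'⟩
    refine ⟨?_, ?_⟩
    · rw [Units.val_mul]; exact mul_mem ha hb
    · rw [mul_inv, Units.val_mul]; exact mul_mem ha' hb'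
  one_mem' := by
    refine ⟨?_, ?_⟩
    · rw [Units.val_one]; exact one_mem _
    · rw [inv_one, Units.val_one]; exact one_mem _
  inv_mem' := by
    rintro a ⟨ha, ha'⟩
    exact ⟨ha', by rw [inv_inv]; exact ha⟩

variable {q L}

theorem mem_orderUnits {u : (L ⊗[ℚ] ℚ_[q])ˣ} :
    u ∈ orderUnits q L ↔ (u : L ⊗[ℚ] ℚ_[q]) ∈ maxOrder q L ∧
      ((u⁻¹ : (L ⊗[ℚ] ℚ_[q])ˣ) : L ⊗[ℚ] ℚ_[q]) ∈ maxOrder q L := Iff.rfl

/-- A principal element is a unit of the maximal order iff it is a unit at every prime above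
`q`. -/
theorem lamq_mem_orderUnits_iff (a : Lˣ) :
    lamq q L a ∈ orderUnits q L ↔ ∀ w : PrimesOver q L, ordZ w.1 a = 0 := by
  rw [mem_orderUnits, mem_maxOrder_iff, mem_maxOrder_iff, ← map_inv, lamq_val, lamq_val,
    isIntegralElem_units_iff]
  constructor
  · intro h w
    rw [ordZ_eq_zero_iff]
    exact h w.1 w.2
  · intro h w hw
    rw [← ordZ_eq_zero_iff]
    exact h ⟨w, hw⟩

/-- Every unit of `L ⊗[ℚ] ℚ_[q]` is a principal element times a unit of the maximal order. -/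
theorem exists_lamq_mul (x : (L ⊗[ℚ] ℚ_[q])ˣ) :
    ∃ a : Lˣ, ∃ u ∈ orderUnits q L, x = lamq q L a * u := by
  obtain ⟨a, u, hu, hu', h⟩ := exists_eq_tmul_mul_unit x
  exact ⟨a, u, ⟨hu, hu'⟩, Units.ext h⟩

/-- The valuations of `a` at the primes above `q` only depend on `(a ⊗ 1) * u`. -/
theorem ordZ_eq_of_lamq_mul_eq {a a' : Lˣ} {u u' : (L ⊗[ℚ] ℚ_[q])ˣ}
    (hu : u ∈ orderUnits q L) (hu' : u' ∈ orderUnits q L)
    (h : lamq q L a * u = lamq q L a' * u') (w : PrimesOver q L) :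
    ordZ w.1 a = ordZ w.1 a' := by
  have h1 : lamq q L (a * a'⁻¹) = u' * u⁻¹ := by
    rw [map_mul, map_inv, eq_mul_inv_iff_mul_eq, mul_right_comm, h, mul_right_comm,
      mul_inv_cancel, one_mul]
  have h2 : lamq q L (a * a'⁻¹) ∈ orderUnits q L := by
    rw [h1]
    exact mul_mem hu' (inv_mem hu)
  have h3 := (lamq_mem_orderUnits_iff _).mp h2 w
  rw [ordZ_mul, ordZ_inv] at h3
  linarith

variable (q L)

/-- The divisor of a unit of `L ⊗[ℚ] ℚ_[q]`, as a function on the primes above `q`. -/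
def divFun (x : (L ⊗[ℚ] ℚ_[q])ˣ) : PrimesOver q L → ℤ :=
  fun w => ordZ w.1 (Classical.choose (exists_lamq_mul x))

variable {q L}

theorem divFun_eq {x : (L ⊗[ℚ] ℚ_[q])ˣ} {a : Lˣ} {u : (L ⊗[ℚ] ℚ_[q])ˣ}
    (hu : u ∈ orderUnits q L) (hx : x = lamq q L a * u) :
    divFun q L x = fun w => ordZ w.1 a := by
  funext w
  obtain ⟨u₀, hu₀, hx₀⟩ := Classical.choose_spec (exists_lamq_mul x)
  exact ordZ_eq_of_lamq_mul_eq hu₀ hu (hx₀.symm.trans hx) w

variable (q L)

/-- **The divisor map** `A_q(L)ˣ → ℤ[primes of 𝓞 L above q]`. -/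
def divq : (L ⊗[ℚ] ℚ_[q])ˣ →* Multiplicative (PrimesOver q L → ℤ) where
  toFun x := Multiplicative.ofAdd (divFun q L x)
  map_one' := by
    have h : divFun q L (1 : (L ⊗[ℚ] ℚ_[q])ˣ) = fun w => ordZ w.1 (1 : Lˣ) :=
      divFun_eq (one_mem _) (by rw [map_one, one_mul])
    rw [h]
    apply congrArg Multiplicative.ofAdd
    funext w
    exact ordZ_one w.1
  map_mul' x y := by
    obtain ⟨a, u, hu, hx⟩ := exists_lamq_mul x
    obtain ⟨b, v, hv, hy⟩ := exists_lamq_mul y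
    have hxy : x * y = lamq q L (a * b) * (u * v) := by
      rw [hx, hy, map_mul, mul_mul_mul_comm]
    rw [divFun_eq (mul_mem hu hv) hxy, divFun_eq hu hx, divFun_eq hv hy, ← ofAdd_add]
    apply congrArg Multiplicative.ofAdd
    funext w
    exact ordZ_mul w.1 a b

variable {q L}

theorem toAdd_divq (x : (L ⊗[ℚ] ℚ_[q])ˣ) : Multiplicative.toAdd (divq q L x) = divFun q L x := rfl

/-- The divisor of `(a ⊗ 1) * u`, `u` a unit of the maximal order, is `w ↦ ord_w(a)`. -/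
theorem divq_of_eq {x : (L ⊗[ℚ] ℚ_[q])ˣ} {a : Lˣ} {u : (L ⊗[ℚ] ℚ_[q])ˣ}
    (hu : u ∈ orderUnits q L) (hx : x = lamq q L a * u) (w : PrimesOver q L) :
    Multiplicative.toAdd (divq q L x) w = ordZ w.1 a := by
  rw [toAdd_divq, divFun_eq hu hx]

/-- The divisor of a principal element. -/
theorem divq_lamq (a : Lˣ) (w : PrimesOver q L) :
    Multiplicative.toAdd (divq q L (lamq q L a)) w = ordZ w.1 a :=
  divq_of_eq (one_mem _) (mul_one _).symm w

/-- The kernel of the divisor map is the group of units of the maximal order. -/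
theorem divq_eq_one_iff (x : (L ⊗[ℚ] ℚ_[q])ˣ) : divq q L x = 1 ↔ x ∈ orderUnits q L := by
  obtain ⟨a, u, hu, hx⟩ := exists_lamq_mul x
  have key : divq q L x = 1 ↔ ∀ w : PrimesOver q L, ordZ w.1 a = 0 := by
    constructor
    · intro h w
      rw [← divq_of_eq hu hx w, h]
      rfl
    · intro h
      apply Multiplicative.toAdd.injective
      funext w
      rw [divq_of_eq hu hx w, h w]
      rfl
  rw [key, ← lamq_mem_orderUnits_iff, hx]
  constructor
  · intro h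
    exact mul_mem h hu
  · intro h
    have h2 := mul_mem h (inv_mem hu)
    rwa [mul_inv_cancel_right] at h2

theorem ker_divq : (divq q L).ker = orderUnits q L := by
  ext x
  rw [MonoidHom.mem_ker, divq_eq_one_iff]

/-- The divisor map is surjective. -/
theorem divq_surjective : Function.Surjective (divq q L) := by
  classical
  intro f
  obtain ⟨a, ha⟩ := exists_ordZ_eq (finite_setOf_natCast_mem q L).toFinset
    (fun w => if h : (q : 𝓞 L) ∈ w.asIdeal then Multiplicative.toAdd f ⟨w, h⟩ else 0)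
  refine ⟨lamq q L a, ?_⟩
  apply Multiplicative.toAdd.injective
  funext w
  rw [divq_lamq, ha w.1 ((Set.Finite.mem_toFinset _).mpr w.2), dif_pos w.2]

/-- A ring endomorphism of `L ⊗[ℚ] ℚ_[q]` which fixes `1 ⊗ ℚ_[q]` preserves the maximal
order. -/
theorem map_mem_maxOrder (φ : L ⊗[ℚ] ℚ_[q] →+* L ⊗[ℚ] ℚ_[q])
    (hφq : ∀ c : ℚ_[q], φ ((1 : L) ⊗ₜ[ℚ] c) = (1 : L) ⊗ₜ[ℚ] c)
    {b : L ⊗[ℚ] ℚ_[q]} (hb : b ∈ maxOrder q L) : φ b ∈ maxOrder q L := by
  rw [mem_maxOrder_iff] at hb ⊢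
  obtain ⟨g, hg, hgb⟩ := hb
  refine ⟨g, hg, ?_⟩
  have hcomp : φ.comp (qInt q L) = qInt q L := by
    ext c
    rw [RingHom.comp_apply, qInt_apply, hφq]
  have h := Polynomial.hom_eval₂ g (qInt q L) φ b
  rw [hcomp, hgb, map_zero] at h
  exact h.symm

theorem map_mem_orderUnits (φ : L ⊗[ℚ] ℚ_[q] →+* L ⊗[ℚ] ℚ_[q])
    (hφq : ∀ c : ℚ_[q], φ ((1 : L) ⊗ₜ[ℚ] c) = (1 : L) ⊗ₜ[ℚ] c)
    {u : (L ⊗[ℚ] ℚ_[q])ˣ} (hu : u ∈ orderUnits q L) :
    Units.map (φ : L ⊗[ℚ] ℚ_[q] →* L ⊗[ℚ] ℚ_[q]) u ∈ orderUnits q L := by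
  refine ⟨map_mem_maxOrder φ hφq hu.1, ?_⟩
  rw [← map_inv]
  exact map_mem_maxOrder φ hφq hu.2

/-- **Equivariance of the divisor map**: if `φ` is a ring endomorphism of `L ⊗[ℚ] ℚ_[q]` inducing
the automorphism `σ` on `L ⊗ 1` and the identity on `1 ⊗ ℚ_[q]`, then
`div(φ x)(σ w) = div(x)(w)`. -/
theorem divq_map (σ : L ≃+* L) (φ : L ⊗[ℚ] ℚ_[q] →+* L ⊗[ℚ] ℚ_[q])
    (hφL : ∀ x : L, φ (x ⊗ₜ[ℚ] (1 : ℚ_[q])) = σ x ⊗ₜ[ℚ] (1 : ℚ_[q]))
    (hφq : ∀ c : ℚ_[q], φ ((1 : L) ⊗ₜ[ℚ] c) = (1 : L) ⊗ₜ[ℚ] c)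
    (x : (L ⊗[ℚ] ℚ_[q])ˣ) (w : PrimesOver q L) :
    Multiplicative.toAdd (divq q L (Units.map (φ : L ⊗[ℚ] ℚ_[q] →* L ⊗[ℚ] ℚ_[q]) x))
      (primesOverMap q L σ w) = Multiplicative.toAdd (divq q L x) w := by
  obtain ⟨a, u, hu, hx⟩ := exists_lamq_mul x
  have hφx : Units.map (φ : L ⊗[ℚ] ℚ_[q] →* L ⊗[ℚ] ℚ_[q]) x =
      lamq q L (Units.map (σ : L →* L) a) *
        Units.map (φ : L ⊗[ℚ] ℚ_[q] →* L ⊗[ℚ] ℚ_[q]) u := by
    rw [hx, map_mul]
    congr 1
    apply Units.ext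
    exact hφL a
  rw [divq_of_eq (map_mem_orderUnits φ hφq hu) hφx, divq_of_eq hu hx, primesOverMap_coe,
    ordZ_primeMap]

end Div

end Fermat.Agent.CFT.Global.QBridge
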