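import Mathlib
import Fermat.Agent.CFT.Coh.Defs
import Fermat.Agent.CFT.Coh.HerbrandCyclic
import Fermat.Agent.CFT.Global.Defs

/-!
# Class field theory program (P3), global layer (L6–L9): the plan

Only `def X : Prop` in this file.  Providers prove `theorem x : Plan.X`; consumers prove
`Plan.X → Plan.Y` (hypothesis form).  Vocabulary: `Fermat/Agent/CFT/Global/Defs.lean`
(semilocal model of the finite ideles, no archimedean components), Mathlib's `groupCohomology`,
and the Herbrand quotient of `Fermat/Agent/CFT/Coh/HerbrandCyclic.lean`.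

Conventions.  A "Galois pair" is a finite group `G` acting faithfully on a number field `L`
(`[Fintype G] [NumberField L] [MulSemiringAction G L] [FaithfulSMul G L]`); the base field is
the fixed field.  `Rep.res H.subtype (classRep G L) = classRep ↥H L` holds by `rfl`, so
statements for all Galois pairs apply to all subgroups.  `p` is an odd prime throughout
(`p ≠ 2`): the class modules omit the archimedean components, which only changes `2`-primary
cohomology.

## Exports of the layer (consumed by Formation / Top)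

* `ClassFormationP`  : class-module axioms for `C_L`, `p`-primary, with a global class `σ`;
* `LocalGlobalInj`   : `H²(G, ∏_{w' ∈ G·w} L_{w'}ˣ) → H²(G, C_L)` is injective (`p`-groups)
                       — the invariant-free form of `inv_G ∘ i_v = inv_v`;
* `ClassDescent`, `ClassDescentS`, `SClassCompare` : Galois descent and the passage `C_L → C_S(L)`;
* `ExistenceModP`    : existence theorem mod `p` inside the maximal extension unramified outside `S`;
* `SUnitsPDiv`, `ClassCapitulation` : the two limit facts (Kummer);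
* `SExact`, `ClassGroupFinite`, `OrbitShapiro`, `OrbitDecomp`, `IdeleH1`, `SIdeleH1`,
  `LocH1`, `LocH2Card` : structure of `E_S → J_S → C_S` and of the semilocal modules.

## Internal chain

`FirstIneq`, `SecondIneq` ⟹ `SecondIneqGen` ⟹ `CyclicAxiom` ⟹ (with `DescentIso` and
`Coh.Plan.H2Order`) `PGroupAxiom` ⟹ (reciprocity package) `ClassFormationP`, `LocalGlobalInj`.
-/

set_option autoImplicit false

open CategoryTheory
open scoped Fermat.Agent.CFT.Global

namespace Fermat.Agent.CFT.Global.Plan

open Fermat.Agent.CFT Fermat.Agent.CFT.Global Fermat.Agent.CFT.Herbrand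

/-! ### A. Elementary structure of the ideles of a number field -/

/-- [A1] Principal ideles are finite ideles: `x ∈ Lˣ` is a local unit at almost all primes. -/
def PrincipalLe : Prop :=
  ∀ (L : Type) [Field L] [NumberField L], (principal L).range ≤ finIdele L

/-- [A2] Finiteness of the `S`-class group `J_L / (Lˣ · J_S · U^S)` (for `S = ∅`: the class
group). -/
def ClassGroupFinite : Prop :=
  ∀ (L : Type) [Field L] [NumberField L] (S : Finset Nat.Primes),
    ((principal L).range ⊔ supportedOn L S ⊔ unitsOutside L S).relIndex (finIdele L) ≠ 0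

/-- [A3] For `S` large the `S`-class group is trivial: `J_L = Lˣ · J_S · U^S`. -/
def ClassGroupTrivial : Prop :=
  ∀ (L : Type) [Field L] [NumberField L], ∃ S₀ : Finset Nat.Primes, ∀ S : Finset Nat.Primes,
    S₀ ⊆ S → finIdele L ≤ (principal L).range ⊔ supportedOn L S ⊔ unitsOutside L S

/-- [A4] Exactness of `E_S → J_S → C_S` at `J_S`: `J_S ∩ (Lˣ · U^S) = E_S` (diagonal). -/
def SExact : Prop :=
  ∀ (L : Type) [Field L] [NumberField L] (S : Finset Nat.Primes),
    supportedOn L S ⊓ ((principal L).range ⊔ unitsOutside L S) = (sUnits L S).map (sDiag L S)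

/-! ### B. The semilocal algebras `L ⊗[ℚ] ℚ_[q]` as Galois algebras -/

/-- [B1] `L ⊗[ℚ] ℚ_[q]` is a finite product of fields. -/
def SemiLocalArtinian : Prop :=
  ∀ (L : Type) [Field L] [NumberField L] (q : ℕ) [Fact q.Prime],
    IsArtinianRing (SemiLocal L q) ∧ IsReduced (SemiLocal L q)

/-- [B2] The unit group of `L ⊗[ℚ] ℚ_[q]` is the internal direct product of the blocks
`orbitUnits` of the `G`-orbits of maximal ideals. -/
def OrbitDecomp : Prop :=
  ∀ (G L : Type) [Group G] [Fintype G] [Field L] [NumberField L] [MulSemiringAction G L]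
    (q : ℕ) [Fact q.Prime],
    (⨆ m : {m : Ideal (SemiLocal L q) // m.IsMaximal}, orbitUnits G L q m.1) = ⊤ ∧
    ∀ m : {m : Ideal (SemiLocal L q) // m.IsMaximal},
      orbitUnits G L q m.1 ⊓
        (⨆ m' : {m' : {m : Ideal (SemiLocal L q) // m.IsMaximal} //
            orbitUnits G L q m'.1 ≠ orbitUnits G L q m.1}, orbitUnits G L q m'.1.1) = ⊥

/-- [B3] Shapiro for a block: `Hⁿ(G, ∏_{w' ∈ G·w} L_{w'}ˣ) → Hⁿ(D_w, L_wˣ)` (restriction
followed by the projection) is bijective. -/
def OrbitShapiro : Prop :=
  ∀ (G L : Type) [Group G] [Fintype G] [Field L] [NumberField L] [MulSemiringAction G L]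
    (q : ℕ) [Fact q.Prime] (m : Ideal (SemiLocal L q)), m.IsMaximal → ∀ n : ℕ,
    Function.Bijective
      (groupCohomology.map (decompGroup G L q m).subtype (orbitProj G L q m) n).hom

/-- [B4] The decomposition group acts faithfully on the local component. -/
def LocFaithful : Prop :=
  ∀ (G L : Type) [Group G] [Fintype G] [Field L] [NumberField L] [MulSemiringAction G L]
    [FaithfulSMul G L] (q : ℕ) [Fact q.Prime] (m : Ideal (SemiLocal L q)), m.IsMaximal →
    FaithfulSMul (decompGroup G L q m) (SemiLocal L q ⧸ m)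

/-! ### C. Local inputs (layer L5 transported to the local components) -/

/-- [C1] Hilbert 90 for the local components: `H¹(D_w, L_wˣ) = 0`. -/
def LocH1 : Prop :=
  ∀ (G L : Type) [Group G] [Fintype G] [Field L] [NumberField L] [MulSemiringAction G L]
    [FaithfulSMul G L] (q : ℕ) [Fact q.Prime] (m : Ideal (SemiLocal L q)), m.IsMaximal →
    Limits.IsZero (groupCohomology (localCompRep G L q m) 1)

/-- [C2] Local class field theory: `|H²(D_w, L_wˣ)| = |D_w|`. -/
def LocH2Card : Prop :=
  ∀ (G L : Type) [Group G] [Fintype G] [Field L] [NumberField L] [MulSemiringAction G L]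
    [FaithfulSMul G L] (q : ℕ) [Fact q.Prime] (m : Ideal (SemiLocal L q)), m.IsMaximal →
    Nat.card (groupCohomology (localCompRep G L q m) 2) = Nat.card (decompGroup G L q m)

/-- [C3] At an unramified prime the local units are cohomologically trivial:
`Hⁿ(G, U_q(L)) = 0` for `n ≥ 1` and every invariant unit is a norm. -/
def LocUnitsAcyclic : Prop :=
  ∀ (G L : Type) [Group G] [Fintype G] [Field L] [NumberField L] [MulSemiringAction G L]
    [FaithfulSMul G L] (q : ℕ) [Fact q.Prime], UnramAt L q →
    (∀ n : ℕ, 1 ≤ n → Limits.IsZero (groupCohomology (localUnitsRep G L q) n)) ∧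
      h0 (ofRepresentation (localUnitsRep G L q).ρ) = 1

/-- [C4] The Herbrand quotient of the local units is `1` (cyclic `G`, every prime). -/
def LocUnitsHerbrand : Prop :=
  ∀ (G L : Type) [Group G] [Fintype G] [IsCyclic G] [Field L] [NumberField L]
    [MulSemiringAction G L] [FaithfulSMul G L] (q : ℕ) [Fact q.Prime],
    IsFinH (ofRepresentation (localUnitsRep G L q).ρ) ∧
      herbrand (ofRepresentation (localUnitsRep G L q).ρ) = 1

/-- [C5] The Herbrand quotient of a block `∏_{w' ∈ G·w} L_{w'}ˣ` is the local degree `|D_w|`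
(cyclic `G`). -/
def LocHerbrand : Prop :=
  ∀ (G L : Type) [Group G] [Fintype G] [IsCyclic G] [Field L] [NumberField L]
    [MulSemiringAction G L] [FaithfulSMul G L] (q : ℕ) [Fact q.Prime]
    (m : Ideal (SemiLocal L q)), m.IsMaximal →
    IsFinH (ofRepresentation (orbitRep G L q m).ρ) ∧
      herbrand (ofRepresentation (orbitRep G L q m).ρ) = Nat.card (decompGroup G L q m)

/-! ### D. Cohomology of the ideles -/

/-- [D1] `H¹(G, J_L) = 0`. -/
def IdeleH1 : Prop :=
  ∀ (G L : Type) [Group G] [Fintype G] [Field L] [NumberField L] [MulSemiringAction G L]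
    [FaithfulSMul G L], Limits.IsZero (groupCohomology (ideleRep G L) 1)

/-- [D2] `H¹(G, J_S(L)) = 0`. -/
def SIdeleH1 : Prop :=
  ∀ (G L : Type) [Group G] [Fintype G] [Field L] [NumberField L] [MulSemiringAction G L]
    [FaithfulSMul G L] (S : Finset Nat.Primes),
    Limits.IsZero (groupCohomology (sIdeleRep G L S) 1)

/-! ### E. The two inequalities and the axioms of a class formation -/

/-- [E1] **First inequality** (Herbrand quotient of the idele class group): for `G` cyclic of
odd prime order `p`, `h(G, C_L) = p`. -/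
def FirstIneq : Prop :=
  ∀ (p : ℕ) [Fact p.Prime], p ≠ 2 →
  ∀ (G L : Type) [Group G] [Fintype G] [Field L] [NumberField L] [MulSemiringAction G L]
    [FaithfulSMul G L], Nat.card G = p →
    IsFinH (ofRepresentation (classRep G L).ρ) ∧
      herbrand (ofRepresentation (classRep G L).ρ) = p

/-- [E2] **Second inequality** (Kummer case): for `G` cyclic of odd prime order `p` and
`μ_p ⊆ L^G`, `|Ĥ⁰(G, C_L)| = (C_K : N C_L) ≤ p`. -/
def SecondIneq : Prop :=
  ∀ (p : ℕ) [Fact p.Prime], p ≠ 2 →
  ∀ (G L : Type) [Group G] [Fintype G] [Field L] [NumberField L] [MulSemiringAction G L]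
    [FaithfulSMul G L], Nat.card G = p →
    (∃ ζ : L, IsPrimitiveRoot ζ p ∧ ∀ g : G, g • ζ = ζ) →
    h0 (ofRepresentation (classRep G L).ρ) ≤ p

/-- [E3] Second inequality without roots of unity (reduction to [E2] by adjoining `ζ_p`). -/
def SecondIneqGen : Prop :=
  ∀ (p : ℕ) [Fact p.Prime], p ≠ 2 →
  ∀ (G L : Type) [Group G] [Fintype G] [Field L] [NumberField L] [MulSemiringAction G L]
    [FaithfulSMul G L], Nat.card G = p →
    h0 (ofRepresentation (classRep G L).ρ) ≤ p

/-- [E4] The class-formation axiom for cyclic layers of degree `p`: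
`H¹(G, C_L) = 0` and `|H²(G, C_L)| = p`. -/
def CyclicAxiom : Prop :=
  ∀ (p : ℕ) [Fact p.Prime], p ≠ 2 →
  ∀ (G L : Type) [Group G] [Fintype G] [Field L] [NumberField L] [MulSemiringAction G L]
    [FaithfulSMul G L], Nat.card G = p →
    Limits.IsZero (groupCohomology (classRep G L) 1) ∧
      Nat.card (groupCohomology (classRep G L) 2) = p

/-- [E5] Galois descent as an isomorphism of `G ⧸ N`-modules: `C_L^N` is the idele class
module of a Galois pair `(G ⧸ N, L₀)` (`L₀` = the fixed field of `N`). -/
def DescentIso : Prop :=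
  ∀ (G L : Type) [Group G] [Fintype G] [Field L] [NumberField L] [MulSemiringAction G L]
    [FaithfulSMul G L] (N : Subgroup G) [N.Normal],
    ∃ (L₀ : Type) (_ : Field L₀) (_ : NumberField L₀) (_ : MulSemiringAction (G ⧸ N) L₀),
      FaithfulSMul (G ⧸ N) L₀ ∧
        Nonempty ((classRep G L).quotientToInvariants N ≅ classRep (G ⧸ N) L₀)

/-- [E6] `H¹(G, C_L) = 0` and `|H²(G, C_L)|` divides `|G|` for `p`-groups `G`. -/
def PGroupAxiom : Prop :=
  ∀ (p : ℕ) [Fact p.Prime], p ≠ 2 →
  ∀ (G L : Type) [Group G] [Fintype G] [Field L] [NumberField L] [MulSemiringAction G L]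
    [FaithfulSMul G L], IsPGroup p G →
    Limits.IsZero (groupCohomology (classRep G L) 1) ∧
      Nat.card (groupCohomology (classRep G L) 2) ∣ Nat.card G

/-! ### F. Reciprocity: the exports -/

/-- [F1] **Class formation, `p`-primary** (EXPORT).  For every Galois pair `(G, L)` there is a
class `σ ∈ H²(G, C_L)` such that for every `p`-subgroup `H ≤ G`: `H¹(H, C_L) = 0`,
`|H²(H, C_L)| = |H|`, and `H²(H, C_L)` is generated by the restriction of `σ`. -/
def ClassFormationP : Prop :=
  ∀ (p : ℕ) [Fact p.Prime], p ≠ 2 →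
  ∀ (G L : Type) [Group G] [Fintype G] [Field L] [NumberField L] [MulSemiringAction G L]
    [FaithfulSMul G L],
    ∃ σ : groupCohomology (classRep G L) 2, ∀ H : Subgroup G, IsPGroup p H →
      Limits.IsZero (groupCohomology (classRep H L) 1) ∧
      Nat.card (groupCohomology (classRep H L) 2) = Nat.card H ∧
      ∀ y : groupCohomology (classRep H L) 2,
        ∃ k : ℤ, y = k • (Coh.rest (classRep G L) H 2).hom σ

/-- [F2] **Local–global compatibility, invariant-free** (EXPORT).  For a `p`-group `G` and a
place `w ∣ q` of `L` (a maximal ideal `m` of `L ⊗[ℚ] ℚ_[q]`), the map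
`H²(G, ∏_{w' ∈ G·w} L_{w'}ˣ) → H²(G, C_L)` is injective.
(Together with `OrbitShapiro` and `LocH2Card`: a local class of order `|D_w|`.) -/
def LocalGlobalInj : Prop :=
  ∀ (p : ℕ) [Fact p.Prime], p ≠ 2 →
  ∀ (G L : Type) [Group G] [Fintype G] [Field L] [NumberField L] [MulSemiringAction G L]
    [FaithfulSMul G L], IsPGroup p G →
  ∀ (q : Nat.Primes) (m : Ideal (SemiLocal L q)), m.IsMaximal →
    Function.Injective ((groupCohomology.functor ℤ G 2).map (orbitToClass G L q m)).hom

/-! ### G. Towers: descent, `S`-versions, existence, limits -/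

/-- [G1] **Galois descent** for the idele class group along a tower `L ⊆ L'`
(`IsTower f π`, `N = ker π = Gal(L'/L)`): `C_L → C_{L'}` is injective, equivariant, with image
the `N`-invariants. -/
def ClassDescent : Prop :=
  ∀ (L L' G G' : Type) [Field L] [NumberField L] [Field L'] [NumberField L']
    [Group G] [Group G'] [Fintype G'] [MulSemiringAction G L] [MulSemiringAction G' L']
    [FaithfulSMul G' L'] (f : L →+* L') (π : G' →* G), IsTower f π →
    Function.Injective (classMap f) ∧
    (∀ y : ClassGroupOf L', (∀ n ∈ π.ker, (classRep G' L').ρ n y = y) →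
      y ∈ LinearMap.range (classMap f)) ∧
    ∀ (g : G') (x : ClassGroupOf L),
      classMap f ((classRep G L).ρ (π g) x) = (classRep G' L').ρ g (classMap f x)

/-- [G2] Galois descent for the `S`-idele class group, `S ≠ ∅`, `L'` unramified outside `S`. -/
def ClassDescentS : Prop :=
  ∀ (L L' G G' : Type) [Field L] [NumberField L] [Field L'] [NumberField L']
    [Group G] [Group G'] [Fintype G'] [MulSemiringAction G L] [MulSemiringAction G' L']
    [FaithfulSMul G' L'] (f : L →+* L') (π : G' →* G), IsTower f π →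
  ∀ S : Finset Nat.Primes, S.Nonempty → UnramOutside S L' →
    Function.Injective (classMapS f S) ∧
    (∀ y : ClassGroupSOf L' S, (∀ n ∈ π.ker, (classRepS G' L' S).ρ n y = y) →
      y ∈ LinearMap.range (classMapS f S)) ∧
    ∀ (g : G') (x : ClassGroupSOf L S),
      classMapS f S ((classRepS G L S).ρ (π g) x) = (classRepS G' L' S).ρ g (classMapS f S x)

/-- [G3] For `L` unramified outside `S ≠ ∅`, `C_L → C_S(L)` induces bijections on `Hⁿ(G, -)`
for `n ≥ 1` and a surjection on invariants. -/
def SClassCompare : Prop :=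
  ∀ (G L : Type) [Group G] [Fintype G] [Field L] [NumberField L] [MulSemiringAction G L]
    [FaithfulSMul G L] (S : Finset Nat.Primes), S.Nonempty → UnramOutside S L →
    (∀ n : ℕ, 1 ≤ n →
      Function.Bijective ((groupCohomology.functor ℤ G n).map (classToClassS G L S)).hom) ∧
    ∀ y : ClassGroupSOf L S, (∀ g : G, (classRepS G L S).ρ g y = y) →
      ∃ x : ClassGroupOf L, (∀ g : G, (classRep G L).ρ g x = x) ∧
        (classToClassS G L S).hom x = y

/-- [G4] **Existence theorem mod `p`** (EXPORT).  `L ∋ ζ_p`, `p ∈ S`: an `S`-idele class which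
is not a `p`-th power fails to be a norm from some cyclic extension `L'/L` of degree `p`
which is unramified outside `S`. -/
def ExistenceModP : Prop :=
  ∀ (p : ℕ) [Fact p.Prime], p ≠ 2 →
  ∀ (L : Type) [Field L] [NumberField L] (S : Finset Nat.Primes),
    (∃ q ∈ S, (q : ℕ) = p) → (∃ ζ : L, IsPrimitiveRoot ζ p) →
  ∀ x : ClassGroupSOf L S, (¬ ∃ y : ClassGroupSOf L S, p • y = x) →
    ∃ (L' : Type) (_ : Field L') (_ : NumberField L') (G' : Type) (_ : Group G')
      (_ : Fintype G') (_ : MulSemiringAction G' L') (f : L →+* L'),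
      FaithfulSMul G' L' ∧ Nat.card G' = p ∧
      (∀ y : L', (∀ g : G', g • y = y) ↔ y ∈ f.range) ∧
      (UnramOutside S L → UnramOutside S L') ∧
      ∀ z : ClassGroupSOf L' S, (classRepS G' L' S).ρ.norm z ≠ classMapS f S x

/-- [G5] `p`-divisibility of the `S`-units in the limit: `L ∋ ζ_p`, `p ∈ S`, `u ∈ E_S(L)`:
`u` becomes a `p`-th power of an `S`-unit in an extension unramified outside `S`. -/
def SUnitsPDiv : Prop :=
  ∀ (p : ℕ) [Fact p.Prime], p ≠ 2 →
  ∀ (L : Type) [Field L] [NumberField L] (S : Finset Nat.Primes),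
    (∃ q ∈ S, (q : ℕ) = p) → (∃ ζ : L, IsPrimitiveRoot ζ p) →
  ∀ u ∈ sUnits L S,
    ∃ (L' : Type) (_ : Field L') (_ : NumberField L') (G' : Type) (_ : Group G')
      (_ : Fintype G') (_ : MulSemiringAction G' L') (f : L →+* L'),
      FaithfulSMul G' L' ∧
      (∀ y : L', (∀ g : G', g • y = y) ↔ y ∈ f.range) ∧
      (UnramOutside S L → UnramOutside S L') ∧
      ∃ v ∈ sUnits L' S, v ^ p = Units.map f.toMonoidHom u

/-- [G6] Capitulation of the `p`-torsion of the `S`-class group in the limit: `L ∋ ζ_p`,
`p ∈ S`, `x ∈ J_L` with `x ^ p ∈ Lˣ · J_S · U^S`: `x` lies in `L'ˣ · J_S · U^S` for an extension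
`L'` unramified outside `S`. -/
def ClassCapitulation : Prop :=
  ∀ (p : ℕ) [Fact p.Prime], p ≠ 2 →
  ∀ (L : Type) [Field L] [NumberField L] (S : Finset Nat.Primes),
    (∃ q ∈ S, (q : ℕ) = p) → (∃ ζ : L, IsPrimitiveRoot ζ p) →
  ∀ x ∈ finIdele L, x ^ p ∈ (principal L).range ⊔ supportedOn L S ⊔ unitsOutside L S →
    ∃ (L' : Type) (_ : Field L') (_ : NumberField L') (G' : Type) (_ : Group G')
      (_ : Fintype G') (_ : MulSemiringAction G' L') (f : L →+* L'),
      FaithfulSMul G' L' ∧
      (∀ y : L', (∀ g : G', g • y = y) ↔ y ∈ f.range) ∧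
      (UnramOutside S L → UnramOutside S L') ∧
      ideleProdMap f x ∈ (principal L').range ⊔ supportedOn L' S ⊔ unitsOutside L' S

/-! ### H. Append-only additions (v1.1, proposed by the reviewer helper51, board row 1683) -/

/-- [F0] **Cyclotomic crossing** (the whole arithmetic input of `ClassFormationP`, in order form).
For every Galois pair `(G, L)` there are a tower `(G', L')` over it with `ker π` a `p`-group and a
class `X ∈ H²(G', C_{L'})` which dies on `ker π` and whose restriction to every `p`-subgroup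
`U ⊇ ker π` has order at least `|U| / |ker π|`.
(`K = L^G`, `Z/K` cyclic cyclotomic of degree `|G|_p`, `L' = L·Z`, `X` = inflation of a generator
of `H²(Gal(Z/K), C_Z)`.)  `PGroupAxiom ∧ CycloCrossing ∧ ClassDescent ⟹ ClassFormationP`. -/
def CycloCrossing : Prop :=
  ∀ (p : ℕ) [Fact p.Prime], p ≠ 2 →
  ∀ (G L : Type) [Group G] [Fintype G] [Field L] [NumberField L] [MulSemiringAction G L]
    [FaithfulSMul G L],
    ∃ (L' : Type) (_ : Field L') (_ : NumberField L') (G' : Type) (_ : Group G')
      (_ : Fintype G') (_ : MulSemiringAction G' L') (f : L →+* L') (π : G' →* G),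
      FaithfulSMul G' L' ∧ IsTower f π ∧ IsPGroup p π.ker ∧
      ∃ X : groupCohomology (classRep G' L') 2,
        (Coh.rest (classRep G' L') π.ker 2).hom X = 0 ∧
        ∀ U : Subgroup G', IsPGroup p U → π.ker ≤ U →
          ∀ k : ℤ, k • (Coh.rest (classRep G' L') U 2).hom X = 0 →
            (Nat.card U : ℤ) ∣ k * Nat.card π.ker

/-- [C6] The local `p`-class module: a class `σw ∈ H²(D_w, L_wˣ)` whose restrictions generate
`H²(H, L_wˣ)` (of order `|H|`) for every `p`-subgroup `H ≤ D_w`, and Hilbert 90. -/
def LocClassP : Prop :=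
  ∀ (p : ℕ) [Fact p.Prime],
  ∀ (G L : Type) [Group G] [Fintype G] [Field L] [NumberField L] [MulSemiringAction G L]
    [FaithfulSMul G L] (q : ℕ) [Fact q.Prime] (m : Ideal (SemiLocal L q)), m.IsMaximal →
    ∃ σw : groupCohomology (localCompRep G L q m) 2,
      ∀ H : Subgroup (decompGroup G L q m), IsPGroup p H →
        Limits.IsZero (groupCohomology (Rep.res H.subtype (localCompRep G L q m)) 1) ∧
        Nat.card (groupCohomology (Rep.res H.subtype (localCompRep G L q m)) 2) = Nat.card H ∧
        ∀ y : groupCohomology (Rep.res H.subtype (localCompRep G L q m)) 2,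
          ∃ k : ℤ, y = k • (Coh.rest (localCompRep G L q m) H 2).hom σw

/-- [B5] Transitivity: if `L^G = ℚ`, then `G` permutes the places of `L` above `q`
transitively. -/
def OrbitTransitive : Prop :=
  ∀ (G L : Type) [Group G] [Fintype G] [Field L] [NumberField L] [MulSemiringAction G L]
    (q : ℕ) [Fact q.Prime],
    (∀ y : L, (∀ g : G, g • y = y) → y ∈ (algebraMap ℚ L).range) →
    ∀ m m' : Ideal (SemiLocal L q), m.IsMaximal → m'.IsMaximal →
      ∃ g : G, ∀ x : SemiLocal L q, x ∈ m' ↔ g • x ∈ m

/-- [A5] `C_S(L) / p` is finite. -/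
def SClassModPFinite : Prop :=
  ∀ (p : ℕ) [Fact p.Prime] (L : Type) [Field L] [NumberField L] (S : Finset Nat.Primes),
    Finite (ClassGroupSOf L S ⧸
      (LinearMap.range (LinearMap.lsmul ℤ (ClassGroupSOf L S) (p : ℤ))))

/-! ### I. Append-only additions (v1.2) -/

/-- [F2c] `LocalGlobalInj` in the only case the consumers need: `G` cyclic of order `p` and the
place `m` not split (`D_w = G`).  (Special case of [F2]; for a `p`-subgroup `P ≤ D_w` of an
arbitrary Galois pair, injectivity on `H²(P, -)` follows from the subgroups of order `p`.) -/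
def LocalGlobalInjCyclic : Prop :=
  ∀ (p : ℕ) [Fact p.Prime], p ≠ 2 →
  ∀ (G L : Type) [Group G] [Fintype G] [Field L] [NumberField L] [MulSemiringAction G L]
    [FaithfulSMul G L], Nat.card G = p →
  ∀ (q : Nat.Primes) (m : Ideal (SemiLocal L q)), m.IsMaximal → decompGroup G L q m = ⊤ →
    Function.Injective ((groupCohomology.functor ℤ G 2).map (orbitToClass G L q m)).hom

/-- [B6] The block of a place fixed by `G` is its local component: if `D_w = G`, the projection
`orbitProj` of the block `∏_{w' ∈ G·w} L_{w'}ˣ = L_wˣ` onto `L_wˣ` is bijective (CRT in the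
reduced Artinian ring `L ⊗[ℚ] ℚ_[q]`). -/
def OrbitProjBijective : Prop :=
  ∀ (G L : Type) [Group G] [Field L] [NumberField L] [MulSemiringAction G L]
    (q : ℕ) [Fact q.Prime] (m : Ideal (SemiLocal L q)), m.IsMaximal →
    decompGroup G L q m = ⊤ → Function.Bijective (orbitProj G L q m).hom

/-- [A6] Finiteness of ramification. -/
def UnramFinite : Prop :=
  ∀ (L : Type) [Field L] [NumberField L], ∃ S₀ : Finset Nat.Primes, UnramOutside S₀ L

end Fermat.Agent.CFT.Global.Plan
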