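import Fermat.Agent.CFT.Global.Defs
import Fermat.Agent.CFT.Glob.GaloisTensor
import Fermat.Agent.CFT.Coh.Shapiro

/-!
# Class field theory program (P3), global layer, block B: the semilocal algebras as Galois algebras

`A = L ⊗[ℚ] ℚ_[q]` for a number field `L` with a finite group `G` acting on `L`.

* `semiLocalArtinian` [B1] : `A` is Artinian and reduced;
* `orbitDecomp` [B2]      : `Aˣ` is the internal direct product of the blocks `orbitUnits`;
* `orbitShapiro` [B3]     : `Hⁿ(G, ∏_{w' ∈ G·w} L_{w'}ˣ) → Hⁿ(D_w, L_wˣ)` is bijective;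
* `locFaithful` [B4]      : the decomposition group acts faithfully on the local component.

The first section is pure commutative algebra: a finite group acting on an Artinian reduced ring
(Chinese remainder theorem on the finitely many maximal ideals).
-/

set_option autoImplicit false

open scoped TensorProduct

namespace Fermat.Agent.CFT.Global.SemiLocalGalois

/-! ### A finite group acting on an Artinian reduced ring -/

section Abstract

variable {A : Type*} [CommRing A] [IsArtinianRing A] [IsReduced A]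

/-- In an Artinian reduced ring the intersection of the maximal ideals is zero. -/
theorem eq_zero_of_forall_mem {a : A} (h : ∀ m : Ideal A, m.IsMaximal → a ∈ m) : a = 0 := by
  have h1 : a ∈ Ideal.jacobson (⊥ : Ideal A) := by
    rw [Ideal.jacobson, Ideal.mem_sInf]
    rintro m ⟨-, hm⟩
    exact h m hm
  obtain ⟨n, hn⟩ := IsArtinianRing.isNilpotent_jacobson_bot (R := A)
  have h2 : a ^ n ∈ (Ideal.jacobson (⊥ : Ideal A)) ^ n := Ideal.pow_mem_pow h1 n
  rw [hn] at h2
  exact IsReduced.eq_zero a ⟨n, h2⟩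

omit [IsReduced A] in
/-- Chinese remainder theorem on the maximal spectrum of an Artinian ring. -/
theorem exists_forall_sub_mem (x : MaximalSpectrum A → A) :
    ∃ r : A, ∀ m : MaximalSpectrum A, r - x m ∈ m.asIdeal := by
  refine Ideal.exists_forall_sub_mem_ideal (I := fun m : MaximalSpectrum A => m.asIdeal) ?_ x
  intro m m' hne
  have := m.isMaximal
  have := m'.isMaximal
  exact Ideal.isCoprime_of_isMaximal (fun h => hne (MaximalSpectrum.ext h))

/-- Two elements which are inverse to each other modulo every maximal ideal are inverse. -/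
theorem mul_eq_one_of_forall_mem {a b : A} (h : ∀ m : Ideal A, m.IsMaximal → a * b - 1 ∈ m) :
    a * b = 1 :=
  sub_eq_zero.1 (eq_zero_of_forall_mem h)

variable {G : Type*} [Group G] [MulSemiringAction G A]

/-- The maximal ideal `g⁻¹ m = {a | g • a ∈ m}`. -/
def translate (m : Ideal A) (g : G) : Ideal A :=
  Ideal.comap (MulSemiringAction.toRingEquiv G A g) m

omit [IsArtinianRing A] [IsReduced A] in
theorem mem_translate {m : Ideal A} {g : G} {a : A} : a ∈ translate m g ↔ g • a ∈ m := Iff.rfl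

omit [IsArtinianRing A] [IsReduced A] in
theorem translate_isMaximal {m : Ideal A} (hm : m.IsMaximal) (g : G) :
    (translate m g).IsMaximal :=
  Ideal.comap_isMaximal_of_equiv (MulSemiringAction.toRingEquiv G A g)

/-- **Coinduction on one orbit** (Chinese remainder theorem).  `F, F' : G → A` represent a
function `G → (A ⧸ m)ˣ` and its inverse, equivariant for the stabiliser of `m`.  Then there is a
unit `u` with `g • u ≡ F g` modulo `m` for all `g`, and `u ≡ 1` modulo every maximal ideal
outside the orbit of `m`. -/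
theorem exists_unit_orbit (m : Ideal A) (hm : m.IsMaximal) (F F' : G → A)
    (hFF' : ∀ g, F g * F' g - 1 ∈ m)
    (hF : ∀ d g : G, (∀ a : A, d • a ∈ m ↔ a ∈ m) → F (d * g) - d • F g ∈ m) :
    ∃ u : Aˣ, (∀ g : G, g • (u : A) - F g ∈ m) ∧
      ∀ m' : Ideal A, m'.IsMaximal → (∀ g : G, ∃ a : A, ¬ (a ∈ m' ↔ g • a ∈ m)) →
        (u : A) - 1 ∈ m' := by
  classical
  -- the chosen conjugating element for each maximal ideal in the orbit
  let P : MaximalSpectrum A → Prop := fun m' => ∃ g : G, ∀ a : A, a ∈ m'.asIdeal ↔ g • a ∈ m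
  let γ : MaximalSpectrum A → G := fun m' => if h : P m' then h.choose else 1
  have hγ : ∀ m' : MaximalSpectrum A, P m' → ∀ a : A, a ∈ m'.asIdeal ↔ γ m' • a ∈ m := by
    intro m' h
    simp only [γ, dif_pos h]
    exact h.choose_spec
  obtain ⟨a, ha⟩ := exists_forall_sub_mem
    (fun m' : MaximalSpectrum A => if P m' then (γ m')⁻¹ • F (γ m') else 1)
  obtain ⟨b, hb⟩ := exists_forall_sub_mem
    (fun m' : MaximalSpectrum A => if P m' then (γ m')⁻¹ • F' (γ m') else 1)
  have hab : a * b = 1 := by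
    apply mul_eq_one_of_forall_mem
    intro m' hm'
    have ha' := ha ⟨m', hm'⟩
    have hb' := hb ⟨m', hm'⟩
    by_cases hP : P ⟨m', hm'⟩
    · rw [if_pos hP] at ha' hb'
      set c := γ ⟨m', hm'⟩ with hc
      have h1 : c⁻¹ • (F c * F' c - 1) ∈ m' := by
        rw [hγ ⟨m', hm'⟩ hP, smul_inv_smul]
        exact hFF' c
      have e : a * b - 1 = (a - c⁻¹ • F c) * b + c⁻¹ • F c * (b - c⁻¹ • F' c) +
          c⁻¹ • (F c * F' c - 1) := by
        rw [smul_sub, smul_mul', smul_one]
        ring
      rw [e]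
      exact m'.add_mem (m'.add_mem (m'.mul_mem_right _ ha') (m'.mul_mem_left _ hb')) h1
    · rw [if_neg hP] at ha' hb'
      have e : a * b - 1 = (a - 1) * b + (b - 1) := by ring
      rw [e]
      exact m'.add_mem (m'.mul_mem_right _ ha') hb'
  refine ⟨Units.mkOfMulEqOne a b hab, fun g => ?_, fun m' hm' hnot => ?_⟩
  · -- the maximal ideal `g⁻¹ m`
    have hmax := translate_isMaximal hm g
    have hP : P ⟨translate m g, hmax⟩ := ⟨g, fun a => Iff.rfl⟩
    have ha' := ha ⟨translate m g, hmax⟩
    rw [if_pos hP] at ha'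
    set c := γ ⟨translate m g, hmax⟩ with hc
    have hc' : ∀ x : A, g • x ∈ m ↔ c • x ∈ m := hγ ⟨translate m g, hmax⟩ hP
    -- `d = g c⁻¹` stabilises `m`
    have hd : ∀ x : A, (g * c⁻¹) • x ∈ m ↔ x ∈ m := by
      intro x
      rw [mul_smul, hc', smul_inv_smul]
    have h1 : g • a - g • c⁻¹ • F c ∈ m := by
      have : g • (a - c⁻¹ • F c) ∈ m := ha'
      rwa [smul_sub] at this
    have h2 := hF (g * c⁻¹) c hd
    rw [inv_mul_cancel_right, mul_smul] at h2
    have e : g • a - F g = (g • a - g • c⁻¹ • F c) - (F g - g • c⁻¹ • F c) := by ring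
    show g • a - F g ∈ m
    rw [e]
    exact m.sub_mem h1 h2
  · have hP : ¬ P ⟨m', hm'⟩ := by
      rintro ⟨g, hg⟩
      obtain ⟨x, hx⟩ := hnot g
      exact hx (hg x)
    have ha' := ha ⟨m', hm'⟩
    rw [if_neg hP] at ha'
    exact ha'

/-- Uniqueness in `exists_unit_orbit`. -/
theorem eq_one_of_orbit (m : Ideal A) (u : A) (h1 : ∀ g : G, g • u - 1 ∈ m)
    (h2 : ∀ m' : Ideal A, m'.IsMaximal → (∀ g : G, ∃ a : A, ¬ (a ∈ m' ↔ g • a ∈ m)) →
      u - 1 ∈ m') : u = 1 := by
  rw [← sub_eq_zero]
  apply eq_zero_of_forall_mem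
  intro m' hm'
  by_cases hP : ∃ g : G, ∀ a : A, a ∈ m' ↔ g • a ∈ m
  · obtain ⟨g, hg⟩ := hP
    rw [hg, smul_sub, smul_one]
    exact h1 g
  · refine h2 m' hm' (fun g => ?_)
    by_contra hcon
    exact hP ⟨g, fun a => by_contra fun hx => hcon ⟨a, hx⟩⟩

/-- A unit congruent to `u` modulo one maximal ideal and to `1` modulo all the others. -/
theorem exists_unit_single (u : Aˣ) (m₀ : MaximalSpectrum A) :
    ∃ v : Aˣ, (v : A) - u ∈ m₀.asIdeal ∧
      ∀ m' : MaximalSpectrum A, m' ≠ m₀ → (v : A) - 1 ∈ m'.asIdeal := by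
  classical
  obtain ⟨a, ha⟩ := exists_forall_sub_mem
    (fun m' : MaximalSpectrum A => if m' = m₀ then (u : A) else 1)
  obtain ⟨b, hb⟩ := exists_forall_sub_mem
    (fun m' : MaximalSpectrum A => if m' = m₀ then ((u⁻¹ : Aˣ) : A) else 1)
  have hab : a * b = 1 := by
    apply mul_eq_one_of_forall_mem
    intro m' hm'
    have ha' := ha ⟨m', hm'⟩
    have hb' := hb ⟨m', hm'⟩
    by_cases h : (⟨m', hm'⟩ : MaximalSpectrum A) = m₀
    · rw [if_pos h] at ha' hb'
      have e : a * b - 1 = (a - u) * b + u * (b - ((u⁻¹ : Aˣ) : A)) := by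
        rw [mul_sub, Units.mul_inv]
        ring
      rw [e]
      exact m'.add_mem (m'.mul_mem_right _ ha') (m'.mul_mem_left _ hb')
    · rw [if_neg h] at ha' hb'
      have e : a * b - 1 = (a - 1) * b + (b - 1) := by ring
      rw [e]
      exact m'.add_mem (m'.mul_mem_right _ ha') hb'
  refine ⟨Units.mkOfMulEqOne a b hab, ?_, fun m' hne => ?_⟩
  · have h := ha m₀
    rw [if_pos rfl] at h
    exact h
  · have h := ha m'
    rw [if_neg hne] at h
    exact h

/-- The unit group of an Artinian reduced ring is generated by the units which are `≡ 1`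
modulo all maximal ideals but one. -/
theorem mem_of_forall_single (S : Subgroup Aˣ) (u : Aˣ)
    (hS : ∀ (m₀ : MaximalSpectrum A) (v : Aˣ),
      (∀ m' : MaximalSpectrum A, m' ≠ m₀ → (v : A) - 1 ∈ m'.asIdeal) → v ∈ S) : u ∈ S := by
  classical
  have : Fintype (MaximalSpectrum A) := Fintype.ofFinite _
  choose v hv1 hv2 using exists_unit_single u
  have hu : u = ∏ m₀ : MaximalSpectrum A, v m₀ := by
    apply Units.ext
    rw [← sub_eq_zero]
    apply eq_zero_of_forall_mem
    intro m' hm'
    rw [← Ideal.Quotient.eq, Units.coe_prod, map_prod,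
      Finset.prod_eq_single (⟨m', hm'⟩ : MaximalSpectrum A)]
    · exact (Ideal.Quotient.eq.2 (hv1 ⟨m', hm'⟩)).symm
    · intro m₀ _ hne
      rw [← map_one (Ideal.Quotient.mk m'), Ideal.Quotient.eq]
      exact hv2 m₀ ⟨m', hm'⟩ (Ne.symm hne)
    · intro h
      exact absurd (Finset.mem_univ _) h
  rw [hu]
  exact Subgroup.prod_mem S (fun m₀ _ => hS m₀ (v m₀) (hv2 m₀))

end Abstract

/-! ### Orbits of ideals -/

section Orbit

variable {A : Type*} [CommRing A] (G : Type*) [Group G] [MulSemiringAction G A]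

/-- `m'` is a translate of `m` under the group: `m' = g⁻¹ m` for some `g`. -/
def InOrbit (m' m : Ideal A) : Prop := ∃ g : G, ∀ a : A, a ∈ m' ↔ g • a ∈ m

variable {G}

theorem not_inOrbit_iff {m' m : Ideal A} :
    ¬ InOrbit G m' m ↔ ∀ g : G, ∃ a : A, ¬ (a ∈ m' ↔ g • a ∈ m) := by
  simp only [InOrbit, not_exists, not_forall]

variable (G) in
theorem InOrbit.refl (m : Ideal A) : InOrbit G m m := ⟨1, fun a => by rw [one_smul]⟩

theorem InOrbit.symm {m' m : Ideal A} (h : InOrbit G m' m) : InOrbit G m m' := by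
  obtain ⟨g, hg⟩ := h
  exact ⟨g⁻¹, fun a => by rw [hg, smul_inv_smul]⟩

theorem InOrbit.trans {m'' m' m : Ideal A} (h₁ : InOrbit G m'' m') (h₂ : InOrbit G m' m) :
    InOrbit G m'' m := by
  obtain ⟨g₁, hg₁⟩ := h₁
  obtain ⟨g₂, hg₂⟩ := h₂
  exact ⟨g₂ * g₁, fun a => by rw [hg₁, hg₂, mul_smul]⟩

end Orbit

/-! ### The semilocal algebras `L ⊗[ℚ] ℚ_[q]` -/

open Fermat.Agent.CFT.Global Fermat.Agent.CFT.Glob
open scoped Fermat.Agent.CFT.Global

/-- **[B1]** `L ⊗[ℚ] ℚ_[q]` is Artinian and reduced. -/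
theorem semiLocalArtinian : ∀ (L : Type) [Field L] [NumberField L] (q : ℕ) [Fact q.Prime],
    IsArtinianRing (SemiLocal L q) ∧ IsReduced (SemiLocal L q) := by
  intro L _ _ q _
  exact ⟨GaloisTensor.isArtinianRing ℚ L ℚ_[q], GaloisTensor.isReduced ℚ L ℚ_[q]⟩

section SemiLocal

variable (G L : Type) [Group G] [Field L] [NumberField L] [MulSemiringAction G L]
variable (q : ℕ) [Fact q.Prime]

/-- `L ⊗[ℚ] ℚ_[q]` is Artinian (local instance for this file). -/
local instance instArtinianSemiLocal : IsArtinianRing (SemiLocal L q) :=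
  (semiLocalArtinian L q).1

/-- `L ⊗[ℚ] ℚ_[q]` is reduced (local instance for this file). -/
local instance instReducedSemiLocal : IsReduced (SemiLocal L q) :=
  (semiLocalArtinian L q).2

omit [NumberField L] in
/-- A non-zero element of `L` is a unit of `L ⊗[ℚ] ℚ_[q]`, hence lies in no proper ideal. -/
theorem tmul_one_notMem [CharZero L] {x : L} (hx : x ≠ 0) (m : Ideal (SemiLocal L q))
    (hm : m ≠ ⊤) : (x ⊗ₜ[ℚ] (1 : ℚ_[q]) : SemiLocal L q) ∉ m := by
  intro h
  apply hm
  rw [Ideal.eq_top_iff_one]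
  have h1 : (x⁻¹ ⊗ₜ[ℚ] (1 : ℚ_[q]) : SemiLocal L q) * (x ⊗ₜ[ℚ] (1 : ℚ_[q])) = 1 := by
    rw [Algebra.TensorProduct.tmul_mul_tmul, inv_mul_cancel₀ hx, mul_one,
      Algebra.TensorProduct.one_def]
  rw [← h1]
  exact m.mul_mem_left _ h

/-- **[B4]**, one place: the decomposition group acts faithfully on the local component. -/
theorem faithfulSMul_decomp [FaithfulSMul G L] (m : Ideal (SemiLocal L q)) (hm : m.IsMaximal) :
    FaithfulSMul (decompGroup G L q m) (SemiLocal L q ⧸ m) := by
  refine ⟨fun {d d'} h => ?_⟩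
  apply Subtype.ext
  apply FaithfulSMul.eq_of_smul_eq_smul (α := L)
  intro l
  by_contra hne
  have h1 := h (Ideal.Quotient.mk m (l ⊗ₜ[ℚ] (1 : ℚ_[q])))
  rw [decomp_smul_mk, decomp_smul_mk, smul_tmul_eq, smul_tmul_eq, Ideal.Quotient.eq,
    ← TensorProduct.sub_tmul] at h1
  exact tmul_one_notMem L q (sub_ne_zero.2 hne) m hm.ne_top h1

/-- **Recognition of the block as a coinduced module**, elementary form: an element of the
block with trivial components is trivial. -/
theorem orbit_inj (m : Ideal (SemiLocal L q)) (b : (orbitRep G L q m).V)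
    (hb : ∀ g : G, (orbitProj G L q m).hom ((orbitRep G L q m).ρ g b) = 0) : b = 0 := by
  have hu : (Additive.toMul b.1 : (SemiLocal L q)ˣ) = 1 := by
    apply Units.ext
    refine eq_one_of_orbit (G := G) m _ (fun g => ?_) b.2
    have h1 := hb g
    have h2 : Ideal.Quotient.mk m (g • ((Additive.toMul b.1 : (SemiLocal L q)ˣ) : SemiLocal L q))
        = 1 := congrArg (fun z : Additive (SemiLocal L q ⧸ m)ˣ =>
          ((Additive.toMul z : (SemiLocal L q ⧸ m)ˣ) : SemiLocal L q ⧸ m)) h1
    rw [← map_one (Ideal.Quotient.mk m), Ideal.Quotient.eq] at h2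
    exact h2
  apply Subtype.ext
  exact hu

/-- **Recognition of the block as a coinduced module**, elementary form: every equivariant
function on `G` with values in the local component comes from the block. -/
theorem orbit_surj (m : Ideal (SemiLocal L q)) (hm : m.IsMaximal)
    (F : G → (localCompRep G L q m).V)
    (hF : ∀ (h : decompGroup G L q m) (g : G),
      F ((h : G) * g) = (localCompRep G L q m).ρ h (F g)) :
    ∃ b : (orbitRep G L q m).V,
      ∀ g : G, (orbitProj G L q m).hom ((orbitRep G L q m).ρ g b) = F g := by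
  -- lifts of the values and of their inverses
  have hl : ∀ g : G, ∃ a : SemiLocal L q, Ideal.Quotient.mk m a =
      ((Additive.toMul (F g) : (SemiLocal L q ⧸ m)ˣ) : SemiLocal L q ⧸ m) :=
    fun g => Ideal.Quotient.mk_surjective _
  have hl' : ∀ g : G, ∃ a : SemiLocal L q, Ideal.Quotient.mk m a =
      (((Additive.toMul (F g) : (SemiLocal L q ⧸ m)ˣ)⁻¹ : (SemiLocal L q ⧸ m)ˣ) :
        SemiLocal L q ⧸ m) :=
    fun g => Ideal.Quotient.mk_surjective _
  choose Φ hΦ using hl
  choose Φ' hΦ' using hl'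
  obtain ⟨u, hu1, hu2⟩ := exists_unit_orbit (G := G) m hm Φ Φ'
    (fun g => by
      rw [← Ideal.Quotient.eq, map_mul, map_one, hΦ, hΦ', Units.mul_inv])
    (fun d g hd => by
      have h1 := hF ⟨d, hd⟩ g
      have h2 : ((Additive.toMul (F (d * g)) : (SemiLocal L q ⧸ m)ˣ) : SemiLocal L q ⧸ m) =
          (⟨d, hd⟩ : decompGroup G L q m) •
            ((Additive.toMul (F g) : (SemiLocal L q ⧸ m)ˣ) : SemiLocal L q ⧸ m) :=
        congrArg (fun z : Additive (SemiLocal L q ⧸ m)ˣ =>
          ((Additive.toMul z : (SemiLocal L q ⧸ m)ˣ) : SemiLocal L q ⧸ m)) h1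
      rw [← Ideal.Quotient.eq, hΦ, h2, ← hΦ, decomp_smul_mk])
  refine ⟨⟨Additive.ofMul u, hu2⟩, fun g => ?_⟩
  have h3 : Ideal.Quotient.mk m (g • (u : SemiLocal L q)) =
      ((Additive.toMul (F g) : (SemiLocal L q ⧸ m)ˣ) : SemiLocal L q ⧸ m) := by
    rw [← hΦ, Ideal.Quotient.eq]
    exact hu1 g
  have h4 : (Additive.toMul ((orbitProj G L q m).hom ((orbitRep G L q m).ρ g
      ⟨Additive.ofMul u, hu2⟩)) : (SemiLocal L q ⧸ m)ˣ) = Additive.toMul (F g) :=
    Units.ext h3
  exact h4

/-- **[B3]**, one place: restriction to the decomposition group followed by the projection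
onto the local component is bijective on the cohomology of the block. -/
theorem orbitShapiro_bijective (m : Ideal (SemiLocal L q)) (hm : m.IsMaximal) (n : ℕ) :
    Function.Bijective
      (groupCohomology.map (decompGroup G L q m).subtype (orbitProj G L q m) n).hom := by
  have h := Coh.Semilocal.map_family_bijective' (ι := Unit)
    (H := fun _ => decompGroup G L q m) (B := orbitRep G L q m)
    (A := fun _ => localCompRep G L q m) (f := fun _ => orbitProj G L q m)
    (fun b hb => orbit_inj G L q m b (hb ()))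
    (fun F hF => by
      obtain ⟨b, hb⟩ := orbit_surj G L q m hm (F ()) (hF ())
      exact ⟨b, fun _ g => hb g⟩) n
  constructor
  · intro x y hxy
    exact h.1 (funext fun _ => hxy)
  · intro z
    obtain ⟨x, hx⟩ := h.2 (fun _ => z)
    exact ⟨x, congrFun hx ()⟩

omit [NumberField L] in
theorem mem_orbitUnits_iff [CharZero L] {m : Ideal (SemiLocal L q)} {x : (SemiLocal L q)ˣ} :
    x ∈ orbitUnits G L q m ↔ ∀ m' : Ideal (SemiLocal L q), m'.IsMaximal →
      ¬ InOrbit G m' m → (x : SemiLocal L q) - 1 ∈ m' := by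
  constructor
  · intro hx m' hm' hno
    exact hx m' hm' (not_inOrbit_iff.1 hno)
  · intro hx m' hm' hno
    exact hx m' hm' (not_inOrbit_iff.2 hno)

omit [NumberField L] in
/-- The block depends only on the orbit. -/
theorem orbitUnits_eq_of_inOrbit [CharZero L] {m' m : Ideal (SemiLocal L q)}
    (h : InOrbit G m' m) : orbitUnits G L q m' = orbitUnits G L q m := by
  apply Subgroup.ext
  intro x
  rw [mem_orbitUnits_iff, mem_orbitUnits_iff]
  constructor
  · intro hx m'' hm'' hno
    exact hx m'' hm'' (fun h' => hno (h'.trans h))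
  · intro hx m'' hm'' hno
    exact hx m'' hm'' (fun h' => hno (h'.trans h.symm))

/-- **[B2]**, first half: the blocks generate the unit group. -/
theorem iSup_orbitUnits_eq_top :
    (⨆ m : {m : Ideal (SemiLocal L q) // m.IsMaximal}, orbitUnits G L q m.1) = ⊤ := by
  rw [Subgroup.eq_top_iff']
  intro u
  apply mem_of_forall_single
  intro m₀ v hv
  refine Subgroup.mem_iSup_of_mem
    (S := fun m : {m : Ideal (SemiLocal L q) // m.IsMaximal} => orbitUnits G L q m.1)
    ⟨m₀.asIdeal, m₀.isMaximal⟩ ?_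
  intro m' hm' hno
  refine hv ⟨m', hm'⟩ (fun h => ?_)
  obtain ⟨a, ha⟩ := hno 1
  apply ha
  rw [one_smul, ← h]

/-- **[B2]**, second half: a block meets the product of the other blocks trivially. -/
theorem orbitUnits_inf_iSup_eq_bot (m : Ideal (SemiLocal L q)) :
    orbitUnits G L q m ⊓
      (⨆ m' : {m' : {m : Ideal (SemiLocal L q) // m.IsMaximal} //
          orbitUnits G L q m'.1 ≠ orbitUnits G L q m}, orbitUnits G L q m'.1.1) = ⊥ := by
  rw [Subgroup.eq_bot_iff_forall]
  intro x hx
  rw [Subgroup.mem_inf] at hx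
  obtain ⟨hx1, hx2⟩ := hx
  -- the subgroup of the units which are `≡ 1` on the orbit of `m`
  let T : Subgroup (SemiLocal L q)ˣ :=
    ⨅ m'' : {m'' : Ideal (SemiLocal L q) // m''.IsMaximal ∧ InOrbit G m'' m},
      (Units.map (Ideal.Quotient.mk m''.1).toMonoidHom).ker
  have hT : (⨆ m' : {m' : {m : Ideal (SemiLocal L q) // m.IsMaximal} //
      orbitUnits G L q m'.1 ≠ orbitUnits G L q m}, orbitUnits G L q m'.1.1) ≤ T := by
    apply iSup_le
    rintro ⟨⟨m', hm'⟩, hne⟩ y hy
    rw [Subgroup.mem_iInf]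
    rintro ⟨m'', hm'', horb⟩
    rw [MonoidHom.mem_ker]
    apply Units.ext
    show Ideal.Quotient.mk m'' (y : SemiLocal L q) = 1
    rw [← map_one (Ideal.Quotient.mk m''), Ideal.Quotient.eq]
    refine (mem_orbitUnits_iff G L q).1 hy m'' hm'' (fun h' => hne ?_)
    exact orbitUnits_eq_of_inOrbit G L q (h'.symm.trans horb)
  have hxT := hT hx2
  apply Units.ext
  rw [Units.val_one, ← sub_eq_zero]
  apply eq_zero_of_forall_mem
  intro m'' hm''
  by_cases horb : InOrbit G m'' m
  · have h1 := (Subgroup.mem_iInf.1 hxT) ⟨m'', hm'', horb⟩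
    rw [MonoidHom.mem_ker] at h1
    have h2 : Ideal.Quotient.mk m'' (x : SemiLocal L q) = 1 := congrArg Units.val h1
    rwa [← map_one (Ideal.Quotient.mk m''), Ideal.Quotient.eq] at h2
  · exact (mem_orbitUnits_iff G L q).1 hx1 m'' hm'' horb

end SemiLocal

/-- **[B2]** The unit group of `L ⊗[ℚ] ℚ_[q]` is the internal direct product of the blocks
`orbitUnits` of the orbits of maximal ideals (body of `Plan.OrbitDecomp`). -/
theorem orbitDecomp : ∀ (G L : Type) [Group G] [Fintype G] [Field L] [NumberField L]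
    [MulSemiringAction G L] (q : ℕ) [Fact q.Prime],
    (⨆ m : {m : Ideal (SemiLocal L q) // m.IsMaximal}, orbitUnits G L q m.1) = ⊤ ∧
    ∀ m : {m : Ideal (SemiLocal L q) // m.IsMaximal},
      orbitUnits G L q m.1 ⊓
        (⨆ m' : {m' : {m : Ideal (SemiLocal L q) // m.IsMaximal} //
            orbitUnits G L q m'.1 ≠ orbitUnits G L q m.1}, orbitUnits G L q m'.1.1) = ⊥ := by
  intro G L _ _ _ _ _ q _
  exact ⟨iSup_orbitUnits_eq_top G L q, fun m => orbitUnits_inf_iSup_eq_bot G L q m.1⟩

/-- **[B3]** Shapiro for a block (body of `Plan.OrbitShapiro`). -/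
theorem orbitShapiro : ∀ (G L : Type) [Group G] [Fintype G] [Field L] [NumberField L]
    [MulSemiringAction G L] (q : ℕ) [Fact q.Prime] (m : Ideal (SemiLocal L q)), m.IsMaximal →
    ∀ n : ℕ, Function.Bijective
      (groupCohomology.map (decompGroup G L q m).subtype (orbitProj G L q m) n).hom := by
  intro G L _ _ _ _ _ q _ m hm n
  exact orbitShapiro_bijective G L q m hm n

/-- **[B4]** The decomposition group acts faithfully on the local component (body of
`Plan.LocFaithful`). -/
theorem locFaithful : ∀ (G L : Type) [Group G] [Fintype G] [Field L] [NumberField L]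
    [MulSemiringAction G L] [FaithfulSMul G L] (q : ℕ) [Fact q.Prime]
    (m : Ideal (SemiLocal L q)), m.IsMaximal →
    FaithfulSMul (decompGroup G L q m) (SemiLocal L q ⧸ m) := by
  intro G L _ _ _ _ _ _ q _ m hm
  exact faithfulSMul_decomp G L q m hm

end Fermat.Agent.CFT.Global.SemiLocalGalois
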