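/-
CFT program (P3), layer Global, package [EX] = the existence theorem mod `p` (helper85):
the Plan.  Definitions and `def … : Prop` contracts only (plus two small bridges).

Setting: `p` an odd prime, `L` a number field with `μ_p ⊆ L`, `S` a finite set of rational
primes with `p ∈ S`, `L` unramified outside `S`.  Vocabulary: `Global/Defs.lean`.

* `Pw p L`        : the `p`-th powers of `Lˣ`;
* `Sel p L S`     : `{a ∈ Lˣ | ∀ q ∉ S, a ∈ U_q · (A_qˣ)^p}`;
* `Vgrp p L S`    : `{a ∈ Sel | ∀ q ∈ S, a ∈ (A_qˣ)^p}`;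
* `IsKummerPair p Δ G' f` : `(G', L', f : L →+* L')` is a Galois pair over `L`, abelian of
  exponent `p`, of order `[Δ : Pw]`, generated over `L` by `p`-th roots of elements of `Δ`;
* `pMul p L S`, `sImage L S`, `normS G' f S` : the subgroups `p · C_S(L)`, `im (J_S(L))` and
  `N_{L'/L} C_S(L')` of `C_S(L)`.

Leaves (each a `Prop`; providers prove `theorem x : ExistPlan.X`):

* `Count`        [EX.a]  `|C_S/p| · |C_S/(p + im J_S)| = [Sel : Pw] · [V : Pw]`, all finite;
* `MultiKummer`  [EX.b]  Kummer pairs exist for every `Pw ≤ Δ` of finite index;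
* `KummerUnram`  [EX.c]  `Δ ≤ Sel` ⟹ the Kummer pair is unramified outside `S`;
* `SplitNorm`    [EX.d]  `Δ ≤ V` ⟹ every element of `J_S(L)` is a norm from `J_S(L')`;
* `TateCount`    [EX.e]  class module, `G` abelian of exponent `p` ⟹ `[C^G : N C] = |G|` and
                         `p · C^G ⊆ N C`;
* `SClassModule` [EX.g]  `C_S(L')` is a `p`-class module (`L'` unramified outside `S ≠ ∅`);
* `SDescent`     [EX.h]  `C_S(L) → C_S(L')` is injective with image the invariants.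

Target: `ExistenceModP` (`N_{L'/L} C_S(L') ⊆ p · C_S(L)` for `L' = L(Sel^{1/p})`), proved from
the leaves in `Global/ExistP.lean`.
-/
import Mathlib
import Fermat.Agent.CFT.Global.Defs
import Fermat.Agent.CFT.Triv.ClassAt

set_option autoImplicit false

open scoped Fermat.Agent.CFT.Global

noncomputable section

namespace Fermat.Agent.CFT.Global.ExistPlan

open Fermat.Agent.CFT Fermat.Agent.CFT.Global

/-! ### The groups `Pw ≤ V ≤ Sel ≤ Lˣ` -/

/-- The `p`-th powers of `Lˣ`. -/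
def Pw (p : ℕ) (L : Type) [Field L] : Subgroup Lˣ := (powMonoidHom p : Lˣ →* Lˣ).range

theorem mem_Pw {p : ℕ} {L : Type} [Field L] {a : Lˣ} : a ∈ Pw p L ↔ ∃ b : Lˣ, b ^ p = a :=
  Iff.rfl

/-- `Sel = {a ∈ Lˣ | ∀ q ∉ S, a ∈ U_q · (A_qˣ)^p}`: the elements whose divisor is a `p`-th power
outside `S`. -/
def Sel (p : ℕ) (L : Type) [Field L] [CharZero L] (S : Finset Nat.Primes) : Subgroup Lˣ where
  carrier := {a | ∀ q : Nat.Primes, q ∉ S →
    ∃ u ∈ localUnits L q, ∃ y : (SemiLocal L q)ˣ, principal L a q = u * y ^ p}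
  one_mem' := fun q _ => ⟨1, one_mem _, 1, by simp⟩
  mul_mem' := by
    intro a b ha hb q hq
    obtain ⟨u, hu, y, hy⟩ := ha q hq
    obtain ⟨v, hv, z, hz⟩ := hb q hq
    refine ⟨u * v, mul_mem hu hv, y * z, ?_⟩
    rw [map_mul, Pi.mul_apply, hy, hz, mul_pow]
    exact mul_mul_mul_comm _ _ _ _
  inv_mem' := by
    intro a ha q hq
    obtain ⟨u, hu, y, hy⟩ := ha q hq
    refine ⟨u⁻¹, inv_mem hu, y⁻¹, ?_⟩
    rw [map_inv, Pi.inv_apply, hy, mul_inv, inv_pow]

theorem mem_Sel {p : ℕ} {L : Type} [Field L] [CharZero L] {S : Finset Nat.Primes} {a : Lˣ} :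
    a ∈ Sel p L S ↔ ∀ q : Nat.Primes, q ∉ S →
      ∃ u ∈ localUnits L q, ∃ y : (SemiLocal L q)ˣ, principal L a q = u * y ^ p :=
  Iff.rfl

/-- `V = {a ∈ Sel | ∀ q ∈ S, a ∈ (A_qˣ)^p}`. -/
def Vgrp (p : ℕ) (L : Type) [Field L] [CharZero L] (S : Finset Nat.Primes) : Subgroup Lˣ where
  carrier := {a | a ∈ Sel p L S ∧
    ∀ q : Nat.Primes, q ∈ S → ∃ y : (SemiLocal L q)ˣ, principal L a q = y ^ p}
  one_mem' := ⟨one_mem _, fun q _ => ⟨1, by simp⟩⟩
  mul_mem' := by
    rintro a b ⟨ha, ha'⟩ ⟨hb, hb'⟩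
    refine ⟨mul_mem ha hb, fun q hq => ?_⟩
    obtain ⟨y, hy⟩ := ha' q hq
    obtain ⟨z, hz⟩ := hb' q hq
    exact ⟨y * z, by rw [map_mul, Pi.mul_apply, hy, hz, mul_pow]⟩
  inv_mem' := by
    rintro a ⟨ha, ha'⟩
    refine ⟨inv_mem ha, fun q hq => ?_⟩
    obtain ⟨y, hy⟩ := ha' q hq
    exact ⟨y⁻¹, by rw [map_inv, Pi.inv_apply, hy, inv_pow]⟩

theorem mem_Vgrp {p : ℕ} {L : Type} [Field L] [CharZero L] {S : Finset Nat.Primes} {a : Lˣ} :
    a ∈ Vgrp p L S ↔ a ∈ Sel p L S ∧
      ∀ q : Nat.Primes, q ∈ S → ∃ y : (SemiLocal L q)ˣ, principal L a q = y ^ p :=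
  Iff.rfl

theorem Vgrp_le_Sel (p : ℕ) (L : Type) [Field L] [CharZero L] (S : Finset Nat.Primes) :
    Vgrp p L S ≤ Sel p L S := fun _ h => h.1

theorem Pw_le_Vgrp (p : ℕ) (L : Type) [Field L] [CharZero L] (S : Finset Nat.Primes) :
    Pw p L ≤ Vgrp p L S := by
  rintro a ⟨b, rfl⟩
  refine ⟨fun q _ => ⟨1, one_mem _, principal L b q, ?_⟩, fun q _ => ⟨principal L b q, ?_⟩⟩
  · rw [one_mul]
    exact congrFun (map_pow (principal L) b p) q
  · exact congrFun (map_pow (principal L) b p) q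

theorem Pw_le_Sel (p : ℕ) (L : Type) [Field L] [CharZero L] (S : Finset Nat.Primes) :
    Pw p L ≤ Sel p L S := (Pw_le_Vgrp p L S).trans (Vgrp_le_Sel p L S)

/-! ### Kummer pairs -/

/-- `(G', L', f)` is a *Kummer pair* for `Pw ≤ Δ ≤ Lˣ`: `G'` acts faithfully on `L'` with fixed
field `f(L)`, is abelian of exponent `p` and of order `[Δ : Pw]`, and `L'` is generated over
`f(L)` by a set `B` of `p`-th roots of elements of `Δ`. -/
structure IsKummerPair (p : ℕ) {L : Type} [Field L] (Δ : Subgroup Lˣ) {L' : Type} [Field L']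
    (G' : Type) [Group G'] [MulSemiringAction G' L'] (f : L →+* L') : Prop where
  faithful : FaithfulSMul G' L'
  fixed : ∀ y : L', (∀ g : G', g • y = y) ↔ y ∈ f.range
  comm : ∀ g h : G', g * h = h * g
  exp : ∀ g : G', g ^ p = 1
  card : Nat.card G' = (Pw p L).relIndex Δ
  gen : ∃ B : Set L', (∀ β ∈ B, ∃ a ∈ Δ, β ^ p = f ((a : Lˣ) : L)) ∧
    Subfield.closure (Set.range f ∪ B) = ⊤

/-- The generation clause of a Kummer pair in "fixing" form: an element of `G'` fixing the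
generators is trivial. -/
theorem IsKummerPair.exists_gen {p : ℕ} {L : Type} [Field L] {Δ : Subgroup Lˣ} {L' : Type}
    [Field L'] {G' : Type} [Group G'] [MulSemiringAction G' L'] {f : L →+* L'}
    (h : IsKummerPair p Δ G' f) :
    ∃ B : Set L', (∀ β ∈ B, ∃ a ∈ Δ, β ^ p = f ((a : Lˣ) : L)) ∧
      Subfield.closure (Set.range f ∪ B) = ⊤ ∧
      ∀ g : G', (∀ β ∈ B, g • β = β) → g = 1 := by
  obtain ⟨B, hB, hcl⟩ := h.gen
  refine ⟨B, hB, hcl, fun g hg => ?_⟩
  have := h.faithful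
  apply eq_of_smul_eq_smul (α := L')
  intro y
  rw [one_smul]
  have hy : y ∈ Subfield.closure (Set.range f ∪ B) := by rw [hcl]; trivial
  induction hy using Subfield.closure_induction with
  | mem x hx =>
    rcases hx with ⟨c, rfl⟩ | hx
    · exact (h.fixed (f c)).mpr ⟨c, rfl⟩ g
    · exact hg x hx
  | one => exact smul_one g
  | add x y _ _ hx hy => rw [smul_add, hx, hy]
  | neg x _ hx => rw [smul_neg, hx]
  | inv x _ hx => rw [smul_inv'', hx]
  | mul x y _ _ hx hy => rw [smul_mul', hx, hy]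

/-! ### Subgroups of `C_S(L)` -/

/-- `p · C_S(L)`. -/
def pMul (p : ℕ) (L : Type) [Field L] [CharZero L] (S : Finset Nat.Primes) :
    AddSubgroup (ClassGroupSOf L S) :=
  (nsmulAddMonoidHom p : ClassGroupSOf L S →+ ClassGroupSOf L S).range

theorem mem_pMul {p : ℕ} {L : Type} [Field L] [CharZero L] {S : Finset Nat.Primes}
    {x : ClassGroupSOf L S} : x ∈ pMul p L S ↔ ∃ y : ClassGroupSOf L S, p • y = x :=
  Iff.rfl

/-- The class in `C_S(L)` of a finite idele. -/
def mkS (L : Type) [Field L] [CharZero L] (S : Finset Nat.Primes) (x : IdeleProd L)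
    (hx : x ∈ finIdele L) : ClassGroupSOf L S :=
  Submodule.Quotient.mk (⟨Additive.ofMul x, hx⟩ : ↥(addSub (finIdele L)))

/-- The image of `J_S(L)` in `C_S(L)`. -/
def sImage (L : Type) [Field L] [CharZero L] (S : Finset Nat.Primes) :
    AddSubgroup (ClassGroupSOf L S) where
  carrier := {c | ∃ (x : IdeleProd L) (hx : x ∈ supportedOn L S),
    c = mkS L S x (supportedOn_le_finIdele L S hx)}
  zero_mem' := ⟨1, one_mem _, rfl⟩
  add_mem' := by
    rintro _ _ ⟨x, hx, rfl⟩ ⟨y, hy, rfl⟩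
    exact ⟨x * y, mul_mem hx hy, rfl⟩
  neg_mem' := by
    rintro _ ⟨x, hx, rfl⟩
    exact ⟨x⁻¹, inv_mem hx, rfl⟩

theorem mem_sImage {L : Type} [Field L] [CharZero L] {S : Finset Nat.Primes}
    {c : ClassGroupSOf L S} : c ∈ sImage L S ↔ ∃ (x : IdeleProd L) (hx : x ∈ supportedOn L S),
      c = mkS L S x (supportedOn_le_finIdele L S hx) :=
  Iff.rfl

/-- `N_{L'/L} C_S(L')`, as a subgroup of `C_S(L)`: the classes whose image in `C_S(L')` is a
norm `∑_{g ∈ G'} g • z`. -/
def normS {L L' : Type} [Field L] [CharZero L] [Field L'] [CharZero L'] (G' : Type) [Group G']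
    [Fintype G'] [MulSemiringAction G' L'] (f : L →+* L') (S : Finset Nat.Primes) :
    AddSubgroup (ClassGroupSOf L S) where
  carrier := {x | ∃ z : ClassGroupSOf L' S, (classRepS G' L' S).ρ.norm z = classMapS f S x}
  zero_mem' := ⟨0, ((classRepS G' L' S).ρ.norm.map_zero).trans (classMapS f S).map_zero.symm⟩
  add_mem' := by
    rintro x y ⟨z, hz⟩ ⟨w, hw⟩
    have h1 := (classRepS G' L' S).ρ.norm.map_add z w
    have h2 := (classMapS f S).map_add x y
    exact ⟨z + w, h1.trans ((congrArg₂ (· + ·) hz hw).trans h2.symm)⟩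
  neg_mem' := by
    rintro x ⟨z, hz⟩
    have h1 := (classRepS G' L' S).ρ.norm.map_neg z
    have h2 := (classMapS f S).map_neg x
    exact ⟨-z, h1.trans ((congrArg (fun t => -t) hz).trans h2.symm)⟩

theorem mem_normS {L L' : Type} [Field L] [CharZero L] [Field L'] [CharZero L'] {G' : Type}
    [Group G'] [Fintype G'] [MulSemiringAction G' L'] {f : L →+* L'} {S : Finset Nat.Primes}
    {x : ClassGroupSOf L S} :
    x ∈ normS G' f S ↔
      ∃ z : ClassGroupSOf L' S, (classRepS G' L' S).ρ.norm z = classMapS f S x :=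
  Iff.rfl

/-! ### The leaves -/

/-- **[EX.a] the count**: `|C_S/p| · |C_S/(p·C_S + im J_S)| = [Sel : Pw] · [V : Pw]`, and these
numbers are finite (nonzero). -/
def Count : Prop :=
  ∀ (p : ℕ) [Fact p.Prime], p ≠ 2 →
  ∀ (L : Type) [Field L] [NumberField L] (S : Finset Nat.Primes),
    (∃ q ∈ S, (q : ℕ) = p) → (∃ ζ : L, IsPrimitiveRoot ζ p) →
    (pMul p L S).index * (pMul p L S ⊔ sImage L S).index =
        (Pw p L).relIndex (Sel p L S) * (Pw p L).relIndex (Vgrp p L S) ∧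
      (pMul p L S).index ≠ 0 ∧ (Pw p L).relIndex (Sel p L S) ≠ 0 ∧
      (Pw p L).relIndex (Vgrp p L S) ≠ 0

/-- **[EX.b] multi-Kummer extensions**: for `Pw ≤ Δ ≤ Lˣ` of finite index (`μ_p ⊆ L`) there is
a Kummer pair. -/
def MultiKummer : Prop :=
  ∀ (p : ℕ) [Fact p.Prime] (L : Type) [Field L] [NumberField L],
    (∃ ζ : L, IsPrimitiveRoot ζ p) →
  ∀ Δ : Subgroup Lˣ, Pw p L ≤ Δ → (Pw p L).relIndex Δ ≠ 0 →
    ∃ (L' : Type) (_ : Field L') (_ : NumberField L') (G' : Type) (_ : Group G')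
      (_ : Fintype G') (_ : MulSemiringAction G' L') (f : L →+* L'), IsKummerPair p Δ G' f

/-- **[EX.c] unramified**: a Kummer pair for `Δ ≤ Sel` over a field unramified outside `S ∋ p`
is unramified outside `S`. -/
def KummerUnram : Prop :=
  ∀ (p : ℕ) [Fact p.Prime] (L : Type) [Field L] [NumberField L] (S : Finset Nat.Primes),
    (∃ q ∈ S, (q : ℕ) = p) → UnramOutside S L →
  ∀ Δ : Subgroup Lˣ, Δ ≤ Sel p L S →
  ∀ (L' : Type) [Field L'] [NumberField L'] (G' : Type) [Group G'] [Fintype G']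
    [MulSemiringAction G' L'] (f : L →+* L'), IsKummerPair p Δ G' f → UnramOutside S L'

/-- **[EX.d] split**: for a Kummer pair for `Δ ≤ V`, every element of `J_S(L)` is a norm from
`J_S(L')`. -/
def SplitNorm : Prop :=
  ∀ (p : ℕ) [Fact p.Prime] (L : Type) [Field L] [NumberField L] (S : Finset Nat.Primes),
    (∃ ζ : L, IsPrimitiveRoot ζ p) →
  ∀ Δ : Subgroup Lˣ, Δ ≤ Vgrp p L S →
  ∀ (L' : Type) [Field L'] [NumberField L'] (G' : Type) [Group G'] [Fintype G']
    [MulSemiringAction G' L'] (f : L →+* L'), IsKummerPair p Δ G' f →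
  ∀ x ∈ supportedOn L S, ∃ z ∈ supportedOn L' S, (∏ g : G', g • z) = ideleProdMap f x

/-- **[EX.e] Tate count**: for a `p`-class module `(C, σ)` of a finite abelian group `G` of
exponent `p`: `p · C^G ⊆ N_G C` and `[C^G : N_G C] = |G|`. -/
def TateCount : Prop :=
  ∀ (p : ℕ) [Fact p.Prime] (G : Type) [Group G] [Fintype G] (C : Rep.{0} ℤ G)
    (σ : groupCohomology.cocycles₂ C), Triv.IsPClassModule p C σ →
    (∀ g h : G, g * h = h * g) → (∀ g : G, g ^ p = 1) →
    (∀ c : C, (∀ g : G, C.ρ g c = c) → ∃ b : C, ∑ g : G, C.ρ g b = p • c) ∧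
    ∀ H N : AddSubgroup C, (∀ c : C, c ∈ H ↔ ∀ g : G, C.ρ g c = c) →
      (∀ c : C, c ∈ N ↔ ∃ b : C, ∑ g : G, C.ρ g b = c) → N.relIndex H = Nat.card G

/-- **[EX.g] the `S`-class module**: for a Galois pair `(G, L)` with `L` unramified outside
`S ≠ ∅`, `C_S(L)` carries a `p`-class module structure. -/
def SClassModule : Prop :=
  ∀ (p : ℕ) [Fact p.Prime], p ≠ 2 →
  ∀ (G L : Type) [Group G] [Fintype G] [Field L] [NumberField L] [MulSemiringAction G L]
    [FaithfulSMul G L] (S : Finset Nat.Primes), S.Nonempty → UnramOutside S L →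
    ∃ σ : groupCohomology.cocycles₂ (classRepS G L S), Triv.IsPClassModule p (classRepS G L S) σ

/-- **[EX.h] descent**: for a Galois pair `(G', L')` with fixed field `f(L)` and `L'` unramified
outside `S ≠ ∅`, `C_S(L) → C_S(L')` is injective with image the `G'`-invariants. -/
def SDescent : Prop :=
  ∀ (L L' G' : Type) [Field L] [NumberField L] [Field L'] [NumberField L'] [Group G']
    [Fintype G'] [MulSemiringAction G' L'] [FaithfulSMul G' L'] (f : L →+* L'),
    (∀ y : L', (∀ g : G', g • y = y) ↔ y ∈ f.range) →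
  ∀ S : Finset Nat.Primes, S.Nonempty → UnramOutside S L' →
    Function.Injective (classMapS f S) ∧
    ∀ y : ClassGroupSOf L' S, (∀ g : G', (classRepS G' L' S).ρ g y = y) ↔
      y ∈ LinearMap.range (classMapS f S)

/-! ### The target -/

/-- **Existence theorem mod `p`** (text of helper55, board row 1637): `L ∋ ζ_p`, `p ∈ S`, `L`
unramified outside `S`: there is a Galois pair `(G', L')` over `L`, unramified outside `S`, with
`N_{L'/L} C_S(L') ⊆ p · C_S(L)`. -/
def ExistenceModP : Prop :=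
  ∀ (p : ℕ) [Fact p.Prime], p ≠ 2 →
  ∀ (L : Type) [Field L] [NumberField L] (S : Finset Nat.Primes),
    (∃ q ∈ S, (q : ℕ) = p) → (∃ ζ : L, IsPrimitiveRoot ζ p) → UnramOutside S L →
    ∃ (L' : Type) (_ : Field L') (_ : NumberField L') (G' : Type) (_ : Group G')
      (_ : Fintype G') (_ : MulSemiringAction G' L') (f : L →+* L'),
      FaithfulSMul G' L' ∧ (∀ y : L', (∀ g : G', g • y = y) ↔ y ∈ f.range) ∧
      UnramOutside S L' ∧
      ∀ z : ClassGroupSOf L' S, ∃ y : ClassGroupSOf L S,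
        (classRepS G' L' S).ρ.norm z = classMapS f S (p • y)

end Fermat.Agent.CFT.Global.ExistPlan
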