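import Mathlib
import Fermat.Agent.CFT.Global.Defs
import Fermat.Agent.CFT.Global.QBridge
import Fermat.Agent.CFT.Global.QBridgeOrder

/-!
# The bridge `QBridge` in the vocabulary of `Global/Defs`

`Global.intHom L q` is `QBridge.qInt q L`; hence `Global.IsInt`, `Global.localUnits`,
`Global.sUnits` are described by the valuations at the primes of `𝓞 L` above `q`, `sUnits` is a
Mathlib `Set.unit`, and every unit of the semilocal algebra is a principal element times a local
unit.
-/

set_option autoImplicit false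

noncomputable section

namespace Fermat.Agent.CFT.Global.QBridge

open TensorProduct IsDedekindDomain NumberField
open Fermat.Agent.CFT.Global

variable (L : Type) [Field L] [NumberField L]

theorem intHom_eq_qInt (q : ℕ) [Fact q.Prime] : intHom L q = qInt q L := rfl

variable {L}

theorem isInt_iff {q : ℕ} [Fact q.Prime] (x : SemiLocal L q) :
    IsInt L q x ↔ (qInt q L).IsIntegralElem x := Iff.rfl

/-- `x ⊗ 1` is integral over `ℤ_[q]` iff `x` is integral at every prime of `𝓞 L` above `q`. -/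
theorem isInt_tmul_one_iff {q : ℕ} [Fact q.Prime] (x : L) :
    IsInt L q (x ⊗ₜ[ℚ] (1 : ℚ_[q])) ↔
      ∀ w : HeightOneSpectrum (𝓞 L), (q : 𝓞 L) ∈ w.asIdeal → w.valuation L x ≤ 1 :=
  isIntegralElem_tmul_one_iff x

/-- `IsInt` is membership in the maximal order. -/
theorem isInt_iff_mem_maxOrder {q : ℕ} [Fact q.Prime] (x : SemiLocal L q) :
    IsInt L q x ↔ x ∈ maxOrder q L :=
  (mem_maxOrder_iff x).symm

/-- A principal element is a local unit at `q` iff it is a unit at every prime above `q`. -/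
theorem principal_mem_localUnits_iff (u : Lˣ) (q : Nat.Primes) :
    principal L u q ∈ localUnits L q ↔
      ∀ w : HeightOneSpectrum (𝓞 L), ((q : ℕ) : 𝓞 L) ∈ w.asIdeal →
        w.valuation L (u : L) = 1 :=
  isIntegralElem_units_iff u

/-- The primes of `𝓞 L` above a finite set of rational primes. -/
def primesAboveS (L : Type) [Field L] [NumberField L] (S : Finset Nat.Primes) :
    Set (HeightOneSpectrum (𝓞 L)) :=
  {w | ∃ q ∈ S, ((q : ℕ) : 𝓞 L) ∈ w.asIdeal}

theorem primesAboveS_eq (S : Finset Nat.Primes) :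
    primesAboveS L S = primesAbove L {n | ∃ q ∈ S, (q : ℕ) = n} := by
  ext w
  constructor
  · rintro ⟨q, hq, hw⟩
    exact ⟨q, ⟨q, hq, rfl⟩, q.2, hw⟩
  · rintro ⟨n, ⟨q, hq, rfl⟩, -, hw⟩
    exact ⟨q, hq, hw⟩

/-- **`sUnits` is Mathlib's `Set.unit`** for the primes above `S`. -/
theorem sUnits_eq_unit (S : Finset Nat.Primes) :
    sUnits L S = (primesAboveS L S).unit L := by
  ext u
  constructor
  · intro hu w hw
    obtain ⟨q, hq, hqw⟩ := exists_prime_mem w
    have hqS : (⟨q, hq⟩ : Nat.Primes) ∉ S := fun h => hw ⟨⟨q, hq⟩, h, hqw⟩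
    exact (principal_mem_localUnits_iff u ⟨q, hq⟩).mp (hu ⟨q, hq⟩ hqS) w hqw
  · intro hu q hqS
    rw [principal_mem_localUnits_iff]
    intro w hw
    refine hu w ?_
    rintro ⟨q', hq'S, hq'w⟩
    have : (q : ℕ) = (q' : ℕ) := prime_eq_of_mem w q.2 q'.2 hw hq'w
    exact hqS (Subtype.ext this ▸ hq'S)

theorem mem_localUnits_iff_maxOrder {q : ℕ} [Fact q.Prime] (x : (SemiLocal L q)ˣ) :
    x ∈ localUnits L q ↔ (x : SemiLocal L q) ∈ maxOrder q L ∧
      ((x⁻¹ : (SemiLocal L q)ˣ) : SemiLocal L q) ∈ maxOrder q L := by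
  rw [mem_localUnits_iff, isInt_iff_mem_maxOrder, isInt_iff_mem_maxOrder]

/-- **`A_q(L)ˣ = λ_q(Lˣ) · U_q(L)`** (L7.6, second half). -/
theorem exists_principal_mul_localUnit (q : Nat.Primes) (a : (SemiLocal L q)ˣ) :
    ∃ (x : Lˣ) (u : (SemiLocal L q)ˣ), u ∈ localUnits L q ∧ a = principal L x q * u := by
  obtain ⟨x, u, hu, hu', h⟩ := exists_eq_tmul_mul_unit (q := (q : ℕ)) (L := L) a
  refine ⟨x, u, (mem_localUnits_iff_maxOrder u).mpr ⟨hu, hu'⟩, ?_⟩
  apply Units.ext
  rw [Units.val_mul, principal_apply_coe]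
  exact h

end Fermat.Agent.CFT.Global.QBridge
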