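import Mathlib
import Fermat.Agent.CFT.Global.QBridgeDefs

/-!
# Principal ideles are finite ideles

For a number field `L`, the diagonal image of `Lˣ` in `∏_q (L ⊗[ℚ] ℚ_[q])ˣ` lies in the restricted
product `finIdele L`: an element of `Lˣ` is a unit at all but finitely many primes of `𝓞 L`, and
every prime of `𝓞 L` lies above exactly one rational prime.
-/

set_option autoImplicit false

noncomputable section

namespace Fermat.Agent.CFT.Global.QBridge

open TensorProduct IsDedekindDomain NumberField
open Fermat.Agent.CFT.Global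

variable {L : Type} [Field L] [NumberField L]

/-- The primes of `𝓞 L` at which `u ∈ Lˣ` is not a unit form a finite set. -/
theorem finite_valuation_ne_one (u : Lˣ) :
    {w : HeightOneSpectrum (𝓞 L) | w.valuation L (u : L) ≠ 1}.Finite := by
  have h1 := HeightOneSpectrum.Support.finite (𝓞 L) (u : L)
  have h2 := HeightOneSpectrum.Support.finite (𝓞 L) ((u⁻¹ : Lˣ) : L)
  refine (h1.union h2).subset ?_
  intro w hw
  rcases lt_or_gt_of_ne hw with h | h
  · right
    show 1 < w.valuation L ((u⁻¹ : Lˣ) : L)
    rw [Units.val_inv_eq_inv_val, map_inv₀]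
    have h0 : w.valuation L (u : L) ≠ 0 := (Valuation.ne_zero_iff _).mpr u.ne_zero
    exact (one_lt_inv₀ (zero_lt_iff.mpr h0)).mpr h
  · left
    exact h

/-- The rational primes `q` at which the principal idele of `u ∈ Lˣ` is not a local unit form a
finite set. -/
theorem finite_principal_notMem_localUnits (u : Lˣ) :
    {q : Nat.Primes | principal L u q ∉ localUnits L q}.Finite := by
  classical
  have hB := finite_valuation_ne_one u
  choose f hf using fun w : HeightOneSpectrum (𝓞 L) => exists_prime_mem w
  refine (hB.image fun w => (⟨f w, (hf w).1⟩ : Nat.Primes)).subset ?_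
  intro (q : Nat.Primes) hq
  have hq' : principal L u q ∉ localUnits L q := hq
  rw [principal_mem_localUnits_iff] at hq'
  push Not at hq'
  obtain ⟨w, hw, hne⟩ := hq'
  refine ⟨w, hne, ?_⟩
  apply Subtype.ext
  exact prime_eq_of_mem w (hf w).1 q.2 (hf w).2 hw

/-- A principal idele is a finite idele. -/
theorem principal_mem_finIdele (u : Lˣ) : principal L u ∈ finIdele L :=
  (mem_finIdele_iff L _).mpr (finite_principal_notMem_localUnits u)

/-- The principal ideles lie in the finite ideles. -/
theorem range_principal_le_finIdele : (principal L).range ≤ finIdele L := by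
  rintro _ ⟨u, rfl⟩
  exact principal_mem_finIdele u

/-- `u ∈ Lˣ` is an `S`-unit for some finite set `S` of rational primes. -/
theorem exists_mem_sUnits (u : Lˣ) : ∃ S : Finset Nat.Primes, u ∈ sUnits L S := by
  classical
  refine ⟨(finite_principal_notMem_localUnits u).toFinset, ?_⟩
  rw [sUnits_eq_unit]
  intro w hw
  by_contra hne
  apply hw
  obtain ⟨q, hq, hqw⟩ := exists_prime_mem w
  obtain ⟨q', hq'⟩ : ∃ q' : Nat.Primes, (q' : ℕ) = q := ⟨⟨q, hq⟩, rfl⟩
  have hqw' : ((q' : ℕ) : 𝓞 L) ∈ w.asIdeal := by rw [hq']; exact hqw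
  refine ⟨q', ?_, hqw'⟩
  refine (Set.Finite.mem_toFinset _).mpr ?_
  show principal L u q' ∉ localUnits L q'
  rw [principal_mem_localUnits_iff]
  push Not
  exact ⟨w, hqw', hne⟩

end Fermat.Agent.CFT.Global.QBridge
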