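import Mathlib
import Fermat.Agent.CFT.Global.Defs
import Fermat.Agent.CFT.Global.QBridgeFin

/-!
# Class field theory program (P3), global layer: Galois descent for the idele class group

For a tower datum `IsTower f π` (`f : L →+* L'` a field embedding, `G'` acting on `L'`, `G` on `L`,
`π : G' →* G` surjective, `f` equivariant and `f(L)` the fixed field of `N = ker π`) the map
`C_L → C_{L'}` is injective, equivariant, and its image is the group of `N`-invariants.

Ingredients, all proved here from `Global/Defs.lean` and Mathlib: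

* `semiLocalMap q f` and `a ↦ a ⊗ 1` are injective (`ℚ_[q]` is flat over `ℚ`);
* the `N`-invariants of `L' ⊗[ℚ] ℚ_[q]` are the image of `L ⊗[ℚ] ℚ_[q]` (averaging over `N`);
* integrality over `ℤ_[q]` descends along `semiLocalMap q f`;
* Hilbert 90 for a finite group acting faithfully on a field.
-/

set_option autoImplicit false

open scoped TensorProduct
open scoped Fermat.Agent.CFT.Global

noncomputable section

namespace Fermat.Agent.CFT.Global.ClassDescent

open Fermat.Agent.CFT.Global

/-! ## Injectivity -/

section Inj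

variable {L L' : Type} [Field L] [CharZero L] [Field L'] [CharZero L'] (q : ℕ) [Fact q.Prime]

/-- `a ↦ a ⊗ 1 : L → L ⊗[ℚ] ℚ_[q]` is injective. -/
theorem tmul_one_injective :
    Function.Injective (fun a : L => (a ⊗ₜ[ℚ] (1 : ℚ_[q]) : SemiLocal L q)) := by
  have h := Algebra.TensorProduct.includeLeft_injective (R := ℚ) (S := ℚ) (A := L)
    (B := ℚ_[q]) (algebraMap ℚ ℚ_[q]).injective
  exact h

/-- `semiLocalMap q f` is injective. -/
theorem semiLocalMap_injective (f : L →+* L') : Function.Injective (semiLocalMap q f) := by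
  have h := Module.Flat.rTensor_preserves_injective_linearMap (M := ℚ_[q])
    (f.toRatAlgHom.toLinearMap) f.injective
  intro x y hxy
  apply h
  exact hxy

/-- The structure maps are compatible with `semiLocalMap`. -/
theorem semiLocalMap_comp_intHom (f : L →+* L') :
    (semiLocalMap q f).comp (intHom L q) = intHom L' q := by
  ext z
  show semiLocalMap q f ((1 : L) ⊗ₜ[ℚ] (z : ℚ_[q])) = (1 : L') ⊗ₜ[ℚ] (z : ℚ_[q])
  rw [semiLocalMap_tmul, map_one]

/-- Integrality over `ℤ_[q]` descends along `semiLocalMap q f`. -/
theorem isInt_of_semiLocalMap (f : L →+* L') {x : SemiLocal L q}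
    (hx : IsInt L' q (semiLocalMap q f x)) : IsInt L q x := by
  obtain ⟨P, hP, hx⟩ := hx
  refine ⟨P, hP, ?_⟩
  apply semiLocalMap_injective q f
  rw [map_zero, Polynomial.hom_eval₂, semiLocalMap_comp_intHom]
  exact hx

theorem isInt_semiLocalMap_iff (f : L →+* L') {x : SemiLocal L q} :
    IsInt L' q (semiLocalMap q f x) ↔ IsInt L q x :=
  ⟨isInt_of_semiLocalMap q f, fun h => h.semiLocalMap f⟩

/-- Membership in the local units descends along `semiLocalMap q f`. -/
theorem map_mem_localUnits_iff (f : L →+* L') {x : (SemiLocal L q)ˣ} :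
    Units.map (semiLocalMap q f).toMonoidHom x ∈ localUnits L' q ↔ x ∈ localUnits L q := by
  constructor
  · rintro ⟨h1, h2⟩
    refine ⟨isInt_of_semiLocalMap q f h1, isInt_of_semiLocalMap q f ?_⟩
    rw [← map_inv] at h2
    exact h2
  · exact map_mem_localUnits f q

end Inj

/-! ## Hilbert 90 for a finite group acting faithfully on a field -/

section Hilbert90

/-- **Hilbert 90** for a finite group `N` acting faithfully on a field `K` by field
automorphisms: a `1`-cocycle `c : N → Kˣ` (written with values in `K`) is a coboundary. -/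
theorem hilbert90 {N K : Type} [Group N] [Finite N] [Field K] [MulSemiringAction N K]
    [FaithfulSMul N K] (c : N → K) (hc0 : ∀ n, c n ≠ 0)
    (hc : ∀ n m, c (n * m) = c n * n • c m) :
    ∃ a : K, a ≠ 0 ∧ ∀ n, c n * n • a = a := by
  classical
  let _ : Fintype N := Fintype.ofFinite N
  let χ : N → (K →* K) := fun n => ((MulSemiringAction.toRingHom N K n : K →+* K) : K →* K)
  have hχ : Function.Injective χ := by
    intro n m h
    apply FaithfulSMul.eq_of_smul_eq_smul (α := K)
    intro x
    exact DFunLike.congr_fun h x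
  have hli : LinearIndependent K (fun n : N => ((χ n : K →* K) : K → K)) :=
    (linearIndependent_monoidHom K K).comp χ hχ
  have hex : ∃ θ : K, ∑ n : N, c n * n • θ ≠ 0 := by
    by_contra hcon
    have hcon : ∀ θ : K, ∑ n : N, c n * n • θ = 0 := fun θ => by
      by_contra h0
      exact hcon ⟨θ, h0⟩
    have hz : ∑ n : N, c n • ((χ n : K →* K) : K → K) = 0 := by
      funext θ
      rw [Finset.sum_apply]
      exact hcon θ
    have h1 := (Fintype.linearIndependent_iff.mp hli) c hz 1
    exact hc0 1 h1
  obtain ⟨θ, hθ⟩ := hex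
  refine ⟨∑ n : N, c n * n • θ, hθ, fun m => ?_⟩
  rw [Finset.smul_sum, Finset.mul_sum]
  rw [← Fintype.sum_equiv (Equiv.mulLeft m) (fun n => c m * m • (c n * n • θ))
    (fun n => c n * n • θ)]
  intro n
  show c m * m • (c n * n • θ) = c (m * n) * (m * n) • θ
  rw [smul_mul', hc, mul_smul, mul_assoc]

end Hilbert90

/-! ## The invariants of `L' ⊗[ℚ] ℚ_[q]` -/

section Fixed

variable {L L' : Type} [Field L] [CharZero L] [Field L'] [CharZero L']
variable {G G' : Type} [Group G] [Group G'] [MulSemiringAction G L]
  [MulSemiringAction G' L'] {f : L →+* L'} {π : G' →* G}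

/-- `semiLocalMap q f` is equivariant along `π`. -/
theorem semiLocalMap_smul (h : IsTower f π) (q : ℕ) [Fact q.Prime] (g : G')
    (x : SemiLocal L q) : semiLocalMap q f (π g • x) = g • semiLocalMap q f x := by
  induction x using TensorProduct.induction_on with
  | zero => simp
  | tmul a b =>
    rw [smul_tmul_eq, semiLocalMap_tmul, semiLocalMap_tmul, smul_tmul_eq, h.equivariant]
  | add x y hx hy => rw [smul_add, map_add, hx, hy, map_add, smul_add]

/-- Elements in the image of `semiLocalMap q f` are fixed by `ker π`. -/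
theorem smul_semiLocalMap_of_mem_ker (h : IsTower f π) (q : ℕ) [Fact q.Prime] {n : G'}
    (hn : n ∈ π.ker) (x : SemiLocal L q) : n • semiLocalMap q f x = semiLocalMap q f x := by
  rw [← semiLocalMap_smul h, MonoidHom.mem_ker.mp hn, one_smul]

/-- The sum over `ker π` of the translates of any element lies in the image of
`semiLocalMap q f`. -/
theorem sum_smul_mem_range (h : IsTower f π) (q : ℕ) [Fact q.Prime] [Fintype π.ker]
    (z : SemiLocal L' q) :
    ∑ n : π.ker, (n : G') • z ∈ (semiLocalMap q f).range := by
  induction z using TensorProduct.induction_on with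
  | zero => simp
  | tmul a b =>
    have hfix : ∀ m ∈ π.ker, m • (∑ n : π.ker, (n : G') • a) = ∑ n : π.ker, (n : G') • a := by
      intro m hm
      rw [Finset.smul_sum]
      rw [← Fintype.sum_equiv (Equiv.mulLeft (⟨m, hm⟩ : π.ker))
        (fun n : π.ker => m • (n : G') • a) (fun n : π.ker => (n : G') • a)]
      intro n
      show m • (n : G') • a = ((⟨m, hm⟩ * n : π.ker) : G') • a
      rw [Subgroup.coe_mul, mul_smul]
    obtain ⟨a', ha'⟩ := h.fixed _ hfix
    refine ⟨a' ⊗ₜ[ℚ] b, ?_⟩
    rw [semiLocalMap_tmul, ha', TensorProduct.sum_tmul]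
    rfl
  | add x y hx hy =>
    simp only [smul_add, Finset.sum_add_distrib]
    exact add_mem hx hy

/-- The `ker π`-invariants of `L' ⊗[ℚ] ℚ_[q]` are the image of `L ⊗[ℚ] ℚ_[q]`. -/
theorem mem_range_of_fixed [Finite G'] (h : IsTower f π) (q : ℕ) [Fact q.Prime]
    (z : SemiLocal L' q)
    (hz : ∀ n ∈ π.ker, n • z = z) : z ∈ (semiLocalMap q f).range := by
  classical
  let _ : Fintype π.ker := Fintype.ofFinite _
  have h1 := sum_smul_mem_range h q z
  have h2 : ∑ n : π.ker, (n : G') • z = (Fintype.card π.ker : ℚ) • z := by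
    rw [Finset.sum_congr rfl (fun (n : π.ker) _ => hz (n : G') n.2), Finset.sum_const, Finset.card_univ,
      ← Nat.cast_smul_eq_nsmul ℚ]
  rw [h2] at h1
  obtain ⟨w, hw⟩ := h1
  have hne : (Fintype.card π.ker : ℚ) ≠ 0 := Nat.cast_ne_zero.mpr Fintype.card_ne_zero
  refine ⟨(Fintype.card π.ker : ℚ)⁻¹ • w, ?_⟩
  have hlin : semiLocalMap q f ((Fintype.card π.ker : ℚ)⁻¹ • w) =
      (Fintype.card π.ker : ℚ)⁻¹ • semiLocalMap q f w :=
    map_smul (Algebra.TensorProduct.map f.toRatAlgHom (AlgHom.id ℚ ℚ_[q])) _ _
  rw [hlin, hw, smul_smul, inv_mul_cancel₀ hne, one_smul]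

theorem mem_range_iff_fixed [Finite G'] (h : IsTower f π) (q : ℕ) [Fact q.Prime]
    (z : SemiLocal L' q) :
    z ∈ (semiLocalMap q f).range ↔ ∀ n ∈ π.ker, n • z = z :=
  ⟨by rintro ⟨w, rfl⟩ n hn; exact smul_semiLocalMap_of_mem_ker h q hn w,
    mem_range_of_fixed h q z⟩

end Fixed

/-! ## Ideles -/

section Idele

variable {L L' : Type} [Field L] [CharZero L] [Field L'] [CharZero L']

/-- The diagonal map `Lˣ → ∏_q (L ⊗[ℚ] ℚ_[q])ˣ` is injective. -/
theorem principal_injective : Function.Injective (principal L) := by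
  intro u v h
  have h2 := congrFun h (⟨2, Nat.prime_two⟩ : Nat.Primes)
  have h3 : ((u : L) ⊗ₜ[ℚ] (1 : ℚ_[2]) : SemiLocal L 2) = (v : L) ⊗ₜ[ℚ] (1 : ℚ_[2]) :=
    congrArg Units.val h2
  exact Units.ext (tmul_one_injective 2 h3)

/-- `J_L → J_{L'}` is injective already on the full products. -/
theorem ideleProdMap_injective (f : L →+* L') : Function.Injective (ideleProdMap f) := by
  intro x y h
  funext q
  have h1 := congrFun h q
  rw [ideleProdMap_apply, ideleProdMap_apply] at h1
  apply Units.ext
  apply semiLocalMap_injective q f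
  exact congrArg Units.val h1

/-- Finiteness of an idele descends along a field embedding. -/
theorem ideleProdMap_mem_finIdele_iff (f : L →+* L') {x : IdeleProd L} :
    ideleProdMap f x ∈ finIdele L' ↔ x ∈ finIdele L := by
  refine ⟨fun hx => ?_, ideleProdMap_mem_finIdele f⟩
  refine Set.Finite.subset hx ?_
  intro q hq h
  exact hq ((map_mem_localUnits_iff (q : ℕ) f).mp h)

variable {G G' : Type} [Group G] [Group G'] [MulSemiringAction G L]
  [MulSemiringAction G' L'] {f : L →+* L'} {π : G' →* G}

/-- `ideleProdMap f` is equivariant along `π`. -/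
theorem ideleProdMap_smul (h : IsTower f π) (g : G') (x : IdeleProd L) :
    ideleProdMap f (π g • x) = g • ideleProdMap f x := by
  funext q
  apply Units.ext
  exact semiLocalMap_smul h q g (x q : SemiLocal L q)

/-- An idele of `L'` fixed by `ker π` comes from `L`. -/
theorem exists_ideleProdMap_eq_of_fixed [Finite G'] (h : IsTower f π) (y : IdeleProd L')
    (hy : ∀ n ∈ π.ker, n • y = y) : ∃ x : IdeleProd L, ideleProdMap f x = y := by
  have key : ∀ q : Nat.Primes, ∃ u : (SemiLocal L q)ˣ,
      Units.map (semiLocalMap (q : ℕ) f).toMonoidHom u = y q := by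
    intro q
    have hfix : ∀ n ∈ π.ker, n • y q = y q := fun n hn => congrFun (hy n hn) q
    obtain ⟨a, ha⟩ := mem_range_of_fixed h q (y q : SemiLocal L' q)
      (fun n hn => by rw [← coe_smul_units, hfix n hn])
    obtain ⟨b, hb⟩ := mem_range_of_fixed h q (((y q)⁻¹ : (SemiLocal L' q)ˣ) : SemiLocal L' q)
      (fun n hn => by rw [← coe_smul_units, smul_inv', hfix n hn])
    have hab : a * b = 1 := by
      apply semiLocalMap_injective q f
      rw [map_mul, ha, hb, map_one, Units.mul_inv]
    refine ⟨Units.mkOfMulEqOne a b hab, ?_⟩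
    apply Units.ext
    exact ha
  choose x hx using key
  exact ⟨x, funext hx⟩

end Idele

/-! ## The idele class group -/

section ClassGroup

variable {L : Type} [Field L] [CharZero L]

/-- The class in `C_L` of a finite idele. -/
def mkC (x : IdeleProd L) (hx : x ∈ finIdele L) : ClassGroupOf L :=
  Submodule.Quotient.mk (⟨Additive.ofMul x, hx⟩ : ↥(addSub (finIdele L)))

theorem exists_mkC (c : ClassGroupOf L) : ∃ (x : IdeleProd L) (hx : x ∈ finIdele L),
    c = mkC x hx := by
  induction c using Submodule.Quotient.induction_on with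
  | _ x => exact ⟨(x : Additive (IdeleProd L)).toMul, x.2, rfl⟩

theorem mkC_eq_mkC_iff {x y : IdeleProd L} (hx : x ∈ finIdele L) (hy : y ∈ finIdele L) :
    mkC x hx = mkC y hy ↔ x / y ∈ (principal L).range := by
  unfold mkC
  rw [Submodule.Quotient.eq]
  rfl

theorem mkC_eq_zero_iff {x : IdeleProd L} (hx : x ∈ finIdele L) :
    mkC x hx = 0 ↔ x ∈ (principal L).range := by
  unfold mkC
  rw [Submodule.Quotient.mk_eq_zero]
  rfl

theorem rho_mkC (G : Type) [Group G] [MulSemiringAction G L] (g : G) (x : IdeleProd L)
    (hx : x ∈ finIdele L) :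
    (classRep G L).ρ g (mkC x hx) = mkC (g • x) (smul_mem_finIdele G L g hx) := rfl

variable {L' : Type} [Field L'] [CharZero L']

theorem classMap_mkC (f : L →+* L') (x : IdeleProd L) (hx : x ∈ finIdele L) :
    classMap f (mkC x hx) = mkC (ideleProdMap f x) (ideleProdMap_mem_finIdele f hx) := rfl

end ClassGroup

/-! ## Galois descent -/

section Descent

variable {L L' : Type} [Field L] [CharZero L] [Field L'] [CharZero L']
variable {G G' : Type} [Group G] [Group G'] [MulSemiringAction G L]
  [MulSemiringAction G' L'] {f : L →+* L'} {π : G' →* G}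

/-- A principal idele of `L'` in the image of `J_L` is principal in `L`. -/
theorem mem_range_principal_of_map (h : IsTower f π) (x : IdeleProd L)
    (hx : ideleProdMap f x ∈ (principal L').range) : x ∈ (principal L).range := by
  obtain ⟨u, hu⟩ := hx
  have hfix : ∀ n ∈ π.ker, n • (u : L') = u := by
    intro n hn
    have h1 : principal L' (n • u) = principal L' u := by
      rw [← smul_principal, hu, ← ideleProdMap_smul h, MonoidHom.mem_ker.mp hn, one_smul]
    exact congrArg Units.val (principal_injective h1)
  obtain ⟨a, ha⟩ := h.fixed _ hfix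
  have ha0 : a ≠ 0 := by
    rintro rfl
    rw [map_zero] at ha
    exact u.ne_zero ha.symm
  refine ⟨Units.mk0 a ha0, ?_⟩
  apply ideleProdMap_injective f
  rw [ideleProdMap_principal, ← hu]
  congr 1
  exact Units.ext ha

/-- **Galois descent, injectivity**: `C_L → C_{L'}` is injective. -/
theorem classMap_injective (h : IsTower f π) : Function.Injective (classMap f) := by
  rw [injective_iff_map_eq_zero]
  intro c hc
  obtain ⟨x, hx, rfl⟩ := exists_mkC c
  rw [classMap_mkC, mkC_eq_zero_iff] at hc
  rw [mkC_eq_zero_iff]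
  exact mem_range_principal_of_map h x hc

/-- **Galois descent, equivariance** of `C_L → C_{L'}`. -/
theorem classMap_rho (h : IsTower f π) (g : G') (c : ClassGroupOf L) :
    classMap f ((classRep G L).ρ (π g) c) = (classRep G' L').ρ g (classMap f c) := by
  obtain ⟨x, hx, rfl⟩ := exists_mkC c
  rw [rho_mkC, classMap_mkC, classMap_mkC, rho_mkC]
  congr 1
  exact ideleProdMap_smul h g x

/-- **Galois descent, surjectivity onto the invariants**: a class of `C_{L'}` fixed by `ker π`
comes from `C_L`.  The hypothesis `hprin` (principal ideles are finite ideles) holds for number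
fields. -/
theorem mem_range_classMap_of_fixed [Finite G'] [FaithfulSMul G' L'] (h : IsTower f π)
    (hprin : (principal L').range ≤ finIdele L') (c : ClassGroupOf L')
    (hc : ∀ n ∈ π.ker, (classRep G' L').ρ n c = c) : c ∈ LinearMap.range (classMap f) := by
  obtain ⟨y, hy, rfl⟩ := exists_mkC c
  -- the cocycle
  have hcoc : ∀ n : π.ker, ∃ u : L'ˣ, principal L' u = ((n : G') • y) / y := by
    intro n
    have h1 := hc n n.2
    rw [rho_mkC] at h1
    exact (mkC_eq_mkC_iff _ _).mp h1
  choose u hu using hcoc
  have hmul : ∀ n m : π.ker, u (n * m) = u n * (n : G') • u m := by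
    intro n m
    apply principal_injective
    rw [map_mul, hu, hu, ← smul_principal, hu, Subgroup.coe_mul, mul_smul, smul_div']
    rw [mul_comm, div_mul_div_cancel]
  obtain ⟨a, ha0, ha⟩ := hilbert90 (N := π.ker) (K := L') (fun n => (u n : L'))
    (fun n => (u n).ne_zero) (fun n m => by
      have := congrArg Units.val (hmul n m)
      exact this)
  -- the corrected idele
  have hfix : ∀ n ∈ π.ker, n • (y * principal L' (Units.mk0 a ha0)) =
      y * principal L' (Units.mk0 a ha0) := by
    intro n hn
    have h1 : n • y = y * principal L' (u ⟨n, hn⟩) := by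
      rw [hu]
      show n • y = y * (n • y / y)
      rw [mul_div_cancel]
    have h2 : u ⟨n, hn⟩ * n • Units.mk0 a ha0 = Units.mk0 a ha0 := Units.ext (ha ⟨n, hn⟩)
    rw [smul_mul', h1, smul_principal, mul_assoc, ← map_mul, h2]
  obtain ⟨x, hx⟩ := exists_ideleProdMap_eq_of_fixed h _ hfix
  have hyfin : y * principal L' (Units.mk0 a ha0) ∈ finIdele L' :=
    mul_mem hy (hprin ⟨_, rfl⟩)
  have hxfin : x ∈ finIdele L := by
    rw [← ideleProdMap_mem_finIdele_iff f, hx]
    exact hyfin
  refine ⟨mkC x hxfin, ?_⟩
  rw [classMap_mkC, mkC_eq_mkC_iff]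
  refine ⟨Units.mk0 a ha0, ?_⟩
  rw [hx, mul_div_cancel_left]

end Descent

/-! ## The statement for number fields -/

/-- **Galois descent for the idele class group** along a tower `L ⊆ L'` (`IsTower f π`,
`N = ker π = Gal(L'/L)`): `C_L → C_{L'}` is injective, equivariant, with image the
`N`-invariants.  (This is the body of `Plan.ClassDescent`, verbatim.) -/
theorem classDescent (L L' G G' : Type) [Field L] [NumberField L] [Field L'] [NumberField L']
    [Group G] [Group G'] [Fintype G'] [MulSemiringAction G L] [MulSemiringAction G' L']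
    [FaithfulSMul G' L'] (f : L →+* L') (π : G' →* G) (h : IsTower f π) :
    Function.Injective (classMap f) ∧
    (∀ y : ClassGroupOf L', (∀ n ∈ π.ker, (classRep G' L').ρ n y = y) →
      y ∈ LinearMap.range (classMap f)) ∧
    ∀ (g : G') (x : ClassGroupOf L),
      classMap f ((classRep G L).ρ (π g) x) = (classRep G' L').ρ g (classMap f x) :=
  ⟨classMap_injective h,
    fun y hy => mem_range_classMap_of_fixed h QBridge.range_principal_le_finIdele y hy,
    fun g x => classMap_rho h g x⟩

end Fermat.Agent.CFT.Global.ClassDescent
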