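import Mathlib
import Fermat.Agent.CFT.Global.QBridge
import Fermat.Agent.CFT.Global.QBridgeOrder

/-!
# Finiteness of the class group, in semilocal form

For a number field `K` there is a finite set `S₀` of rational primes such that for every set
`S ⊇ S₀` of rational primes and every prime `q ∉ S`:
`A_q(K)ˣ = λ_q(K_{S ∪ {q}}) · U_q(K)`, where `A_q(K) = K ⊗[ℚ] ℚ_[q]`, `K_{S'}` are the `S'`-units
and `U_q(K)` are the units of the maximal order.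
-/

set_option autoImplicit false

noncomputable section

namespace Fermat.Agent.CFT.Global.ClassGroupS

open TensorProduct NumberField IsDedekindDomain Fermat.Agent.CFT.Global.QBridge

open scoped nonZeroDivisors

/-! ## 1. Order lemmas in `ℤᵐ⁰` -/

theorem exists_eq_exp_neg {x : WithZero (Multiplicative ℤ)} (hx0 : x ≠ 0) (hx1 : x ≤ 1) :
    ∃ n : ℕ, x = WithZero.exp (-(n : ℤ)) := by
  have h1 : WithZero.exp x.log = x := WithZero.exp_log hx0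
  have h2 : x.log ≤ 0 := by
    rw [← h1, ← WithZero.exp_zero, WithZero.exp_le_exp] at hx1
    exact hx1
  refine ⟨(-x.log).toNat, ?_⟩
  rw [Int.toNat_of_nonneg (by omega), neg_neg, h1]

theorem eq_of_forall_le_exp_iff {x y : WithZero (Multiplicative ℤ)} (hx0 : x ≠ 0) (hy0 : y ≠ 0)
    (hx1 : x ≤ 1) (hy1 : y ≤ 1)
    (h : ∀ n : ℕ, x ≤ WithZero.exp (-(n : ℤ)) ↔ y ≤ WithZero.exp (-(n : ℤ))) : x = y := by
  obtain ⟨n, hn⟩ := exists_eq_exp_neg hx0 hx1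
  obtain ⟨m, hm⟩ := exists_eq_exp_neg hy0 hy1
  refine le_antisymm ?_ ?_
  · have := (h m).mpr hm.le
    rwa [← hm] at this
  · have := (h n).mp hn.le
    rwa [← hn] at this

/-! ## 2. The ideal-theoretic lemma -/

section Ideals

variable {K : Type*} [Field K] [NumberField K]

/-- If `w ^ k` divides the nonzero ideal `J`, then `k ≤ N(J)`. -/
theorem le_absNorm_of_pow_dvd (w : HeightOneSpectrum (𝓞 K)) {J : Ideal (𝓞 K)} (hJ : J ≠ ⊥)
    {k : ℕ} (h : w.asIdeal ^ k ∣ J) : k ≤ Ideal.absNorm J := by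
  have h1 : Ideal.absNorm (w.asIdeal ^ k) ∣ Ideal.absNorm J :=
    Ideal.absNorm_dvd_absNorm_of_le (Ideal.dvd_iff_le.mp h)
  rw [map_pow] at h1
  have hJ0 : 0 < Ideal.absNorm J := Nat.pos_of_ne_zero (fun h0 => hJ (Ideal.absNorm_eq_zero_iff.mp h0))
  have h2 : Ideal.absNorm w.asIdeal ^ k ≤ Ideal.absNorm J := Nat.le_of_dvd hJ0 h1
  have h3 : 2 ≤ Ideal.absNorm w.asIdeal := by
    have h4 : Ideal.absNorm w.asIdeal ≠ 0 := fun h0 => w.ne_bot (Ideal.absNorm_eq_zero_iff.mp h0)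
    have h5 : Ideal.absNorm w.asIdeal ≠ 1 :=
      fun h0 => w.isPrime.ne_top (Ideal.absNorm_eq_one_iff.mp h0)
    omega
  calc k ≤ 2 ^ k := Nat.lt_two_pow_self.le
    _ ≤ Ideal.absNorm w.asIdeal ^ k := Nat.pow_le_pow_left h3 k
    _ ≤ Ideal.absNorm J := h2

/-- The core computation: if `((b₀) + (q ^ N)) * 𝔞 = (a₀)` with `N = N((b₀))`, then `a₀` and
`b₀` have the same valuation at the primes above `q` not dividing `𝔞`, and `a₀` is a unit at the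
primes not above `q` not dividing `𝔞`. -/
theorem adjust_core (q : ℕ) (b₀ : 𝓞 K) (hb₀ : b₀ ≠ 0) (𝔞 : Ideal (𝓞 K)) (a₀ : 𝓞 K)
    (ha₀0 : a₀ ≠ 0)
    (h : (Ideal.span {b₀} ⊔
      Ideal.span {(q : 𝓞 K) ^ (Ideal.absNorm (Ideal.span {b₀}))}) * 𝔞 = Ideal.span {a₀}) :
    (∀ w : HeightOneSpectrum (𝓞 K), (q : 𝓞 K) ∈ w.asIdeal → ¬ 𝔞 ≤ w.asIdeal →
        w.intValuation a₀ = w.intValuation b₀) ∧
      (∀ w : HeightOneSpectrum (𝓞 K), (q : 𝓞 K) ∉ w.asIdeal → ¬ 𝔞 ≤ w.asIdeal →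
        a₀ ∉ w.asIdeal) := by
  have hJ0 : Ideal.span {b₀} ≠ (⊥ : Ideal (𝓞 K)) := by
    rw [Ne, Ideal.span_singleton_eq_bot]
    exact hb₀
  constructor
  · intro w hw hwT
    apply eq_of_forall_le_exp_iff (w.intValuation_ne_zero a₀ ha₀0) (w.intValuation_ne_zero b₀ hb₀)
      (w.intValuation_le_one a₀) (w.intValuation_le_one b₀)
    intro k
    rw [HeightOneSpectrum.intValuation_le_pow_iff_dvd, HeightOneSpectrum.intValuation_le_pow_iff_dvd,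
      ← h]
    constructor
    · intro h'
      have h1 := w.prime.pow_dvd_of_dvd_mul_right k (fun hd => hwT (Ideal.dvd_iff_le.mp hd)) h'
      exact Ideal.dvd_iff_le.mpr (le_sup_left.trans (Ideal.dvd_iff_le.mp h1))
    · intro h'
      have hk : k ≤ Ideal.absNorm (Ideal.span {b₀}) := le_absNorm_of_pow_dvd w hJ0 h'
      have h1 : Ideal.span {(q : 𝓞 K) ^ (Ideal.absNorm (Ideal.span {b₀}))} ≤ w.asIdeal ^ k := by
        rw [Ideal.span_singleton_le_iff_mem]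
        exact Ideal.pow_le_pow_right hk (Ideal.pow_mem_pow hw _)
      exact Dvd.dvd.mul_right (Ideal.dvd_iff_le.mpr (sup_le (Ideal.dvd_iff_le.mp h') h1)) _
  · intro w hw hwT ha₀w
    have h1 : (Ideal.span {b₀} ⊔
        Ideal.span {(q : 𝓞 K) ^ (Ideal.absNorm (Ideal.span {b₀}))}) * 𝔞 ≤ w.asIdeal := by
      rw [h, Ideal.span_singleton_le_iff_mem]
      exact ha₀w
    rcases (Ideal.IsPrime.mul_le w.isPrime).mp h1 with h2 | h2
    · apply hw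
      have h3 : (q : 𝓞 K) ^ (Ideal.absNorm (Ideal.span {b₀})) ∈ w.asIdeal :=
        h2 (Ideal.mem_sup_right (Ideal.mem_span_singleton_self _))
      exact w.isPrime.mem_of_pow_mem _ h3
    · exact hwT h2

/-- Every nonzero ideal `I` becomes principal after multiplication with one of finitely many
ideals. -/
theorem exists_rep_mul_principal (K : Type*) [Field K] [NumberField K] :
    ∃ T : Set (HeightOneSpectrum (𝓞 K)), T.Finite ∧ ∀ I : Ideal (𝓞 K), I ≠ ⊥ →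
      ∃ (𝔞 : Ideal (𝓞 K)) (a₀ : 𝓞 K), a₀ ≠ 0 ∧ I * 𝔞 = Ideal.span {a₀} ∧
        ∀ w : HeightOneSpectrum (𝓞 K), w ∉ T → ¬ 𝔞 ≤ w.asIdeal := by
  classical
  have hrep : ∀ c : ClassGroup (𝓞 K), ∃ 𝔞 : (Ideal (𝓞 K))⁰, ClassGroup.mk0 𝔞 = c :=
    ClassGroup.mk0_surjective
  choose rep hrep using hrep
  refine ⟨⋃ c : ClassGroup (𝓞 K), {w | w.asIdeal ∣ (rep c : Ideal (𝓞 K))},
    Set.finite_iUnion fun c => Ideal.finite_factors (nonZeroDivisors.coe_ne_zero (rep c)), ?_⟩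
  intro I hI0
  have hImem : I ∈ (Ideal (𝓞 K))⁰ := mem_nonZeroDivisors_iff_ne_zero.mpr hI0
  obtain ⟨𝔞, h𝔞⟩ : ∃ 𝔞 : (Ideal (𝓞 K))⁰, 𝔞 = rep (ClassGroup.mk0 ⟨I, hImem⟩)⁻¹ := ⟨_, rfl⟩
  have hprod : ClassGroup.mk0 (⟨I, hImem⟩ * 𝔞) = 1 := by
    rw [map_mul, h𝔞, hrep, mul_inv_cancel]
  have hmem2 : I * (𝔞 : Ideal (𝓞 K)) ∈ (Ideal (𝓞 K))⁰ := mul_mem hImem 𝔞.2
  have heq : (⟨I, hImem⟩ * 𝔞 : (Ideal (𝓞 K))⁰) = ⟨I * (𝔞 : Ideal (𝓞 K)), hmem2⟩ := rfl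
  rw [heq] at hprod
  have hprin : (I * (𝔞 : Ideal (𝓞 K))).IsPrincipal :=
    (ClassGroup.mk0_eq_one_iff hmem2).mp hprod
  obtain ⟨a₀, ha₀⟩ := hprin.principal
  have ha₀' : I * (𝔞 : Ideal (𝓞 K)) = Ideal.span {a₀} := ha₀
  have h𝔞0 : (𝔞 : Ideal (𝓞 K)) ≠ ⊥ := nonZeroDivisors.coe_ne_zero 𝔞
  refine ⟨𝔞, a₀, ?_, ha₀', ?_⟩
  · rintro rfl
    rw [Ideal.span_singleton_eq_bot.mpr rfl] at ha₀'
    exact (mul_ne_zero hI0 h𝔞0) ha₀'
  · intro w hw hle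
    apply hw
    rw [Set.mem_iUnion]
    refine ⟨(ClassGroup.mk0 ⟨I, hImem⟩)⁻¹, ?_⟩
    show w.asIdeal ∣ _
    rw [← h𝔞]
    exact Ideal.dvd_iff_le.mpr hle

/-- **The integral form.**  There is a finite set `S₀` of rational primes such that for every
prime `q ∉ S₀` and every nonzero `b₀ ∈ 𝓞 K` there is a nonzero `a₀ ∈ 𝓞 K` which has the same
valuation as `b₀` at all primes above `q`, and is a unit at all primes not above `q` and not above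
`S₀`. -/
theorem exists_adjust_int (K : Type*) [Field K] [NumberField K] :
    ∃ S₀ : Finset ℕ, ∀ q : ℕ, q.Prime → q ∉ S₀ → ∀ b₀ : 𝓞 K, b₀ ≠ 0 →
      ∃ a₀ : 𝓞 K, a₀ ≠ 0 ∧
        (∀ w : HeightOneSpectrum (𝓞 K), (q : 𝓞 K) ∈ w.asIdeal →
          w.intValuation a₀ = w.intValuation b₀) ∧
        (∀ w : HeightOneSpectrum (𝓞 K), (q : 𝓞 K) ∉ w.asIdeal →
          w ∉ primesAbove K (S₀ : Set ℕ) → a₀ ∉ w.asIdeal) := by
  classical
  obtain ⟨T₀, hT₀, hT⟩ := exists_rep_mul_principal K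
  -- the rational primes below
  have hpr : ∀ w : HeightOneSpectrum (𝓞 K), ∃ q : ℕ, q.Prime ∧ (q : 𝓞 K) ∈ w.asIdeal :=
    exists_prime_mem
  choose pr hpr using hpr
  refine ⟨hT₀.toFinset.image pr, ?_⟩
  intro q hq hqS b₀ hb₀
  -- primes above `q` are not in `T₀`
  have hq_notT : ∀ w : HeightOneSpectrum (𝓞 K), (q : 𝓞 K) ∈ w.asIdeal → w ∉ T₀ := by
    intro w hw hwT
    apply hqS
    rw [Finset.mem_image]
    exact ⟨w, hT₀.mem_toFinset.mpr hwT, prime_eq_of_mem w (hpr w).1 hq (hpr w).2 hw⟩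
  -- primes not above `S₀` are not in `T₀`
  have hS_notT : ∀ w : HeightOneSpectrum (𝓞 K),
      w ∉ primesAbove K ((hT₀.toFinset.image pr : Finset ℕ) : Set ℕ) → w ∉ T₀ := by
    intro w hw hwT
    apply hw
    refine ⟨pr w, ?_, (hpr w).1, (hpr w).2⟩
    rw [Finset.mem_coe, Finset.mem_image]
    exact ⟨w, hT₀.mem_toFinset.mpr hwT, rfl⟩
  have hJ0 : Ideal.span {b₀} ≠ (⊥ : Ideal (𝓞 K)) := by
    rw [Ne, Ideal.span_singleton_eq_bot]
    exact hb₀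
  have hI0 : Ideal.span {b₀} ⊔
      Ideal.span {(q : 𝓞 K) ^ (Ideal.absNorm (Ideal.span {b₀}))} ≠ (⊥ : Ideal (𝓞 K)) :=
    fun h0 => hJ0 (le_bot_iff.mp (h0 ▸ le_sup_left))
  obtain ⟨𝔞, a₀, ha₀0, ha₀, h𝔞T⟩ := hT _ hI0
  obtain ⟨h1, h2⟩ := adjust_core q b₀ hb₀ 𝔞 a₀ ha₀0 ha₀
  exact ⟨a₀, ha₀0, fun w hw => h1 w hw (h𝔞T w (hq_notT w hw)),
    fun w hw hwS => h2 w hw (h𝔞T w (hS_notT w hwS))⟩

/-- **The field form.**  There is a finite set `S₀` of rational primes such that for every prime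
`q ∉ S₀` and every `b ∈ Kˣ` there is `a ∈ Kˣ` with the same valuation as `b` at all primes above
`q`, which is a unit at all primes not above `q` and not above `S₀`. -/
theorem exists_adjust (K : Type*) [Field K] [NumberField K] :
    ∃ S₀ : Finset ℕ, ∀ q : ℕ, q.Prime → q ∉ S₀ → ∀ b : Kˣ,
      ∃ a : Kˣ,
        (∀ w : HeightOneSpectrum (𝓞 K), (q : 𝓞 K) ∈ w.asIdeal →
          w.valuation K (a : K) = w.valuation K (b : K)) ∧
        (∀ w : HeightOneSpectrum (𝓞 K), (q : 𝓞 K) ∉ w.asIdeal →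
          w ∉ primesAbove K (S₀ : Set ℕ) → w.valuation K (a : K) = 1) := by
  obtain ⟨S₀, hS₀⟩ := exists_adjust_int K
  refine ⟨S₀, fun q hq hqS b => ?_⟩
  obtain ⟨b₁, b₂, hb₂, hb⟩ := IsFractionRing.div_surjective (𝓞 K) (b : K)
  have hb₂0 : b₂ ≠ 0 := nonZeroDivisors.ne_zero hb₂
  have hb₁0 : b₁ ≠ 0 := by
    rintro rfl
    rw [map_zero, zero_div] at hb
    exact b.ne_zero hb.symm
  obtain ⟨a₁, ha₁0, ha₁q, ha₁S⟩ := hS₀ q hq hqS b₁ hb₁0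
  obtain ⟨a₂, ha₂0, ha₂q, ha₂S⟩ := hS₀ q hq hqS b₂ hb₂0
  have hinj : Function.Injective (algebraMap (𝓞 K) K) := IsFractionRing.injective (𝓞 K) K
  have ha₁K : algebraMap (𝓞 K) K a₁ ≠ 0 := fun h => ha₁0 (hinj (h.trans (map_zero _).symm))
  have ha₂K : algebraMap (𝓞 K) K a₂ ≠ 0 := fun h => ha₂0 (hinj (h.trans (map_zero _).symm))
  refine ⟨Units.mk0 (algebraMap (𝓞 K) K a₁ / algebraMap (𝓞 K) K a₂) (div_ne_zero ha₁K ha₂K),
    ?_, ?_⟩
  · intro w hw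
    rw [Units.val_mk0, ← hb, map_div₀, map_div₀, HeightOneSpectrum.valuation_of_algebraMap,
      HeightOneSpectrum.valuation_of_algebraMap, HeightOneSpectrum.valuation_of_algebraMap,
      HeightOneSpectrum.valuation_of_algebraMap, ha₁q w hw, ha₂q w hw]
  · intro w hw hwS
    rw [Units.val_mk0, map_div₀,
      (HeightOneSpectrum.valuation_eq_one_iff_notMem w).mpr (ha₁S w hw hwS),
      (HeightOneSpectrum.valuation_eq_one_iff_notMem w).mpr (ha₂S w hw hwS), div_one]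

end Ideals

/-! ## 3. The semilocal statement -/

/-- **(L7.7)** Finiteness of the class group in semilocal form: there is a finite set `S₀` of
rational primes such that for all `S ⊇ S₀` and all primes `q ∉ S`, every unit of `K ⊗[ℚ] ℚ_[q]`
is the product of `a ⊗ 1`, `a` an `S ∪ {q}`-unit of `K`, and a unit of the maximal order. -/
theorem exists_finset_forall_eq_sunit_mul_unit (K : Type*) [Field K] [NumberField K] :
    ∃ S₀ : Finset ℕ, ∀ S : Set ℕ, (S₀ : Set ℕ) ⊆ S → ∀ (q : ℕ) [Fact q.Prime], q ∉ S →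
      ∀ x : (K ⊗[ℚ] ℚ_[q])ˣ,
        ∃ a : Kˣ, a ∈ (primesAbove K (insert q S)).unit K ∧
          ∃ u : (K ⊗[ℚ] ℚ_[q])ˣ, (u : K ⊗[ℚ] ℚ_[q]) ∈ maxOrder q K ∧
            ((u⁻¹ : (K ⊗[ℚ] ℚ_[q])ˣ) : K ⊗[ℚ] ℚ_[q]) ∈ maxOrder q K ∧
            (x : K ⊗[ℚ] ℚ_[q]) = ((a : K) ⊗ₜ[ℚ] (1 : ℚ_[q])) * u := by
  obtain ⟨S₀, hS₀⟩ := exists_adjust K
  refine ⟨S₀, fun S hS q _ hqS x => ?_⟩
  have hq : q.Prime := Fact.out
  have hqS₀ : q ∉ S₀ := fun h => hqS (hS h)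
  obtain ⟨b, u₀, hu₀, hu₀', hx⟩ := exists_eq_tmul_mul_unit x
  obtain ⟨a, haq, haS⟩ := hS₀ q hq hqS₀ b
  -- `b / a` is a unit at all primes above `q`
  have hunit : ∀ w : HeightOneSpectrum (𝓞 K), (q : 𝓞 K) ∈ w.asIdeal →
      w.valuation K ((b * a⁻¹ : Kˣ) : K) = 1 := by
    intro w hw
    rw [Units.val_mul, Units.val_inv_eq_inv_val, map_mul, map_inv₀, haq w hw]
    exact mul_inv_cancel₀ ((Valuation.ne_zero_iff _).mpr b.ne_zero)
  obtain ⟨h1, h2⟩ := (isIntegralElem_units_iff (q := q) (b * a⁻¹)).mpr hunit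
  rw [← mem_maxOrder_iff] at h1 h2
  -- the unit `((b / a) ⊗ 1) * u₀`
  let c : (K ⊗[ℚ] ℚ_[q])ˣ :=
    Units.map (Algebra.TensorProduct.includeLeft : K →ₐ[ℚ] K ⊗[ℚ] ℚ_[q]).toRingHom.toMonoidHom
      (b * a⁻¹)
  have hc : (c : K ⊗[ℚ] ℚ_[q]) = ((b * a⁻¹ : Kˣ) : K) ⊗ₜ[ℚ] (1 : ℚ_[q]) := rfl
  have hc' : ((c⁻¹ : (K ⊗[ℚ] ℚ_[q])ˣ) : K ⊗[ℚ] ℚ_[q]) =
      (((b * a⁻¹)⁻¹ : Kˣ) : K) ⊗ₜ[ℚ] (1 : ℚ_[q]) := by
    rw [← map_inv]
    rfl
  refine ⟨a, ?_, c * u₀, ?_, ?_, ?_⟩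
  · intro w hw
    refine haS w (fun hwq => hw ⟨q, Set.mem_insert q S, hq, hwq⟩) (fun hwS => hw ?_)
    obtain ⟨q', hq'S, hq', hq'w⟩ := hwS
    exact ⟨q', Set.mem_insert_of_mem q (hS hq'S), hq', hq'w⟩
  · rw [Units.val_mul, hc]
    exact mul_mem h1 hu₀
  · rw [mul_inv, Units.val_mul, hc']
    exact mul_mem h2 hu₀'
  · have hab : (a : K) * ((b : K) * (a : K)⁻¹) = (b : K) := by
      rw [mul_comm (b : K), mul_inv_cancel_left₀ a.ne_zero]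
    rw [hx, Units.val_mul, hc, ← mul_assoc, Algebra.TensorProduct.tmul_mul_tmul, mul_one,
      Units.val_mul, Units.val_inv_eq_inv_val, hab]

end Fermat.Agent.CFT.Global.ClassGroupS
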