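import Mathlib
import Fermat.Agent.CFT.Global.Defs
import Fermat.Agent.CFT.Global.QBridgeDefs
import Fermat.Agent.CFT.Global.QBridgeFin
import Fermat.Agent.CFT.Global.QBridgeDiv
import Fermat.Agent.CFT.Global.ClassGroupS

/-!
# Class field theory program (P3), global layer: elementary structure of the ideles (block A)

For a number field `L`, in the semilocal model of `Global/Defs.lean`
(`J_L = finIdele L`, `Lˣ = (principal L).range`, `J_S = supportedOn L S`,
`U^S = unitsOutside L S`, `E_S = sUnits L S`):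

* `principalLe`       **[A1]** `Lˣ ≤ J_L`;
* `classGroupFinite`  **[A2]** `J_L / (Lˣ · J_S · U^S)` is finite;
* `classGroupTrivial` **[A3]** `J_L = Lˣ · J_S · U^S` for all `S ⊇ S₀`;
* `sExact`            **[A4]** `J_S ∩ (Lˣ · U^S) = E_S` (diagonally embedded).

Tools exported on the way: `exists_principal_patch` (patching local `(S ∪ {q})`-units into one
principal idele), `mem_sup_of_units_outside`, `exists_base` (the class-group lemma
`A_q(L)ˣ = λ_q(L_{S ∪ {q}}) · U_q(L)` in the vocabulary of `Global/Defs`),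
`exists_ordZ_eq_classNumber` (`w ^ h` is principal), `pow_classNumber_mem`
(`x ^ h ∈ Lˣ · ∏_q U_q` for every finite idele `x`, `h` the class number).
-/

set_option autoImplicit false

noncomputable section

namespace Fermat.Agent.CFT.Global.IdeleStructure

open TensorProduct IsDedekindDomain NumberField
open Fermat.Agent.CFT.Global Fermat.Agent.CFT.Global.QBridge
open scoped nonZeroDivisors

variable {L : Type} [Field L] [NumberField L]

/-! ### [A1] -/

variable (L) in
/-- **[A1]** Principal ideles are finite ideles. -/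
theorem principalLe : (principal L).range ≤ finIdele L :=
  range_principal_le_finIdele

/-! ### [A4] -/

variable (L) in
/-- **[A4]** Exactness of `E_S → J_S → C_S` at `J_S`: `J_S ∩ (Lˣ · U^S) = E_S` (diagonal). -/
theorem sExact (S : Finset Nat.Primes) :
    supportedOn L S ⊓ ((principal L).range ⊔ unitsOutside L S) =
      (sUnits L S).map (sDiag L S) := by
  ext x
  constructor
  · rintro ⟨hxS, hx⟩
    obtain ⟨y, ⟨u, rfl⟩, z, hz, rfl⟩ := Subgroup.mem_sup.mp hx
    have hu : u ∈ sUnits L S := by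
      intro q hq
      have h1 : principal L u q * z q = 1 := hxS q hq
      have h2 : principal L u q = (z q)⁻¹ := eq_inv_of_mul_eq_one_left h1
      rw [h2]
      exact inv_mem (hz.1 q)
    refine ⟨u, hu, ?_⟩
    funext q
    by_cases hq : q ∈ S
    · have h1 : sDiag L S u q = principal L u q := by simp [sDiag, hq]
      rw [h1, Pi.mul_apply, hz.2 q hq, mul_one]
    · have h1 : sDiag L S u q = 1 := by simp [sDiag, hq]
      rw [h1]
      exact (hxS q hq).symm
  · rintro ⟨u, hu, rfl⟩
    refine ⟨?_, ?_⟩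
    · intro q hq
      simp [sDiag, hq]
    · refine Subgroup.mem_sup.mpr ⟨principal L u, ⟨u, rfl⟩,
        fun q => if q ∈ S then 1 else (principal L u q)⁻¹, ⟨?_, ?_⟩, ?_⟩
      · intro q
        by_cases hq : q ∈ S
        · simp only [if_pos hq]; exact one_mem _
        · simp only [if_neg hq]; exact inv_mem (hu q hq)
      · intro q hq
        simp only [if_pos hq]
      · funext q
        by_cases hq : q ∈ S
        · simp [sDiag, hq]
        · simp [sDiag, hq]

/-! ### Patching -/

variable (L) in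
/-- The local component at `q` of the principal idele, as a homomorphism. -/
def princAt (q : Nat.Primes) : Lˣ →* (SemiLocal L q)ˣ :=
  (Pi.evalMonoidHom (fun q : Nat.Primes => (SemiLocal L q)ˣ) q).comp (principal L)

theorem princAt_apply (q : Nat.Primes) (a : Lˣ) : princAt L q a = principal L a q := rfl

/-- **Patching.**  If a finite idele `x` is, at every prime `q ∉ S`, a local unit up to an
`(S ∪ {q})`-unit of `L`, then some principal idele makes `x` a local unit at all `q ∉ S`. -/
theorem exists_principal_patch (S : Finset Nat.Primes) {x : IdeleProd L} (hx : x ∈ finIdele L)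
    (h : ∀ q : Nat.Primes, q ∉ S → ∃ b ∈ sUnits L (insert q S), ∃ u ∈ localUnits L q,
      x q = principal L b q * u) :
    ∃ a : Lˣ, ∀ q : Nat.Primes, q ∉ S → (x * (principal L a)⁻¹) q ∈ localUnits L q := by
  classical
  choose! b hb u hu hxq using h
  have hfin : {q : Nat.Primes | x q ∉ localUnits L q}.Finite := hx
  set B : Finset Nat.Primes := hfin.toFinset.filter (fun q => q ∉ S) with hB
  refine ⟨∏ q' ∈ B, b q', fun q hq => ?_⟩
  have hother : ∀ q' ∈ B, q' ≠ q → princAt L q (b q') ∈ localUnits L q := by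
    intro q' hq' hne
    have hq'S : q' ∉ S := (Finset.mem_filter.mp hq').2
    refine hb q' hq'S q ?_
    rw [Finset.mem_insert, not_or]
    exact ⟨fun h => hne h.symm, hq⟩
  have hval : (x * (principal L (∏ q' ∈ B, b q'))⁻¹) q
      = x q * (∏ q' ∈ B, princAt L q (b q'))⁻¹ := by
    rw [← map_prod]
    rfl
  rw [hval]
  by_cases hqB : q ∈ B
  · rw [← Finset.mul_prod_erase B _ hqB, hxq q hq, princAt_apply]
    have h1 : principal L (b q) q * u q *
        (principal L (b q) q * ∏ q' ∈ B.erase q, princAt L q (b q'))⁻¹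
        = u q * (∏ q' ∈ B.erase q, princAt L q (b q'))⁻¹ := by
      rw [mul_inv, mul_mul_mul_comm, mul_inv_cancel, one_mul]
    rw [h1]
    refine mul_mem (hu q hq) (inv_mem (Subgroup.prod_mem _ fun q' hq' => ?_))
    exact hother q' (Finset.mem_of_mem_erase hq') (Finset.ne_of_mem_erase hq')
  · have hxu : x q ∈ localUnits L q := by
      by_contra hcon
      exact hqB (Finset.mem_filter.mpr ⟨(Set.Finite.mem_toFinset _).mpr hcon, hq⟩)
    refine mul_mem hxu (inv_mem (Subgroup.prod_mem _ fun q' hq' => ?_))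
    exact hother q' hq' (fun h => hqB (h ▸ hq'))

/-- **Splitting.**  If `x` times a principal idele is a local unit at all `q ∉ S`, then
`x ∈ Lˣ · J_S · U^S`. -/
theorem mem_sup_of_units_outside (S : Finset Nat.Primes) {x : IdeleProd L} (a : Lˣ)
    (h : ∀ q : Nat.Primes, q ∉ S → (x * (principal L a)⁻¹) q ∈ localUnits L q) :
    x ∈ (principal L).range ⊔ supportedOn L S ⊔ unitsOutside L S := by
  classical
  set y : IdeleProd L := x * (principal L a)⁻¹ with hy
  have hx : x = principal L a * (fun q => if q ∈ S then y q else 1) *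
      (fun q => if q ∈ S then 1 else y q) := by
    funext q
    by_cases hq : q ∈ S
    · simp [hq, hy]
    · simp [hq, hy]
  rw [hx]
  refine Subgroup.mul_mem_sup (Subgroup.mul_mem_sup ⟨a, rfl⟩ ?_) ⟨?_, ?_⟩
  · intro q hq
    simp [hq]
  · intro q
    by_cases hq : q ∈ S
    · simp only [if_pos hq]; exact one_mem _
    · simp only [if_neg hq]; exact h q hq
  · intro q hq
    simp only [if_pos hq]


/-! ### The class number kills divisors -/

theorem ordZ_prod {ι : Type*} (s : Finset ι) (f : ι → Lˣ) (w : HeightOneSpectrum (𝓞 L)) :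
    ordZ w (∏ i ∈ s, f i) = ∑ i ∈ s, ordZ w (f i) := by
  classical
  induction s using Finset.induction_on with
  | empty => simp [ordZ_one]
  | insert i s hi ih => rw [Finset.prod_insert hi, Finset.sum_insert hi, ordZ_mul, ih]

/-- The `h`-th power of a prime `w` of `𝓞 L` (`h` the class number) is principal: there is
`a ∈ Lˣ` with `ord_w a = h` and `ord_{w'} a = 0` for all `w' ≠ w`. -/
theorem exists_ordZ_eq_classNumber (w : HeightOneSpectrum (𝓞 L)) :
    ∃ a : Lˣ, ordZ w a = (Nat.card (ClassGroup (𝓞 L)) : ℤ) ∧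
      ∀ w' : HeightOneSpectrum (𝓞 L), w' ≠ w → ordZ w' a = 0 := by
  set h := Nat.card (ClassGroup (𝓞 L)) with hh
  have hwI : w.asIdeal ∈ (Ideal (𝓞 L))⁰ := mem_nonZeroDivisors_of_ne_zero w.ne_bot
  have h1 : ClassGroup.mk0 ((⟨w.asIdeal, hwI⟩ : (Ideal (𝓞 L))⁰) ^ h) = 1 := by
    rw [map_pow, hh]
    exact pow_card_eq_one'
  rw [ClassGroup.mk0_eq_one_iff] at h1
  obtain ⟨a, ha⟩ := h1
  have ha' : w.asIdeal ^ h = Ideal.span {a} := ha
  have ha0 : a ≠ 0 := by
    rintro rfl
    have h2 : w.asIdeal ^ h = ⊥ := by rw [ha']; simp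
    exact pow_ne_zero h (show w.asIdeal ≠ 0 from w.ne_bot) h2
  have hax : algebraMap (𝓞 L) L a ≠ 0 := by simp [ha0]
  refine ⟨Units.mk0 (algebraMap (𝓞 L) L a) hax, ?_, ?_⟩
  · rw [ordZ_eq_iff, Units.val_mk0, HeightOneSpectrum.valuation_of_algebraMap]
    have h2 : w.intValuation a ≤ WithZero.exp (-((h : ℕ) : ℤ)) := by
      rw [HeightOneSpectrum.intValuation_le_pow_iff_dvd, ← ha']
    have h3 : ¬ w.intValuation a ≤ WithZero.exp (-((h + 1 : ℕ) : ℤ)) := by
      rw [HeightOneSpectrum.intValuation_le_pow_iff_dvd, ← ha', Ideal.dvd_iff_le]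
      exact not_le_of_gt (Ideal.pow_succ_lt_pow w.ne_bot h)
    rw [w.intValuation_if_neg ha0] at h2 h3 ⊢
    rw [WithZero.exp_le_exp] at h2 h3
    congr 1
    push_cast at h2 h3 ⊢
    omega
  · intro w' hne
    rw [ordZ_eq_zero_iff, Units.val_mk0, HeightOneSpectrum.valuation_of_algebraMap,
      HeightOneSpectrum.intValuation_eq_one_iff]
    intro hmem
    have h2 : w.asIdeal ^ h ≤ w'.asIdeal := by
      rw [ha', Ideal.span_singleton_le_iff_mem]; exact hmem
    have h3 : w.asIdeal ≤ w'.asIdeal := w'.isPrime.le_of_pow_le h2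
    exact hne (HeightOneSpectrum.ext (w.isMaximal.eq_of_le w'.isPrime.ne_top h3).symm)

/-- `lamq` is the component of `principal`. -/
theorem lamq_eq_principal (q : Nat.Primes) (b : Lˣ) : lamq (q : ℕ) L b = principal L b q := rfl

theorem localUnits_eq_orderUnits (q : Nat.Primes) :
    localUnits L q = orderUnits (q : ℕ) L := by
  ext x
  rw [mem_localUnits_iff_maxOrder, mem_orderUnits]

/-- Local form of "the class number kills the class group": the `h`-th power of a unit of
`A_q(L)` is a local unit up to an element of `Lˣ` which is a unit outside `q`. -/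
theorem exists_pow_classNumber_eq (q : Nat.Primes) (y : (SemiLocal L q)ˣ) :
    ∃ b : Lˣ, (∀ w : HeightOneSpectrum (𝓞 L), ((q : ℕ) : 𝓞 L) ∉ w.asIdeal → ordZ w b = 0) ∧
      y ^ Nat.card (ClassGroup (𝓞 L)) * (principal L b q)⁻¹ ∈ localUnits L q := by
  classical
  set h := Nat.card (ClassGroup (𝓞 L)) with hh
  have : Fintype (PrimesOver (q : ℕ) L) := Fintype.ofFinite _
  set D : PrimesOver (q : ℕ) L → ℤ := Multiplicative.toAdd (divq (q : ℕ) L y) with hD
  choose a ha1 ha2 using fun w : HeightOneSpectrum (𝓞 L) => exists_ordZ_eq_classNumber w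
  set b : Lˣ := ∏ w : PrimesOver (q : ℕ) L, a w.1 ^ D w with hb
  have hord : ∀ w' : HeightOneSpectrum (𝓞 L),
      ordZ w' b = ∑ w : PrimesOver (q : ℕ) L, D w * ordZ w' (a w.1) := by
    intro w'
    rw [hb, ordZ_prod]
    exact Finset.sum_congr rfl fun w _ => ordZ_zpow w' _ _
  refine ⟨b, ?_, ?_⟩
  · intro w' hw'
    rw [hord]
    refine Finset.sum_eq_zero fun w _ => ?_
    rw [ha2 w.1 w' (fun h => hw' (h ▸ w.2)), mul_zero]
  · rw [localUnits_eq_orderUnits, ← divq_eq_one_iff, map_mul, map_pow, map_inv,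
      ← lamq_eq_principal]
    apply Multiplicative.toAdd.injective
    funext w
    have h1 : ordZ w.1 b = D w * (h : ℤ) := by
      rw [hord, Finset.sum_eq_single w]
      · rw [ha1 w.1]
      · intro w₁ _ hne
        rw [ha2 w₁.1 w.1 (fun h => hne (Subtype.ext h).symm), mul_zero]
      · intro hw
        exact absurd (Finset.mem_univ w) hw
    rw [toAdd_mul, toAdd_pow, toAdd_inv, Pi.add_apply, Pi.neg_apply, Pi.smul_apply, divq_lamq,
      h1, ← hD, nsmul_eq_mul]
    show (h : ℤ) * D w + -(D w * (h : ℤ)) = 0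
    ring

/-- **The idele class group modulo units is killed by the class number**: for a finite idele
`x`, `x ^ h ∈ Lˣ · ∏_q U_q`. -/
theorem pow_classNumber_mem {x : IdeleProd L} (hx : x ∈ finIdele L) :
    x ^ Nat.card (ClassGroup (𝓞 L)) ∈ (principal L).range ⊔ unitsOutside L ∅ := by
  set h := Nat.card (ClassGroup (𝓞 L)) with hh
  have key : ∀ q : Nat.Primes, q ∉ (∅ : Finset Nat.Primes) →
      ∃ b ∈ sUnits L (insert q ∅), ∃ u ∈ localUnits L q, (x ^ h) q = principal L b q * u := by
    intro q _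
    obtain ⟨b, hb1, hb2⟩ := exists_pow_classNumber_eq q (x q)
    refine ⟨b, ?_, _, hb2, ?_⟩
    · rw [sUnits_eq_unit]
      intro w hw
      rw [← ordZ_eq_zero_iff]
      refine hb1 w (fun hmem => hw ⟨q, Finset.mem_insert_self q ∅, hmem⟩)
    · rw [Pi.pow_apply, mul_comm, inv_mul_cancel_right]
  obtain ⟨a, ha⟩ := exists_principal_patch ∅ ((finIdele L).pow_mem hx h) key
  have h2 : x ^ h = principal L a * (x ^ h * (principal L a)⁻¹) := by
    rw [mul_comm, inv_mul_cancel_right]
  rw [h2]
  exact Subgroup.mul_mem_sup ⟨a, rfl⟩ ⟨fun q => ha q (Finset.notMem_empty q), fun q hq =>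
    absurd hq (Finset.notMem_empty q)⟩

variable (L) in
/-- The class-group lemma `A_q(L)ˣ = λ_q(L_{S ∪ {q}}) · U_q(L)` (`q ∉ S ⊇ S₀`) in the vocabulary of
`Global/Defs`. -/
theorem exists_base : ∃ S₀ : Finset Nat.Primes, ∀ S : Finset Nat.Primes, S₀ ⊆ S →
    ∀ q : Nat.Primes, q ∉ S → ∀ y : (SemiLocal L q)ˣ,
      ∃ b ∈ sUnits L (insert q S), ∃ u ∈ localUnits L q, y = principal L b q * u := by
  classical
  obtain ⟨S₀, hS₀⟩ := ClassGroupS.exists_finset_forall_eq_sunit_mul_unit L
  refine ⟨(S₀.subtype Nat.Prime : Finset Nat.Primes), fun S hS q hqS y => ?_⟩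
  set S'' : Set ℕ := {n | ∃ q' ∈ S, (q' : ℕ) = n} ∪ (S₀ : Set ℕ) with hS''
  have hsub : (S₀ : Set ℕ) ⊆ S'' := Set.subset_union_right
  have hq'' : (q : ℕ) ∉ S'' := by
    rintro (⟨q', hq', h⟩ | h)
    · exact hqS ((Subtype.ext h : q' = q) ▸ hq')
    · exact hqS (hS (Finset.mem_subtype.mpr h))
  obtain ⟨a, ha, u, hu, hu', hy⟩ := hS₀ S'' hsub (q : ℕ) hq'' y
  refine ⟨a, ?_, u, (mem_localUnits_iff_maxOrder u).mpr ⟨hu, hu'⟩, ?_⟩
  · rw [sUnits_eq_unit]
    intro w hw
    apply ha w
    rintro ⟨n, hn, hnp, hnw⟩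
    apply hw
    rcases hn with rfl | ⟨q', hq', rfl⟩ | hn
    · exact ⟨q, Finset.mem_insert_self q S, hnw⟩
    · exact ⟨q', Finset.mem_insert_of_mem hq', hnw⟩
    · exact ⟨⟨n, hnp⟩, Finset.mem_insert_of_mem (hS (Finset.mem_subtype.mpr hn)), hnw⟩
  · apply Units.ext
    rw [Units.val_mul, principal_apply_coe]
    exact hy

variable (L) in
/-- **[A3]** For `S` large the `S`-class group is trivial: `J_L = Lˣ · J_S · U^S`. -/
theorem classGroupTrivial : ∃ S₀ : Finset Nat.Primes, ∀ S : Finset Nat.Primes,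
    S₀ ⊆ S → finIdele L ≤ (principal L).range ⊔ supportedOn L S ⊔ unitsOutside L S := by
  obtain ⟨S₀, hS₀⟩ := exists_base L
  refine ⟨S₀, fun S hS x hx => ?_⟩
  obtain ⟨a, ha⟩ := exists_principal_patch S hx (fun q hq => hS₀ S hS q hq (x q))
  exact mem_sup_of_units_outside S a ha


/-! ### [A2]: finiteness -/

/-- An idele which is a local unit everywhere lies in `J_S · U^S`. -/
theorem mem_sup_of_forall_mem_localUnits (S : Finset Nat.Primes) {t : IdeleProd L}
    (ht : ∀ q : Nat.Primes, t q ∈ localUnits L q) :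
    t ∈ (principal L).range ⊔ supportedOn L S ⊔ unitsOutside L S :=
  mem_sup_of_units_outside S 1 (fun q _ => by simpa using ht q)

variable (L) in
/-- The divisor map at `q` reduced modulo `h`. -/
def redq (h : ℕ) (q : Nat.Primes) :
    (SemiLocal L q)ˣ →* Multiplicative (PrimesOver (q : ℕ) L → ZMod h) :=
  (AddMonoidHom.toMultiplicative
    ((Int.castAddHom (ZMod h)).compLeft (PrimesOver (q : ℕ) L))).comp (divq (q : ℕ) L)

/-- The kernel of the reduced divisor map consists of `h`-th powers times local units. -/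
theorem exists_mul_pow_inv_mem (h : ℕ) [NeZero h] (q : Nat.Primes) (y : (SemiLocal L q)ˣ)
    (hy : redq L h q y = 1) :
    ∃ z : (SemiLocal L q)ˣ, y * (z ^ h)⁻¹ ∈ localUnits L q := by
  have hdvd : ∀ w, (h : ℤ) ∣ Multiplicative.toAdd (divq (q : ℕ) L y) w := by
    intro w
    have h1 : ((Multiplicative.toAdd (divq (q : ℕ) L y) w : ℤ) : ZMod h) = 0 :=
      congrFun (congrArg Multiplicative.toAdd hy) w
    exact (ZMod.intCast_zmod_eq_zero_iff_dvd _ _).mp h1
  choose E hE using hdvd
  obtain ⟨z, hz⟩ := divq_surjective (q := (q : ℕ)) (L := L) (Multiplicative.ofAdd E)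
  refine ⟨z, ?_⟩
  rw [localUnits_eq_orderUnits, ← divq_eq_one_iff, map_mul, map_inv, map_pow, hz]
  apply Multiplicative.toAdd.injective
  funext w
  rw [toAdd_mul, toAdd_inv, toAdd_pow, toAdd_ofAdd, Pi.add_apply, Pi.neg_apply, Pi.smul_apply,
    hE w, nsmul_eq_mul]
  show (h : ℤ) * E w + -((h : ℤ) * E w) = 0
  ring

variable (L) in
/-- The reduced divisor maps at the primes of a finite set, assembled. -/
def redS (h : ℕ) (S₀ : Finset Nat.Primes) :
    IdeleProd L →* (∀ q : S₀, Multiplicative (PrimesOver ((q : Nat.Primes) : ℕ) L → ZMod h)) :=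
  MonoidHom.pi fun q : S₀ =>
    (redq L h q).comp (Pi.evalMonoidHom (fun q : Nat.Primes => (SemiLocal L q)ˣ) q)

variable (L) in
/-- **[A2]** Finiteness of the `S`-class group `J_L / (Lˣ · J_S · U^S)`. -/
theorem classGroupFinite (S : Finset Nat.Primes) :
    ((principal L).range ⊔ supportedOn L S ⊔ unitsOutside L S).relIndex (finIdele L) ≠ 0 := by
  classical
  set H := (principal L).range ⊔ supportedOn L S ⊔ unitsOutside L S with hH
  set h := Nat.card (ClassGroup (𝓞 L)) with hh
  have : NeZero h := ⟨Nat.card_pos.ne'⟩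
  obtain ⟨S₀, hS₀⟩ := classGroupTrivial L
  -- `J = H · J_{S₀}`
  have hJ : finIdele L ≤ H ⊔ supportedOn L S₀ := by
    intro x hx
    obtain ⟨y, hy, t, ht, rfl⟩ := Subgroup.mem_sup.mp (hS₀ S₀ (Finset.Subset.refl _) hx)
    obtain ⟨p, hp, s, hs, rfl⟩ := Subgroup.mem_sup.mp hy
    have hpH : p ∈ H := Subgroup.mem_sup_left (Subgroup.mem_sup_left hp)
    have htH : t ∈ H := mem_sup_of_forall_mem_localUnits S ht.1
    have h1 : p * s * t = (p * t) * s := mul_right_comm p s t
    rw [h1]
    exact Subgroup.mul_mem_sup (mul_mem hpH htH) hs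
  -- the kernel of the reduced divisor map on `J_{S₀}` lies in `H`
  have hker : (redS L h S₀).ker ⊓ supportedOn L S₀ ≤ H := by
    rintro s ⟨hsker, hsS⟩
    have h1 : ∀ q : Nat.Primes, q ∈ S₀ →
        ∃ z : (SemiLocal L q)ˣ, s q * (z ^ h)⁻¹ ∈ localUnits L q := by
      intro q hq
      exact exists_mul_pow_inv_mem h q (s q) (congrFun (MonoidHom.mem_ker.mp hsker) ⟨q, hq⟩)
    choose! z hz using h1
    set Z : IdeleProd L := fun q => if q ∈ S₀ then z q else 1 with hZ
    have hZS : Z ∈ supportedOn L S₀ := fun q hq => by simp [hZ, hq]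
    have hZfin : Z ∈ finIdele L := supportedOn_le_finIdele L S₀ hZS
    have hZh : Z ^ h ∈ H := by
      obtain ⟨p, hp, t, ht, hpt⟩ := Subgroup.mem_sup.mp (pow_classNumber_mem hZfin)
      rw [← hpt]
      exact mul_mem (Subgroup.mem_sup_left (Subgroup.mem_sup_left hp))
        (mem_sup_of_forall_mem_localUnits S ht.1)
    have hu : s * (Z ^ h)⁻¹ ∈ H := by
      apply mem_sup_of_forall_mem_localUnits S
      intro q
      by_cases hq : q ∈ S₀
      · have h2 : (s * (Z ^ h)⁻¹) q = s q * (z q ^ h)⁻¹ := by simp [hZ, hq]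
        rw [h2]
        exact hz q hq
      · have h2 : (s * (Z ^ h)⁻¹) q = 1 := by simp [hZ, hq, hsS q hq]
        rw [h2]
        exact one_mem _
    have h3 : s = s * (Z ^ h)⁻¹ * Z ^ h := by rw [inv_mul_cancel_right]
    rw [h3]
    exact mul_mem hu hZh
  -- index bookkeeping
  have h1 : ((redS L h S₀).ker).relIndex (supportedOn L S₀) ≠ 0 := by
    rw [Subgroup.relIndex_ker]
    exact Nat.card_pos.ne'
  have h2 : ((redS L h S₀).ker ⊓ supportedOn L S₀).relIndex (supportedOn L S₀) ≠ 0 := by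
    rwa [Subgroup.inf_relIndex_right]
  have h3 : H.relIndex (supportedOn L S₀) ≠ 0 :=
    fun h0 => h2 (Subgroup.relIndex_eq_zero_of_le_left hker h0)
  have h4 : H.relIndex (H ⊔ supportedOn L S₀) ≠ 0 := by rwa [Subgroup.relIndex_sup_left]
  exact fun h0 => h4 (Subgroup.relIndex_eq_zero_of_le_right hJ h0)

end Fermat.Agent.CFT.Global.IdeleStructure
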