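/-
`Fermat.Agent.CFT.Global.KummerPair` (helper36; P3 Global, input of [G5]/[G6] and of [EX.c]).

For a number field `L ∋ ζ_p` and `a ∈ Lˣ` we build the Kummer extension `L' = L(a^(1/p))`
(the splitting field of `X ^ p - a`) as a *Galois pair* in the sense of `Global/Defs`:
`G' = L' ≃ₐ[L] L'` acting faithfully on `L'` with fixed field `L`, together with a `p`-th root
`b` of `a` in `L'`, and prove that `L'` is unramified outside `S` as soon as `L` is, `p ∈ S` and
`p ∣ ord_w(a)` at every prime `w` of `L` above a rational prime outside `S`.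
-/
import Mathlib
import Fermat.Agent.CFT.Global.Defs
import Fermat.Agent.CFT.Global.QBridgeDefs
import Fermat.Agent.CFT.Global.QBridgeDiv
import Fermat.Agent.CFT.Glob.UnramReduced

set_option autoImplicit false

noncomputable section

namespace Fermat.Agent.CFT.Global.KummerPair

open Polynomial NumberField IsDedekindDomain
open Fermat.Agent.CFT.Global Fermat.Agent.CFT.Glob

/-! ### Rescaling by a `p`-th power -/

/-- If `n ∣ ord_w(a)` then `a` can be rescaled by an `n`-th power to an algebraic integer which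
is a unit at `w`. -/
theorem exists_scale_of_dvd_ordZ {L : Type*} [Field L] [NumberField L]
    (w : HeightOneSpectrum (𝓞 L)) (a : Lˣ) (n : ℕ) (hn : n ≠ 0)
    (h : (n : ℤ) ∣ QBridge.ordZ w a) :
    ∃ (c : L) (r : 𝓞 L), c ≠ 0 ∧ (r : L) = c ^ n * (a : L) ∧ r ∉ w.asIdeal := by
  classical
  -- write `a = α₀ / d`
  obtain ⟨α₀, d, hd, had⟩ := IsFractionRing.div_surjective (A := 𝓞 L) (a : L)
  have hd0 : d ≠ 0 := nonZeroDivisors.ne_zero hd
  have hdL : algebraMap (𝓞 L) L d ≠ 0 := by simpa using hd0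
  obtain ⟨m, rfl⟩ : ∃ m, n = m + 1 := Nat.exists_eq_succ_of_ne_zero hn
  set α : 𝓞 L := d ^ m * α₀ with hα
  have hαL : algebraMap (𝓞 L) L α = algebraMap (𝓞 L) L d ^ (m + 1) * (a : L) := by
    rw [hα, map_mul, map_pow, ← had, pow_succ]
    field_simp
  have hαL0 : algebraMap (𝓞 L) L α ≠ 0 := by
    rw [hαL]
    exact mul_ne_zero (pow_ne_zero _ hdL) a.ne_zero
  have hα0 : α ≠ 0 := by
    intro h0
    exact hαL0 (by rw [h0, map_zero])
  -- the valuation of `α` at `w`
  have hord : ((m + 1 : ℕ) : ℤ) ∣ QBridge.ordZ w (Units.mk0 _ hαL0) := by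
    have h1 : Units.mk0 _ hαL0 = Units.mk0 _ hdL ^ (m + 1) * a := by
      apply Units.ext
      rw [Units.val_mul, Units.val_pow_eq_pow_val, Units.val_mk0, Units.val_mk0, hαL]
    have h2 : QBridge.ordZ w (Units.mk0 _ hdL ^ (m + 1)) =
        ((m + 1 : ℕ) : ℤ) * QBridge.ordZ w (Units.mk0 _ hdL) := by
      have := QBridge.ordZ_zpow w (Units.mk0 _ hdL) ((m + 1 : ℕ) : ℤ)
      rwa [zpow_natCast] at this
    rw [h1, QBridge.ordZ_mul, h2]
    exact dvd_add (dvd_mul_right _ _) h
  obtain ⟨k, hk⟩ := hord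
  have hval : w.intValuation α = WithZero.exp (-(((m + 1 : ℕ) : ℤ) * k)) := by
    have h1 := QBridge.valuation_eq_exp_neg_ordZ w (Units.mk0 _ hαL0)
    rw [Units.val_mk0, HeightOneSpectrum.valuation_of_algebraMap, hk] at h1
    exact h1
  have hk0 : 0 ≤ k := by
    have h1 : w.intValuation α ≤ 1 := w.intValuation_le_one α
    rw [hval, ← WithZero.exp_zero, WithZero.exp_le_exp] at h1
    have h2 : (0 : ℤ) < ((m + 1 : ℕ) : ℤ) := by positivity
    nlinarith
  obtain ⟨k', rfl⟩ := Int.eq_ofNat_of_zero_le hk0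
  have hmem : α ∈ w.asIdeal ^ ((m + 1) * k') := by
    rw [← w.intValuation_le_pow_iff_mem, hval]
    push_cast
    exact le_rfl
  have hnmem : α ∉ w.asIdeal ^ ((m + 1) * k' + 1) := by
    rw [← w.intValuation_le_pow_iff_mem, hval, WithZero.exp_le_exp]
    push_cast
    linarith
  obtain ⟨J, hJ⟩ := Ideal.dvd_iff_le.mpr ((Ideal.span_singleton_le_iff_mem _).mpr hmem)
  have hJw : ¬ J ≤ w.asIdeal := by
    intro hle
    apply hnmem
    have : Ideal.span {α} ≤ w.asIdeal ^ ((m + 1) * k' + 1) := by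
      rw [hJ, pow_succ]
      exact Ideal.mul_mono le_rfl hle
    exact this (Ideal.mem_span_singleton_self α)
  have := w.isPrime
  obtain ⟨c, r, hc0, hrc, hr⟩ := KummerUnram.exists_scale L α hα0 (m + 1) (w.asIdeal ^ k') J
    (by rw [hJ, ← pow_mul, mul_comm k']) w.asIdeal hJw
  refine ⟨c * algebraMap (𝓞 L) L d, r, mul_ne_zero hc0 hdL, ?_, hr⟩
  show algebraMap (𝓞 L) L r = _
  rw [hrc, hαL, mul_pow, mul_assoc]

/-! ### The Kummer field -/

/-- The Kummer field `L(a^(1/p))`: the splitting field of `X ^ p - a`. -/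
abbrev KField (p : ℕ) (L : Type) [Field L] (a : L) : Type :=
  (X ^ p - C a : L[X]).SplittingField

instance instNumberFieldKField (p : ℕ) (L : Type) [Field L] [NumberField L] (a : L) :
    NumberField (KField p L a) :=
  NumberField.of_module_finite L (KField p L a)

theorem isGalois_kField (p : ℕ) (hp : p ≠ 0) (L : Type) [Field L] [NumberField L] (a : L)
    (ha : a ≠ 0) : IsGalois L (KField p L a) :=
  IsGalois.of_separable_splitting_field (p := (X ^ p - C a : L[X]))
    (separable_X_pow_sub_C a (by exact_mod_cast hp) ha)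

/-- A `p`-th root of `a` in the Kummer field. -/
theorem exists_root_kField (p : ℕ) (hp : p ≠ 0) (L : Type) [Field L] (a : L) :
    ∃ x : KField p L a, x ^ p = algebraMap L (KField p L a) a := by
  have hsplit : ((X ^ p - C a : L[X]).map (algebraMap L (KField p L a))).Splits :=
    SplittingField.splits _
  have hdeg : ((X ^ p - C a : L[X]).map (algebraMap L (KField p L a))).degree ≠ 0 := by
    rw [degree_map, degree_X_pow_sub_C (Nat.pos_of_ne_zero hp)]
    exact_mod_cast hp
  obtain ⟨x, hx⟩ := hsplit.exists_eval_eq_zero hdeg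
  refine ⟨x, ?_⟩
  simpa [sub_eq_zero] using hx

/-- With `ζ_p ∈ L`, any root of `X ^ p - a` generates the Kummer field. -/
theorem adjoin_root_kField (p : ℕ) (hp : p ≠ 0) (L : Type) [Field L] (a : L) (ha : a ≠ 0)
    (ζ : L) (hζ : IsPrimitiveRoot ζ p) (x : KField p L a)
    (hx : x ^ p = algebraMap L (KField p L a) a) : Algebra.adjoin L {x} = ⊤ := by
  have hx0 : x ≠ 0 := by
    rintro rfl
    rw [zero_pow hp] at hx
    exact ha ((map_eq_zero _).mp hx.symm)
  have hζ' : IsPrimitiveRoot (algebraMap L (KField p L a) ζ) p :=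
    hζ.map_of_injective (algebraMap L (KField p L a)).injective
  have : NeZero p := ⟨hp⟩
  rw [eq_top_iff, ← SplittingField.adjoin_rootSet (X ^ p - C a : L[X])]
  apply Algebra.adjoin_le
  intro y hy
  have hy' : y ^ p = algebraMap L (KField p L a) a := by
    have := (mem_rootSet.mp hy).2
    simpa [sub_eq_zero] using this
  have h1 : (y / x) ^ p = 1 := by
    rw [div_pow, hy', hx, div_self]
    rw [← hx]
    exact pow_ne_zero _ hx0
  obtain ⟨i, -, hi⟩ := hζ'.eq_pow_of_pow_eq_one h1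
  have hyx : y = algebraMap L (KField p L a) (ζ ^ i) * x := by
    rw [map_pow, hi, div_mul_cancel₀ _ hx0]
  rw [hyx]
  exact mul_mem (Subalgebra.algebraMap_mem _ _) (Algebra.subset_adjoin (Set.mem_singleton x))

/-- The Kummer field is unramified outside `S` if `L` is, `p ∈ S`, and `p ∣ ord_w(a)` at the
primes `w` above the rational primes outside `S`. -/
theorem unramOutside_kField (p : ℕ) [Fact p.Prime] (L : Type) [Field L] [NumberField L]
    (a : Lˣ) (hζ : ∃ ζ : L, IsPrimitiveRoot ζ p) (S : Finset Nat.Primes)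
    (hpS : ∃ q ∈ S, (q : ℕ) = p)
    (hdiv : ∀ q : Nat.Primes, q ∉ S → ∀ w : HeightOneSpectrum (𝓞 L),
      ((q : ℕ) : 𝓞 L) ∈ w.asIdeal → (p : ℤ) ∣ QBridge.ordZ w a)
    (hL : UnramOutside S L) : UnramOutside S (KField p L (a : L)) := by
  have hp : p.Prime := Fact.out
  obtain ⟨ζ, hζ⟩ := hζ
  obtain ⟨q₀, hq₀S, hq₀p⟩ := hpS
  obtain ⟨x, hx⟩ := exists_root_kField p hp.ne_zero L (a : L)
  have hgen := adjoin_root_kField p hp.ne_zero L (a : L) a.ne_zero ζ hζ x hx
  intro q hqS
  have hqp : ¬ (q : ℕ) ∣ p := by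
    intro hdvd
    have h1 : (q : ℕ) = p := (Nat.prime_dvd_prime_iff_eq q.2 hp).mp hdvd
    have h2 : q = q₀ := Subtype.ext (h1.trans hq₀p.symm)
    exact hqS (h2 ▸ hq₀S)
  refine UnramReduced.isReduced_of_kummer (q : ℕ) q.2 p hqp x hgen (a : L) hx ?_ (hL q hqS)
  intro 𝔭 h𝔭 hq𝔭
  have h𝔭0 : 𝔭 ≠ ⊥ := by
    rintro rfl
    have h0 : ((q : ℕ) : 𝓞 L) = 0 := by simpa using hq𝔭
    exact (Nat.cast_ne_zero.mpr q.2.ne_zero) h0
  exact exists_scale_of_dvd_ordZ ⟨𝔭, h𝔭, h𝔭0⟩ a p hp.ne_zero (hdiv q hqS ⟨𝔭, h𝔭, h𝔭0⟩ hq𝔭)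

/-! ### The Kummer pair -/

/-- **The Kummer pair.**  For a number field `L ∋ ζ_p` and `a ∈ Lˣ` there is a Galois pair
`(G', L')` over `L` (in the sense of `Global/Defs`: `G'` finite, acting faithfully on the number
field `L'` with fixed field `f(L)`) in which `a` becomes a `p`-th power, and which is unramified
outside every `S ∋ p` outside of which `L` is unramified and `p ∣ ord_w(a)`. -/
theorem exists_kummer_pair (p : ℕ) [Fact p.Prime] (L : Type) [Field L] [NumberField L]
    (hζ : ∃ ζ : L, IsPrimitiveRoot ζ p) (a : Lˣ) :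
    ∃ (L' : Type) (_ : Field L') (_ : NumberField L') (G' : Type) (_ : Group G')
      (_ : Fintype G') (_ : MulSemiringAction G' L') (f : L →+* L'),
      FaithfulSMul G' L' ∧
      (∀ y : L', (∀ g : G', g • y = y) ↔ y ∈ f.range) ∧
      (∃ b : L'ˣ, b ^ p = Units.map f.toMonoidHom a) ∧
      ∀ S : Finset Nat.Primes, (∃ q ∈ S, (q : ℕ) = p) →
        (∀ q : Nat.Primes, q ∉ S → ∀ w : HeightOneSpectrum (𝓞 L),
          ((q : ℕ) : 𝓞 L) ∈ w.asIdeal → (p : ℤ) ∣ QBridge.ordZ w a) →
        UnramOutside S L → UnramOutside S L' := by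
  have hp : p.Prime := Fact.out
  have : IsGalois L (KField p L (a : L)) := isGalois_kField p hp.ne_zero L (a : L) a.ne_zero
  obtain ⟨x, hx⟩ := exists_root_kField p hp.ne_zero L (a : L)
  have hx0 : x ≠ 0 := by
    rintro rfl
    rw [zero_pow hp.ne_zero] at hx
    exact a.ne_zero ((map_eq_zero _).mp hx.symm)
  refine ⟨KField p L (a : L), inferInstance, inferInstance,
    KField p L (a : L) ≃ₐ[L] KField p L (a : L), inferInstance, inferInstance, inferInstance,
    algebraMap L (KField p L (a : L)), inferInstance, ?_, ⟨Units.mk0 x hx0, ?_⟩, ?_⟩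
  · intro y
    rw [RingHom.mem_range]
    exact (IsGalois.mem_range_algebraMap_iff_fixed y).symm
  · apply Units.ext
    rw [Units.val_pow_eq_pow_val, Units.val_mk0, hx]
    rfl
  · intro S hpS hdiv hL
    exact unramOutside_kField p L a hζ S hpS hdiv hL

end Fermat.Agent.CFT.Global.KummerPair
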