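/-
`Fermat.Agent.CFT.Global.KummerLimit` (helper36; P3 Global [G5] + [G6]).

The two Kummer limit facts of the global plan, for a number field `L ∋ ζ_p` and `S ∋ p`:

* `sUnitsPDiv` ([G5]): every `S`-unit of `L` becomes the `p`-th power of an `S`-unit in an
  extension of `L` which is unramified outside `S` (if `L` is);
* `classCapitulation` ([G6]): an idele `x` of `L` with `x ^ p ∈ Lˣ · J_S · U^S` lies in
  `L'ˣ · J_S · U^S` for such an extension `L'`.

Both use the Kummer pair of `Global/KummerPair.lean`.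
-/
import Mathlib
import Fermat.Agent.CFT.Global.Defs
import Fermat.Agent.CFT.Global.QBridgeDefs
import Fermat.Agent.CFT.Global.QBridgeDiv
import Fermat.Agent.CFT.Global.KummerPair

set_option autoImplicit false

noncomputable section

namespace Fermat.Agent.CFT.Global.KummerLimit

open NumberField IsDedekindDomain TensorProduct
open Fermat.Agent.CFT.Global

/-! ### Roots of local units are local units -/

section Roots

variable (L : Type) [Field L] [CharZero L] (q : ℕ) [Fact q.Prime]

/-- An element of `L ⊗ ℚ_q` with an integral power is integral. -/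
theorem isInt_of_pow {x : SemiLocal L q} {n : ℕ} (hn : 0 < n) (h : IsInt L q (x ^ n)) :
    IsInt L q x := by
  let _ : Algebra ℤ_[q] (SemiLocal L q) := (intHom L q).toAlgebra
  exact IsIntegral.of_pow (R := ℤ_[q]) hn h

/-- A unit of `L ⊗ ℚ_q` with a power in `U_q(L)` lies in `U_q(L)`. -/
theorem mem_localUnits_of_pow_mem {y : (SemiLocal L q)ˣ} {n : ℕ} (hn : 0 < n)
    (h : y ^ n ∈ localUnits L q) : y ∈ localUnits L q := by
  rw [mem_localUnits_iff] at h ⊢
  refine ⟨isInt_of_pow L q hn ?_, isInt_of_pow L q hn ?_⟩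
  · have := h.1
    rwa [Units.val_pow_eq_pow_val] at this
  · have := h.2
    rwa [← inv_pow, Units.val_pow_eq_pow_val] at this

end Roots

/-! ### Splitting an idele into its `S`-part and its part outside `S` -/

section Split

variable (L : Type) [Field L] [CharZero L] (S : Finset Nat.Primes)

/-- An idele which is a local unit outside `S` lies in `J_S · U^S`. -/
theorem mem_sup_of_forall_mem_localUnits (y : IdeleProd L)
    (h : ∀ q : Nat.Primes, q ∉ S → y q ∈ localUnits L q) :
    y ∈ supportedOn L S ⊔ unitsOutside L S := by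
  classical
  have h1 : (fun q : Nat.Primes => if q ∈ S then y q else 1) ∈ supportedOn L S := by
    intro q hq
    show (if q ∈ S then y q else 1) = 1
    rw [if_neg hq]
  have h2 : (fun q : Nat.Primes => if q ∈ S then 1 else y q) ∈ unitsOutside L S := by
    refine ⟨fun q => ?_, fun q hq => ?_⟩
    · show (if q ∈ S then 1 else y q) ∈ localUnits L q
      by_cases hq : q ∈ S
      · rw [if_pos hq]; exact one_mem _
      · rw [if_neg hq]; exact h q hq
    · show (if q ∈ S then 1 else y q) = 1
      rw [if_pos hq]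
  have h3 : y = (fun q : Nat.Primes => if q ∈ S then y q else 1) *
      (fun q : Nat.Primes => if q ∈ S then 1 else y q) := by
    funext q
    show y q = (if q ∈ S then y q else 1) * (if q ∈ S then 1 else y q)
    by_cases hq : q ∈ S
    · rw [if_pos hq, if_pos hq, mul_one]
    · rw [if_neg hq, if_neg hq, one_mul]
  rw [h3]
  exact Subgroup.mul_mem_sup h1 h2

end Split

/-! ### Valuations of the principal part -/

section Ord

variable {L : Type} [Field L] [NumberField L]

theorem principal_eq_lamq (a : Lˣ) (q : Nat.Primes) :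
    principal L a q = QBridge.lamq (q : ℕ) L a := by
  apply Units.ext
  rfl

theorem localUnits_eq_orderUnits (q : Nat.Primes) (y : (SemiLocal L q)ˣ) :
    y ∈ localUnits L q ↔ y ∈ QBridge.orderUnits (q : ℕ) L := by
  rw [QBridge.mem_localUnits_iff_maxOrder, QBridge.mem_orderUnits]

/-- If the principal idele of `a` is, at `q`, a local unit times a `p`-th power, then
`p ∣ ord_w(a)` at every prime `w` above `q`. -/
theorem dvd_ordZ_of_principal_eq (p : ℕ) (a : Lˣ) (q : Nat.Primes) (y u : (SemiLocal L q)ˣ)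
    (hu : u ∈ localUnits L q) (h : principal L a q = y ^ p * u)
    (w : HeightOneSpectrum (𝓞 L)) (hw : ((q : ℕ) : 𝓞 L) ∈ w.asIdeal) :
    (p : ℤ) ∣ QBridge.ordZ w a := by
  have h1 : QBridge.divq (q : ℕ) L (QBridge.lamq (q : ℕ) L a) =
      QBridge.divq (q : ℕ) L y ^ p := by
    rw [← principal_eq_lamq, h, map_mul, map_pow,
      (QBridge.divq_eq_one_iff u).mpr ((localUnits_eq_orderUnits q u).mp hu), mul_one]
  have h2 := QBridge.divq_lamq (q := (q : ℕ)) (L := L) a ⟨w, hw⟩
  rw [h1] at h2
  rw [← h2, toAdd_pow]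
  exact ⟨_, rfl⟩

end Ord

/-! ### [G5]: `p`-divisibility of the `S`-units in the limit -/

/-- **[G5]** (`Plan.SUnitsPDiv`, body verbatim).  `L ∋ ζ_p`, `p ∈ S`, `u ∈ E_S(L)`: `u` becomes
a `p`-th power of an `S`-unit in a Galois pair over `L` which is unramified outside `S` (if `L`
is). -/
theorem sUnitsPDiv :
    ∀ (p : ℕ) [Fact p.Prime], p ≠ 2 →
    ∀ (L : Type) [Field L] [NumberField L] (S : Finset Nat.Primes),
      (∃ q ∈ S, (q : ℕ) = p) → (∃ ζ : L, IsPrimitiveRoot ζ p) →
    ∀ u ∈ sUnits L S,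
      ∃ (L' : Type) (_ : Field L') (_ : NumberField L') (G' : Type) (_ : Group G')
        (_ : Fintype G') (_ : MulSemiringAction G' L') (f : L →+* L'),
        FaithfulSMul G' L' ∧
        (∀ y : L', (∀ g : G', g • y = y) ↔ y ∈ f.range) ∧
        (UnramOutside S L → UnramOutside S L') ∧
        ∃ v ∈ sUnits L' S, v ^ p = Units.map f.toMonoidHom u := by
  intro p _ _ L _ _ S hpS hζ u hu
  have hp : p.Prime := Fact.out
  obtain ⟨L', iF, iN, G', iG, iFin, iAct, f, hfaith, hfix, ⟨b, hb⟩, hunr⟩ :=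
    KummerPair.exists_kummer_pair p L hζ u
  have hdiv : ∀ q : Nat.Primes, q ∉ S → ∀ w : HeightOneSpectrum (𝓞 L),
      ((q : ℕ) : 𝓞 L) ∈ w.asIdeal → (p : ℤ) ∣ QBridge.ordZ w u := by
    intro q hq w hw
    have h1 := (QBridge.principal_mem_localUnits_iff u q).mp (hu q hq) w hw
    rw [(QBridge.ordZ_eq_zero_iff w u).mpr h1]
    exact dvd_zero _
  refine ⟨L', iF, iN, G', iG, iFin, iAct, f, hfaith, hfix, hunr S hpS hdiv, b, ?_, hb⟩
  intro q hq
  apply mem_localUnits_of_pow_mem L' (q : ℕ) hp.pos (n := p)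
  have h1 : principal L' b q ^ p = ideleProdMap f (principal L u) q := by
    rw [ideleProdMap_principal, ← hb, map_pow]
    rfl
  rw [h1, ideleProdMap_apply]
  exact map_mem_localUnits f (q : ℕ) (hu q hq)

/-! ### [G6]: capitulation of the `p`-torsion of the `S`-class group in the limit -/

/-- **[G6]** (`Plan.ClassCapitulation`, body verbatim).  `L ∋ ζ_p`, `p ∈ S`, `x ∈ J_L` with
`x ^ p ∈ Lˣ · J_S · U^S`: then `x ∈ L'ˣ · J_S · U^S` in a Galois pair over `L` which is unramified
outside `S` (if `L` is). -/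
theorem classCapitulation :
    ∀ (p : ℕ) [Fact p.Prime], p ≠ 2 →
    ∀ (L : Type) [Field L] [NumberField L] (S : Finset Nat.Primes),
      (∃ q ∈ S, (q : ℕ) = p) → (∃ ζ : L, IsPrimitiveRoot ζ p) →
    ∀ x ∈ finIdele L, x ^ p ∈ (principal L).range ⊔ supportedOn L S ⊔ unitsOutside L S →
      ∃ (L' : Type) (_ : Field L') (_ : NumberField L') (G' : Type) (_ : Group G')
        (_ : Fintype G') (_ : MulSemiringAction G' L') (f : L →+* L'),
        FaithfulSMul G' L' ∧
        (∀ y : L', (∀ g : G', g • y = y) ↔ y ∈ f.range) ∧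
        (UnramOutside S L → UnramOutside S L') ∧
        ideleProdMap f x ∈ (principal L').range ⊔ supportedOn L' S ⊔ unitsOutside L' S := by
  intro p _ _ L _ _ S hpS hζ x _ hx
  have hp : p.Prime := Fact.out
  -- `x ^ p = a · s · u`
  obtain ⟨t, ht, u, hu, htu⟩ := Subgroup.mem_sup.mp hx
  obtain ⟨a', ⟨a, rfl⟩, s, hs, rfl⟩ := Subgroup.mem_sup.mp ht
  -- `p ∣ ord_w(a)` outside `S`
  have hdiv : ∀ q : Nat.Primes, q ∉ S → ∀ w : HeightOneSpectrum (𝓞 L),
      ((q : ℕ) : 𝓞 L) ∈ w.asIdeal → (p : ℤ) ∣ QBridge.ordZ w a := by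
    intro q hq w hw
    refine dvd_ordZ_of_principal_eq p a q (x q) (u q)⁻¹ (inv_mem (hu.1 q)) ?_ w hw
    have h1 : (x ^ p) q = principal L a q * s q * u q := by rw [← htu]; rfl
    rw [hs q hq, mul_one] at h1
    rw [← Pi.pow_apply, h1, mul_inv_cancel_right]
  obtain ⟨L', iF, iN, G', iG, iFin, iAct, f, hfaith, hfix, ⟨b, hb⟩, hunr⟩ :=
    KummerPair.exists_kummer_pair p L hζ a
  refine ⟨L', iF, iN, G', iG, iFin, iAct, f, hfaith, hfix, hunr S hpS hdiv, ?_⟩
  -- `y := x / b` is a local unit outside `S`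
  set y : IdeleProd L' := (principal L' b)⁻¹ * ideleProdMap f x with hy
  have hyp : y ^ p = ideleProdMap f s * ideleProdMap f u := by
    rw [hy, mul_pow, inv_pow, ← map_pow, ← map_pow, hb, ← htu, map_mul, map_mul,
      ideleProdMap_principal]
    rw [mul_assoc, inv_mul_cancel_left]
  have hyq : ∀ q : Nat.Primes, q ∉ S → y q ∈ localUnits L' q := by
    intro q hq
    apply mem_localUnits_of_pow_mem L' (q : ℕ) hp.pos (n := p)
    have h1 : y q ^ p = (ideleProdMap f s * ideleProdMap f u) q := by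
      rw [← hyp]; rfl
    have h2 : (ideleProdMap f s) q = 1 := by
      rw [ideleProdMap_apply, hs q hq, map_one]
    rw [h1, Pi.mul_apply, h2, one_mul]
    exact (map_mem_unitsOutside f S hu).1 q
  have hsplit := mem_sup_of_forall_mem_localUnits L' S y hyq
  have hx' : ideleProdMap f x = principal L' b * y := by
    rw [hy, mul_inv_cancel_left]
  rw [hx', sup_assoc]
  exact Subgroup.mul_mem_sup ⟨b, rfl⟩ hsplit

end Fermat.Agent.CFT.Global.KummerLimit
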