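import Mathlib
import Fermat.Agent.CFT.Global.Defs
import Fermat.Agent.CFT.Global.QBridgeFin
import Fermat.Agent.CFT.Global.ClassDescent

/-!
# Class field theory program (P3), global layer: Galois descent for the `S`-idele class group

For a tower datum `IsTower f π` and a nonempty finite set `S` of rational primes such that the
local units `U_q(L')`, `q ∉ S`, have trivial `H¹` for `N = ker π` (true when `L'` is unramified
outside `S`), the map `C_S(L) → C_S(L')` is injective, equivariant, and its image is the group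
of `N`-invariants.
-/

set_option autoImplicit false

open scoped TensorProduct
open scoped Fermat.Agent.CFT.Global

noncomputable section

namespace Fermat.Agent.CFT.Global.ClassDescentS

open Fermat.Agent.CFT.Global Fermat.Agent.CFT.Global.ClassDescent

/-! ## From `H¹ = 0` to explicit cocycles -/

/-- If `H¹(G, A) = 0` then every `1`-cocycle is a coboundary (explicit form). -/
theorem exists_of_isZero_H1 {G : Type} [Group G] (A : Rep ℤ G)
    (hz : CategoryTheory.Limits.IsZero (groupCohomology A 1)) (f : G → A)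
    (hf : ∀ g h : G, f (g * h) = A.ρ g (f h) + f g) : ∃ x : A, ∀ g : G, A.ρ g x - x = f g := by
  have hmem : f ∈ groupCohomology.cocycles₁ A := (groupCohomology.mem_cocycles₁_iff f).mpr hf
  have h0 : groupCohomology.H1π A ⟨f, hmem⟩ = 0 := by
    have := ModuleCat.subsingleton_of_isZero hz
    exact Subsingleton.elim _ _
  rw [groupCohomology.H1π_eq_zero_iff] at h0
  obtain ⟨x, hx⟩ := h0
  exact ⟨x, fun g => congrFun hx g⟩

/-- The explicit-cocycle form of `H¹(N, U_q(L)) = 0` for a subgroup `N` of a group `G` acting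
on `L`. -/
def UnitsH1 {G : Type} [Group G] (N : Subgroup G) (L : Type) [Field L] [CharZero L]
    [MulSemiringAction G L] (q : ℕ) [Fact q.Prime] : Prop :=
  ∀ c : N → (SemiLocal L q)ˣ, (∀ n, c n ∈ localUnits L q) →
    (∀ n m : N, c (n * m) = c n * (n : G) • c m) →
    ∃ b ∈ localUnits L q, ∀ n : N, c n * (n : G) • b = b

/-- The action of a subgroup `N ≤ G` on `L ⊗[ℚ] ℚ_[q]` through its own action on `L` agrees with
the restriction of the action of `G`. -/
theorem subgroup_smul_eq {G : Type} [Group G] (N : Subgroup G) (L : Type) [Field L]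
    [CharZero L] [MulSemiringAction G L] (q : ℕ) [Fact q.Prime] (n : N) (z : SemiLocal L q) :
    @MulSemiringAction.toRingHom N _ (SemiLocal L q) _ (instMulSemiringActionSemiLocal N L q)
      n z = (n : G) • z := by
  induction z using TensorProduct.induction_on with
  | zero => rw [map_zero, smul_zero]
  | tmul a b => rfl
  | add x y hx hy => rw [map_add, hx, hy, smul_add]

/-- The unit underlying an element of (the additive version of) `U_q(L)`. -/
def toUnit {L : Type} [Field L] [CharZero L] {q : ℕ} [Fact q.Prime]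
    (x : ↥(addSub (localUnits L q))) : (SemiLocal L q)ˣ :=
  (x : Additive (SemiLocal L q)ˣ).toMul

/-- The action of `N ≤ G` on `localUnitsRep N L q`, in terms of the action of `G`. -/
theorem rho_localUnitsRep {G : Type} [Group G] (N : Subgroup G) (L : Type) [Field L]
    [CharZero L] [MulSemiringAction G L] (q : ℕ) [Fact q.Prime] (n : N)
    (x : ↥(addSub (localUnits L q))) :
    toUnit ((localUnitsRep N L q).ρ n x) = (n : G) • toUnit x :=
  Units.ext (subgroup_smul_eq N L q n _)

/-- `H¹(N, U_q(L)) = 0` (Mathlib's group cohomology of `localUnitsRep`) gives the explicit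
form. -/
theorem unitsH1_of_isZero {G : Type} [Group G] (N : Subgroup G) (L : Type) [Field L]
    [CharZero L] [MulSemiringAction G L] (q : ℕ) [Fact q.Prime]
    (hz : CategoryTheory.Limits.IsZero (groupCohomology (localUnitsRep N L q) 1)) :
    UnitsH1 N L q := by
  intro c hc hmul
  let f : N → (localUnitsRep N L q) := fun n =>
    (⟨Additive.ofMul (c n), hc n⟩ : ↥(addSub (localUnits L q)))
  have hf : ∀ g h : N, f (g * h) = (localUnitsRep N L q).ρ g (f h) + f g := by
    intro g h
    apply Subtype.ext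
    apply Additive.toMul.injective
    show c (g * h) = toUnit ((localUnitsRep N L q).ρ g (f h)) * c g
    rw [rho_localUnitsRep, hmul, mul_comm]
    rfl
  obtain ⟨x, hx⟩ := exists_of_isZero_H1 _ hz f hf
  let x' : ↥(addSub (localUnits L q)) := x
  refine ⟨(toUnit x')⁻¹, inv_mem x'.2, fun n => ?_⟩
  have h1 : toUnit ((localUnitsRep N L q).ρ n x') / toUnit x' = c n :=
    congrArg (fun y : ↥(addSub (localUnits L q)) => toUnit y) (hx n)
  rw [rho_localUnitsRep] at h1
  rw [← h1, smul_inv', div_eq_mul_inv, mul_comm ((n : G) • _), mul_assoc, mul_inv_cancel,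
    mul_one]

/-! ## The `S`-idele class group -/

section ClassGroupS

variable {L : Type} [Field L] [CharZero L] (S : Finset Nat.Primes)

/-- The class in `C_S(L)` of a finite idele. -/
def mkCS (x : IdeleProd L) (hx : x ∈ finIdele L) : ClassGroupSOf L S :=
  Submodule.Quotient.mk (⟨Additive.ofMul x, hx⟩ : ↥(addSub (finIdele L)))

variable {S}

theorem exists_mkCS (c : ClassGroupSOf L S) : ∃ (x : IdeleProd L) (hx : x ∈ finIdele L),
    c = mkCS S x hx := by
  induction c using Submodule.Quotient.induction_on with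
  | _ x => exact ⟨(x : Additive (IdeleProd L)).toMul, x.2, rfl⟩

theorem mkCS_eq_mkCS_iff {x y : IdeleProd L} (hx : x ∈ finIdele L) (hy : y ∈ finIdele L) :
    mkCS S x hx = mkCS S y hy ↔ x / y ∈ (principal L).range ⊔ unitsOutside L S := by
  unfold mkCS
  rw [Submodule.Quotient.eq]
  rfl

theorem mkCS_eq_zero_iff {x : IdeleProd L} (hx : x ∈ finIdele L) :
    mkCS S x hx = 0 ↔ x ∈ (principal L).range ⊔ unitsOutside L S := by
  unfold mkCS
  rw [Submodule.Quotient.mk_eq_zero]
  rfl

theorem rho_mkCS (G : Type) [Group G] [MulSemiringAction G L] (g : G) (x : IdeleProd L)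
    (hx : x ∈ finIdele L) :
    (classRepS G L S).ρ g (mkCS S x hx) = mkCS S (g • x) (smul_mem_finIdele G L g hx) := rfl

variable {L' : Type} [Field L'] [CharZero L']

theorem classMapS_mkCS (f : L →+* L') (x : IdeleProd L) (hx : x ∈ finIdele L) :
    classMapS f S (mkCS S x hx) = mkCS S (ideleProdMap f x) (ideleProdMap_mem_finIdele f hx) :=
  rfl

/-- For `S ≠ ∅` a principal idele in `∏_{q ∉ S} U_q` is trivial. -/
theorem eq_one_of_principal_mem_unitsOutside (hS : S.Nonempty) {u : Lˣ}
    (hu : principal L u ∈ unitsOutside L S) : u = 1 := by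
  obtain ⟨q, hq⟩ := hS
  have h1 := hu.2 q hq
  have h2 : ((u : L) ⊗ₜ[ℚ] (1 : ℚ_[(q : ℕ)]) : SemiLocal L q) = (1 : L) ⊗ₜ[ℚ] (1 : ℚ_[(q : ℕ)]) :=
    congrArg Units.val h1
  exact Units.ext (tmul_one_injective (q : ℕ) h2)

/-- For `S ≠ ∅` the decomposition of an element of `Lˣ · ∏_{q ∉ S} U_q` is unique. -/
theorem eq_of_principal_mul_eq (hS : S.Nonempty) {u u' : Lˣ} {w w' : IdeleProd L}
    (hw : w ∈ unitsOutside L S) (hw' : w' ∈ unitsOutside L S)
    (h : principal L u * w = principal L u' * w') : u = u' ∧ w = w' := by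
  have h1 : principal L (u / u') = w' / w := by
    rw [map_div, div_eq_div_iff_mul_eq_mul, h, mul_comm]
  have h2 : u / u' = 1 :=
    eq_one_of_principal_mem_unitsOutside hS (by rw [h1]; exact div_mem hw' hw)
  have h3 : u = u' := div_eq_one.mp h2
  refine ⟨h3, ?_⟩
  rw [h3] at h
  exact mul_left_cancel h

/-- An idele of `L` whose image in `L'` lies in `∏_{q ∉ S} U_q(L')` lies in
`∏_{q ∉ S} U_q(L)`. -/
theorem mem_unitsOutside_of_map (f : L →+* L') {x : IdeleProd L}
    (hx : ideleProdMap f x ∈ unitsOutside L' S) : x ∈ unitsOutside L S := by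
  refine ⟨fun q => (map_mem_localUnits_iff (q : ℕ) f).mp (hx.1 q), fun q hq => ?_⟩
  have h1 := hx.2 q hq
  rw [ideleProdMap_apply] at h1
  apply Units.ext
  apply semiLocalMap_injective (q : ℕ) f
  rw [Units.val_one, map_one]
  exact congrArg Units.val h1

end ClassGroupS

/-! ## Galois descent -/

section Descent

variable {L L' : Type} [Field L] [CharZero L] [Field L'] [CharZero L']
variable {G G' : Type} [Group G] [Group G'] [MulSemiringAction G L]
  [MulSemiringAction G' L'] {f : L →+* L'} {π : G' →* G} {S : Finset Nat.Primes}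

/-- An idele of `L` which becomes an element of `L'ˣ · ∏_{q ∉ S} U_q(L')` is in
`Lˣ · ∏_{q ∉ S} U_q(L)` (`S ≠ ∅`). -/
theorem mem_sup_of_map [Finite G'] (h : IsTower f π) (hS : S.Nonempty) (x : IdeleProd L)
    (hx : ideleProdMap f x ∈ (principal L').range ⊔ unitsOutside L' S) :
    x ∈ (principal L).range ⊔ unitsOutside L S := by
  obtain ⟨_, ⟨u, rfl⟩, w, hw, huw⟩ := Subgroup.mem_sup.mp hx
  have hfix : ∀ n ∈ π.ker, n • u = u ∧ n • w = w := by
    intro n hn
    have h1 : n • (principal L' u * w) = principal L' u * w := by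
      rw [huw, ← ideleProdMap_smul h, MonoidHom.mem_ker.mp hn, one_smul]
    rw [smul_mul', smul_principal] at h1
    exact eq_of_principal_mul_eq hS (smul_mem_unitsOutside G' L' S n hw) hw h1
  obtain ⟨a, ha⟩ := h.fixed (u : L') (fun n hn => congrArg Units.val (hfix n hn).1)
  have ha0 : a ≠ 0 := by
    rintro rfl
    rw [map_zero] at ha
    exact u.ne_zero ha.symm
  obtain ⟨w₀, hw₀⟩ := exists_ideleProdMap_eq_of_fixed h w (fun n hn => (hfix n hn).2)
  have hw₀' : w₀ ∈ unitsOutside L S := mem_unitsOutside_of_map f (by rw [hw₀]; exact hw)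
  have hx' : x = principal L (Units.mk0 a ha0) * w₀ := by
    apply ideleProdMap_injective f
    rw [map_mul, ideleProdMap_principal, hw₀, ← huw]
    congr 2
    exact Units.ext ha.symm
  rw [hx']
  exact Subgroup.mul_mem_sup ⟨_, rfl⟩ hw₀'

/-- **Galois descent for `C_S`, injectivity** (`S ≠ ∅`). -/
theorem classMapS_injective [Finite G'] (h : IsTower f π) (hS : S.Nonempty) :
    Function.Injective (classMapS f S) := by
  rw [injective_iff_map_eq_zero]
  intro c hc
  obtain ⟨x, hx, rfl⟩ := exists_mkCS c
  rw [classMapS_mkCS, mkCS_eq_zero_iff] at hc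
  rw [mkCS_eq_zero_iff]
  exact mem_sup_of_map h hS x hc

/-- **Galois descent for `C_S`, equivariance**. -/
theorem classMapS_rho (h : IsTower f π) (g : G') (c : ClassGroupSOf L S) :
    classMapS f S ((classRepS G L S).ρ (π g) c) = (classRepS G' L' S).ρ g (classMapS f S c) := by
  obtain ⟨x, hx, rfl⟩ := exists_mkCS c
  rw [rho_mkCS, classMapS_mkCS, classMapS_mkCS, rho_mkCS]
  congr 1
  exact ideleProdMap_smul h g x

/-- **Galois descent for `C_S`, surjectivity onto the invariants** (`S ≠ ∅`), given
`H¹(ker π, U_q(L')) = 0` for `q ∉ S` in explicit form. -/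
theorem mem_range_classMapS_of_fixed [Finite G'] [FaithfulSMul G' L'] (h : IsTower f π)
    (hS : S.Nonempty) (hprin : (principal L').range ≤ finIdele L')
    (hU : ∀ q : Nat.Primes, q ∉ S → UnitsH1 π.ker L' q)
    (c : ClassGroupSOf L' S) (hc : ∀ n ∈ π.ker, (classRepS G' L' S).ρ n c = c) :
    c ∈ LinearMap.range (classMapS f S) := by
  obtain ⟨y, hy, rfl⟩ := exists_mkCS c
  -- the two cocycles
  have hcoc : ∀ n : π.ker, ∃ (u : L'ˣ) (w : IdeleProd L'), w ∈ unitsOutside L' S ∧
      principal L' u * w = ((n : G') • y) / y := by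
    intro n
    have h1 := hc n n.2
    rw [rho_mkCS] at h1
    obtain ⟨_, ⟨u, rfl⟩, w, hw, huw⟩ := Subgroup.mem_sup.mp ((mkCS_eq_mkCS_iff _ _).mp h1)
    exact ⟨u, w, hw, huw⟩
  choose u w hw huw using hcoc
  have hmul : ∀ n m : π.ker, u (n * m) = u n * (n : G') • u m ∧
      w (n * m) = w n * (n : G') • w m := by
    intro n m
    apply eq_of_principal_mul_eq hS (hw _)
      (mul_mem (hw n) (smul_mem_unitsOutside G' L' S _ (hw m)))
    rw [huw, map_mul, ← smul_principal, mul_mul_mul_comm, ← smul_mul', huw, huw,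
      Subgroup.coe_mul, mul_smul, smul_div', mul_comm, div_mul_div_cancel]
  -- Hilbert 90 for the principal part
  obtain ⟨a, ha0, ha⟩ := hilbert90 (N := π.ker) (K := L') (fun n => (u n : L'))
    (fun n => (u n).ne_zero) (fun n m => congrArg Units.val (hmul n m).1)
  -- the unit part, prime by prime
  have hb : ∀ q : Nat.Primes, ∃ b : (SemiLocal L' q)ˣ, b ∈ localUnits L' q ∧ (q ∈ S → b = 1) ∧
      ∀ n : π.ker, w n q * (n : G') • b = b := by
    intro q
    by_cases hq : q ∈ S
    · exact ⟨1, one_mem _, fun _ => rfl, fun n => by rw [(hw n).2 q hq, smul_one, mul_one]⟩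
    · obtain ⟨b, hb, hb'⟩ := hU q hq (fun n => w n q) (fun n => (hw n).1 q)
        (fun n m => congrFun (hmul n m).2 q)
      exact ⟨b, hb, fun h => absurd h hq, hb'⟩
  choose b hb1 hb2 hb3 using hb
  have hbU : b ∈ unitsOutside L' S := ⟨hb1, hb2⟩
  have hwb : ∀ n : π.ker, w n * (n : G') • b = b := fun n => funext fun q => hb3 q n
  -- the corrected idele
  have hfix : ∀ n ∈ π.ker, n • (y * principal L' (Units.mk0 a ha0) * b) =
      y * principal L' (Units.mk0 a ha0) * b := by
    intro n hn
    have h1 : n • y = y * (principal L' (u ⟨n, hn⟩) * w ⟨n, hn⟩) := by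
      rw [huw]
      show n • y = y * (n • y / y)
      rw [mul_div_cancel]
    have h2 : u ⟨n, hn⟩ * n • Units.mk0 a ha0 = Units.mk0 a ha0 := Units.ext (ha ⟨n, hn⟩)
    have h3 : w ⟨n, hn⟩ * n • b = b := hwb ⟨n, hn⟩
    rw [smul_mul', smul_mul', h1, smul_principal]
    calc y * (principal L' (u ⟨n, hn⟩) * w ⟨n, hn⟩) * principal L' (n • Units.mk0 a ha0) * n • b
        = y * principal L' (u ⟨n, hn⟩ * n • Units.mk0 a ha0) * (w ⟨n, hn⟩ * n • b) := by
          rw [map_mul]
          simp only [mul_assoc, mul_left_comm, mul_comm]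
      _ = y * principal L' (Units.mk0 a ha0) * b := by rw [h2, h3]
  obtain ⟨x, hx⟩ := exists_ideleProdMap_eq_of_fixed h _ hfix
  have hyfin : y * principal L' (Units.mk0 a ha0) * b ∈ finIdele L' :=
    mul_mem (mul_mem hy (hprin ⟨_, rfl⟩)) (unitsOutside_le_finIdele L' S hbU)
  have hxfin : x ∈ finIdele L := by
    rw [← ideleProdMap_mem_finIdele_iff f, hx]
    exact hyfin
  refine ⟨mkCS S x hxfin, ?_⟩
  rw [classMapS_mkCS, mkCS_eq_mkCS_iff]
  have hdiv : ideleProdMap f x / y = principal L' (Units.mk0 a ha0) * b := by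
    rw [hx, mul_assoc, mul_div_cancel_left]
  rw [hdiv]
  exact Subgroup.mul_mem_sup ⟨_, rfl⟩ hbU

end Descent

/-! ## The statement for number fields -/

/-- The degree-one part of `Plan.LocUnitsAcyclic`: at an unramified prime, `H¹(G, U_q(L)) = 0`. -/
def LocUnitsH1 : Prop :=
  ∀ (G L : Type) [Group G] [Fintype G] [Field L] [NumberField L] [MulSemiringAction G L]
    [FaithfulSMul G L] (q : ℕ) [Fact q.Prime], UnramAt L q →
    CategoryTheory.Limits.IsZero (groupCohomology (localUnitsRep G L q) 1)

/-- **Galois descent for the `S`-idele class group**, `S ≠ ∅`, `L'` unramified outside `S`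
(the body of `Plan.ClassDescentS`, verbatim), from the degree-one part of
`Plan.LocUnitsAcyclic`. -/
theorem classDescentS (hC3 : LocUnitsH1)
    (L L' G G' : Type) [Field L] [NumberField L] [Field L'] [NumberField L']
    [Group G] [Group G'] [Fintype G'] [MulSemiringAction G L] [MulSemiringAction G' L']
    [FaithfulSMul G' L'] (f : L →+* L') (π : G' →* G) (h : IsTower f π)
    (S : Finset Nat.Primes) (hS : S.Nonempty) (hur : UnramOutside S L') :
    Function.Injective (classMapS f S) ∧
    (∀ y : ClassGroupSOf L' S, (∀ n ∈ π.ker, (classRepS G' L' S).ρ n y = y) →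
      y ∈ LinearMap.range (classMapS f S)) ∧
    ∀ (g : G') (x : ClassGroupSOf L S),
      classMapS f S ((classRepS G L S).ρ (π g) x) = (classRepS G' L' S).ρ g (classMapS f S x) := by
  classical
  refine ⟨classMapS_injective h hS, fun y hy => ?_, fun g x => classMapS_rho h g x⟩
  refine mem_range_classMapS_of_fixed h hS QBridge.range_principal_le_finIdele
    (fun q hq => ?_) y hy
  let _ : Fintype π.ker := Fintype.ofFinite _
  exact unitsH1_of_isZero π.ker L' q (hC3 π.ker L' q (hur q hq))

end Fermat.Agent.CFT.Global.ClassDescentS
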