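/-
CFT program (P3), layer Global, package [EX], leaf [EX.h] (helper89): Galois descent for the
`S`-idele class group over the fixed field, `ExistPlan.SDescent`.

This is `ClassDescentS.classDescentS` (Global [G2]) for the tower with the trivial group
downstairs: `G := (⊥ : Subgroup (RingAut L))`, `π := 1`.

* `isTower_bot`     : a Galois pair `(G', L')` with fixed field `f(L)` is a tower over the trivial
                      group acting on `L`;
* `sDescent`        : `ClassDescentS.LocUnitsH1 → ExistPlan.SDescent`;
* `sDescent_of_plan`: `Plan.LocUnitsAcyclic → ExistPlan.SDescent`.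
-/
import Mathlib
import Fermat.Agent.CFT.Global.Defs
import Fermat.Agent.CFT.Global.Plan
import Fermat.Agent.CFT.Global.ExistPlan
import Fermat.Agent.CFT.Global.ClassDescentS

set_option autoImplicit false

open scoped Fermat.Agent.CFT.Global

noncomputable section

namespace Fermat.Agent.CFT.Global.ExistSDescent

open Fermat.Agent.CFT.Global

/-- A pair `(G', L')` whose fixed field is `f(L)` is a tower over the trivial group
`(⊥ : Subgroup (RingAut L))` acting on `L`, with `π = 1`. -/
theorem isTower_bot {L L' G' : Type} [Field L] [Field L'] [Group G'] [MulSemiringAction G' L']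
    (f : L →+* L') (hf : ∀ y : L', (∀ g : G', g • y = y) ↔ y ∈ f.range) :
    IsTower f (1 : G' →* ↥(⊥ : Subgroup (RingAut L))) where
  surj := by
    rintro ⟨g, hg⟩
    exact ⟨1, Subtype.ext (Subgroup.mem_bot.mp hg).symm⟩
  equivariant := by
    intro g x
    rw [MonoidHom.one_apply, one_smul]
    exact ((hf (f x)).mpr ⟨x, rfl⟩ g).symm
  fixed := by
    intro y hy
    exact (hf y).mp (fun g => hy g (MonoidHom.mem_ker.mpr rfl))

/-- **[EX.h]** Galois descent for `C_S` over the fixed field (`S ≠ ∅`, `L'` unramified outside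
`S`), from the degree-one part of `Plan.LocUnitsAcyclic`. -/
theorem sDescent (hC3 : ClassDescentS.LocUnitsH1) : ExistPlan.SDescent := by
  intro L L' G' _ _ _ _ _ _ _ _ f hf S hS hur
  have hT := isTower_bot (G' := G') f hf
  obtain ⟨hinj, hsurj, heq⟩ := ClassDescentS.classDescentS hC3 L L'
    ↥(⊥ : Subgroup (RingAut L)) G' f 1 hT S hS hur
  refine ⟨hinj, fun y => ⟨fun hy => hsurj y (fun n _ => hy n), ?_⟩⟩
  rintro ⟨x, rfl⟩ g
  rw [← heq g x, MonoidHom.one_apply, map_one]
  rfl

/-- **[EX.h]** from `Plan.LocUnitsAcyclic` ([C3]). -/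
theorem sDescent_of_plan (hC3 : Plan.LocUnitsAcyclic) : ExistPlan.SDescent :=
  sDescent (fun G L _ _ _ _ _ _ q _ hq => (hC3 G L q hq).1 1 le_rfl)

end Fermat.Agent.CFT.Global.ExistSDescent
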