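import Mathlib
import Fermat.Agent.CFT.Coh.HerbrandCyclic
import Fermat.Agent.CFT.Global.L7Defs

/-!
# First inequality (FI): the Galois modules

`G`-module structures (in the vocabulary of `Coh/HerbrandCyclic`: `ρ : G →* AddMonoid.End A`)
on the raw semilocal objects of `L7Defs`, for an extension `N/F` of number fields and
`G = N ≃ₐ[F] N`:

* generic: `addRho φ` (additive version of a multiplicative `G`-module `φ : G →* Monoid.End M`),
  `subAct φ H hH`, `quotAct φ H hH` (stable subgroup / quotient), `equivExact_sub_quot`;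
* `actA F N q : G →* Monoid.End (Aq N q)ˣ` (`A_q(N)ˣ`), `actJ F N : G →* Monoid.End (Jall N)`,
  `actN F N : G →* Monoid.End Nˣ`;
* `unitsRho F N q` (`A_q(N)ˣ`), `uqRho F N q` (`U_q(N)`), `divRho F N q` (`A_q(N)ˣ / U_q(N)`),
  `jRho F N S` (`J_S(N)`), `sUnitsRho F N S` (`N_S`);
* `baseChJ F N : Jall F →* Jall N`.
-/

set_option autoImplicit false

noncomputable section

namespace Fermat.Agent.CFT.Global.FI

open TensorProduct
open Fermat.Agent.CFT.Herbrand Fermat.Agent.CFT.Global.L7

/-! ### Multiplicative `G`-modules -/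

section MulMod

variable {G M : Type*} [Group G] [CommGroup M]

/-- The additive version of a multiplicative `G`-module. -/
def addRho (φ : G →* Monoid.End M) : G →* AddMonoid.End (Additive M) where
  toFun g := MonoidHom.toAdditive (φ g)
  map_one' := by
    rw [map_one]
    rfl
  map_mul' g h := by
    rw [map_mul]
    rfl

@[simp] theorem addRho_apply (φ : G →* Monoid.End M) (g : G) (x : M) :
    addRho φ g (Additive.ofMul x) = Additive.ofMul (φ g x) := rfl

theorem addRho_apply' (φ : G →* Monoid.End M) (g : G) (x : Additive M) :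
    addRho φ g x = Additive.ofMul (φ g (Additive.toMul x)) := rfl

/-- The restriction of a multiplicative `G`-module to a stable subgroup. -/
def subAct (φ : G →* Monoid.End M) (H : Subgroup M) (hH : ∀ g, ∀ x ∈ H, φ g x ∈ H) :
    G →* Monoid.End H where
  toFun g := ((φ g).comp H.subtype).codRestrict H (fun x => hH g x x.2)
  map_one' := by
    refine MonoidHom.ext fun x => Subtype.ext ?_
    show φ 1 (x : M) = (x : M)
    rw [map_one]
    rfl
  map_mul' g h := by
    refine MonoidHom.ext fun x => Subtype.ext ?_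
    show φ (g * h) (x : M) = φ g (φ h (x : M))
    rw [map_mul]
    rfl

@[simp] theorem coe_subAct (φ : G →* Monoid.End M) (H : Subgroup M)
    (hH : ∀ g, ∀ x ∈ H, φ g x ∈ H) (g : G) (x : H) :
    ((subAct φ H hH g x : H) : M) = φ g (x : M) := rfl

/-- The quotient of a multiplicative `G`-module by a stable subgroup. -/
def quotAct (φ : G →* Monoid.End M) (H : Subgroup M) (hH : ∀ g, ∀ x ∈ H, φ g x ∈ H) :
    G →* Monoid.End (M ⧸ H) where
  toFun g := QuotientGroup.map H H (φ g) (fun x hx => hH g x hx)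
  map_one' := by
    refine MonoidHom.ext fun x => ?_
    induction x using QuotientGroup.induction_on with
    | H x =>
      show ((φ 1 x : M) : M ⧸ H) = (x : M ⧸ H)
      rw [map_one]
      rfl
  map_mul' g h := by
    refine MonoidHom.ext fun x => ?_
    induction x using QuotientGroup.induction_on with
    | H x =>
      show ((φ (g * h) x : M) : M ⧸ H) = ((φ g (φ h x) : M) : M ⧸ H)
      rw [map_mul]
      rfl

@[simp] theorem quotAct_mk (φ : G →* Monoid.End M) (H : Subgroup M)
    (hH : ∀ g, ∀ x ∈ H, φ g x ∈ H) (g : G) (x : M) :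
    quotAct φ H hH g (QuotientGroup.mk x) = QuotientGroup.mk (φ g x) := rfl

/-- The equivariant exact sequence `0 → H → M → M ⧸ H → 0`. -/
theorem equivExact_sub_quot [Fintype G] (φ : G →* Monoid.End M) (H : Subgroup M)
    (hH : ∀ g, ∀ x ∈ H, φ g x ∈ H) :
    EquivExact (addRho (subAct φ H hH)) (addRho φ) (addRho (quotAct φ H hH))
      (MonoidHom.toAdditive H.subtype) (MonoidHom.toAdditive (QuotientGroup.mk' H)) where
  inj := fun x y h => Subtype.ext h
  surj := fun x => by
    obtain ⟨y, rfl⟩ := QuotientGroup.mk_surjective (Additive.toMul x)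
    exact ⟨Additive.ofMul y, rfl⟩
  exact := by
    ext x
    constructor
    · rintro ⟨y, rfl⟩
      show (QuotientGroup.mk' H) ((Additive.toMul y : H) : M) = 1
      exact (QuotientGroup.eq_one_iff _).2 (Additive.toMul y).2
    · intro hx
      have hx' : (QuotientGroup.mk' H) (Additive.toMul x) = 1 := hx
      have hx'' : Additive.toMul x ∈ H := (QuotientGroup.eq_one_iff _).1 hx'
      exact ⟨Additive.ofMul ⟨Additive.toMul x, hx''⟩, rfl⟩
  hi := fun _ _ => rfl
  hp := fun _ _ => rfl

end MulMod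

/-! ### The Galois action on the semilocal objects -/

section Relative

variable (F N : Type) [Field F] [NumberField F] [Field N] [NumberField N] [Algebra F N]

theorem galAct_one_apply (q : Nat.Primes) (x : Aq N q) : galAct F N q 1 x = x := by
  induction x using TensorProduct.induction_on with
  | zero => simp
  | tmul a c => rfl
  | add x y hx hy => rw [map_add, hx, hy]

theorem galAct_mul_apply (q : Nat.Primes) (g h : N ≃ₐ[F] N) (x : Aq N q) :
    galAct F N q (g * h) x = galAct F N q g (galAct F N q h x) := by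
  induction x using TensorProduct.induction_on with
  | zero => simp
  | tmul a c => rfl
  | add x y hx hy => rw [map_add, map_add, map_add, hx, hy]

/-- `G = Gal(N/F)` acting on `A_q(N)ˣ`. -/
def actA (q : Nat.Primes) : (N ≃ₐ[F] N) →* Monoid.End (Aq N q)ˣ where
  toFun g := Units.map ((galAct F N q g : Aq N q ≃+* Aq N q) : Aq N q →* Aq N q)
  map_one' := by
    ext x
    exact galAct_one_apply F N q _
  map_mul' g h := by
    ext x
    exact galAct_mul_apply F N q g h _

@[simp] theorem actA_val (q : Nat.Primes) (g : N ≃ₐ[F] N) (x : (Aq N q)ˣ) :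
    ((actA F N q g x : (Aq N q)ˣ) : Aq N q) = galAct F N q g (x : Aq N q) := rfl

theorem normq_eq_prod [FiniteDimensional F N] (q : Nat.Primes) (y : (Aq N q)ˣ) :
    normq F N q y = ∏ g : N ≃ₐ[F] N, actA F N q g y :=
  normq_apply F N q y

/-- `G` acting on the full product `∏_q A_q(N)ˣ`. -/
def actJ : (N ≃ₐ[F] N) →* Monoid.End (Jall N) where
  toFun g := Pi.monoidHom fun q => (actA F N q g).comp (Pi.evalMonoidHom _ q)
  map_one' := by
    refine MonoidHom.ext fun x => funext fun q => ?_
    show actA F N q 1 (x q) = x q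
    rw [map_one]
    rfl
  map_mul' g h := by
    refine MonoidHom.ext fun x => funext fun q => ?_
    show actA F N q (g * h) (x q) = actA F N q g (actA F N q h (x q))
    rw [map_mul]
    rfl

@[simp] theorem actJ_apply (g : N ≃ₐ[F] N) (x : Jall N) (q : Nat.Primes) :
    actJ F N g x q = actA F N q g (x q) := rfl

/-- `G` acting on `Nˣ`. -/
def actN : (N ≃ₐ[F] N) →* Monoid.End Nˣ where
  toFun g := Units.map ((g : N ≃+* N) : N →* N)
  map_one' := by
    ext x
    rfl
  map_mul' g h := by
    ext x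
    rfl

@[simp] theorem actN_val (g : N ≃ₐ[F] N) (x : Nˣ) : ((actN F N g x : Nˣ) : N) = g (x : N) := rfl

/-- `loc` is equivariant. -/
theorem loc_actN (q : Nat.Primes) (g : N ≃ₐ[F] N) (a : Nˣ) :
    loc N q (actN F N g a) = actA F N q g (loc N q a) := by
  ext
  rfl

/-- `galAct` commutes with the structure map from `ℤ_[q]`. -/
theorem galAct_qInt (q : Nat.Primes) (g : N ≃ₐ[F] N) (c : ℤ_[(q : ℕ)]) :
    galAct F N q g (QBridge.qInt (q : ℕ) N c) = QBridge.qInt (q : ℕ) N c := by
  rw [QBridge.qInt_apply]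
  show (g 1) ⊗ₜ[ℚ] (c : ℚ_[(q : ℕ)]) = _
  rw [map_one]

/-- `U_q(N)` is `G`-stable. -/
theorem actA_mem_Uq (q : Nat.Primes) (g : N ≃ₐ[F] N) (u : (Aq N q)ˣ) (hu : u ∈ Uq N q) :
    actA F N q g u ∈ Uq N q := by
  have key : ∀ x : Aq N q, (QBridge.qInt (q : ℕ) N).IsIntegralElem x →
      (QBridge.qInt (q : ℕ) N).IsIntegralElem (galAct F N q g x) := by
    rintro x ⟨P, hP, hPx⟩
    refine ⟨P, hP, ?_⟩
    have h1 : ((galAct F N q g : Aq N q ≃+* Aq N q) : Aq N q →+* Aq N q).comp
        (QBridge.qInt (q : ℕ) N) = QBridge.qInt (q : ℕ) N := by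
      ext c
      exact galAct_qInt F N q g c
    have h2 := Polynomial.hom_eval₂ P (QBridge.qInt (q : ℕ) N)
      ((galAct F N q g : Aq N q ≃+* Aq N q) : Aq N q →+* Aq N q) x
    rw [h1] at h2
    have h3 : (galAct F N q g) (Polynomial.eval₂ (QBridge.qInt (q : ℕ) N) x P) =
        Polynomial.eval₂ (QBridge.qInt (q : ℕ) N) (galAct F N q g x) P := h2
    rw [← h3, hPx, map_zero]
  rw [mem_Uq] at hu ⊢
  refine ⟨key _ hu.1, ?_⟩
  have : ((actA F N q g u)⁻¹ : (Aq N q)ˣ) = actA F N q g u⁻¹ := (map_inv _ _).symm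
  rw [this]
  exact key _ hu.2

/-- `J_S(N)` is `G`-stable. -/
theorem actJ_mem_Jsupp (S : Finset Nat.Primes) (g : N ≃ₐ[F] N) (x : Jall N)
    (hx : x ∈ Jsupp N S) : actJ F N g x ∈ Jsupp N S := by
  intro q hq
  rw [actJ_apply, hx q hq, map_one]

/-- The `S`-units of `N` are `G`-stable. -/
theorem actN_mem_sUnits (S : Finset Nat.Primes) (g : N ≃ₐ[F] N) (a : Nˣ)
    (ha : a ∈ sUnits N S) : actN F N g a ∈ sUnits N S := by
  intro q hq
  rw [loc_actN]
  exact actA_mem_Uq F N q g _ (ha q hq)

/-- `locS` is equivariant. -/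
theorem locS_actN (S : Finset Nat.Primes) (g : N ≃ₐ[F] N) (a : Nˣ) :
    locS N S (actN F N g a) = actJ F N g (locS N S a) := by
  classical
  funext q
  by_cases hq : q ∈ S
  · show trunc N S (diag N (actN F N g a)) q = actA F N q g (trunc N S (diag N a) q)
    rw [trunc_apply_of_mem N _ hq, trunc_apply_of_mem N _ hq, diag_apply, diag_apply, loc_actN]
  · show trunc N S (diag N (actN F N g a)) q = actA F N q g (trunc N S (diag N a) q)
    rw [trunc_apply_of_notMem N _ hq, trunc_apply_of_notMem N _ hq, map_one]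

/-- The `G`-module `A_q(N)ˣ`. -/
def unitsRho (q : Nat.Primes) : (N ≃ₐ[F] N) →* AddMonoid.End (Additive (Aq N q)ˣ) :=
  addRho (actA F N q)

/-- The `G`-module `U_q(N)`. -/
def uqRho (q : Nat.Primes) : (N ≃ₐ[F] N) →* AddMonoid.End (Additive (Uq N q)) :=
  addRho (subAct (actA F N q) (Uq N q) (actA_mem_Uq F N q))

/-- The `G`-module `A_q(N)ˣ / U_q(N)` (divisors above `q`). -/
def divRho (q : Nat.Primes) :=
  addRho (M := (Aq N q)ˣ ⧸ Uq N q) (quotAct (actA F N q) (Uq N q) (actA_mem_Uq F N q))

/-- The `G`-module `J_S(N)`. -/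
def jRho (S : Finset Nat.Primes) : (N ≃ₐ[F] N) →* AddMonoid.End (Additive (Jsupp N S)) :=
  addRho (subAct (actJ F N) (Jsupp N S) (actJ_mem_Jsupp F N S))

/-- The `G`-module `N_S` of `S`-units. -/
def sUnitsRho (S : Finset Nat.Primes) : (N ≃ₐ[F] N) →* AddMonoid.End (Additive (sUnits N S)) :=
  addRho (subAct (actN F N) (sUnits N S) (actN_mem_sUnits F N S))

/-- Base change `∏_q A_q(F)ˣ → ∏_q A_q(N)ˣ`. -/
def baseChJ : Jall F →* Jall N :=
  Pi.monoidHom fun q =>
    (Units.map (baseCh F N q : Aq F q →* Aq N q)).comp (Pi.evalMonoidHom _ q)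

@[simp] theorem baseChJ_apply (x : Jall F) (q : Nat.Primes) :
    baseChJ F N x q = Units.map (baseCh F N q : Aq F q →* Aq N q) (x q) := rfl

end Relative

end Fermat.Agent.CFT.Global.FI

end
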