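import Mathlib
import Fermat.Agent.CFT.Coh.Herbrand

/-!
# The Herbrand quotient of a "unit-like" lattice

`G` a finite cyclic group acting on a finite nonempty set `X` and on an abelian group `A`;
`lam : A → (X → ℝ)` an equivariant "logarithmic" map whose image lies in the sum-zero hyperplane,
with finite fibres over bounded sets, and such that for every `x` there is `a` with
`lam a y < 0` for all `y ≠ x`.  Then the Herbrand quotient of `A` is
`(∏ over orbits of |stabiliser|) / |G|`.
-/

set_option autoImplicit false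
set_option linter.unusedSectionVars false
set_option linter.unusedVariables false

noncomputable section

namespace Fermat.Agent.CFT.Global.SignLattice

open Fermat.Agent.CFT.Herbrand

/-! ## The operators `σ - 1` and the norm -/

section Operators

variable {G : Type*} [Group G] [Fintype G] {A : Type*} [AddCommGroup A] [DistribMulAction G A]

/-- `a ↦ g₀ • a - a`. -/
def D (g₀ : G) : A →+ A := DistribSMul.toAddMonoidHom A g₀ - AddMonoidHom.id A

variable (G A) in
/-- The norm `a ↦ ∑ g, g • a`. -/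
def Nm : A →+ A := ∑ g : G, DistribSMul.toAddMonoidHom A g

theorem D_apply (g₀ : G) (a : A) : D g₀ a = g₀ • a - a := rfl

theorem Nm_apply (a : A) : Nm G A a = ∑ g : G, g • a := by
  simp [Nm]

theorem smul_Nm (g : G) (a : A) : g • Nm G A a = Nm G A a := by
  rw [Nm_apply, Finset.smul_sum]
  refine Fintype.sum_equiv (Equiv.mulLeft g) _ _ (fun h => ?_)
  simp [mul_smul]

theorem Nm_smul (g : G) (a : A) : Nm G A (g • a) = Nm G A a := by
  rw [Nm_apply, Nm_apply]
  refine Fintype.sum_equiv (Equiv.mulRight g) _ _ (fun h => ?_)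
  simp [mul_smul]

theorem D_comp_Nm (g₀ : G) : (D g₀).comp (Nm G A) = 0 := by
  ext a
  simp [D_apply, smul_Nm]

theorem Nm_comp_D (g₀ : G) : (Nm G A).comp (D g₀) = 0 := by
  ext a
  simp [D_apply, Nm_smul]

/-- If `g₀` generates `G`, the kernel of `σ - 1` consists of the `G`-invariants. -/
theorem smul_eq_of_D_eq_zero {g₀ : G} (hg₀ : ∀ g : G, g ∈ Subgroup.zpowers g₀) {a : A}
    (h : D g₀ a = 0) (g : G) : g • a = a := by
  have h1 : g₀ ∈ MulAction.stabilizer G a := by
    rw [MulAction.mem_stabilizer_iff]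
    rw [D_apply, sub_eq_zero] at h
    exact h
  have h2 : Subgroup.zpowers g₀ ≤ MulAction.stabilizer G a := (Subgroup.zpowers_le).mpr h1
  exact MulAction.mem_stabilizer_iff.mp (h2 (hg₀ g))

end Operators

/-! ## The permutation module `ℤ[X]` -/

namespace PM

variable {G X : Type*} [Group G] [MulAction G X]

/-- The permutation action on `X → ℤ`: `(g • c) x = c (g⁻¹ • x)`. A local instance only. -/
def permAction : DistribMulAction G (X → ℤ) where
  smul g c := fun x => c (g⁻¹ • x)
  one_smul c := by funext x; show c ((1 : G)⁻¹ • x) = c x; simp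
  mul_smul g h c := by
    funext x; show c ((g * h)⁻¹ • x) = c (h⁻¹ • g⁻¹ • x); rw [mul_inv_rev, mul_smul]
  smul_zero g := rfl
  smul_add g c c' := rfl

attribute [local instance] permAction

theorem smul_apply (g : G) (c : X → ℤ) (x : X) : (g • c) x = c (g⁻¹ • x) := rfl

/-- The basis vector at `x`, scaled by `k`. -/
def single [DecidableEq X] (x : X) (k : ℤ) : X → ℤ := fun y => if y = x then k else 0

theorem single_apply [DecidableEq X] (x : X) (k : ℤ) (y : X) :
    single x k y = if y = x then k else 0 := rfl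

theorem smul_single [DecidableEq X] (g : G) (x : X) (k : ℤ) :
    g • single x k = single (g • x) k := by
  funext y
  rw [smul_apply, single_apply, single_apply]
  have : g⁻¹ • y = x ↔ y = g • x := inv_smul_eq_iff
  simp only [this]

theorem eq_sum_single [DecidableEq X] [Fintype X] (c : X → ℤ) :
    c = ∑ x, single x (c x) := by
  funext y
  rw [Finset.sum_apply]
  simp only [single_apply]
  rw [Finset.sum_ite_eq]
  simp

variable [Fintype G]

/-- Counting the elements of `G` sending `y` to `z`. -/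
theorem card_fiber_of_mem [DecidableEq X] (y z : X) (h : z ∈ MulAction.orbit G y) :
    ((Finset.univ : Finset G).filter (fun g => g⁻¹ • y = z)).card =
      Nat.card (MulAction.stabilizer G y) := by
  classical
  obtain ⟨g₁, hg₁⟩ := h
  have hg₁' : g₁ • y = z := hg₁
  rw [Nat.card_eq_fintype_card, ← Fintype.card_subtype]
  refine Fintype.card_congr
    { toFun := fun g => ⟨g.1 * g₁, ?_⟩
      invFun := fun s => ⟨s.1 * g₁⁻¹, ?_⟩
      left_inv := fun g => by simp
      right_inv := fun s => by simp }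
  · have hg : g.1⁻¹ • y = z := g.2
    rw [MulAction.mem_stabilizer_iff, mul_smul, hg₁']
    exact (smul_eq_iff_eq_inv_smul _).mpr hg.symm
  · have hs : s.1 • y = y := MulAction.mem_stabilizer_iff.mp s.2
    show (s.1 * g₁⁻¹)⁻¹ • y = z
    rw [mul_inv_rev, inv_inv, mul_smul, ← hg₁']
    congr 1
    rw [inv_smul_eq_iff, hs]

theorem card_fiber_of_not_mem [DecidableEq X] (y z : X) (h : z ∉ MulAction.orbit G y) :
    ((Finset.univ : Finset G).filter (fun g => g⁻¹ • y = z)).card = 0 := by
  rw [Finset.card_eq_zero, Finset.filter_eq_empty_iff]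
  intro g _ hg
  exact h ⟨g⁻¹, hg⟩

open Classical in
/-- The norm on the permutation module: `(N c) y = |Stab y| · ∑_{z ∈ G y} c z`. -/
theorem Nm_apply_eq [Fintype X] (c : X → ℤ) (y : X) :
    Nm G (X → ℤ) c y = (Nat.card (MulAction.stabilizer G y) : ℤ) *
      ∑ z ∈ (Finset.univ : Finset X).filter (fun z => z ∈ MulAction.orbit G y), c z := by
  rw [Nm_apply, Finset.sum_apply]
  simp only [smul_apply]
  have h1 : ∀ g : G, c (g⁻¹ • y) = ∑ z : X, if g⁻¹ • y = z then c z else 0 := by
    intro g
    rw [Finset.sum_ite_eq]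
    simp
  simp only [h1]
  rw [Finset.sum_comm]
  have h2 : ∀ z : X, (∑ g : G, if g⁻¹ • y = z then c z else 0) =
      if z ∈ MulAction.orbit G y then (Nat.card (MulAction.stabilizer G y) : ℤ) * c z else 0 := by
    intro z
    rw [← Finset.sum_filter, Finset.sum_const, nsmul_eq_mul]
    split_ifs with h
    · rw [card_fiber_of_mem y z h]
    · rw [card_fiber_of_not_mem y z h]; simp
  simp only [h2]
  rw [← Finset.sum_filter, Finset.mul_sum]

section HqPerm

variable [Fintype X]

/-- Invariant functions are constant on orbits. -/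
theorem apply_smul_of_D_eq_zero {g₀ : G} (hg₀ : ∀ g : G, g ∈ Subgroup.zpowers g₀) {c : X → ℤ}
    (hc : D g₀ c = 0) (g : G) (x : X) : c (g • x) = c x := by
  have h := smul_eq_of_D_eq_zero hg₀ hc g⁻¹
  have h2 := congrFun h x
  rw [smul_apply, inv_inv] at h2
  exact h2

theorem mk_eq_iff_mem_orbit (y z : X) :
    (Quotient.mk'' z : MulAction.orbitRel.Quotient G X) = Quotient.mk'' y ↔
      z ∈ MulAction.orbit G y := by
  rw [Quotient.eq'']
  exact MulAction.orbitRel_apply

variable (r : MulAction.orbitRel.Quotient G X → X)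
  (hr : ∀ o, (Quotient.mk'' (r o) : MulAction.orbitRel.Quotient G X) = o)

include hr in
theorem exists_smul_eq_r (y : X) : ∃ g : G, g • y = r (Quotient.mk'' y) := by
  have h := (mk_eq_iff_mem_orbit (G := G) y (r (Quotient.mk'' y))).mp (hr _)
  exact h

include hr in
theorem card_stabilizer_r (y : X) :
    Nat.card (MulAction.stabilizer G (r (Quotient.mk'' y))) =
      Nat.card (MulAction.stabilizer G y) := by
  obtain ⟨g, hg⟩ := exists_smul_eq_r r hr y
  rw [← hg, MulAction.stabilizer_smul_eq_stabilizer_map_conj]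
  exact Nat.card_congr
    ((MulAction.stabilizer G y).equivMapOfInjective _ (MulAut.conj g).injective).symm.toEquiv

include hr in
/-- The kernel of the norm is the image of `σ - 1` on a permutation module. -/
theorem ker_Nm_le_range_D {g₀ : G} (hg₀ : ∀ g : G, g ∈ Subgroup.zpowers g₀) :
    (Nm G (X → ℤ)).ker ≤ (D g₀ : (X → ℤ) →+ (X → ℤ)).range := by
  classical
  intro c hc
  rw [AddMonoidHom.mem_ker] at hc
  -- orbit sums vanish
  have hsum : ∀ y : X,
      ∑ z ∈ (Finset.univ : Finset X).filter (fun z => z ∈ MulAction.orbit G y), c z = 0 := by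
    intro y
    have h1 := Nm_apply_eq (G := G) c y
    rw [hc] at h1
    have h2 : (Nat.card (MulAction.stabilizer G y) : ℤ) ≠ 0 := by
      exact_mod_cast (Nat.card_pos (α := MulAction.stabilizer G y)).ne'
    have h3 : (0 : X → ℤ) y = 0 := rfl
    rw [h3] at h1
    rcases mul_eq_zero.mp h1.symm with h | h
    · exact absurd h h2
    · convert h
  -- moving a basis vector along the group changes it by an element of the image
  have hmove : ∀ (g : G) (z : X) (k : ℤ),
      single (g • z) k - single z k ∈ (D g₀ : (X → ℤ) →+ (X → ℤ)).range := by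
    let S : Subgroup G :=
      { carrier := {g | ∀ (z : X) (k : ℤ),
          single (g • z) k - single z k ∈ (D g₀ : (X → ℤ) →+ (X → ℤ)).range}
        mul_mem' := by
          intro g h hg hh z k
          have h1 := hg (h • z) k
          have h2 := hh z k
          have : single ((g * h) • z) k - single z k =
              (single (g • h • z) k - single (h • z) k) + (single (h • z) k - single z k) := by
            rw [mul_smul]; abel
          rw [this]
          exact add_mem h1 h2
        one_mem' := by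
          intro z k
          rw [one_smul, sub_self]
          exact zero_mem _
        inv_mem' := by
          intro g hg z k
          have h1 := hg (g⁻¹ • z) k
          rw [smul_inv_smul] at h1
          have : single (g⁻¹ • z) k - single z k = -(single z k - single (g⁻¹ • z) k) := by abel
          rw [this]
          exact neg_mem h1 }
    have hg₀S : g₀ ∈ S := by
      intro z k
      refine ⟨single z k, ?_⟩
      rw [D_apply, smul_single]
    intro g
    exact (Subgroup.zpowers_le.mpr hg₀S) (hg₀ g)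
  -- decompose
  have hdec : c = ∑ z, (single z (c z) - single (r (Quotient.mk'' z)) (c z)) +
      ∑ z, single (r (Quotient.mk'' z)) (c z) := by
    rw [← Finset.sum_add_distrib]
    conv_lhs => rw [eq_sum_single c]
    refine Finset.sum_congr rfl (fun z _ => ?_)
    abel
  have hzero : ∑ z, single (r (Quotient.mk'' z)) (c z) = (0 : X → ℤ) := by
    funext y
    rw [Finset.sum_apply]
    simp only [single_apply]
    show (∑ z, if y = r (Quotient.mk'' z) then c z else 0) = 0
    by_cases hy : y = r (Quotient.mk'' y)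
    · have h1 : ∀ z : X, (if y = r (Quotient.mk'' z) then c z else 0) =
          if z ∈ MulAction.orbit G y then c z else 0 := by
        intro z
        by_cases hz : z ∈ MulAction.orbit G y
        · have : (Quotient.mk'' z : MulAction.orbitRel.Quotient G X) = Quotient.mk'' y :=
            (mk_eq_iff_mem_orbit y z).mpr hz
          rw [if_pos hz, this, if_pos hy]
        · rw [if_neg hz, if_neg]
          intro h
          apply hz
          rw [← mk_eq_iff_mem_orbit, ← hr (Quotient.mk'' z), ← h]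
      simp only [h1]
      rw [← Finset.sum_filter]
      exact hsum y
    · refine Finset.sum_eq_zero (fun z _ => ?_)
      rw [if_neg]
      intro h
      apply hy
      have : (Quotient.mk'' y : MulAction.orbitRel.Quotient G X) = Quotient.mk'' z := by
        rw [h, hr]
      rw [this]
      exact h
  rw [hdec, hzero, add_zero]
  refine sum_mem (fun z _ => ?_)
  obtain ⟨g, hg⟩ := exists_smul_eq_r r hr z
  have := hmove g z (c z)
  rw [hg] at this
  have h2 : single z (c z) - single (r (Quotient.mk'' z)) (c z) =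
      -(single (r (Quotient.mk'' z)) (c z) - single z (c z)) := by abel
  rw [h2]
  exact neg_mem this

include hr in
/-- `[ker (σ - 1) : im N] = ∏ |Stab|` on a permutation module. -/
theorem idx_D_Nm [Fintype (MulAction.orbitRel.Quotient G X)] {g₀ : G}
    (hg₀ : ∀ g : G, g ∈ Subgroup.zpowers g₀) :
    idx (D g₀ : (X → ℤ) →+ (X → ℤ)) (Nm G (X → ℤ)) =
      ∏ o : MulAction.orbitRel.Quotient G X, Nat.card (MulAction.stabilizer G (r o)) := by
  classical
  set s : MulAction.orbitRel.Quotient G X → ℕ :=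
    fun o => Nat.card (MulAction.stabilizer G (r o)) with hs
  let ψ : ↥(D g₀ : (X → ℤ) →+ (X → ℤ)).ker →+
      ((o : MulAction.orbitRel.Quotient G X) → ZMod (s o)) :=
    AddMonoidHom.mk' (fun c o => ((c.1 (r o) : ℤ) : ZMod (s o)))
      (by intro a b; funext o; simp)
  have hψ : ∀ c o, ψ c o = ((c.1 (r o) : ℤ) : ZMod (s o)) := fun c o => rfl
  have hsurj : Function.Surjective ψ := by
    intro z
    choose k hk using fun o => ZMod.intCast_surjective (z o)
    have hc : (fun x : X => k (Quotient.mk'' x)) ∈ (D g₀ : (X → ℤ) →+ (X → ℤ)).ker := by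
      rw [AddMonoidHom.mem_ker, D_apply]
      funext x
      show k (Quotient.mk'' (g₀⁻¹ • x)) - k (Quotient.mk'' x) = 0
      have : (Quotient.mk'' (g₀⁻¹ • x) : MulAction.orbitRel.Quotient G X) = Quotient.mk'' x :=
        (mk_eq_iff_mem_orbit x (g₀⁻¹ • x)).mpr ⟨g₀⁻¹, rfl⟩
      rw [this, sub_self]
    refine ⟨⟨_, hc⟩, ?_⟩
    funext o
    rw [hψ]
    show ((k (Quotient.mk'' (r o)) : ℤ) : ZMod (s o)) = z o
    rw [hr, hk]
  have hker : ψ.ker = (Nm G (X → ℤ)).range.addSubgroupOf (D g₀ : (X → ℤ) →+ (X → ℤ)).ker := by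
    ext ⟨c, hc⟩
    rw [AddMonoidHom.mem_ker, AddSubgroup.mem_addSubgroupOf]
    have hc0 : D g₀ c = 0 := AddMonoidHom.mem_ker.mp hc
    constructor
    · intro h
      have hdvd : ∀ o, ((s o : ℕ) : ℤ) ∣ c (r o) := by
        intro o
        have := congrFun h o
        rw [hψ] at this
        exact (ZMod.intCast_zmod_eq_zero_iff_dvd _ _).mp this
      choose k hk using hdvd
      refine ⟨fun z => if z = r (Quotient.mk'' z) then k (Quotient.mk'' z) else 0, ?_⟩
      funext y
      rw [Nm_apply_eq]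
      have hry : r (Quotient.mk'' y) ∈ MulAction.orbit G y := exists_smul_eq_r r hr y
      rw [Finset.sum_eq_single (r (Quotient.mk'' y))]
      · rw [hr, if_pos rfl, ← card_stabilizer_r r hr y]
        obtain ⟨g, hg⟩ := exists_smul_eq_r r hr y
        have h1 := apply_smul_of_D_eq_zero hg₀ hc0 g y
        rw [hg] at h1
        show _ = c y
        rw [← h1, hk]
      · intro z hz hne
        rw [Finset.mem_filter] at hz
        have : (Quotient.mk'' z : MulAction.orbitRel.Quotient G X) = Quotient.mk'' y :=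
          (mk_eq_iff_mem_orbit y z).mpr hz.2
        rw [this, if_neg hne]
      · intro h
        exact absurd (Finset.mem_filter.mpr ⟨Finset.mem_univ _, hry⟩) h
    · rintro ⟨c', rfl⟩
      funext o
      rw [hψ]
      show (((Nm G (X → ℤ)) c' (r o) : ℤ) : ZMod (s o)) = 0
      rw [Nm_apply_eq, ZMod.intCast_zmod_eq_zero_iff_dvd]
      exact Dvd.intro _ rfl
  rw [idx, AddSubgroup.relIndex, ← hker, AddSubgroup.index_ker,
    AddMonoidHom.range_eq_top.mpr hsurj, AddSubgroup.card_top, Nat.card_pi]
  refine Finset.prod_congr rfl (fun o _ => ?_)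
  rw [Nat.card_zmod]

include hr in
/-- The Herbrand quotient of a permutation module over a cyclic group. -/
theorem hq_perm [Fintype (MulAction.orbitRel.Quotient G X)] {g₀ : G}
    (hg₀ : ∀ g : G, g ∈ Subgroup.zpowers g₀) :
    IsFin (D g₀ : (X → ℤ) →+ (X → ℤ)) (Nm G (X → ℤ)) ∧
    hq (D g₀ : (X → ℤ) →+ (X → ℤ)) (Nm G (X → ℤ)) =
      ∏ o : MulAction.orbitRel.Quotient G X,
        (Nat.card (MulAction.stabilizer G (r o)) : ℚ) := by
  have h1 := idx_D_Nm r hr hg₀
  have h2 : idx (Nm G (X → ℤ)) (D g₀ : (X → ℤ) →+ (X → ℤ)) = 1 :=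
    AddSubgroup.relIndex_eq_one.mpr (ker_Nm_le_range_D r hr hg₀)
  have hpos : ∀ o : MulAction.orbitRel.Quotient G X,
      Nat.card (MulAction.stabilizer G (r o)) ≠ 0 := fun o => Nat.card_pos.ne'
  refine ⟨⟨?_, ?_⟩, ?_⟩
  · rw [h1]
    exact Finset.prod_ne_zero_iff.mpr (fun o _ => hpos o)
  · rw [h2]; exact one_ne_zero
  · rw [hq, h1, h2]
    push_cast
    rw [div_one]

end HqPerm

end PM

/-! ## Real matrices with negative off-diagonal entries and zero row sums -/

section RealMatrix

variable {X : Type*} [Fintype X]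

theorem pos_or_nonpos (M : X → X → ℝ) (hneg : ∀ x y, x ≠ y → M x y < 0)
    (hrow : ∀ x, ∑ y, M x y = 0) (t : X → ℝ) (ht : ∀ y, ∑ x, t x * M x y = 0) :
    (∀ x, 0 < t x) ∨ (∀ x, t x ≤ 0) := by
  classical
  by_contra hcon
  push_neg at hcon
  obtain ⟨⟨z₁, hz₁⟩, ⟨y₁, hy₁⟩⟩ := hcon
  set P : Finset X := Finset.univ.filter (fun y => 0 < t y) with hP
  have hPmem : ∀ y, y ∈ P ↔ 0 < t y := fun y => by simp [hP]
  have key : ∑ x, t x * ∑ y ∈ P, M x y = 0 := by
    calc ∑ x, t x * ∑ y ∈ P, M x y = ∑ x, ∑ y ∈ P, t x * M x y := by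
          refine Finset.sum_congr rfl (fun x _ => ?_); rw [Finset.mul_sum]
      _ = ∑ y ∈ P, ∑ x, t x * M x y := Finset.sum_comm
      _ = 0 := Finset.sum_eq_zero (fun y _ => ht y)
  have hsplit : ∀ x, ∑ y ∈ P, M x y = -∑ y ∈ Pᶜ, M x y := by
    intro x
    have := Finset.sum_add_sum_compl P (M x)
    rw [hrow x] at this
    linarith
  have hcompl : ∀ x, 0 < t x → ∀ y ∈ Pᶜ, M x y < 0 := by
    intro x hx y hy
    refine hneg x y ?_
    rintro rfl
    rw [Finset.mem_compl, hPmem] at hy
    exact hy hx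
  have hnonneg : ∀ x ∈ (Finset.univ : Finset X), 0 ≤ t x * ∑ y ∈ P, M x y := by
    intro x _
    by_cases hx : 0 < t x
    · rw [hsplit x]
      refine mul_nonneg hx.le ?_
      rw [neg_nonneg]
      exact Finset.sum_nonpos (fun y hy => (hcompl x hx y hy).le)
    · have hx' : t x ≤ 0 := not_lt.mp hx
      refine mul_nonneg_of_nonpos_of_nonpos hx' ?_
      refine Finset.sum_nonpos (fun y hy => ?_)
      refine (hneg x y ?_).le
      rintro rfl
      exact hx ((hPmem _).mp hy)
  have hpos : 0 < ∑ x, t x * ∑ y ∈ P, M x y := by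
    refine Finset.sum_pos' hnonneg ⟨y₁, Finset.mem_univ _, ?_⟩
    rw [hsplit y₁]
    refine mul_pos hy₁ ?_
    rw [neg_pos]
    refine Finset.sum_neg (fun y hy => hcompl y₁ hy₁ y hy) ⟨z₁, ?_⟩
    rw [Finset.mem_compl, hPmem]
    exact not_lt.mpr hz₁
  rw [key] at hpos
  exact lt_irrefl _ hpos

/-- A vector in the left kernel is zero, or positive, or negative. -/
theorem sign_trichotomy (M : X → X → ℝ) (hneg : ∀ x y, x ≠ y → M x y < 0)
    (hrow : ∀ x, ∑ y, M x y = 0) (t : X → ℝ) (ht : ∀ y, ∑ x, t x * M x y = 0) :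
    t = 0 ∨ (∀ x, 0 < t x) ∨ (∀ x, t x < 0) := by
  rcases pos_or_nonpos M hneg hrow t ht with h | h
  · exact Or.inr (Or.inl h)
  · have ht' : ∀ y, ∑ x, (-t) x * M x y = 0 := by
      intro y
      have := ht y
      simp only [Pi.neg_apply, neg_mul, Finset.sum_neg_distrib, this, neg_zero]
    rcases pos_or_nonpos M hneg hrow (-t) ht' with h' | h'
    · right; right
      intro x
      have := h' x
      simpa using this
    · left
      funext x
      have h1 := h x
      have h2 := h' x
      simp only [Pi.neg_apply, Left.neg_nonpos_iff] at h2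
      exact le_antisymm h1 h2

/-- Two vectors of the left kernel are proportional. -/
theorem ker_line (M : X → X → ℝ) (hneg : ∀ x y, x ≠ y → M x y < 0)
    (hrow : ∀ x, ∑ y, M x y = 0) (t t' : X → ℝ) (ht : ∀ y, ∑ x, t x * M x y = 0)
    (ht' : ∀ y, ∑ x, t' x * M x y = 0) (x₁ : X) (hne : t' x₁ ≠ 0) :
    t = (t x₁ / t' x₁) • t' := by
  set τ := t x₁ / t' x₁ with hτ
  have hk : ∀ y, ∑ x, (t - τ • t') x * M x y = 0 := by
    intro y
    have h1 := ht y
    have h2 := ht' y
    have : ∑ x, (t - τ • t') x * M x y = ∑ x, t x * M x y - τ * ∑ x, t' x * M x y := by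
      rw [Finset.mul_sum, ← Finset.sum_sub_distrib]
      refine Finset.sum_congr rfl (fun x _ => ?_)
      simp only [Pi.sub_apply, Pi.smul_apply, smul_eq_mul]
      ring
    rw [this, h1, h2]; ring
  have h0 : (t - τ • t') x₁ = 0 := by
    simp only [Pi.sub_apply, Pi.smul_apply, smul_eq_mul, hτ]
    field_simp
    ring
  rcases sign_trichotomy M hneg hrow _ hk with h | h | h
  · exact sub_eq_zero.mp h
  · exact absurd h0 (h x₁).ne'
  · exact absurd h0 (h x₁).ne

/-- The left kernel is nonzero. -/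
theorem exists_ker [Nonempty X] (M : X → X → ℝ) (hrow : ∀ x, ∑ y, M x y = 0) :
    ∃ t : X → ℝ, t ≠ 0 ∧ ∀ y, ∑ x, t x * M x y = 0 := by
  classical
  have hdet : (Matrix.of M).det = 0 := by
    rw [← Matrix.exists_mulVec_eq_zero_iff]
    refine ⟨fun _ => 1, ?_, ?_⟩
    · intro h
      have := congrFun h (Classical.arbitrary X)
      simp at this
    · funext x
      simp [Matrix.mulVec, dotProduct, hrow x]
  obtain ⟨v, hv, hv0⟩ := (Matrix.exists_vecMul_eq_zero_iff (M := Matrix.of M)).mpr hdet
  refine ⟨v, hv, fun y => ?_⟩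
  have := congrFun hv0 y
  simpa [Matrix.vecMul, dotProduct] using this

/-- Every sum-zero vector is a combination of the rows. -/
theorem exists_row_comb [Nonempty X] (M : X → X → ℝ) (hneg : ∀ x y, x ≠ y → M x y < 0)
    (hrow : ∀ x, ∑ y, M x y = 0) (h : X → ℝ) (hh : ∑ y, h y = 0) :
    ∃ t : X → ℝ, ∀ y, ∑ x, t x * M x y = h y := by
  classical
  let Φ : (X → ℝ) →ₗ[ℝ] (X → ℝ) :=
    { toFun := fun t y => ∑ x, t x * M x y
      map_add' := by
        intro t t'; funext y
        simp only [Pi.add_apply, add_mul, Finset.sum_add_distrib]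
      map_smul' := by
        intro c t; funext y
        simp only [Pi.smul_apply, smul_eq_mul, RingHom.id_apply, Finset.mul_sum, mul_assoc] }
  let S : (X → ℝ) →ₗ[ℝ] ℝ :=
    { toFun := fun h => ∑ y, h y
      map_add' := by intro a b; simp only [Pi.add_apply, Finset.sum_add_distrib]
      map_smul' := by
        intro c a
        simp only [Pi.smul_apply, smul_eq_mul, RingHom.id_apply, Finset.mul_sum] }
  have hΦ : ∀ t y, Φ t y = ∑ x, t x * M x y := fun t y => rfl
  have hS : ∀ a, S a = ∑ y, a y := fun a => rfl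
  have hle : LinearMap.range Φ ≤ LinearMap.ker S := by
    rintro _ ⟨t, rfl⟩
    rw [LinearMap.mem_ker, hS]
    simp only [hΦ]
    rw [Finset.sum_comm]
    refine Finset.sum_eq_zero (fun x _ => ?_)
    rw [← Finset.mul_sum, hrow x, mul_zero]
  obtain ⟨v, hv, hv0⟩ := exists_ker M hrow
  have hvpos : ∀ x, v x ≠ 0 := by
    intro x
    rcases sign_trichotomy M hneg hrow v hv0 with h | h | h
    · exact absurd h hv
    · exact (h x).ne'
    · exact (h x).ne
  have hker1 : Module.finrank ℝ (LinearMap.ker Φ) = 1 := by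
    rw [finrank_eq_one_iff']
    refine ⟨⟨v, ?_⟩, ?_, ?_⟩
    · rw [LinearMap.mem_ker]; funext y; exact hv0 y
    · intro h
      exact hv (congrArg Subtype.val h)
    · rintro ⟨w, hw⟩
      rw [LinearMap.mem_ker] at hw
      have hw0 : ∀ y, ∑ x, w x * M x y = 0 := fun y => congrFun hw y
      let x₁ := Classical.arbitrary X
      refine ⟨w x₁ / v x₁, ?_⟩
      apply Subtype.ext
      exact (ker_line M hneg hrow w v hw0 hv0 x₁ (hvpos x₁)).symm
  have hSsurj : LinearMap.range S = ⊤ := by
    rw [LinearMap.range_eq_top]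
    intro c
    refine ⟨fun x => if x = Classical.arbitrary X then c else 0, ?_⟩
    rw [hS]
    simp
  have h1 := LinearMap.finrank_range_add_finrank_ker Φ
  have h2 := LinearMap.finrank_range_add_finrank_ker S
  rw [hSsurj, finrank_top, Module.finrank_self] at h2
  rw [hker1] at h1
  have hfin : Module.finrank ℝ (LinearMap.range Φ) = Module.finrank ℝ (LinearMap.ker S) := by
    omega
  have heq := Submodule.eq_of_le_of_finrank_eq hle hfin
  have hmem : h ∈ LinearMap.ker S := by rw [LinearMap.mem_ker, hS]; exact hh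
  rw [← heq] at hmem
  obtain ⟨t, ht⟩ := hmem
  exact ⟨t, fun y => by rw [← ht, hΦ]⟩

end RealMatrix

/-! ## The main theorem -/

section Main

attribute [local instance] PM.permAction

/-- The Herbrand quotient of `ℤ` with trivial operators `0` and multiplication by `n`. -/
theorem hq_int (n : ℕ) (hn : n ≠ 0) :
    IsFin (0 : ℤ →+ ℤ) ((n : ℤ) • AddMonoidHom.id ℤ) ∧
      hq (0 : ℤ →+ ℤ) ((n : ℤ) • AddMonoidHom.id ℤ) = n := by
  have hrange : ((n : ℤ) • AddMonoidHom.id ℤ).range = AddSubgroup.zmultiples (n : ℤ) := by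
    ext x
    rw [AddMonoidHom.mem_range, AddSubgroup.mem_zmultiples_iff]
    constructor
    · rintro ⟨y, rfl⟩
      exact ⟨y, by simp [mul_comm]⟩
    · rintro ⟨k, rfl⟩
      exact ⟨k, by simp [mul_comm]⟩
  have hker : ((n : ℤ) • AddMonoidHom.id ℤ).ker = ⊥ := by
    ext x
    rw [AddMonoidHom.mem_ker, AddSubgroup.mem_bot]
    constructor
    · intro h
      have h' : (n : ℤ) * x = 0 := by simpa using h
      rcases mul_eq_zero.mp h' with h1 | h1
      · exact absurd (by exact_mod_cast h1) hn
      · exact h1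
    · rintro rfl; simp
  have h1 : idx (0 : ℤ →+ ℤ) ((n : ℤ) • AddMonoidHom.id ℤ) = n := by
    rw [idx, hrange]
    have : (0 : ℤ →+ ℤ).ker = ⊤ := by
      ext x; simp
    rw [this, AddSubgroup.relIndex_top_right, Int.index_zmultiples]
    simp
  have h2 : idx ((n : ℤ) • AddMonoidHom.id ℤ) (0 : ℤ →+ ℤ) = 1 := by
    rw [idx, hker]
    exact AddSubgroup.relIndex_eq_one.mpr bot_le
  refine ⟨⟨?_, ?_⟩, ?_⟩
  · rw [h1]; exact hn
  · rw [h2]; exact one_ne_zero
  · rw [hq, h1, h2]; simp

variable {G X A : Type*} [Group G] [Fintype G] [Fintype X] [Nonempty X] [MulAction G X]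
  [AddCommGroup A] [DistribMulAction G A]

/-- **The Herbrand quotient of a unit-like lattice.** -/
theorem hq_of_signLattice [Fintype (MulAction.orbitRel.Quotient G X)]
    (g₀ : G) (hg₀ : ∀ g : G, g ∈ Subgroup.zpowers g₀)
    (r : MulAction.orbitRel.Quotient G X → X)
    (hr : ∀ o, (Quotient.mk'' (r o) : MulAction.orbitRel.Quotient G X) = o)
    (lam : A →+ (X → ℝ))
    (hequiv : ∀ (g : G) (a : A) (x : X), lam (g • a) x = lam a (g⁻¹ • x))
    (hsum : ∀ a, ∑ x, lam a x = 0)
    (hfin : ∀ R : ℝ, {a : A | ∀ x, |lam a x| ≤ R}.Finite)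
    (hsign : ∀ x, ∃ a, ∀ y, y ≠ x → lam a y < 0) :
    IsFin (D g₀ : A →+ A) (Nm G A) ∧
      hq (D g₀ : A →+ A) (Nm G A) =
        (∏ o : MulAction.orbitRel.Quotient G X,
          (Nat.card (MulAction.stabilizer G (r o)) : ℚ)) / (Nat.card G : ℚ) := by
  classical
  -- Step 1: an equivariant family of sign-pattern elements
  choose u hu using hsign
  set a : X → A := fun x => ∑ g : G, g • u (g⁻¹ • x) with ha
  have ha_equiv : ∀ (k : G) (x : X), a (k • x) = k • a x := by
    intro k x
    simp only [ha]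
    rw [Finset.smul_sum]
    refine (Fintype.sum_equiv (Equiv.mulLeft k) _ _ (fun g => ?_)).symm
    simp only [Equiv.coe_mulLeft, mul_inv_rev, mul_smul, inv_smul_smul]
  have ha_sign : ∀ x y, y ≠ x → lam (a x) y < 0 := by
    intro x y hxy
    simp only [ha]
    rw [map_sum, Finset.sum_apply]
    refine Finset.sum_neg (fun g _ => ?_) Finset.univ_nonempty
    rw [hequiv]
    refine hu _ _ ?_
    intro h
    exact hxy (by simpa using h)
  set M : X → X → ℝ := fun x y => lam (a x) y with hM
  have hneg : ∀ x y, x ≠ y → M x y < 0 := fun x y h => ha_sign x y (Ne.symm h)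
  have hrow : ∀ x, ∑ y, M x y = 0 := fun x => hsum (a x)
  -- Step 2: the equivariant map from the permutation module
  let f : (X → ℤ) →+ A :=
    { toFun := fun c => ∑ x, c x • a x
      map_zero' := by simp
      map_add' := by intro c c'; simp [add_smul, Finset.sum_add_distrib] }
  have hf : ∀ c : X → ℤ, f c = ∑ x, c x • a x := fun c => rfl
  have hf_lam : ∀ (c : X → ℤ) (y : X), lam (f c) y = ∑ x, (c x : ℝ) * M x y := by
    intro c y
    rw [hf, map_sum, Finset.sum_apply]
    refine Finset.sum_congr rfl (fun x _ => ?_)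
    rw [map_zsmul, Pi.smul_apply, zsmul_eq_mul]
  have hf_equiv : ∀ (g : G) (c : X → ℤ), f (g • c) = g • f c := by
    intro g c
    rw [hf, hf, Finset.smul_sum]
    refine (Fintype.sum_equiv (MulAction.toPerm g) _ _ (fun x => ?_)).symm
    rw [MulAction.toPerm_apply, PM.smul_apply, inv_smul_smul, ha_equiv]
    exact (map_zsmul (DistribSMul.toAddMonoidHom A g) (c x) (a x))
  have hf_D : ∀ c : X → ℤ, f (D g₀ c) = D g₀ (f c) := by
    intro c
    rw [D_apply, D_apply, map_sub, hf_equiv]
  have hf_N : ∀ c : X → ℤ, f (Nm G (X → ℤ) c) = Nm G A (f c) := by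
    intro c
    rw [Nm_apply, Nm_apply, map_sum]
    exact Finset.sum_congr rfl (fun g _ => hf_equiv g c)
  -- the bound
  set R : ℝ := ∑ x, ∑ y, |M x y| with hR
  have hRy : ∀ y, ∑ x, |M x y| ≤ R := by
    intro y
    rw [hR]
    refine Finset.sum_le_sum (fun x _ => ?_)
    exact Finset.single_le_sum (f := fun y => |M x y|) (fun _ _ => abs_nonneg _)
      (Finset.mem_univ y)
  have hfloor : ∀ (t : X → ℝ) (y : X),
      |∑ x, ((⌊t x⌋ : ℤ) : ℝ) * M x y - ∑ x, t x * M x y| ≤ R := by
    intro t y
    rw [← Finset.sum_sub_distrib]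
    refine le_trans (Finset.abs_sum_le_sum_abs _ _) (le_trans ?_ (hRy y))
    refine Finset.sum_le_sum (fun x _ => ?_)
    rw [← sub_mul, abs_mul]
    have h1 : |((⌊t x⌋ : ℤ) : ℝ) - t x| ≤ 1 := by
      rw [abs_le]
      constructor
      · linarith [Int.lt_floor_add_one (t x)]
      · linarith [Int.floor_le (t x)]
    calc |((⌊t x⌋ : ℤ) : ℝ) - t x| * |M x y| ≤ 1 * |M x y| :=
          mul_le_mul_of_nonneg_right h1 (abs_nonneg _)
      _ = |M x y| := one_mul _
  have hFfin : Finite {b : A // ∀ x, |lam b x| ≤ R} := (hfin R).to_subtype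
  -- Step 3: the kernel of `f` is nonzero
  let x₁ : X := Classical.arbitrary X
  obtain ⟨t0, ht0ne, ht0⟩ := exists_ker M hrow
  have ht0x : t0 x₁ ≠ 0 := by
    rcases sign_trichotomy M hneg hrow t0 ht0 with h | h | h
    · exact absurd h ht0ne
    · exact (h x₁).ne'
    · exact (h x₁).ne
  set t : X → ℝ := fun x => t0 x / t0 x₁ with ht
  have htx : t x₁ = 1 := by simp only [ht]; exact div_self ht0x
  have htker : ∀ y, ∑ x, t x * M x y = 0 := by
    intro y
    have := ht0 y
    simp only [ht, div_mul_eq_mul_div]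
    rw [← Finset.sum_div, this, zero_div]
  let cm : ℕ → (X → ℤ) := fun m x => ⌊(m : ℝ) * t x⌋
  have hcm : ∀ m : ℕ, ∀ y, |lam (f (cm m)) y| ≤ R := by
    intro m y
    rw [hf_lam]
    have h1 := hfloor (fun x => (m : ℝ) * t x) y
    have h2 : ∑ x, (m : ℝ) * t x * M x y = 0 := by
      simp only [mul_assoc]
      rw [← Finset.mul_sum, htker y, mul_zero]
    rw [h2, sub_zero] at h1
    exact h1
  obtain ⟨m, m', hmm', hmeq⟩ := Finite.exists_ne_map_eq_of_infinite
    (fun m : ℕ => (⟨f (cm m), hcm m⟩ : {b : A // ∀ x, |lam b x| ≤ R}))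
  have hmeq' : f (cm m) = f (cm m') := congrArg Subtype.val hmeq
  set c0 : X → ℤ := cm m - cm m' with hc0
  have hc0f : f c0 = 0 := by rw [hc0, map_sub, hmeq', sub_self]
  have hc0x : c0 x₁ ≠ 0 := by
    have h1 : ∀ k : ℕ, cm k x₁ = k := by
      intro k
      show ⌊(k : ℝ) * t x₁⌋ = k
      rw [htx, mul_one]
      exact Int.floor_natCast k
    show cm m x₁ - cm m' x₁ ≠ 0
    rw [h1, h1, sub_ne_zero]
    exact_mod_cast hmm'
  -- Step 4: the structure of the kernel
  have hkerR : ∀ c : X → ℤ, f c = 0 → ∀ y, ∑ x, (c x : ℝ) * M x y = 0 := by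
    intro c hc y
    rw [← hf_lam, hc, map_zero]; rfl
  have hker_sign : ∀ c : X → ℤ, f c = 0 → c ≠ 0 →
      (∀ x, (0 : ℝ) < c x) ∨ (∀ x, (c x : ℝ) < 0) := by
    intro c hc hne
    rcases sign_trichotomy M hneg hrow (fun x => (c x : ℝ)) (hkerR c hc) with h | h | h
    · exfalso
      apply hne
      funext x
      have h1 : (c x : ℝ) = 0 := congrFun h x
      show c x = 0
      exact_mod_cast h1
    · exact Or.inl h
    · exact Or.inr h
  have hker_inj : ∀ c : X → ℤ, f c = 0 → c x₁ = 0 → c = 0 := by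
    intro c hc hx
    by_contra hne
    rcases hker_sign c hc hne with h | h
    · have := h x₁; rw [hx] at this; simp at this
    · have := h x₁; rw [hx] at this; simp at this
  obtain ⟨d, hd⟩ := Int.subgroup_cyclic (f.ker.map (Pi.evalAddMonoidHom (fun _ : X => ℤ) x₁))
  have hdmem : d ∈ f.ker.map (Pi.evalAddMonoidHom (fun _ : X => ℤ) x₁) := by
    rw [hd]; exact AddSubgroup.subset_closure (Set.mem_singleton d)
  obtain ⟨c₁, hc₁ker, hc₁d⟩ := hdmem
  have hc₁f : f c₁ = 0 := AddMonoidHom.mem_ker.mp hc₁ker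
  have hc₁d' : c₁ x₁ = d := hc₁d
  have hgen : ∀ c : X → ℤ, f c = 0 → ∃ k : ℤ, c = k • c₁ := by
    intro c hc
    have h1 : c x₁ ∈ f.ker.map (Pi.evalAddMonoidHom (fun _ : X => ℤ) x₁) :=
      ⟨c, AddMonoidHom.mem_ker.mpr hc, rfl⟩
    rw [hd, AddSubgroup.mem_closure_singleton] at h1
    obtain ⟨k, hk⟩ := h1
    refine ⟨k, ?_⟩
    have h2 : f (c - k • c₁) = 0 := by rw [map_sub, map_zsmul, hc, hc₁f, smul_zero, sub_zero]
    have h3 : (c - k • c₁) x₁ = 0 := by
      show c x₁ - (k • c₁) x₁ = 0
      rw [Pi.smul_apply, hc₁d', hk, sub_self]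
    exact sub_eq_zero.mp (hker_inj _ h2 h3)
  have hc₁ne : c₁ ≠ 0 := by
    intro h
    obtain ⟨k, hk⟩ := hgen c0 hc0f
    rw [h, smul_zero] at hk
    exact hc0x (by rw [hk]; rfl)
  have hc₁x : c₁ x₁ ≠ 0 := fun h => hc₁ne (hker_inj c₁ hc₁f h)
  have hc₁sum : ∑ x, c₁ x ≠ 0 := by
    intro h
    have hR0 : ∑ x, (c₁ x : ℝ) = 0 := by exact_mod_cast h
    rcases hker_sign c₁ hc₁f hc₁ne with h' | h'
    · have : (0 : ℝ) < ∑ x, (c₁ x : ℝ) := Finset.sum_pos (fun x _ => h' x) Finset.univ_nonempty
      rw [hR0] at this; exact lt_irrefl _ this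
    · have : ∑ x, (c₁ x : ℝ) < 0 := Finset.sum_neg (fun x _ => h' x) Finset.univ_nonempty
      rw [hR0] at this; exact lt_irrefl _ this
  have hc₁G : ∀ g : G, g • c₁ = c₁ := by
    intro g
    have h1 : f (g • c₁) = 0 := by rw [hf_equiv, hc₁f, smul_zero]
    obtain ⟨k, hk⟩ := hgen _ h1
    have h2 : ∑ x, (g • c₁) x = ∑ x, c₁ x := by
      refine Fintype.sum_equiv (MulAction.toPerm g⁻¹) _ _ (fun x => ?_)
      rw [PM.smul_apply, MulAction.toPerm_apply]
    have h3 : ∑ x, (k • c₁) x = k * ∑ x, c₁ x := by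
      rw [Finset.mul_sum]
      refine Finset.sum_congr rfl (fun x _ => ?_)
      rw [Pi.smul_apply, smul_eq_mul]
    rw [hk, h3] at h2
    have h4 : k = 1 := by
      have : (k - 1) * ∑ x, c₁ x = 0 := by rw [sub_mul, h2, one_mul, sub_self]
      rcases mul_eq_zero.mp this with h | h
      · exact sub_eq_zero.mp h
      · exact absurd h hc₁sum
    rw [hk, h4, one_smul]
  -- Step 5: the first exact sequence `0 → ℤ → ℤ[X] → im f → 0`
  have hDmem : ∀ b ∈ f.range, D g₀ b ∈ f.range := by
    rintro _ ⟨c, rfl⟩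
    exact ⟨D g₀ c, hf_D c⟩
  have hNmem : ∀ b ∈ f.range, Nm G A b ∈ f.range := by
    rintro _ ⟨c, rfl⟩
    exact ⟨Nm G (X → ℤ) c, hf_N c⟩
  let DB : ↥f.range →+ ↥f.range :=
    ((D g₀ : A →+ A).comp f.range.subtype).codRestrict f.range (fun b => hDmem b.1 b.2)
  let NB : ↥f.range →+ ↥f.range :=
    ((Nm G A).comp f.range.subtype).codRestrict f.range (fun b => hNmem b.1 b.2)
  have hn0 : Nat.card G ≠ 0 := Nat.card_pos.ne'
  have E1 : Exact3 (zmultiplesHom (X → ℤ) c₁) f.rangeRestrict (0 : ℤ →+ ℤ)
      ((Nat.card G : ℤ) • AddMonoidHom.id ℤ) (D g₀ : (X → ℤ) →+ (X → ℤ)) (Nm G (X → ℤ))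
      DB NB :=
    { inj := by
        intro k k' h
        have h1 := congrFun h x₁
        simp only [zmultiplesHom_apply, Pi.smul_apply, smul_eq_mul] at h1
        exact mul_right_cancel₀ hc₁x h1
      surj := AddMonoidHom.rangeRestrict_surjective f
      exact := by
        rw [AddMonoidHom.ker_rangeRestrict]
        ext c
        rw [AddMonoidHom.mem_range, AddMonoidHom.mem_ker]
        constructor
        · rintro ⟨k, rfl⟩
          rw [zmultiplesHom_apply, map_zsmul, hc₁f, smul_zero]
        · intro hc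
          obtain ⟨k, hk⟩ := hgen c hc
          exact ⟨k, by rw [zmultiplesHom_apply, hk]⟩
      fgB := D_comp_Nm g₀
      gfB := Nm_comp_D g₀
      fi := by
        intro k
        rw [AddMonoidHom.zero_apply, map_zero, zmultiplesHom_apply, map_zsmul, D_apply, hc₁G,
          sub_self, smul_zero]
      gi := by
        intro k
        rw [zmultiplesHom_apply, zmultiplesHom_apply, map_zsmul, Nm_apply]
        simp only [hc₁G, Finset.sum_const, Finset.card_univ, AddMonoidHom.smul_apply,
          AddMonoidHom.id_apply, smul_eq_mul]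
        rw [Nat.card_eq_fintype_card, ← natCast_zsmul, smul_smul, mul_comm]
      fp := by
        intro b
        apply Subtype.ext
        exact (hf_D b).symm
      gp := by
        intro b
        apply Subtype.ext
        exact (hf_N b).symm }
  -- Step 6: the second exact sequence `0 → im f → A → A / im f → 0`
  have hDle : f.range ≤ f.range.comap (D g₀ : A →+ A) := fun b hb => hDmem b hb
  have hNle : f.range ≤ f.range.comap (Nm G A) := fun b hb => hNmem b hb
  have E2 : Exact3 f.range.subtype (QuotientAddGroup.mk' f.range) DB NB (D g₀ : A →+ A)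
      (Nm G A) (QuotientAddGroup.map f.range f.range (D g₀ : A →+ A) hDle)
      (QuotientAddGroup.map f.range f.range (Nm G A) hNle) :=
    { inj := Subtype.val_injective
      surj := QuotientAddGroup.mk'_surjective f.range
      exact := by rw [AddSubgroup.range_subtype, QuotientAddGroup.ker_mk']
      fgB := D_comp_Nm g₀
      gfB := Nm_comp_D g₀
      fi := fun b => rfl
      gi := fun b => rfl
      fp := fun b => rfl
      gp := fun b => rfl }
  have hQfin : Finite (A ⧸ f.range) := by
    refine Finite.of_surjective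
      (fun b : {b : A // ∀ x, |lam b x| ≤ R} => (QuotientAddGroup.mk' f.range) b.1) ?_
    intro q
    obtain ⟨b, rfl⟩ := QuotientAddGroup.mk'_surjective f.range q
    obtain ⟨τ, hτ⟩ := exists_row_comb M hneg hrow (lam b) (hsum b)
    let c : X → ℤ := fun x => ⌊τ x⌋
    have hbound : ∀ y, |lam (b - f c) y| ≤ R := by
      intro y
      have h1 := hfloor τ y
      rw [hτ y, ← hf_lam c y, abs_sub_comm] at h1
      rw [map_sub]
      exact h1
    refine ⟨⟨b - f c, hbound⟩, ?_⟩
    show (QuotientAddGroup.mk' f.range) (b - f c) = (QuotientAddGroup.mk' f.range) b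
    rw [map_sub, sub_eq_self]
    exact (QuotientAddGroup.eq_zero_iff _).mpr ⟨c, rfl⟩
  -- Step 7: assemble
  obtain ⟨hPM1, hPM2⟩ := PM.hq_perm r hr hg₀
  obtain ⟨hZ1, hZ2⟩ := hq_int (Nat.card G) hn0
  have hB1 : IsFin DB NB := E1.isFin_right hZ1 hPM1
  have hmul := E1.hq_mul_of_left hZ1
  obtain ⟨hiff, heq⟩ := hq_eq_of_finite_coker E2
  refine ⟨hiff.mp hB1, ?_⟩
  rw [← heq, ← hPM2, hmul, hZ2]
  have : ((Nat.card G : ℕ) : ℚ) ≠ 0 := Nat.cast_ne_zero.mpr hn0
  field_simp

end Main

end Fermat.Agent.CFT.Global.SignLattice
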