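import Mathlib
import Fermat.Agent.CFT.Coh.HerbrandCyclic
import Fermat.Agent.CFT.Global.SignLattice
import Fermat.Agent.CFT.Global.SUnitMore
import Fermat.Agent.CFT.Global.QBridge

/-!
# Herbrand quotient of the `S`-units

`L` a number field, `G` a finite cyclic group acting on `L` by field automorphisms
(`[MulSemiringAction G L]`; the instance everybody wants is `G := L ≃ₐ[K] L`),
`S` a finite `G`-stable set of primes of `𝓞 L`.  Then the Herbrand quotient of the `G`-module
of `S`-units is

  `h(G, E_S) = (∏_{orbits of G on ∞_L ⊔ S} |Stab|) / |G|`.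

Pure assembly of `SignLattice.hq_of_signLattice` (linear algebra) with the Dirichlet `S`-unit
theorem in the form of `SUnitLattice` / `SUnitMore`.
-/

set_option linter.style.haveILetI false
set_option linter.unusedSectionVars false

noncomputable section

namespace Fermat.Agent.CFT.Global.SUnitHerbrand

open NumberField IsDedekindDomain HeightOneSpectrum
open Fermat.Agent.CFT.Herbrand
open Fermat.Agent.CFT.Global.SUnitLattice

/-! ### The sign-lattice theorem in the `herbrand ρ` vocabulary -/

section Abstract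

variable {G X A : Type*} [Group G] [Fintype G] [Fintype X] [MulAction G X] [AddCommGroup A]

/-- `SignLattice.hq_of_signLattice` for a `G`-module given by `ρ : G →* AddMonoid.End A`, in the
vocabulary of `Coh/HerbrandCyclic`. -/
theorem herbrand_of_signLattice [IsCyclic G] [Nonempty X] (ρ : G →* AddMonoid.End A)
    [Fintype (MulAction.orbitRel.Quotient G X)]
    (r : MulAction.orbitRel.Quotient G X → X) (hr : ∀ o, Quotient.mk'' (r o) = o)
    (lam : A →+ (X → ℝ)) (hequiv : ∀ g a x, lam (ρ g a) x = lam a (g⁻¹ • x))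
    (hsum : ∀ a, ∑ x, lam a x = 0) (hfin : ∀ R : ℝ, {a | ∀ x, |lam a x| ≤ R}.Finite)
    (hsign : ∀ x, ∃ a, ∀ y, y ≠ x → lam a y < 0) :
    IsFinH ρ ∧ herbrand ρ =
      (∏ o, (Nat.card (MulAction.stabilizer G (r o)) : ℚ)) / (Nat.card G : ℚ) := by
  obtain ⟨g₀, hg₀⟩ := IsCyclic.exists_generator (α := G)
  letI : DistribMulAction G A := DistribMulAction.compHom A ρ
  have key := SignLattice.hq_of_signLattice g₀ hg₀ r hr lam hequiv hsum hfin hsign
  have hD : SignLattice.D g₀ = dEnd ρ g₀ := by
    ext a
    rfl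
  have hN : SignLattice.Nm G A = nEnd ρ := by
    ext a
    rw [SignLattice.Nm_apply, nEnd_apply]
    rfl
  rw [hD, hN] at key
  exact ⟨(isFinH_iff ρ hg₀).2 key.1, (herbrand_eq_hq ρ hg₀).trans key.2⟩

/-- A finite set of orbit representatives gives a section of the orbit map, and products over the
orbits become products over the representatives. -/
theorem exists_section_of_reps [Fintype (MulAction.orbitRel.Quotient G X)] (R : Finset X)
    (hR₁ : ∀ x, ∃ y ∈ R, ∃ g : G, g • y = x)
    (hR₂ : ∀ y ∈ R, ∀ y' ∈ R, ∀ g : G, g • y = y' → y = y') :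
    ∃ r : MulAction.orbitRel.Quotient G X → X, (∀ o, Quotient.mk'' (r o) = o) ∧
      ∀ f : X → ℚ, ∏ o, f (r o) = ∏ x ∈ R, f x := by
  classical
  have h1 : ∀ o : MulAction.orbitRel.Quotient G X, ∃ y ∈ R, (Quotient.mk'' y : _) = o := by
    intro o
    induction o using Quotient.inductionOn' with
    | h x =>
      obtain ⟨y, hy, g, hg⟩ := hR₁ x
      refine ⟨y, hy, Quotient.sound' ?_⟩
      show y ∈ MulAction.orbit G x
      refine ⟨g⁻¹, ?_⟩
      show g⁻¹ • x = y
      rw [← hg, inv_smul_smul]
  choose r hrR hr using h1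
  refine ⟨r, hr, fun f => ?_⟩
  refine Finset.prod_bij (fun o _ => r o) (fun o _ => hrR o) ?_ ?_ (fun _ _ => rfl)
  · intro o _ o' _ h
    rw [← hr o, ← hr o', h]
  · intro x hx
    refine ⟨Quotient.mk'' x, Finset.mem_univ _, ?_⟩
    have h2 : (Quotient.mk'' (r (Quotient.mk'' x)) : MulAction.orbitRel.Quotient G X)
        = Quotient.mk'' x := hr _
    have h3 : r (Quotient.mk'' x) ∈ MulAction.orbit G x := Quotient.exact' h2
    obtain ⟨g, hg⟩ := h3
    exact (hR₂ x hx _ (hrR _) g hg).symm

/-- The sign-lattice theorem with a finite set `R` of orbit representatives. -/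
theorem herbrand_of_signLattice_reps [IsCyclic G] [Nonempty X] (ρ : G →* AddMonoid.End A)
    (R : Finset X) (hR₁ : ∀ x, ∃ y ∈ R, ∃ g : G, g • y = x)
    (hR₂ : ∀ y ∈ R, ∀ y' ∈ R, ∀ g : G, g • y = y' → y = y')
    (lam : A →+ (X → ℝ)) (hequiv : ∀ g a x, lam (ρ g a) x = lam a (g⁻¹ • x))
    (hsum : ∀ a, ∑ x, lam a x = 0) (hfin : ∀ R : ℝ, {a | ∀ x, |lam a x| ≤ R}.Finite)
    (hsign : ∀ x, ∃ a, ∀ y, y ≠ x → lam a y < 0) :
    IsFinH ρ ∧ herbrand ρ =
      (∏ x ∈ R, (Nat.card (MulAction.stabilizer G x) : ℚ)) / (Nat.card G : ℚ) := by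
  classical
  haveI : Fintype (MulAction.orbitRel.Quotient G X) := Fintype.ofFinite _
  obtain ⟨r, hr, hprod⟩ := exists_section_of_reps R hR₁ hR₂
  have key := herbrand_of_signLattice ρ r hr lam hequiv hsum hfin hsign
  rw [hprod (fun x => (Nat.card (MulAction.stabilizer G x) : ℚ))] at key
  exact key

/-- Every finite `G`-set has a finite set of orbit representatives. -/
theorem exists_reps (G X : Type*) [Group G] [Fintype X] [MulAction G X] :
    ∃ R : Finset X, (∀ x, ∃ y ∈ R, ∃ g : G, g • y = x) ∧
      (∀ y ∈ R, ∀ y' ∈ R, ∀ g : G, g • y = y' → y = y') := by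
  classical
  haveI : Fintype (MulAction.orbitRel.Quotient G X) := Fintype.ofFinite _
  refine ⟨Finset.univ.image (fun o : MulAction.orbitRel.Quotient G X => o.out), ?_, ?_⟩
  · intro x
    refine ⟨(Quotient.mk'' x : MulAction.orbitRel.Quotient G X).out,
      Finset.mem_image_of_mem _ (Finset.mem_univ _), ?_⟩
    have h : (Quotient.mk'' x : MulAction.orbitRel.Quotient G X) =
        Quotient.mk'' (Quotient.mk'' x : MulAction.orbitRel.Quotient G X).out :=
      (Quotient.out_eq' _).symm
    have h' : x ∈ MulAction.orbit G (Quotient.mk'' x : MulAction.orbitRel.Quotient G X).out :=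
      Quotient.exact' h
    exact h'
  · intro y hy y' hy' g hg
    obtain ⟨o, -, rfl⟩ := Finset.mem_image.1 hy
    obtain ⟨o', -, rfl⟩ := Finset.mem_image.1 hy'
    have h : (Quotient.mk'' o'.out : MulAction.orbitRel.Quotient G X) = Quotient.mk'' o.out := by
      refine Quotient.sound' ?_
      show o'.out ∈ MulAction.orbit G o.out
      exact ⟨g, hg⟩
    rw [Quotient.out_eq', Quotient.out_eq'] at h
    rw [h]

end Abstract

/-! ### The `G`-module of `S`-units and the `G`-set of places -/

section SUnit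

variable (L : Type*) [Field L] [NumberField L] {G : Type*} [Group G] [MulSemiringAction G L]

/-- The field automorphism `x ↦ g • x` of `L`. -/
abbrev aut (g : G) : L ≃+* L := MulSemiringAction.toRingAut G L g

theorem aut_apply (g : G) (x : L) : aut L g x = g • x := rfl

theorem aut_one : aut L (1 : G) = RingEquiv.refl L := by
  ext x
  simp [aut]

theorem aut_mul (g h : G) : aut L (g * h) = (aut L h).trans (aut L g) := by
  ext x
  simp [aut, mul_smul]

variable {L}
variable (G)

/-- The finite set `S` of primes of `𝓞 L` is stable under `G`. -/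
@[reducible] def IsStable (S : Finset (HeightOneSpectrum (𝓞 L))) : Prop :=
  ∀ (g : G) (v : HeightOneSpectrum (𝓞 L)), primeMap (aut L g) v ∈ S ↔ v ∈ S

variable {G}

theorem primeMap_aut_one (v : HeightOneSpectrum (𝓞 L)) : primeMap (aut L (1 : G)) v = v := by
  rw [aut_one, primeMap_refl]
  rfl

theorem primeMap_aut_mul (g h : G) (v : HeightOneSpectrum (𝓞 L)) :
    primeMap (aut L (g * h)) v = primeMap (aut L g) (primeMap (aut L h) v) := by
  rw [aut_mul, primeMap_trans]
  rfl

theorem infMap_aut_one (w : InfinitePlace L) : infMap (aut L (1 : G)) w = w := by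
  rw [aut_one, infMap_refl]
  rfl

theorem infMap_aut_mul (g h : G) (w : InfinitePlace L) :
    infMap (aut L (g * h)) w = infMap (aut L g) (infMap (aut L h) w) := by
  rw [aut_mul, infMap_trans]
  rfl

/-- It is enough to check that `S` is mapped into itself. -/
theorem isStable_of_forall_mem (S : Finset (HeightOneSpectrum (𝓞 L)))
    (h : ∀ (g : G) (v : HeightOneSpectrum (𝓞 L)), v ∈ S → primeMap (aut L g) v ∈ S) :
    IsStable G S := by
  intro g v
  refine ⟨fun hv => ?_, h g v⟩
  have := h g⁻¹ _ hv
  rwa [← primeMap_aut_mul, inv_mul_cancel, primeMap_aut_one] at this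

theorem placeMap_aut_one (S : Finset (HeightOneSpectrum (𝓞 L))) (hS : IsStable G S)
    (x : Pl L S) : placeMap (aut L (1 : G)) S (hS 1) x = x := by
  have : ∀ (σ : L ≃+* L) (_ : σ = RingEquiv.refl L) (hσ : ∀ v, primeMap σ v ∈ S ↔ v ∈ S),
      placeMap σ S hσ x = x := by
    rintro σ rfl hσ
    rw [placeMap_refl]
    rfl
  exact this _ (aut_one L) _

theorem placeMap_aut_mul (S : Finset (HeightOneSpectrum (𝓞 L))) (hS : IsStable G S)
    (g h : G) (x : Pl L S) :
    placeMap (aut L (g * h)) S (hS (g * h)) x =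
      placeMap (aut L g) S (hS g) (placeMap (aut L h) S (hS h) x) := by
  have : ∀ (σ : L ≃+* L) (_ : σ = (aut L h).trans (aut L g))
      (hσ : ∀ v, primeMap σ v ∈ S ↔ v ∈ S),
      placeMap σ S hσ x = placeMap (aut L g) S (hS g) (placeMap (aut L h) S (hS h) x) := by
    rintro σ rfl hσ
    rw [placeMap_trans (aut L h) (aut L g) S (hS h) (hS g) hσ]
    rfl
  exact this _ (aut_mul L g h) _

theorem sunitMap_aut_one (S : Finset (HeightOneSpectrum (𝓞 L))) (hS : IsStable G S)
    (u : SUnits L S) : sunitMap (aut L (1 : G)) S (hS 1) u = u := by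
  have : ∀ (σ : L ≃+* L) (_ : σ = RingEquiv.refl L) (hσ : ∀ v, primeMap σ v ∈ S ↔ v ∈ S),
      sunitMap σ S hσ u = u := by
    rintro σ rfl hσ
    exact sunitMap_refl S hσ u
  exact this _ (aut_one L) _

theorem sunitMap_aut_mul (S : Finset (HeightOneSpectrum (𝓞 L))) (hS : IsStable G S)
    (g h : G) (u : SUnits L S) :
    sunitMap (aut L (g * h)) S (hS (g * h)) u =
      sunitMap (aut L g) S (hS g) (sunitMap (aut L h) S (hS h) u) := by
  have : ∀ (σ : L ≃+* L) (_ : σ = (aut L h).trans (aut L g))
      (hσ : ∀ v, primeMap σ v ∈ S ↔ v ∈ S),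
      sunitMap σ S hσ u = sunitMap (aut L g) S (hS g) (sunitMap (aut L h) S (hS h) u) := by
    rintro σ rfl hσ
    exact sunitMap_trans (aut L h) (aut L g) S (hS h) (hS g) hσ u
  exact this _ (aut_mul L g h) _

/-- The action of `G` on the places `∞_L ⊔ S` (use as a local instance). -/
@[reducible] def placeAction (S : Finset (HeightOneSpectrum (𝓞 L))) (hS : IsStable G S) :
    MulAction G (Pl L S) where
  smul g x := placeMap (aut L g) S (hS g) x
  one_smul x := placeMap_aut_one S hS x
  mul_smul g h x := placeMap_aut_mul S hS g h x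

/-- The `G`-module of `S`-units, in the vocabulary of `Coh/HerbrandCyclic`. -/
def sunitRho (S : Finset (HeightOneSpectrum (𝓞 L))) (hS : IsStable G S) :
    G →* AddMonoid.End (Additive (SUnits L S)) where
  toFun g := MonoidHom.toAdditive (sunitMap (aut L g) S (hS g))
  map_one' := AddMonoidHom.ext fun u =>
    congrArg Additive.ofMul (sunitMap_aut_one S hS (Additive.toMul u))
  map_mul' g h := AddMonoidHom.ext fun u =>
    congrArg Additive.ofMul (sunitMap_aut_mul S hS g h (Additive.toMul u))

theorem sunitRho_apply (S : Finset (HeightOneSpectrum (𝓞 L))) (hS : IsStable G S) (g : G)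
    (u : SUnits L S) :
    sunitRho S hS g (Additive.ofMul u) = Additive.ofMul (sunitMap (aut L g) S (hS g) u) := rfl

theorem coe_sunitRho (S : Finset (HeightOneSpectrum (𝓞 L))) (hS : IsStable G S) (g : G)
    (u : SUnits L S) :
    (((Additive.toMul (sunitRho S hS g (Additive.ofMul u)) : SUnits L S) : Lˣ) : L)
      = g • ((u : Lˣ) : L) := rfl

/-- The stabiliser in `G` of a place of `∞_L ⊔ S` (the decomposition group). -/
def stabPl (S : Finset (HeightOneSpectrum (𝓞 L))) (hS : IsStable G S) (x : Pl L S) :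
    Subgroup G :=
  @MulAction.stabilizer G (Pl L S) _ (placeAction S hS) x

theorem mem_stabPl (S : Finset (HeightOneSpectrum (𝓞 L))) (hS : IsStable G S) (x : Pl L S)
    (g : G) : g ∈ stabPl S hS x ↔ placeMap (aut L g) S (hS g) x = x := Iff.rfl

theorem mem_stabPl_inl (S : Finset (HeightOneSpectrum (𝓞 L))) (hS : IsStable G S)
    (w : InfinitePlace L) (g : G) :
    g ∈ stabPl S hS (Sum.inl w) ↔ infMap (aut L g) w = w := by
  rw [mem_stabPl, placeMap_inl]
  exact Sum.inl_injective.eq_iff

theorem mem_stabPl_inr (S : Finset (HeightOneSpectrum (𝓞 L))) (hS : IsStable G S)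
    (v : S) (g : G) :
    g ∈ stabPl S hS (Sum.inr v) ↔ primeMap (aut L g) v.1 = v.1 := by
  rw [mem_stabPl, placeMap_inr]
  constructor
  · intro h
    exact congrArg Subtype.val (Sum.inr_injective h)
  · intro h
    exact congrArg Sum.inr (Subtype.ext h)

/-- **Herbrand quotient of the `S`-units** of a number field `L` under a finite cyclic group `G`
of field automorphisms, `S` finite and `G`-stable:
`h(G, E_S) = (∏_{x ∈ R} |Stab_G(x)|) / |G|`, `R` any set of representatives of the `G`-orbits on
the places `∞_L ⊔ S`. -/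
theorem herbrand_sunits [Fintype G] [IsCyclic G] (S : Finset (HeightOneSpectrum (𝓞 L)))
    (hS : IsStable G S) (R : Finset (Pl L S))
    (hR₁ : ∀ x, ∃ y ∈ R, ∃ g : G, placeMap (aut L g) S (hS g) y = x)
    (hR₂ : ∀ y ∈ R, ∀ y' ∈ R, ∀ g : G, placeMap (aut L g) S (hS g) y = y' → y = y') :
    IsFinH (sunitRho S hS) ∧ herbrand (sunitRho S hS) =
      (∏ x ∈ R, (Nat.card (stabPl S hS x) : ℚ)) / (Nat.card G : ℚ) := by
  classical
  letI := placeAction S hS
  haveI : Nonempty (Pl L S) := ⟨Sum.inl (Classical.arbitrary _)⟩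
  refine herbrand_of_signLattice_reps (sunitRho S hS) R hR₁ hR₂ (logS L S) ?_
    (fun a => sum_logS S a) (fun r => finite_logS_le S r) (fun x => exists_sunit_neg S x)
  intro g a x
  obtain ⟨u, rfl⟩ := Additive.ofMul.surjective a
  rw [sunitRho_apply, logS_sunitMap_eq_comp]
  show logS L S (Additive.ofMul u) ((placeMap (aut L g) S (hS g)).symm x) = _
  refine congrArg _ ((Equiv.symm_apply_eq _).2 ?_)
  show x = g • g⁻¹ • x
  rw [smul_inv_smul]

/-! ### Decomposition groups; the case of odd order -/

variable (G) in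
/-- The decomposition group in `G` of a prime `v` of `𝓞 L`. -/
def decomp (v : HeightOneSpectrum (𝓞 L)) : Subgroup G where
  carrier := {g | primeMap (aut L g) v = v}
  one_mem' := primeMap_aut_one v
  mul_mem' := by
    intro g h hg hh
    show primeMap (aut L (g * h)) v = v
    rw [primeMap_aut_mul, show primeMap (aut L h) v = v from hh]
    exact hg
  inv_mem' := by
    intro g hg
    show primeMap (aut L g⁻¹) v = v
    have h1 : primeMap (aut L g) v = v := hg
    have h2 := primeMap_aut_mul (g⁻¹ : G) g v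
    rw [inv_mul_cancel, primeMap_aut_one, h1] at h2
    exact h2.symm

theorem mem_decomp (v : HeightOneSpectrum (𝓞 L)) (g : G) :
    g ∈ decomp G v ↔ primeMap (aut L g) v = v := Iff.rfl

theorem mem_decomp_iff_map (v : HeightOneSpectrum (𝓞 L)) (g : G) :
    g ∈ decomp G v ↔ v.asIdeal.map (RingOfIntegers.mapRingEquiv (aut L g)) = v.asIdeal := by
  rw [mem_decomp, ← primeMap_asIdeal]
  constructor
  · intro h
    rw [h]
  · intro h
    exact HeightOneSpectrum.ext h

theorem stabPl_inr (S : Finset (HeightOneSpectrum (𝓞 L))) (hS : IsStable G S) (v : S) :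
    stabPl S hS (Sum.inr v) = decomp G v.1 := by
  ext g
  rw [mem_stabPl_inr, mem_decomp]

/-- An element of `G` fixing an infinite place acts on `L` as an involution. -/
theorem aut_sq_of_infMap_eq (w : InfinitePlace L) (g : G) (h : infMap (aut L g) w = w)
    (x : L) : g • g • x = x := by
  have h1 : ∀ y : L, w (g • y) = w y := by
    intro y
    have := infMap_apply (aut L g) w y
    rw [h] at this
    exact this
  -- an embedding `φ` with `w = mk φ`
  have hφ := w.mk_embedding
  set φ := w.embedding with hφdef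
  -- `φ ∘ g` defines the same place, hence is `φ` or its conjugate
  have h2 : InfinitePlace.mk (φ.comp (aut L g : L →+* L)) = InfinitePlace.mk φ := by
    apply InfinitePlace.ext
    intro y
    rw [InfinitePlace.apply, InfinitePlace.apply, RingHom.comp_apply]
    have e1 := h1 y
    rw [← hφ, InfinitePlace.apply, InfinitePlace.apply] at e1
    exact e1
  rcases InfinitePlace.mk_eq_iff.1 h2 with h3 | h3
  · have h4 := RingHom.congr_fun h3 x
    rw [RingHom.comp_apply] at h4
    have h5 : g • x = x := φ.injective h4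
    rw [h5, h5]
  · have h4 : ∀ y : L, (starRingEnd ℂ) (φ (g • y)) = φ y := by
      intro y
      have := RingHom.congr_fun h3 y
      rw [NumberField.ComplexEmbedding.conjugate_coe_eq, RingHom.comp_apply] at this
      exact this
    have h5 : φ (g • g • x) = φ x := by
      have e1 := h4 (g • x)
      have e2 := h4 x
      rw [← e2, ← e1, Complex.conj_conj]
    exact φ.injective h5

/-- For a faithful action of a group of odd order, the stabiliser of an infinite place is
trivial. -/
theorem stabPl_inl_eq_bot [Finite G] [FaithfulSMul G L] (hodd : Odd (Nat.card G))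
    (S : Finset (HeightOneSpectrum (𝓞 L))) (hS : IsStable G S) (w : InfinitePlace L) :
    stabPl S hS (Sum.inl w) = ⊥ := by
  rw [eq_bot_iff]
  intro g hg
  rw [mem_stabPl_inl] at hg
  rw [Subgroup.mem_bot]
  have h2 : g ^ 2 = 1 := by
    apply FaithfulSMul.eq_of_smul_eq_smul (α := L)
    intro x
    rw [pow_two, mul_smul, one_smul]
    exact aut_sq_of_infMap_eq w g hg x
  have h3 : orderOf g ∣ 2 := orderOf_dvd_of_pow_eq_one h2
  have h4 : orderOf g ∣ Nat.card G := orderOf_dvd_natCard g
  have h5 : orderOf g = 1 := by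
    rcases (Nat.dvd_prime Nat.prime_two).1 h3 with h | h
    · exact h
    · exfalso
      rw [h] at h4
      exact (Nat.not_even_iff_odd.2 hodd) (even_iff_two_dvd.2 h4)
  exact orderOf_eq_one_iff.1 h5

/-- **Herbrand quotient of the `S`-units, odd order**: for a finite cyclic group `G` of ODD order
acting faithfully on `L` (e.g. `G = L ≃ₐ[K] L` of odd order), the infinite places do not
contribute: `h(G, E_S) = (∏_{v ∈ R} |D_v|) / |G|`, `R` any set of representatives of the
`G`-orbits on `S`. -/
theorem herbrand_sunits_odd [Fintype G] [IsCyclic G] [FaithfulSMul G L]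
    (hodd : Odd (Nat.card G)) (S : Finset (HeightOneSpectrum (𝓞 L))) (hS : IsStable G S)
    (R : Finset (HeightOneSpectrum (𝓞 L))) (hRS : R ⊆ S)
    (hR₁ : ∀ v ∈ S, ∃ y ∈ R, ∃ g : G, primeMap (aut L g) y = v)
    (hR₂ : ∀ y ∈ R, ∀ y' ∈ R, ∀ g : G, primeMap (aut L g) y = y' → y = y') :
    IsFinH (sunitRho S hS) ∧ herbrand (sunitRho S hS) =
      (∏ v ∈ R, (Nat.card (decomp G v) : ℚ)) / (Nat.card G : ℚ) := by
  classical
  -- representatives for the infinite places
  obtain ⟨R₀, hR₀₁, hR₀₂⟩ :=
    @exists_reps G (Pl L S) _ _ (placeAction S hS)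
  -- the representatives: infinite ones from `R₀`, finite ones from `R`
  have hinj : Function.Injective
      (fun v : {x // x ∈ R} => (Sum.inr ⟨v.1, hRS v.2⟩ : Pl L S)) := by
    intro a b h
    have h1 : (⟨a.1, hRS a.2⟩ : S) = ⟨b.1, hRS b.2⟩ := Sum.inr_injective h
    exact Subtype.ext (Subtype.mk.inj h1)
  set R' : Finset (Pl L S) :=
    (R₀.filter (fun x => x.isLeft)) ∪ (R.attach.map ⟨_, hinj⟩) with hR'
  have hdisj : Disjoint (R₀.filter (fun x => x.isLeft)) (R.attach.map ⟨_, hinj⟩) := by
    rw [Finset.disjoint_left]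
    intro x hx hx'
    rw [Finset.mem_filter] at hx
    obtain ⟨v, -, rfl⟩ := Finset.mem_map.1 hx'
    exact Bool.false_ne_true hx.2
  have key := herbrand_sunits S hS R' ?_ ?_
  · refine ⟨key.1, key.2.trans ?_⟩
    congr 1
    rw [hR', Finset.prod_union hdisj, Finset.prod_map]
    have e1 : ∏ x ∈ R₀.filter (fun x => x.isLeft), (Nat.card (stabPl S hS x) : ℚ) = 1 := by
      refine Finset.prod_eq_one fun x hx => ?_
      rw [Finset.mem_filter] at hx
      rcases x with w | v
      · rw [stabPl_inl_eq_bot hodd S hS w]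
        simp
      · simp at hx
    rw [e1, one_mul]
    rw [← Finset.prod_attach R (fun v => (Nat.card (decomp G v) : ℚ))]
    refine Finset.prod_congr rfl fun v _ => ?_
    show (Nat.card (stabPl S hS (Sum.inr ⟨v.1, hRS v.2⟩)) : ℚ) = _
    rw [stabPl_inr]
  · -- every place is in the orbit of a representative
    intro x
    rcases x with w | v
    · obtain ⟨y, hy, g, hg⟩ := hR₀₁ (Sum.inl w)
      refine ⟨y, ?_, g, hg⟩
      rw [hR', Finset.mem_union, Finset.mem_filter]
      left
      refine ⟨hy, ?_⟩
      rcases y with w' | v'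
      · rfl
      · exfalso
        have : placeMap (aut L g) S (hS g) (Sum.inr v') = Sum.inl w := hg
        rw [placeMap_inr] at this
        exact Sum.inr_ne_inl this
    · obtain ⟨y, hy, g, hg⟩ := hR₁ v.1 v.2
      refine ⟨Sum.inr ⟨y, hRS hy⟩, ?_, g, ?_⟩
      · rw [hR', Finset.mem_union]
        right
        exact Finset.mem_map.2 ⟨⟨y, hy⟩, Finset.mem_attach _ _, rfl⟩
      · rw [placeMap_inr]
        exact congrArg Sum.inr (Subtype.ext hg)
  · -- distinct representatives lie in distinct orbits
    intro y hy y' hy' g hg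
    rw [hR', Finset.mem_union] at hy hy'
    rcases hy with hy | hy
    · rw [Finset.mem_filter] at hy
      rcases hy' with hy' | hy'
      · rw [Finset.mem_filter] at hy'
        exact hR₀₂ y hy.1 y' hy'.1 g hg
      · exfalso
        obtain ⟨v', -, rfl⟩ := Finset.mem_map.1 hy'
        rcases y with w | v
        · rw [placeMap_inl] at hg
          exact Sum.inl_ne_inr hg
        · simp at hy
    · obtain ⟨v, -, rfl⟩ := Finset.mem_map.1 hy
      rcases hy' with hy' | hy'
      · exfalso
        rw [Finset.mem_filter] at hy'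
        have hg' : placeMap (aut L g) S (hS g) (Sum.inr ⟨v.1, hRS v.2⟩) = y' := hg
        rw [placeMap_inr] at hg'
        rw [← hg'] at hy'
        simp at hy'
      · obtain ⟨v', -, rfl⟩ := Finset.mem_map.1 hy'
        have hg' : placeMap (aut L g) S (hS g) (Sum.inr ⟨v.1, hRS v.2⟩) =
            Sum.inr ⟨v'.1, hRS v'.2⟩ := hg
        rw [placeMap_inr] at hg'
        have h1 : primeMap (aut L g) v.1 = v'.1 :=
          congrArg Subtype.val (Sum.inr_injective hg')
        have h2 : v.1 = v'.1 := hR₂ v.1 v.2 v'.1 v'.2 g h1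
        have h3 : v = v' := Subtype.ext h2
        rw [h3]

end SUnit

/-! ### Primes above a finite set of rational primes -/

section Above

variable (L : Type*) [Field L] [NumberField L]

theorem finite_primesAbove (S : Finset ℕ) : (QBridge.primesAbove L (S : Set ℕ)).Finite := by
  have hsub : QBridge.primesAbove L (S : Set ℕ) ⊆
      ⋃ q ∈ ((S.filter Nat.Prime : Finset ℕ) : Set ℕ),
        {w : HeightOneSpectrum (𝓞 L) | w.asIdeal ∣ Ideal.span {(q : 𝓞 L)}} := by
    rintro w ⟨q, hqS, hq, hqw⟩
    refine Set.mem_biUnion (x := q) ?_ ?_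
    · exact Finset.mem_coe.2 (Finset.mem_filter.2 ⟨Finset.mem_coe.1 hqS, hq⟩)
    · show w.asIdeal ∣ Ideal.span {(q : 𝓞 L)}
      rw [Ideal.dvd_iff_le, Ideal.span_singleton_le_iff_mem]
      exact hqw
  refine Set.Finite.subset (Set.Finite.biUnion (Finset.finite_toSet _) fun q hq => ?_) hsub
  refine Ideal.finite_factors ?_
  have hq' : q.Prime := (Finset.mem_filter.1 (Finset.mem_coe.1 hq)).2
  rw [Ne, Ideal.zero_eq_bot, Ideal.span_singleton_eq_bot]
  exact_mod_cast hq'.ne_zero

/-- The primes of `𝓞 L` above a finite set `S` of rational primes, as a `Finset`. -/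
def above (S : Finset ℕ) : Finset (HeightOneSpectrum (𝓞 L)) :=
  (finite_primesAbove L S).toFinset

variable {L}

theorem mem_above (S : Finset ℕ) (w : HeightOneSpectrum (𝓞 L)) :
    w ∈ above L S ↔ ∃ q ∈ S, q.Prime ∧ (q : 𝓞 L) ∈ w.asIdeal := by
  rw [above, Set.Finite.mem_toFinset]
  rfl

theorem coe_above (S : Finset ℕ) :
    ((above L S : Finset (HeightOneSpectrum (𝓞 L))) : Set (HeightOneSpectrum (𝓞 L))) =
      QBridge.primesAbove L (S : Set ℕ) := by
  rw [above, Set.Finite.coe_toFinset]

/-- The `S`-units for the primes above `S` are `QBridge`'s (`= E_S(L)` of the semilocal model). -/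
theorem sunits_above (S : Finset ℕ) :
    SUnits L (above L S) = (QBridge.primesAbove L (S : Set ℕ)).unit L := by
  rw [SUnits, coe_above]

/-- The set of primes above a set of rational primes is stable under every group of field
automorphisms. -/
theorem isStable_above {G : Type*} [Group G] [MulSemiringAction G L] (S : Finset ℕ) :
    IsStable G (above L S) := by
  refine isStable_of_forall_mem _ fun g v hv => ?_
  rw [mem_above] at hv ⊢
  obtain ⟨q, hqS, hq, hqv⟩ := hv
  refine ⟨q, hqS, hq, ?_⟩
  rw [mem_primeMap, map_natCast]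
  exact hqv

end Above

/-! ### The Galois case -/

section Galois

variable {K L : Type*} [Field K] [Field L] [NumberField L] [Algebra K L]

theorem aut_algEquiv (g : L ≃ₐ[K] L) : aut L g = g.toRingEquiv :=
  RingEquiv.ext fun _ => rfl

/-- **Herbrand quotient of the `S`-units for `G = Gal(L/K)` cyclic of odd order**, `S` the set of
primes of `L` above a finite set of rational primes:
`h(G, E_S(L)) = (∏_{w ∈ R} |D_w|) / [L : K]`, `R` a set of representatives of the `G`-orbits
on the primes of `L` above `S` (i.e. one prime of `L` above each prime of `K` above `S`). -/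
theorem herbrand_sunits_gal_odd [FiniteDimensional K L] [IsGalois K L] [IsCyclic (L ≃ₐ[K] L)]
    (hodd : Odd (Module.finrank K L)) (S : Finset ℕ)
    (R : Finset (HeightOneSpectrum (𝓞 L))) (hRS : R ⊆ above L S)
    (hR₁ : ∀ v ∈ above L S, ∃ y ∈ R, ∃ g : L ≃ₐ[K] L, primeMap g.toRingEquiv y = v)
    (hR₂ : ∀ y ∈ R, ∀ y' ∈ R, ∀ g : L ≃ₐ[K] L, primeMap g.toRingEquiv y = y' → y = y') :
    IsFinH (sunitRho (G := L ≃ₐ[K] L) (above L S) (isStable_above S)) ∧
      herbrand (sunitRho (G := L ≃ₐ[K] L) (above L S) (isStable_above S)) =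
        (∏ v ∈ R, (Nat.card (decomp (L ≃ₐ[K] L) v) : ℚ)) / (Module.finrank K L : ℚ) := by
  classical
  have hcard : Nat.card (L ≃ₐ[K] L) = Module.finrank K L := IsGalois.card_aut_eq_finrank K L
  have key := herbrand_sunits_odd (G := L ≃ₐ[K] L) (by rw [hcard]; exact hodd) (above L S)
    (isStable_above S) R hRS
    (fun v hv => by
      obtain ⟨y, hy, g, hg⟩ := hR₁ v hv
      exact ⟨y, hy, g, by rw [aut_algEquiv]; exact hg⟩)
    (fun y hy y' hy' g hg => hR₂ y hy y' hy' g (by rw [← aut_algEquiv]; exact hg))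
  rw [hcard] at key
  exact key

end Galois

end Fermat.Agent.CFT.Global.SUnitHerbrand

end
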