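import Mathlib
import Fermat.Agent.CFT.Global.FIDefs
import Fermat.Agent.CFT.Global.SUnitHerbrand

/-!
# First inequality (FI): the Plan

Only `def … : Prop`.  `N/F` an extension of number fields, `G = N ≃ₐ[F] N`; the `G`-modules are
those of `FIDefs` (vocabulary of `Coh/HerbrandCyclic`), the semilocal objects those of `L7Defs`,
primes of `𝓞 N` are `HeightOneSpectrum (𝓞 N)` with the permutation `SUnitLattice.primeMap` and
the decomposition groups `SUnitHerbrand.decomp`.

The spine (`FirstIneq.lean`) proves `L7.FIraw F N` for `N/F` cyclic of odd prime degree from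
these three props and the Herbrand quotient of the `S`-units (`SUnitHerbrand`).
-/

set_option autoImplicit false

noncomputable section

namespace Fermat.Agent.CFT.Global.FI

open NumberField IsDedekindDomain
open Fermat.Agent.CFT.Herbrand Fermat.Agent.CFT.Global.L7
open Fermat.Agent.CFT.Global.SUnitLattice (primeMap)
open Fermat.Agent.CFT.Global.SUnitHerbrand (decomp)

namespace Plan

variable (F N : Type) [Field F] [NumberField F] [Field N] [NumberField N] [Algebra F N]
  [FiniteDimensional F N]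

/-- **[FI-U] semilocal units are Herbrand-trivial**: for `N/F` cyclic and EVERY rational prime
`q` (ramified or not), `h(G, U_q(N)) = 1` (with both Tate groups finite).
(`U_q(N)` contains `1 + q^k Λ` with finite index, `Λ` a free `ℤ_q[G]`-lattice of `A_q(N)`.) -/
def UnitsTrivial : Prop :=
  IsGalois F N → IsCyclic (N ≃ₐ[F] N) → ∀ q : Nat.Primes,
    IsFinH (uqRho F N q) ∧ herbrand (uqRho F N q) = 1

/-- **[FI-D] the divisor module above `q` is a permutation module**:
`A_q(N)ˣ / U_q(N) ≅ ℤ[primes of 𝓞 N above q]` equivariantly, hence for `G` cyclic its Herbrand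
quotient is `∏_{w ∈ R} |D_w|`, `R` any set of representatives of the `G`-orbits on the primes of
`𝓞 N` above `q`. -/
def DivisorPerm : Prop :=
  IsCyclic (N ≃ₐ[F] N) → ∀ (q : Nat.Primes) (R : Finset (HeightOneSpectrum (𝓞 N))),
    (∀ w ∈ R, ((q : ℕ) : 𝓞 N) ∈ w.asIdeal) →
    (∀ w : HeightOneSpectrum (𝓞 N), ((q : ℕ) : 𝓞 N) ∈ w.asIdeal →
      ∃ y ∈ R, ∃ g : N ≃ₐ[F] N, primeMap g.toRingEquiv y = w) →
    (∀ y ∈ R, ∀ y' ∈ R, ∀ g : N ≃ₐ[F] N, primeMap g.toRingEquiv y = y' → y = y') →
    IsFinH (A := Additive ((Aq N q)ˣ ⧸ Uq N q)) (divRho F N q) ∧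
      herbrand (A := Additive ((Aq N q)ˣ ⧸ Uq N q)) (divRho F N q) =
        ∏ w ∈ R, (Nat.card (decomp (N ≃ₐ[F] N) w) : ℚ)

/-- **[FI-A] invariant classes descend**: for all sufficiently large `S`, every element of
`J_S(N)` whose class modulo the `S`-units of `N` is `G`-invariant is, modulo the `S`-units of
`N`, the base change of an element of `J_S(F)`.
(Hilbert 90 for `N/F`, the `S`-class group of `F` is trivial and `N/F` is unramified outside
`S` for large `S`, and `(A_q(N))^G = A_q(F)`.) -/
def InvariantsDescend : Prop :=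
  IsGalois F N → ∃ S₁ : Finset Nat.Primes, ∀ S : Finset Nat.Primes, S₁ ⊆ S →
    ∀ y ∈ Jsupp N S,
      (∀ g : N ≃ₐ[F] N, ∃ η ∈ sUnits N S, actJ F N g y = y * locS N S η) →
      ∃ ε ∈ sUnits N S, ∃ x ∈ Jsupp F S, y = baseChJ F N x * locS N S ε

end Plan

end Fermat.Agent.CFT.Global.FI

end
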