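import Mathlib
import Fermat.Agent.CFT.Local.UnitsLattice
import Fermat.Agent.CFT.Local.IntegersComplete
import Fermat.Agent.CFT.Global.FIPlan
import Fermat.Agent.CFT.Global.QBridgeOrder

/-!
# First inequality, leaf [FI-U]: the semilocal units are Herbrand-trivial

For a cyclic extension `N/F` of number fields, `G = Gal(N/F)`, and every rational prime `q`
(ramified or not), the `G`-module `U_q(N)` (units of the maximal order of `N ⊗ ℚ_q`) has finite
Tate groups and Herbrand quotient `1`:  `unitsTrivial : FI.Plan.UnitsTrivial F N`.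

Proof: a normal basis `{g θ}` of `N/F` and its trace-dual `{y_g}` give, after tensoring with
`ℚ_q` and clearing `q`-denominators, normal lattice data on the maximal order `R` of `N ⊗ ℚ_q`
(in the sense of `Local/UnitsLattice`); `R` is `q`-adically complete with finite quotients, so
`units_herbrand` applies to `Rˣ ≅ U_q(N)`.
-/

open scoped BigOperators

noncomputable section

set_option linter.style.haveILetI false
set_option linter.unusedVariables false

namespace Fermat.Agent.CFT.Global.FIUnits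

open Fermat.Agent.CFT.Local.NormIndex (lat NormalLatticeData mem_lat_iff)

/-- Trace-dual pair for a normal basis of a finite Galois extension. -/
theorem exists_trace_dual (F N : Type*) [Field F] [Field N] [Algebra F N] [FiniteDimensional F N]
    [IsGalois F N] :
    ∃ (θ : N) (y : (N ≃ₐ[F] N) → N),
      (∀ g : N ≃ₐ[F] N, ∑ h : N ≃ₐ[F] N, h (g θ * y g) = 1) ∧
      (∀ g g' : N ≃ₐ[F] N, g ≠ g' → ∑ h : N ≃ₐ[F] N, h (g θ * y g') = 0) ∧
      (∀ x : N, x = ∑ g : N ≃ₐ[F] N, (∑ h : N ≃ₐ[F] N, h (x * y g)) * g θ) := by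
  classical
  let b := IsGalois.normalBasis F N
  have hB := traceForm_nondegenerate F N
  have hS := Algebra.traceForm_isSymm F (S := N)
  let b' := (Algebra.traceForm F N).dualBasis hB b
  have key : ∀ g g' : N ≃ₐ[F] N, ∑ h : N ≃ₐ[F] N, h (g (b 1) * b' g') =
      algebraMap F N (if g = g' then 1 else 0) := by
    intro g g'
    rw [← trace_eq_sum_automorphisms, ← IsGalois.normalBasis_apply, ← Algebra.traceForm_apply,
      LinearMap.BilinForm.apply_dualBasis_right hB hS]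
  refine ⟨b 1, fun g => b' g, ?_, ?_, ?_⟩
  · intro g
    rw [key, if_pos rfl, map_one]
  · intro g g' hgg
    rw [key, if_neg hgg, map_zero]
  · intro x
    have h1 : ∀ g, b.repr x g = Algebra.trace F N (x * b' g) := by
      intro g
      have := LinearMap.BilinForm.dualBasis_repr_apply hB b' x g
      rw [LinearMap.BilinForm.dualBasis_dualBasis hB hS b] at this
      rw [this, Algebra.traceForm_apply]
    conv_lhs => rw [← b.sum_repr x]
    refine Finset.sum_congr rfl fun g _ => ?_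
    rw [h1, ← trace_eq_sum_automorphisms, ← IsGalois.normalBasis_apply, Algebra.smul_def]


section Abstract

variable {G A : Type*} [Group G] [Fintype G] [CommRing A] [MulSemiringAction G A]

theorem smul_sum_smul (h' : G) (z : A) : h' • ∑ h : G, h • z = ∑ h : G, h • z := by
  rw [Finset.smul_sum]
  exact Fintype.sum_equiv (Equiv.mulLeft h') _ _ (fun h => by simp [mul_smul])

theorem sum_smul_fixed_mul {a : A} (ha : ∀ h : G, h • a = a) (z : A) :
    ∑ h : G, h • (a * z) = a * ∑ h : G, h • z := by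
  rw [Finset.mul_sum]
  exact Finset.sum_congr rfl fun h _ => by rw [smul_mul', ha]

/-- A `G`-stable subring `S` of `A`, a fixed unit `ϖ ∈ S`, and a trace-dual pair `(θ₀, y)` of
`A` whose `ϖ`-power multiples lie in `S`, give normal lattice data on `S`. -/
theorem normalLatticeData_of_dual (S : Subring A) [IsInvariantSubring G S] {ϖ : A} (hϖS : ϖ ∈ S)
    (hϖ : ∀ g : G, g • ϖ = ϖ) (hϖu : IsUnit ϖ) (θ₀ : A) (y : G → A)
    (h1 : ∀ g : G, ∑ h : G, h • (g • θ₀ * y g) = 1)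
    (h0 : ∀ g g' : G, g ≠ g' → ∑ h : G, h • (g • θ₀ * y g') = 0)
    (hx : ∀ x : A, x = ∑ g : G, (∑ h : G, h • (x * y g)) * g • θ₀)
    {c₀ c₁ : ℕ} (hθ : ϖ ^ c₀ * θ₀ ∈ S) (hy : ∀ g, ϖ ^ c₁ * y g ∈ S) :
    NormalLatticeData G (⟨ϖ, hϖS⟩ : S) ⟨ϖ ^ c₀ * θ₀, hθ⟩ (c₀ + c₁) := by
  classical
  have hsm : ∀ g : G, g • (ϖ ^ c₀ * θ₀) = ϖ ^ c₀ * g • θ₀ := fun g => by
    rw [smul_mul', smul_pow', hϖ]
  refine ⟨fun g => Subtype.ext (hϖ g), ?_, ?_⟩
  · intro a ha hsum g'
    have ha' : ∀ g h : G, h • (a g : A) = a g := fun g h => congrArg Subtype.val (ha g h)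
    have hsum' : ∑ g, (a g : A) * g • θ₀ = 0 := by
      have h2 : ((∑ g, a g * g • (⟨ϖ ^ c₀ * θ₀, hθ⟩ : S) : S) : A) = 0 := by
        rw [hsum]; rfl
      have h3 : ϖ ^ c₀ * ∑ g, (a g : A) * g • θ₀ = 0 := by
        rw [← h2, AddSubmonoidClass.coe_finsetSum, Finset.mul_sum]
        refine Finset.sum_congr rfl fun g _ => ?_
        show _ = (a g : A) * g • (ϖ ^ c₀ * θ₀)
        rw [hsm]; ring
      exact (hϖu.pow c₀).mul_left_cancel (by rw [h3, mul_zero])
    have h4 : (a g' : A) = ∑ h : G, h • ((∑ g, (a g : A) * g • θ₀) * y g') := by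
      rw [Finset.sum_mul]
      simp_rw [Finset.smul_sum]
      rw [Finset.sum_comm]
      have : ∀ g : G, ∑ h : G, h • ((a g : A) * g • θ₀ * y g') =
          (a g : A) * ∑ h : G, h • (g • θ₀ * y g') := fun g => by
        simp_rw [mul_assoc]
        exact sum_smul_fixed_mul (ha' g) _
      simp_rw [this]
      rw [Finset.sum_eq_single g' (fun g _ hg => by rw [h0 g g' hg, mul_zero])
        (fun h => absurd (Finset.mem_univ _) h), h1, mul_one]
    apply Subtype.ext
    rw [h4, hsum']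
    simp
  · intro x
    rw [mem_lat_iff]
    refine ⟨fun g => ⟨∑ h : G, h • ((x : A) * (ϖ ^ c₁ * y g)),
      sum_mem fun h _ => IsInvariantSubring.smul_mem h (mul_mem x.2 (hy g))⟩, ?_, ?_⟩
    · intro g h
      exact Subtype.ext (smul_sum_smul h _)
    · apply Subtype.ext
      rw [pow_zero, one_mul]
      show ϖ ^ (c₀ + c₁) * (x : A) = ((∑ g : G, (⟨∑ h : G, h • ((x : A) * (ϖ ^ c₁ * y g)),
        sum_mem fun h _ => IsInvariantSubring.smul_mem h (mul_mem x.2 (hy g))⟩ : S) *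
          g • (⟨ϖ ^ c₀ * θ₀, hθ⟩ : S) : S) : A)
      rw [AddSubmonoidClass.coe_finsetSum]
      conv_lhs => rw [hx (x : A), Finset.mul_sum]
      refine Finset.sum_congr rfl fun g _ => ?_
      show _ = (∑ h : G, h • ((x : A) * (ϖ ^ c₁ * y g))) * g • (ϖ ^ c₀ * θ₀)
      rw [hsm]
      have e : ∑ h : G, h • ((x : A) * (ϖ ^ c₁ * y g)) = ϖ ^ c₁ * ∑ h : G, h • ((x : A) * y g) := by
        rw [← sum_smul_fixed_mul (fun h => by rw [smul_pow', hϖ])]
        refine Finset.sum_congr rfl fun h _ => ?_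
        congr 1; ring
      rw [e, pow_add]
      ring

end Abstract


section Concrete

open TensorProduct
open Fermat.Agent.CFT.Global.L7 Fermat.Agent.CFT.Global.QBridge

variable (F N : Type) [Field F] [NumberField F] [Field N] [NumberField N] [Algebra F N]
  [FiniteDimensional F N] (q : Nat.Primes)

/-- The action of `Gal(N/F)` on `A_q(N)` through `galAct`. -/
@[reducible] def aqAction : MulSemiringAction (N ≃ₐ[F] N) (Aq N q) where
  smul g x := galAct F N q g x
  one_smul := FI.galAct_one_apply F N q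
  mul_smul := FI.galAct_mul_apply F N q
  smul_zero g := map_zero _
  smul_add g := map_add _
  smul_one g := map_one _
  smul_mul g := map_mul _

theorem sum_galAct_tmul (x : N) (c : ℚ_[(q : ℕ)]) :
    ∑ h : N ≃ₐ[F] N, galAct F N q h (x ⊗ₜ[ℚ] c) = (∑ h : N ≃ₐ[F] N, h x) ⊗ₜ[ℚ] c := by
  simp_rw [galAct_tmul]
  rw [TensorProduct.sum_tmul]

theorem dual_tmul_one (θ : N) (y : (N ≃ₐ[F] N) → N) (g g' : N ≃ₐ[F] N) :
    ∑ h : N ≃ₐ[F] N, galAct F N q h
      (galAct F N q g (θ ⊗ₜ[ℚ] (1 : ℚ_[(q : ℕ)])) * (y g' ⊗ₜ[ℚ] (1 : ℚ_[(q : ℕ)]))) =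
      (∑ h : N ≃ₐ[F] N, h (g θ * y g')) ⊗ₜ[ℚ] (1 : ℚ_[(q : ℕ)]) := by
  rw [galAct_tmul, Algebra.TensorProduct.tmul_mul_tmul, mul_one, sum_galAct_tmul]

theorem dual_expand (θ : N) (y : (N ≃ₐ[F] N) → N)
    (hx : ∀ x : N, x = ∑ g : N ≃ₐ[F] N, (∑ h : N ≃ₐ[F] N, h (x * y g)) * g θ) (x : Aq N q) :
    x = ∑ g : N ≃ₐ[F] N, (∑ h : N ≃ₐ[F] N, galAct F N q h
      (x * (y g ⊗ₜ[ℚ] (1 : ℚ_[(q : ℕ)])))) * galAct F N q g (θ ⊗ₜ[ℚ] (1 : ℚ_[(q : ℕ)])) := by
  induction x using TensorProduct.induction_on with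
  | zero => simp
  | tmul n c =>
    have : ∀ g : N ≃ₐ[F] N, (∑ h : N ≃ₐ[F] N, galAct F N q h
        ((n ⊗ₜ[ℚ] c) * (y g ⊗ₜ[ℚ] (1 : ℚ_[(q : ℕ)])))) *
          galAct F N q g (θ ⊗ₜ[ℚ] (1 : ℚ_[(q : ℕ)])) =
        ((∑ h : N ≃ₐ[F] N, h (n * y g)) * g θ) ⊗ₜ[ℚ] c := by
      intro g
      rw [Algebra.TensorProduct.tmul_mul_tmul, mul_one, sum_galAct_tmul, galAct_tmul,
        Algebra.TensorProduct.tmul_mul_tmul, mul_one]
    simp_rw [this]
    rw [← TensorProduct.sum_tmul, ← hx n]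
  | add a b ha hb =>
    conv_lhs => rw [ha, hb]
    rw [← Finset.sum_add_distrib]
    refine Finset.sum_congr rfl fun g _ => ?_
    rw [← add_mul, ← Finset.sum_add_distrib]
    congr 1
    refine Finset.sum_congr rfl fun h _ => ?_
    rw [add_mul, map_add]

end Concrete


section Order

open TensorProduct NumberField
open Fermat.Agent.CFT.Global.QBridge

variable (q : ℕ) [Fact q.Prime] (N : Type) [Field N] [NumberField N]

/-- The `ℤ_[q]`-algebra structure of the maximal order. -/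
@[reducible] def orderAlgebra : Algebra ℤ_[q] (maxOrder q N) :=
  ((qInt q N).codRestrict (maxOrder q N) (fun c => qInt_mem_maxOrder c)).toAlgebra

theorem exists_coeffs {a : N ⊗[ℚ] ℚ_[q]} (ha : a ∈ maxOrder q N) :
    ∃ r : Module.Free.ChooseBasisIndex ℤ (𝓞 N) → ℤ_[q],
      a = ∑ i, qInt q N (r i) * (((RingOfIntegers.basis N i : 𝓞 N) : N) ⊗ₜ[ℚ] (1 : ℚ_[q])) := by
  rw [mem_maxOrder_iff_addClosure] at ha
  induction ha using AddSubgroup.closure_induction with
  | mem x hx =>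
    obtain ⟨y, c, rfl⟩ := hx
    refine ⟨fun i => ((RingOfIntegers.basis N).repr y i : ℤ_[q]) * c, ?_⟩
    have hy : (y : N) = ∑ i, ((RingOfIntegers.basis N).repr y i : ℤ) •
        ((RingOfIntegers.basis N i : 𝓞 N) : N) := by
      conv_lhs => rw [← (RingOfIntegers.basis N).sum_repr y]
      simp
    conv_lhs => rw [hy, TensorProduct.sum_tmul]
    refine Finset.sum_congr rfl fun i _ => ?_
    rw [qInt_apply, Algebra.TensorProduct.tmul_mul_tmul, one_mul, mul_one,
      ← TensorProduct.smul_tmul', ← TensorProduct.tmul_smul, zsmul_eq_mul]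
    simp
  | zero => exact ⟨0, by simp⟩
  | add x y _ _ hx hy =>
    obtain ⟨r, rfl⟩ := hx
    obtain ⟨r', rfl⟩ := hy
    exact ⟨r + r', by simp [add_mul, Finset.sum_add_distrib]⟩
  | neg x _ hx =>
    obtain ⟨r, rfl⟩ := hx
    exact ⟨-r, by simp [Finset.sum_neg_distrib]⟩

theorem order_finite :
    letI := orderAlgebra q N
    Module.Finite ℤ_[q] (maxOrder q N) := by
  letI := orderAlgebra q N
  let v : Module.Free.ChooseBasisIndex ℤ (𝓞 N) → maxOrder q N := fun i =>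
    ⟨((RingOfIntegers.basis N i : 𝓞 N) : N) ⊗ₜ[ℚ] (1 : ℚ_[q]), by
      have := tmul_mem_maxOrder (q := q) (RingOfIntegers.basis N i) 1
      simpa using this⟩
  refine Module.Finite.of_surjective (Fintype.linearCombination ℤ_[q] v) ?_
  intro s
  obtain ⟨r, hr⟩ := exists_coeffs q N s.2
  refine ⟨r, Subtype.ext ?_⟩
  rw [Fintype.linearCombination_apply, hr, AddSubmonoidClass.coe_finsetSum]
  refine Finset.sum_congr rfl fun i _ => ?_
  rw [Algebra.smul_def]
  rfl

theorem order_torsionFree :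
    letI := orderAlgebra q N
    Module.IsTorsionFree ℤ_[q] (maxOrder q N) := by
  letI := orderAlgebra q N
  refine Module.IsTorsionFree.of_smul_eq_zero fun r m h => ?_
  by_cases hr : r = 0
  · exact Or.inl hr
  · right
    have h1 : qInt q N r * (m : N ⊗[ℚ] ℚ_[q]) = 0 := by
      have := congrArg Subtype.val h
      rw [Algebra.smul_def] at this
      exact this
    have hu : IsUnit (qInt q N r) := by
      rw [qInt_apply]
      have h2 : IsUnit (r : ℚ_[q]) := by
        rw [isUnit_iff_ne_zero]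
        exact fun h0 => hr (Subtype.ext h0)
      exact h2.map (Algebra.TensorProduct.includeRight : ℚ_[q] →ₐ[ℚ] N ⊗[ℚ] ℚ_[q])
    exact Subtype.ext (hu.mul_left_cancel (by rw [h1]; exact (mul_zero _).symm))

theorem natCast_mem_maxOrder : ((q : ℕ) : N ⊗[ℚ] ℚ_[q]) ∈ maxOrder q N := natCast_mem _ q

theorem order_isAdicComplete :
    IsAdicComplete (Ideal.span {(⟨((q : ℕ) : N ⊗[ℚ] ℚ_[q]), natCast_mem_maxOrder q N⟩ :
      maxOrder q N)}) (maxOrder q N) := by
  letI := orderAlgebra q N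
  haveI := order_finite q N
  haveI := order_torsionFree q N
  haveI : Module.Free ℤ_[q] (maxOrder q N) := Module.free_of_finite_type_torsion_free'
  haveI := Local.NormIndex.padicInt_isAdicComplete q
  have h := Local.NormIndex.isAdicComplete_of_basis
    (Module.Free.chooseBasis ℤ_[q] (maxOrder q N)) (q : ℤ_[q])
  have e : algebraMap ℤ_[q] (maxOrder q N) (q : ℤ_[q]) =
      (⟨((q : ℕ) : N ⊗[ℚ] ℚ_[q]), natCast_mem_maxOrder q N⟩ : maxOrder q N) :=
    Subtype.ext (by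
      show qInt q N (q : ℤ_[q]) = _
      rw [map_natCast])
  rw [e] at h
  exact h

theorem order_finite_quotient (j : ℕ) :
    Finite (maxOrder q N ⧸ Ideal.span
      {(⟨((q : ℕ) : N ⊗[ℚ] ℚ_[q]), natCast_mem_maxOrder q N⟩ : maxOrder q N) ^ j}) := by
  letI := orderAlgebra q N
  haveI := order_finite q N
  haveI := order_torsionFree q N
  haveI : Module.Free ℤ_[q] (maxOrder q N) := Module.free_of_finite_type_torsion_free'
  haveI := Local.NormIndex.padicInt_finite_quotient q j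
  have h := Local.NormIndex.finite_quotient_of_basis
    (Module.Free.chooseBasis ℤ_[q] (maxOrder q N)) (q : ℤ_[q]) j
  have e : algebraMap ℤ_[q] (maxOrder q N) (q : ℤ_[q]) =
      (⟨((q : ℕ) : N ⊗[ℚ] ℚ_[q]), natCast_mem_maxOrder q N⟩ : maxOrder q N) :=
    Subtype.ext (by
      show qInt q N (q : ℤ_[q]) = _
      rw [map_natCast])
  rw [e] at h
  exact h

end Order


section Main

open TensorProduct NumberField
open Fermat.Agent.CFT.Global.L7 Fermat.Agent.CFT.Global.QBridge Fermat.Agent.CFT.Herbrand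
open Fermat.Agent.CFT.Local.NormIndex (unitAct unitAct_mul dA nA dA_apply nA_apply dU_apply
  nU_apply units_herbrand)

variable (F N : Type) [Field F] [NumberField F] [Field N] [NumberField N] [Algebra F N]
  [FiniteDimensional F N]

omit [FiniteDimensional F N] in
theorem galAct_mem_maxOrder (q : Nat.Primes) (g : N ≃ₐ[F] N) {x : Aq N q}
    (hx : x ∈ maxOrder (q : ℕ) N) : galAct F N q g x ∈ maxOrder (q : ℕ) N := by
  rw [mem_maxOrder_iff] at hx ⊢
  obtain ⟨P, hP, hPx⟩ := hx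
  refine ⟨P, hP, ?_⟩
  have h1 : ((galAct F N q g : Aq N q ≃+* Aq N q) : Aq N q →+* Aq N q).comp
      (qInt (q : ℕ) N) = qInt (q : ℕ) N := by
    ext c
    exact FI.galAct_qInt F N q g c
  have h2 := Polynomial.hom_eval₂ P (qInt (q : ℕ) N)
    ((galAct F N q g : Aq N q ≃+* Aq N q) : Aq N q →+* Aq N q) x
  rw [h1] at h2
  have h3 : (galAct F N q g) (Polynomial.eval₂ (qInt (q : ℕ) N) x P) =
      Polynomial.eval₂ (qInt (q : ℕ) N) (galAct F N q g x) P := h2
  rw [← h3, hPx, map_zero]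

/-- **[FI-U]** For `N/F` cyclic and every rational prime `q`, the `G`-module `U_q(N)` has finite
Tate groups and Herbrand quotient `1`. -/
theorem unitsTrivial : FI.Plan.UnitsTrivial F N := by
  intro hGal hCyc q
  classical
  letI : MulSemiringAction (N ≃ₐ[F] N) (Aq N q) := aqAction F N q
  haveI : IsInvariantSubring (N ≃ₐ[F] N) (maxOrder (q : ℕ) N) :=
    ⟨fun g _ hx => galAct_mem_maxOrder F N q g hx⟩
  obtain ⟨θ, y, h1, h0, hx⟩ := exists_trace_dual F N
  obtain ⟨c₀, hc₀⟩ := exists_pow_mul_mem_maxOrder (q := (q : ℕ)) (L := N)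
    (θ ⊗ₜ[ℚ] (1 : ℚ_[(q : ℕ)]))
  have hc₁ : ∃ c₁, ∀ g : N ≃ₐ[F] N,
      (((q : ℕ) : ℕ) : Aq N q) ^ c₁ * (y g ⊗ₜ[ℚ] (1 : ℚ_[(q : ℕ)])) ∈ maxOrder (q : ℕ) N := by
    choose n hn using fun g : N ≃ₐ[F] N =>
      exists_pow_mul_mem_maxOrder (q := (q : ℕ)) (L := N) (y g ⊗ₜ[ℚ] (1 : ℚ_[(q : ℕ)]))
    refine ⟨∑ g, n g, fun g => ?_⟩
    have hle : n g ≤ ∑ g, n g :=
      Finset.single_le_sum (fun _ _ => Nat.zero_le _) (Finset.mem_univ g)
    obtain ⟨k, hk⟩ := Nat.exists_eq_add_of_le hle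
    rw [hk, pow_add, mul_comm (_ ^ n g), mul_assoc]
    exact mul_mem (pow_mem (natCast_mem_maxOrder (q : ℕ) N) k) (hn g)
  obtain ⟨c₁, hc₁⟩ := hc₁
  have hL : NormalLatticeData (N ≃ₐ[F] N)
      (⟨(((q : ℕ) : ℕ) : Aq N q), natCast_mem_maxOrder (q : ℕ) N⟩ : maxOrder (q : ℕ) N)
      ⟨_, hc₀⟩ (c₀ + c₁) :=
    normalLatticeData_of_dual (maxOrder (q : ℕ) N) (natCast_mem_maxOrder (q : ℕ) N)
      (fun g => map_natCast (galAct F N q g) _)
      (by simpa using isUnit_natCast_pow (q := (q : ℕ)) (L := N) 1)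
      (θ ⊗ₜ[ℚ] (1 : ℚ_[(q : ℕ)])) (fun g => y g ⊗ₜ[ℚ] (1 : ℚ_[(q : ℕ)]))
      (fun g => by
        show ∑ h : N ≃ₐ[F] N, galAct F N q h (galAct F N q g (θ ⊗ₜ[ℚ] (1 : ℚ_[(q : ℕ)])) *
          (y g ⊗ₜ[ℚ] (1 : ℚ_[(q : ℕ)]))) = 1
        rw [dual_tmul_one, h1]
        rfl)
      (fun g g' hgg => by
        show ∑ h : N ≃ₐ[F] N, galAct F N q h (galAct F N q g (θ ⊗ₜ[ℚ] (1 : ℚ_[(q : ℕ)])) *
          (y g' ⊗ₜ[ℚ] (1 : ℚ_[(q : ℕ)]))) = 0
        rw [dual_tmul_one, h0 g g' hgg, zero_tmul])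
      (fun x => dual_expand F N q θ y hx x) hc₀ hc₁
  haveI := order_isAdicComplete (q : ℕ) N
  haveI := order_finite_quotient (q : ℕ) N (2 * (c₀ + c₁) + 1)
  obtain ⟨σ, hσ⟩ := IsCyclic.exists_generator (α := N ≃ₐ[F] N)
  obtain ⟨hfin, hq1⟩ := units_herbrand hL hσ
  -- the `G`-module `Rˣ` in the `ρ`-vocabulary
  let φS : (N ≃ₐ[F] N) →* Monoid.End (maxOrder (q : ℕ) N)ˣ :=
    { toFun := fun g => unitAct g
      map_one' := by
        refine MonoidHom.ext fun u => Units.ext ?_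
        show (1 : N ≃ₐ[F] N) • (u : maxOrder (q : ℕ) N) = u
        rw [one_smul]
      map_mul' := fun g h => MonoidHom.ext fun u => unitAct_mul g h u }
  have hd : dEnd (FI.addRho φS) σ = dA σ := AddMonoidHom.ext fun x => rfl
  have hn : nEnd (FI.addRho φS) = nA (N ≃ₐ[F] N) (maxOrder (q : ℕ) N) := by
    refine AddMonoidHom.ext fun x => ?_
    rw [nEnd_apply, nA_apply, nU_apply, ofMul_prod]
    rfl
  have hFinS : IsFinH (FI.addRho φS) := by
    rw [isFinH_iff _ hσ, hd, hn]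
    exact hfin
  have hHS : herbrand (FI.addRho φS) = 1 := by
    rw [herbrand_eq_hq _ hσ, hd, hn]
    exact hq1
  -- the equivariant isomorphism `Rˣ ≃ U_q(N)`
  let f : (maxOrder (q : ℕ) N)ˣ →* Uq N q :=
    (Units.map ((maxOrder (q : ℕ) N).subtype : maxOrder (q : ℕ) N →* Aq N q)).codRestrict
      (Uq N q) (fun u => by
        rw [mem_Uq]
        exact ⟨(mem_maxOrder_iff _).1 (u : maxOrder (q : ℕ) N).2,
          (mem_maxOrder_iff _).1 ((u⁻¹ : (maxOrder (q : ℕ) N)ˣ) : maxOrder (q : ℕ) N).2⟩)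
  have hf : Function.Bijective f := by
    constructor
    · intro u v huv
      have h2 : ((f u : Uq N q) : (Aq N q)ˣ) = f v := congrArg Subtype.val huv
      exact Units.ext (Subtype.ext (congrArg Units.val h2))
    · intro v
      have hv := (mem_Uq N).1 v.2
      refine ⟨⟨⟨(v : (Aq N q)ˣ), (mem_maxOrder_iff _).2 hv.1⟩,
        ⟨((v : (Aq N q)ˣ)⁻¹ : (Aq N q)ˣ), (mem_maxOrder_iff _).2 hv.2⟩,
        Subtype.ext (v : (Aq N q)ˣ).mul_inv, Subtype.ext (v : (Aq N q)ˣ).inv_mul⟩, ?_⟩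
      exact Subtype.ext (Units.ext rfl)
  let e : Additive (maxOrder (q : ℕ) N)ˣ ≃+ Additive (Uq N q) :=
    MulEquiv.toAdditive (MulEquiv.ofBijective f hf)
  have he : ∀ (g : N ≃ₐ[F] N) (a : Additive (maxOrder (q : ℕ) N)ˣ),
      e (FI.addRho φS g a) = FI.uqRho F N q g (e a) := fun g a =>
    Subtype.ext (Units.ext rfl)
  refine ⟨?_, ?_⟩
  · refine ⟨?_, ?_⟩
    · rw [← h0_congr e he]
      exact hFinS.1
    · rw [← hm1_congr e he]
      exact hFinS.2
  · rw [← herbrand_congr e he]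
    exact hHS

end Main

end Fermat.Agent.CFT.Global.FIUnits

end
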