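/-
CFT program (P3), layer Global: the descent rows of the Plan as unconditional theorems (helper89).

* `classDescent_plan  : Plan.ClassDescent`    [G1]  (`ClassDescent.classDescent`)
* `classDescentS_plan : Plan.ClassDescentS`   [G2]  (`ClassDescentS.classDescentS` fed with
                                                      `LocUnitsDirect.locUnitsH1` of helper9)
* `sDescent_plan      : ExistPlan.SDescent`   [EX.h]
-/
import Mathlib
import Fermat.Agent.CFT.Global.Plan
import Fermat.Agent.CFT.Global.ExistPlan
import Fermat.Agent.CFT.Global.ClassDescent
import Fermat.Agent.CFT.Global.ClassDescentS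
import Fermat.Agent.CFT.Global.ExistSDescent
import Fermat.Agent.CFT.Global.LocUnitsDirect.H1

set_option autoImplicit false

open scoped Fermat.Agent.CFT.Global

namespace Fermat.Agent.CFT.Global.ClassDescentPlan

open Fermat.Agent.CFT.Global

/-- **[G1]** Galois descent for the idele class group. -/
theorem classDescent_plan : Plan.ClassDescent :=
  fun L L' G G' _ _ _ _ _ _ _ _ _ _ f π h => ClassDescent.classDescent L L' G G' f π h

/-- **[G2]** Galois descent for the `S`-idele class group, unconditional. -/
theorem classDescentS_plan : Plan.ClassDescentS :=
  fun L L' G G' _ _ _ _ _ _ _ _ _ _ f π h S hS hur =>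
    ClassDescentS.classDescentS LocUnitsDirect.locUnitsH1 L L' G G' f π h S hS hur

/-- **[EX.h]** descent over the fixed field, unconditional. -/
theorem sDescent_plan : ExistPlan.SDescent :=
  ExistSDescent.sDescent LocUnitsDirect.locUnitsH1

end Fermat.Agent.CFT.Global.ClassDescentPlan
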