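import Mathlib
import Fermat.Agent.CFT.Global.Defs

/-!
# Class field theory program (P3), global layer: `C_L → C_S(L)` ([G3] `SClassCompare`)

For `S ≠ ∅` the kernel of `C_L → C_S(L)` is `U^S = ∏_{q ∉ S} U_q(L)` (`Lˣ ∩ U^S = 1`), so

  `0 → U^S → C_L → C_S(L) → 0`

is a short exact sequence of `G`-modules (`uSES`, `uSES_shortExact`).  If the local unit groups
`U_q(L)`, `q ∉ S`, have trivial cohomology in degrees `≥ 1` (true when `L` is unramified outside
`S`: [C3] `LocUnitsAcyclic`), then so has their product `U^S` (`isZero_of_family`, a general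
statement on the cohomology of a product, proved on inhomogeneous cochains), and the long exact
sequence gives `sClassCompare`:

* `Hⁿ(G, C_L) → Hⁿ(G, C_S(L))` is bijective for `n ≥ 1`;
* `C_L^G → C_S(L)^G` is surjective.
-/

set_option autoImplicit false

open CategoryTheory groupCohomology
open scoped TensorProduct Fermat.Agent.CFT.Global

noncomputable section

namespace Fermat.Agent.CFT.Global.SClassCompare

/-! ## Cohomology of a product of representations -/

section Product

variable {k G : Type} [CommRing k] [Group G]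

/-- Concrete criterion for the vanishing of `Hⁿ⁺¹(G, A)`: every `(n+1)`-cocycle is a
coboundary. -/
lemma isZero_succ_iff (A : Rep.{0} k G) (n : ℕ) :
    Limits.IsZero (groupCohomology A (n + 1)) ↔
      ∀ x : (Fin (n + 1) → G) → A, inhomogeneousCochains.d A (n + 1) x = 0 →
        ∃ y : (Fin n → G) → A, inhomogeneousCochains.d A n y = x := by
  have h1 : (inhomogeneousCochains A).d n (n + 1) = inhomogeneousCochains.d A n :=
    inhomogeneousCochains.d_def A n
  have h2 : (inhomogeneousCochains A).d (n + 1) (n + 2) = inhomogeneousCochains.d A (n + 1) :=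
    inhomogeneousCochains.d_def A (n + 1)
  rw [groupCohomology, ← HomologicalComplex.exactAt_iff_isZero_homology,
    HomologicalComplex.exactAt_iff' _ n (n + 1) (n + 2) (by simp) (by simp),
    ShortComplex.moduleCat_exact_iff]
  constructor
  · intro h x hx
    obtain ⟨y, hy⟩ := h x (by
      change ((inhomogeneousCochains A).d (n + 1) (n + 2)) x = 0
      rw [h2]; exact hx)
    refine ⟨y, ?_⟩
    change ((inhomogeneousCochains A).d n (n + 1)) y = x at hy
    rw [h1] at hy
    exact hy
  · intro h x hx
    change ((inhomogeneousCochains A).d (n + 1) (n + 2)) x = 0 at hx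
    rw [h2] at hx
    obtain ⟨y, hy⟩ := h x hx
    refine ⟨y, ?_⟩
    change ((inhomogeneousCochains A).d n (n + 1)) y = x
    rw [h1]; exact hy

/-- The differential commutes with a morphism of representations, pointwise. -/
lemma d_comp_hom {A B : Rep.{0} k G} (φ : A ⟶ B) (n : ℕ) (x : (Fin n → G) → A)
    (g : Fin (n + 1) → G) :
    inhomogeneousCochains.d B n (fun h => φ.hom (x h)) g =
      φ.hom (inhomogeneousCochains.d A n x g) := by
  rw [inhomogeneousCochains.d_hom_apply, inhomogeneousCochains.d_hom_apply, map_add,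
    Rep.hom_comm_apply, map_sum]
  congr 1
  refine Finset.sum_congr rfl fun j _ => ?_
  rw [map_smul]

variable {ι : Type*} {B : Rep.{0} k G} {A : ι → Rep.{0} k G} (pr : ∀ i, B ⟶ A i)

/-- **Cohomology of a product**: if `B` is the product of the `A i` (projections `pr i`, jointly
injective, every family is attained) and `Hⁿ⁺¹(G, A i) = 0` for all `i`, then
`Hⁿ⁺¹(G, B) = 0`. -/
theorem isZero_of_family
    (hinj : ∀ b : B, (∀ i, (pr i).hom b = 0) → b = 0)
    (hsurj : ∀ a : ∀ i, A i, ∃ b : B, ∀ i, (pr i).hom b = a i)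
    (n : ℕ) (h : ∀ i, Limits.IsZero (groupCohomology (A i) (n + 1))) :
    Limits.IsZero (groupCohomology B (n + 1)) := by
  rw [isZero_succ_iff]
  intro x hx
  have h' := fun i => (isZero_succ_iff (A i) n).1 (h i)
  have hxi : ∀ i, inhomogeneousCochains.d (A i) (n + 1) (fun g => (pr i).hom (x g)) = 0 := by
    intro i
    funext g
    rw [d_comp_hom (pr i) (n + 1) x g, hx]
    exact map_zero _
  choose y hy using fun i => h' i _ (hxi i)
  choose z hz using fun g : Fin n → G => hsurj (fun i => y i g)
  refine ⟨z, ?_⟩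
  funext g
  have h0 : inhomogeneousCochains.d B n z g - x g = 0 := by
    apply hinj
    intro i
    rw [map_sub, ← d_comp_hom (pr i) n z g]
    have h1 : (fun h => (pr i).hom (z h)) = y i := funext fun h => hz h i
    rw [h1, hy i, sub_self]
  exact sub_eq_zero.1 h0

/-- If `H¹(G, A) = 0` then every 1-cocycle is a coboundary. -/
lemma exists_of_isZero_H1 {A : Rep.{0} k G} (h : Limits.IsZero (groupCohomology A 1))
    (c : G → A) (hc : ∀ g g' : G, c (g * g') = A.ρ g (c g') + c g) :
    ∃ a : A, ∀ g : G, c g = A.ρ g a - a := by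
  have hc' : c ∈ cocycles₁ A := (mem_cocycles₁_iff c).2 hc
  have h0 : H1π A ⟨c, hc'⟩ = 0 := by
    have := (ModuleCat.isZero_iff_subsingleton.1 h)
    exact Subsingleton.elim _ _
  obtain ⟨a, ha⟩ := (H1π_eq_zero_iff (⟨c, hc'⟩ : cocycles₁ A)).1 h0
  refine ⟨a, fun g => ?_⟩
  have := congrFun ha g
  rw [d₀₁_hom_apply] at this
  exact this.symm

end Product

/-! ## The module `U^S` and the sequence `0 → U^S → C_L → C_S(L) → 0` -/

section Units

variable (G : Type) [Group G] (L : Type) [Field L] [CharZero L] [MulSemiringAction G L]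
  (S : Finset Nat.Primes)

/-- `U^S = ∏_{q ∉ S} U_q(L)` as a `G`-module. -/
def uRep : Rep ℤ G :=
  subRep G (unitsOutside L S) (fun g _ hx => smul_mem_unitsOutside G L S g hx)

/-- The projection `U^S → U_q(L)`. -/
def uProj (q : Nat.Primes) : uRep G L S ⟶ localUnitsRep G L q :=
  Rep.ofHom ⟨LinearMap.codRestrict (addSub (localUnits L q))
      ((MonoidHom.toAdditive
        (Pi.evalMonoidHom (fun q : Nat.Primes => (SemiLocal L q)ˣ) q)).toIntLinearMap ∘ₗ
          (addSub (unitsOutside L S)).subtype)
      (fun x => x.2.1 q),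
    fun g => by
      apply LinearMap.ext
      intro x
      apply Subtype.ext
      rfl⟩

/-- The underlying element of an element of (the additive version of) a subgroup. -/
def val {M : Type} [CommGroup M] (H : Subgroup M) (x : ↥(addSub H)) : M := Additive.toMul x.1

lemma val_mem {M : Type} [CommGroup M] (H : Subgroup M) (x : ↥(addSub H)) : val H x ∈ H := x.2

lemma val_injective {M : Type} [CommGroup M] (H : Subgroup M) :
    Function.Injective (val H) := fun _ _ h => Subtype.ext h

lemma uProj_val (q : Nat.Primes) (x : uRep G L S) :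
    val (localUnits L q) ((uProj G L S q).hom x) = val (unitsOutside L S) x q :=
  rfl

/-- The map `U^S → C_L`. -/
def uToClass : uRep G L S ⟶ classRep G L :=
  CategoryStruct.comp (subRepMap G _ _ _ _ (unitsOutside_le_finIdele L S)) (classMk G L)

/-- The element of `J_L` underlying an element of `U^S`. -/
def uToIdele (x : ↥(addSub (unitsOutside L S))) : ↥(addSub (finIdele L)) :=
  ⟨x.1, unitsOutside_le_finIdele L S x.2⟩

lemma val_uToIdele (x : ↥(addSub (unitsOutside L S))) :
    val (finIdele L) (uToIdele L S x) = val (unitsOutside L S) x := rfl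

lemma uToClass_apply (x : uRep G L S) :
    (uToClass G L S).hom x = (classMk G L).hom (uToIdele L S x) := rfl

lemma uToClass_eq_zero_iff (x : uRep G L S) :
    (uToClass G L S).hom x = 0 ↔ val (unitsOutside L S) x ∈ (principal L).range :=
  Submodule.Quotient.mk_eq_zero ((addSub (principal L).range).comap (addSub (finIdele L)).subtype)
    (x := uToIdele L S x)

lemma classMk_surjective (y : classRep G L) :
    ∃ j : ↥(addSub (finIdele L)), (classMk G L).hom j = y :=
  Submodule.mkQ_surjective _ y

lemma classMkS_surjective (y : classRepS G L S) :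
    ∃ j : ↥(addSub (finIdele L)), (classMkS G L S).hom j = y :=
  Submodule.mkQ_surjective _ y

lemma classToClassS_classMk (j : ↥(addSub (finIdele L))) :
    (classToClassS G L S).hom ((classMk G L).hom j) = (classMkS G L S).hom j := rfl

lemma classMkS_eq_zero_iff (j : ↥(addSub (finIdele L))) :
    (classMkS G L S).hom j = 0 ↔
      val (finIdele L) j ∈ (principal L).range ⊔ unitsOutside L S :=
  Submodule.Quotient.mk_eq_zero
    ((addSub ((principal L).range ⊔ unitsOutside L S)).comap (addSub (finIdele L)).subtype)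
    (x := j)

lemma classMk_eq_iff (j j' : ↥(addSub (finIdele L))) :
    (classMk G L).hom j = (classMk G L).hom j' ↔
      val (finIdele L) j / val (finIdele L) j' ∈ (principal L).range :=
  Submodule.Quotient.eq ((addSub (principal L).range).comap (addSub (finIdele L)).subtype)
    (x := j) (y := j')

/-- `a ↦ a ⊗ 1 : L → L ⊗[ℚ] ℚ_[q]` is injective. -/
lemma tmul_one_inj (q : ℕ) [Fact q.Prime] :
    Function.Injective (fun a : L => (a ⊗ₜ[ℚ] (1 : ℚ_[q]) : SemiLocal L q)) :=
  Algebra.TensorProduct.includeLeft_injective (R := ℚ) (S := ℚ) (A := L)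
    (B := ℚ_[q]) (algebraMap ℚ ℚ_[q]).injective

/-- For `S ≠ ∅`: `Lˣ ∩ U^S = 1`. -/
lemma eq_one_of_mem_range_principal (hS : S.Nonempty) {u : IdeleProd L}
    (hu : u ∈ unitsOutside L S) (hp : u ∈ (principal L).range) : u = 1 := by
  obtain ⟨a, rfl⟩ := hp
  obtain ⟨q₀, hq₀⟩ := hS
  have h1 : principal L a q₀ = 1 := hu.2 q₀ hq₀
  have h2 : ((a : L) ⊗ₜ[ℚ] (1 : ℚ_[(q₀ : ℕ)]) : SemiLocal L q₀) =
      ((1 : L) ⊗ₜ[ℚ] (1 : ℚ_[(q₀ : ℕ)]) : SemiLocal L q₀) := congrArg Units.val h1
  have h3 : (a : L) = 1 := tmul_one_inj L q₀ h2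
  have h4 : a = 1 := Units.ext h3
  rw [h4, map_one]

lemma val_zero {M : Type} [CommGroup M] (H : Subgroup M) : val H 0 = 1 := rfl

lemma val_add {M : Type} [CommGroup M] (H : Subgroup M) (x y : ↥(addSub H)) :
    val H (x + y) = val H x * val H y := rfl

lemma val_sub {M : Type} [CommGroup M] (H : Subgroup M) (x y : ↥(addSub H)) :
    val H (x - y) = val H x / val H y := rfl

lemma val_neg {M : Type} [CommGroup M] (H : Subgroup M) (x : ↥(addSub H)) :
    val H (-x) = (val H x)⁻¹ := rfl

/-- An element of (the additive version of) a subgroup from an element of the subgroup. -/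
def ofVal {M : Type} [CommGroup M] (H : Subgroup M) (m : M) (hm : m ∈ H) : ↥(addSub H) :=
  ⟨Additive.ofMul m, hm⟩

lemma val_ofVal {M : Type} [CommGroup M] (H : Subgroup M) (m : M) (hm : m ∈ H) :
    val H (ofVal H m hm) = m := rfl

lemma mem_of_eq' {M : Type} [Group M] {H : Subgroup M} {x y : M} (h : x = y) (hy : y ∈ H) :
    x ∈ H := h ▸ hy

/-- `U^S → C_L` is injective for `S ≠ ∅`. -/
lemma uToClass_injective (hS : S.Nonempty) : Function.Injective (uToClass G L S).hom := by
  intro x y hxy
  have h0 : (uToClass G L S).hom (x - y) = 0 := by rw [map_sub, hxy, sub_self]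
  have h1 := (uToClass_eq_zero_iff G L S (x - y)).1 h0
  have h2 := eq_one_of_mem_range_principal L S hS (val_mem _ (x - y)) h1
  have h3 : x - y = 0 := val_injective (unitsOutside L S) h2
  exact sub_eq_zero.1 h3

/-- `U^S → C_L → C_S(L)` is zero. -/
lemma classToClassS_uToClass (x : uRep G L S) :
    (classToClassS G L S).hom ((uToClass G L S).hom x) = 0 :=
  (classMkS_eq_zero_iff G L S (uToIdele L S x)).2
    ((le_sup_right : unitsOutside L S ≤ (principal L).range ⊔ unitsOutside L S) (val_mem _ x))

/-- Exactness at `C_L`. -/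
lemma exists_uToClass_eq (y : classRep G L) (hy : (classToClassS G L S).hom y = 0) :
    ∃ x : uRep G L S, (uToClass G L S).hom x = y := by
  obtain ⟨j, rfl⟩ := classMk_surjective G L y
  have hy' := (classMkS_eq_zero_iff G L S j).1 hy
  obtain ⟨a, ha, u, hu, hau⟩ := Subgroup.mem_sup.1 hy'
  refine ⟨ofVal (unitsOutside L S) u hu, ?_⟩
  refine (classMk_eq_iff G L (uToIdele L S (ofVal (unitsOutside L S) u hu)) j).2 ?_
  have h : u / (a * u) = a⁻¹ := by
    rw [div_eq_iff_eq_mul, inv_mul_cancel_left]
  have h2 : val (finIdele L) (uToIdele L S (ofVal (unitsOutside L S) u hu)) /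
      val (finIdele L) j = a⁻¹ := (congrArg (fun t => u / t) hau.symm).trans h
  exact mem_of_eq' h2 (inv_mem ha)

/-- `C_L → C_S(L)` is surjective. -/
lemma classToClassS_surjective : Function.Surjective (classToClassS G L S).hom := by
  intro y
  obtain ⟨j, rfl⟩ := classMkS_surjective G L S y
  exact ⟨(classMk G L).hom j, classToClassS_classMk G L S j⟩

/-- The sequence `U^S → C_L → C_S(L)`. -/
def uSES : ShortComplex (Rep ℤ G) :=
  ShortComplex.mk (uToClass G L S) (classToClassS G L S) (by
    apply Rep.hom_ext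
    ext x
    exact classToClassS_uToClass G L S x)

/-- `0 → U^S → C_L → C_S(L) → 0` is exact for `S ≠ ∅`. -/
theorem uSES_shortExact (hS : S.Nonempty) : (uSES G L S).ShortExact where
  exact := by
    refine (ShortComplex.exact_map_iff_of_faithful (uSES G L S)
      (Rep.hasForgetToModuleCat.forget₂)).mp ?_
    rw [ShortComplex.moduleCat_exact_iff]
    intro y hy
    exact exists_uToClass_eq G L S y hy
  mono_f := by
    change Mono (uToClass G L S)
    rw [Rep.mono_iff_injective]
    exact uToClass_injective G L S hS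
  epi_g := by
    change Epi (classToClassS G L S)
    rw [Rep.epi_iff_surjective]
    exact classToClassS_surjective G L S

/-- The projections `U^S → U_q(L)`, `q ∉ S`, are jointly injective. -/
lemma uProj_inj (x : uRep G L S)
    (h : ∀ q : {q : Nat.Primes // q ∉ S}, (uProj G L S q.1).hom x = 0) : x = 0 := by
  apply val_injective (unitsOutside L S)
  change val (unitsOutside L S) x = 1
  funext q
  by_cases hq : q ∈ S
  · exact (val_mem _ x).2 q hq
  · exact congrArg (val (localUnits L q)) (h ⟨q, hq⟩)

/-- Every family of local units at the primes outside `S` comes from `U^S`. -/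
lemma uProj_surj (a : ∀ q : {q : Nat.Primes // q ∉ S}, localUnitsRep G L q.1) :
    ∃ x : uRep G L S, ∀ q : {q : Nat.Primes // q ∉ S}, (uProj G L S q.1).hom x = a q := by
  classical
  let u : IdeleProd L := fun q =>
    if hq : q ∈ S then 1 else val (localUnits L q) (a ⟨q, hq⟩)
  have hu : u ∈ unitsOutside L S := by
    refine ⟨fun q => ?_, fun q hq => ?_⟩
    · by_cases hq : q ∈ S
      · simp only [u, dif_pos hq]
        exact one_mem _
      · simp only [u, dif_neg hq]
        exact val_mem _ _
    · simp only [u, dif_pos hq]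
  refine ⟨ofVal (unitsOutside L S) u hu, fun q => ?_⟩
  apply val_injective (localUnits L q.1)
  change u q.1 = val (localUnits L q.1) (a q)
  exact dif_neg q.2

/-- `Hⁿ⁺¹(G, U^S) = 0` as soon as `Hⁿ⁺¹(G, U_q(L)) = 0` for all `q ∉ S`. -/
theorem isZero_uRep (n : ℕ)
    (h : ∀ q : Nat.Primes, q ∉ S → Limits.IsZero (groupCohomology (localUnitsRep G L q) (n + 1))) :
    Limits.IsZero (groupCohomology (uRep G L S) (n + 1)) :=
  isZero_of_family (fun q : {q : Nat.Primes // q ∉ S} => uProj G L S q.1)
    (uProj_inj G L S) (uProj_surj G L S) n (fun q => h q.1 q.2)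

end Units

/-! ## The comparison `C_L → C_S(L)` -/

section Main

variable (G : Type) [Group G] (L : Type) [Field L] [CharZero L] [MulSemiringAction G L]
  (S : Finset Nat.Primes)

/-- `Hⁿ(G, C_L) → Hⁿ(G, C_S(L))` is injective when `Hⁿ(G, U^S) = 0`. -/
lemma map_injective_of_isZero (hS : S.Nonempty) (n : ℕ)
    (h : Limits.IsZero (groupCohomology (uRep G L S) n)) :
    Function.Injective ((groupCohomology.functor ℤ G n).map (classToClassS G L S)).hom := by
  have hex := groupCohomology.mapShortComplex₂_exact (uSES_shortExact G L S hS) n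
  rw [ShortComplex.moduleCat_exact_iff] at hex
  have hsub := ModuleCat.isZero_iff_subsingleton.1 h
  rw [injective_iff_map_eq_zero]
  intro x hx
  obtain ⟨u, hu⟩ := hex x hx
  have hu0 : u = 0 := hsub.elim u 0
  rw [← hu, hu0]
  exact map_zero _

/-- `Hⁿ(G, C_L) → Hⁿ(G, C_S(L))` is surjective when `Hⁿ⁺¹(G, U^S) = 0`. -/
lemma map_surjective_of_isZero (hS : S.Nonempty) (n : ℕ)
    (h : Limits.IsZero (groupCohomology (uRep G L S) (n + 1))) :
    Function.Surjective ((groupCohomology.functor ℤ G n).map (classToClassS G L S)).hom := by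
  have hex := groupCohomology.mapShortComplex₃_exact (uSES_shortExact G L S hS)
    (rfl : n + 1 = n + 1)
  rw [ShortComplex.moduleCat_exact_iff] at hex
  have hsub := ModuleCat.isZero_iff_subsingleton.1 h
  intro y
  obtain ⟨x, hx⟩ := hex y (hsub.elim _ _)
  exact ⟨x, hx⟩

/-- `C_L^G → C_S(L)^G` is surjective when `H¹(G, U^S) = 0`. -/
lemma invariants_surjective (hS : S.Nonempty)
    (h : Limits.IsZero (groupCohomology (uRep G L S) 1))
    (y : classRepS G L S) (hy : ∀ g : G, (classRepS G L S).ρ g y = y) :
    ∃ x : classRep G L, (∀ g : G, (classRep G L).ρ g x = x) ∧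
      (classToClassS G L S).hom x = y := by
  obtain ⟨x₀, hx₀⟩ := classToClassS_surjective G L S y
  have hker : ∀ g : G, (classToClassS G L S).hom ((classRep G L).ρ g x₀ - x₀) = 0 := by
    intro g
    rw [map_sub, Rep.hom_comm_apply, hx₀, hy g, sub_self]
  choose c hc using fun g => exists_uToClass_eq G L S _ (hker g)
  have hcoc : ∀ g g' : G, c (g * g') = (uRep G L S).ρ g (c g') + c g := by
    intro g g'
    apply uToClass_injective G L S hS
    rw [map_add, Rep.hom_comm_apply, hc, hc, hc, map_mul, map_sub]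
    simp
  obtain ⟨a, ha⟩ := exists_of_isZero_H1 h c hcoc
  refine ⟨x₀ - (uToClass G L S).hom a, fun g => ?_, ?_⟩
  · have h1 := hc g
    rw [ha g, map_sub, Rep.hom_comm_apply] at h1
    rw [map_sub]
    have h2 : (classRep G L).ρ g x₀ - (classRep G L).ρ g ((uToClass G L S).hom a) -
        (x₀ - (uToClass G L S).hom a) = 0 := by
      rw [sub_sub_sub_comm, ← h1, sub_self]
    exact sub_eq_zero.1 h2
  · rw [map_sub, classToClassS_uToClass, sub_zero, hx₀]

/-- **[G3] `SClassCompare`** (core form).  `S ≠ ∅`, and the local units `U_q(L)`, `q ∉ S`, have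
trivial cohomology in degrees `≥ 1`.  Then `Hⁿ(G, C_L) → Hⁿ(G, C_S(L))` is bijective for
`n ≥ 1`, and `C_L^G → C_S(L)^G` is surjective. -/
theorem sClassCompare (hS : S.Nonempty)
    (hU : ∀ q : Nat.Primes, q ∉ S → ∀ n : ℕ, 1 ≤ n →
      Limits.IsZero (groupCohomology (localUnitsRep G L q) n)) :
    (∀ n : ℕ, 1 ≤ n →
      Function.Bijective ((groupCohomology.functor ℤ G n).map (classToClassS G L S)).hom) ∧
    ∀ y : ClassGroupSOf L S, (∀ g : G, (classRepS G L S).ρ g y = y) →
      ∃ x : ClassGroupOf L, (∀ g : G, (classRep G L).ρ g x = x) ∧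
        (classToClassS G L S).hom x = y := by
  have hz : ∀ n : ℕ, Limits.IsZero (groupCohomology (uRep G L S) (n + 1)) := fun n =>
    isZero_uRep G L S n (fun q hq => hU q hq (n + 1) (Nat.succ_le_succ (Nat.zero_le n)))
  refine ⟨fun n hn => ?_, fun y hy => invariants_surjective G L S hS (hz 0) y hy⟩
  obtain ⟨m, rfl⟩ : ∃ m, n = m + 1 := ⟨n - 1, by omega⟩
  exact ⟨map_injective_of_isZero G L S hS (m + 1) (hz m),
    map_surjective_of_isZero G L S hS (m + 1) (hz (m + 1))⟩

end Main

end Fermat.Agent.CFT.Global.SClassCompare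

end
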