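import Mathlib
import Fermat.Agent.CFT.Global.Plan
import Fermat.Agent.CFT.Global.SClassCompare

/-!
# Class field theory program (P3), global layer: [G3] `Plan.SClassCompare`

`Plan.LocUnitsAcyclic → Plan.SClassCompare`: the Plan form of
`Fermat.Agent.CFT.Global.SClassCompare.sClassCompare`.  Only the clause "the local units at an
unramified prime have trivial cohomology in degrees `≥ 1`" of [C3] is used.
-/

set_option autoImplicit false

open CategoryTheory
open scoped Fermat.Agent.CFT.Global

namespace Fermat.Agent.CFT.Global.SClassCompare

/-- **[G3]** `Plan.SClassCompare` from the acyclicity of the local units at the unramified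
primes (the first clause of [C3] `Plan.LocUnitsAcyclic`). -/
theorem sClassCompare_of_isZero
    (h : ∀ (G L : Type) [Group G] [Fintype G] [Field L] [NumberField L] [MulSemiringAction G L]
      [FaithfulSMul G L] (q : ℕ) [Fact q.Prime], UnramAt L q →
      ∀ n : ℕ, 1 ≤ n → Limits.IsZero (groupCohomology (localUnitsRep G L q) n)) :
    Plan.SClassCompare := by
  intro G L _ _ _ _ _ _ S hS hunr
  exact sClassCompare G L S hS (fun q hq n hn => h G L q (hunr q hq) n hn)

/-- **[G3]** `Plan.LocUnitsAcyclic → Plan.SClassCompare`. -/
theorem sClassCompare_of_locUnitsAcyclic (h : Plan.LocUnitsAcyclic) : Plan.SClassCompare :=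
  sClassCompare_of_isZero (fun G L _ _ _ _ _ _ q _ hq => (h G L q hq).1)

end Fermat.Agent.CFT.Global.SClassCompare
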