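import Fermat.Agent.CFT.Global.Defs
import Fermat.Agent.CFT.Global.Plan
import Fermat.Agent.CFT.Global.SemiLocalGalois

/-!
# Class field theory program (P3), global layer: `[B6] OrbitProjBijective`

If the decomposition group of a maximal ideal `m` of `L ⊗[ℚ] ℚ_[q]` is the whole group, the
block `orbitUnits G L q m` of the place below `m` is the local component itself: the projection
`orbitProj G L q m` onto `((L ⊗[ℚ] ℚ_[q]) ⧸ m)ˣ` is bijective.

The proof is the one-orbit case of the recognition lemmas `SemiLocalGalois.orbit_inj` and
`SemiLocalGalois.orbit_surj` (Chinese remainder theorem in the reduced Artinian ring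
`L ⊗[ℚ] ℚ_[q]`).
-/

set_option autoImplicit false

open CategoryTheory
open scoped TensorProduct
open scoped Fermat.Agent.CFT.Global

namespace Fermat.Agent.CFT.Global.OrbitProjBij

open Fermat.Agent.CFT.Global

section

variable (G L : Type) [Group G] [Field L] [NumberField L] [MulSemiringAction G L]
variable (q : ℕ) [Fact q.Prime] (m : Ideal (SemiLocal L q))

/-- Equivariance of `orbitProj` for the decomposition group, pointwise form. -/
theorem orbitProj_smul (d : decompGroup G L q m) (b : (orbitRep G L q m).V) :
    (orbitProj G L q m).hom ((orbitRep G L q m).ρ (d : G) b) =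
      (localCompRep G L q m).ρ d ((orbitProj G L q m).hom b) := rfl

/-- Injectivity of `orbitProj` when the decomposition group is everything. -/
theorem orbitProj_injective (hD : decompGroup G L q m = ⊤) :
    Function.Injective (orbitProj G L q m).hom := by
  intro b b' hbb'
  have h0 : (orbitProj G L q m).hom (b - b') = 0 := by
    rw [map_sub, hbb', sub_self]
  have h1 : b - b' = 0 := by
    refine SemiLocalGalois.orbit_inj G L q m (b - b') (fun g => ?_)
    have hg : g ∈ decompGroup G L q m := by rw [hD]; exact Subgroup.mem_top g
    have h2 := orbitProj_smul G L q m ⟨g, hg⟩ (b - b')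
    rw [h0, map_zero] at h2
    exact h2
  exact sub_eq_zero.1 h1

/-- Surjectivity of `orbitProj` when the decomposition group is everything. -/
theorem orbitProj_surjective (hm : m.IsMaximal) (hD : decompGroup G L q m = ⊤) :
    Function.Surjective (orbitProj G L q m).hom := by
  intro z
  have hmem : ∀ g : G, g ∈ decompGroup G L q m := fun g => by
    rw [hD]; exact Subgroup.mem_top g
  obtain ⟨b, hb⟩ := SemiLocalGalois.orbit_surj G L q m hm
    (fun g => (localCompRep G L q m).ρ ⟨g, hmem g⟩ z)
    (fun h g => by
      have e : (⟨(h : G) * g, hmem ((h : G) * g)⟩ : decompGroup G L q m) = h * ⟨g, hmem g⟩ :=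
        Subtype.ext rfl
      rw [e, map_mul]
      rfl)
  refine ⟨b, ?_⟩
  have h1 := hb 1
  have e1 : (⟨(1 : G), hmem 1⟩ : decompGroup G L q m) = 1 := Subtype.ext rfl
  rw [e1, map_one, map_one] at h1
  exact h1

/-- **[B6]**, one place: if `D_w = G` the block of `w` is the local component. -/
theorem orbitProj_bijective (hm : m.IsMaximal) (hD : decompGroup G L q m = ⊤) :
    Function.Bijective (orbitProj G L q m).hom :=
  ⟨orbitProj_injective G L q m hD, orbitProj_surjective G L q m hm hD⟩

end

/-- **[B6] `Plan.OrbitProjBijective`**: for a maximal ideal `m` of `L ⊗[ℚ] ℚ_[q]` whose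
decomposition group is all of `G`, the projection of the block of `m` onto the local component
is bijective. -/
theorem orbitProjBijective : Plan.OrbitProjBijective := by
  intro G L _ _ _ _ q _ m hm hD
  exact orbitProj_bijective G L q m hm hD

end Fermat.Agent.CFT.Global.OrbitProjBij
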