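/-
CFT program (P3), layer Global, package [EX] (helper85): the assembly [EX.f].

`existenceModP : Count → MultiKummer → KummerUnram → SplitNorm → TateCount → SClassModule →
  SDescent → ExistenceModP`  (all props of `Global/ExistPlan.lean`).

Proof.  `K := L(Sel^{1/p})`, `K_V := L(V^{1/p})` (`MultiKummer`), both unramified outside `S`
(`KummerUnram`).  For a Kummer pair unramified outside `S` the norm group
`normS = N C_S(L') ⊆ C_S(L)` has index `|G'|` and contains `p · C_S(L)` (`normS_facts`, from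
`SClassModule`, `TateCount`, `SDescent`).  The norm group of `K_V` contains the image of
`J_S(L)` (`SplitNorm`), so `[V : Pw] = [C_S : N_V]` divides `|C_S/(p·C_S + im J_S)|`; with
`Count` this forces `[C_S : p·C_S] = [Sel : Pw] = [C_S : N_K]`, i.e. `N_K = p · C_S(L)`.
-/
import Mathlib
import Fermat.Agent.CFT.Global.ExistPlan

set_option autoImplicit false

open scoped Fermat.Agent.CFT.Global

noncomputable section

namespace Fermat.Agent.CFT.Global.ExistP

open Fermat.Agent.CFT Fermat.Agent.CFT.Global Fermat.Agent.CFT.Global.ExistPlan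

/-- The norm of a representation, applied. -/
theorem repNorm_apply {k G V : Type*} [CommSemiring k] [Group G] [Fintype G] [AddCommMonoid V]
    [Module k V] (ρ : Representation k G V) (x : V) : ρ.norm x = ∑ g : G, ρ g x := by
  unfold Representation.norm
  rw [LinearMap.sum_apply]

section Basic

variable {L L' : Type} [Field L] [CharZero L] [Field L'] [CharZero L']

theorem classMapS_mkS (f : L →+* L') (S : Finset Nat.Primes) (x : IdeleProd L)
    (hx : x ∈ finIdele L) :
    classMapS f S (mkS L S x hx) = mkS L' S (ideleProdMap f x) (ideleProdMap_mem_finIdele f hx) :=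
  rfl

theorem rho_mkS (G' : Type) [Group G'] [MulSemiringAction G' L'] (S : Finset Nat.Primes)
    (g : G') (z : IdeleProd L') (hz : z ∈ finIdele L') :
    (classRepS G' L' S).ρ g (mkS L' S z hz) = mkS L' S (g • z) (smul_mem_finIdele G' L' g hz) :=
  rfl

theorem mkS_mul (S : Finset Nat.Primes) (x y : IdeleProd L) (hx : x ∈ finIdele L)
    (hy : y ∈ finIdele L) :
    mkS L S (x * y) (mul_mem hx hy) = mkS L S x hx + mkS L S y hy := rfl

theorem mkS_one (S : Finset Nat.Primes) : mkS L S 1 (one_mem _) = 0 := rfl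

theorem mkS_prod (S : Finset Nat.Primes) {ι : Type} (s : Finset ι) (x : ι → IdeleProd L)
    (hx : ∀ i, x i ∈ finIdele L) :
    mkS L S (∏ i ∈ s, x i) (Subgroup.prod_mem _ (fun i _ => hx i)) =
      ∑ i ∈ s, mkS L S (x i) (hx i) := by
  classical
  induction s using Finset.induction_on with
  | empty => simp [mkS_one]
  | insert a s ha ih =>
    rw [Finset.sum_insert ha, ← ih, ← mkS_mul]
    congr 1
    rw [Finset.prod_insert ha]

theorem norm_mkS (G' : Type) [Group G'] [Fintype G'] [MulSemiringAction G' L']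
    (S : Finset Nat.Primes) (z : IdeleProd L') (hz : z ∈ finIdele L') :
    (classRepS G' L' S).ρ.norm (mkS L' S z hz) =
      mkS L' S (∏ g : G', g • z)
        (Subgroup.prod_mem _ (fun g _ => smul_mem_finIdele G' L' g hz)) := by
  rw [mkS_prod S Finset.univ (fun g : G' => g • z) (fun g => smul_mem_finIdele G' L' g hz)]
  exact repNorm_apply (classRepS G' L' S).ρ (mkS L' S z hz)

theorem mkS_surjective (S : Finset Nat.Primes) (c : ClassGroupSOf L S) :
    ∃ (x : IdeleProd L) (hx : x ∈ finIdele L), c = mkS L S x hx := by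
  obtain ⟨⟨x, hx⟩, rfl⟩ := Submodule.Quotient.mk_surjective _ c
  exact ⟨Additive.toMul x, hx, rfl⟩

end Basic

section NormIndex

theorem eq_of_le_of_index_eq {A : Type*} [AddGroup A] {H K : AddSubgroup A} (h : H ≤ K)
    (hidx : H.index = K.index) (h0 : H.index ≠ 0) : H = K := by
  have h1 := AddSubgroup.relIndex_mul_index h
  rw [← hidx] at h1
  have h2 : H.relIndex K = 1 := by
    have h3 : H.relIndex K * H.index = 1 * H.index := by rw [h1, one_mul]
    exact Nat.eq_of_mul_eq_mul_right (Nat.pos_of_ne_zero h0) h3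
  exact le_antisymm h (AddSubgroup.relIndex_eq_one.mp h2)

variable {L L' : Type} [Field L] [NumberField L] [Field L'] [NumberField L']

/-- The norm group of a Kummer pair which is unramified outside `S`: index `|G'|`, contains
`p · C_S(L)`, and contains (the preimage of) every norm. -/
theorem normS_facts (hE : TateCount) (hG : SClassModule) (hH : SDescent) (p : ℕ) [Fact p.Prime]
    (hp2 : p ≠ 2) (G' : Type) [Group G'] [Fintype G'] [MulSemiringAction G' L'] (f : L →+* L')
    {Δ : Subgroup Lˣ} (hK : IsKummerPair p Δ G' f) (S : Finset Nat.Primes) (hS : S.Nonempty)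
    (hun : UnramOutside S L') :
    (normS G' f S).index = Nat.card G' ∧ pMul p L S ≤ normS G' f S ∧
      ∀ z : ClassGroupSOf L' S, ∃ x ∈ normS G' f S,
        (classRepS G' L' S).ρ.norm z = classMapS f S x := by
  have hfaith := hK.faithful
  obtain ⟨σ, hσ⟩ := hG p hp2 G' L' S hS hun
  obtain ⟨hinj, hinv⟩ := hH L L' G' f hK.fixed S hS hun
  obtain ⟨hpc, hidx⟩ := hE p G' (classRepS G' L' S) σ hσ hK.comm hK.exp
  -- the two subgroups of `C_S(L')`
  let ι : ClassGroupSOf L S →+ ClassGroupSOf L' S := (classMapS f S).toAddMonoidHom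
  let Hs : AddSubgroup (ClassGroupSOf L' S) := ι.range
  let Ns : AddSubgroup (ClassGroupSOf L' S) :=
    { carrier := {c | ∃ b : ClassGroupSOf L' S, (classRepS G' L' S).ρ.norm b = c}
      zero_mem' := ⟨0, (classRepS G' L' S).ρ.norm.map_zero⟩
      add_mem' := by
        rintro _ _ ⟨b, rfl⟩ ⟨b', rfl⟩
        exact ⟨b + b', (classRepS G' L' S).ρ.norm.map_add b b'⟩
      neg_mem' := by
        rintro _ ⟨b, rfl⟩
        exact ⟨-b, (classRepS G' L' S).ρ.norm.map_neg b⟩ }
  have hHs : ∀ c : ClassGroupSOf L' S, c ∈ Hs ↔ ∀ g : G', (classRepS G' L' S).ρ g c = c := by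
    intro c
    rw [hinv c]
    exact Iff.rfl
  have hNs : ∀ c : ClassGroupSOf L' S, c ∈ Ns ↔
      ∃ b : ClassGroupSOf L' S, ∑ g : G', (classRepS G' L' S).ρ g b = c := by
    intro c
    constructor
    · rintro ⟨b, hb⟩
      exact ⟨b, (repNorm_apply (classRepS G' L' S).ρ b).symm.trans hb⟩
    · rintro ⟨b, hb⟩
      exact ⟨b, (repNorm_apply (classRepS G' L' S).ρ b).trans hb⟩
  have hrel : Ns.relIndex Hs = Nat.card G' := hidx Hs Ns hHs hNs
  have hcomap : normS G' f S = Ns.comap ι := by
    ext x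
    exact Iff.rfl
  refine ⟨?_, ?_, ?_⟩
  · rw [hcomap, AddSubgroup.index_comap]
    exact hrel
  · rintro x ⟨y, rfl⟩
    have hinvy : ∀ g : G', (classRepS G' L' S).ρ g (ι y) = ι y := (hHs (ι y)).mp ⟨y, rfl⟩
    obtain ⟨b, hb⟩ := hpc (ι y) hinvy
    exact ⟨b, (repNorm_apply (classRepS G' L' S).ρ b).trans
      (hb.trans (map_nsmul (classMapS f S) p y).symm)⟩
  · intro z
    have hz : (classRepS G' L' S).ρ.norm z ∈ Hs :=
      (hHs _).mpr (fun g => Representation.self_norm_apply (classRepS G' L' S).ρ g z)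
    obtain ⟨x, hx⟩ := hz
    exact ⟨x, ⟨z, hx.symm⟩, hx.symm⟩

end NormIndex

section Main

theorem mkS_congr {L : Type} [Field L] [CharZero L] (S : Finset Nat.Primes) {x y : IdeleProd L}
    (h : x = y) (hx : x ∈ finIdele L) (hy : y ∈ finIdele L) : mkS L S x hx = mkS L S y hy := by
  subst h
  rfl

variable {L L' : Type} [Field L] [NumberField L] [Field L'] [NumberField L']

/-- From `SplitNorm`: the image of `J_S(L)` lies in the norm group of a Kummer pair for
`Δ ≤ V`. -/
theorem sImage_le_normS (hD : SplitNorm) (p : ℕ) [Fact p.Prime] (S : Finset Nat.Primes)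
    (hζ : ∃ ζ : L, IsPrimitiveRoot ζ p) (G' : Type) [Group G'] [Fintype G']
    [MulSemiringAction G' L'] (f : L →+* L') {Δ : Subgroup Lˣ} (hΔ : Δ ≤ Vgrp p L S)
    (hK : IsKummerPair p Δ G' f) : sImage L S ≤ normS G' f S := by
  rintro c ⟨x, hx, rfl⟩
  obtain ⟨z, hz, hprod⟩ := hD p L S hζ Δ hΔ L' G' f hK x hx
  refine ⟨mkS L' S z (supportedOn_le_finIdele L' S hz), ?_⟩
  exact (norm_mkS G' S z _).trans
    ((mkS_congr S hprod _ _).trans (classMapS_mkS f S x _).symm)

end Main

/-- **[EX.f] The existence theorem mod `p`**, from the leaves of `ExistPlan`. -/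
theorem existenceModP (hA : Count) (hB : MultiKummer) (hC : KummerUnram) (hD : SplitNorm)
    (hE : TateCount) (hG : SClassModule) (hH : SDescent) : ExistenceModP := by
  intro p _ hp2 L _ _ S hpS hζ hun
  have hS : S.Nonempty := by
    obtain ⟨q, hq, -⟩ := hpS
    exact ⟨q, hq⟩
  obtain ⟨hcount, hP0, hrS, hrV⟩ := hA p hp2 L S hpS hζ
  obtain ⟨K, iF, iNF, GK, iG, iFin, iAct, fK, hK⟩ :=
    hB p L hζ (Sel p L S) (Pw_le_Sel p L S) hrS
  obtain ⟨KV, _, _, GV, _, _, _, fV, hV⟩ := hB p L hζ (Vgrp p L S) (Pw_le_Vgrp p L S) hrV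
  have hunK : UnramOutside S K := hC p L S hpS hun (Sel p L S) le_rfl K GK fK hK
  have hunV : UnramOutside S KV :=
    hC p L S hpS hun (Vgrp p L S) (Vgrp_le_Sel p L S) KV GV fV hV
  obtain ⟨hiK, hpK, hzK⟩ := normS_facts hE hG hH p hp2 GK fK hK S hS hunK
  obtain ⟨hiV, hpV, -⟩ := normS_facts hE hG hH p hp2 GV fV hV S hS hunV
  have hsV : sImage L S ≤ normS GV fV S := sImage_le_normS hD p S hζ GV fV le_rfl hV
  -- the count
  have h1 : (normS GV fV S).index ∣ (pMul p L S ⊔ sImage L S).index :=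
    AddSubgroup.index_dvd_of_le (sup_le hpV hsV)
  have h2 : (normS GK fK S).index ∣ (pMul p L S).index := AddSubgroup.index_dvd_of_le hpK
  rw [hiV, hV.card] at h1
  rw [hiK, hK.card] at h2
  obtain ⟨k, hk⟩ := h1
  obtain ⟨m, hm⟩ := h2
  rw [hk, hm] at hcount
  have hmk : m * k = 1 := by
    have h3 : ((Pw p L).relIndex (Sel p L S) * (Pw p L).relIndex (Vgrp p L S)) * (m * k) =
        ((Pw p L).relIndex (Sel p L S) * (Pw p L).relIndex (Vgrp p L S)) * 1 := by
      calc ((Pw p L).relIndex (Sel p L S) * (Pw p L).relIndex (Vgrp p L S)) * (m * k)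
          = (Pw p L).relIndex (Sel p L S) * m * ((Pw p L).relIndex (Vgrp p L S) * k) := by ring
        _ = (Pw p L).relIndex (Sel p L S) * (Pw p L).relIndex (Vgrp p L S) := hcount
        _ = _ := (mul_one _).symm
    exact Nat.eq_of_mul_eq_mul_left (Nat.pos_of_ne_zero (mul_ne_zero hrS hrV)) h3
  have hm1 : m = 1 := Nat.eq_one_of_mul_eq_one_right hmk
  have hidx : (pMul p L S).index = (normS GK fK S).index := by
    rw [hm, hm1, mul_one, hiK, hK.card]
  have heq : pMul p L S = normS GK fK S := eq_of_le_of_index_eq hpK hidx hP0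
  refine ⟨K, iF, iNF, GK, iG, iFin, iAct, fK, hK.faithful, hK.fixed, hunK, ?_⟩
  intro z
  obtain ⟨x, hx, hxz⟩ := hzK z
  rw [← heq] at hx
  obtain ⟨y, rfl⟩ := hx
  exact ⟨y, hxz⟩

end Fermat.Agent.CFT.Global.ExistP
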