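/-
CFT program, layer Global: towers going UP (helper42).

For a Galois pair `(G, L)` (`G` finite, acting faithfully on the field `L`; `K₀ = L^G`) and a
splitting field `L'` over `L` of a polynomial with coefficients in `K₀`:

* `TGroup G L L' = L' ≃ₐ[K₀] L'`, `towerHom G L L' : TGroup G L L' →* G` (restriction to `L`),
  `towerHom_spec`, `mem_ker_towerHom`, `kerEquiv : (L' ≃ₐ[L] L') ≃* (towerHom G L L').ker`;
* `isTower` : `IsTower (algebraMap L L') (towerHom G L L')` (`Global/Defs` tower datum);
* the cyclotomic tower `L' = CyclotomicField N L`: `isTower_cyclo`, `cycloChar`,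
  `cycloChar_spec`, `eq_one_of_cycloChar_eq_one`, `isPGroup_ker_cyclo`, and the packaged
  existence statements `exists_cyclo_tower`, `exists_cyclo_tower_pGroup`.
-/
import Mathlib
import Fermat.Agent.CFT.Global.Defs

set_option autoImplicit false

noncomputable section

namespace Fermat.Agent.CFT.Global.TowerSplit

open Polynomial
open Fermat.Agent.CFT.Global

section General

variable (G L : Type) [Group G] [Fintype G] [Field L] [MulSemiringAction G L] [FaithfulSMul G L]
  (L' : Type) [Field L'] [Algebra L L']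

/-- The fixed field of `G`, the base field of the Galois pair `(G, L)`. -/
abbrev Base : Type := ↥(FixedPoints.subfield G L)

/-- The group of the tower: the automorphisms of `L'` over the fixed field of `G`. -/
abbrev TGroup : Type := L' ≃ₐ[Base G L] L'

/-- Restriction to `L`, as a homomorphism to `G`. -/
def towerHom : TGroup G L L' →* G :=
  (FixedPoints.toAlgAutMulEquiv G L).symm.toMonoidHom.comp (AlgEquiv.restrictNormalHom L)

theorem toAlgAutMulEquiv_towerHom (τ : TGroup G L L') :
    FixedPoints.toAlgAutMulEquiv G L (towerHom G L L' τ) = AlgEquiv.restrictNormalHom L τ := by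
  simp [towerHom]

theorem towerHom_spec (τ : TGroup G L L') (x : L) :
    algebraMap L L' (towerHom G L L' τ • x) = τ (algebraMap L L' x) := by
  have h2 : towerHom G L L' τ • x = FixedPoints.toAlgAutMulEquiv G L (towerHom G L L' τ) x := rfl
  rw [h2, toAlgAutMulEquiv_towerHom]
  exact AlgEquiv.restrictNormal_commutes τ L x

theorem mem_ker_towerHom (τ : TGroup G L L') :
    τ ∈ (towerHom G L L').ker ↔ ∀ x : L, τ (algebraMap L L' x) = algebraMap L L' x := by
  rw [MonoidHom.mem_ker]
  constructor
  · intro h x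
    rw [← towerHom_spec, h, one_smul]
  · intro h
    apply FaithfulSMul.eq_of_smul_eq_smul (α := L)
    intro x
    apply (algebraMap L L').injective
    rw [towerHom_spec, h, one_smul]

/-- An `L`-automorphism of `L'`, as an element of the kernel of `towerHom`. -/
def kerOfAlgEquiv : (L' ≃ₐ[L] L') →* (towerHom G L L').ker where
  toFun σ := ⟨σ.restrictScalars (Base G L), (mem_ker_towerHom G L L' _).mpr (fun x => σ.commutes x)⟩
  map_one' := rfl
  map_mul' _ _ := rfl

theorem kerOfAlgEquiv_apply (σ : L' ≃ₐ[L] L') (y : L') :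
    ((kerOfAlgEquiv G L L' σ : (towerHom G L L').ker) : TGroup G L L') y = σ y := rfl

theorem kerOfAlgEquiv_bijective : Function.Bijective (kerOfAlgEquiv G L L') := by
  constructor
  · intro σ σ' h
    ext y
    have h1 := congrArg (fun n : (towerHom G L L').ker => (n : TGroup G L L') y) h
    exact h1
  · rintro ⟨τ, hτ⟩
    rw [mem_ker_towerHom] at hτ
    refine ⟨{ (τ : L' ≃+* L') with commutes' := hτ }, ?_⟩
    apply Subtype.ext
    ext y
    rfl

/-- The kernel of `towerHom` is `Gal(L'/L)`. -/
def kerEquiv : (L' ≃ₐ[L] L') ≃* (towerHom G L L').ker :=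
  MulEquiv.ofBijective (kerOfAlgEquiv G L L') (kerOfAlgEquiv_bijective G L L')

variable (P₀ : (Base G L)[X]) [hsp : IsSplittingField L L' (P₀.map (algebraMap (Base G L) L))]

include hsp

/-- `L'` is normal over the fixed field of `G`. -/
theorem normal_base (hP₀ : P₀ ≠ 0) : Normal (Base G L) L' := by
  obtain ⟨q, hq⟩ := Normal.exists_isSplittingField (Base G L) L
  by_cases hq0 : q = 0
  · -- `L` is the base field: use the polynomial `1`
    have h1 : IsSplittingField (Base G L) L (1 : (Base G L)[X]) := by
      refine ⟨by simp, ?_⟩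
      have h2 := hq.adjoin_rootSet'
      rw [hq0] at h2
      simpa [rootSet] using h2
    have h3 : IsSplittingField (Base G L) L' ((1 : (Base G L)[X]) * P₀) :=
      IsSplittingField.mul (K := L) L' 1 P₀ one_ne_zero hP₀
    exact Normal.of_isSplittingField ((1 : (Base G L)[X]) * P₀)
  · have h3 : IsSplittingField (Base G L) L' (q * P₀) :=
      IsSplittingField.mul (K := L) L' q P₀ hq0 hP₀
    exact Normal.of_isSplittingField (q * P₀)

theorem towerHom_surjective (hP₀ : P₀ ≠ 0) : Function.Surjective (towerHom G L L') := by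
  have := normal_base G L L' P₀ hP₀
  intro g
  obtain ⟨τ, hτ⟩ := AlgEquiv.restrictNormalHom_surjective (F := Base G L) (K₁ := L) L'
    (FixedPoints.toAlgAutMulEquiv G L g)
  refine ⟨τ, ?_⟩
  apply (FixedPoints.toAlgAutMulEquiv G L).injective
  rw [toAlgAutMulEquiv_towerHom, hτ]

theorem finiteDimensional_top : FiniteDimensional L L' :=
  IsSplittingField.finiteDimensional L' (P₀.map (algebraMap (Base G L) L))

theorem finiteDimensional_base : FiniteDimensional (Base G L) L' := by
  have := finiteDimensional_top G L L' P₀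
  exact Module.Finite.trans L L'

/-- **A splitting field over a Galois pair is a tower.** -/
theorem isTower [CharZero L] [CharZero L'] (hP₀ : P₀ ≠ 0) :
    IsTower (algebraMap L L') (towerHom G L L') where
  surj := towerHom_surjective G L L' P₀ hP₀
  equivariant τ x := towerHom_spec G L L' τ x
  fixed y hy := by
    have hfd := finiteDimensional_top G L L' P₀
    have hnormal : Normal L L' := Normal.of_isSplittingField (P₀.map (algebraMap (Base G L) L))
    have hgal : IsGalois L L' := { }
    exact (IsGalois.mem_range_algebraMap_iff_fixed y).mpr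
      (fun σ => hy _ (kerOfAlgEquiv G L L' σ).2)

theorem card_tgroup (hP₀ : P₀ ≠ 0) :
    Nat.card (TGroup G L L') = Nat.card G * Nat.card (L' ≃ₐ[L] L') := by
  have h1 := Subgroup.card_eq_card_quotient_mul_card_subgroup (towerHom G L L').ker
  rw [h1, Nat.card_congr (QuotientGroup.quotientKerEquivOfSurjective (towerHom G L L')
    (towerHom_surjective G L L' P₀ hP₀)).toEquiv, Nat.card_congr (kerEquiv G L L').toEquiv]

end General

/-! ### The cyclotomic tower -/

section Cyclo

variable (G L : Type) [Group G] [Fintype G] [Field L] [CharZero L] [MulSemiringAction G L]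
  [FaithfulSMul G L] (N : ℕ) [NeZero N]

theorem isSplittingField_cyclo :
    IsSplittingField L (CyclotomicField N L)
      ((X ^ N - 1 : (Base G L)[X]).map (algebraMap (Base G L) L)) := by
  have h : (X ^ N - 1 : (Base G L)[X]).map (algebraMap (Base G L) L) = X ^ N - 1 := by simp
  rw [h]
  exact IsCyclotomicExtension.isSplittingField_X_pow_sub_one N L (CyclotomicField N L)

theorem X_pow_sub_one_ne_zero : (X ^ N - 1 : (Base G L)[X]) ≠ 0 :=
  (monic_X_pow_sub_C (1 : Base G L) (NeZero.ne N)).ne_zero

/-- **The cyclotomic tower**: `(Gal(L(ζ_N)/L^G), L(ζ_N))` is a tower over `(G, L)`. -/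
theorem isTower_cyclo :
    IsTower (algebraMap L (CyclotomicField N L)) (towerHom G L (CyclotomicField N L)) := by
  have := isSplittingField_cyclo G L N
  exact isTower G L (CyclotomicField N L) (X ^ N - 1) (X_pow_sub_one_ne_zero G L N)

theorem card_rootsOfUnity_cyclo :
    Nat.card { x // x ∈ rootsOfUnity N (CyclotomicField N L) } = N :=
  (IsCyclotomicExtension.zeta_spec N L (CyclotomicField N L)).card_rootsOfUnity

/-- The cyclotomic character of the tower group. -/
def cycloChar : TGroup G L (CyclotomicField N L) →* (ZMod N)ˣ :=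
  (modularCyclotomicCharacter (CyclotomicField N L) (card_rootsOfUnity_cyclo L N)).comp
    { toFun := fun τ => (τ : CyclotomicField N L ≃+* CyclotomicField N L)
      map_one' := rfl
      map_mul' := fun _ _ => rfl }

theorem cycloChar_spec (τ : TGroup G L (CyclotomicField N L)) (ξ : CyclotomicField N L)
    (hξ : ξ ^ N = 1) : τ ξ = ξ ^ (cycloChar G L N τ : ZMod N).val := by
  have hu : IsUnit ξ := IsUnit.of_pow_eq_one hξ (NeZero.ne N)
  obtain ⟨t, rfl⟩ := hu
  have ht : t ∈ rootsOfUnity N (CyclotomicField N L) := by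
    rw [mem_rootsOfUnity]
    exact Units.ext (by simpa using hξ)
  exact modularCyclotomicCharacter.spec (CyclotomicField N L) (card_rootsOfUnity_cyclo L N)
    (τ : CyclotomicField N L ≃+* CyclotomicField N L) ht

/-- On the kernel of the tower map (`= Gal(L(ζ_N)/L)`) the cyclotomic character is injective. -/
theorem eq_one_of_cycloChar_eq_one (τ : TGroup G L (CyclotomicField N L))
    (hτ : τ ∈ (towerHom G L (CyclotomicField N L)).ker) (h : cycloChar G L N τ = 1) : τ = 1 := by
  rw [mem_ker_towerHom] at hτ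
  have hζ := IsCyclotomicExtension.zeta_spec N L (CyclotomicField N L)
  have h1 : τ (IsCyclotomicExtension.zeta N L (CyclotomicField N L)) =
      IsCyclotomicExtension.zeta N L (CyclotomicField N L) := by
    rw [cycloChar_spec G L N τ _ hζ.pow_eq_one, h]
    have h2 : ((1 : (ZMod N)ˣ) : ZMod N).val = 1 % N := by
      rw [Units.val_one, ZMod.val_one_eq_one_mod]
    rw [h2]
    exact (pow_eq_pow_mod 1 hζ.pow_eq_one).symm.trans (pow_one _)
  -- `τ` fixes `L` and `ζ`, which generate
  have htop := IsCyclotomicExtension.adjoin_primitive_root_eq_top (A := L) hζ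
  ext y
  have hy : y ∈ Algebra.adjoin L {IsCyclotomicExtension.zeta N L (CyclotomicField N L)} := by
    rw [htop]; exact Algebra.mem_top
  show τ y = y
  induction hy using Algebra.adjoin_induction with
  | mem x hx =>
    rw [Set.mem_singleton_iff] at hx
    rw [hx, h1]
  | algebraMap r => exact hτ r
  | add x y _ _ hx hy => rw [map_add, hx, hy]
  | mul x y _ _ hx hy => rw [map_mul, hx, hy]

/-- An element of the kernel fixes every element of `L`. -/
theorem apply_algebraMap_of_mem_ker (τ : TGroup G L (CyclotomicField N L))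
    (hτ : τ ∈ (towerHom G L (CyclotomicField N L)).ker) (x : L) :
    τ (algebraMap L (CyclotomicField N L) x) = algebraMap L (CyclotomicField N L) x :=
  (mem_ker_towerHom G L (CyclotomicField N L) τ).mp hτ x

/-- If `L` contains a primitive `d`-th root of unity and `d ∣ N`, the cyclotomic character of an
element of the kernel is `≡ 1` modulo `d`. -/
theorem dvd_cycloChar_val_sub_one (τ : TGroup G L (CyclotomicField N L))
    (hτ : τ ∈ (towerHom G L (CyclotomicField N L)).ker) {d : ℕ} (hd : d ∣ N) (hd1 : 1 < d)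
    {ξ : L} (hξ : IsPrimitiveRoot ξ d) :
    1 ≤ (cycloChar G L N τ : ZMod N).val ∧ d ∣ (cycloChar G L N τ : ZMod N).val - 1 := by
  set c := (cycloChar G L N τ : ZMod N).val with hc
  have hξ' : IsPrimitiveRoot (algebraMap L (CyclotomicField N L) ξ) d :=
    hξ.map_of_injective (algebraMap L (CyclotomicField N L)).injective
  have hpow : (algebraMap L (CyclotomicField N L) ξ) ^ N = 1 := by
    obtain ⟨e, rfl⟩ := hd
    rw [pow_mul, hξ'.pow_eq_one, one_pow]
  have h1 := cycloChar_spec G L N τ _ hpow
  rw [apply_algebraMap_of_mem_ker G L N τ hτ, ← hc] at h1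
  have hc1 : 1 ≤ c := by
    by_contra hlt
    have hc0 : c = 0 := by omega
    rw [hc0, pow_zero] at h1
    exact hξ'.ne_one hd1 h1
  refine ⟨hc1, ?_⟩
  rw [← hξ'.pow_eq_one_iff_dvd]
  have h2 : (algebraMap L (CyclotomicField N L) ξ) ^ (c - 1) *
      algebraMap L (CyclotomicField N L) ξ = algebraMap L (CyclotomicField N L) ξ := by
    rw [← pow_succ, Nat.sub_add_cancel hc1]
    exact h1.symm
  have hne : algebraMap L (CyclotomicField N L) ξ ≠ 0 := hξ'.ne_zero (by omega)
  exact mul_right_cancel₀ hne (h2.trans (one_mul _).symm)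

end Cyclo

section PGroup

variable (G L : Type) [Group G] [Fintype G] [Field L] [CharZero L] [MulSemiringAction G L]
  [FaithfulSMul G L] (p : ℕ) [hp : Fact p.Prime] (k : ℕ)

theorem neZero_prime_pow : NeZero (p ^ k) := ⟨pow_ne_zero k hp.out.ne_zero⟩

attribute [local instance] neZero_prime_pow

/-- If `ζ_p ∈ L`, the group `Gal(L(ζ_{p^k})/L)` (the kernel of the tower map) is a `p`-group. -/
theorem isPGroup_ker_cyclo (hζ : ∃ ξ : L, IsPrimitiveRoot ξ p) :
    IsPGroup p (towerHom G L (CyclotomicField (p ^ k) L)).ker := by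
  obtain ⟨ξ, hξ⟩ := hζ
  rintro ⟨τ, hτ⟩
  refine ⟨k, ?_⟩
  apply Subtype.ext
  show τ ^ (p ^ k) = 1
  apply eq_one_of_cycloChar_eq_one G L (p ^ k) _ (Subgroup.pow_mem _ hτ _)
  rw [map_pow]
  rcases Nat.eq_zero_or_pos k with hk | hk
  · subst hk
    have : Subsingleton (ZMod (p ^ 0))ˣ := by
      rw [pow_zero]; infer_instance
    exact Subsingleton.elim _ _
  · obtain ⟨hc1, hdvd⟩ := dvd_cycloChar_val_sub_one G L (p ^ k) τ hτ
      (dvd_pow_self p hk.ne') hp.out.one_lt hξ
    set c := cycloChar G L (p ^ k) τ with hc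
    apply Units.ext
    rw [Units.val_pow_eq_pow_val, Units.val_one]
    have h1 : ((p : ℕ) : ZMod (p ^ k)) ∣ (c : ZMod (p ^ k)) - 1 := by
      obtain ⟨t, ht⟩ := hdvd
      refine ⟨(t : ZMod (p ^ k)), ?_⟩
      have h2 : ((c : ZMod (p ^ k)).val : ZMod (p ^ k)) = (c : ZMod (p ^ k)) :=
        ZMod.natCast_zmod_val _
      have h3 : (((c : ZMod (p ^ k)).val - 1 : ℕ) : ZMod (p ^ k)) = (c : ZMod (p ^ k)) - 1 := by
        rw [Nat.cast_sub hc1, h2, Nat.cast_one]
      rw [← h3, ht, Nat.cast_mul]
    have h4 := dvd_sub_pow_of_dvd_sub h1 k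
    rw [one_pow] at h4
    have h5 : ((p : ℕ) : ZMod (p ^ k)) ^ (k + 1) = 0 := by
      rw [pow_succ, ← Nat.cast_pow, ZMod.natCast_self, zero_mul]
    rw [h5, zero_dvd_iff] at h4
    exact sub_eq_zero.mp h4

end PGroup

/-! ### Packaged form -/

/-- **The cyclotomic tower over a Galois pair of number fields.**  For a Galois pair `(G, L)` and
`N ≠ 0` there is a Galois pair `(G', L')` with a tower map to `(G, L)` such that `L'` contains a
primitive `N`-th root of unity and `G'` has a cyclotomic character which is injective on the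
kernel of `G' → G`. -/
theorem exists_cyclo_tower (G L : Type) [Group G] [Fintype G] [Field L] [NumberField L]
    [MulSemiringAction G L] [FaithfulSMul G L] (N : ℕ) [NeZero N] :
    ∃ (L' : Type) (_ : Field L') (_ : NumberField L') (G' : Type) (_ : Group G')
      (_ : Fintype G') (_ : MulSemiringAction G' L') (f : L →+* L') (π : G' →* G),
      FaithfulSMul G' L' ∧ IsTower f π ∧ (∃ ζ : L', IsPrimitiveRoot ζ N) ∧
      ∃ χ : G' →* (ZMod N)ˣ, (∀ (g : G') (ξ : L'), ξ ^ N = 1 → g • ξ = ξ ^ (χ g : ZMod N).val) ∧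
        ∀ g ∈ π.ker, χ g = 1 → g = 1 := by
  have hsp := isSplittingField_cyclo G L N
  have hfd := finiteDimensional_base G L (CyclotomicField N L) (X ^ N - 1)
  refine ⟨CyclotomicField N L, inferInstance, inferInstance, TGroup G L (CyclotomicField N L),
    inferInstance, inferInstance, inferInstance, algebraMap L (CyclotomicField N L),
    towerHom G L (CyclotomicField N L), inferInstance, isTower_cyclo G L N,
    ⟨_, IsCyclotomicExtension.zeta_spec N L (CyclotomicField N L)⟩, cycloChar G L N,
    fun g ξ hξ => cycloChar_spec G L N g ξ hξ,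
    fun g hg h => eq_one_of_cycloChar_eq_one G L N g hg h⟩

/-- The same for `N = p ^ k` when `ζ_p ∈ L`: the kernel of `G' → G` is a `p`-group. -/
theorem exists_cyclo_tower_pGroup (G L : Type) [Group G] [Fintype G] [Field L] [NumberField L]
    [MulSemiringAction G L] [FaithfulSMul G L] (p : ℕ) [Fact p.Prime] (k : ℕ)
    (hζ : ∃ ξ : L, IsPrimitiveRoot ξ p) :
    ∃ (L' : Type) (_ : Field L') (_ : NumberField L') (G' : Type) (_ : Group G')
      (_ : Fintype G') (_ : MulSemiringAction G' L') (f : L →+* L') (π : G' →* G),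
      FaithfulSMul G' L' ∧ IsTower f π ∧ IsPGroup p π.ker ∧
      (∃ ζ : L', IsPrimitiveRoot ζ (p ^ k)) ∧
      ∃ χ : G' →* (ZMod (p ^ k))ˣ,
        (∀ (g : G') (ξ : L'), ξ ^ (p ^ k) = 1 → g • ξ = ξ ^ (χ g : ZMod (p ^ k)).val) ∧
        ∀ g ∈ π.ker, χ g = 1 → g = 1 := by
  have hne : NeZero (p ^ k) := ⟨pow_ne_zero k (Fact.out : p.Prime).ne_zero⟩
  have hsp := isSplittingField_cyclo G L (p ^ k)
  have hfd := finiteDimensional_base G L (CyclotomicField (p ^ k) L) (X ^ (p ^ k) - 1)
  refine ⟨CyclotomicField (p ^ k) L, inferInstance, inferInstance,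
    TGroup G L (CyclotomicField (p ^ k) L),
    inferInstance, inferInstance, inferInstance, algebraMap L (CyclotomicField (p ^ k) L),
    towerHom G L (CyclotomicField (p ^ k) L), inferInstance, isTower_cyclo G L (p ^ k),
    isPGroup_ker_cyclo G L p k hζ,
    ⟨_, IsCyclotomicExtension.zeta_spec (p ^ k) L (CyclotomicField (p ^ k) L)⟩,
    cycloChar G L (p ^ k),
    fun g ξ hξ => cycloChar_spec G L (p ^ k) g ξ hξ,
    fun g hg h => eq_one_of_cycloChar_eq_one G L (p ^ k) g hg h⟩

end Fermat.Agent.CFT.Global.TowerSplit
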