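/-
CFT program, layer Global: the compositum of a Galois pair with a Galois extension of its base
field, as a Galois pair with TWO towers (helper13).

`(G, L)` a Galois pair (`G` finite, acting faithfully on the field `L`), `K = L^G` its base field
(`TowerSplit.Base G L = ↥(FixedPoints.subfield G L)`), and `E/K` ANY finite Galois extension in
Mathlib's vocabulary (`[Algebra K E] [FiniteDimensional K E] [IsGalois K E]`), e.g. an
intermediate field of a cyclotomic extension of `K`.  Then `(Gal(E/K), E)` is a Galois pair
(Mathlib's action of `E ≃ₐ[K] E` on `E`), and there is a Galois pair `(G₁, M)` ("`M = L·E`,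
`G₁ = Gal(M/K)`") which is a tower over BOTH `(G, L)` and `(Gal(E/K), E)`, the two projections
being jointly injective (`G₁ ↪ G × Gal(E/K)`).

Main statements:

* generic splitting-field form (`M` a splitting field over `L` of `P₀ ∈ K[X]`, `E` a splitting
  field of `P₀` over `K`; top group `TowerSplit.TGroup G L M = M ≃ₐ[K] M` of helper42):
  `embE`, `resE`, `resE_spec`, `resE_surjective`, `isTower_E`, `eq_one_of_towerHom_of_resE`,
  `embE_base`;
* `exists_compositum` : the packaged existence statement (no choice of `P₀` visible);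
* group theory of jointly injective pairs of homomorphisms: `isPGroup_of_joint`,
  `isPGroup_ker_of_joint`, `card_ker_dvd_of_joint`, `ker_inf_ker_of_joint`.
-/
import Mathlib
import Fermat.Agent.CFT.Global.Defs
import Fermat.Agent.CFT.Global.TowerSplit

set_option autoImplicit false
set_option linter.unusedSectionVars false
set_option linter.style.haveILetI false

noncomputable section

namespace Fermat.Agent.CFT.Global.CompositumPair

open Polynomial
open Fermat.Agent.CFT.Global

/-! ### Jointly injective pairs of homomorphisms -/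

section Joint

variable {G₁ G Γ : Type*} [Group G₁] [Group G] [Group Γ]

/-- The two kernels of a jointly injective pair meet trivially. -/
theorem ker_inf_ker_of_joint (π : G₁ →* G) (ρ : G₁ →* Γ)
    (h : ∀ g : G₁, π g = 1 → ρ g = 1 → g = 1) : π.ker ⊓ ρ.ker = ⊥ := by
  rw [eq_bot_iff]
  intro g hg
  rw [Subgroup.mem_inf, MonoidHom.mem_ker, MonoidHom.mem_ker] at hg
  exact Subgroup.mem_bot.mpr (h g hg.1 hg.2)

/-- A group which embeds into a product of two `p`-groups is a `p`-group. -/
theorem isPGroup_of_joint {p : ℕ} (π : G₁ →* G) (ρ : G₁ →* Γ)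
    (h : ∀ g : G₁, π g = 1 → ρ g = 1 → g = 1) (hG : IsPGroup p G) (hΓ : IsPGroup p Γ) :
    IsPGroup p G₁ := by
  intro g
  obtain ⟨a, ha⟩ := hG (π g)
  obtain ⟨b, hb⟩ := hΓ (ρ g)
  refine ⟨a + b, h _ ?_ ?_⟩
  · rw [map_pow, pow_add, pow_mul, ha, one_pow]
  · rw [map_pow, pow_add, mul_comm, pow_mul, hb, one_pow]

/-- The kernel of the first projection embeds into the second group. -/
theorem isPGroup_ker_of_joint {p : ℕ} (π : G₁ →* G) (ρ : G₁ →* Γ)
    (h : ∀ g : G₁, π g = 1 → ρ g = 1 → g = 1) (hΓ : IsPGroup p Γ) :
    IsPGroup p π.ker := by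
  rintro ⟨g, hg⟩
  obtain ⟨b, hb⟩ := hΓ (ρ g)
  refine ⟨b, Subtype.ext ?_⟩
  show g ^ p ^ b = 1
  refine h _ ?_ ?_
  · rw [map_pow, MonoidHom.mem_ker.mp hg, one_pow]
  · rw [map_pow, hb]

/-- The restriction of the second projection to the kernel of the first one is injective. -/
theorem injective_restrict_ker_of_joint (π : G₁ →* G) (ρ : G₁ →* Γ)
    (h : ∀ g : G₁, π g = 1 → ρ g = 1 → g = 1) :
    Function.Injective (ρ.comp π.ker.subtype) := by
  rw [injective_iff_map_eq_one]
  rintro ⟨g, hg⟩ hρ
  exact Subtype.ext (h g (MonoidHom.mem_ker.mp hg) hρ)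

/-- `|ker π|` divides `|Γ|` for a jointly injective pair. -/
theorem card_ker_dvd_of_joint (π : G₁ →* G) (ρ : G₁ →* Γ)
    (h : ∀ g : G₁, π g = 1 → ρ g = 1 → g = 1) : Nat.card π.ker ∣ Nat.card Γ :=
  Subgroup.card_dvd_of_injective _ (injective_restrict_ker_of_joint π ρ h)

end Joint

/-! ### The splitting field form -/

section General

variable (G L : Type) [Group G] [Fintype G] [Field L] [MulSemiringAction G L] [FaithfulSMul G L]
  (M : Type) [Field M] [Algebra L M]
  (E : Type) [Field E] [Algebra (TowerSplit.Base G L) E]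
  (P₀ : (TowerSplit.Base G L)[X])
  [hM : IsSplittingField L M (P₀.map (algebraMap (TowerSplit.Base G L) L))]
  [hE : IsSplittingField (TowerSplit.Base G L) E P₀]

include hM in
/-- `P₀` splits in the top field. -/
theorem splits_top : (P₀.map (algebraMap (TowerSplit.Base G L) M)).Splits := by
  have h := IsSplittingField.splits M (P₀.map (algebraMap (TowerSplit.Base G L) L))
  rwa [Polynomial.map_map, ← IsScalarTower.algebraMap_eq] at h

/-- The embedding of `E` into the top field `M` (over the base field). -/
def embE : E →ₐ[TowerSplit.Base G L] M :=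
  IsSplittingField.lift E P₀ (splits_top G L M P₀)

/-- The `E`-algebra structure of the top field given by `embE`. -/
@[reducible] def algEM : Algebra E M := (embE G L M E P₀).toRingHom.toAlgebra

theorem isScalarTower_EM :
    letI := algEM G L M E P₀
    IsScalarTower (TowerSplit.Base G L) E M := by
  letI := algEM G L M E P₀
  exact IsScalarTower.of_algebraMap_eq (fun x => ((embE G L M E P₀).commutes x).symm)

include hE in
theorem normal_E : Normal (TowerSplit.Base G L) E := Normal.of_isSplittingField P₀

/-- Restriction of automorphisms of the top field to `E`. -/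
def resE : TowerSplit.TGroup G L M →* (E ≃ₐ[TowerSplit.Base G L] E) :=
  letI := algEM G L M E P₀
  haveI := isScalarTower_EM G L M E P₀
  haveI := normal_E G L E P₀
  AlgEquiv.restrictNormalHom E

theorem resE_spec (τ : TowerSplit.TGroup G L M) (x : E) :
    embE G L M E P₀ (resE G L M E P₀ τ x) = τ (embE G L M E P₀ x) := by
  letI := algEM G L M E P₀
  haveI := isScalarTower_EM G L M E P₀
  haveI := normal_E G L E P₀
  exact AlgEquiv.restrictNormal_commutes τ E x

/-- On the base field, `embE` is the structure map. -/
theorem embE_base (x : TowerSplit.Base G L) :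
    embE G L M E P₀ (algebraMap (TowerSplit.Base G L) E x) = algebraMap L M (x : L) :=
  (embE G L M E P₀).commutes x

theorem resE_surjective (hP₀ : P₀ ≠ 0) : Function.Surjective (resE G L M E P₀) := by
  letI := algEM G L M E P₀
  haveI := isScalarTower_EM G L M E P₀
  haveI := normal_E G L E P₀
  haveI := TowerSplit.normal_base G L M P₀ hP₀
  exact AlgEquiv.restrictNormalHom_surjective M

/-- The elements of the top field fixed by the kernel of `resE` lie in `E`. -/
theorem resE_fixed [CharZero L] (hP₀ : P₀ ≠ 0) (y : M)
    (hy : ∀ n ∈ (resE G L M E P₀).ker, n • y = y) :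
    y ∈ (embE G L M E P₀ : E →+* M).range := by
  letI := algEM G L M E P₀
  haveI := isScalarTower_EM G L M E P₀
  haveI := normal_E G L E P₀
  haveI := TowerSplit.normal_base G L M P₀ hP₀
  haveI := TowerSplit.finiteDimensional_base G L M P₀
  haveI : CharZero (TowerSplit.Base G L) := inferInstance
  haveI : CharZero E :=
    charZero_of_injective_algebraMap (algebraMap (TowerSplit.Base G L) E).injective
  haveI : Normal E M := Normal.tower_top_of_normal (TowerSplit.Base G L) E M
  haveI : FiniteDimensional E M := Module.Finite.of_restrictScalars_finite (TowerSplit.Base G L) E M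
  haveI : IsGalois E M := { }
  have h1 : y ∈ Set.range (algebraMap E M) := by
    rw [IsGalois.mem_range_algebraMap_iff_fixed]
    intro σ
    have h2 : σ.restrictScalars (TowerSplit.Base G L) ∈ (resE G L M E P₀).ker := by
      rw [MonoidHom.mem_ker]
      ext x
      have h3 : embE G L M E P₀ (resE G L M E P₀ (σ.restrictScalars (TowerSplit.Base G L)) x) =
          embE G L M E P₀ x := by
        rw [resE_spec]
        exact σ.commutes x
      exact (embE G L M E P₀).injective h3
    exact hy _ h2
  obtain ⟨x, hx⟩ := h1
  exact ⟨x, hx⟩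

/-- **The second tower**: the top pair `(Gal(M/K), M)` is a tower over `(Gal(E/K), E)`. -/
theorem isTower_E [CharZero L] (hP₀ : P₀ ≠ 0) :
    IsTower (embE G L M E P₀ : E →+* M) (resE G L M E P₀) where
  surj := resE_surjective G L M E P₀ hP₀
  equivariant τ x := resE_spec G L M E P₀ τ x
  fixed y hy := resE_fixed G L M E P₀ hP₀ y hy

/-- **Joint injectivity**: an automorphism of the top field which is trivial on `L` and on `E`
is trivial. -/
theorem eq_one_of_towerHom_of_resE (τ : TowerSplit.TGroup G L M)
    (h₁ : TowerSplit.towerHom G L M τ = 1) (h₂ : resE G L M E P₀ τ = 1) : τ = 1 := by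
  have hL : ∀ x : L, τ (algebraMap L M x) = algebraMap L M x :=
    (TowerSplit.mem_ker_towerHom G L M τ).mp (MonoidHom.mem_ker.mpr h₁)
  let σ : M →ₐ[L] M := { (τ : M →+* M) with commutes' := hL }
  have hσ : σ = AlgHom.id L M := by
    apply AlgHom.ext_of_adjoin_eq_top
      (IsSplittingField.adjoin_rootSet M (P₀.map (algebraMap (TowerSplit.Base G L) L)))
    intro r hr
    have h3 : (P₀.map (algebraMap (TowerSplit.Base G L) L)).rootSet M = P₀.rootSet M := by
      rw [rootSet, rootSet, aroots_map]
    rw [h3, ← (IsSplittingField.splits E P₀).image_rootSet (embE G L M E P₀)] at hr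
    obtain ⟨e, -, rfl⟩ := hr
    show τ (embE G L M E P₀ e) = embE G L M E P₀ e
    rw [← resE_spec, h₂]
    rfl
  ext y
  exact DFunLike.congr_fun hσ y

end General

/-! ### The packaged statement -/

/-- **Compositum of a Galois pair with a Galois extension of its base field.**
`(G, L)` a Galois pair of number fields, `K = L^G`, `E/K` finite Galois.  There is a Galois pair
`(G₁, M)` which is a tower over `(G, L)` and over `(Gal(E/K), E)` (Mathlib's action of
`E ≃ₐ[K] E` on `E`), the two maps `E → M ← L` agree on `K`, and `G₁ → G × Gal(E/K)` is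
injective. -/
theorem exists_compositum (G L : Type) [Group G] [Fintype G] [Field L] [NumberField L]
    [MulSemiringAction G L] [FaithfulSMul G L]
    (E : Type) [Field E] [Algebra (TowerSplit.Base G L) E]
    [FiniteDimensional (TowerSplit.Base G L) E] [IsGalois (TowerSplit.Base G L) E] :
    ∃ (M : Type) (_ : Field M) (_ : NumberField M) (G₁ : Type) (_ : Group G₁) (_ : Fintype G₁)
      (_ : MulSemiringAction G₁ M) (f : L →+* M) (π : G₁ →* G) (j : E →+* M)
      (ρ : G₁ →* (E ≃ₐ[TowerSplit.Base G L] E)),
      FaithfulSMul G₁ M ∧ IsTower f π ∧ IsTower j ρ ∧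
        (∀ x : TowerSplit.Base G L, j (algebraMap (TowerSplit.Base G L) E x) = f (x : L)) ∧
        (∀ g : G₁, π g = 1 → ρ g = 1 → g = 1) := by
  obtain ⟨P₀, hsep, hsp⟩ := IsGalois.is_separable_splitting_field (TowerSplit.Base G L) E
  have hP₀ : P₀ ≠ 0 := hsep.ne_zero
  let M : Type := (P₀.map (algebraMap (TowerSplit.Base G L) L)).SplittingField
  haveI hM : IsSplittingField L M (P₀.map (algebraMap (TowerSplit.Base G L) L)) :=
    inferInstanceAs (IsSplittingField L (P₀.map (algebraMap (TowerSplit.Base G L) L)).SplittingField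
      (P₀.map (algebraMap (TowerSplit.Base G L) L)))
  haveI : FiniteDimensional L M := TowerSplit.finiteDimensional_top G L M P₀
  haveI : NumberField M := NumberField.of_module_finite L M
  haveI : FiniteDimensional (TowerSplit.Base G L) M := TowerSplit.finiteDimensional_base G L M P₀
  haveI : Finite (TowerSplit.TGroup G L M) := inferInstance
  exact ⟨M, inferInstance, inferInstance, TowerSplit.TGroup G L M, inferInstance,
    Fintype.ofFinite _, inferInstance, algebraMap L M, TowerSplit.towerHom G L M,
    (embE G L M E P₀ : E →+* M), resE G L M E P₀, inferInstance,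
    TowerSplit.isTower G L M P₀ hP₀, isTower_E G L M E P₀ hP₀, embE_base G L M E P₀,
    eq_one_of_towerHom_of_resE G L M E P₀⟩

/-- The same statement with the `p`-group bookkeeping: if `Gal(E/K)` is a `p`-group then `ker π`
is a `p`-group, and the top group is a `p`-group as soon as `G` is.  Also records that `E` is a
number field and that `Gal(E/K)` acts faithfully, so that `(Gal(E/K), E)` is a Galois pair. -/
theorem exists_compositum_pGroup (p : ℕ) (G L : Type) [Group G] [Fintype G] [Field L]
    [NumberField L] [MulSemiringAction G L] [FaithfulSMul G L]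
    (E : Type) [Field E] [Algebra (TowerSplit.Base G L) E]
    [FiniteDimensional (TowerSplit.Base G L) E] [IsGalois (TowerSplit.Base G L) E]
    (hΓ : IsPGroup p (E ≃ₐ[TowerSplit.Base G L] E)) :
    ∃ (M : Type) (_ : Field M) (_ : NumberField M) (G₁ : Type) (_ : Group G₁) (_ : Fintype G₁)
      (_ : MulSemiringAction G₁ M) (f : L →+* M) (π : G₁ →* G) (j : E →+* M)
      (ρ : G₁ →* (E ≃ₐ[TowerSplit.Base G L] E)),
      FaithfulSMul G₁ M ∧ IsTower f π ∧ IsTower j ρ ∧
        (∀ x : TowerSplit.Base G L, j (algebraMap (TowerSplit.Base G L) E x) = f (x : L)) ∧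
        (∀ g : G₁, π g = 1 → ρ g = 1 → g = 1) ∧
        IsPGroup p π.ker ∧ (IsPGroup p G → IsPGroup p G₁) ∧
        Nat.card π.ker ∣ Nat.card (E ≃ₐ[TowerSplit.Base G L] E) ∧
        NumberField E ∧ FaithfulSMul (E ≃ₐ[TowerSplit.Base G L] E) E := by
  obtain ⟨M, iM, iNM, G₁, iG₁, iF, iA, f, π, j, ρ, hfaith, h1, h2, h3, h4⟩ :=
    exists_compositum G L E
  haveI : NumberField (TowerSplit.Base G L) :=
    { to_charZero := inferInstance
      to_finiteDimensional := by
        have hfd : FiniteDimensional ℚ L := inferInstance
        exact FiniteDimensional.left ℚ (TowerSplit.Base G L) L }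
  exact ⟨M, iM, iNM, G₁, iG₁, iF, iA, f, π, j, ρ, hfaith, h1, h2, h3, h4,
    isPGroup_ker_of_joint π ρ h4 hΓ, fun hG => isPGroup_of_joint π ρ h4 hG hΓ,
    card_ker_dvd_of_joint π ρ h4, NumberField.of_module_finite (TowerSplit.Base G L) E,
    inferInstance⟩

end Fermat.Agent.CFT.Global.CompositumPair
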