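/-
CFT program, layer Global: the DECOMPOSITION-GROUP DICTIONARY (helper65, leaf [AUX.D]).

For a number field `L` and a prime `q`, helper42's `CountDict.placeBelow` identifies the maximal
ideals of the semilocal algebra `A_q(L) = L ⊗[ℚ] ℚ_[q]` with the primes of `𝓞 L` above `q`.
This file makes that dictionary functorial:

* `mem_placeBelow_comapMax` : for a field embedding `f : L →+* L'` and a maximal ideal `m'` of
  `A_q(L')`, the prime below `m'.comap (semiLocalMap q f)` is the contraction of the prime
  below `m'`;
* `mem_decompGroup_iff_placeBelow`, `decompGroup_eq_stabilizer` : for a group `G` acting on `L`,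
  `Global.decompGroup G L q m` is the stabilizer in `G` of the prime `placeBelow m` of `𝓞 L`
  (Mathlib's pointwise action on ideals of `𝓞 L`);
* `placeBelow_under` : compatibility with `Ideal.under`;
* consumer forms `decompGroup_ne_bot_of_dvd_card`, `card_decompGroup`.
-/
import Mathlib
import Fermat.Agent.CFT.Global.Defs
import Fermat.Agent.CFT.Global.CountDict

set_option autoImplicit false

noncomputable section

namespace Fermat.Agent.CFT.Global.DecompDict

open TensorProduct NumberField IsDedekindDomain
open Fermat.Agent.CFT.Global.CountDict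
open scoped Pointwise

attribute [local instance] Algebra.TensorProduct.rightAlgebra Ideal.Quotient.field

/-! ### 1. The spectral norm is invariant under embeddings -/

/-- The spectral norm is invariant under homomorphisms of field extensions. -/
theorem spectralNorm_map {F : Type*} [NormedField F] {E E' : Type*} [Field E] [Field E']
    [Algebra F E] [Algebra F E'] (ψ : E →+* E')
    (hψ : ∀ c : F, ψ (algebraMap F E c) = algebraMap F E' c) (x : E) :
    spectralNorm F E' (ψ x) = spectralNorm F E x := by
  let ψa : E →ₐ[F] E' := { ψ with commutes' := hψ }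
  have h : minpoly F (ψa x) = minpoly F x := minpoly.algHom_eq ψa ψa.injective x
  show spectralValue (minpoly F (ψ x)) = spectralValue (minpoly F x)
  have h' : minpoly F (ψ x) = minpoly F x := h
  rw [h']

/-! ### 2. Functoriality of `placeBelow` -/

section Functorial

variable (q : ℕ) [Fact q.Prime] {L L' : Type} [Field L] [NumberField L] [Field L']
  [NumberField L']

/-- The maximal ideal of `A_q(L)` below a maximal ideal of `A_q(L')`. -/
def comapMax (f : L →+* L') (m' : MaximalSpectrum (SemiLocal L' q)) :
    MaximalSpectrum (SemiLocal L q) :=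
  ⟨m'.asIdeal.comap (semiLocalMap q f), by
    have := CountDict.isArtinianRing q L
    have : (m'.asIdeal.comap (semiLocalMap q f)).IsPrime :=
      Ideal.comap_isPrime _ _
    exact IsArtinianRing.isMaximal_of_isPrime _⟩

theorem comapMax_asIdeal (f : L →+* L') (m' : MaximalSpectrum (SemiLocal L' q)) :
    (comapMax q f m').asIdeal = m'.asIdeal.comap (semiLocalMap q f) := rfl

/-- **Functoriality of the place dictionary.**  The prime of `𝓞 L` below the maximal ideal
`m'.comap (semiLocalMap q f)` of `A_q(L)` is the contraction of the prime of `𝓞 L'` below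
`m'`. -/
theorem mem_placeBelow_comapMax (f : L →+* L') (m' : MaximalSpectrum (SemiLocal L' q))
    (y : 𝓞 L) (y' : 𝓞 L') (hy : f (y : L) = (y' : L')) :
    y ∈ (placeBelow (comapMax q f m')).asIdeal ↔ y' ∈ (placeBelow m').asIdeal := by
  rw [mem_placeBelow, mem_placeBelow]
  let ψ : SemiLocal L q ⧸ (comapMax q f m').asIdeal →+* SemiLocal L' q ⧸ m'.asIdeal :=
    Ideal.quotientMap m'.asIdeal (semiLocalMap q f) (comapMax_asIdeal q f m').le
  have hmk : ∀ x : SemiLocal L q, ψ (Ideal.Quotient.mk (comapMax q f m').asIdeal x) =
      Ideal.Quotient.mk m'.asIdeal (semiLocalMap q f x) := fun x => rfl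
  have hψ : ∀ c : ℚ_[q], ψ (algebraMap ℚ_[q] _ c) = algebraMap ℚ_[q] _ c := by
    intro c
    rw [← quot_compat (comapMax q f m') c, ← quot_compat m' c, hmk, semiLocalMap_tmul, map_one]
  have h := spectralNorm_map ψ hψ
    (Ideal.Quotient.mk (comapMax q f m').asIdeal ((y : L) ⊗ₜ[ℚ] (1 : ℚ_[q])))
  rw [hmk, semiLocalMap_tmul, hy] at h
  rw [h]

/-- `semiLocalMap` is functorial. -/
theorem semiLocalMap_comp_apply {L'' : Type} [Field L''] [NumberField L''] (f : L →+* L')
    (g : L' →+* L'') (x : SemiLocal L q) :
    semiLocalMap q (g.comp f) x = semiLocalMap q g (semiLocalMap q f x) := by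
  induction x using TensorProduct.induction_on with
  | zero => rw [map_zero, map_zero, map_zero]
  | tmul a b => rfl
  | add x y hx hy => rw [map_add, map_add, map_add, hx, hy]

theorem comapMax_comp {L'' : Type} [Field L''] [NumberField L''] (f : L →+* L')
    (g : L' →+* L'') (m'' : MaximalSpectrum (SemiLocal L'' q)) :
    comapMax q f (comapMax q g m'') = comapMax q (g.comp f) m'' := by
  apply MaximalSpectrum.ext
  apply Ideal.ext
  intro x
  rw [comapMax_asIdeal, comapMax_asIdeal, comapMax_asIdeal, Ideal.mem_comap, Ideal.mem_comap,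
    Ideal.mem_comap, semiLocalMap_comp_apply]

/-- Two towers with the same composite have the same place below. -/
theorem comapMax_comapMax_eq {K L₁ L₂ : Type} [Field K] [NumberField K] [Field L₁]
    [NumberField L₁] [Field L₂] [NumberField L₂] (i₁ : K →+* L₁) (i₂ : K →+* L₂)
    (f₁ : L₁ →+* L') (f₂ : L₂ →+* L') (h : f₁.comp i₁ = f₂.comp i₂)
    (m' : MaximalSpectrum (SemiLocal L' q)) :
    comapMax q i₁ (comapMax q f₁ m') = comapMax q i₂ (comapMax q f₂ m') := by
  rw [comapMax_comp, comapMax_comp, h]

end Functorial

/-! ### 3. The decomposition group is the stabilizer of the prime below -/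

section Decomp

variable (G : Type) [Group G] (L : Type) [Field L] [NumberField L] [MulSemiringAction G L]
variable (q : ℕ) [Fact q.Prime]

/-- The action of `G` on `A_q(L)` is `semiLocalMap` of the action on `L`. -/
theorem smul_eq_semiLocalMap (g : G) (x : SemiLocal L q) :
    g • x = semiLocalMap q (MulSemiringAction.toRingHom G L g) x := by
  induction x using TensorProduct.induction_on with
  | zero => rw [smul_zero, map_zero]
  | tmul a b => rfl
  | add x y hx hy => rw [smul_add, map_add, hx, hy]

theorem mem_comapMax_smul (g : G) (m : MaximalSpectrum (SemiLocal L q)) (x : SemiLocal L q) :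
    x ∈ (comapMax q (MulSemiringAction.toRingHom G L g) m).asIdeal ↔ g • x ∈ m.asIdeal := by
  rw [comapMax_asIdeal, Ideal.mem_comap, smul_eq_semiLocalMap]

/-- The prime below the translate `{x | g • x ∈ m}`. -/
theorem mem_placeBelow_comapMax_smul (g : G) (m : MaximalSpectrum (SemiLocal L q)) (y : 𝓞 L) :
    y ∈ (placeBelow (comapMax q (MulSemiringAction.toRingHom G L g) m)).asIdeal ↔
      g • y ∈ (placeBelow m).asIdeal :=
  mem_placeBelow_comapMax q (MulSemiringAction.toRingHom G L g) m y (g • y) rfl

/-- **[AUX.D]** `g` lies in the decomposition group of the maximal ideal `m` of `A_q(L)` iff it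
stabilises the prime of `𝓞 L` below `m`. -/
theorem mem_decompGroup_iff_placeBelow (m : MaximalSpectrum (SemiLocal L q)) (g : G) :
    g ∈ decompGroup G L q m.asIdeal ↔
      ∀ y : 𝓞 L, g • y ∈ (placeBelow m).asIdeal ↔ y ∈ (placeBelow m).asIdeal := by
  constructor
  · intro hg y
    have h1 : comapMax q (MulSemiringAction.toRingHom G L g) m = m := by
      apply MaximalSpectrum.ext
      apply Ideal.ext
      intro x
      rw [mem_comapMax_smul]
      exact hg x
    rw [← mem_placeBelow_comapMax_smul, h1]
  · intro h
    have h1 : placeBelow (comapMax q (MulSemiringAction.toRingHom G L g) m) = placeBelow m := by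
      apply HeightOneSpectrum.ext
      apply Ideal.ext
      intro y
      rw [mem_placeBelow_comapMax_smul]
      exact h y
    have h2 := placeBelow_injective h1
    intro x
    rw [← mem_comapMax_smul, h2]

/-- **[AUX.D]** The decomposition group of a maximal ideal `m` of `A_q(L)` is the stabilizer
(for Mathlib's pointwise action of `G` on the ideals of `𝓞 L`) of the prime of `𝓞 L` below
`m`. -/
theorem decompGroup_eq_stabilizer (m : MaximalSpectrum (SemiLocal L q)) :
    decompGroup G L q m.asIdeal = MulAction.stabilizer G (placeBelow m).asIdeal := by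
  ext g
  rw [MulAction.mem_stabilizer_iff]
  constructor
  · intro hg
    have hg' : g⁻¹ ∈ decompGroup G L q m.asIdeal := inv_mem hg
    rw [mem_decompGroup_iff_placeBelow] at hg'
    apply Ideal.ext
    intro y
    rw [Ideal.mem_pointwise_smul_iff_inv_smul_mem]
    exact hg' y
  · intro hg
    have hg' : g⁻¹ ∈ decompGroup G L q m.asIdeal := by
      rw [mem_decompGroup_iff_placeBelow]
      intro y
      rw [← Ideal.mem_pointwise_smul_iff_inv_smul_mem, hg]
    have := inv_mem hg'
    rwa [inv_inv] at this

theorem card_decompGroup (m : MaximalSpectrum (SemiLocal L q)) :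
    Nat.card (decompGroup G L q m.asIdeal) =
      Nat.card (MulAction.stabilizer G (placeBelow m).asIdeal) := by
  rw [decompGroup_eq_stabilizer]

/-- Consumer form: a decomposition group whose stabilizer has order divisible by `n > 1` is
nontrivial. -/
theorem decompGroup_ne_bot_of_dvd_card (m : MaximalSpectrum (SemiLocal L q)) (n : ℕ)
    (hn : 1 < n) (h : n ∣ Nat.card (MulAction.stabilizer G (placeBelow m).asIdeal)) :
    decompGroup G L q m.asIdeal ≠ ⊥ := by
  intro hbot
  rw [← card_decompGroup, hbot, Subgroup.card_bot] at h
  have := Nat.le_of_dvd one_pos h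
  omega

end Decomp

/-! ### 4. Compatibility with `Ideal.under` -/

section Under

variable (q : ℕ) [Fact q.Prime] (K L : Type) [Field K] [NumberField K] [Field L]
  [NumberField L] [Algebra K L]

/-- The prime of `𝓞 K` below `placeBelow m` is `placeBelow` of the contraction of `m`. -/
theorem placeBelow_under (m : MaximalSpectrum (SemiLocal L q)) :
    (placeBelow m).asIdeal.under (𝓞 K) =
      (placeBelow (comapMax q (algebraMap K L) m)).asIdeal := by
  apply Ideal.ext
  intro y
  rw [Ideal.under_def, Ideal.mem_comap]
  exact (mem_placeBelow_comapMax q (algebraMap K L) m y (algebraMap (𝓞 K) (𝓞 L) y) rfl).symm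

/-- **Consumer form for [AUX].**  If every prime `Q` of `𝓞 E` above the prime of `𝓞 K` below
`mE` has a stabilizer in `Γ` of order divisible by `n > 1` (the output shape of
`CycloAux.exists_cyclic_aux`), then the decomposition group of `mE` is nontrivial. -/
theorem decompGroup_ne_bot_of_under (Γ : Type) [Group Γ] [MulSemiringAction Γ L]
    (m : MaximalSpectrum (SemiLocal L q)) (n : ℕ) (hn : 1 < n)
    (h : ∀ Q : Ideal (𝓞 L), Q.IsPrime →
      Q.under (𝓞 K) = (placeBelow (comapMax q (algebraMap K L) m)).asIdeal →
      n ∣ Nat.card (MulAction.stabilizer Γ Q)) :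
    decompGroup Γ L q m.asIdeal ≠ ⊥ :=
  decompGroup_ne_bot_of_dvd_card Γ L q m n hn
    (h _ (placeBelow m).isPrime (placeBelow_under q K L m))

end Under

end Fermat.Agent.CFT.Global.DecompDict
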