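/-
CFT program, layer Global: dictionary between the L7 vocabulary (`L7Defs`, helper59) and the
Global model (`Global/Defs`, helper93).  Everything is definitional or one induction on tensors
(helper45).
-/
import Mathlib
import Fermat.Agent.CFT.Global.Defs
import Fermat.Agent.CFT.Global.L7Defs

set_option autoImplicit false

noncomputable section

namespace Fermat.Agent.CFT.Global.L7Dict

open TensorProduct
open Fermat.Agent.CFT.Global
open scoped Fermat.Agent.CFT.Global

section Absolute

variable (K : Type) [Field K] [NumberField K]

theorem qInt_eq_intHom (q : ℕ) [Fact q.Prime] : QBridge.qInt q K = intHom K q := rfl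

theorem Uq_eq (q : Nat.Primes) : L7.Uq K q = localUnits K (q : ℕ) := rfl

theorem loc_eq (q : Nat.Primes) (a : Kˣ) : L7.loc K q a = principal K a q := rfl

theorem diag_eq : L7.diag K = principal K := rfl

theorem Jsupp_eq (S : Finset Nat.Primes) : L7.Jsupp K S = supportedOn K S := rfl

theorem sUnits_eq (S : Finset Nat.Primes) : L7.sUnits K S = sUnits K S := rfl

theorem locS_eq (S : Finset Nat.Primes) : L7.locS K S = sDiag K S := by
  ext a q
  by_cases h : q ∈ S
  · simp [L7.locS, L7.trunc, sDiag, h, diag_eq]
  · simp [L7.locS, L7.trunc, sDiag, h]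

end Absolute

section Relative

variable (K L : Type) [Field K] [NumberField K] [Field L] [NumberField L] [Algebra K L]

theorem baseCh_eq (q : Nat.Primes) :
    L7.baseCh K L q = semiLocalMap (q : ℕ) (algebraMap K L) := by
  apply RingHom.ext
  intro x
  induction x using TensorProduct.induction_on with
  | zero => simp
  | tmul a b => rfl
  | add x y hx hy => rw [map_add, map_add, hx, hy]

theorem galAct_apply (q : Nat.Primes) (g : L ≃ₐ[K] L) (x : L7.Aq L q) :
    L7.galAct K L q g x = g • x := by
  induction x using TensorProduct.induction_on with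
  | zero => simp
  | tmul a b => rfl
  | add x y hx hy => rw [map_add, smul_add, hx, hy]

variable [FiniteDimensional K L]

theorem normq_eq (q : Nat.Primes) (y : (L7.Aq L q)ˣ) :
    L7.normq K L q y = ∏ g : L ≃ₐ[K] L, g • y := by
  rw [L7.normq_apply]
  refine Finset.prod_congr rfl fun g _ => Units.ext ?_
  rw [Units.coe_map, coe_smul_units]
  exact galAct_apply K L q g y

end Relative

end Fermat.Agent.CFT.Global.L7Dict
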