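import Mathlib
import Fermat.Agent.CFT.Coh.HerbrandCyclic
import Fermat.Agent.CFT.Global.Defs
import Fermat.Agent.CFT.Global.L7Defs
import Fermat.Agent.CFT.Global.L7Dict
import Fermat.Agent.CFT.Global.ClassDescent

/-!
# Class field theory program (P3), global layer: the dictionary of a Galois pair

A *Galois pair* is a finite group `G` acting faithfully on a number field `L`
(`[Fintype G] [NumberField L] [MulSemiringAction G L] [FaithfulSMul G L]`).  This file provides the
passage to the relative vocabulary `K ⊆ L`, `Gal(L/K)` of `L7Defs.lean`:

* `Base G L` : the fixed field `L^G` as a type; it is a number field, `L / Base G L` is finite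
  Galois (Mathlib's `FixedPoints` instances) and `galEquiv G L : G ≃* (L ≃ₐ[Base G L] L)`;
* `smul_eq_galAct`, `smul_units_eq`, `prod_smul_eq_normq` : the action of `G` on
  `L ⊗[ℚ] ℚ_[q]` and the norm, in the two vocabularies;
* `TrivGrp`, `trivAct`, `isTower` : `Base G L ⊆ L` is a tower datum (for the one-element group
  `TrivGrp` acting on the base), so that the lemmas of `ClassDescent.lean` apply;
* `mkCH`, `nEnd_mkC`, `exists_base_of_invariant` : the idele class module `classRep G L`:
  norms and invariants of classes.
-/

set_option autoImplicit false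
set_option linter.unusedSectionVars false

open scoped TensorProduct
open scoped Fermat.Agent.CFT.Global

noncomputable section

namespace Fermat.Agent.CFT.Global.GaloisPair

open Fermat.Agent.CFT.Global Fermat.Agent.CFT.Herbrand

/-! ## The base field -/

section Base

variable (G L : Type) [Group G] [Fintype G] [Field L] [NumberField L] [MulSemiringAction G L]

/-- The base field of a Galois pair: the fixed field `L^G`, as a type. -/
abbrev Base : Type := ↥(FixedPoints.subfield G L)

instance instNumberFieldBase : NumberField (Base G L) where
  to_charZero := inferInstance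
  to_finiteDimensional :=
    Module.Finite.of_injective ((FixedPoints.subfield G L).subtype.toRatAlgHom.toLinearMap)
      (FixedPoints.subfield G L).subtype.injective

theorem algebraMap_base (x : Base G L) : algebraMap (Base G L) L x = (x : L) := rfl

theorem smul_algebraMap_base (g : G) (x : Base G L) :
    g • algebraMap (Base G L) L x = algebraMap (Base G L) L x := x.2 g

theorem mem_range_algebraMap_of_fixed (y : L) (hy : ∀ g : G, g • y = y) :
    y ∈ (algebraMap (Base G L) L).range := ⟨⟨y, hy⟩, rfl⟩

/-- A root of unity of `L` fixed by `G` is a root of unity of the base field. -/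
theorem exists_fixed_root {n : ℕ} (ζ : L) (hζ : IsPrimitiveRoot ζ n) (h : ∀ g : G, g • ζ = ζ) :
    ∃ ζ' : Base G L, IsPrimitiveRoot ζ' n ∧ algebraMap (Base G L) L ζ' = ζ :=
  ⟨⟨ζ, h⟩, IsPrimitiveRoot.of_map_of_injective (f := algebraMap (Base G L) L) hζ
    (algebraMap (Base G L) L).injective, rfl⟩

variable [FaithfulSMul G L]

/-- The group of a Galois pair is the Galois group of `L` over the fixed field. -/
def galEquiv : G ≃* (L ≃ₐ[Base G L] L) := FixedPoints.toAlgAutMulEquiv G L

theorem galEquiv_apply (g : G) (x : L) : galEquiv G L g x = g • x := rfl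

theorem card_gal : Nat.card (L ≃ₐ[Base G L] L) = Nat.card G :=
  (Nat.card_congr (galEquiv G L).toEquiv).symm

theorem finrank_base : Module.finrank (Base G L) L = Nat.card G := by
  rw [FixedPoints.finrank_eq_card, Nat.card_eq_fintype_card]

end Base

/-! ## The semilocal algebras -/

section SemiLocal

variable (G L : Type) [Group G] [Fintype G] [Field L] [NumberField L] [MulSemiringAction G L]
  [FaithfulSMul G L]

/-- The action of `G` on `L ⊗[ℚ] ℚ_[q]` is the action of `Gal(L / L^G)` of `L7Defs`. -/
theorem smul_eq_galAct (q : Nat.Primes) (g : G) (x : SemiLocal L q) :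
    g • x = L7.galAct (Base G L) L q (galEquiv G L g) x := by
  induction x using TensorProduct.induction_on with
  | zero => simp
  | tmul a b => rfl
  | add x y hx hy => rw [smul_add, map_add, hx, hy]

theorem smul_units_eq (q : Nat.Primes) (g : G) (y : (SemiLocal L q)ˣ) :
    g • y = Units.map ((L7.galAct (Base G L) L q (galEquiv G L g) : L7.Aq L q ≃+* L7.Aq L q) :
      L7.Aq L q →* L7.Aq L q) y := by
  apply Units.ext
  rw [coe_smul_units, Units.coe_map]
  exact smul_eq_galAct G L q g y

/-- The norm `∏ g, g • y` of a Galois pair is the norm of `L7Defs`. -/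
theorem prod_smul_eq_normq (q : Nat.Primes) (y : (SemiLocal L q)ˣ) :
    ∏ g : G, g • y = L7.normq (Base G L) L q y := by
  rw [L7.normq_apply]
  refine Fintype.prod_equiv (galEquiv G L).toEquiv _ _ (fun g => ?_)
  exact smul_units_eq G L q g y

/-- Base change along `L^G ⊆ L` in the two vocabularies. -/
theorem baseCh_eq (q : Nat.Primes) :
    L7.baseCh (Base G L) L q = semiLocalMap (q : ℕ) (algebraMap (Base G L) L) :=
  L7Dict.baseCh_eq (Base G L) L q

end SemiLocal

/-! ## The tower `L^G ⊆ L` -/

section Tower

/-- The one-element group acting on the base field of a Galois pair.  (A private copy: `PUnit`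
itself carries Mathlib's trivial action on every type, which would compete with the action on
the semilocal algebras through the left tensor factor.) -/
inductive TrivGrp : Type
  | one

instance instGroupTrivGrp : Group TrivGrp where
  mul _ _ := TrivGrp.one
  one := TrivGrp.one
  inv _ := TrivGrp.one
  mul_assoc _ _ _ := rfl
  one_mul a := by cases a; rfl
  mul_one a := by cases a; rfl
  inv_mul_cancel _ := rfl

variable (G L : Type) [Group G] [Fintype G] [Field L] [NumberField L] [MulSemiringAction G L]

/-- The trivial action of the one-element group `TrivGrp` on the base field of a Galois pair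
(a reducible definition, to be used as a local instance). -/
@[reducible] def trivAct : MulSemiringAction TrivGrp (Base G L) where
  smul _ x := x
  one_smul _ := rfl
  mul_smul _ _ _ := rfl
  smul_zero _ := rfl
  smul_add _ _ _ := rfl
  smul_one _ := rfl
  smul_mul _ _ _ := rfl

attribute [local instance] trivAct

/-- The trivial group acts trivially on the semilocal algebras of the base field. -/
theorem triv_smul_semiLocal (q : ℕ) [Fact q.Prime] (u : TrivGrp)
    (z : SemiLocal (Base G L) q) : u • z = z := by
  induction z using TensorProduct.induction_on with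
  | zero => simp
  | tmul a b => rfl
  | add x y hx hy => rw [smul_add, hx, hy]

set_option synthInstance.maxHeartbeats 400000 in
/-- The trivial group acts trivially on the ideles of the base field. -/
theorem triv_smul_idele (u : TrivGrp) (x : IdeleProd (Base G L)) : u • x = x := by
  funext q
  apply Units.ext
  exact triv_smul_semiLocal G L q u (x q : SemiLocal (Base G L) q)

/-- `L^G ⊆ L` is a tower datum, with the trivial group acting on the base. -/
theorem isTower : IsTower (algebraMap (Base G L) L) (1 : G →* TrivGrp) where
  surj := fun _ => ⟨1, rfl⟩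
  equivariant := fun g x => (smul_algebraMap_base G L g x).symm
  fixed := fun y hy => mem_range_algebraMap_of_fixed G L y (fun g => hy g (by simp))

/-- The image of an idele of the base field is `G`-invariant. -/
theorem smul_ideleProdMap (g : G) (x : IdeleProd (Base G L)) :
    g • ideleProdMap (algebraMap (Base G L) L) x = ideleProdMap (algebraMap (Base G L) L) x := by
  have h := ClassDescent.ideleProdMap_smul (isTower G L) g x
  rw [← h]
  congr 1
  exact triv_smul_idele G L _ x

end Tower

/-! ## The idele class module -/

section ClassModule

variable (L : Type) [Field L] [CharZero L]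

/-- The class map `J_L → C_L` as a monoid homomorphism. -/
def mkCH : ↥(finIdele L) →* Multiplicative (ClassGroupOf L) where
  toFun x := Multiplicative.ofAdd (ClassDescent.mkC (x : IdeleProd L) x.2)
  map_one' := by
    show Multiplicative.ofAdd (ClassDescent.mkC (1 : IdeleProd L) _) = 1
    rw [(ClassDescent.mkC_eq_zero_iff _).mpr (one_mem _)]
    rfl
  map_mul' x y := rfl

variable {L}

theorem mkCH_apply (x : ↥(finIdele L)) :
    mkCH L x = Multiplicative.ofAdd (ClassDescent.mkC (x : IdeleProd L) x.2) := rfl

theorem mkCH_eq_one_iff (x : ↥(finIdele L)) :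
    mkCH L x = 1 ↔ (x : IdeleProd L) ∈ (principal L).range := by
  rw [mkCH_apply]
  exact ClassDescent.mkC_eq_zero_iff x.2

theorem mkCH_surjective : Function.Surjective (mkCH L) := by
  intro c
  obtain ⟨x, hx, h⟩ := ClassDescent.exists_mkC (Multiplicative.toAdd c)
  exact ⟨⟨x, hx⟩, by rw [mkCH_apply, ← h]; rfl⟩

variable (G : Type) [Group G] [Fintype G] [MulSemiringAction G L]

/-- The action of `G` on `J_L`, as an element of the subgroup. -/
def smulFin (g : G) (x : ↥(finIdele L)) : ↥(finIdele L) :=
  ⟨g • (x : IdeleProd L), smul_mem_finIdele G L g x.2⟩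

theorem rho_mkCH (g : G) (x : ↥(finIdele L)) :
    (classRep G L).ρ g (Multiplicative.toAdd (mkCH L x)) =
      Multiplicative.toAdd (mkCH L (smulFin G g x)) := rfl

/-- The norm of a class is the class of the norm. -/
theorem nEnd_mkCH (x : ↥(finIdele L)) :
    nEnd (ofRepresentation (classRep G L).ρ) (Multiplicative.toAdd (mkCH L x)) =
      Multiplicative.toAdd (mkCH L (∏ g : G, smulFin G g x)) := by
  rw [nEnd_apply, map_prod, toAdd_prod]
  rfl

theorem coe_prod_smulFin (x : ↥(finIdele L)) :
    ((∏ g : G, smulFin G g x : ↥(finIdele L)) : IdeleProd L) = ∏ g : G, g • (x : IdeleProd L) := by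
  rw [← Subgroup.coe_subtype, map_prod]
  rfl

end ClassModule

section Invariant

attribute [local instance] trivAct

variable (G L : Type) [Group G] [Fintype G] [Field L] [NumberField L] [MulSemiringAction G L]
  [FaithfulSMul G L]

/-- **Galois descent for a Galois pair**: a `G`-invariant idele class of `L` is the class of
(the image of) a finite idele of the base field `L^G`. -/
theorem exists_base_of_invariant (c : ClassGroupOf L)
    (hc : ∀ g : G, (classRep G L).ρ g c = c) :
    ∃ (x : IdeleProd (Base G L)) (hx : x ∈ finIdele (Base G L)),
      c = ClassDescent.mkC (ideleProdMap (algebraMap (Base G L) L) x)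
        (ideleProdMap_mem_finIdele _ hx) := by
  obtain ⟨c₀, hc₀⟩ := ClassDescent.mem_range_classMap_of_fixed (isTower G L)
    QBridge.range_principal_le_finIdele c (fun n _ => hc n)
  obtain ⟨x, hx, rfl⟩ := ClassDescent.exists_mkC c₀
  exact ⟨x, hx, by rw [← hc₀, ClassDescent.classMap_mkC]⟩

end Invariant

end Fermat.Agent.CFT.Global.GaloisPair
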