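/-
CFT program, layer Global, [F2-chase]: `Plan.LocalGlobalInj` from an auxiliary layer.

For a `p`-group Galois pair `(G, L)` and a place `w ∣ q` of `L` (a maximal ideal `m`), the map
`H²(G, ∏_{w' ∈ G·w} L_{w'}ˣ) → H²(G, C_L)` is injective as soon as there are a tower `(G', L')`
over `(G, L)` and a second pair `(Γ, Z)` below `(G', L')` such that the place below `w` is not
totally split in `Z` and the statement holds for `(Γ, Z)` (in the application: `Z` cyclic
cyclotomic, unramified at the place).  No local inflation comparison is needed: `H²(G', block)`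
is a cyclic `p`-group, the kernel of `H²(G', block) → H²(G', C_{L'})` meets the (nonzero) image
of the inflation from `Γ` trivially, hence it is zero (helper45).

Contract props of this file: `BlockTower`, `BlockH1` (semilocal algebra), `AuxLayer`
(arithmetic).
-/
import Mathlib
import Fermat.Agent.CFT.Global.Plan
import Fermat.Agent.CFT.Global.ClassDescent
import Fermat.Agent.CFT.Global.SemiLocalGalois
import Fermat.Agent.CFT.Global.LGChase.Abstract
import Fermat.Agent.CFT.Global.LGChase.Tower

set_option autoImplicit false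

open CategoryTheory
open scoped Fermat.Agent.CFT.Global

namespace Fermat.Agent.CFT.Global.LGChase

open Fermat.Agent.CFT Fermat.Agent.CFT.Global

/-! ### Contracts -/

/-- [BT] **Blocks in a tower.**  For a tower `(G', L')` over `(G, L)` and a place `m'` of `L'`
above the place `m` of `L`: the block of `m` maps into the block of `m'`, and the
`ker π`-invariants of the block of `m'` come from the block of `m`. -/
def BlockTower : Prop :=
  ∀ (L L' G G' : Type) [Field L] [NumberField L] [Field L'] [NumberField L']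
    [Group G] [Group G'] [Fintype G'] [MulSemiringAction G L] [MulSemiringAction G' L']
    [FaithfulSMul G' L'] (f : L →+* L') (π : G' →* G), IsTower f π →
  ∀ (q : ℕ) [Fact q.Prime] (m' : Ideal (SemiLocal L' q)), m'.IsMaximal →
    (∀ x ∈ orbitUnits G L q (m'.comap (semiLocalMap q f)),
      Units.map (semiLocalMap q f).toMonoidHom x ∈ orbitUnits G' L' q m') ∧
    ∀ y ∈ orbitUnits G' L' q m', (∀ n ∈ π.ker, n • y = y) →
      ∃ x ∈ orbitUnits G L q (m'.comap (semiLocalMap q f)),
        Units.map (semiLocalMap q f).toMonoidHom x = y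

/-- [BH1] Hilbert 90 for the blocks: `H¹(N, ∏_{w' ∈ G·w} L_{w'}ˣ) = 0` for every subgroup
`N ≤ G`. -/
def BlockH1 : Prop :=
  ∀ (G L : Type) [Group G] [Fintype G] [Field L] [NumberField L] [MulSemiringAction G L]
    [FaithfulSMul G L] (q : ℕ) [Fact q.Prime] (m : Ideal (SemiLocal L q)), m.IsMaximal →
  ∀ N : Subgroup G, Limits.IsZero (groupCohomology (Rep.res N.subtype (orbitRep G L q m)) 1)

/-- [AUX] **The auxiliary layer.**  For a `p`-group Galois pair `(G, L)` and a place `m` of `L`
above `q` there are a `p`-group tower `(G', L')` over `(G, L)`, a place `m'` of `L'` above `m`,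
and a second pair `(Γ, Z)` below `(G', L')` in which the place below `m'` has a nontrivial
decomposition group and for which the local-to-global map on `H²` is injective.
(In the application: `K = L^G`, `Z/K` cyclic of degree `p` inside `K(ζ_ℓ)`, unramified and
inert at the place below `m`, `L' = L·Z`.) -/
def AuxLayer : Prop :=
  ∀ (p : ℕ) [Fact p.Prime], p ≠ 2 →
  ∀ (G L : Type) [Group G] [Fintype G] [Field L] [NumberField L] [MulSemiringAction G L]
    [FaithfulSMul G L], IsPGroup p G →
  ∀ (q : Nat.Primes) (m : Ideal (SemiLocal L q)), m.IsMaximal →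
    ∃ (L' : Type) (_ : Field L') (_ : NumberField L') (G' : Type) (_ : Group G')
      (_ : Fintype G') (_ : MulSemiringAction G' L') (f : L →+* L') (π : G' →* G)
      (Z : Type) (_ : Field Z) (_ : NumberField Z) (Γ : Type) (_ : Group Γ)
      (_ : Fintype Γ) (_ : MulSemiringAction Γ Z) (fZ : Z →+* L') (πZ : G' →* Γ)
      (m' : Ideal (SemiLocal L' q)),
      FaithfulSMul G' L' ∧ IsPGroup p G' ∧ IsTower f π ∧ FaithfulSMul Γ Z ∧ IsTower fZ πZ ∧
      m'.IsMaximal ∧ m'.comap (semiLocalMap (q : ℕ) f) = m ∧
      decompGroup Γ Z q (m'.comap (semiLocalMap (q : ℕ) fZ)) ≠ ⊥ ∧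
      Function.Injective ((groupCohomology.functor ℤ Γ 2).map
        (orbitToClass Γ Z q (m'.comap (semiLocalMap (q : ℕ) fZ)))).hom

/-! ### Cyclicity of the local `H²` -/

/-- From the local `p`-class module: `H²(D_w, L_wˣ)` is cyclic (for `D_w` a `p`-group), and
nonzero if `D_w ≠ 1`. -/
theorem cyclic_localComp (hC6 : Plan.LocClassP) (p : ℕ) [Fact p.Prime]
    (G L : Type) [Group G] [Fintype G] [Field L] [NumberField L] [MulSemiringAction G L]
    [FaithfulSMul G L] (q : ℕ) [Fact q.Prime] (m : Ideal (SemiLocal L q)) (hm : m.IsMaximal)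
    (hD : IsPGroup p (decompGroup G L q m)) :
    ∃ σ : groupCohomology (localCompRep G L q m) 2,
      (∀ y : groupCohomology (localCompRep G L q m) 2, ∃ k : ℤ, y = k • σ) ∧
      (decompGroup G L q m ≠ ⊥ → ∃ y : groupCohomology (localCompRep G L q m) 2, y ≠ 0) := by
  obtain ⟨σ, hσ⟩ := hC6 p G L q m hm
  obtain ⟨-, hcard, hgen⟩ := hσ ⊤ (hD.to_subgroup ⊤)
  have hres : ∀ x : groupCohomology (localCompRep G L q m) 2,
      (Coh.rest (localCompRep G L q m) ⊤ 2).hom x = 0 → x = 0 := by
    intro x hx
    have h := Coh.Provide.resKer ℤ _ (localCompRep G L q m) ⊤ 2 x hx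
    rwa [Subgroup.index_top, one_smul] at h
  refine ⟨σ, fun y => ?_, fun hne => ?_⟩
  · obtain ⟨k, hk⟩ := hgen ((Coh.rest (localCompRep G L q m) ⊤ 2).hom y)
    refine ⟨k, ?_⟩
    have h0 : (Coh.rest (localCompRep G L q m) ⊤ 2).hom (y - k • σ) = 0 := by
      rw [map_sub, map_zsmul, hk, sub_self]
    exact sub_eq_zero.mp (hres _ h0)
  · by_contra hall
    push Not at hall
    have hsub : Subsingleton (groupCohomology
        (Rep.res (⊤ : Subgroup (decompGroup G L q m)).subtype (localCompRep G L q m)) 2) := by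
      have hz : ∀ a : groupCohomology
          (Rep.res (⊤ : Subgroup (decompGroup G L q m)).subtype (localCompRep G L q m)) 2,
          a = 0 := by
        intro a
        obtain ⟨k, hk⟩ := hgen a
        rw [hk, ← map_zsmul, hall (k • σ), map_zero]
      exact ⟨fun a b => (hz a).trans (hz b).symm⟩
    rw [Nat.card_of_subsingleton (0 : groupCohomology
        (Rep.res (⊤ : Subgroup (decompGroup G L q m)).subtype (localCompRep G L q m)) 2),
      Subgroup.card_top] at hcard
    exact hne (Subgroup.card_eq_one.mp hcard.symm)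

/-- `H²(G, ∏_{w' ∈ G·w} L_{w'}ˣ)` is cyclic for a `p`-group `G`, and nonzero if `D_w ≠ 1`. -/
theorem cyclic_block (hC6 : Plan.LocClassP) (p : ℕ) [Fact p.Prime]
    (G L : Type) [Group G] [Fintype G] [Field L] [NumberField L] [MulSemiringAction G L]
    [FaithfulSMul G L] (hG : IsPGroup p G) (q : ℕ) [Fact q.Prime] (m : Ideal (SemiLocal L q))
    (hm : m.IsMaximal) :
    (∃ σ : groupCohomology (orbitRep G L q m) 2,
      ∀ y : groupCohomology (orbitRep G L q m) 2, ∃ k : ℤ, y = k • σ) ∧
    (decompGroup G L q m ≠ ⊥ → ∃ y : groupCohomology (orbitRep G L q m) 2, y ≠ 0) := by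
  obtain ⟨σ, hσ, hne⟩ := cyclic_localComp hC6 p G L q m hm (hG.to_subgroup _)
  have hbij := SemiLocalGalois.orbitShapiro G L q m hm 2
  obtain ⟨σ', hσ'⟩ := hbij.2 σ
  refine ⟨⟨σ', fun y => ?_⟩, fun h => ?_⟩
  · obtain ⟨k, hk⟩ := hσ ((groupCohomology.map (decompGroup G L q m).subtype
      (orbitProj G L q m) 2).hom y)
    refine ⟨k, hbij.1 ?_⟩
    rw [hk, map_zsmul, hσ']
  · obtain ⟨y, hy⟩ := hne h
    obtain ⟨y', rfl⟩ := hbij.2 y
    refine ⟨y', fun h0 => hy ?_⟩
    rw [h0, map_zero]

/-! ### The assembly -/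

/-- Inflation of blocks along a tower is injective on `H²`. -/
theorem blockTower_injective (hBT : BlockTower) (hBH1 : BlockH1)
    {L L' G G' : Type} [Field L] [NumberField L] [Field L'] [NumberField L']
    [Group G] [Group G'] [Fintype G'] [MulSemiringAction G L] [MulSemiringAction G' L']
    [FaithfulSMul G' L'] {f : L →+* L'} {π : G' →* G} (h : IsTower f π)
    (q : ℕ) [Fact q.Prime] (m' : Ideal (SemiLocal L' q)) (hm' : m'.IsMaximal) :
    Function.Injective (groupCohomology.map π
      (blockTower h q (m'.comap (semiLocalMap q f)) m' (hBT L L' G G' f π h q m' hm').1) 2).hom := by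
  refine map_injective_of_descent _ _ π _ h.surj ?_ ?_ (hBH1 G' L' q m' hm' π.ker)
  · intro x y hxy
    apply Subtype.ext
    have h1 := congrArg Subtype.val hxy
    have h2 : Units.map (semiLocalMap q f).toMonoidHom (Additive.toMul x.1) =
        Units.map (semiLocalMap q f).toMonoidHom (Additive.toMul y.1) := h1
    have h3 := Units.map_injective (f := (semiLocalMap q f).toMonoidHom)
      (ClassDescent.semiLocalMap_injective q f) h2
    exact h3
  · intro b hb
    obtain ⟨x, hx, hxb⟩ := (hBT L L' G G' f π h q m' hm').2 (Additive.toMul b.1) b.2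
      (fun n hn => by
        have := congrArg Subtype.val (hb n hn)
        exact this)
    exact ⟨⟨Additive.ofMul x, hx⟩, Subtype.ext (congrArg Additive.ofMul hxb)⟩

/-- Inflation of idele classes along a tower with `p`-group kernel is injective on `H²`. -/
theorem classTower_injective (hE6 : Plan.PGroupAxiom) (p : ℕ) [Fact p.Prime] (hp2 : p ≠ 2)
    {L L' G G' : Type} [Field L] [NumberField L] [Field L'] [NumberField L']
    [Group G] [Group G'] [Fintype G'] [MulSemiringAction G L] [MulSemiringAction G' L']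
    [FaithfulSMul G' L'] {f : L →+* L'} {π : G' →* G} (h : IsTower f π)
    (hG' : IsPGroup p G') :
    Function.Injective (groupCohomology.map π (classTower h) 2).hom := by
  obtain ⟨hinj, hfix, -⟩ := ClassDescent.classDescent L L' G G' f π h
  have : FaithfulSMul π.ker L' :=
    ⟨fun {a b} hab => Subtype.ext (eq_of_smul_eq_smul (fun x => hab x))⟩
  let _ : Fintype π.ker := Fintype.ofFinite _
  have h1 := (hE6 p hp2 π.ker L' (hG'.to_subgroup _)).1
  refine map_injective_of_descent _ _ π _ h.surj hinj (fun b hb => ?_) h1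
  obtain ⟨a, ha⟩ := hfix b hb
  exact ⟨a, ha⟩

/-- **[F2-chase]** `Plan.LocalGlobalInj` from the `p`-group axiom, the local `p`-class module,
the two semilocal contracts and the auxiliary layer. -/
theorem localGlobalInj (hE6 : Plan.PGroupAxiom) (hC6 : Plan.LocClassP) (hBT : BlockTower)
    (hBH1 : BlockH1) (hAux : AuxLayer) : Plan.LocalGlobalInj := by
  intro p _ hp2 G L _ _ _ _ _ _ hG q m hm
  obtain ⟨L', _, _, G', _, _, _, f, π, Z, _, _, Γ, _, _, _, fZ, πZ, m', hfaith, hG', hT, hfaithZ,
    hTZ, hm', rfl, hD, hinjZ⟩ := hAux p hp2 G L hG q m hm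
  have hΓ : IsPGroup p Γ := hG'.of_surjective πZ hTZ.surj
  have hmZ : (m'.comap (semiLocalMap (q : ℕ) fZ)).IsMaximal := by
    have : IsArtinianRing (SemiLocal Z q) := (SemiLocalGalois.semiLocalArtinian Z q).1
    have hprime : (m'.comap (semiLocalMap (q : ℕ) fZ)).IsPrime := Ideal.comap_isPrime _ _
    exact IsArtinianRing.isMaximal_of_isPrime _
  exact chase (orbitToClass G L q _) (orbitToClass G' L' q m') (orbitToClass Γ Z q _) π πZ
    (blockTower hT q _ m' (hBT L L' G G' f π hT q m' hm').1) (classTower hT)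
    (blockTower hTZ q _ m' (hBT Z L' Γ G' fZ πZ hTZ q m' hm').1) (classTower hTZ)
    (classTower_orbitToClass hT q _ m' _) (classTower_orbitToClass hTZ q _ m' _)
    (Fact.out : p.Prime) hG' (cyclic_block hC6 p G' L' hG' q m' hm').1
    (blockTower_injective hBT hBH1 hT q m' hm')
    (blockTower_injective hBT hBH1 hTZ q m' hm')
    (classTower_injective hE6 p hp2 hTZ hG')
    hinjZ
    ((cyclic_block hC6 p Γ Z hΓ q _ hmZ).2 hD)

end Fermat.Agent.CFT.Global.LGChase
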