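import Mathlib
import Fermat.Agent.CFT.Global.Defs
import Fermat.Agent.CFT.Global.ClassDescent

/-!
# Class field theory program (P3), global layer: Galois descent for the blocks of a place

For a tower datum `IsTower f π` (`f : L →+* L'`, `G'` finite acting on `L'`, `π : G' →* G`
surjective with `f(L)` the fixed field of `N = ker π`), a prime `q` and a maximal ideal `m'` of
`L' ⊗[ℚ] ℚ_[q]` with contraction `m = m' ∩ (L ⊗[ℚ] ℚ_[q])`:

* `exists_ker_smul_mem_iff` : `N` acts transitively on the prime ideals of `L' ⊗ ℚ_q` over a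
  given ideal of `L ⊗ ℚ_q`;
* `isIntegral_semiLocalMap`, `comap_isMaximal`, `exists_maximal_comap_eq` : integrality, going
  down of maximality, lying over;
* `map_mem_decompGroup`, `exists_mem_decompGroup` : `π` maps the decomposition group of `m'`
  onto the decomposition group of `m`;
* `map_mem_orbitUnits_iff` : a unit of `L ⊗ ℚ_q` lies in the block `orbitUnits G L q m` iff its
  image lies in the block `orbitUnits G' L' q m'`;
* `exists_unit_of_fixed` : `N`-invariant units of `L' ⊗ ℚ_q` come from units of `L ⊗ ℚ_q`;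
* `orbitMap`, `orbitDescent` : the map of blocks `orbitRep G L q m → orbitRep G' L' q m'` is
  injective, `π`-equivariant, with image the `N`-invariants (the shape of
  `ClassDescent.classDescent`);
* `classMap_orbitToClass`, `classMapS_orbitToClassS` : the squares
  `block(L) → C_L`, `block(L') → C_{L'}` (resp. `C_S`) commute.
-/

set_option autoImplicit false
set_option linter.style.haveILetI false

open scoped TensorProduct Pointwise
open scoped Fermat.Agent.CFT.Global

noncomputable section

namespace Fermat.Agent.CFT.Global.OrbitDescent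

open Fermat.Agent.CFT.Global

section Ideals

variable {L L' : Type} [Field L] [CharZero L] [Field L'] [CharZero L']
variable {G G' : Type} [Group G] [Group G'] [Finite G'] [MulSemiringAction G L]
  [MulSemiringAction G' L'] {f : L →+* L'} {π : G' →* G}

/-- `ker π` acts transitively on the prime ideals of `L' ⊗ ℚ_q` over a given ideal of
`L ⊗ ℚ_q`. -/
theorem exists_ker_smul_mem_iff (h : IsTower f π) (q : ℕ) [Fact q.Prime]
    (P Q : Ideal (SemiLocal L' q)) [P.IsPrime] [Q.IsPrime]
    (hPQ : P.comap (semiLocalMap q f) = Q.comap (semiLocalMap q f)) :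
    ∃ n ∈ π.ker, ∀ a : SemiLocal L' q, a ∈ Q ↔ n • a ∈ P := by
  letI : Algebra (SemiLocal L q) (SemiLocal L' q) := (semiLocalMap q f).toAlgebra
  obtain ⟨g, hg⟩ : ∃ g : π.ker, Q = g • P := by
    refine @Algebra.IsInvariant.exists_smul_of_under_eq (SemiLocal L q) (SemiLocal L' q) π.ker
      _ _ _ _ _ ?_ _ ?_ P Q _ _ hPQ
    · exact ⟨fun b hb => (ClassDescent.mem_range_iff_fixed h q b).2 (fun n hn => hb ⟨n, hn⟩)⟩
    · refine ⟨fun n a b => ?_⟩
      show (n : G') • (semiLocalMap q f a * b) = semiLocalMap q f a * (n : G') • b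
      rw [smul_mul', ClassDescent.smul_semiLocalMap_of_mem_ker h q n.2]
  refine ⟨((g⁻¹ : π.ker) : G'), (g⁻¹).2, fun a => ?_⟩
  rw [hg]
  exact Ideal.mem_pointwise_smul_iff_inv_smul_mem

/-- `L' ⊗ ℚ_q` is integral over `L ⊗ ℚ_q`. -/
theorem isIntegral_semiLocalMap (h : IsTower f π) (q : ℕ) [Fact q.Prime] :
    (semiLocalMap q f).IsIntegral := by
  letI : Algebra (SemiLocal L q) (SemiLocal L' q) := (semiLocalMap q f).toAlgebra
  have : Algebra.IsIntegral (SemiLocal L q) (SemiLocal L' q) := by
    refine @Algebra.IsInvariant.isIntegral (SemiLocal L q) (SemiLocal L' q) π.ker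
      _ _ _ _ _ ?_ _
    exact ⟨fun b hb => (ClassDescent.mem_range_iff_fixed h q b).2 (fun n hn => hb ⟨n, hn⟩)⟩
  exact fun x => this.isIntegral x

/-- The contraction of a maximal ideal of `L' ⊗ ℚ_q` is maximal. -/
theorem comap_isMaximal (h : IsTower f π) (q : ℕ) [Fact q.Prime]
    (m' : Ideal (SemiLocal L' q)) (hm' : m'.IsMaximal) :
    (m'.comap (semiLocalMap q f)).IsMaximal := by
  letI : Algebra (SemiLocal L q) (SemiLocal L' q) := (semiLocalMap q f).toAlgebra
  haveI : Algebra.IsIntegral (SemiLocal L q) (SemiLocal L' q) :=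
    ⟨isIntegral_semiLocalMap h q⟩
  exact Ideal.isMaximal_comap_of_isIntegral_of_isMaximal m'

/-- Lying over: every maximal ideal of `L ⊗ ℚ_q` is the contraction of a maximal ideal of
`L' ⊗ ℚ_q`. -/
theorem exists_maximal_comap_eq (h : IsTower f π) (q : ℕ) [Fact q.Prime]
    (m : Ideal (SemiLocal L q)) (hm : m.IsMaximal) :
    ∃ m' : Ideal (SemiLocal L' q), m'.IsMaximal ∧ m'.comap (semiLocalMap q f) = m := by
  letI : Algebra (SemiLocal L q) (SemiLocal L' q) := (semiLocalMap q f).toAlgebra
  haveI : Algebra.IsIntegral (SemiLocal L q) (SemiLocal L' q) :=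
    ⟨isIntegral_semiLocalMap h q⟩
  refine Ideal.exists_ideal_over_maximal_of_isIntegral m ?_
  have : RingHom.ker (algebraMap (SemiLocal L q) (SemiLocal L' q)) = ⊥ :=
    (RingHom.injective_iff_ker_eq_bot _).1 (ClassDescent.semiLocalMap_injective q f)
  rw [this]
  exact bot_le

end Ideals

/-! ## Decomposition groups and blocks along a tower -/

section Blocks

variable {L L' : Type} [Field L] [CharZero L] [Field L'] [CharZero L']
variable {G G' : Type} [Group G] [Group G'] [Finite G'] [MulSemiringAction G L]
  [MulSemiringAction G' L'] {f : L →+* L'} {π : G' →* G}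

/-- The translate `{a | g • a ∈ m}` of an ideal, as the contraction along the automorphism. -/
theorem mem_comap_toRingEquiv {R : Type} [CommRing R] {H : Type} [Group H]
    [MulSemiringAction H R] (g : H) (m : Ideal R) (a : R) :
    a ∈ Ideal.comap (MulSemiringAction.toRingEquiv H R g) m ↔ g • a ∈ m := Iff.rfl

omit [Finite G'] in
/-- Contraction commutes with translation along a tower. -/
theorem mem_comap_translate (h : IsTower f π) (q : ℕ) [Fact q.Prime]
    (m' : Ideal (SemiLocal L' q)) (g' : G') (a : SemiLocal L q) :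
    a ∈ (Ideal.comap (MulSemiringAction.toRingEquiv G' (SemiLocal L' q) g') m').comap
      (semiLocalMap q f) ↔ π g' • a ∈ m'.comap (semiLocalMap q f) := by
  rw [Ideal.mem_comap, mem_comap_toRingEquiv, Ideal.mem_comap, ClassDescent.semiLocalMap_smul h]

omit [Finite G'] in
/-- `π` maps the decomposition group of `m'` into the decomposition group of its contraction. -/
theorem map_mem_decompGroup (h : IsTower f π) (q : ℕ) [Fact q.Prime]
    (m' : Ideal (SemiLocal L' q)) {g' : G'} (hg' : g' ∈ decompGroup G' L' q m') :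
    π g' ∈ decompGroup G L q (m'.comap (semiLocalMap q f)) := by
  intro x
  rw [Ideal.mem_comap, Ideal.mem_comap, ClassDescent.semiLocalMap_smul h]
  exact hg' _

/-- `π` maps the decomposition group of a maximal ideal `m'` ONTO the decomposition group of
its contraction. -/
theorem exists_mem_decompGroup (h : IsTower f π) (q : ℕ) [Fact q.Prime]
    (m' : Ideal (SemiLocal L' q)) (hm' : m'.IsMaximal) {g : G}
    (hg : g ∈ decompGroup G L q (m'.comap (semiLocalMap q f))) :
    ∃ g' ∈ decompGroup G' L' q m', π g' = g := by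
  obtain ⟨g₀, rfl⟩ := h.surj g
  haveI : (Ideal.comap (MulSemiringAction.toRingEquiv G' (SemiLocal L' q) g₀) m').IsPrime :=
    (Ideal.comap_isMaximal_of_equiv _).isPrime
  haveI : m'.IsPrime := hm'.isPrime
  have hPQ : (Ideal.comap (MulSemiringAction.toRingEquiv G' (SemiLocal L' q) g₀) m').comap
      (semiLocalMap q f) = m'.comap (semiLocalMap q f) := by
    ext a
    rw [mem_comap_translate h]
    exact hg a
  obtain ⟨n, hn, hiff⟩ := exists_ker_smul_mem_iff h q _ m' hPQ
  refine ⟨g₀ * n, fun x => ?_, ?_⟩
  · rw [mul_smul, hiff x]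
    exact (mem_comap_toRingEquiv g₀ m' (n • x)).symm
  · rw [map_mul, MonoidHom.mem_ker.mp hn, mul_one]

/-- A unit of `L ⊗ ℚ_q` lies in the block of the contraction of `m'` iff its image lies in the
block of `m'`. -/
theorem map_mem_orbitUnits_iff (h : IsTower f π) (q : ℕ) [Fact q.Prime]
    (m' : Ideal (SemiLocal L' q)) (hm' : m'.IsMaximal) (u : (SemiLocal L q)ˣ) :
    Units.map (semiLocalMap q f).toMonoidHom u ∈ orbitUnits G' L' q m' ↔
      u ∈ orbitUnits G L q (m'.comap (semiLocalMap q f)) := by
  constructor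
  · intro hu m₁ hm₁ hne₁
    obtain ⟨m₁', hm₁', rfl⟩ := exists_maximal_comap_eq h q m₁ hm₁
    have hne : ∀ g' : G', ∃ a' : SemiLocal L' q, ¬ (a' ∈ m₁' ↔ g' • a' ∈ m') := by
      intro g'
      by_contra hcon
      simp only [not_exists, not_not] at hcon
      obtain ⟨a, ha⟩ := hne₁ (π g')
      apply ha
      rw [Ideal.mem_comap, Ideal.mem_comap, ClassDescent.semiLocalMap_smul h]
      exact hcon _
    have h1 := hu m₁' hm₁' hne
    rw [Ideal.mem_comap, map_sub, map_one]
    exact h1
  · intro hu m₁' hm₁' hne
    have hm₁ := comap_isMaximal h q m₁' hm₁'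
    have hne₁ : ∀ g : G, ∃ a : SemiLocal L q,
        ¬ (a ∈ m₁'.comap (semiLocalMap q f) ↔ g • a ∈ m'.comap (semiLocalMap q f)) := by
      intro g
      by_contra hcon
      simp only [not_exists, not_not] at hcon
      obtain ⟨g', rfl⟩ := h.surj g
      haveI : (Ideal.comap (MulSemiringAction.toRingEquiv G' (SemiLocal L' q) g') m').IsPrime :=
        (Ideal.comap_isMaximal_of_equiv _).isPrime
      haveI : m₁'.IsPrime := hm₁'.isPrime
      have hPQ : (Ideal.comap (MulSemiringAction.toRingEquiv G' (SemiLocal L' q) g') m').comap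
          (semiLocalMap q f) = m₁'.comap (semiLocalMap q f) := by
        ext a
        rw [mem_comap_translate h]
        exact (hcon a).symm
      obtain ⟨n, hn, hiff⟩ := exists_ker_smul_mem_iff h q _ m₁' hPQ
      obtain ⟨a', ha'⟩ := hne (g' * n)
      apply ha'
      rw [mul_smul, hiff a']
      exact mem_comap_toRingEquiv g' m' (n • a')
    have h1 := hu _ hm₁ hne₁
    rw [Ideal.mem_comap, map_sub, map_one] at h1
    exact h1

/-- A unit of `L' ⊗ ℚ_q` fixed by `ker π` comes from a unit of `L ⊗ ℚ_q`. -/
theorem exists_unit_of_fixed (h : IsTower f π) (q : ℕ) [Fact q.Prime]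
    (v : (SemiLocal L' q)ˣ) (hv : ∀ n ∈ π.ker, n • (v : SemiLocal L' q) = v) :
    ∃ u : (SemiLocal L q)ˣ, Units.map (semiLocalMap q f).toMonoidHom u = v := by
  obtain ⟨a, ha⟩ := ClassDescent.mem_range_of_fixed h q (v : SemiLocal L' q) hv
  have hv' : ∀ n ∈ π.ker, n • ((v⁻¹ : (SemiLocal L' q)ˣ) : SemiLocal L' q) =
      ((v⁻¹ : (SemiLocal L' q)ˣ) : SemiLocal L' q) := by
    intro n hn
    have h1 : n • (v : SemiLocal L' q) * n • ((v⁻¹ : (SemiLocal L' q)ˣ) : SemiLocal L' q) = 1 := by
      rw [← smul_mul', Units.mul_inv, smul_one]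
    rw [hv n hn] at h1
    exact (Units.inv_eq_of_mul_eq_one_right h1).symm
  obtain ⟨b, hb⟩ := ClassDescent.mem_range_of_fixed h q _ hv'
  have hab : a * b = 1 := by
    apply ClassDescent.semiLocalMap_injective q f
    rw [map_mul, ha, hb, Units.mul_inv, map_one]
  have hba : b * a = 1 := by rw [mul_comm]; exact hab
  exact ⟨⟨a, b, hab, hba⟩, Units.ext ha⟩

end Blocks

/-! ## The packaged descent statement for blocks -/

section Packaged

variable {L L' : Type} [Field L] [CharZero L] [Field L'] [CharZero L']
variable {G G' : Type} [Group G] [Group G'] [Finite G'] [MulSemiringAction G L]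
  [MulSemiringAction G' L'] {f : L →+* L'} {π : G' →* G}

/-- The map of blocks `∏_{w ∈ G·m} L_wˣ → ∏_{w' ∈ G'·m'} L'_{w'}ˣ` induced by `f`, where `m` is
the contraction of the maximal ideal `m'`. -/
def orbitMap (h : IsTower f π) (q : ℕ) [Fact q.Prime] (m' : Ideal (SemiLocal L' q))
    (hm' : m'.IsMaximal) :
    ↥(addSub (orbitUnits G L q (m'.comap (semiLocalMap q f)))) →ₗ[ℤ]
      ↥(addSub (orbitUnits G' L' q m')) :=
  LinearMap.restrict
    (MonoidHom.toAdditive (Units.map (semiLocalMap q f).toMonoidHom)).toIntLinearMap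
    (fun x hx => (map_mem_orbitUnits_iff h q m' hm' (Additive.toMul x)).2 hx)

theorem orbitMap_coe (h : IsTower f π) (q : ℕ) [Fact q.Prime] (m' : Ideal (SemiLocal L' q))
    (hm' : m'.IsMaximal) (x : ↥(addSub (orbitUnits G L q (m'.comap (semiLocalMap q f))))) :
    ((orbitMap h q m' hm' x : ↥(addSub (orbitUnits G' L' q m'))) : Additive (SemiLocal L' q)ˣ) =
      Additive.ofMul (Units.map (semiLocalMap q f).toMonoidHom
        (Additive.toMul (x : Additive (SemiLocal L q)ˣ))) := rfl

/-- **Galois descent for blocks.** For a tower `IsTower f π` and a maximal ideal `m'` of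
`L' ⊗ ℚ_q` with contraction `m`: the map of blocks `orbitRep G L q m → orbitRep G' L' q m'` is
injective, its image is the group of `ker π`-invariants, and it is equivariant along `π`. -/
theorem orbitDescent (h : IsTower f π) (q : ℕ) [Fact q.Prime] (m' : Ideal (SemiLocal L' q))
    (hm' : m'.IsMaximal) :
    Function.Injective (orbitMap h q m' hm') ∧
    (∀ y : ↥(addSub (orbitUnits G' L' q m')),
      (∀ n ∈ π.ker, (orbitRep G' L' q m').ρ n y = y) → y ∈ LinearMap.range (orbitMap h q m' hm')) ∧
    ∀ (g : G') (x : ↥(addSub (orbitUnits G L q (m'.comap (semiLocalMap q f))))),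
      orbitMap h q m' hm' ((orbitRep G L q (m'.comap (semiLocalMap q f))).ρ (π g) x) =
        (orbitRep G' L' q m').ρ g (orbitMap h q m' hm' x) := by
  refine ⟨?_, ?_, ?_⟩
  · intro x y hxy
    have h1 := congrArg (fun z : ↥(addSub (orbitUnits G' L' q m')) =>
      ((Additive.toMul (z : Additive (SemiLocal L' q)ˣ) : (SemiLocal L' q)ˣ) : SemiLocal L' q)) hxy
    have h2 : ((Additive.toMul (x : Additive (SemiLocal L q)ˣ) : (SemiLocal L q)ˣ) : SemiLocal L q) =
        ((Additive.toMul (y : Additive (SemiLocal L q)ˣ) : (SemiLocal L q)ˣ) : SemiLocal L q) :=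
      ClassDescent.semiLocalMap_injective q f h1
    exact Subtype.ext (Units.ext h2)
  · intro y hy
    have hv : ∀ n ∈ π.ker, n • ((Additive.toMul (y : Additive (SemiLocal L' q)ˣ) :
        (SemiLocal L' q)ˣ) : SemiLocal L' q) =
        ((Additive.toMul (y : Additive (SemiLocal L' q)ˣ) : (SemiLocal L' q)ˣ) : SemiLocal L' q) := by
      intro n hn
      have h1 := congrArg (fun z : ↥(addSub (orbitUnits G' L' q m')) =>
        ((Additive.toMul (z : Additive (SemiLocal L' q)ˣ) : (SemiLocal L' q)ˣ) : SemiLocal L' q))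
        (hy n hn)
      exact h1
    obtain ⟨u, hu⟩ := exists_unit_of_fixed h q _ hv
    have hmem : u ∈ orbitUnits G L q (m'.comap (semiLocalMap q f)) := by
      rw [← map_mem_orbitUnits_iff h q m' hm', hu]
      exact y.2
    exact ⟨⟨Additive.ofMul u, hmem⟩, Subtype.ext (congrArg Additive.ofMul hu)⟩
  · intro g x
    apply Subtype.ext
    show Additive.ofMul (Units.map (semiLocalMap q f).toMonoidHom
        (π g • (Additive.toMul (x : Additive (SemiLocal L q)ˣ) : (SemiLocal L q)ˣ))) =
      Additive.ofMul (g • Units.map (semiLocalMap q f).toMonoidHom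
        (Additive.toMul (x : Additive (SemiLocal L q)ˣ) : (SemiLocal L q)ˣ))
    congr 1
    apply Units.ext
    exact ClassDescent.semiLocalMap_smul h q g _

end Packaged

/-! ## Compatibility with the maps to the idele class groups -/

section Square

variable {L L' : Type} [Field L] [CharZero L] [Field L'] [CharZero L']
variable {G G' : Type} [Group G] [Group G'] [Finite G'] [MulSemiringAction G L]
  [MulSemiringAction G' L'] {f : L →+* L'} {π : G' →* G}

/-- The maps of blocks and of idele class groups along a tower commute with the structure maps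
`block → C`. -/
theorem classMap_orbitToClass (h : IsTower f π) (q : Nat.Primes)
    (m' : Ideal (SemiLocal L' q)) (hm' : m'.IsMaximal)
    (x : ↥(addSub (orbitUnits G L q (m'.comap (semiLocalMap q f))))) :
    classMap f ((orbitToClass G L q (m'.comap (semiLocalMap q f))).hom x) =
      (orbitToClass G' L' q m').hom (orbitMap h q m' hm' x) := by
  have key : ideleMap f ((localToIdele G L q).hom
        ((orbitToLocal G L q (m'.comap (semiLocalMap q f))).hom x)) =
      (localToIdele G' L' q).hom ((orbitToLocal G' L' q m').hom (orbitMap h q m' hm' x)) := by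
    apply Subtype.ext
    show Additive.ofMul (ideleProdMap f (Pi.mulSingle q _)) = Additive.ofMul (Pi.mulSingle q _)
    congr 1
    funext q'
    rw [ideleProdMap_apply]
    by_cases hq : q' = q
    · subst hq
      rw [Pi.mulSingle_eq_same, Pi.mulSingle_eq_same]
      rfl
    · rw [Pi.mulSingle_eq_of_ne hq, Pi.mulSingle_eq_of_ne hq, map_one]
  exact congrArg (Submodule.Quotient.mk
    (p := (addSub (principal L').range).comap (addSub (finIdele L')).subtype)) key

/-- The same square for the `S`-idele class groups. -/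
theorem classMapS_orbitToClassS (h : IsTower f π) (q : Nat.Primes)
    (m' : Ideal (SemiLocal L' q)) (hm' : m'.IsMaximal) (S : Finset Nat.Primes)
    (x : ↥(addSub (orbitUnits G L q (m'.comap (semiLocalMap q f))))) :
    classMapS f S ((orbitToClassS G L q (m'.comap (semiLocalMap q f)) S).hom x) =
      (orbitToClassS G' L' q m' S).hom (orbitMap h q m' hm' x) := by
  have key : ideleMap f ((localToIdele G L q).hom
        ((orbitToLocal G L q (m'.comap (semiLocalMap q f))).hom x)) =
      (localToIdele G' L' q).hom ((orbitToLocal G' L' q m').hom (orbitMap h q m' hm' x)) := by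
    apply Subtype.ext
    show Additive.ofMul (ideleProdMap f (Pi.mulSingle q _)) = Additive.ofMul (Pi.mulSingle q _)
    congr 1
    funext q'
    rw [ideleProdMap_apply]
    by_cases hq : q' = q
    · subst hq
      rw [Pi.mulSingle_eq_same, Pi.mulSingle_eq_same]
      rfl
    · rw [Pi.mulSingle_eq_of_ne hq, Pi.mulSingle_eq_of_ne hq, map_one]
  exact congrArg (Submodule.Quotient.mk
    (p := (addSub ((principal L').range ⊔ unitsOutside L' S)).comap
      (addSub (finIdele L')).subtype)) key

end Square

end Fermat.Agent.CFT.Global.OrbitDescent
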