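import Fermat.Agent.CFT.Global.CycloCharNorm
import Fermat.Agent.CFT.Global.QBridgeFin

/-!
# The idelic cyclotomic character, part 2: the character on the finite ideles

For a number field `L`, a prime `r` and `e : ℕ`:

* `localNorm L q : (L ⊗[ℚ] ℚ_[q])ˣ →* ℚ_[q]ˣ`, `localChar L r e q : (L ⊗[ℚ] ℚ_[q])ˣ →* (ZMod (r ^ e))ˣ`
  (`x ↦ q ^ v_q(N x)` for `q ≠ r`, `x ↦ (unit part of N x mod r ^ e)⁻¹` for `q = r`);
* `chi L r e : ↥(finIdele L) →* (ZMod (r ^ e))ˣ`, the product of the local characters;
* `localChar_eq_one_of_mem_localUnits` (`q ≠ r`), `localChar_eq_one_of_isOneMod` (all `q`);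
* `exists_principal_mul_isOneMod` + `localChar_principal_mul` : the computation rule
  `localChar (principal c · w) = ratChar (N_{L/ℚ} c)` for `w ≡ 1` modulo `q ^ M`, together with
  the fact that every local unit has this form;
* `chi_principal` : `chi` of a principal idele is `±1`;
* `chi_mulSingle` : `chi` of an idele concentrated at `q` is its local character.
-/

set_option autoImplicit false

open scoped TensorProduct

noncomputable section

namespace Fermat.Agent.CFT.Global.CycloChar

open Fermat.Agent.CFT.Global Fermat.Agent.CFT.Global.QBridge NumberField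

section Local

variable (L : Type) [Field L] [NumberField L] (r e : ℕ) [Fact r.Prime]

/-- The local norm `(L ⊗[ℚ] ℚ_[q])ˣ → ℚ_[q]ˣ`. -/
def localNorm (q : ℕ) [Fact q.Prime] : (SemiLocal L q)ˣ →* ℚ_[q]ˣ := Units.map (normFun L q)

theorem coe_localNorm (q : ℕ) [Fact q.Prime] (x : (SemiLocal L q)ˣ) :
    ((localNorm L q x : ℚ_[q]ˣ) : ℚ_[q]) = normFun L q (x : SemiLocal L q) := rfl

/-- The local component at `q` of the idelic cyclotomic character modulo `r ^ e`. -/
def localChar (q : ℕ) [Fact q.Prime] : (SemiLocal L q)ˣ →* (ZMod (r ^ e))ˣ :=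
  (padicChar q r e).comp (localNorm L q)

theorem localChar_apply (q : ℕ) [Fact q.Prime] (x : (SemiLocal L q)ˣ) :
    localChar L r e q x = padicChar q r e (localNorm L q x) := rfl

variable {L}

/-- The norm of a local unit is a `q`-adic unit. -/
theorem norm_localNorm_eq_one {q : ℕ} [Fact q.Prime] {x : (SemiLocal L q)ˣ}
    (hx : x ∈ localUnits L q) : ‖((localNorm L q x : ℚ_[q]ˣ) : ℚ_[q])‖ = 1 := by
  rw [mem_localUnits_iff_maxOrder] at hx
  obtain ⟨d, hd⟩ := exists_normFun_eq L q hx.1
  obtain ⟨d', hd'⟩ := exists_normFun_eq L q hx.2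
  have hmul : (d : ℚ_[q]) * (d' : ℚ_[q]) = 1 := by
    rw [← hd, ← hd', ← map_mul, Units.mul_inv, map_one]
  have h1 : ‖(d : ℚ_[q])‖ ≤ 1 := d.2
  have h2 : ‖(d' : ℚ_[q])‖ ≤ 1 := d'.2
  have h3 : ‖(d : ℚ_[q])‖ * ‖(d' : ℚ_[q])‖ = 1 := by rw [← norm_mul, hmul, norm_one]
  rw [coe_localNorm, hd]
  have h0 : 0 ≤ ‖(d : ℚ_[q])‖ := norm_nonneg _
  nlinarith [norm_nonneg (d' : ℚ_[q])]

theorem localChar_eq_one_of_mem_localUnits {q : ℕ} [Fact q.Prime] (hq : q ≠ r)
    {x : (SemiLocal L q)ˣ} (hx : x ∈ localUnits L q) : localChar L r e q x = 1 :=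
  padicChar_eq_one_of_norm q r e hq _ (norm_localNorm_eq_one hx)

variable (L)

/-- `x ≡ 1` modulo `q ^ M` times the maximal order. -/
def IsOneMod (q : ℕ) [Fact q.Prime] (M : ℕ) (x : (SemiLocal L q)ˣ) : Prop :=
  ∃ y ∈ maxOrder q L, (x : SemiLocal L q) = 1 + (q : SemiLocal L q) ^ M * y

variable {L}

theorem IsOneMod.mem_localUnits {q : ℕ} [Fact q.Prime] {M : ℕ} (hM : 1 ≤ M)
    {x : (SemiLocal L q)ˣ} (h : IsOneMod L q M x) : x ∈ localUnits L q := by
  obtain ⟨y, hy, hxy⟩ := h
  have hqmem : (q : SemiLocal L q) ∈ maxOrder q L := natCast_mem _ q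
  rw [mem_localUnits_iff_maxOrder]
  refine ⟨?_, ?_⟩
  · rw [hxy]
    exact add_mem (one_mem _) (mul_mem (pow_mem hqmem M) hy)
  · obtain ⟨u', hu', hmul⟩ := exists_inv_one_add_mul
      (b := (q : SemiLocal L q) ^ (M - 1) * y) (mul_mem (pow_mem hqmem (M - 1)) hy)
    have hx' : (x : SemiLocal L q) = 1 + (q : SemiLocal L q) * ((q : SemiLocal L q) ^ (M - 1) * y) := by
      rw [hxy, ← mul_assoc, ← pow_succ', Nat.sub_add_cancel hM]
    rw [← hx'] at hmul
    have : ((x⁻¹ : (SemiLocal L q)ˣ) : SemiLocal L q) = u' := by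
      rw [Units.inv_eq_of_mul_eq_one_right hmul]
    rw [this]
    exact hu'

theorem IsOneMod.of_le {q : ℕ} [Fact q.Prime] {M M' : ℕ} (hMM : M' ≤ M)
    {x : (SemiLocal L q)ˣ} (h : IsOneMod L q M x) : IsOneMod L q M' x := by
  obtain ⟨y, hy, hxy⟩ := h
  have hqmem : (q : SemiLocal L q) ∈ maxOrder q L := natCast_mem _ q
  refine ⟨(q : SemiLocal L q) ^ (M - M') * y, mul_mem (pow_mem hqmem _) hy, ?_⟩
  rw [hxy, ← mul_assoc, ← pow_add, Nat.add_sub_cancel' hMM]

/-- The local character is trivial on `1 + q ^ M * (maximal order)` for `M ≥ 1`, `M ≥ e`. -/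
theorem localChar_eq_one_of_isOneMod {q : ℕ} [Fact q.Prime] {M : ℕ} (hM : 1 ≤ M) (he : e ≤ M)
    {x : (SemiLocal L q)ˣ} (h : IsOneMod L q M x) : localChar L r e q x = 1 := by
  by_cases hq : q = r
  · subst hq
    obtain ⟨y, hy, hxy⟩ := h.of_le he
    obtain ⟨d, hd, hd1⟩ := exists_normFun_one_add L q hy e
    rw [← hxy] at hd
    have hn := norm_localNorm_eq_one (h.mem_localUnits hM)
    have h2 := coe_inv_padicChar_self q e (localNorm L q x) d hd hn
    rw [hd1] at h2
    have h3 : (padicChar q q e (localNorm L q x))⁻¹ = 1 := Units.ext h2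
    rw [localChar_apply]
    exact inv_eq_one.mp h3
  · exact localChar_eq_one_of_mem_localUnits r e hq (h.mem_localUnits hM)

/-- `1 + q ^ M * y` is a unit for `y` in the maximal order and `M ≥ 1`. -/
theorem exists_unit_one_add {q : ℕ} [Fact q.Prime] {M : ℕ} (hM : 1 ≤ M) {y : SemiLocal L q}
    (hy : y ∈ maxOrder q L) :
    ∃ w : (SemiLocal L q)ˣ, (w : SemiLocal L q) = 1 + (q : SemiLocal L q) ^ M * y := by
  have hqmem : (q : SemiLocal L q) ∈ maxOrder q L := natCast_mem _ q
  obtain ⟨u', -, hmul⟩ := exists_inv_one_add_mul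
    (b := (q : SemiLocal L q) ^ (M - 1) * y) (mul_mem (pow_mem hqmem (M - 1)) hy)
  have hx' : 1 + (q : SemiLocal L q) ^ M * y =
      1 + (q : SemiLocal L q) * ((q : SemiLocal L q) ^ (M - 1) * y) := by
    rw [← mul_assoc, ← pow_succ', Nat.sub_add_cancel hM]
  rw [← hx'] at hmul
  exact ⟨Units.mkOfMulEqOne _ u' hmul, rfl⟩

theorem tmul_one_injective (q : ℕ) [Fact q.Prime] :
    Function.Injective (fun a : L => (a ⊗ₜ[ℚ] (1 : ℚ_[q]) : SemiLocal L q)) :=
  Algebra.TensorProduct.includeLeft_injective (R := ℚ) (S := ℚ) (A := L) (B := ℚ_[q])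
    (algebraMap ℚ ℚ_[q]).injective

/-- **Approximation**: every unit of `L ⊗[ℚ] ℚ_[q]` is a principal element times a unit
`≡ 1` modulo `q ^ M`. -/
theorem exists_principal_mul_isOneMod (q : Nat.Primes) (x : (SemiLocal L q)ˣ) {M : ℕ}
    (hM : 1 ≤ M) :
    ∃ (c : Lˣ) (w : (SemiLocal L q)ˣ), IsOneMod L q M w ∧ x = principal L c q * w := by
  obtain ⟨c₀, u, hu, hu', hxu⟩ := exists_eq_tmul_mul_unit (q := (q : ℕ)) (L := L) x
  obtain ⟨y, b', hb', hyb⟩ := exists_approx hu M
  -- `y ⊗ 1 = u * (1 + q ^ M * z)` with `z = - u⁻¹ b'`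
  set z : SemiLocal L q := -(((u⁻¹ : (SemiLocal L q)ˣ) : SemiLocal L q) * b') with hz
  have hzmem : z ∈ maxOrder (q : ℕ) L := neg_mem (mul_mem hu' hb')
  obtain ⟨v, hv⟩ := exists_unit_one_add hM hzmem
  have hyuv : ((y : L) ⊗ₜ[ℚ] (1 : ℚ_[(q : ℕ)]) : SemiLocal L q) = (u : SemiLocal L q) * v := by
    have h1 : ((y : L) ⊗ₜ[ℚ] (1 : ℚ_[(q : ℕ)]) : SemiLocal L q) =
        (u : SemiLocal L q) - ((q : ℕ) : SemiLocal L q) ^ M * b' := by
      rw [hyb]; ring
    rw [h1, hv, hz]
    have h2 : (u : SemiLocal L q) * ((u⁻¹ : (SemiLocal L q)ˣ) : SemiLocal L q) = 1 :=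
      Units.mul_inv u
    linear_combination (((q : ℕ) : SemiLocal L q) ^ M * b') * h2
  have hy0 : (y : L) ≠ 0 := by
    intro h0
    have h3 : ((u * v : (SemiLocal L q)ˣ) : SemiLocal L q) = 0 := by
      rw [Units.val_mul, ← hyuv, h0, TensorProduct.zero_tmul]
    have h4 : ((0 : L) ⊗ₜ[ℚ] (1 : ℚ_[(q : ℕ)]) : SemiLocal L q) =
        (1 : L) ⊗ₜ[ℚ] (1 : ℚ_[(q : ℕ)]) := by
      rw [TensorProduct.zero_tmul, ← Algebra.TensorProduct.one_def]
      have h5 : ((u * v : (SemiLocal L q)ˣ) : SemiLocal L q) *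
          (((u * v)⁻¹ : (SemiLocal L q)ˣ) : SemiLocal L q) = 1 := Units.mul_inv _
      rw [h3, zero_mul] at h5
      exact h5
    exact zero_ne_one (tmul_one_injective (L := L) (q : ℕ) h4)
  -- the inverse of `v` is again `≡ 1`
  have hvinv : IsOneMod L q M v⁻¹ := by
    have hvloc : v ∈ localUnits L q := IsOneMod.mem_localUnits hM ⟨z, hzmem, hv⟩
    rw [mem_localUnits_iff_maxOrder] at hvloc
    refine ⟨-(z * ((v⁻¹ : (SemiLocal L q)ˣ) : SemiLocal L q)), neg_mem (mul_mem hzmem hvloc.2), ?_⟩
    have h6 : (v : SemiLocal L q) * ((v⁻¹ : (SemiLocal L q)ˣ) : SemiLocal L q) = 1 :=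
      Units.mul_inv v
    rw [hv] at h6
    linear_combination h6
  refine ⟨c₀ * Units.mk0 (y : L) hy0, v⁻¹, hvinv, ?_⟩
  apply Units.ext
  rw [Units.val_mul, principal_apply_coe, Units.val_mul, Units.val_mk0, hxu,
    ← mul_one (1 : ℚ_[(q : ℕ)]), ← Algebra.TensorProduct.tmul_mul_tmul, mul_one, hyuv, mul_assoc,
    mul_assoc, Units.mul_inv, mul_one]

variable (L)

/-- The norm to `ℚˣ`. -/
def normUnit : Lˣ →* ℚˣ := Units.map (Algebra.norm ℚ : L →* ℚ)

theorem coe_normUnit (c : Lˣ) : ((normUnit L c : ℚˣ) : ℚ) = Algebra.norm ℚ (c : L) := rfl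

/-- The local character of a principal element is the rational character of its norm. -/
theorem localChar_principal (q : Nat.Primes) (c : Lˣ) :
    localChar L r e q (principal L c q) = ratChar r e q (normUnit L c) := by
  rw [localChar_apply, ratChar_apply]
  congr 1
  apply Units.ext
  rw [coe_localNorm, principal_apply_coe, normFun_tmul_one, coe_ratUnit, coe_normUnit]

variable {L}

/-- **The computation rule for the local character.** -/
theorem localChar_principal_mul (q : Nat.Primes) {M : ℕ} (hM : 1 ≤ M) (he : e ≤ M) (c : Lˣ)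
    {w : (SemiLocal L q)ˣ} (hw : IsOneMod L q M w) :
    localChar L r e q (principal L c q * w) = ratChar r e q (normUnit L c) := by
  rw [map_mul, localChar_eq_one_of_isOneMod r e hM he hw, mul_one, localChar_principal]

end Local

/-! ### The global character -/

section Global

variable (L : Type) [Field L] [NumberField L] (r e : ℕ) [Fact r.Prime]

theorem mulSupport_localChar_finite {a : IdeleProd L} (ha : a ∈ finIdele L) :
    (Function.mulSupport fun q : Nat.Primes => localChar L r e q (a q)).Finite := by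
  obtain ⟨qr, hqr⟩ := exists_prime_eq r
  refine (ha.union (Set.finite_singleton qr)).subset ?_
  intro q hq
  rw [Function.mem_mulSupport] at hq
  by_contra hne
  have h1 : a q ∈ localUnits L q := by
    by_contra h
    exact hne (Or.inl h)
  have h2 : q ≠ qr := fun h => hne (Or.inr h)
  exact hq (localChar_eq_one_of_mem_localUnits r e
    (fun h => h2 (Subtype.ext (h.trans hqr.symm))) h1)

/-- **The idelic cyclotomic character modulo `r ^ e`** on the finite ideles of `L`. -/
def chi : ↥(finIdele L) →* (ZMod (r ^ e))ˣ where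
  toFun a := ∏ᶠ q : Nat.Primes, localChar L r e q ((a : IdeleProd L) q)
  map_one' := by
    have : (fun q : Nat.Primes => localChar L r e q (((1 : ↥(finIdele L)) : IdeleProd L) q)) =
        fun _ => 1 := by
      funext q
      exact map_one _
    rw [this, finprod_one]
  map_mul' a b := by
    have : (fun q : Nat.Primes => localChar L r e q (((a * b : ↥(finIdele L)) : IdeleProd L) q)) =
        fun q : Nat.Primes => localChar L r e q ((a : IdeleProd L) q) *
          localChar L r e q ((b : IdeleProd L) q) := by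
      funext q
      exact map_mul _ _ _
    rw [this, finprod_mul_distrib (mulSupport_localChar_finite L r e a.2)
      (mulSupport_localChar_finite L r e b.2)]

theorem chi_apply (a : ↥(finIdele L)) :
    chi L r e a = ∏ᶠ q : Nat.Primes, localChar L r e q ((a : IdeleProd L) q) := rfl

/-- **Principal ideles**: the character of a principal idele is `±1` (the sign is the
archimedean component, which the finite ideles omit). -/
theorem chi_principal (u : Lˣ) :
    chi L r e ⟨principal L u, principal_mem_finIdele u⟩ = 1 ∨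
      chi L r e ⟨principal L u, principal_mem_finIdele u⟩ = -1 := by
  have h : (fun q : Nat.Primes => localChar L r e q (principal L u q)) =
      fun q => ratChar r e q (normUnit L u) := by
    funext q
    exact localChar_principal L r e q u
  rw [chi_apply]
  show (∏ᶠ q : Nat.Primes, localChar L r e q (principal L u q)) = 1 ∨
    (∏ᶠ q : Nat.Primes, localChar L r e q (principal L u q)) = -1
  rw [h]
  exact (ratGood r e (normUnit L u)).2

/-- An idele concentrated at one prime. -/
theorem mulSingle_mem_finIdele (q : Nat.Primes) (x : (SemiLocal L q)ˣ) :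
    (Pi.mulSingle q x : IdeleProd L) ∈ finIdele L := by
  refine (Set.finite_singleton q).subset ?_
  intro q' hq'
  by_contra hne
  exact hq' (by rw [Pi.mulSingle_eq_of_ne hne]; exact one_mem _)

theorem chi_mulSingle (q : Nat.Primes) (x : (SemiLocal L q)ˣ) :
    chi L r e ⟨Pi.mulSingle q x, mulSingle_mem_finIdele L q x⟩ = localChar L r e q x := by
  rw [chi_apply]
  have h := finprod_eq_single
    (fun q' : Nat.Primes => localChar L r e q' ((Pi.mulSingle q x : IdeleProd L) q')) q
    (fun q' hq' => by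
      show localChar L r e q' ((Pi.mulSingle q x : IdeleProd L) q') = 1
      rw [Pi.mulSingle_eq_of_ne hq', map_one])
  rw [show (fun q' : Nat.Primes => localChar L r e q'
      (((⟨Pi.mulSingle q x, mulSingle_mem_finIdele L q x⟩ : ↥(finIdele L)) : IdeleProd L) q')) =
    fun q' : Nat.Primes => localChar L r e q' ((Pi.mulSingle q x : IdeleProd L) q') from rfl, h,
    Pi.mulSingle_eq_same]

/-- The character only depends on the components: if `a q` and `b q` have the same local
character for all `q`, then `chi a = chi b`. -/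
theorem chi_congr {a b : ↥(finIdele L)}
    (h : ∀ q : Nat.Primes, localChar L r e q ((a : IdeleProd L) q) =
      localChar L r e q ((b : IdeleProd L) q)) : chi L r e a = chi L r e b := by
  rw [chi_apply, chi_apply]
  congr 1
  funext q
  exact h q

end Global

end Fermat.Agent.CFT.Global.CycloChar
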