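import Mathlib

set_option autoImplicit false

namespace Fermat.Agent.CFT.Global.CycloNorm

open NumberField

/-- (N1a) Congruent elements have congruent norms: if `a - b = m * y` in a finite free
`R`-algebra `S` then `N a - N b ∈ (m)`. -/
theorem norm_sub_norm_mem_span {R S : Type*} [CommRing R] [CommRing S] [Algebra R S]
    [Module.Free R S] [Module.Finite R S] (m : R) (a b y : S)
    (h : a - b = algebraMap R S m * y) :
    Algebra.norm R a - Algebra.norm R b ∈ Ideal.span {m} := by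
  classical
  let bs := Module.Free.chooseBasis R S
  rw [Algebra.norm_eq_matrix_det bs, Algebra.norm_eq_matrix_det bs, ← Ideal.Quotient.eq,
    RingHom.map_det, RingHom.map_det]
  congr 1
  have ha : a = b + algebraMap R S m * y := by rw [← h]; ring
  rw [ha, map_add, map_mul, AlgHom.commutes]
  ext i j
  simp only [RingHom.mapMatrix_apply, Matrix.map_apply, Matrix.add_apply, map_add,
    Algebra.algebraMap_eq_smul_one, smul_mul_assoc, one_mul, Matrix.smul_apply, smul_eq_mul,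
    map_mul]
  have : (Ideal.Quotient.mk (Ideal.span {m})) m = 0 :=
    Ideal.Quotient.eq_zero_iff_mem.mpr (Ideal.subset_span rfl)
  rw [this, zero_mul, add_zero]

/-- (N1b) Integer version. -/
theorem norm_int_modEq {S : Type*} [CommRing S] [Module.Free ℤ S] [Module.Finite ℤ S]
    (m : ℤ) (a b y : S) (h : a - b = (m : S) * y) :
    Algebra.norm ℤ a ≡ Algebra.norm ℤ b [ZMOD m] := by
  have := norm_sub_norm_mem_span (R := ℤ) m a b y (by simpa using h)
  rw [Ideal.mem_span_singleton] at this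
  exact (Int.modEq_iff_dvd.mpr this).symm


open NumberField.InfinitePlace in
open scoped ComplexOrder in
/-- Key sign computation: the product of the complex embeddings of a nonzero `x` all of whose
real embeddings are positive is a positive real number. -/
theorem prod_embeddings_pos {K : Type*} [Field K] [NumberField K] (x : K) (hx0 : x ≠ 0)
    (hx : ∀ φ : K →+* ℂ, ComplexEmbedding.IsReal φ → 0 < φ x) :
    0 < ∏ φ : K →+* ℂ, φ x := by
  classical
  rw [← Finset.prod_fiberwise Finset.univ InfinitePlace.mk (fun φ => φ x)]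
  refine Finset.prod_pos fun w _ => ?_
  by_cases hw : w.IsReal
  · refine Finset.prod_pos fun φ hφ => ?_
    have hφw : InfinitePlace.mk φ = w := (Finset.mem_filter.mp hφ).2
    exact hx φ (by rw [← hφw] at hw; exact isReal_mk_iff.mp hw)
  · have hwc : w.IsComplex := not_isReal_iff_isComplex.mp hw
    have hne : ComplexEmbedding.conjugate w.embedding ≠ w.embedding := by
      intro h
      exact hw (isReal_iff.mpr (ComplexEmbedding.isReal_iff.mpr h))
    have hfib : ({φ | InfinitePlace.mk φ = w} : Finset (K →+* ℂ)) =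
        {w.embedding, ComplexEmbedding.conjugate w.embedding} := by
      symm
      apply Finset.eq_of_subset_of_card_le
      · intro φ hφ
        simp only [Finset.mem_insert, Finset.mem_singleton] at hφ
        simp only [Finset.mem_filter, Finset.mem_univ, true_and]
        rcases hφ with rfl | rfl
        · exact mk_embedding w
        · rw [mk_conjugate_eq, mk_embedding]
      · rw [card_filter_mk_eq, Finset.card_pair (Ne.symm hne)]
        simp [mult, hw]
    rw [hfib, Finset.prod_pair (Ne.symm hne)]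
    have h1 : (ComplexEmbedding.conjugate w.embedding) x = (starRingEnd ℂ) (w.embedding x) := rfl
    rw [h1, Complex.mul_conj]
    have h2 : w.embedding x ≠ 0 := by
      simpa using hx0
    exact_mod_cast Complex.normSq_pos.mpr h2

/-- (N1c) A totally positive nonzero element of a number field has positive norm. -/
theorem norm_pos_of_totallyPositive {K : Type*} [Field K] [NumberField K] (x : K) (hx0 : x ≠ 0)
    (hx : ∀ φ : K →+* ℝ, 0 < φ x) : 0 < Algebra.norm ℚ x := by
  classical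
  have key := prod_embeddings_pos x hx0 (fun φ hφ => by
    have := hx hφ.embedding
    have h2 : φ x = ((hφ.embedding x : ℝ) : ℂ) := (ComplexEmbedding.IsReal.coe_embedding_apply hφ x).symm
    rw [h2]
    exact_mod_cast this)
  have h3 := Algebra.norm_eq_prod_embeddings ℚ ℂ x
  rw [← Fintype.prod_equiv (RingHom.equivRatAlgHom K ℂ) (fun f : K →+* ℂ => f x)
      (fun φ : K →ₐ[ℚ] ℂ => φ x) (fun _ => by simp [RingHom.equivRatAlgHom_apply])] at h3
  rw [← h3] at key
  have h4 : (algebraMap ℚ ℂ (Algebra.norm ℚ x)) = (((Algebra.norm ℚ x : ℚ) : ℝ) : ℂ) := by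
    simp
  rw [h4] at key
  exact_mod_cast key


/-- (N1d) Well-definedness of the cyclotomic Artin map on the ray modulo `m∞`:
if `a ≡ b mod m` in `𝓞 K` and `a / b` is totally positive, then the absolute norms of the
principal ideals `(a)` and `(b)` are congruent modulo `m`. -/
theorem absNorm_span_modEq {K : Type*} [Field K] [NumberField K] (m : ℕ) (a b y : 𝓞 K)
    (hb : b ≠ 0) (h : a - b = (m : 𝓞 K) * y)
    (hpos : ∀ φ : K →+* ℝ, 0 < φ ((a : K) / (b : K))) :
    Ideal.absNorm (Ideal.span {a}) ≡ Ideal.absNorm (Ideal.span {b}) [MOD m] := by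
  have hcong : Algebra.norm ℤ a ≡ Algebra.norm ℤ b [ZMOD (m : ℤ)] :=
    norm_int_modEq (m : ℤ) a b y (by simpa using h)
  rw [Ideal.absNorm_span_singleton, Ideal.absNorm_span_singleton, ← Int.natCast_modEq_iff,
    Int.natCast_natAbs, Int.natCast_natAbs]
  by_cases ha : a = 0
  · subst ha
    have hb' : Algebra.norm ℤ b ≡ 0 [ZMOD (m : ℤ)] := by simpa using hcong.symm
    have h0 : (m : ℤ) ∣ Algebra.norm ℤ b := Int.modEq_zero_iff_dvd.mp hb'
    have h1 : (m : ℤ) ∣ |Algebra.norm ℤ b| := (dvd_abs _ _).mpr h0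
    simpa using (Int.modEq_zero_iff_dvd.mpr h1).symm
  · have hbK : (b : K) ≠ 0 := by simpa using hb
    have haK : (a : K) ≠ 0 := by simpa using ha
    have hq : 0 < Algebra.norm ℚ ((a : K) / (b : K)) :=
      norm_pos_of_totallyPositive _ (div_ne_zero haK hbK) hpos
    have hNb : Algebra.norm ℤ b ≠ 0 := by
      simpa [Algebra.norm_eq_zero_iff] using hb
    have hmul : Algebra.norm ℚ (a : K) =
        Algebra.norm ℚ ((a : K) / (b : K)) * Algebra.norm ℚ (b : K) := by
      rw [← map_mul, div_mul_cancel₀ _ hbK]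
    rw [← Algebra.coe_norm_int, ← Algebra.coe_norm_int] at hmul
    have hprod : 0 < Algebra.norm ℤ a * Algebra.norm ℤ b := by
      have h2 : (0 : ℚ) < (Algebra.norm ℤ a : ℚ) * (Algebra.norm ℤ b : ℚ) := by
        have hNbq : (Algebra.norm ℤ b : ℚ) ≠ 0 := by exact_mod_cast hNb
        have h3 : (0 : ℚ) < (Algebra.norm ℤ b : ℚ) ^ 2 := by positivity
        have h4 := mul_pos hq h3
        rw [hmul]
        nlinarith
      exact_mod_cast h2
    rcases lt_or_gt_of_ne hNb with hneg | hposb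
    · have hnega : Algebra.norm ℤ a < 0 := by
        by_contra hcon
        rw [not_lt] at hcon
        nlinarith
      rw [abs_of_neg hnega, abs_of_neg hneg]
      exact hcong.neg
    · have hposa : 0 < Algebra.norm ℤ a := by
        by_contra hcon
        rw [not_lt] at hcon
        nlinarith
      rw [abs_of_pos hposa, abs_of_pos hposb]
      exact hcong

/-- (N2) Frobenius = norm on roots of unity (ring-of-integers form). -/
theorem isArithFrobAt_apply_of_pow_eq_one {K E : Type*} [Field K] [NumberField K] [Field E]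
    [NumberField E] [Algebra K E] (φ : 𝓞 E →ₐ[𝓞 K] 𝓞 E) (Q : Ideal (𝓞 E))
    (hφ : φ.IsArithFrobAt Q) {ζ : 𝓞 E} {m : ℕ} (hζ : ζ ^ m = 1) (hm : (m : 𝓞 E) ∉ Q) :
    φ ζ = ζ ^ Ideal.absNorm (Q.under (𝓞 K)) := by
  rw [Ideal.absNorm_apply, Submodule.cardQuot_apply]
  exact hφ.apply_of_pow_eq_one hζ hm

/-- (N2') Frobenius = norm on roots of unity (Galois group form): if `σ ∈ Gal(E/K)` is an
arithmetic Frobenius at the prime `Q` of `𝓞 E` and `m ∉ Q`, then `σ ζ = ζ ^ N(Q ∩ 𝓞 K)` for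
every `m`-th root of unity `ζ` of `E`. -/
theorem frob_apply_of_pow_eq_one {K E : Type*} [Field K] [NumberField K] [Field E]
    [NumberField E] [Algebra K E] [IsGalois K E] (σ : Gal(E/K)) (Q : Ideal (𝓞 E))
    (hσ : IsArithFrobAt (𝓞 K) σ Q) {ζ : E} {m : ℕ} (hm0 : m ≠ 0) (hζ : ζ ^ m = 1)
    (hm : (m : 𝓞 E) ∉ Q) :
    σ ζ = ζ ^ Ideal.absNorm (Q.under (𝓞 K)) := by
  have hint : IsIntegral ℤ ζ := by
    refine ⟨Polynomial.X ^ m - 1, Polynomial.monic_X_pow_sub_C 1 hm0, ?_⟩
    simp [hζ]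
  let z : 𝓞 E := ⟨ζ, hint⟩
  have hzc : (algebraMap (𝓞 E) E) z = ζ := rfl
  have hz : z ^ m = 1 := by
    apply RingOfIntegers.ext
    change (algebraMap (𝓞 E) E) (z ^ m) = (algebraMap (𝓞 E) E) 1
    rw [map_pow, hzc, hζ, map_one]
  have key := isArithFrobAt_apply_of_pow_eq_one (K := K)
    (MulSemiringAction.toAlgHom (𝓞 K) (𝓞 E) σ) Q hσ hz hm
  have h2 := congrArg (fun t : 𝓞 E => (algebraMap (𝓞 E) E) t) key
  simp only [map_pow, hzc] at h2
  rw [← h2]
  rfl


/-- An integral ideal coprime to `m` has absolute norm coprime to `m`. -/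
theorem coprime_absNorm {K : Type*} [Field K] [NumberField K] (m : ℕ) (I : Ideal (𝓞 K))
    (h : I ⊔ Ideal.span {(m : 𝓞 K)} = ⊤) : Nat.Coprime (Ideal.absNorm I) m := by
  rw [Nat.coprime_iff_gcd_eq_one]
  by_contra hne
  obtain ⟨p, hp, hpd⟩ := Nat.exists_prime_and_dvd hne
  have hpn : p ∣ Ideal.absNorm I := hpd.trans (Nat.gcd_dvd_left _ _)
  have hpm : p ∣ m := hpd.trans (Nat.gcd_dvd_right _ _)
  have hI0 : Ideal.absNorm I ≠ 0 := by
    rintro h0
    rw [h0] at hpd
    rw [Ideal.absNorm_eq_zero_iff] at h0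
    subst h0
    rw [bot_sup_eq] at h
    -- `m` is a unit of `𝓞 K`, so `m = 1`, contradiction with `p ∣ m`
    have h1 : Ideal.absNorm (Ideal.span {(m : 𝓞 K)}) = 1 := by rw [h, Ideal.absNorm_top]
    rw [Ideal.absNorm_span_singleton] at h1
    have h2 : Algebra.norm ℤ (m : 𝓞 K) = (m : ℤ) ^ Module.finrank ℤ (𝓞 K) := by
      have := Algebra.norm_algebraMap (S := 𝓞 K) (m : ℤ)
      simpa using this
    rw [h2, Int.natAbs_pow, Int.natAbs_natCast] at h1
    have hfr : Module.finrank ℤ (𝓞 K) ≠ 0 := by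
      rw [RingOfIntegers.rank]
      exact Module.finrank_pos.ne'
    rcases (Nat.pow_eq_one.mp h1) with h3 | h3
    · rw [h3] at hpm
      exact hp.one_lt.ne' (Nat.dvd_one.mp hpm)
    · exact hfr h3
  have : Finite (𝓞 K ⧸ I) := by
    apply Nat.finite_of_card_ne_zero
    rwa [Ideal.absNorm_apply, Submodule.cardQuot_apply] at hI0
  have : Fact p.Prime := ⟨hp⟩
  rw [Ideal.absNorm_apply, Submodule.cardQuot_apply] at hpn
  obtain ⟨x, hx⟩ := exists_prime_addOrderOf_dvd_card' p hpn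
  obtain ⟨x, rfl⟩ := Ideal.Quotient.mk_surjective x
  have hpx : (p : ℕ) • (Ideal.Quotient.mk I x) = 0 := by
    rw [← hx]; exact addOrderOf_nsmul_eq_zero _
  have hmx : (m : 𝓞 K) * x ∈ I := by
    obtain ⟨c, rfl⟩ := hpm
    have : ((p * c : ℕ) : 𝓞 K) * x = (c : 𝓞 K) * ((p : 𝓞 K) * x) := by push_cast; ring
    rw [this]
    apply Ideal.mul_mem_left
    rw [← Ideal.Quotient.eq_zero_iff_mem, ← hpx]
    simp
  have hx0 : Ideal.Quotient.mk I x ≠ 0 := by
    intro h0
    rw [h0, addOrderOf_zero] at hx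
    exact hp.one_lt.ne' hx.symm
  apply hx0
  rw [Ideal.Quotient.eq_zero_iff_mem]
  have h1 : (1 : 𝓞 K) ∈ I ⊔ Ideal.span {(m : 𝓞 K)} := by rw [h]; trivial
  obtain ⟨i, hi, j, hj, hij⟩ := Submodule.mem_sup.mp h1
  obtain ⟨s, rfl⟩ := Ideal.mem_span_singleton'.mp hj
  have : x = i * x + s * ((m : 𝓞 K) * x) := by
    calc x = 1 * x := (one_mul x).symm
      _ = (i + s * (m : 𝓞 K)) * x := by rw [hij]
      _ = _ := by ring
  rw [this]
  exact I.add_mem (I.mul_mem_right _ hi) (I.mul_mem_left _ hmx)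

/-- (N3, prime case) If `𝓞 E` contains a primitive `m`-th root of unity and `P` is a nonzero
prime with `m ∉ P`, then `N(P) ≡ 1 mod m`. -/
theorem absNorm_prime_modEq_one {E : Type*} [Field E] [NumberField E] {m : ℕ} {ζ : 𝓞 E}
    (hζ : IsPrimitiveRoot ζ m) (P : Ideal (𝓞 E)) [hP : P.IsPrime] (hP0 : P ≠ ⊥)
    (hm : (m : 𝓞 E) ∉ P) : Ideal.absNorm P ≡ 1 [MOD m] := by
  classical
  have : P.IsMaximal := hP.isMaximal hP0
  let : Field (𝓞 E ⧸ P) := Ideal.Quotient.field P
  have : Finite (𝓞 E ⧸ P) := Ideal.finiteQuotientOfFreeOfNeBot P hP0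
  let : Fintype (𝓞 E ⧸ P) := Fintype.ofFinite _
  have hm0 : ((m : ℕ) : 𝓞 E ⧸ P) ≠ 0 := by
    have : ((m : ℕ) : 𝓞 E ⧸ P) = Ideal.Quotient.mk P (m : 𝓞 E) := by simp
    rw [this, Ne, Ideal.Quotient.eq_zero_iff_mem]
    exact hm
  have : NeZero ((m : ℕ) : 𝓞 E ⧸ P) := ⟨hm0⟩
  have hmE : ((m : ℕ) : 𝓞 E) ≠ 0 := fun h => hm (by rw [h]; exact P.zero_mem)
  have : NeZero ((m : ℕ) : 𝓞 E) := ⟨hmE⟩
  have hroot : (Polynomial.cyclotomic m (𝓞 E)).IsRoot ζ := Polynomial.isRoot_cyclotomic_iff.mpr hζ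
  have hroot' : (Polynomial.cyclotomic m (𝓞 E ⧸ P)).IsRoot (Ideal.Quotient.mk P ζ) := by
    have := hroot.map (f := Ideal.Quotient.mk P)
    rwa [Polynomial.map_cyclotomic] at this
  have hprim : IsPrimitiveRoot (Ideal.Quotient.mk P ζ) m := Polynomial.isRoot_cyclotomic_iff.mp hroot'
  have hmpos : 0 < m := Nat.pos_of_ne_zero (fun h => hmE (by rw [h]; simp))
  have hne : Ideal.Quotient.mk P ζ ≠ 0 := hprim.ne_zero hmpos.ne'
  have hpow := FiniteField.pow_card_sub_one_eq_one (Ideal.Quotient.mk P ζ) hne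
  have hdvd : m ∣ Fintype.card (𝓞 E ⧸ P) - 1 := hprim.dvd_of_pow_eq_one _ hpow
  rw [Ideal.absNorm_apply, Submodule.cardQuot_apply, Nat.card_eq_fintype_card]
  exact ((Nat.modEq_iff_dvd' Fintype.card_pos).mpr hdvd).symm

/-- (N3) Norms die: if `𝓞 E` contains a primitive `m`-th root of unity, every integral ideal
of `𝓞 E` coprime to `m` has absolute norm `≡ 1 mod m`. -/
theorem absNorm_modEq_one {E : Type*} [Field E] [NumberField E] {m : ℕ} {ζ : 𝓞 E}
    (hζ : IsPrimitiveRoot ζ m) (A : Ideal (𝓞 E))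
    (hA : A ⊔ Ideal.span {(m : 𝓞 E)} = ⊤) : Ideal.absNorm A ≡ 1 [MOD m] := by
  have hcop := coprime_absNorm m A hA
  revert hcop hA
  refine UniqueFactorizationMonoid.induction_on_prime (P := fun A : Ideal (𝓞 E) =>
    A ⊔ Ideal.span {(m : 𝓞 E)} = ⊤ → Nat.Coprime (Ideal.absNorm A) m →
      Ideal.absNorm A ≡ 1 [MOD m]) A ?_ ?_ ?_
  · intro _ hcop
    have : (Ideal.absNorm (0 : Ideal (𝓞 E))) = 0 := by simp
    rw [this, Nat.coprime_zero_left] at hcop
    rw [hcop]
    exact Nat.modEq_one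
  · intro x hx _ _
    rw [Ideal.isUnit_iff.mp hx, Ideal.absNorm_top]
  · intro a p _ hp ih hsup _
    have hpP : p.IsPrime := Ideal.isPrime_of_prime hp
    have hp0 : p ≠ ⊥ := hp.ne_zero
    have hle1 : p * a ≤ a := Ideal.mul_le_right
    have hle2 : p * a ≤ p := Ideal.mul_le_left
    have ha : a ⊔ Ideal.span {(m : 𝓞 E)} = ⊤ :=
      top_le_iff.mp (hsup ▸ sup_le_sup_right hle1 _)
    have hp' : p ⊔ Ideal.span {(m : 𝓞 E)} = ⊤ :=
      top_le_iff.mp (hsup ▸ sup_le_sup_right hle2 _)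
    have hmp : (m : 𝓞 E) ∉ p := by
      intro hmem
      have : p ⊔ Ideal.span {(m : 𝓞 E)} = p :=
        sup_eq_left.mpr ((Ideal.span_singleton_le_iff_mem p).mpr hmem)
      rw [this] at hp'
      exact hpP.ne_top hp'
    rw [map_mul]
    have h1 := absNorm_prime_modEq_one hζ p hp0 hmp
    have h2 := ih ha (coprime_absNorm m a ha)
    simpa using h1.mul h2


/-- (N2'') The mod `m` cyclotomic character of a Frobenius at `Q` is the absolute norm of
the prime `Q ∩ 𝓞 K` below. -/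
theorem modularCyclotomicCharacter_frob {K E : Type*} [Field K] [NumberField K] [Field E]
    [NumberField E] [Algebra K E] [IsGalois K E] {m : ℕ} [NeZero m]
    (hcard : Nat.card (rootsOfUnity m E) = m) (σ : Gal(E/K)) (Q : Ideal (𝓞 E))
    (hσ : IsArithFrobAt (𝓞 K) σ Q) (hm : (m : 𝓞 E) ∉ Q) :
    ((modularCyclotomicCharacter E hcard (σ : E ≃+* E) : (ZMod m)ˣ) : ZMod m) =
      ((Ideal.absNorm (Q.under (𝓞 K)) : ℕ) : ZMod m) := by
  symm
  apply modularCyclotomicCharacter.unique E hcard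
  intro t ht
  have ht' : (t : E) ^ m = 1 := by
    have := (mem_rootsOfUnity m t).mp ht
    have h2 := congrArg Units.val this
    simpa using h2
  have h1 := frob_apply_of_pow_eq_one σ Q hσ (NeZero.ne m) ht' hm
  rw [ZMod.val_natCast, ← pow_eq_pow_mod _ ht']
  exact h1

/-- (N4-ideal, prime case) For a nonzero prime `q` of `𝓞 K` coprime to `m` there is a
`σ ∈ Gal(E/K)` (a Frobenius above `q`) acting on the `m`-th roots of unity of `E` by
`t ↦ t ^ N(q)`. -/
theorem exists_gal_pow_absNorm_prime {K E : Type*} [Field K] [NumberField K] [Field E]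
    [NumberField E] [Algebra K E] [IsGalois K E] (m : ℕ) (hm0 : m ≠ 0) (q : Ideal (𝓞 K))
    [hq : q.IsPrime] (hq0 : q ≠ ⊥) (hmq : (m : 𝓞 K) ∉ q) :
    ∃ σ : Gal(E/K), ∀ t : E, t ^ m = 1 → σ t = t ^ Ideal.absNorm q := by
  have hqmax : q.IsMaximal := hq.isMaximal hq0
  obtain ⟨Q, hQmax, hQover⟩ := Ideal.exists_maximal_ideal_liesOver_of_isIntegral (S := 𝓞 E) q
  have hQp : Q.IsPrime := hQmax.isPrime
  have hunder : Q.under (𝓞 K) = q := hQover.over.symm
  have hQ0 : Q ≠ ⊥ := by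
    rintro rfl
    apply hq0
    rw [← hunder]
    exact Ideal.under_bot (𝓞 K) (𝓞 E)
  have : Finite (𝓞 E ⧸ Q) := Ideal.finiteQuotientOfFreeOfNeBot Q hQ0
  have hmQ : (m : 𝓞 E) ∉ Q := by
    intro hmem
    apply hmq
    rw [← hunder, Ideal.mem_comap]
    simpa using hmem
  refine ⟨arithFrobAt (𝓞 K) Gal(E/K) Q, fun t ht => ?_⟩
  have := frob_apply_of_pow_eq_one (arithFrobAt (𝓞 K) Gal(E/K) Q) Q
    (IsArithFrobAt.arithFrobAt (𝓞 K) Gal(E/K) Q) hm0 ht hmQ
  rwa [hunder] at this

/-- (N4-ideal) The ideal-theoretic cyclotomic Artin map exists: for every integral ideal `I`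
of `𝓞 K` coprime to `m` there is a `σ ∈ Gal(E/K)` acting on the `m`-th roots of unity of `E`
by `t ↦ t ^ N(I)`. -/
theorem exists_gal_pow_absNorm {K E : Type*} [Field K] [NumberField K] [Field E]
    [NumberField E] [Algebra K E] [IsGalois K E] (m : ℕ) (hm0 : m ≠ 0) (I : Ideal (𝓞 K))
    (hI : I ⊔ Ideal.span {(m : 𝓞 K)} = ⊤) :
    ∃ σ : Gal(E/K), ∀ t : E, t ^ m = 1 → σ t = t ^ Ideal.absNorm I := by
  revert hI
  refine UniqueFactorizationMonoid.induction_on_prime (P := fun I : Ideal (𝓞 K) =>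
    I ⊔ Ideal.span {(m : 𝓞 K)} = ⊤ →
      ∃ σ : Gal(E/K), ∀ t : E, t ^ m = 1 → σ t = t ^ Ideal.absNorm I) I ?_ ?_ ?_
  · intro h
    have hcop := coprime_absNorm m (0 : Ideal (𝓞 K)) h
    have : (Ideal.absNorm (0 : Ideal (𝓞 K))) = 0 := by simp
    rw [this, Nat.coprime_zero_left] at hcop
    subst hcop
    refine ⟨1, fun t ht => ?_⟩
    rw [pow_one] at ht
    simp [ht]
  · intro x hx _
    refine ⟨1, fun t _ => ?_⟩
    rw [Ideal.isUnit_iff.mp hx, Ideal.absNorm_top]
    simp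
  · intro a p _ hp ih hsup
    have hpP : p.IsPrime := Ideal.isPrime_of_prime hp
    have hp0 : p ≠ ⊥ := hp.ne_zero
    have hle1 : p * a ≤ a := Ideal.mul_le_right
    have hle2 : p * a ≤ p := Ideal.mul_le_left
    have ha : a ⊔ Ideal.span {(m : 𝓞 K)} = ⊤ :=
      top_le_iff.mp (hsup ▸ sup_le_sup_right hle1 _)
    have hp' : p ⊔ Ideal.span {(m : 𝓞 K)} = ⊤ :=
      top_le_iff.mp (hsup ▸ sup_le_sup_right hle2 _)
    have hmp : (m : 𝓞 K) ∉ p := by
      intro hmem
      have : p ⊔ Ideal.span {(m : 𝓞 K)} = p :=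
        sup_eq_left.mpr ((Ideal.span_singleton_le_iff_mem p).mpr hmem)
      rw [this] at hp'
      exact hpP.ne_top hp'
    obtain ⟨σp, hσp⟩ := exists_gal_pow_absNorm_prime (E := E) m hm0 p hp0 hmp
    obtain ⟨σa, hσa⟩ := ih ha
    refine ⟨σp * σa, fun t ht => ?_⟩
    rw [AlgEquiv.mul_apply, hσa t ht, map_pow, hσp t ht, map_mul, ← pow_mul]


/-- (N3') Norms die, with the primitive root given in the field `E`. -/
theorem absNorm_modEq_one_of_field {E : Type*} [Field E] [NumberField E] {m : ℕ} (hm0 : m ≠ 0)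
    {ζ : E} (hζ : IsPrimitiveRoot ζ m) (A : Ideal (𝓞 E))
    (hA : A ⊔ Ideal.span {(m : 𝓞 E)} = ⊤) : Ideal.absNorm A ≡ 1 [MOD m] := by
  have : NeZero m := ⟨hm0⟩
  exact absNorm_modEq_one hζ.toInteger_isPrimitiveRoot A hA

/-- (N3'') Norms die, relative form: if `E` contains a primitive `m`-th root of unity and `A`
is an integral ideal of `𝓞 E` coprime to `m`, then `N(N_{E/K} A) ≡ 1 mod m`; hence any
element of `Gal(E/K)` acting on `μ_m` through `t ↦ t ^ N(N_{E/K} A)` acts trivially on `μ_m`. -/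
theorem absNorm_relNorm_modEq_one {K E : Type*} [Field K] [NumberField K] [Field E]
    [NumberField E] [Algebra K E] {m : ℕ} (hm0 : m ≠ 0) {ζ : E} (hζ : IsPrimitiveRoot ζ m)
    (A : Ideal (𝓞 E)) (hA : A ⊔ Ideal.span {(m : 𝓞 E)} = ⊤) :
    Ideal.absNorm (Ideal.relNorm (𝓞 K) A) ≡ 1 [MOD m] := by
  rw [Ideal.absNorm_relNorm]
  exact absNorm_modEq_one_of_field hm0 hζ A hA

/-- (Ray triviality, in power form) With `a ≡ b mod m` and `a / b` totally positive, the
principal ideals `(a)`, `(b)` act identically on every `m`-th root of unity. -/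
theorem pow_absNorm_span_eq {K : Type*} [Field K] [NumberField K] {M : Type*} [Monoid M]
    (m : ℕ) (a b y : 𝓞 K) (hb : b ≠ 0) (h : a - b = (m : 𝓞 K) * y)
    (hpos : ∀ φ : K →+* ℝ, 0 < φ ((a : K) / (b : K))) (t : M) (ht : t ^ m = 1) :
    t ^ Ideal.absNorm (Ideal.span {a}) = t ^ Ideal.absNorm (Ideal.span {b}) :=
  pow_eq_pow_of_modEq (absNorm_span_modEq m a b y hb h hpos) ht

/-- (Norm triviality, in power form). -/
theorem pow_absNorm_relNorm_eq {K E : Type*} [Field K] [NumberField K] [Field E]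
    [NumberField E] [Algebra K E] {m : ℕ} (hm0 : m ≠ 0) {ζ : E} (hζ : IsPrimitiveRoot ζ m)
    (A : Ideal (𝓞 E)) (hA : A ⊔ Ideal.span {(m : 𝓞 E)} = ⊤) {M : Type*} [Monoid M] (t : M)
    (ht : t ^ m = 1) : t ^ Ideal.absNorm (Ideal.relNorm (𝓞 K) A) = t := by
  have := pow_eq_pow_of_modEq (absNorm_relNorm_modEq_one (K := K) hm0 hζ A hA) ht
  rwa [pow_one] at this


/-- (N1e) Version WITHOUT any archimedean condition: if `a ≡ b mod m` in `𝓞 K` then the
absolute norms of `(a)` and `(b)` agree modulo `m` up to sign, i.e. their squares agree. -/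
theorem absNorm_span_sq_modEq {K : Type*} [Field K] [NumberField K] (m : ℕ) (a b y : 𝓞 K)
    (h : a - b = (m : 𝓞 K) * y) :
    Ideal.absNorm (Ideal.span {a}) ^ 2 ≡ Ideal.absNorm (Ideal.span {b}) ^ 2 [MOD m] := by
  have hcong : Algebra.norm ℤ a ≡ Algebra.norm ℤ b [ZMOD (m : ℤ)] :=
    norm_int_modEq (m : ℤ) a b y (by simpa using h)
  rw [Ideal.absNorm_span_singleton, Ideal.absNorm_span_singleton, ← Int.natCast_modEq_iff]
  push_cast
  rw [sq_abs, sq_abs]
  exact hcong.pow 2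

/-- (N1e, power form) Without archimedean conditions, `(a)` and `(b)` act on an `m`-th root of
unity `t` by powers whose squares agree: `(t ^ N(a)) ^ N(a) = (t ^ N(b)) ^ N(b)`. In particular
they induce the same element in every quotient of odd order. -/
theorem pow_absNorm_span_sq_eq {K : Type*} [Field K] [NumberField K] {M : Type*} [Monoid M]
    (m : ℕ) (a b y : 𝓞 K) (h : a - b = (m : 𝓞 K) * y) (t : M) (ht : t ^ m = 1) :
    t ^ (Ideal.absNorm (Ideal.span {a}) ^ 2) = t ^ (Ideal.absNorm (Ideal.span {b}) ^ 2) :=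
  pow_eq_pow_of_modEq (absNorm_span_sq_modEq m a b y h) ht

end Fermat.Agent.CFT.Global.CycloNorm
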