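import Mathlib
import Fermat.Agent.CFT.Global.QBridgeDiv
import Fermat.Agent.CFT.Global.CycloNorm

/-!
# The local norm and the divisor map

`L` a number field, `q` a rational prime, `A = L ⊗[ℚ] ℚ_[q]` as a `ℚ_[q]`-algebra through the
right factor (`Algebra.TensorProduct.rightAlgebra`).  We compute the absolute value of Mathlib's
`Algebra.norm ℚ_[q] : A → ℚ_[q]` on units in terms of the divisor map `divq` of `QBridgeDiv`:

* `norm_tmul_one`       : `N_{A/ℚ_q}(a ⊗ 1) = N_{L/ℚ}(a)`;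
* `norm_le_one_of_mem_maxOrder`, `norm_norm_eq_one_of_mem_orderUnits` : integrality of the norm;
* `fDeg`, `absNorm_eq_pow_fDeg` : the residue degrees, `N(w) = q ^ fDeg w`;
* `padicValRat_norm_eq` : `v_q(N_{L/ℚ} a) = ∑_{w ∣ q} f_w · ord_w(a)`;
* `valuation_norm_eq`, `norm_norm_eq`, `norm_norm_eq_finprod` :
  `v_q(N_{A/ℚ_q} x) = ∑_{w ∣ q} f_w · (div x)(w)`, `‖N x‖ = ∏_w N(w) ^ (-(div x)(w))`.
-/

set_option autoImplicit false

noncomputable section

namespace Fermat.Agent.CFT.Global.QBridge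

open TensorProduct IsDedekindDomain NumberField

attribute [local instance] Algebra.TensorProduct.rightAlgebra

section LocalNorm

variable (q : ℕ) [Fact q.Prime] (L : Type*) [Field L] [NumberField L]

/-- **Base change of the norm**: the norm of `a ⊗ 1` over `ℚ_[q]` is the norm of `a` over `ℚ`. -/
theorem norm_tmul_one (a : L) :
    Algebra.norm ℚ_[q] (a ⊗ₜ[ℚ] (1 : ℚ_[q])) = ((Algebra.norm ℚ a : ℚ) : ℚ_[q]) := by
  have h1 : a ⊗ₜ[ℚ] (1 : ℚ_[q]) =
      Algebra.TensorProduct.commRight ℚ ℚ_[q] L ((1 : ℚ_[q]) ⊗ₜ[ℚ] a) := rfl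
  rw [h1, Algebra.norm_eq_of_algEquiv, Algebra.norm_apply, Algebra.norm_apply,
    ← Algebra.baseChange_lmul, LinearMap.det_baseChange]
  rfl

/-- The `ℚ_[q]`-basis `b_i ⊗ 1` of `L ⊗[ℚ] ℚ_[q]` attached to the integral basis `b_i`. -/
def tensorBasis : Module.Basis (Module.Free.ChooseBasisIndex ℤ (𝓞 L)) ℚ_[q] (L ⊗[ℚ] ℚ_[q]) :=
  (Algebra.TensorProduct.basis ℚ_[q] (integralBasis L)).map
    (Algebra.TensorProduct.commRight ℚ ℚ_[q] L).toLinearEquiv

theorem tensorBasis_apply (i : Module.Free.ChooseBasisIndex ℤ (𝓞 L)) :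
    tensorBasis q L i = ((RingOfIntegers.basis L i : 𝓞 L) : L) ⊗ₜ[ℚ] (1 : ℚ_[q]) := by
  rw [tensorBasis, Module.Basis.map_apply, Algebra.TensorProduct.basis_apply,
    integralBasis_apply]
  rfl

variable {q L}

theorem smul_eq_qInt_mul (c : ℤ_[q]) (t : L ⊗[ℚ] ℚ_[q]) :
    (c : ℚ_[q]) • t = qInt q L c * t := by
  rw [Algebra.smul_def]
  rfl

/-- The maximal order is the `ℤ_[q]`-span of the basis `b_i ⊗ 1`. -/
theorem exists_coeffs_tensorBasis {a : L ⊗[ℚ] ℚ_[q]} (ha : a ∈ maxOrder q L) :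
    ∃ r : Module.Free.ChooseBasisIndex ℤ (𝓞 L) → ℤ_[q],
      a = ∑ i, (r i : ℚ_[q]) • tensorBasis q L i := by
  rw [mem_maxOrder_iff_addClosure] at ha
  induction ha using AddSubgroup.closure_induction with
  | mem x hx =>
    obtain ⟨y, c, rfl⟩ := hx
    refine ⟨fun i => ((RingOfIntegers.basis L).repr y i : ℤ_[q]) * c, ?_⟩
    have hy : (y : L) = ∑ i, ((RingOfIntegers.basis L).repr y i : ℤ) •
        ((RingOfIntegers.basis L i : 𝓞 L) : L) := by
      conv_lhs => rw [← (RingOfIntegers.basis L).sum_repr y]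
      simp
    conv_lhs => rw [hy, TensorProduct.sum_tmul]
    refine Finset.sum_congr rfl fun i _ => ?_
    rw [smul_eq_qInt_mul, tensorBasis_apply, qInt_apply, Algebra.TensorProduct.tmul_mul_tmul,
      one_mul, mul_one, ← TensorProduct.smul_tmul', ← TensorProduct.tmul_smul, zsmul_eq_mul]
    simp
  | zero => exact ⟨0, by simp⟩
  | add x y _ _ hx hy =>
    obtain ⟨r, rfl⟩ := hx
    obtain ⟨r', rfl⟩ := hy
    exact ⟨r + r', by simp [add_smul, Finset.sum_add_distrib]⟩
  | neg x _ hx =>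
    obtain ⟨r, rfl⟩ := hx
    exact ⟨-r, by simp [Finset.sum_neg_distrib]⟩

theorem tensorBasis_mem_maxOrder (i : Module.Free.ChooseBasisIndex ℤ (𝓞 L)) :
    tensorBasis q L i ∈ maxOrder q L := by
  rw [tensorBasis_apply]
  have := tmul_mem_maxOrder (q := q) (RingOfIntegers.basis L i) 1
  simpa using this

/-- The norm of a principal unit. -/
theorem norm_lamq (a : Lˣ) :
    Algebra.norm ℚ_[q] ((lamq q L a : (L ⊗[ℚ] ℚ_[q])ˣ) : L ⊗[ℚ] ℚ_[q]) =
      ((Algebra.norm ℚ (a : L) : ℚ) : ℚ_[q]) := by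
  rw [lamq_val, norm_tmul_one]

/-- The norm of an element of the maximal order is a `q`-adic integer. -/
theorem norm_le_one_of_mem_maxOrder {x : L ⊗[ℚ] ℚ_[q]} (hx : x ∈ maxOrder q L) :
    ‖Algebra.norm ℚ_[q] x‖ ≤ 1 := by
  classical
  have hentry : ∀ i j, ∃ c : ℤ_[q],
      Algebra.leftMulMatrix (tensorBasis q L) x i j = (c : ℚ_[q]) := by
    intro i j
    obtain ⟨r, hr⟩ := exists_coeffs_tensorBasis
      (mul_mem hx (tensorBasis_mem_maxOrder (q := q) (L := L) j))
    refine ⟨r i, ?_⟩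
    rw [Algebra.leftMulMatrix_eq_repr_mul, hr, map_sum, Finset.sum_apply']
    simp [Finsupp.single_apply]
  choose M' hM' using hentry
  have hM : Algebra.leftMulMatrix (tensorBasis q L) x =
      (PadicInt.Coe.ringHom (p := q)).mapMatrix (Matrix.of M') := by
    ext i j
    rw [hM' i j]
    rfl
  rw [Algebra.norm_eq_matrix_det (tensorBasis q L), hM, ← RingHom.map_det]
  exact PadicInt.norm_le_one _

/-- The norm of a unit of the maximal order is a `q`-adic unit. -/
theorem norm_norm_eq_one_of_mem_orderUnits {u : (L ⊗[ℚ] ℚ_[q])ˣ} (hu : u ∈ orderUnits q L) :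
    ‖Algebra.norm ℚ_[q] (u : L ⊗[ℚ] ℚ_[q])‖ = 1 := by
  have h1 := norm_le_one_of_mem_maxOrder hu.1
  have h2 := norm_le_one_of_mem_maxOrder hu.2
  have h3 : ‖Algebra.norm ℚ_[q] (u : L ⊗[ℚ] ℚ_[q])‖ *
      ‖Algebra.norm ℚ_[q] ((u⁻¹ : (L ⊗[ℚ] ℚ_[q])ˣ) : L ⊗[ℚ] ℚ_[q])‖ = 1 := by
    rw [← norm_mul, ← map_mul, Units.mul_inv, map_one, norm_one]
  have h4 := norm_nonneg (Algebra.norm ℚ_[q] (u : L ⊗[ℚ] ℚ_[q]))
  have h5 := norm_nonneg (Algebra.norm ℚ_[q] ((u⁻¹ : (L ⊗[ℚ] ℚ_[q])ˣ) : L ⊗[ℚ] ℚ_[q]))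
  nlinarith

end LocalNorm


section Global

variable (q : ℕ) [Fact q.Prime] (L : Type*) [Field L] [NumberField L]

/-- The absolute norm of a prime above `q` is a positive power of `q`. -/
theorem absNorm_primesOver (w : PrimesOver q L) :
    ∃ f : ℕ, 0 < f ∧ Ideal.absNorm w.1.asIdeal = q ^ f := by
  have hq := (Fact.out : q.Prime)
  have hle : Ideal.span {(q : 𝓞 L)} ≤ w.1.asIdeal := (Ideal.span_singleton_le_iff_mem _).mpr w.2
  have hdvd := Ideal.absNorm_dvd_absNorm_of_le hle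
  rw [Ideal.absNorm_span_singleton] at hdvd
  have h2 : Algebra.norm ℤ (q : 𝓞 L) = (q : ℤ) ^ Module.finrank ℤ (𝓞 L) := by
    have := Algebra.norm_algebraMap (S := 𝓞 L) (q : ℤ)
    simpa using this
  rw [h2, Int.natAbs_pow, Int.natAbs_natCast] at hdvd
  obtain ⟨f, -, hfe⟩ := (Nat.dvd_prime_pow hq).mp hdvd
  refine ⟨f, ?_, hfe⟩
  rcases Nat.eq_zero_or_pos f with h0 | h0
  · exfalso
    rw [h0, pow_zero, Ideal.absNorm_eq_one_iff] at hfe
    exact w.1.isPrime.ne_top hfe
  · exact h0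

/-- The residue degree of a prime above `q`: `N(w) = q ^ fDeg w`. -/
def fDeg (w : PrimesOver q L) : ℕ := Nat.log q (Ideal.absNorm w.1.asIdeal)

theorem absNorm_eq_pow_fDeg (w : PrimesOver q L) :
    Ideal.absNorm w.1.asIdeal = q ^ fDeg q L w := by
  obtain ⟨f, -, hf⟩ := absNorm_primesOver q L w
  rw [fDeg, hf, Nat.log_pow (Fact.out : q.Prime).one_lt]

theorem fDeg_pos (w : PrimesOver q L) : 0 < fDeg q L w := by
  obtain ⟨f, hf0, hf⟩ := absNorm_primesOver q L w
  rw [fDeg, hf, Nat.log_pow (Fact.out : q.Prime).one_lt]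
  exact hf0

variable {L} in
/-- An integral uniformizer at `w` which is a unit at the other primes of a finite set. -/
theorem exists_int_uniformizer (T : Finset (HeightOneSpectrum (𝓞 L)))
    (w : HeightOneSpectrum (𝓞 L)) :
    ∃ y : 𝓞 L, w.intValuation y = WithZero.exp (-1 : ℤ) ∧
      ∀ w' ∈ T, w' ≠ w → y ∉ w'.asIdeal := by
  classical
  obtain ⟨π, hπ⟩ := w.intValuation_exists_uniformizer
  obtain ⟨y, hy⟩ := IsDedekindDomain.exists_forall_sub_mem_ideal (s := insert w T)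
    (fun v : HeightOneSpectrum (𝓞 L) => v.asIdeal) (fun v => if v = w then 2 else 1)
    (fun v _ => v.prime) (fun v _ v' _ h hEq => h (HeightOneSpectrum.ext hEq))
    (fun v => if (v : HeightOneSpectrum (𝓞 L)) = w then π else 1)
  have hyw : w.intValuation y = WithZero.exp (-1 : ℤ) := by
    have h1 := hy w (Finset.mem_insert_self w T)
    simp only [if_true] at h1
    have h2 : w.intValuation (y - π) ≤ WithZero.exp (-((2 : ℕ) : ℤ)) :=
      (w.intValuation_le_pow_iff_mem (y - π) 2).mpr h1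
    have h3 : w.intValuation (y - π) < w.intValuation π := by
      rw [hπ]
      refine lt_of_le_of_lt h2 ?_
      rw [WithZero.exp_lt_exp]
      norm_num
    have h4 := Valuation.map_add_eq_of_lt_left (v := w.intValuation) h3
    rw [add_comm, sub_add_cancel] at h4
    rw [h4, hπ]
  refine ⟨y, hyw, ?_⟩
  intro w' hw' hne hmem
  have h1 := hy w' (Finset.mem_insert_of_mem hw')
  simp only [if_neg hne, pow_one] at h1
  have h2 : (1 : 𝓞 L) ∈ w'.asIdeal := by
    have h3 := sub_mem hmem h1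
    rwa [sub_sub_cancel] at h3
  exact w'.isPrime.ne_top ((Ideal.eq_top_iff_one _).mpr h2)

/-- For every prime `w` above `q` there is an element of `Lˣ` which is a uniformizer at `w`, a
unit at the other primes above `q`, and whose norm has `q`-adic valuation `fDeg w`. -/
theorem exists_single (w : PrimesOver q L) :
    ∃ a : Lˣ, ordZ w.1 a = 1 ∧ (∀ w' : PrimesOver q L, w' ≠ w → ordZ w'.1 a = 0) ∧
      padicValRat q (Algebra.norm ℚ (a : L)) = fDeg q L w := by
  classical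
  have hq := (Fact.out : q.Prime)
  obtain ⟨y, hyw, hy'⟩ := exists_int_uniformizer (finite_setOf_natCast_mem q L).toFinset w.1
  have hy0 : y ≠ 0 := by
    rintro rfl
    rw [map_zero] at hyw
    exact WithZero.exp_ne_zero.symm hyw
  have hy0' : algebraMap (𝓞 L) L y ≠ 0 := by simpa using hy0
  have hmem : y ∈ w.1.asIdeal := by
    rw [← HeightOneSpectrum.intValuation_lt_one_iff_mem, hyw, ← WithZero.exp_zero,
      WithZero.exp_lt_exp]
    norm_num
  have hnmem : y ∉ w.1.asIdeal ^ 2 := by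
    intro h
    have h2 := (w.1.intValuation_le_pow_iff_mem y 2).mpr h
    rw [hyw, WithZero.exp_le_exp] at h2
    norm_num at h2
  obtain ⟨J, hJ⟩ := Ideal.dvd_span_singleton.mpr hmem
  have hJq : J ⊔ Ideal.span {(q : 𝓞 L)} = ⊤ := by
    by_contra hne
    obtain ⟨M, hM, hle⟩ := Ideal.exists_le_maximal _ hne
    have hqM : (q : 𝓞 L) ∈ M := hle (Ideal.mem_sup_right (Ideal.mem_span_singleton_self _))
    have hJM : J ≤ M := le_sup_left.trans hle
    have hM0 : M ≠ ⊥ := by
      rintro rfl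
      have : (q : 𝓞 L) = 0 := by simpa using hqM
      exact hq.ne_zero (by exact_mod_cast this)
    let w' : HeightOneSpectrum (𝓞 L) := ⟨M, hM.isPrime, hM0⟩
    by_cases hw : w' = w.1
    · apply hnmem
      have h1 : Ideal.span {y} ≤ w.1.asIdeal ^ 2 := by
        rw [hJ, pow_two]
        refine Ideal.mul_mono le_rfl ?_
        rw [← hw]
        exact hJM
      exact h1 (Ideal.mem_span_singleton_self y)
    · apply hy' w' ((Set.Finite.mem_toFinset _).mpr hqM) hw
      have h1 : Ideal.span {y} ≤ M := by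
        rw [hJ]
        exact Ideal.mul_le_right.trans hJM
      exact h1 (Ideal.mem_span_singleton_self y)
  have hcop : Nat.Coprime (Ideal.absNorm J) q := Fermat.Agent.CFT.Global.CycloNorm.coprime_absNorm q J hJq
  have hnorm : Ideal.absNorm (Ideal.span {y}) = q ^ fDeg q L w * Ideal.absNorm J := by
    rw [hJ, map_mul, absNorm_eq_pow_fDeg]
  refine ⟨Units.mk0 (algebraMap (𝓞 L) L y) hy0', ?_, ?_, ?_⟩
  · rw [ordZ_eq_iff, Units.val_mk0, HeightOneSpectrum.valuation_of_algebraMap, hyw]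
  · intro w'' hne
    rw [ordZ_eq_zero_iff, Units.val_mk0, HeightOneSpectrum.valuation_of_algebraMap,
      HeightOneSpectrum.intValuation_eq_one_iff]
    exact hy' w''.1 ((Set.Finite.mem_toFinset _).mpr w''.2) (fun h => hne (Subtype.ext h))
  · rw [Units.val_mk0]
    have h1 : Algebra.norm ℚ (algebraMap (𝓞 L) L y) = ((Algebra.norm ℤ y : ℤ) : ℚ) :=
      (Algebra.coe_norm_int y).symm
    rw [h1, padicValRat.of_int]
    have h2 : padicValInt q (Algebra.norm ℤ y) = padicValNat q (Ideal.absNorm (Ideal.span {y})) := by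
      rw [Ideal.absNorm_span_singleton]
      rfl
    rw [h2, hnorm]
    have hJ0 : Ideal.absNorm J ≠ 0 := by
      intro h0
      rw [h0] at hcop
      rw [Nat.coprime_zero_left] at hcop
      exact hq.one_lt.ne' hcop
    rw [padicValNat.mul (pow_ne_zero _ hq.ne_zero) hJ0, padicValNat.prime_pow,
      padicValNat.eq_zero_of_not_dvd, add_zero]
    intro hdvd
    have h3 : q ∣ Nat.gcd (Ideal.absNorm J) q := Nat.dvd_gcd hdvd dvd_rfl
    rw [Nat.Coprime] at hcop
    rw [hcop] at h3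
    exact hq.one_lt.ne' (Nat.dvd_one.mp h3)

end Global


section Main

variable (q : ℕ) [Fact q.Prime] (L : Type*) [Field L] [NumberField L]

variable {q L} in
theorem ordZ_prod {ι : Type*} (w : HeightOneSpectrum (𝓞 L)) (s : Finset ι) (f : ι → Lˣ) :
    ordZ w (∏ i ∈ s, f i) = ∑ i ∈ s, ordZ w (f i) := by
  classical
  induction s using Finset.induction_on with
  | empty => simp [ordZ_one]
  | insert i s hi ih => rw [Finset.prod_insert hi, Finset.sum_insert hi, ordZ_mul, ih]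

/-- Two homomorphisms on `Lˣ` which agree on the elements that are units at all primes above
`q`, and on a family of "uniformizers" at these primes, are equal. -/
theorem hom_ext_of_single {M : Type*} [CommGroup M] (φ ψ : Lˣ →* M)
    (c : PrimesOver q L → Lˣ)
    (hc : ∀ w, ordZ w.1 (c w) = 1 ∧ ∀ w' : PrimesOver q L, w' ≠ w → ordZ w'.1 (c w) = 0)
    (h1 : ∀ a : Lˣ, (∀ w : PrimesOver q L, ordZ w.1 a = 0) → φ a = ψ a)
    (h2 : ∀ w, φ (c w) = ψ (c w)) : φ = ψ := by
  classical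
  let _ : Fintype (PrimesOver q L) := Fintype.ofFinite _
  ext a
  set b : Lˣ := ∏ w : PrimesOver q L, c w ^ (ordZ w.1 a) with hb
  have hord : ∀ w : PrimesOver q L, ordZ w.1 (a * b⁻¹) = 0 := by
    intro w
    rw [ordZ_mul, ordZ_inv, hb, ordZ_prod]
    have h3 : ∑ i : PrimesOver q L, ordZ w.1 (c i ^ ordZ i.1 a) = ordZ w.1 a := by
      rw [Finset.sum_eq_single w]
      · rw [ordZ_zpow, (hc w).1, mul_one]
      · intro w' _ hne
        rw [ordZ_zpow, (hc w').2 w (Ne.symm hne), mul_zero]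
      · intro h
        exact absurd (Finset.mem_univ w) h
    rw [h3]
    ring
  have hφ : φ b = ψ b := by
    rw [hb, map_prod, map_prod]
    refine Finset.prod_congr rfl fun w _ => ?_
    rw [map_zpow, map_zpow, h2 w]
  have h4 := h1 _ hord
  calc φ a = φ ((a * b⁻¹) * b) := by rw [inv_mul_cancel_right]
    _ = φ (a * b⁻¹) * φ b := map_mul _ _ _
    _ = ψ (a * b⁻¹) * ψ b := by rw [h4, hφ]
    _ = ψ ((a * b⁻¹) * b) := (map_mul _ _ _).symm
    _ = ψ a := by rw [inv_mul_cancel_right]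

/-- The `q`-adic valuation of the norm, as a homomorphism on `Lˣ`. -/
def nuHom : Lˣ →* Multiplicative ℤ where
  toFun a := Multiplicative.ofAdd (padicValRat q (Algebra.norm ℚ (a : L)))
  map_one' := by simp
  map_mul' a b := by
    have ha : Algebra.norm ℚ (a : L) ≠ 0 := by
      rw [Ne, Algebra.norm_eq_zero_iff]; exact a.ne_zero
    have hb : Algebra.norm ℚ (b : L) ≠ 0 := by
      rw [Ne, Algebra.norm_eq_zero_iff]; exact b.ne_zero
    rw [Units.val_mul, map_mul, padicValRat.mul ha hb, ofAdd_add]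

/-- The weighted sum of the valuations at the primes above `q`, as a homomorphism on `Lˣ`. -/
def sumHom : Lˣ →* Multiplicative ℤ :=
  letI : Fintype (PrimesOver q L) := Fintype.ofFinite _
  ∏ w : PrimesOver q L, (ordHom w.1) ^ (fDeg q L w)

theorem toAdd_sumHom (a : Lˣ) :
    Multiplicative.toAdd (sumHom q L a) =
      ∑ᶠ w : PrimesOver q L, (fDeg q L w : ℤ) * ordZ w.1 a := by
  classical
  let _ : Fintype (PrimesOver q L) := Fintype.ofFinite _
  rw [finsum_eq_sum_of_fintype]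
  have h : sumHom q L a = ∏ w : PrimesOver q L, (ordHom w.1 a) ^ (fDeg q L w) := by
    rw [sumHom, MonoidHom.finsetProd_apply]
    refine Finset.prod_congr ?_ fun w _ => ?_
    · exact Finset.eq_univ_of_forall fun x => Finset.mem_univ x
    · rfl
  rw [h, toAdd_prod]
  refine Finset.sum_congr rfl fun w _ => ?_
  rw [toAdd_pow, nsmul_eq_mul]
  rfl

omit [NumberField L] in
variable {q} in
theorem padicValRat_eq_zero_of_norm_eq_one {r : ℚ} (h : ‖(r : ℚ_[q])‖ = 1) :
    padicValRat q r = 0 := by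
  have hq := (Fact.out : q.Prime)
  have hr : r ≠ 0 := by
    rintro rfl
    simp at h
  rw [Padic.eq_padicNorm, padicNorm.eq_zpow_of_nonzero hr] at h
  have h1 : ((q : ℚ) ^ (-padicValRat q r)) = (q : ℚ) ^ (0 : ℤ) := by
    rw [zpow_zero]
    exact_mod_cast h
  have hq1 : (1 : ℚ) < q := by exact_mod_cast hq.one_lt
  have h2 := zpow_right_injective₀ (by positivity : (0 : ℚ) < q) hq1.ne' h1
  linarith

/-- **Global formula**: `v_q(N_{L/ℚ} a) = ∑_{w ∣ q} f_w · ord_w(a)`. -/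
theorem padicValRat_norm_eq (a : Lˣ) :
    padicValRat q (Algebra.norm ℚ (a : L)) =
      ∑ᶠ w : PrimesOver q L, (fDeg q L w : ℤ) * ordZ w.1 a := by
  classical
  rw [← toAdd_sumHom]
  choose c hc1 hc2 hc3 using exists_single q L
  have key : nuHom q L = sumHom q L := by
    refine hom_ext_of_single q L _ _ c (fun w => ⟨hc1 w, hc2 w⟩) ?_ ?_
    · intro a ha
      apply Multiplicative.toAdd.injective
      rw [toAdd_sumHom]
      have h1 : ∑ᶠ w : PrimesOver q L, (fDeg q L w : ℤ) * ordZ w.1 a = 0 := by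
        rw [show (fun w : PrimesOver q L => (fDeg q L w : ℤ) * ordZ w.1 a) = fun _ => 0 from
          funext fun w => by rw [ha w, mul_zero]]
        exact finsum_zero
      rw [h1]
      show padicValRat q (Algebra.norm ℚ (a : L)) = 0
      apply padicValRat_eq_zero_of_norm_eq_one
      rw [← norm_tmul_one q L]
      exact norm_norm_eq_one_of_mem_orderUnits ((lamq_mem_orderUnits_iff a).mpr ha)
    · intro w
      apply Multiplicative.toAdd.injective
      rw [toAdd_sumHom]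
      show padicValRat q (Algebra.norm ℚ (c w : L)) = _
      rw [hc3 w, finsum_eq_single _ w]
      · rw [hc1 w, mul_one]
      · intro w' hne
        rw [hc2 w w' hne, mul_zero]
  have := congrArg (fun f : Lˣ →* Multiplicative ℤ => Multiplicative.toAdd (f a)) key
  exact this

/-- **The valuation of the local norm** in terms of the divisor map:
`v_q(N_{A/ℚ_q} x) = ∑_{w ∣ q} f_w · (div x)(w)` for `x ∈ (L ⊗[ℚ] ℚ_[q])ˣ`. -/
theorem valuation_norm_eq (x : (L ⊗[ℚ] ℚ_[q])ˣ) :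
    Padic.valuation (Algebra.norm ℚ_[q] (x : L ⊗[ℚ] ℚ_[q])) =
      ∑ᶠ w : PrimesOver q L, (fDeg q L w : ℤ) * Multiplicative.toAdd (divq q L x) w := by
  have hq := (Fact.out : q.Prime)
  obtain ⟨a, u, hu, hx⟩ := exists_lamq_mul x
  have h1 : (fun w : PrimesOver q L => (fDeg q L w : ℤ) * Multiplicative.toAdd (divq q L x) w) =
      fun w => (fDeg q L w : ℤ) * ordZ w.1 a :=
    funext fun w => by rw [divq_of_eq hu hx w]
  rw [h1, ← padicValRat_norm_eq, hx, Units.val_mul, map_mul, lamq_val, norm_tmul_one]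
  have ha : ((Algebra.norm ℚ (a : L) : ℚ) : ℚ_[q]) ≠ 0 := by
    have : Algebra.norm ℚ (a : L) ≠ 0 := by
      rw [Ne, Algebra.norm_eq_zero_iff]; exact a.ne_zero
    exact_mod_cast this
  have hu1 := norm_norm_eq_one_of_mem_orderUnits hu
  have hu0 : Algebra.norm ℚ_[q] (u : L ⊗[ℚ] ℚ_[q]) ≠ 0 := by
    intro h0
    rw [h0, norm_zero] at hu1
    exact zero_ne_one hu1
  rw [Padic.valuation_mul ha hu0, Padic.valuation_ratCast]
  have h2 : Padic.valuation (Algebra.norm ℚ_[q] (u : L ⊗[ℚ] ℚ_[q])) = 0 := by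
    rw [Padic.norm_eq_zpow_neg_valuation hu0] at hu1
    have hq1 : (1 : ℝ) < q := by exact_mod_cast hq.one_lt
    have h3 : ((q : ℝ) ^ (-Padic.valuation (Algebra.norm ℚ_[q] (u : L ⊗[ℚ] ℚ_[q])))) =
        (q : ℝ) ^ (0 : ℤ) := by rw [zpow_zero]; exact hu1
    have h4 := zpow_right_injective₀ (by positivity : (0 : ℝ) < q) hq1.ne' h3
    linarith
  rw [h2, add_zero]

theorem norm_unit_ne_zero (x : (L ⊗[ℚ] ℚ_[q])ˣ) :
    Algebra.norm ℚ_[q] (x : L ⊗[ℚ] ℚ_[q]) ≠ 0 := by
  intro h0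
  have h1 : Algebra.norm ℚ_[q] (x : L ⊗[ℚ] ℚ_[q]) *
      Algebra.norm ℚ_[q] ((x⁻¹ : (L ⊗[ℚ] ℚ_[q])ˣ) : L ⊗[ℚ] ℚ_[q]) = 1 := by
    rw [← map_mul, Units.mul_inv, map_one]
  rw [h0, zero_mul] at h1
  exact zero_ne_one h1

/-- **The absolute value of the local norm** in terms of the divisor map. -/
theorem norm_norm_eq (x : (L ⊗[ℚ] ℚ_[q])ˣ) :
    ‖Algebra.norm ℚ_[q] (x : L ⊗[ℚ] ℚ_[q])‖ = (q : ℝ) ^
      (-(∑ᶠ w : PrimesOver q L, (fDeg q L w : ℤ) * Multiplicative.toAdd (divq q L x) w)) := by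
  rw [Padic.norm_eq_zpow_neg_valuation (norm_unit_ne_zero q L x), valuation_norm_eq]

/-- The absolute value of the local norm as a product over the primes above `q`:
`‖N x‖ = ∏_{w ∣ q} N(w) ^ (-(div x)(w))`. -/
theorem norm_norm_eq_finprod (x : (L ⊗[ℚ] ℚ_[q])ˣ) :
    ‖Algebra.norm ℚ_[q] (x : L ⊗[ℚ] ℚ_[q])‖ =
      ∏ᶠ w : PrimesOver q L, ((Ideal.absNorm w.1.asIdeal : ℕ) : ℝ) ^
        (-(Multiplicative.toAdd (divq q L x) w)) := by
  classical
  have hq := (Fact.out : q.Prime)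
  have hq0 : (q : ℝ) ≠ 0 := by exact_mod_cast hq.ne_zero
  let _ : Fintype (PrimesOver q L) := Fintype.ofFinite _
  have hsum : ∀ (s : Finset (PrimesOver q L)) (f : PrimesOver q L → ℤ),
      (q : ℝ) ^ (∑ w ∈ s, f w) = ∏ w ∈ s, (q : ℝ) ^ f w := by
    intro s f
    induction s using Finset.induction_on with
    | empty => simp
    | insert i s hi ih => rw [Finset.sum_insert hi, Finset.prod_insert hi, zpow_add₀ hq0, ih]
  rw [norm_norm_eq, finsum_eq_sum_of_fintype, finprod_eq_prod_of_fintype, ← Finset.sum_neg_distrib,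
    hsum]
  refine Finset.prod_congr rfl fun w _ => ?_
  rw [absNorm_eq_pow_fDeg, Nat.cast_pow, ← zpow_natCast, ← zpow_mul, mul_neg]

/-- A "uniformizer at `w`" (divisor `= w`) has local norm of absolute value `N(w)⁻¹`. -/
theorem norm_norm_eq_of_divq_single [DecidableEq (PrimesOver q L)] (x : (L ⊗[ℚ] ℚ_[q])ˣ)
    (w : PrimesOver q L) (hx : Multiplicative.toAdd (divq q L x) = Pi.single w 1) :
    ‖Algebra.norm ℚ_[q] (x : L ⊗[ℚ] ℚ_[q])‖ = ((Ideal.absNorm w.1.asIdeal : ℕ) : ℝ)⁻¹ := by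
  rw [norm_norm_eq_finprod, finprod_eq_single _ w]
  · rw [hx, Pi.single_eq_same, zpow_neg, zpow_one]
  · intro w' hne
    rw [hx, Pi.single_eq_of_ne hne, neg_zero, zpow_zero]

end Main

end Fermat.Agent.CFT.Global.QBridge
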