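import Mathlib
import Fermat.Agent.CFT.Global.Defs

/-!
# Class field theory program (P3), global layer: [E5] `DescentIso`

For a Galois pair `(G, L)` and a normal subgroup `N` of `G`, the `N`-invariants of the idele
class module `C_L` form the idele class module of the Galois pair `(G ⧸ N, L^N)`.

The arithmetic input is the descent statement [G1] for towers (`ClassDescent` of the global
plan), taken as a hypothesis in its verbatim form.  This file supplies the Galois pair
`(G ⧸ N, FixedPoints.subfield N L)`:

* `fixAct`       : the action of `G ⧸ N` on the fixed field of `N` (a reducible def);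
* `mem_of_fixes` : an element of `G` fixing the fixed field of `N` pointwise lies in `N`;
* `faithful_fixAct`, `numberField_fix`, `isTower_fix` : the pair is a Galois pair of number
  fields and the inclusion of the fixed field is a tower datum over `G → G ⧸ N`;
* `descentIso`   : the body of [G1] implies the body of [E5].
-/

set_option autoImplicit false

open CategoryTheory
open scoped Fermat.Agent.CFT.Global

namespace Fermat.Agent.CFT.Global.DescentIso

open Fermat.Agent.CFT Fermat.Agent.CFT.Global

section Fix

variable (G L : Type) [Group G] [Field L] [MulSemiringAction G L] (N : Subgroup G) [N.Normal]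

/-- The fixed field of the normal subgroup `N`. -/
abbrev Fix : Type := ↥(FixedPoints.subfield N L)

theorem smul_mem_fix (g : G) {x : L} (hx : x ∈ FixedPoints.subfield N L) :
    g • x ∈ FixedPoints.subfield N L := by
  intro n
  have h1 : (g⁻¹ * (n : G) * g) ∈ N := Subgroup.Normal.conj_mem' ‹_› _ n.2 g
  have h2 := hx ⟨_, h1⟩
  show (n : G) • g • x = g • x
  have h3 : (g⁻¹ * (n : G) * g) • x = x := h2
  rw [mul_smul, mul_smul, inv_smul_eq_iff] at h3
  exact h3

/-- `G` acts on the fixed field of a normal subgroup. -/
@[reducible] def fixActG : MulSemiringAction G (Fix G L N) where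
  smul g x := ⟨g • (x : L), smul_mem_fix G L N g x.2⟩
  one_smul x := Subtype.ext (one_smul G (x : L))
  mul_smul g h x := Subtype.ext (mul_smul g h (x : L))
  smul_zero g := Subtype.ext (smul_zero g)
  smul_add g x y := Subtype.ext (smul_add g (x : L) (y : L))
  smul_one g := Subtype.ext (smul_one g)
  smul_mul g x y := Subtype.ext (smul_mul' g (x : L) (y : L))

/-- The action of `G` on the fixed field, as a homomorphism to its ring automorphisms. -/
def fixHom : G →* RingAut (Fix G L N) :=
  letI := fixActG G L N
  MulSemiringAction.toRingAut G (Fix G L N)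

theorem fixHom_apply (g : G) (x : Fix G L N) : ((fixHom G L N g) x : L) = g • (x : L) := rfl

theorem le_ker_fixHom : N ≤ (fixHom G L N).ker := by
  intro n hn
  rw [MonoidHom.mem_ker]
  ext x
  rw [fixHom_apply]
  exact x.2 ⟨n, hn⟩

/-- `G ⧸ N` acts on the fixed field of the normal subgroup `N`. -/
@[reducible] def fixAct : MulSemiringAction (G ⧸ N) (Fix G L N) :=
  MulSemiringAction.compHom (Fix G L N) (QuotientGroup.lift N (fixHom G L N) (le_ker_fixHom G L N))

theorem fixAct_mk (g : G) (x : Fix G L N) :
    letI := fixAct G L N
    (((QuotientGroup.mk' N g : G ⧸ N) • x : Fix G L N) : L) = g • (x : L) := rfl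

omit [N.Normal] in
/-- Galois correspondence, the half we need: an element of `G` fixing the fixed field of `N`
pointwise lies in `N`. -/
theorem mem_of_fixes [Finite G] [FaithfulSMul G L] (g : G)
    (hg : ∀ x ∈ FixedPoints.subfield N L, g • x = x) : g ∈ N := by
  have : FaithfulSMul N L := ⟨fun {a b} h => Subtype.ext (FaithfulSMul.eq_of_smul_eq_smul (M := G)
    (α := L) (fun x => h x))⟩
  have hbij := FixedPoints.toAlgHom_bijective N L
  let φ : L →ₐ[FixedPoints.subfield N L] L :=
    { MulSemiringAction.toRingHom G L g with
      commutes' := fun x => hg x x.2 }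
  obtain ⟨n, hn⟩ := hbij.2 φ
  have : (n : G) = g := by
    apply FaithfulSMul.eq_of_smul_eq_smul (M := G) (α := L)
    intro x
    have := congrArg (fun ψ : L →ₐ[FixedPoints.subfield N L] L => ψ x) hn
    exact this
  rw [← this]
  exact n.2

theorem faithful_fixAct [Finite G] [FaithfulSMul G L] :
    letI := fixAct G L N
    FaithfulSMul (G ⧸ N) (Fix G L N) := by
  let _ := fixAct G L N
  refine ⟨fun {a b} h => ?_⟩
  induction a using QuotientGroup.induction_on with
  | _ a =>
  induction b using QuotientGroup.induction_on with
  | _ b =>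
  rw [QuotientGroup.eq]
  apply mem_of_fixes G L N
  intro x hx
  have h1 := congrArg (Subtype.val) (h ⟨x, hx⟩)
  have h2 : a • x = b • x := h1
  rw [mul_smul, inv_smul_eq_iff]
  exact h2.symm

theorem numberField_fix [NumberField L] : NumberField (Fix G L N) := by
  have : CharZero (Fix G L N) := inferInstance
  refine @NumberField.mk _ _ inferInstance ?_
  exact FiniteDimensional.of_injective
    ((FixedPoints.subfield N L).subtype.toRatAlgHom.toLinearMap)
    (Subtype.val_injective)

theorem isTower_fix :
    letI := fixAct G L N
    IsTower (FixedPoints.subfield N L).subtype (QuotientGroup.mk' N) := by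
  let _ := fixAct G L N
  refine ⟨QuotientGroup.mk'_surjective N, fun g x => rfl, fun y hy => ?_⟩
  rw [QuotientGroup.ker_mk'] at hy
  exact ⟨⟨y, fun n => hy n n.2⟩, rfl⟩

end Fix

/-- **[E5] Galois descent as an isomorphism of `G ⧸ N`-modules**, from the descent statement
[G1] for towers: `C_L^N` is the idele class module of the Galois pair `(G ⧸ N, L^N)`. -/
theorem descentIso
    (hG1 : ∀ (L L' G G' : Type) [Field L] [NumberField L] [Field L'] [NumberField L']
      [Group G] [Group G'] [Fintype G'] [MulSemiringAction G L] [MulSemiringAction G' L']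
      [FaithfulSMul G' L'] (f : L →+* L') (π : G' →* G), IsTower f π →
      Function.Injective (classMap f) ∧
      (∀ y : ClassGroupOf L', (∀ n ∈ π.ker, (classRep G' L').ρ n y = y) →
        y ∈ LinearMap.range (classMap f)) ∧
      ∀ (g : G') (x : ClassGroupOf L),
        classMap f ((classRep G L).ρ (π g) x) = (classRep G' L').ρ g (classMap f x)) :
    ∀ (G L : Type) [Group G] [Fintype G] [Field L] [NumberField L] [MulSemiringAction G L]
      [FaithfulSMul G L] (N : Subgroup G) [N.Normal],
      ∃ (L₀ : Type) (_ : Field L₀) (_ : NumberField L₀) (_ : MulSemiringAction (G ⧸ N) L₀),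
        FaithfulSMul (G ⧸ N) L₀ ∧
          Nonempty ((classRep G L).quotientToInvariants N ≅ classRep (G ⧸ N) L₀) := by
  intro G L _ _ _ _ _ _ N _
  let _ := fixAct G L N
  refine ⟨Fix G L N, inferInstance, numberField_fix G L N, fixAct G L N, faithful_fixAct G L N, ?_⟩
  obtain ⟨hinj, hsurj, heq⟩ := hG1 (Fix G L N) L (G ⧸ N) G (FixedPoints.subfield N L).subtype
    (QuotientGroup.mk' N) (isTower_fix G L N)
  have hinv : ∀ x : ClassGroupOf (Fix G L N),
      classMap (FixedPoints.subfield N L).subtype x ∈
        Representation.invariants ((classRep G L).ρ.comp N.subtype) := by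
    intro x n
    show (classRep G L).ρ (n : G) (classMap (FixedPoints.subfield N L).subtype x) = _
    rw [← heq]
    have h1 : (QuotientGroup.mk' N (n : G)) = 1 := (QuotientGroup.eq_one_iff _).mpr n.2
    rw [h1, map_one]
    rfl
  let e₀ : ClassGroupOf (Fix G L N) →ₗ[ℤ]
      ↥(Representation.invariants ((classRep G L).ρ.comp N.subtype)) :=
    LinearMap.codRestrict _ (classMap (FixedPoints.subfield N L).subtype) hinv
  have he₀ : Function.Bijective e₀ := by
    refine ⟨fun a b h => hinj (congrArg Subtype.val h), ?_⟩
    rintro ⟨y, hy⟩
    obtain ⟨x, rfl⟩ := hsurj y (fun n hn => hy ⟨n, by simpa using hn⟩)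
    exact ⟨x, rfl⟩
  refine ⟨(Rep.mkIso (Representation.Equiv.mk (LinearEquiv.ofBijective e₀ he₀) ?_)).symm⟩
  intro g
  induction g using QuotientGroup.induction_on with
  | _ g =>
  apply LinearMap.ext
  intro x
  apply Subtype.ext
  exact heq g x

end Fermat.Agent.CFT.Global.DescentIso
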