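import Mathlib
import Fermat.Agent.CFT.Global.Defs
import Fermat.Agent.CFT.Global.Plan
import Fermat.Agent.CFT.Global.ClassDescent
import Fermat.Agent.CFT.Global.DescentIso

/-!
# Class field theory program (P3), global layer: [E5] `DescentIso`, unconditional

`DescentIso.descentIso` (hypothesis form) fed with the landed Galois descent for towers
`ClassDescent.classDescent` ([G1]).

* `descentIso_holds` : the body of `Plan.DescentIso`, no hypotheses;
* `descentIsoPlan`   : `Plan.DescentIso`;
* `descentIso_tower` : the same statement, exporting in addition the tower map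
  `f : L₀ →+* L` with `IsTower f (QuotientGroup.mk' N)` and the compatibility of the isomorphism
  with `classMap f` (so that consumers can identify `L₀` with a subfield they already have, and
  carry roots of unity down the tower).
-/

set_option autoImplicit false

open CategoryTheory
open scoped Fermat.Agent.CFT.Global

namespace Fermat.Agent.CFT.Global.DescentIso

open Fermat.Agent.CFT Fermat.Agent.CFT.Global

/-- **[E5] Galois descent as an isomorphism of `G ⧸ N`-modules** (unconditional): `C_L^N` is the
idele class module of a Galois pair `(G ⧸ N, L₀)`, `L₀` the fixed field of `N`. -/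
theorem descentIso_holds :
    ∀ (G L : Type) [Group G] [Fintype G] [Field L] [NumberField L] [MulSemiringAction G L]
      [FaithfulSMul G L] (N : Subgroup G) [N.Normal],
      ∃ (L₀ : Type) (_ : Field L₀) (_ : NumberField L₀) (_ : MulSemiringAction (G ⧸ N) L₀),
        FaithfulSMul (G ⧸ N) L₀ ∧
          Nonempty ((classRep G L).quotientToInvariants N ≅ classRep (G ⧸ N) L₀) :=
  descentIso ClassDescent.classDescent

/-- **[E5]** in the vocabulary of the global plan. -/
theorem descentIsoPlan : Plan.DescentIso := descentIso_holds

/-- **[E5] with the tower map.**  For a Galois pair `(G, L)` and a normal subgroup `N`, the fixed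
field `L₀` of `N` with its `G ⧸ N`-action is a Galois pair, the inclusion `f : L₀ →+* L` is a
tower datum over `G → G ⧸ N`, and there is an isomorphism of `G ⧸ N`-modules
`C_L^N ≅ C_{L₀}` whose inverse is `classMap f`. -/
theorem descentIso_tower (G L : Type) [Group G] [Fintype G] [Field L] [NumberField L]
    [MulSemiringAction G L] [FaithfulSMul G L] (N : Subgroup G) [N.Normal] :
    ∃ (L₀ : Type) (_ : Field L₀) (_ : NumberField L₀) (_ : MulSemiringAction (G ⧸ N) L₀)
      (f : L₀ →+* L),
      FaithfulSMul (G ⧸ N) L₀ ∧ IsTower f (QuotientGroup.mk' N) ∧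
        (∀ y : L, (∀ n ∈ N, n • y = y) ↔ y ∈ f.range) ∧
        ∃ e : (classRep G L).quotientToInvariants N ≅ classRep (G ⧸ N) L₀,
          ∀ y : ↥(Representation.invariants ((classRep G L).ρ.comp N.subtype)),
            classMap f (e.hom.hom y) = y.1 := by
  let _ := fixAct G L N
  refine ⟨Fix G L N, inferInstance, numberField_fix G L N, fixAct G L N,
    (FixedPoints.subfield N L).subtype, faithful_fixAct G L N, isTower_fix G L N, ?_, ?_⟩
  · intro y
    constructor
    · intro hy
      exact ⟨⟨y, fun n => hy n n.2⟩, rfl⟩
    · rintro ⟨x, rfl⟩ n hn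
      exact x.2 ⟨n, hn⟩
  obtain ⟨hinj, hsurj, heq⟩ := ClassDescent.classDescent (Fix G L N) L (G ⧸ N) G
    (FixedPoints.subfield N L).subtype (QuotientGroup.mk' N) (isTower_fix G L N)
  have hinv : ∀ x : ClassGroupOf (Fix G L N),
      classMap (FixedPoints.subfield N L).subtype x ∈
        Representation.invariants ((classRep G L).ρ.comp N.subtype) := by
    intro x n
    show (classRep G L).ρ (n : G) (classMap (FixedPoints.subfield N L).subtype x) = _
    rw [← heq]
    have h1 : (QuotientGroup.mk' N (n : G)) = 1 := (QuotientGroup.eq_one_iff _).mpr n.2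
    rw [h1, map_one]
    rfl
  let e₀ : ClassGroupOf (Fix G L N) →ₗ[ℤ]
      ↥(Representation.invariants ((classRep G L).ρ.comp N.subtype)) :=
    LinearMap.codRestrict _ (classMap (FixedPoints.subfield N L).subtype) hinv
  have he₀ : Function.Bijective e₀ := by
    refine ⟨fun a b h => hinj (congrArg Subtype.val h), ?_⟩
    rintro ⟨y, hy⟩
    obtain ⟨x, rfl⟩ := hsurj y (fun n hn => hy ⟨n, by simpa using hn⟩)
    exact ⟨x, rfl⟩
  refine ⟨(Rep.mkIso (Representation.Equiv.mk (LinearEquiv.ofBijective e₀ he₀) ?_)).symm, ?_⟩
  · intro g
    induction g using QuotientGroup.induction_on with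
    | _ g =>
    apply LinearMap.ext
    intro x
    apply Subtype.ext
    exact heq g x
  · intro y
    obtain ⟨x, rfl⟩ := he₀.2 y
    have h1 : ((Rep.mkIso (Representation.Equiv.mk (LinearEquiv.ofBijective e₀ he₀)
        (ρ := (classRep (G ⧸ N) (Fix G L N)).ρ)
        (σ := (classRep G L).ρ.quotientToInvariants N) (by
          intro g
          induction g using QuotientGroup.induction_on with
          | _ g =>
          apply LinearMap.ext
          intro x
          apply Subtype.ext
          exact heq g x))).symm.hom.hom (e₀ x)) = x :=
      (LinearEquiv.ofBijective e₀ he₀).symm_apply_apply x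
    exact congrArg (classMap (FixedPoints.subfield N L).subtype) h1

end Fermat.Agent.CFT.Global.DescentIso
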