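import Mathlib
import Fermat.Agent.CFT.Global.Defs
import Fermat.Agent.CFT.Glob.UnramReduced

set_option autoImplicit false

/-!
# Finiteness of ramification

Every number field `L` is unramified (in the sense of `Global.UnramAt`, i.e. `𝓞 L ⧸ (q)` is
reduced) at all but finitely many rational primes: `∃ S₀, UnramOutside S₀ L`.

Proof: the different ideal of `𝓞 L / ℤ` is nonzero, hence contains a nonzero integer `N`; a prime
of `𝓞 L` over `q` dividing the different contains both `q` and `N`, so `q ∣ N`.
-/

namespace Fermat.Agent.CFT.Global.UnramFinite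

open NumberField Fermat.Agent.CFT.Global

attribute [local instance] FractionRing.liftAlgebra FractionRing.isScalarTower_liftAlgebra

/-- a nonzero ideal of `𝓞 L` contains a nonzero natural number -/
theorem exists_natCast_mem (L : Type) [Field L] [NumberField L] (I : Ideal (𝓞 L)) (hI : I ≠ ⊥) :
    ∃ N : ℕ, N ≠ 0 ∧ (N : 𝓞 L) ∈ I := by
  refine ⟨Ideal.absNorm I, ?_, Ideal.absNorm_mem I⟩
  intro h
  exact hI (Ideal.absNorm_eq_zero_iff.mp h)

/-- `UnramOutside` is monotone in the set of primes. -/
theorem unramOutside_mono {S T : Finset Nat.Primes} (h : S ⊆ T) (L : Type) [Field L]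
    [NumberField L] (hS : UnramOutside S L) : UnramOutside T L :=
  fun q hq => hS q (fun hqS => hq (h hqS))

/-- **Finiteness of ramification**: a rational prime `q` not dividing `N`, where `N ≠ 0` is an
integer in the different of `𝓞 L / ℤ`, is unramified in `L`. -/
theorem unramAt_of_not_dvd (L : Type) [Field L] [NumberField L] (N : ℕ)
    (hN : (N : 𝓞 L) ∈ differentIdeal ℤ (𝓞 L)) (q : ℕ) (hq : q.Prime) (hqN : ¬ q ∣ N) :
    UnramAt L q := by
  unfold UnramAt
  rw [Fermat.Agent.CFT.Glob.UnramReduced.isReduced_quotient_span_iff L q hq]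
  intro P hP hqP hdvd
  have hNP : (N : 𝓞 L) ∈ P := (Ideal.dvd_iff_le.mp hdvd) hN
  have hcop : IsCoprime (q : ℤ) (N : ℤ) :=
    Nat.isCoprime_iff_coprime.mpr ((Nat.Prime.coprime_iff_not_dvd hq).mpr hqN)
  obtain ⟨a, b, hab⟩ := hcop
  have h1 : ((a * q + b * N : ℤ) : 𝓞 L) ∈ P := by
    push_cast
    exact P.add_mem (P.mul_mem_left _ hqP) (P.mul_mem_left _ hNP)
  rw [hab] at h1
  exact hP.ne_top ((Ideal.eq_top_iff_one _).mpr (by simpa using h1))

/-- **Finiteness of ramification**: every number field is unramified outside a finite set of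
rational primes. -/
theorem exists_unramOutside (L : Type) [Field L] [NumberField L] :
    ∃ S₀ : Finset Nat.Primes, UnramOutside S₀ L := by
  obtain ⟨N, hN0, hN⟩ := exists_natCast_mem L (differentIdeal ℤ (𝓞 L)) differentIdeal_ne_bot
  have hfin : {q : Nat.Primes | (q : ℕ) ∣ N}.Finite := by
    have h1 : {q : Nat.Primes | (q : ℕ) ∣ N} ⊆ (fun q : Nat.Primes => (q : ℕ)) ⁻¹' (Set.Iic N) :=
      fun q hq => Nat.le_of_dvd (Nat.pos_of_ne_zero hN0) hq
    exact ((Set.finite_Iic N).preimage (fun a _ b _ h => Subtype.ext h)).subset h1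
  refine ⟨hfin.toFinset, fun q hq => ?_⟩
  apply unramAt_of_not_dvd L N hN q q.2
  intro hdvd
  exact hq (hfin.mem_toFinset.mpr hdvd)

/-- **Finiteness of ramification**, with a prescribed finite set of primes included and the
resulting set nonempty. -/
theorem exists_unramOutside_supset (L : Type) [Field L] [NumberField L]
    (T : Finset Nat.Primes) :
    ∃ S : Finset Nat.Primes, T ⊆ S ∧ S.Nonempty ∧ UnramOutside S L := by
  classical
  obtain ⟨S₀, hS₀⟩ := exists_unramOutside L
  refine ⟨insert (⟨2, Nat.prime_two⟩ : Nat.Primes) (S₀ ∪ T), ?_, Finset.insert_nonempty _ _, ?_⟩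
  · exact fun x hx => Finset.mem_insert_of_mem (Finset.mem_union_right _ hx)
  · exact unramOutside_mono
      (fun x hx => Finset.mem_insert_of_mem (Finset.mem_union_left _ hx)) L hS₀

/-- The body of the proposed Plan prop, verbatim. -/
theorem unramFinite :
    ∀ (L : Type) [Field L] [NumberField L], ∃ S₀ : Finset Nat.Primes, UnramOutside S₀ L :=
  fun L _ _ => exists_unramOutside L

end Fermat.Agent.CFT.Global.UnramFinite
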