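import Fermat.Agent.CFT.Global.SemiLocalOrbits
import Fermat.Agent.CFT.Bridge.LocComp
import Fermat.Agent.CFT.Global.UnramFinite
import Fermat.Agent.CFT.Global.ClassDescentS

/-!
# Class field theory program (P3), global layer, block D: `H¹` of the ideles

* `isZero_H1_localRep` : `H¹(G, (L ⊗[ℚ] ℚ_[q])ˣ) = 0` (Hilbert 90 for the semilocal algebra);
* `sIdeleH1` [D2] : `H¹(G, J_S(L)) = 0`;
* `ideleH1` [D1] : `H¹(G, J_L) = 0`, from `H¹(G, U_q(L)) = 0` at the unramified primes.
-/

set_option autoImplicit false

open scoped TensorProduct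
open CategoryTheory

namespace Fermat.Agent.CFT.Global.IdeleH1

open Fermat.Agent.CFT.Global
open scoped Fermat.Agent.CFT.Global

/-- `H¹(G, A) = 0` as soon as every `1`-cocycle is a coboundary (explicit form). -/
theorem isZero_H1_of_forall {G : Type} [Group G] (A : Rep ℤ G)
    (h : ∀ f : G → A, (∀ g h : G, f (g * h) = A.ρ g (f h) + f g) →
      ∃ x : A, ∀ g : G, A.ρ g x - x = f g) :
    Limits.IsZero (groupCohomology A 1) := by
  have h0 : ∀ a : groupCohomology.H1 A, a = 0 := by
    intro a
    induction a using groupCohomology.H1_induction_on with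
    | h x =>
      rw [groupCohomology.H1π_eq_zero_iff]
      obtain ⟨y, hy⟩ := h x ((groupCohomology.mem_cocycles₁_iff (x : G → A)).1 x.2)
      exact ⟨y, funext fun g => hy g⟩
  rw [ModuleCat.isZero_iff_subsingleton]
  exact ⟨fun a b => by rw [h0 a, h0 b]⟩

section

variable (G L : Type) [Group G] [Fintype G] [Field L] [NumberField L] [MulSemiringAction G L]
  [FaithfulSMul G L]

/-- **Hilbert 90 for the semilocal algebra**: `H¹(G, (L ⊗[ℚ] ℚ_[q])ˣ) = 0`. -/
theorem isZero_H1_localRep (q : ℕ) [Fact q.Prime] :
    Limits.IsZero (groupCohomology (localRep G L q) 1) :=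
  SemiLocalOrbits.isZero_localRep G L q 1
    (fun m hm => Bridge.LocComp.locH1 SemiLocalGalois.locFaithful G L q m hm)

end

/-- **[D2]** `H¹(G, J_S(L)) = 0` (body of `Plan.SIdeleH1`). -/
theorem sIdeleH1 : ∀ (G L : Type) [Group G] [Fintype G] [Field L] [NumberField L]
    [MulSemiringAction G L] [FaithfulSMul G L] (S : Finset Nat.Primes),
    Limits.IsZero (groupCohomology (sIdeleRep G L S) 1) := by
  intro G L _ _ _ _ _ _ S
  exact SemiLocalOrbits.isZero_sIdeleRep G L S 1
    (fun q _ m hm => Bridge.LocComp.locH1 SemiLocalGalois.locFaithful G L q m hm)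

/-- **[D1]** `H¹(G, J_L) = 0` (body of `Plan.IdeleH1`), from the vanishing of `H¹(G, U_q(L))` at
the unramified primes. -/
theorem ideleH1 (hU : ClassDescentS.LocUnitsH1) :
    ∀ (G L : Type) [Group G] [Fintype G] [Field L] [NumberField L]
    [MulSemiringAction G L] [FaithfulSMul G L],
    Limits.IsZero (groupCohomology (ideleRep G L) 1) := by
  intro G L _ _ _ _ _ _
  classical
  apply isZero_H1_of_forall
  intro f hf
  obtain ⟨S₀, hS₀⟩ := UnramFinite.exists_unramOutside L
  -- the components of the cocycle
  let c : G → IdeleProd L := fun g => Additive.toMul (f g).1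
  have hc : ∀ g, c g ∈ finIdele L := fun g => (f g).2
  have hcoc : ∀ (g h : G) (q : Nat.Primes), c (g * h) q = g • c h q * c g q := fun g h q =>
    congrFun (congrArg (fun z : ↥(addSub (finIdele L)) => (Additive.toMul z.1 : IdeleProd L))
      (hf g h)) q
  -- every component is a coboundary
  have hloc : ∀ q : Nat.Primes, ∃ y : (SemiLocal L q)ˣ, ∀ g : G, g • y / y = c g q := by
    intro q
    obtain ⟨y, hy⟩ := ClassDescentS.exists_of_isZero_H1 (localRep G L q)
      (isZero_H1_localRep G L q) (fun g => Additive.ofMul (c g q))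
      (fun g h => congrArg Additive.ofMul (hcoc g h q))
    exact ⟨Additive.toMul y, fun g => hy g⟩
  -- at the unramified primes where the cocycle is unit-valued, it is a coboundary of a unit
  have hunit : ∀ q : Nat.Primes, UnramAt L q → (∀ g : G, c g q ∈ localUnits L q) →
      ∃ y ∈ localUnits L q, ∀ g : G, g • y / y = c g q := by
    intro q hq hcq
    obtain ⟨y, hy⟩ := ClassDescentS.exists_of_isZero_H1 (localUnitsRep G L q)
      (hU G L q hq) (fun g => (⟨Additive.ofMul (c g q), hcq g⟩ : ↥(addSub (localUnits L q))))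
      (fun g h => Subtype.ext (congrArg Additive.ofMul (hcoc g h q)))
    exact ⟨Additive.toMul y.1, y.2, fun g => congrArg
      (fun z : ↥(addSub (localUnits L q)) => (Additive.toMul z.1 : (SemiLocal L q)ˣ)) (hy g)⟩
  choose y hy using hloc
  let good : Nat.Primes → Prop := fun q => UnramAt L q ∧ ∀ g : G, c g q ∈ localUnits L q
  have hgood : ∀ q, good q → ∃ y ∈ localUnits L q, ∀ g : G, g • y / y = c g q :=
    fun q h => hunit q h.1 h.2
  let x : IdeleProd L := fun q => if h : good q then (hgood q h).choose else y q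
  have hx1 : ∀ (q : Nat.Primes) (g : G), g • x q / x q = c g q := by
    intro q g
    by_cases h : good q
    · have e : x q = (hgood q h).choose := dif_pos h
      rw [e]
      exact (hgood q h).choose_spec.2 g
    · have e : x q = y q := dif_neg h
      rw [e]
      exact hy q g
  have hx2 : x ∈ finIdele L := by
    have hfin : ((S₀ : Set Nat.Primes) ∪
        ⋃ g : G, {q : Nat.Primes | c g q ∉ localUnits L q}).Finite :=
      S₀.finite_toSet.union (Set.finite_iUnion fun g => hc g)
    refine hfin.subset ?_
    intro q hq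
    by_contra hno
    apply hq
    have hg : good q := ⟨hS₀ q (fun h => hno (Or.inl h)),
      fun g => by_contra fun h => hno (Or.inr (Set.mem_iUnion.2 ⟨g, h⟩))⟩
    have e : x q = (hgood q hg).choose := dif_pos hg
    rw [e]
    exact (hgood q hg).choose_spec.1
  refine ⟨⟨Additive.ofMul x, hx2⟩, fun g => ?_⟩
  apply Subtype.ext
  have h3 : (g • x / x : IdeleProd L) = c g := funext fun q => hx1 q g
  exact congrArg Additive.ofMul h3

end Fermat.Agent.CFT.Global.IdeleH1
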