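import Mathlib
import Fermat.Agent.CFT.Global.FIUnits
import Fermat.Agent.CFT.Global.QBridgeDefs

/-!
# Global layer, leaf [C4]: the Herbrand quotient of the local units is `1`

For a finite cyclic group `G` acting faithfully on a number field `L` and every rational prime
`q` (ramified or not), the `G`-module `U_q(L) = localUnits L q` (vocabulary of `Global/Defs`)
has finite Tate groups and Herbrand quotient `1`.

Same proof as `FIUnits.unitsTrivial`: a normal basis of `L / L^G` and its trace-dual give normal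
lattice data on the maximal order of `L ⊗ ℚ_q`, which is `q`-adically complete with finite
quotients, and `Local/UnitsLattice.units_herbrand` applies.
-/

open scoped BigOperators

noncomputable section

set_option linter.style.haveILetI false
set_option linter.unusedVariables false

namespace Fermat.Agent.CFT.Global.LocUnitsHerbrand

open TensorProduct NumberField
open Fermat.Agent.CFT.Global Fermat.Agent.CFT.Global.QBridge Fermat.Agent.CFT.Herbrand
open Fermat.Agent.CFT.Local.NormIndex (NormalLatticeData unitAct unitAct_mul dA nA dA_apply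
  nA_apply dU_apply nU_apply units_herbrand)
open scoped Fermat.Agent.CFT.Global

section Field

variable (G L : Type) [Group G] [Fintype G] [Field L] [MulSemiringAction G L] [FaithfulSMul G L]

/-- Trace-dual pair for a finite group acting faithfully on a field. -/
theorem exists_trace_dual_smul :
    ∃ (θ : L) (y : G → L),
      (∀ g : G, ∑ h : G, h • (g • θ * y g) = 1) ∧
      (∀ g g' : G, g ≠ g' → ∑ h : G, h • (g • θ * y g') = 0) ∧
      (∀ x : L, x = ∑ g : G, (∑ h : G, h • (x * y g)) * g • θ) := by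
  obtain ⟨θ, y, h1, h0, hx⟩ := FIUnits.exists_trace_dual (FixedPoints.subfield G L) L
  let e : G ≃* (L ≃ₐ[FixedPoints.subfield G L] L) := FixedPoints.toAlgAutMulEquiv G L
  have he : ∀ (g : G) (x : L), e g x = g • x := fun g x => rfl
  have hsum : ∀ z : L, ∑ h : G, h • z = ∑ h : L ≃ₐ[FixedPoints.subfield G L] L, h z :=
    fun z => Fintype.sum_equiv e.toEquiv _ _ (fun h => (he h z).symm)
  refine ⟨θ, fun g => y (e g), ?_, ?_, ?_⟩
  · intro g
    rw [hsum, ← he]
    exact h1 (e g)
  · intro g g' hgg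
    rw [hsum, ← he]
    exact h0 (e g) (e g') (fun h => hgg (e.injective h))
  · intro x
    conv_lhs => rw [hx x]
    refine (Fintype.sum_equiv e.toEquiv _ _ (fun g => ?_)).symm
    rw [hsum, ← he]
    rfl

end Field

section Tensor

variable (G L : Type) [Group G] [Fintype G] [Field L] [CharZero L] [MulSemiringAction G L]
  (q : ℕ) [Fact q.Prime]

theorem sum_smul_tmul (x : L) (c : ℚ_[q]) :
    ∑ h : G, h • (x ⊗ₜ[ℚ] c : SemiLocal L q) = (∑ h : G, h • x) ⊗ₜ[ℚ] c := by
  simp_rw [smul_tmul_eq]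
  rw [TensorProduct.sum_tmul]

theorem dual_tmul_one (θ : L) (y : G → L) (g g' : G) :
    ∑ h : G, h • (g • (θ ⊗ₜ[ℚ] (1 : ℚ_[q]) : SemiLocal L q) * (y g' ⊗ₜ[ℚ] (1 : ℚ_[q]))) =
      (∑ h : G, h • (g • θ * y g')) ⊗ₜ[ℚ] (1 : ℚ_[q]) := by
  rw [smul_tmul_eq, Algebra.TensorProduct.tmul_mul_tmul, mul_one, sum_smul_tmul]

theorem dual_expand (θ : L) (y : G → L)
    (hx : ∀ x : L, x = ∑ g : G, (∑ h : G, h • (x * y g)) * g • θ) (x : SemiLocal L q) :
    x = ∑ g : G, (∑ h : G, h • (x * (y g ⊗ₜ[ℚ] (1 : ℚ_[q])))) *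
      g • (θ ⊗ₜ[ℚ] (1 : ℚ_[q]) : SemiLocal L q) := by
  induction x using TensorProduct.induction_on with
  | zero => simp
  | tmul n c =>
    have : ∀ g : G, (∑ h : G, h • ((n ⊗ₜ[ℚ] c : SemiLocal L q) * (y g ⊗ₜ[ℚ] (1 : ℚ_[q])))) *
          g • (θ ⊗ₜ[ℚ] (1 : ℚ_[q]) : SemiLocal L q) =
        ((∑ h : G, h • (n * y g)) * g • θ) ⊗ₜ[ℚ] c := by
      intro g
      rw [Algebra.TensorProduct.tmul_mul_tmul, mul_one, sum_smul_tmul, smul_tmul_eq,
        Algebra.TensorProduct.tmul_mul_tmul, mul_one]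
    simp_rw [this]
    rw [← TensorProduct.sum_tmul, ← hx n]
  | add a b ha hb =>
    conv_lhs => rw [ha, hb]
    rw [← Finset.sum_add_distrib]
    refine Finset.sum_congr rfl fun g _ => ?_
    rw [← add_mul, ← Finset.sum_add_distrib]
    congr 1
    refine Finset.sum_congr rfl fun h _ => ?_
    rw [add_mul, smul_add]

end Tensor

section Main

variable (G L : Type) [Group G] [Fintype G] [IsCyclic G] [Field L] [NumberField L]
  [MulSemiringAction G L] [FaithfulSMul G L] (q : ℕ) [Fact q.Prime]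

/-- **[C4]** The Herbrand quotient of the local units is `1` (cyclic `G`, every prime). -/
theorem locUnitsHerbrand :
    IsFinH (ofRepresentation (localUnitsRep G L q).ρ) ∧
      herbrand (ofRepresentation (localUnitsRep G L q).ρ) = 1 := by
  classical
  haveI : IsInvariantSubring G (maxOrder q L) :=
    ⟨fun g x hx => (isInt_iff_mem_maxOrder _).1 (((isInt_iff_mem_maxOrder x).2 hx).smul g)⟩
  obtain ⟨θ, y, h1, h0, hx⟩ := exists_trace_dual_smul G L
  obtain ⟨c₀, hc₀⟩ := exists_pow_mul_mem_maxOrder (q := q) (L := L) (θ ⊗ₜ[ℚ] (1 : ℚ_[q]))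
  have hc₁ : ∃ c₁, ∀ g : G,
      ((q : ℕ) : SemiLocal L q) ^ c₁ * (y g ⊗ₜ[ℚ] (1 : ℚ_[q])) ∈ maxOrder q L := by
    choose n hn using fun g : G =>
      exists_pow_mul_mem_maxOrder (q := q) (L := L) (y g ⊗ₜ[ℚ] (1 : ℚ_[q]))
    refine ⟨∑ g, n g, fun g => ?_⟩
    have hle : n g ≤ ∑ g, n g :=
      Finset.single_le_sum (fun _ _ => Nat.zero_le _) (Finset.mem_univ g)
    obtain ⟨k, hk⟩ := Nat.exists_eq_add_of_le hle
    rw [hk, pow_add, mul_comm (_ ^ n g), mul_assoc]
    exact mul_mem (pow_mem (FIUnits.natCast_mem_maxOrder q L) k) (hn g)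
  obtain ⟨c₁, hc₁⟩ := hc₁
  have hL : NormalLatticeData G
      (⟨((q : ℕ) : SemiLocal L q), FIUnits.natCast_mem_maxOrder q L⟩ : maxOrder q L)
      ⟨_, hc₀⟩ (c₀ + c₁) :=
    FIUnits.normalLatticeData_of_dual (maxOrder q L) (FIUnits.natCast_mem_maxOrder q L)
      (fun g => map_natCast (MulSemiringAction.toRingHom G (SemiLocal L q) g) q)
      (by simpa using isUnit_natCast_pow (q := q) (L := L) 1)
      (θ ⊗ₜ[ℚ] (1 : ℚ_[q])) (fun g => y g ⊗ₜ[ℚ] (1 : ℚ_[q]))
      (fun g => by
        rw [dual_tmul_one, h1]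
        rfl)
      (fun g g' hgg => by
        rw [dual_tmul_one, h0 g g' hgg, zero_tmul])
      (fun x => dual_expand G L q θ y hx x) hc₀ hc₁
  haveI := FIUnits.order_isAdicComplete q L
  haveI := FIUnits.order_finite_quotient q L (2 * (c₀ + c₁) + 1)
  obtain ⟨σ, hσ⟩ := IsCyclic.exists_generator (α := G)
  obtain ⟨hfin, hq1⟩ := units_herbrand hL hσ
  -- the `G`-module `Rˣ` in the `ρ`-vocabulary
  let φS : G →* Monoid.End (maxOrder q L)ˣ :=
    { toFun := fun g => unitAct g
      map_one' := by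
        refine MonoidHom.ext fun u => Units.ext ?_
        show (1 : G) • (u : maxOrder q L) = u
        rw [one_smul]
      map_mul' := fun g h => MonoidHom.ext fun u => unitAct_mul g h u }
  have hd : dEnd (FI.addRho φS) σ = dA σ := AddMonoidHom.ext fun x => rfl
  have hn : nEnd (FI.addRho φS) = nA G (maxOrder q L) := by
    refine AddMonoidHom.ext fun x => ?_
    rw [nEnd_apply, nA_apply, nU_apply, ofMul_prod]
    rfl
  have hFinS : IsFinH (FI.addRho φS) := by
    rw [isFinH_iff _ hσ, hd, hn]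
    exact hfin
  have hHS : herbrand (FI.addRho φS) = 1 := by
    rw [herbrand_eq_hq _ hσ, hd, hn]
    exact hq1
  -- the equivariant isomorphism `Rˣ ≃ U_q(L)`
  let f : (maxOrder q L)ˣ →* localUnits L q :=
    (Units.map ((maxOrder q L).subtype : maxOrder q L →* SemiLocal L q)).codRestrict
      (localUnits L q) (fun u => by
        rw [mem_localUnits_iff_maxOrder]
        exact ⟨(u : maxOrder q L).2, ((u⁻¹ : (maxOrder q L)ˣ) : maxOrder q L).2⟩)
  have hf : Function.Bijective f := by
    constructor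
    · intro u v huv
      have h2 : ((f u : localUnits L q) : (SemiLocal L q)ˣ) = f v := congrArg Subtype.val huv
      exact Units.ext (Subtype.ext (congrArg Units.val h2))
    · intro v
      have hv := (mem_localUnits_iff_maxOrder (v : (SemiLocal L q)ˣ)).1 v.2
      refine ⟨⟨⟨(v : (SemiLocal L q)ˣ), hv.1⟩,
        ⟨((v : (SemiLocal L q)ˣ)⁻¹ : (SemiLocal L q)ˣ), hv.2⟩,
        Subtype.ext (v : (SemiLocal L q)ˣ).mul_inv, Subtype.ext (v : (SemiLocal L q)ˣ).inv_mul⟩, ?_⟩
      exact Subtype.ext (Units.ext rfl)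
  let e : Additive (maxOrder q L)ˣ ≃+ (localUnitsRep G L q) :=
    MulEquiv.toAdditive (MulEquiv.ofBijective f hf)
  have he : ∀ (g : G) (a : Additive (maxOrder q L)ˣ),
      e (FI.addRho φS g a) = ofRepresentation (localUnitsRep G L q).ρ g (e a) := fun g a =>
    Subtype.ext (Units.ext rfl)
  refine ⟨?_, ?_⟩
  · refine ⟨?_, ?_⟩
    · rw [← h0_congr e he]
      exact hFinS.1
    · rw [← hm1_congr e he]
      exact hFinS.2
  · rw [← herbrand_congr e he]
    exact hHS

end Main

end Fermat.Agent.CFT.Global.LocUnitsHerbrand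

end
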