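import Mathlib
import Fermat.Agent.CFT.Global.SUnitLattice

set_option autoImplicit false
set_option linter.unusedSectionVars false

namespace Fermat.Agent.CFT.Global.SUnitLattice

open NumberField IsDedekindDomain HeightOneSpectrum
open scoped nonZeroDivisors

noncomputable section

/-! ### A general index lemma -/

/-- For a surjection `φ : A → L` onto a torsion-free group, the index of `n·A` in `A` is the
product of the index of `n·A ∩ ker φ` in `ker φ` and the index of `n·L` in `L`. -/
theorem index_nsmul_of_surjective {A L : Type*} [AddCommGroup A] [AddCommGroup L] (φ : A →+ L)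
    (hφ : Function.Surjective φ) (n : ℕ) :
    (nsmulAddMonoidHom (α := A) n).range.index =
      (nsmulAddMonoidHom (α := A) n).range.relIndex φ.ker *
        (nsmulAddMonoidHom (α := L) n).range.index := by
  set R := (nsmulAddMonoidHom (α := A) n).range with hR
  have hB : φ.ker ⊔ R = (nsmulAddMonoidHom (α := L) n).range.comap φ := by
    ext x
    rw [AddSubgroup.mem_sup, AddSubgroup.mem_comap]
    constructor
    · rintro ⟨y, hy, z, ⟨a, rfl⟩, rfl⟩
      refine ⟨φ a, ?_⟩
      rw [map_add, (AddMonoidHom.mem_ker).1 hy, zero_add]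
      simp
    · rintro ⟨y, hy⟩
      obtain ⟨a, rfl⟩ := hφ y
      refine ⟨x - n • a, ?_, n • a, ⟨a, rfl⟩, by abel⟩
      rw [AddMonoidHom.mem_ker, map_sub, ← hy]
      simp
  have h1 : R.relIndex (φ.ker ⊔ R) = R.relIndex φ.ker :=
    AddSubgroup.relIndex_sup_right φ.ker R
  have h2 : R.relIndex (φ.ker ⊔ R) * (φ.ker ⊔ R).index = R.index :=
    AddSubgroup.relIndex_mul_index le_sup_right
  rw [← h2, h1, hB, AddSubgroup.index_comap_of_surjective _ hφ]

/-- If moreover `L` is torsion-free, `n·A ∩ ker φ = n·ker φ`. -/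
theorem addSubgroupOf_range_nsmul_ker {A L : Type*} [AddCommGroup A] [AddCommGroup L]
    (φ : A →+ L) (n : ℕ) (hL : ∀ x : L, n • x = 0 → x = 0) :
    (nsmulAddMonoidHom (α := A) n).range.addSubgroupOf φ.ker =
      (nsmulAddMonoidHom (α := φ.ker) n).range := by
  ext ⟨t, ht⟩
  rw [AddSubgroup.mem_addSubgroupOf]
  constructor
  · rintro ⟨a, ha⟩
    have ha' : n • a = t := ha
    have hak : a ∈ φ.ker := by
      rw [AddMonoidHom.mem_ker]
      apply hL
      rw [← map_nsmul, ha']
      exact ht
    exact ⟨⟨a, hak⟩, Subtype.ext ha'⟩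
  · rintro ⟨⟨a, hak⟩, ha⟩
    exact ⟨a, congrArg Subtype.val ha⟩


variable {K : Type*} [Field K] [NumberField K]

/-! ### The rank of the `S`-unit lattice -/

variable (K) in
/-- `Λ⁰ = logS(E_S)` as a `ℤ`-submodule of `ℝ^(∞ ⊔ S)`. -/
def lat0 (S : Finset (HeightOneSpectrum (𝓞 K))) : Submodule ℤ (Pl K S → ℝ) :=
  AddSubgroup.toIntSubmodule (logS K S).range

theorem mem_lat0 (S : Finset (HeightOneSpectrum (𝓞 K))) (x : Pl K S → ℝ) :
    x ∈ lat0 K S ↔ ∃ u : Additive (SUnits K S), logS K S u = x := Iff.rfl

instance instDiscreteLat0 (S : Finset (HeightOneSpectrum (𝓞 K))) :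
    DiscreteTopology (lat0 K S) := instDiscreteRangeLogS S

theorem lat0_le_latS (S : Finset (HeightOneSpectrum (𝓞 K))) : lat0 K S ≤ latS K S := by
  rintro _ ⟨u, rfl⟩
  exact logS_mem_latS S u

theorem finrank_latS (S : Finset (HeightOneSpectrum (𝓞 K))) :
    Module.finrank ℤ (latS K S) = Fintype.card (Pl K S) := by
  rw [ZLattice.rank ℝ (latS K S), Module.finrank_fintype_fun_eq_card]

/-- The `S`-unit lattice `logS(E_S)` is free of rank `|∞ ⊔ S| - 1` (Dirichlet's `S`-unit
theorem). -/
theorem finrank_lat0 (S : Finset (HeightOneSpectrum (𝓞 K))) :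
    Module.finrank ℤ (lat0 K S) = Fintype.card (Pl K S) - 1 := by
  set f : latS K S →ₗ[ℤ] ℤ := (degLat K S).toIntLinearMap with hf
  have hsurj : Function.Surjective f := degLat_surjective S
  set ι : lat0 K S →ₗ[ℤ] latS K S := Submodule.inclusion (lat0_le_latS S) with hι
  have hιinj : Function.Injective ι := Submodule.inclusion_injective _
  have hrange : LinearMap.range ι = LinearMap.ker f := by
    ext x
    rw [LinearMap.mem_ker]
    constructor
    · rintro ⟨y, rfl⟩
      exact (degLat_eq_zero_iff S _).2 y.2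
    · intro hx
      exact ⟨⟨x.1, (degLat_eq_zero_iff S x).1 hx⟩, Subtype.ext rfl⟩
  have h1 : Module.finrank ℤ (LinearMap.range ι) = Module.finrank ℤ (lat0 K S) :=
    LinearMap.finrank_range_of_inj hιinj
  have h2 := Submodule.finrank_quotient_add_finrank (LinearMap.ker f)
  have h3 : Module.finrank ℤ (latS K S ⧸ LinearMap.ker f) = 1 := by
    rw [(f.quotKerEquivOfSurjective hsurj).finrank_eq, Module.finrank_self]
  rw [h3, ← hrange, h1, finrank_latS] at h2
  omega


/-! ### The torsion part -/

variable (K) in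
/-- `logS` with values in its image lattice. -/
def logS0 (S : Finset (HeightOneSpectrum (𝓞 K))) : Additive (SUnits K S) →+ lat0 K S :=
  (logS K S).codRestrict (lat0 K S) (fun u => ⟨u, rfl⟩)

theorem logS0_surjective (S : Finset (HeightOneSpectrum (𝓞 K))) :
    Function.Surjective (logS0 K S) := by
  rintro ⟨_, u, rfl⟩
  exact ⟨u, rfl⟩

theorem logS0_ker (S : Finset (HeightOneSpectrum (𝓞 K))) : (logS0 K S).ker = (logS K S).ker := by
  ext u
  rw [AddMonoidHom.mem_ker, AddMonoidHom.mem_ker]
  constructor
  · intro h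
    exact congrArg Subtype.val h
  · intro h
    exact Subtype.ext h

variable (K) in
/-- The roots of unity, as the kernel of `logS`. -/
def torsionToKer (S : Finset (HeightOneSpectrum (𝓞 K))) :
    Additive (NumberField.Units.torsion K) →+ (logS K S).ker where
  toFun ζ := ⟨Additive.ofMul (ofUnit K S (Additive.toMul ζ).1),
    (logS_eq_zero_iff S _).2 ⟨_, (Additive.toMul ζ).2, rfl⟩⟩
  map_zero' := by
    apply Subtype.ext
    simp
  map_add' ζ ζ' := by
    apply Subtype.ext
    simp

theorem torsionToKer_bijective (S : Finset (HeightOneSpectrum (𝓞 K))) :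
    Function.Bijective (torsionToKer K S) := by
  constructor
  · intro ζ ζ' h
    have h1 := congrArg Subtype.val h
    have h2 : ofUnit K S (Additive.toMul ζ).1 = ofUnit K S (Additive.toMul ζ').1 := h1
    have h3 := ofUnit_injective S h2
    exact Additive.toMul.injective (Subtype.ext h3)
  · rintro ⟨u, hu⟩
    obtain ⟨u, rfl⟩ := Additive.ofMul.surjective u
    obtain ⟨ε, hε, rfl⟩ := (logS_eq_zero_iff S u).1 hu
    exact ⟨Additive.ofMul ⟨ε, hε⟩, rfl⟩

instance instIsAddCyclicKerLogS (S : Finset (HeightOneSpectrum (𝓞 K))) :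
    IsAddCyclic (logS K S).ker :=
  isAddCyclic_of_surjective (torsionToKer K S) (torsionToKer_bijective S).2

instance instFiniteKerLogS (S : Finset (HeightOneSpectrum (𝓞 K))) : Finite (logS K S).ker :=
  finite_ker_logS S

theorem card_ker_logS (S : Finset (HeightOneSpectrum (𝓞 K))) :
    Nat.card (logS K S).ker = NumberField.Units.torsionOrder K := by
  rw [NumberField.Units.torsionOrder]
  exact (Nat.card_congr (Equiv.ofBijective _ (torsionToKer_bijective S))).symm.trans
    (Nat.card_congr Additive.toMul)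

/-! ### The index of the `n`-th powers -/

/-- **Index of the `n`-th powers in the `S`-units** (additive form):
`[E_S : E_S^n] = gcd(|μ(K)|, n) · n ^ (|∞ ⊔ S| - 1)`. -/
theorem index_range_nsmul_sunits (S : Finset (HeightOneSpectrum (𝓞 K))) (n : ℕ) (hn : n ≠ 0) :
    (nsmulAddMonoidHom (α := Additive (SUnits K S)) n).range.index =
      (NumberField.Units.torsionOrder K).gcd n * n ^ (Fintype.card (Pl K S) - 1) := by
  rw [index_nsmul_of_surjective (logS0 K S) (logS0_surjective S) n,
    AddSubgroup.index_range_nsmul, finrank_lat0, AddSubgroup.relIndex,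
    addSubgroupOf_range_nsmul_ker (logS0 K S) n]
  · congr 1
    have h := logS0_ker S
    have key : ∀ (T : AddSubgroup (Additive (SUnits K S))) (_ : T = (logS K S).ker),
        (nsmulAddMonoidHom (α := T) n).range.index =
          (NumberField.Units.torsionOrder K).gcd n := by
      intro T hT
      subst hT
      rw [IsAddCyclic.index_nsmulAddMonoidHom_range, card_ker_logS]
    exact key _ h
  · intro x hx
    have h1 : n • (x : Pl K S → ℝ) = 0 := by
      have := congrArg Subtype.val hx
      simpa using this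
    have h2 : (n : ℝ) • (x : Pl K S → ℝ) = 0 := by
      rw [← h1]
      exact (Nat.cast_smul_eq_nsmul ℝ n _)
    have hn' : (n : ℝ) ≠ 0 := by exact_mod_cast hn
    exact Subtype.ext ((smul_eq_zero.1 h2).resolve_left hn')

/-- **Index of the `n`-th powers in the `S`-units** (multiplicative form). -/
theorem index_range_pow_sunits (S : Finset (HeightOneSpectrum (𝓞 K))) (n : ℕ) (hn : n ≠ 0) :
    (powMonoidHom n : SUnits K S →* SUnits K S).range.index =
      (NumberField.Units.torsionOrder K).gcd n * n ^ (Fintype.card (Pl K S) - 1) := by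
  rw [← index_range_nsmul_sunits S n hn]
  rfl

/-- If `K` contains a primitive `p`-th root of unity (`p` prime), then
`[E_S : E_S^p] = p ^ |∞ ⊔ S|`. -/
theorem index_range_pow_sunits_of_primitiveRoot (S : Finset (HeightOneSpectrum (𝓞 K))) (p : ℕ)
    (hp : p.Prime) (hζ : p ∣ NumberField.Units.torsionOrder K) :
    (powMonoidHom p : SUnits K S →* SUnits K S).range.index = p ^ Fintype.card (Pl K S) := by
  rw [index_range_pow_sunits S p hp.ne_zero, Nat.gcd_eq_right hζ, ← pow_succ']
  congr 1
  have : 0 < Fintype.card (Pl K S) := Fintype.card_pos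
  omega

/-- If `K` contains no primitive `p`-th root of unity (`p` prime), then
`[E_S : E_S^p] = p ^ (|∞ ⊔ S| - 1)`. -/
theorem index_range_pow_sunits_of_not_dvd (S : Finset (HeightOneSpectrum (𝓞 K))) (p : ℕ)
    (hp : p.Prime) (hζ : ¬ p ∣ NumberField.Units.torsionOrder K) :
    (powMonoidHom p : SUnits K S →* SUnits K S).range.index =
      p ^ (Fintype.card (Pl K S) - 1) := by
  rw [index_range_pow_sunits S p hp.ne_zero,
    Nat.Coprime.gcd_eq_one ((Nat.Prime.coprime_iff_not_dvd hp).2 hζ).symm, one_mul]


/-- If `K` contains a primitive `p`-th root of unity `ζ` (`p` prime), then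
`[E_S : E_S^p] = p ^ |∞ ⊔ S|` (the count used in the Kummer proof of the second inequality). -/
theorem index_range_pow_sunits_of_isPrimitiveRoot (S : Finset (HeightOneSpectrum (𝓞 K))) (p : ℕ)
    (hp : p.Prime) {ζ : K} (hζ : IsPrimitiveRoot ζ p) :
    (powMonoidHom p : SUnits K S →* SUnits K S).range.index = p ^ Fintype.card (Pl K S) := by
  have : NeZero p := ⟨hp.ne_zero⟩
  exact index_range_pow_sunits_of_primitiveRoot S p hp
    (NumberField.Units.dvd_torsionOrder_of_isPrimitiveRoot hζ)

theorem card_pl (S : Finset (HeightOneSpectrum (𝓞 K))) :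
    Fintype.card (Pl K S) = Fintype.card (InfinitePlace K) + S.card := by
  rw [Fintype.card_sum, Fintype.card_coe]

end

end Fermat.Agent.CFT.Global.SUnitLattice
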