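import Mathlib
import Fermat.Agent.CFT.Global.SUnitLattice
import Fermat.Agent.CFT.Global.SUnitMore
import Fermat.Agent.CFT.Global.SUnitIndex
import Fermat.Agent.CFT.Global.QBridge

set_option autoImplicit false
set_option linter.unusedSectionVars false

namespace Fermat.Agent.CFT.Global.SUnitRat

open NumberField IsDedekindDomain HeightOneSpectrum
open Fermat.Agent.CFT.Global.SUnitLattice Fermat.Agent.CFT.Global.QBridge

noncomputable section

variable {K : Type*} [Field K] [NumberField K]

/-! ### The primes of `𝓞 K` above a finite set of rational primes -/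

/-- Only finitely many primes of `𝓞 K` contain a given nonzero integer. -/
theorem finite_primesOver (q : ℕ) (hq : q ≠ 0) :
    {w : HeightOneSpectrum (𝓞 K) | (q : 𝓞 K) ∈ w.asIdeal}.Finite := by
  have hI : Ideal.span {(q : 𝓞 K)} ≠ 0 := by
    rw [Ne, Ideal.zero_eq_bot, Ideal.span_singleton_eq_bot]
    exact_mod_cast hq
  refine (Ideal.finite_factors hI).subset ?_
  intro w hw
  exact (Ideal.dvd_span_singleton).2 hw

theorem finite_primesAbove (S : Finset ℕ) : (primesAbove K (S : Set ℕ)).Finite := by
  have h : primesAbove K (S : Set ℕ) ⊆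
      ⋃ q ∈ (S : Set ℕ), {w : HeightOneSpectrum (𝓞 K) | q.Prime ∧ (q : 𝓞 K) ∈ w.asIdeal} := by
    rintro w ⟨q, hqS, hq, hqw⟩
    exact Set.mem_biUnion hqS ⟨hq, hqw⟩
  refine (Set.Finite.biUnion S.finite_toSet (fun q _ => ?_)).subset h
  by_cases hq : q.Prime
  · exact (finite_primesOver q hq.ne_zero).subset (fun w hw => hw.2)
  · convert Set.finite_empty
    ext w
    simp [hq]

variable (K) in
/-- The finite set of primes of `𝓞 K` above the rational primes in `S`. -/
def primesAboveFinset (S : Finset ℕ) : Finset (HeightOneSpectrum (𝓞 K)) :=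
  (finite_primesAbove (K := K) S).toFinset

@[simp] theorem coe_primesAboveFinset (S : Finset ℕ) :
    ((primesAboveFinset K S : Finset (HeightOneSpectrum (𝓞 K))) :
      Set (HeightOneSpectrum (𝓞 K))) = primesAbove K (S : Set ℕ) :=
  Set.Finite.coe_toFinset _

theorem mem_primesAboveFinset (S : Finset ℕ) (w : HeightOneSpectrum (𝓞 K)) :
    w ∈ primesAboveFinset K S ↔ ∃ q ∈ S, q.Prime ∧ (q : 𝓞 K) ∈ w.asIdeal := by
  rw [← Finset.mem_coe, coe_primesAboveFinset]
  rfl

theorem primesAboveFinset_mono {S S' : Finset ℕ} (h : S ⊆ S') :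
    primesAboveFinset K S ⊆ primesAboveFinset K S' := by
  intro w hw
  rw [mem_primesAboveFinset] at hw ⊢
  obtain ⟨q, hq, hq', hqw⟩ := hw
  exact ⟨q, h hq, hq', hqw⟩

/-- `K_S` (units outside the primes above `S`) in Mathlib's `Set.unit` vocabulary coincides with
`SUnits K (primesAboveFinset K S)`. -/
theorem sunits_primesAboveFinset (S : Finset ℕ) :
    SUnits K (primesAboveFinset K S) = (primesAbove K (S : Set ℕ)).unit K := by
  unfold SUnits
  rw [coe_primesAboveFinset]

/-- `K_S ≤ K_S'` for `S ⊆ S'`. -/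
theorem unit_primesAbove_mono {S S' : Set ℕ} (h : S ⊆ S') :
    (primesAbove K S).unit K ≤ (primesAbove K S').unit K := by
  intro x hx w hw
  refine hx w (fun hw' => hw ?_)
  obtain ⟨q, hq, hq', hqw⟩ := hw'
  exact ⟨q, h hq, hq', hqw⟩

/-- The primes above `S` are stable under every field automorphism. -/
theorem primeMap_mem_primesAboveFinset_iff (σ : K ≃+* K) (S : Finset ℕ)
    (w : HeightOneSpectrum (𝓞 K)) :
    primeMap σ w ∈ primesAboveFinset K S ↔ w ∈ primesAboveFinset K S := by
  rw [mem_primesAboveFinset, mem_primesAboveFinset]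
  have key : ∀ q : ℕ, (q : 𝓞 K) ∈ (primeMap σ w).asIdeal ↔ (q : 𝓞 K) ∈ w.asIdeal := fun q => by
    rw [mem_primeMap, map_natCast]
  simp only [key]

/-! ### The index of the `p`-th powers in `K_S` -/

theorem index_range_pow_congr {G : Type*} [CommGroup G] {H H' : Subgroup G} (h : H = H') (n : ℕ) :
    (powMonoidHom n : H →* H).range.index = (powMonoidHom n : H' →* H').range.index := by
  subst h; rfl

/-- **[L7.1], general form**: `[K_S : K_S^n] = gcd(|μ(K)|, n) · n ^ (|∞| + |primes above S| - 1)`. -/
theorem index_pow_unit_primesAbove (S : Finset ℕ) (n : ℕ) (hn : n ≠ 0) :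
    (powMonoidHom n : ((primesAbove K (S : Set ℕ)).unit K) →*
        ((primesAbove K (S : Set ℕ)).unit K)).range.index =
      (NumberField.Units.torsionOrder K).gcd n *
        n ^ (Fintype.card (InfinitePlace K) + (primesAboveFinset K S).card - 1) := by
  rw [← index_range_pow_congr (sunits_primesAboveFinset S) n,
    index_range_pow_sunits (primesAboveFinset K S) n hn, card_pl]

/-- **[L7.1]**: if `K` contains a primitive `p`-th root of unity (`p` prime), then
`[K_S : K_S^p] = p ^ (|∞| + |primes above S|)`. -/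
theorem index_pow_unit_primesAbove_of_isPrimitiveRoot (S : Finset ℕ) (p : ℕ) (hp : p.Prime)
    {ζ : K} (hζ : IsPrimitiveRoot ζ p) :
    (powMonoidHom p : ((primesAbove K (S : Set ℕ)).unit K) →*
        ((primesAbove K (S : Set ℕ)).unit K)).range.index =
      p ^ (Fintype.card (InfinitePlace K) + (primesAboveFinset K S).card) := by
  rw [← index_range_pow_congr (sunits_primesAboveFinset S) p,
    index_range_pow_sunits_of_isPrimitiveRoot (primesAboveFinset K S) p hp hζ, card_pl]

/-! ### Totally complex fields -/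

/-- A number field containing a primitive `p`-th root of unity, `p` an odd prime, is totally
complex. -/
theorem isTotallyComplex_of_isPrimitiveRoot {p : ℕ} (hp : p.Prime) (hp2 : p ≠ 2) {ζ : K}
    (hζ : IsPrimitiveRoot ζ p) : IsTotallyComplex K := by
  refine ⟨fun v => ?_⟩
  rw [← InfinitePlace.not_isReal_iff_isComplex]
  intro hv
  rw [InfinitePlace.isReal_iff] at hv
  set ψ : K →+* ℝ := hv.embedding with hψ
  have h1 : IsPrimitiveRoot (ψ ζ) p := hζ.map_of_injective ψ.injective
  have h2 : (ψ ζ) ^ p = 1 := h1.pow_eq_one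
  have hodd : Odd p := hp.odd_of_ne_two hp2
  have h3 : ψ ζ = 1 := by
    rcases pow_eq_one_iff_cases.1 h2 with h | h | ⟨_, h⟩
    · exact absurd h hp.ne_zero
    · exact h
    · exact absurd h (Nat.not_even_iff_odd.2 hodd)
  rw [h3] at h1
  have := h1.unique IsPrimitiveRoot.one
  exact hp.one_lt.ne' this

/-- For an odd prime `p` and `μ_p ⊆ K`: the number of infinite places is `[K : ℚ] / 2`. -/
theorem two_mul_card_infinitePlace {p : ℕ} (hp : p.Prime) (hp2 : p ≠ 2) {ζ : K}
    (hζ : IsPrimitiveRoot ζ p) :
    2 * Fintype.card (InfinitePlace K) = Module.finrank ℚ K := by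
  have := isTotallyComplex_of_isPrimitiveRoot hp hp2 hζ
  rw [IsTotallyComplex.finrank K, InfinitePlace.card_eq_nrRealPlaces_add_nrComplexPlaces,
    IsTotallyComplex.nrRealPlaces_eq_zero K, zero_add]


/-! ### Counting the primes above `S` prime by prime -/

variable (K) in
/-- The finite set of primes of `𝓞 K` above the rational prime `q`. -/
def primesOverFinset (q : ℕ) : Finset (HeightOneSpectrum (𝓞 K)) := primesAboveFinset K {q}

theorem mem_primesOverFinset {q : ℕ} (hq : q.Prime) (w : HeightOneSpectrum (𝓞 K)) :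
    w ∈ primesOverFinset K q ↔ (q : 𝓞 K) ∈ w.asIdeal := by
  unfold primesOverFinset
  rw [mem_primesAboveFinset]
  constructor
  · rintro ⟨q', hq', -, hw⟩
    rw [Finset.mem_singleton] at hq'
    subst hq'
    exact hw
  · intro hw
    exact ⟨q, Finset.mem_singleton_self q, hq, hw⟩

open scoped Classical in
theorem primesAboveFinset_eq_biUnion (S : Finset ℕ) (hS : ∀ q ∈ S, q.Prime) :
    primesAboveFinset K S = S.biUnion (primesOverFinset K) := by
  ext w
  rw [mem_primesAboveFinset, Finset.mem_biUnion]
  constructor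
  · rintro ⟨q, hqS, hq, hw⟩
    exact ⟨q, hqS, (mem_primesOverFinset hq w).2 hw⟩
  · rintro ⟨q, hqS, hw⟩
    exact ⟨q, hqS, hS q hqS, (mem_primesOverFinset (hS q hqS) w).1 hw⟩

open scoped Classical in
/-- The number of primes above `S` is the sum over `q ∈ S` of the number of primes above `q`. -/
theorem card_primesAboveFinset (S : Finset ℕ) (hS : ∀ q ∈ S, q.Prime) :
    (primesAboveFinset K S).card = ∑ q ∈ S, (primesOverFinset K q).card := by
  rw [primesAboveFinset_eq_biUnion S hS]
  refine Finset.card_biUnion ?_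
  intro q hq q' hq' hne
  rw [Function.onFun, Finset.disjoint_left]
  intro w hw hw'
  rw [mem_primesOverFinset (hS q hq)] at hw
  rw [mem_primesOverFinset (hS q' hq')] at hw'
  exact hne (prime_eq_of_mem w (hS q hq) (hS q' hq') hw hw')

end

end Fermat.Agent.CFT.Global.SUnitRat
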