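import Mathlib
import Fermat.Agent.CFT.Global.QBridge
import Fermat.Agent.CFT.Global.QBridgeOrder
import Fermat.Agent.CFT.Global.SUnitRat

/-!
# The class group is generated by the primes above a finite set of rational primes

`K` a number field.  Because `ClassGroup (𝓞 K)` is finite there is a finite set `baseSet K` of
rational primes such that for every finite `S ⊇ baseSet K`:

* every prime `w` of `𝓞 K` outside `S` has a "uniformizer" `a ∈ Kˣ` which is a unit at every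
  other prime outside `S` (`exists_uniformizer_outside`);
* arbitrary valuations can be prescribed at finitely many primes outside `S` by an element that is
  a unit at all the other primes outside `S` (`exists_prescribed`);
* for a rational prime `q ∉ S` and `b ∈ Kˣ` there is `a ∈ K_{S ∪ {q}}` with the same valuation as
  `b` at every prime above `q` (`exists_eq_valuation_above`);
* **[L7.7]** for a rational prime `q ∉ S`, every unit of `A_q(K) = K ⊗[ℚ] ℚ_[q]` is `a ⊗ 1` with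
  `a ∈ K_{S ∪ {q}}` times a unit of the maximal order (`exists_eq_sunit_mul_unit`,
  `exists_baseSet`).
-/

set_option autoImplicit false
set_option linter.unusedSectionVars false

namespace Fermat.Agent.CFT.Global.ClassGen

open NumberField IsDedekindDomain HeightOneSpectrum TensorProduct
open Fermat.Agent.CFT.Global.QBridge Fermat.Agent.CFT.Global.SUnitRat
open scoped nonZeroDivisors

noncomputable section

variable (K : Type*) [Field K] [NumberField K]

/-- A chosen integral ideal in each ideal class. -/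
def rep (c : ClassGroup (𝓞 K)) : (Ideal (𝓞 K))⁰ := (ClassGroup.mk0_surjective c).choose

theorem mk0_rep (c : ClassGroup (𝓞 K)) : ClassGroup.mk0 (rep K c) = c :=
  (ClassGroup.mk0_surjective c).choose_spec

theorem rep_ne_zero (c : ClassGroup (𝓞 K)) : ((rep K c : (Ideal (𝓞 K))⁰) : Ideal (𝓞 K)) ≠ 0 :=
  nonZeroDivisors.coe_ne_zero _

/-- The primes of `𝓞 K` dividing one of the chosen representatives of the ideal classes. -/
def badPrimes : Finset (HeightOneSpectrum (𝓞 K)) :=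
  (Set.finite_iUnion (fun c : ClassGroup (𝓞 K) =>
    Ideal.finite_factors (rep_ne_zero K c))).toFinset

theorem mem_badPrimes (w : HeightOneSpectrum (𝓞 K)) :
    w ∈ badPrimes K ↔ ∃ c : ClassGroup (𝓞 K), w.asIdeal ∣ (rep K c : Ideal (𝓞 K)) := by
  unfold badPrimes
  rw [Set.Finite.mem_toFinset, Set.mem_iUnion]
  rfl

open scoped Classical in
/-- A finite set of rational primes such that the primes above it generate the class group. -/
def baseSet : Finset ℕ :=
  (badPrimes K).image fun w => (exists_prime_mem w).choose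

theorem badPrimes_subset (S : Finset ℕ) (hS : baseSet K ⊆ S) :
    badPrimes K ⊆ primesAboveFinset K S := by
  classical
  intro w hw
  rw [mem_primesAboveFinset]
  refine ⟨(exists_prime_mem w).choose, hS ?_, (exists_prime_mem w).choose_spec⟩
  unfold baseSet
  exact Finset.mem_image_of_mem _ hw

variable {K}

/-- **Uniformizers outside `S`.**  For `S ⊇ baseSet K` and a prime `w` not above `S` there is
`a ∈ Kˣ` of valuation `exp (-1)` at `w` which is a unit at every other prime not above `S`. -/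
theorem exists_uniformizer_outside (S : Finset ℕ) (hS : baseSet K ⊆ S)
    (w : HeightOneSpectrum (𝓞 K)) (hw : w ∉ primesAboveFinset K S) :
    ∃ a : Kˣ, w.valuation K (a : K) = WithZero.exp (-1 : ℤ) ∧
      ∀ w' : HeightOneSpectrum (𝓞 K), w' ∉ primesAboveFinset K S → w' ≠ w →
        w'.valuation K (a : K) = 1 := by
  have hbad := badPrimes_subset K S hS
  have hwI : w.asIdeal ∈ (Ideal (𝓞 K))⁰ := mem_nonZeroDivisors_of_ne_zero w.ne_bot
  set c : ClassGroup (𝓞 K) := (ClassGroup.mk0 ⟨w.asIdeal, hwI⟩)⁻¹ with hc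
  set I : (Ideal (𝓞 K))⁰ := rep K c with hI
  have hprod : (⟨w.asIdeal, hwI⟩ * I : (Ideal (𝓞 K))⁰) = ⟨w.asIdeal * (I : Ideal (𝓞 K)),
      mul_mem hwI I.2⟩ := rfl
  have h1 : ClassGroup.mk0 ⟨w.asIdeal * (I : Ideal (𝓞 K)), mul_mem hwI I.2⟩ = 1 := by
    rw [← hprod, map_mul, hI, mk0_rep, hc, mul_inv_cancel]
  rw [ClassGroup.mk0_eq_one_iff] at h1
  obtain ⟨a, ha⟩ := h1
  have ha' : w.asIdeal * (I : Ideal (𝓞 K)) = Ideal.span {a} := ha
  have hI0 : (I : Ideal (𝓞 K)) ≠ 0 := nonZeroDivisors.coe_ne_zero _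
  have ha0 : a ≠ 0 := by
    rintro rfl
    have h2 : w.asIdeal * (I : Ideal (𝓞 K)) = ⊥ := by rw [ha']; simp
    rcases mul_eq_zero.1 h2 with h3 | h3
    · exact w.ne_bot h3
    · exact hI0 h3
  have hax : algebraMap (𝓞 K) K a ≠ 0 := by simp [ha0]
  -- `w` does not divide `I`
  have hwI' : ¬ w.asIdeal ∣ (I : Ideal (𝓞 K)) := fun h =>
    hw (hbad ((mem_badPrimes K w).2 ⟨c, h⟩))
  refine ⟨Units.mk0 (algebraMap (𝓞 K) K a) hax, ?_, ?_⟩
  · rw [Units.val_mk0]
    have e1 : w.valuation K (algebraMap (𝓞 K) K a) = w.intValuation a :=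
      w.valuation_of_algebraMap a
    rw [e1]
    have h2 : w.intValuation a ≤ WithZero.exp (-((1 : ℕ) : ℤ)) := by
      rw [intValuation_le_pow_iff_dvd, pow_one, ← ha']
      exact dvd_mul_right _ _
    have h3 : ¬ w.intValuation a ≤ WithZero.exp (-((2 : ℕ) : ℤ)) := by
      rw [intValuation_le_pow_iff_dvd, ← ha', pow_two]
      intro h
      exact hwI' ((mul_dvd_mul_iff_left (show w.asIdeal ≠ 0 from w.ne_bot)).1 h)
    rw [w.intValuation_if_neg ha0] at h2 h3 ⊢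
    rw [WithZero.exp_le_exp] at h2 h3
    congr 1
    push_cast at h2 h3 ⊢
    omega
  · intro w' hw' hne
    rw [Units.val_mk0, valuation_eq_one_iff_notMem]
    intro hmem
    have h2 : w.asIdeal * (I : Ideal (𝓞 K)) ≤ w'.asIdeal := by
      rw [ha', Ideal.span_singleton_le_iff_mem]; exact hmem
    rcases (w'.isPrime.mul_le).1 h2 with h3 | h3
    · exact hne (HeightOneSpectrum.ext (w.isMaximal.eq_of_le w'.isPrime.ne_top h3).symm)
    · exact hw' (hbad ((mem_badPrimes K w').2 ⟨c, Ideal.dvd_iff_le.2 h3⟩))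

/-- **Prescribed valuations outside `S`.**  For `S ⊇ baseSet K`, a finite set `T` of primes not
above `S` and integers `n w`, there is `a ∈ Kˣ` with valuation `exp (- n w)` at every `w ∈ T`
which is a unit at every prime outside `T` not above `S`. -/
theorem exists_prescribed (S : Finset ℕ) (hS : baseSet K ⊆ S)
    (T : Finset (HeightOneSpectrum (𝓞 K))) (hT : ∀ w ∈ T, w ∉ primesAboveFinset K S)
    (n : HeightOneSpectrum (𝓞 K) → ℤ) :
    ∃ a : Kˣ, (∀ w ∈ T, w.valuation K (a : K) = WithZero.exp (- n w)) ∧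
      ∀ w' : HeightOneSpectrum (𝓞 K), w' ∉ primesAboveFinset K S → w' ∉ T →
        w'.valuation K (a : K) = 1 := by
  classical
  induction T using Finset.induction_on with
  | empty => exact ⟨1, by simp, by simp⟩
  | insert w T hwT ih =>
    obtain ⟨a, ha1, ha2⟩ := ih (fun w' hw' => hT w' (Finset.mem_insert_of_mem hw'))
    have hw : w ∉ primesAboveFinset K S := hT w (Finset.mem_insert_self w T)
    obtain ⟨b, hb1, hb2⟩ := exists_uniformizer_outside S hS w hw
    refine ⟨a * b ^ (n w), ?_, ?_⟩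
    · intro w' hw'
      rw [Units.val_mul, Units.val_zpow_eq_zpow_val, map_mul, map_zpow₀]
      rcases Finset.mem_insert.1 hw' with rfl | hw'T
      · rw [ha2 w' hw hwT, hb1, one_mul, ← WithZero.exp_zsmul]
        congr 1
        simp
      · have hne : w' ≠ w := fun h => hwT (h ▸ hw'T)
        rw [ha1 w' hw'T, hb2 w' (hT w' hw') hne, one_zpow, mul_one]
    · intro w' hw'S hw'T
      rw [Finset.mem_insert, not_or] at hw'T
      rw [Units.val_mul, Units.val_zpow_eq_zpow_val, map_mul, map_zpow₀,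
        ha2 w' hw'S hw'T.2, hb2 w' hw'S hw'T.1, one_zpow, mul_one]

/-- The valuation of a unit is `exp` of an integer. -/
theorem valuation_unit_eq_exp (w : HeightOneSpectrum (𝓞 K)) (b : Kˣ) :
    ∃ n : ℤ, w.valuation K (b : K) = WithZero.exp (-n) := by
  have h0 : w.valuation K (b : K) ≠ 0 := (Valuation.ne_zero_iff _).2 b.ne_zero
  exact ⟨-(WithZero.log (w.valuation K (b : K))), by rw [neg_neg, WithZero.exp_log h0]⟩

/-- **`K^× = K_{S ∪ {q}} · (units at all primes above q)`** for `S ⊇ baseSet K`, `q ∉ S` prime: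
every `b ∈ Kˣ` has the same valuations at the primes above `q` as some `(S ∪ {q})`-unit `a`. -/
theorem exists_eq_valuation_above (S : Finset ℕ) (hS : baseSet K ⊆ S) {q : ℕ} (hq : q.Prime)
    (hqS : q ∉ S) (b : Kˣ) :
    ∃ a : Kˣ, a ∈ (primesAbove K ((insert q S : Finset ℕ) : Set ℕ)).unit K ∧
      ∀ w : HeightOneSpectrum (𝓞 K), (q : 𝓞 K) ∈ w.asIdeal →
        w.valuation K (a : K) = w.valuation K (b : K) := by
  classical
  have hT : ∀ w ∈ primesOverFinset K q, w ∉ primesAboveFinset K S := by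
    intro w hw hwS
    rw [mem_primesOverFinset hq] at hw
    rw [mem_primesAboveFinset] at hwS
    obtain ⟨q', hq'S, hq', hq'w⟩ := hwS
    exact hqS (prime_eq_of_mem w hq hq' hw hq'w ▸ hq'S)
  obtain ⟨a, ha1, ha2⟩ := exists_prescribed S hS (primesOverFinset K q) hT
    (fun w => (valuation_unit_eq_exp w b).choose)
  refine ⟨a, ?_, ?_⟩
  · intro w hw
    refine ha2 w ?_ ?_
    · intro hwS
      apply hw
      rw [← coe_primesAboveFinset, Finset.mem_coe]
      exact primesAboveFinset_mono (Finset.subset_insert q S) hwS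
    · intro hwq
      apply hw
      rw [mem_primesOverFinset hq] at hwq
      exact ⟨q, by simp, hq, hwq⟩
  · intro w hw
    rw [ha1 w ((mem_primesOverFinset hq w).2 hw)]
    exact ((valuation_unit_eq_exp w b).choose_spec).symm

/-! ### The semilocal form `A_q(K)ˣ = λ_q(K_{S ∪ {q}}) · U_q(K)` -/

/-- The unit `c ⊗ 1` of `K ⊗[ℚ] ℚ_[q]` attached to `c ∈ Kˣ`. -/
def tmulUnit (q : ℕ) [Fact q.Prime] (c : Kˣ) : (K ⊗[ℚ] ℚ_[q])ˣ where
  val := (c : K) ⊗ₜ[ℚ] (1 : ℚ_[q])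
  inv := ((c⁻¹ : Kˣ) : K) ⊗ₜ[ℚ] (1 : ℚ_[q])
  val_inv := by
    rw [Algebra.TensorProduct.tmul_mul_tmul, Units.mul_inv, mul_one,
      Algebra.TensorProduct.one_def]
  inv_val := by
    rw [Algebra.TensorProduct.tmul_mul_tmul, Units.inv_mul, mul_one,
      Algebra.TensorProduct.one_def]

@[simp] theorem val_tmulUnit (q : ℕ) [Fact q.Prime] (c : Kˣ) :
    ((tmulUnit q c : (K ⊗[ℚ] ℚ_[q])ˣ) : K ⊗[ℚ] ℚ_[q]) = (c : K) ⊗ₜ[ℚ] (1 : ℚ_[q]) := rfl

@[simp] theorem val_inv_tmulUnit (q : ℕ) [Fact q.Prime] (c : Kˣ) :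
    (((tmulUnit q c)⁻¹ : (K ⊗[ℚ] ℚ_[q])ˣ) : K ⊗[ℚ] ℚ_[q]) =
      ((c⁻¹ : Kˣ) : K) ⊗ₜ[ℚ] (1 : ℚ_[q]) := rfl

theorem tmulUnit_mul (q : ℕ) [Fact q.Prime] (c d : Kˣ) :
    tmulUnit q (c * d) = tmulUnit q c * tmulUnit q d := by
  ext
  simp [Algebra.TensorProduct.tmul_mul_tmul]

/-- A unit of `K` which is a unit at all primes above `q` gives a unit of the maximal order of
`K ⊗[ℚ] ℚ_[q]`. -/
theorem tmulUnit_mem_maxOrder {q : ℕ} [Fact q.Prime] (c : Kˣ)
    (hc : ∀ w : HeightOneSpectrum (𝓞 K), (q : 𝓞 K) ∈ w.asIdeal → w.valuation K (c : K) = 1) :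
    ((tmulUnit q c : (K ⊗[ℚ] ℚ_[q])ˣ) : K ⊗[ℚ] ℚ_[q]) ∈ maxOrder q K ∧
      (((tmulUnit q c)⁻¹ : (K ⊗[ℚ] ℚ_[q])ˣ) : K ⊗[ℚ] ℚ_[q]) ∈ maxOrder q K := by
  have h := (isIntegralElem_units_iff (q := q) c).2 hc
  rw [val_tmulUnit, val_inv_tmulUnit, mem_maxOrder_iff, mem_maxOrder_iff]
  exact h

/-- **[L7.7]** For `S ⊇ baseSet K` and a rational prime `q ∉ S`: every unit `x` of
`A_q(K) = K ⊗[ℚ] ℚ_[q]` is `(a ⊗ 1) * u` with `a ∈ K_{S ∪ {q}}` and `u` a unit of the maximal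
order. -/
theorem exists_eq_sunit_mul_unit (S : Finset ℕ) (hS : baseSet K ⊆ S) {q : ℕ} [Fact q.Prime]
    (hqS : q ∉ S) (x : (K ⊗[ℚ] ℚ_[q])ˣ) :
    ∃ (a : Kˣ) (u : (K ⊗[ℚ] ℚ_[q])ˣ),
      a ∈ (primesAbove K ((insert q S : Finset ℕ) : Set ℕ)).unit K ∧
      (u : K ⊗[ℚ] ℚ_[q]) ∈ maxOrder q K ∧
      ((u⁻¹ : (K ⊗[ℚ] ℚ_[q])ˣ) : K ⊗[ℚ] ℚ_[q]) ∈ maxOrder q K ∧
      (x : K ⊗[ℚ] ℚ_[q]) = ((a : K) ⊗ₜ[ℚ] (1 : ℚ_[q])) * u := by
  have hq : q.Prime := Fact.out
  obtain ⟨b, u, hu, hu', hx⟩ := exists_eq_tmul_mul_unit x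
  obtain ⟨a, haS, hav⟩ := exists_eq_valuation_above S hS hq hqS b
  have hc : ∀ w : HeightOneSpectrum (𝓞 K), (q : 𝓞 K) ∈ w.asIdeal →
      w.valuation K ((a⁻¹ * b : Kˣ) : K) = 1 := by
    intro w hw
    have h0 : w.valuation K (b : K) ≠ 0 := (Valuation.ne_zero_iff _).2 b.ne_zero
    rw [Units.val_mul, Units.val_inv_eq_inv_val, map_mul, map_inv₀, hav w hw,
      inv_mul_cancel₀ h0]
  obtain ⟨h1, h2⟩ := tmulUnit_mem_maxOrder (q := q) (a⁻¹ * b) hc
  refine ⟨a, tmulUnit q (a⁻¹ * b) * u, haS, ?_, ?_, ?_⟩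
  · rw [Units.val_mul]
    exact mul_mem h1 hu
  · rw [mul_inv_rev, Units.val_mul]
    exact mul_mem hu' h2
  · rw [hx, Units.val_mul, val_tmulUnit, ← mul_assoc, Algebra.TensorProduct.tmul_mul_tmul,
      mul_one, Units.val_mul, ← mul_assoc, Units.mul_inv, one_mul]

variable (K) in
/-- **[L7.7], existential form.**  There is a finite set `S₀` of rational primes such that for
every finite `S ⊇ S₀` and every rational prime `q ∉ S`:
`A_q(K)ˣ = λ_q(K_{S ∪ {q}}) · U_q(K)`. -/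
theorem exists_baseSet :
    ∃ S₀ : Finset ℕ, ∀ S : Finset ℕ, S₀ ⊆ S → ∀ (q : ℕ) [Fact q.Prime], q ∉ S →
      ∀ x : (K ⊗[ℚ] ℚ_[q])ˣ, ∃ (a : Kˣ) (u : (K ⊗[ℚ] ℚ_[q])ˣ),
        a ∈ (primesAbove K ((insert q S : Finset ℕ) : Set ℕ)).unit K ∧
        (u : K ⊗[ℚ] ℚ_[q]) ∈ maxOrder q K ∧
        ((u⁻¹ : (K ⊗[ℚ] ℚ_[q])ˣ) : K ⊗[ℚ] ℚ_[q]) ∈ maxOrder q K ∧
        (x : K ⊗[ℚ] ℚ_[q]) = ((a : K) ⊗ₜ[ℚ] (1 : ℚ_[q])) * u :=
  ⟨baseSet K, fun S hS _ _ hqS x => exists_eq_sunit_mul_unit S hS hqS x⟩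

end

end Fermat.Agent.CFT.Global.ClassGen
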