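import Mathlib
import Fermat.Agent.CFT.Global.L7Plan
import Fermat.Agent.CFT.Global.QBridgeOrder
import Fermat.Agent.CFT.Global.SUnitRat
import Fermat.Agent.CFT.Global.ClassGen

/-!
# L7 Plan leaves `[L7.1]` (`Plan.SUnitCount`) and `[L7.7]` (`Plan.ClassGroupS`)

Bridges from the `HeightOneSpectrum` / `Set.unit` vocabulary (`SUnitRat`, `ClassGen`) to the raw
semilocal vocabulary of `L7Defs` (`L7.sUnits K S`, `L7.Uq K q`, `L7.loc K q`, `S : Finset
Nat.Primes`).
-/

set_option autoImplicit false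
set_option linter.unusedSectionVars false

namespace Fermat.Agent.CFT.Global.SUnitPlan

open NumberField IsDedekindDomain HeightOneSpectrum TensorProduct
open Fermat.Agent.CFT.Global.QBridge Fermat.Agent.CFT.Global.SUnitRat
open Fermat.Agent.CFT.Global

noncomputable section

variable (K : Type) [Field K] [NumberField K]

/-- The underlying set of natural numbers of a finite set of primes. -/
def natSet (S : Finset Nat.Primes) : Finset ℕ := S.image (fun q : Nat.Primes => (q : ℕ))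

variable {K} in
theorem mem_natSet {S : Finset Nat.Primes} {n : ℕ} :
    n ∈ natSet S ↔ ∃ q ∈ S, (q : ℕ) = n := by
  unfold natSet
  rw [Finset.mem_image]

theorem coe_mem_natSet {S : Finset Nat.Primes} {q : Nat.Primes} :
    (q : ℕ) ∈ natSet S ↔ q ∈ S := by
  rw [mem_natSet]
  constructor
  · rintro ⟨q', hq', h⟩
    have : q' = q := Subtype.ext h
    exact this ▸ hq'
  · intro h
    exact ⟨q, h, rfl⟩

theorem natSet_insert (q : Nat.Primes) (S : Finset Nat.Primes) :
    natSet (insert q S) = insert (q : ℕ) (natSet S) := by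
  unfold natSet
  rw [Finset.image_insert]

theorem natSet_mono {S S' : Finset Nat.Primes} (h : S ⊆ S') : natSet S ⊆ natSet S' :=
  Finset.image_subset_image h

/-- `L7.Uq` in terms of the maximal order. -/
theorem mem_Uq_iff_maxOrder {q : Nat.Primes} (u : (L7.Aq K q)ˣ) :
    u ∈ L7.Uq K q ↔ (u : L7.Aq K q) ∈ maxOrder (q : ℕ) K ∧
      ((u⁻¹ : (L7.Aq K q)ˣ) : L7.Aq K q) ∈ maxOrder (q : ℕ) K := by
  rw [L7.mem_Uq, mem_maxOrder_iff, mem_maxOrder_iff]

/-- `loc K q a ∈ U_q(K)` iff `a` is a unit at all primes of `𝓞 K` above `q`. -/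
theorem loc_mem_Uq_iff (q : Nat.Primes) (a : Kˣ) :
    L7.loc K q a ∈ L7.Uq K q ↔
      ∀ w : HeightOneSpectrum (𝓞 K), ((q : ℕ) : 𝓞 K) ∈ w.asIdeal → w.valuation K (a : K) = 1 := by
  rw [L7.mem_Uq, ← isIntegralElem_units_iff (q := (q : ℕ)) a]
  rfl

/-- **The `S`-units of `L7Defs` are Mathlib's `Set.unit`** for the primes above `S`. -/
theorem sUnits_eq (S : Finset Nat.Primes) :
    L7.sUnits K S = (primesAbove K ((natSet S : Finset ℕ) : Set ℕ)).unit K := by
  ext a
  rw [L7.mem_sUnits]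
  constructor
  · intro h w hw
    obtain ⟨q, hq, hqw⟩ := exists_prime_mem w
    have hqS : (⟨q, hq⟩ : Nat.Primes) ∉ S := by
      intro hmem
      exact hw ⟨q, Finset.mem_coe.2 (mem_natSet.2 ⟨⟨q, hq⟩, hmem, rfl⟩), hq, hqw⟩
    exact (loc_mem_Uq_iff K ⟨q, hq⟩ a).1 (h _ hqS) w hqw
  · intro h q hqS
    rw [loc_mem_Uq_iff]
    intro w hw
    refine h w ?_
    rintro ⟨q', hq'S, hq', hq'w⟩
    have : (q : ℕ) = q' := prime_eq_of_mem w q.2 hq' hw hq'w
    rw [← this, Finset.mem_coe, coe_mem_natSet] at hq'S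
    exact hqS hq'S

/-- `Plan.nAbove` is the cardinality of `primesAboveFinset`. -/
theorem nAbove_eq (S : Finset Nat.Primes) :
    L7.Plan.nAbove K S = (primesAboveFinset K (natSet S)).card := by
  unfold L7.Plan.nAbove
  rw [← Nat.card_eq_finsetCard]
  refine Nat.card_congr (Equiv.subtypeEquivRight fun w => ?_)
  rw [mem_primesAboveFinset]
  constructor
  · rintro ⟨q, hq, hw⟩
    exact ⟨(q : ℕ), coe_mem_natSet.2 hq, q.2, hw⟩
  · rintro ⟨n, hn, -, hw⟩
    obtain ⟨q, hq, rfl⟩ := mem_natSet.1 hn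
    exact ⟨q, hq, hw⟩

/-- A primitive `n`-th root of unity in `K` (`n ≠ 0`) forces `n ∣ |μ(K)|`. -/
theorem dvd_torsionOrder_of_isPrimitiveRoot {n : ℕ} (hn : n ≠ 0) {ζ : K}
    (hζ : IsPrimitiveRoot ζ n) : n ∣ NumberField.Units.torsionOrder K := by
  have hn' : NeZero n := ⟨hn⟩
  have hζ0 : ζ ≠ 0 := hζ.ne_zero hn
  have hint : IsIntegral ℤ ζ := hζ.isIntegral (Nat.pos_of_ne_zero hn)
  -- the unit of `𝓞 K` attached to `ζ`
  let z : 𝓞 K := ⟨ζ, hint⟩
  have hz : IsPrimitiveRoot z n := by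
    refine IsPrimitiveRoot.of_map_of_injective (f := algebraMap (𝓞 K) K) ?_
      (RingOfIntegers.coe_injective)
    exact hζ
  have hzu : IsUnit z := hz.isUnit hn
  obtain ⟨u, hu⟩ := hzu
  have hu' : IsPrimitiveRoot u n := by
    refine IsPrimitiveRoot.of_map_of_injective (f := Units.coeHom (𝓞 K)) ?_ Units.val_injective
    rw [Units.coeHom_apply, hu]
    exact hz
  have hord : orderOf u = n := hu'.eq_orderOf.symm
  have hmem : u ∈ NumberField.Units.torsion K := by
    rw [NumberField.Units.torsion, CommGroup.mem_torsion]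
    exact isOfFinOrder_iff_pow_eq_one.2 ⟨n, Nat.pos_of_ne_zero hn, hu'.pow_eq_one⟩
  have h1 : orderOf (⟨u, hmem⟩ : NumberField.Units.torsion K) = n := by
    rw [← hord]
    exact Subgroup.orderOf_mk u hmem
  rw [← h1, NumberField.Units.torsionOrder]
  exact orderOf_dvd_natCard _

/-- **[L7.1] `Plan.SUnitCount`** (for `p ≠ 0`; the statement is false for `p = 0`, `K = ℚ`,
`S = ∅`, `ζ = 2`). -/
theorem sUnitCount (p : ℕ) (hp : p ≠ 0) : L7.Plan.SUnitCount p K := by
  intro ζ hζ S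
  rw [index_range_pow_congr (sUnits_eq K S) p, index_pow_unit_primesAbove (natSet S) p hp,
    Nat.gcd_eq_right (dvd_torsionOrder_of_isPrimitiveRoot K hp hζ), L7.Plan.sExp, nAbove_eq]
  have hpos : 0 < Fintype.card (InfinitePlace K) := Fintype.card_pos
  set m := Fintype.card (InfinitePlace K) + (primesAboveFinset K (natSet S)).card with hm
  have hm1 : m = (m - 1) + 1 := by omega
  conv_rhs => rw [hm1, pow_succ]
  ring

/-- **[L7.7] `Plan.ClassGroupS`**. -/
theorem classGroupS : L7.Plan.ClassGroupS K := by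
  classical
  refine ⟨((ClassGen.baseSet K).subtype Nat.Prime : Finset Nat.Primes), ?_⟩
  intro S hS q hqS x
  have hbase : ClassGen.baseSet K ⊆ natSet S := by
    intro n hn
    have hnp : n.Prime := by
      unfold ClassGen.baseSet at hn
      rw [Finset.mem_image] at hn
      obtain ⟨w, -, rfl⟩ := hn
      exact (exists_prime_mem w).choose_spec.1
    have h1 : (⟨n, hnp⟩ : Nat.Primes) ∈
        ((ClassGen.baseSet K).subtype Nat.Prime : Finset Nat.Primes) :=
      Finset.mem_subtype.2 hn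
    exact mem_natSet.2 ⟨⟨n, hnp⟩, hS h1, rfl⟩
  have hq' : (q : ℕ) ∉ natSet S := fun h => hqS (coe_mem_natSet.1 h)
  obtain ⟨a, u, ha, hu, hu', hx⟩ :=
    ClassGen.exists_eq_sunit_mul_unit (K := K) (natSet S) hbase (q := (q : ℕ)) hq' x
  refine ⟨a, ?_, u, (mem_Uq_iff_maxOrder K u).2 ⟨hu, hu'⟩, ?_⟩
  · rw [sUnits_eq, natSet_insert]
    exact ha
  · apply Units.ext
    rw [Units.val_mul, L7.loc_val]
    exact hx

end

end Fermat.Agent.CFT.Global.SUnitPlan
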