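import Mathlib
import Fermat.Agent.CFT.Global.L7Defs
import Fermat.Agent.CFT.Global.SUnitRat
import Fermat.Agent.CFT.Global.ClassGen
import Fermat.Agent.CFT.Global.SUnitPlan

/-!
# Descent of divisors outside `S` along a Galois extension (`[FI-A1]`)

`N / F` a finite Galois extension of number fields.  For every finite set `S` of rational primes
containing `descentSet F N` (the primes dividing the discriminant of `N` together with
`ClassGen.baseSet F`):

if `b ∈ Nˣ` has a Galois-invariant divisor outside `S` (i.e. `g b / b` is an `S`-unit of `N` for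
every `g ∈ Gal(N/F)`), then there is `c ∈ Fˣ` with `b / c` an `S`-unit of `N`.

Ingredients: the Galois group is transitive on the primes above a prime of `F`; the primes
outside `S` are unramified, so `w`-adic and `v`-adic valuations agree on `F`; every divisor of `F`
outside `S` is principal modulo `S` (`ClassGen.exists_prescribed`).
-/

set_option autoImplicit false
set_option linter.unusedSectionVars false

namespace Fermat.Agent.CFT.Global.SUnitDescent

open NumberField IsDedekindDomain HeightOneSpectrum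
open Fermat.Agent.CFT.Global.QBridge Fermat.Agent.CFT.Global.SUnitRat
open Fermat.Agent.CFT.Global.SUnitLattice
open Fermat.Agent.CFT.Global
open scoped Pointwise

noncomputable section

section Under

variable (F : Type*) {N : Type*} [Field F] [NumberField F] [Field N] [NumberField N] [Algebra F N]

/-- The prime of `𝓞 F` under a prime of `𝓞 N`. -/
def under (w : HeightOneSpectrum (𝓞 N)) : HeightOneSpectrum (𝓞 F) where
  asIdeal := w.asIdeal.under (𝓞 F)
  isPrime := inferInstance
  ne_bot := Ideal.under_ne_bot (𝓞 F) w.ne_bot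

instance liesOver_under (w : HeightOneSpectrum (𝓞 N)) :
    w.asIdeal.LiesOver (under F w).asIdeal := ⟨rfl⟩

theorem natCast_mem_under (w : HeightOneSpectrum (𝓞 N)) (q : ℕ) :
    (q : 𝓞 F) ∈ (under F w).asIdeal ↔ (q : 𝓞 N) ∈ w.asIdeal := by
  show (q : 𝓞 F) ∈ w.asIdeal.under (𝓞 F) ↔ _
  rw [Ideal.under_def, Ideal.mem_comap, map_natCast]

theorem under_mem_primesAboveFinset (S : Finset ℕ) (w : HeightOneSpectrum (𝓞 N)) :
    under F w ∈ primesAboveFinset F S ↔ w ∈ primesAboveFinset N S := by
  rw [mem_primesAboveFinset, mem_primesAboveFinset]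
  simp only [natCast_mem_under]

/-- Every prime of `𝓞 F` lies under a prime of `𝓞 N`. -/
theorem exists_under_eq (v : HeightOneSpectrum (𝓞 F)) :
    ∃ w : HeightOneSpectrum (𝓞 N), under F w = v := by
  have hmax : v.asIdeal.IsMaximal := v.isMaximal
  obtain ⟨Q, hQ, hQv⟩ := Ideal.exists_ideal_over_maximal_of_isIntegral (S := 𝓞 N) v.asIdeal
    (by
      rw [(RingHom.injective_iff_ker_eq_bot _).mp
        (FaithfulSMul.algebraMap_injective (𝓞 F) (𝓞 N))]
      exact bot_le)
  have hQ0 : Q ≠ ⊥ := by
    rintro rfl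
    apply v.ne_bot
    rw [← hQv]
    exact Ideal.comap_bot_of_injective _ (FaithfulSMul.algebraMap_injective (𝓞 F) (𝓞 N))
  exact ⟨⟨Q, hQ.isPrime, hQ0⟩, HeightOneSpectrum.ext hQv⟩

/-- Primes of `𝓞 N` above a rational prime not dividing the discriminant of `N` are unramified
over `𝓞 F`. -/
theorem ramificationIdx_under_eq_one (w : HeightOneSpectrum (𝓞 N)) {q : ℕ} (hq : q.Prime)
    (hqw : (q : 𝓞 N) ∈ w.asIdeal) (hdisc : ¬ (q : ℤ) ∣ discr N) :
    (under F w).asIdeal.ramificationIdx' w.asIdeal = 1 := by
  have h1 : Algebra.IsUnramifiedAt ℤ w.asIdeal :=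
    (NumberField.not_dvd_discr_iff_forall_mem N (𝓞 N) (Nat.prime_iff_prime_int.1 hq)).1 hdisc
      w.asIdeal w.isPrime (by exact_mod_cast hqw)
  have h2 : Algebra.IsUnramifiedAt (𝓞 F) w.asIdeal :=
    Algebra.IsUnramifiedAt.of_restrictScalars (R := ℤ) w.asIdeal
  rw [Ideal.ramificationIdx'_eq_ramificationIdx (under F w).asIdeal w.asIdeal (under F w).ne_bot]
  exact Ideal.ramificationIdx_eq_one w.asIdeal (𝓞 F)

/-- At an unramified prime `w` of `N` the `w`-adic valuation restricts to the valuation of the
prime of `F` below. -/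
theorem valuation_algebraMap_of_unramified (w : HeightOneSpectrum (𝓞 N)) {q : ℕ} (hq : q.Prime)
    (hqw : (q : 𝓞 N) ∈ w.asIdeal) (hdisc : ¬ (q : ℤ) ∣ discr N) (x : F) :
    w.valuation N (algebraMap F N x) = (under F w).valuation F x := by
  rw [← valuation_liesOver N (under F w) w x, ramificationIdx_under_eq_one F w hq hqw hdisc,
    pow_one]

theorem smul_asIdeal_eq (g : N ≃ₐ[F] N) (w : HeightOneSpectrum (𝓞 N)) :
    g • w.asIdeal = (primeMap g.toRingEquiv w).asIdeal := by
  rw [primeMap_asIdeal, Ideal.pointwise_smul_def]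
  rfl

variable [IsGalois F N] [FiniteDimensional F N]

/-- The Galois group acts transitively on the primes above a prime of the base field. -/
theorem exists_primeMap_eq_of_under_eq (w w' : HeightOneSpectrum (𝓞 N))
    (h : under F w = under F w') : ∃ g : N ≃ₐ[F] N, w' = primeMap g.toRingEquiv w := by
  have h1 : w.asIdeal.under (𝓞 F) = w'.asIdeal.under (𝓞 F) := congrArg (·.asIdeal) h
  obtain ⟨g, hg⟩ := Algebra.IsInvariant.exists_smul_of_under_eq (𝓞 F) (𝓞 N) (N ≃ₐ[F] N)
    w.asIdeal w'.asIdeal h1
  refine ⟨g, HeightOneSpectrum.ext ?_⟩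
  rw [hg, smul_asIdeal_eq]

/-- Galois conjugate primes lie over the same prime of the base field. -/
theorem under_primeMap (g : N ≃ₐ[F] N) (w : HeightOneSpectrum (𝓞 N)) :
    under F (primeMap g.toRingEquiv w) = under F w := by
  apply HeightOneSpectrum.ext
  show (primeMap g.toRingEquiv w).asIdeal.under (𝓞 F) = w.asIdeal.under (𝓞 F)
  rw [← smul_asIdeal_eq]
  ext x
  rw [Ideal.under_def, Ideal.under_def, Ideal.mem_comap, Ideal.mem_comap]
  have h1 : algebraMap (𝓞 F) (𝓞 N) x = g • algebraMap (𝓞 F) (𝓞 N) x := by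
    rw [smul_algebraMap]
  conv_lhs => rw [h1]
  exact Ideal.smul_mem_pointwise_smul_iff

end Under

section Support

variable {K : Type*} [Field K] [NumberField K]

/-- A nonzero element of a number field is a unit at all but finitely many primes. -/
theorem finite_valuation_ne_one (b : Kˣ) :
    {w : HeightOneSpectrum (𝓞 K) | w.valuation K (b : K) ≠ 1}.Finite := by
  have h1 := HeightOneSpectrum.Support.finite (𝓞 K) (b : K)
  have h2 := HeightOneSpectrum.Support.finite (𝓞 K) ((b⁻¹ : Kˣ) : K)
  refine (h1.union h2).subset ?_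
  intro w hw
  rw [Set.mem_ofPred_eq] at hw
  rcases lt_or_gt_of_ne hw with h | h
  · right
    show 1 < w.valuation K ((b⁻¹ : Kˣ) : K)
    rw [Units.val_inv_eq_inv_val, map_inv₀]
    have h0 : w.valuation K (b : K) ≠ 0 := (Valuation.ne_zero_iff _).2 b.ne_zero
    exact (one_lt_inv₀ (zero_lt_iff.2 h0)).2 h
  · left
    exact h

end Support

section Descent

variable (F N : Type*) [Field F] [NumberField F] [Field N] [NumberField N] [Algebra F N]

/-- The finite set of rational primes outside of which divisors descend: the prime divisors of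
the discriminant of `N` and `ClassGen.baseSet F`. -/
def descentSet : Finset ℕ := ClassGen.baseSet F ∪ (discr N).natAbs.primeFactors

variable {F N}

theorem not_dvd_discr_of_notMem {S : Finset ℕ} (hS : descentSet F N ⊆ S) {q : ℕ} (hq : q.Prime)
    (hqS : q ∉ S) : ¬ (q : ℤ) ∣ discr N := by
  intro h
  apply hqS
  apply hS
  unfold descentSet
  refine Finset.mem_union_right _ ?_
  rw [Nat.mem_primeFactors]
  refine ⟨hq, ?_, ?_⟩
  · exact Int.natCast_dvd.1 h
  · exact Int.natAbs_ne_zero.2 (discr_ne_zero N)

variable [IsGalois F N] [FiniteDimensional F N]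

/-- **[FI-A1], valuation form.**  For `S ⊇ descentSet F N`: if `b ∈ Nˣ` has the same valuation as
all its Galois conjugates at every prime of `N` outside `S`, then some `c ∈ Fˣ` has the same
valuation as `b` at every prime of `N` outside `S`. -/
theorem exists_base_valuation_eq (S : Finset ℕ) (hS : descentSet F N ⊆ S) (b : Nˣ)
    (hb : ∀ (g : N ≃ₐ[F] N) (w : HeightOneSpectrum (𝓞 N)), w ∉ primesAboveFinset N S →
      w.valuation N (g (b : N)) = w.valuation N (b : N)) :
    ∃ c : Fˣ, ∀ w : HeightOneSpectrum (𝓞 N), w ∉ primesAboveFinset N S →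
      w.valuation N (algebraMap F N (c : F)) = w.valuation N (b : N) := by
  classical
  have hbase : ClassGen.baseSet F ⊆ S :=
    (Finset.subset_union_left).trans hS
  -- a chosen prime of `N` over each prime of `F`
  choose ov hover using exists_under_eq F (N := N)
  -- the primes of `F` where the divisor of `b` lives
  set T₀ : Finset (HeightOneSpectrum (𝓞 N)) := (finite_valuation_ne_one b).toFinset with hT₀
  set T : Finset (HeightOneSpectrum (𝓞 F)) :=
    (T₀.filter (fun w => w ∉ primesAboveFinset N S)).image (under F) with hT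
  have hTS : ∀ v ∈ T, v ∉ primesAboveFinset F S := by
    intro v hv
    rw [hT, Finset.mem_image] at hv
    obtain ⟨w, hw, rfl⟩ := hv
    rw [Finset.mem_filter] at hw
    rw [under_mem_primesAboveFinset]
    exact hw.2
  obtain ⟨c, hc1, hc2⟩ := ClassGen.exists_prescribed S hbase T hTS
    (fun v => -(WithZero.log ((ov v).valuation N (b : N))))
  refine ⟨c, fun w hw => ?_⟩
  -- the rational prime below `w`
  obtain ⟨q, hq, hqw⟩ := exists_prime_mem w
  have hqS : q ∉ S := fun h => hw ((mem_primesAboveFinset S w).2 ⟨q, h, hq, hqw⟩)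
  rw [valuation_algebraMap_of_unramified F w hq hqw (not_dvd_discr_of_notMem hS hq hqS)]
  have hvS : under F w ∉ primesAboveFinset F S := by
    rw [under_mem_primesAboveFinset]; exact hw
  by_cases hvT : under F w ∈ T
  · rw [hc1 _ hvT, neg_neg, WithZero.exp_log ((Valuation.ne_zero_iff _).2 b.ne_zero)]
    obtain ⟨g, hg⟩ := exists_primeMap_eq_of_under_eq F (ov (under F w)) w (hover _)
    have h1 := valuation_primeMap g.toRingEquiv (ov (under F w)) (b : N)
    rw [← hg] at h1
    rw [← h1]
    exact hb g w hw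
  · rw [hc2 _ hvS hvT]
    by_contra hne
    apply hvT
    rw [hT, Finset.mem_image]
    refine ⟨w, ?_, rfl⟩
    rw [Finset.mem_filter, hT₀, Set.Finite.mem_toFinset]
    exact ⟨fun h => hne h.symm, hw⟩

/-- **[FI-A1], `Set.unit` form.** -/
theorem exists_div_mem_unit (S : Finset ℕ) (hS : descentSet F N ⊆ S) (b : Nˣ)
    (hb : ∀ g : N ≃ₐ[F] N, Units.map (g : N →* N) b / b ∈ (primesAbove N (S : Set ℕ)).unit N) :
    ∃ c : Fˣ, b / Units.map (algebraMap F N : F →* N) c ∈ (primesAbove N (S : Set ℕ)).unit N := by
  have hb' : ∀ (g : N ≃ₐ[F] N) (w : HeightOneSpectrum (𝓞 N)), w ∉ primesAboveFinset N S →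
      w.valuation N (g (b : N)) = w.valuation N (b : N) := by
    intro g w hw
    have hw' : w ∉ primesAbove N (S : Set ℕ) := by
      rw [← coe_primesAboveFinset, Finset.mem_coe]; exact hw
    have h1 : w.valuation N ((Units.map (g : N →* N) b / b : Nˣ) : N) = 1 := hb g w hw'
    have h0 : w.valuation N (b : N) ≠ 0 := (Valuation.ne_zero_iff _).2 b.ne_zero
    rw [Units.val_div_eq_div_val, map_div₀, div_eq_one_iff_eq h0] at h1
    exact h1
  obtain ⟨c, hc⟩ := exists_base_valuation_eq S hS b hb'
  refine ⟨c, fun w hw => ?_⟩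
  have hw' : w ∉ primesAboveFinset N S := by
    rw [← Finset.mem_coe, coe_primesAboveFinset]; exact hw
  have h0 : w.valuation N (b : N) ≠ 0 := (Valuation.ne_zero_iff _).2 b.ne_zero
  show w.valuation N ((b / Units.map (algebraMap F N : F →* N) c : Nˣ) : N) = 1
  rw [Units.val_div_eq_div_val, map_div₀]
  have h2 : ((Units.map (algebraMap F N : F →* N) c : Nˣ) : N) = algebraMap F N (c : F) := rfl
  rw [h2, hc w hw', div_self h0]

end Descent

section L7

variable (F N : Type) [Field F] [NumberField F] [Field N] [NumberField N] [Algebra F N]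
  [IsGalois F N] [FiniteDimensional F N]

/-- **[FI-A1], `L7Defs` vocabulary.**  There is a finite set `S₁` of primes such that for every
finite `S ⊇ S₁`: if `b ∈ Nˣ` is such that `g b / b` is an `S`-unit of `N` for every
`g ∈ Gal(N/F)`, then `b / c` is an `S`-unit of `N` for some `c ∈ Fˣ`. -/
theorem exists_descent :
    ∃ S₁ : Finset Nat.Primes, ∀ S : Finset Nat.Primes, S₁ ⊆ S → ∀ b : Nˣ,
      (∀ g : N ≃ₐ[F] N, Units.map (g : N →* N) b / b ∈ L7.sUnits N S) →
      ∃ c : Fˣ, b / Units.map (algebraMap F N : F →* N) c ∈ L7.sUnits N S := by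
  classical
  refine ⟨((descentSet F N).subtype Nat.Prime : Finset Nat.Primes), ?_⟩
  intro S hS b hb
  have hS' : descentSet F N ⊆ SUnitPlan.natSet S := by
    intro n hn
    have hnp : n.Prime := by
      unfold descentSet at hn
      rcases Finset.mem_union.1 hn with h | h
      · unfold ClassGen.baseSet at h
        rw [Finset.mem_image] at h
        obtain ⟨w, -, rfl⟩ := h
        exact (exists_prime_mem w).choose_spec.1
      · exact Nat.prime_of_mem_primeFactors h
    have h1 : (⟨n, hnp⟩ : Nat.Primes) ∈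
        ((descentSet F N).subtype Nat.Prime : Finset Nat.Primes) :=
      Finset.mem_subtype.2 hn
    exact SUnitPlan.mem_natSet.2 ⟨⟨n, hnp⟩, hS h1, rfl⟩
  simp only [SUnitPlan.sUnits_eq] at hb ⊢
  exact exists_div_mem_unit (SUnitPlan.natSet S) hS' b hb

end L7

end

end Fermat.Agent.CFT.Global.SUnitDescent
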