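import Mathlib
import Fermat.Agent.CFT.Global.FIPlan
import Fermat.Agent.CFT.Global.QBridgeDiv

/-!
# First inequality, leaf [FI-D]: the divisor module above `q` is a permutation module

`N/F` number fields, `G = N ≃ₐ[F] N`, `q` a rational prime.  The divisor map
`QBridge.divq : A_q(N)ˣ → ℤ[primes of 𝓞 N above q]` is surjective with kernel `U_q(N)` and
`G`-equivariant, so `A_q(N)ˣ / U_q(N)` is the permutation module on the `G`-set of primes of
`𝓞 N` above `q`; for `G` cyclic its Herbrand quotient is the product of the orders of the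
decomposition groups over a set of representatives of the orbits (`SignLattice.PM.hq_perm`).

Main statement: `divisorPerm : FI.Plan.DivisorPerm F N`.
-/

set_option autoImplicit false
set_option linter.style.haveILetI false
set_option linter.unusedSectionVars false
set_option warn.classDefReducibility false

noncomputable section

namespace Fermat.Agent.CFT.Global.FIDivisor

open NumberField IsDedekindDomain TensorProduct
open Fermat.Agent.CFT.Herbrand Fermat.Agent.CFT.Global.L7 Fermat.Agent.CFT.Global.FI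
open Fermat.Agent.CFT.Global.SUnitLattice (primeMap)
open Fermat.Agent.CFT.Global.SUnitHerbrand (decomp mem_decomp aut aut_algEquiv primeMap_aut_one
  primeMap_aut_mul exists_section_of_reps)
open Fermat.Agent.CFT.Global.QBridge
open Fermat.Agent.CFT.Global

attribute [local instance] Fermat.Agent.CFT.Global.SignLattice.PM.permAction

/-! ### The Herbrand quotient of a permutation module -/

section Perm

variable {G X : Type*} [Group G] [Fintype G] [Fintype X] [MulAction G X]

/-- The Herbrand quotient of the permutation module `ℤ[X]` over a finite cyclic group, in the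
vocabulary of `Coh/HerbrandCyclic`: the product of the orders of the stabilisers over a set of
representatives of the orbits. -/
theorem herbrand_perm [IsCyclic G] (R : Finset X)
    (hR₁ : ∀ x, ∃ y ∈ R, ∃ g : G, g • y = x)
    (hR₂ : ∀ y ∈ R, ∀ y' ∈ R, ∀ g : G, g • y = y' → y = y') :
    IsFinH (ofSMul G (X → ℤ)) ∧
      herbrand (ofSMul G (X → ℤ)) = ∏ x ∈ R, (Nat.card (MulAction.stabilizer G x) : ℚ) := by
  classical
  haveI : Fintype (MulAction.orbitRel.Quotient G X) := Fintype.ofFinite _
  obtain ⟨g₀, hg₀⟩ := IsCyclic.exists_generator (α := G)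
  obtain ⟨r, hr, hprod⟩ := exists_section_of_reps R hR₁ hR₂
  have key := SignLattice.PM.hq_perm r hr hg₀
  have hD : (SignLattice.D g₀ : (X → ℤ) →+ (X → ℤ)) = dEnd (ofSMul G (X → ℤ)) g₀ :=
    AddMonoidHom.ext fun a => rfl
  have hN : SignLattice.Nm G (X → ℤ) = nEnd (ofSMul G (X → ℤ)) := by
    refine AddMonoidHom.ext fun a => ?_
    rw [SignLattice.Nm_apply, nEnd_apply]
    rfl
  rw [hD, hN] at key
  refine ⟨(isFinH_iff _ hg₀).2 key.1, ?_⟩
  rw [herbrand_eq_hq _ hg₀, key.2]
  exact hprod fun x => (Nat.card (MulAction.stabilizer G x) : ℚ)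

end Perm

/-! ### The divisor module -/

section Main

variable (F N : Type) [Field F] [NumberField F] [Field N] [NumberField N] [Algebra F N]

/-- `L7.Uq` is the group of units of the maximal order. -/
theorem Uq_eq_orderUnits (q : Nat.Primes) : Uq N q = orderUnits (q : ℕ) N := by
  ext u
  rw [mem_Uq, mem_orderUnits, mem_maxOrder_iff, mem_maxOrder_iff]

/-- The action of `Gal(N/F)` on the primes of `𝓞 N` above `q` (use as a local instance). -/
@[reducible] def primesAction (q : Nat.Primes) :
    MulAction (N ≃ₐ[F] N) (PrimesOver (q : ℕ) N) where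
  smul g w := primesOverMap (q : ℕ) N (aut N g) w
  one_smul w := Subtype.ext (primeMap_aut_one w.1)
  mul_smul g h w := Subtype.ext (primeMap_aut_mul g h w.1)

attribute [local instance] primesAction

theorem coe_smul_primesOver (q : Nat.Primes) (g : N ≃ₐ[F] N) (w : PrimesOver (q : ℕ) N) :
    ((g • w : PrimesOver (q : ℕ) N) : HeightOneSpectrum (𝓞 N)) = primeMap g.toRingEquiv w.1 := by
  rw [← aut_algEquiv]
  rfl

/-- The stabiliser of a prime above `q` is its decomposition group. -/
theorem stabilizer_eq_decomp (q : Nat.Primes) (w : PrimesOver (q : ℕ) N) :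
    MulAction.stabilizer (N ≃ₐ[F] N) w = decomp (N ≃ₐ[F] N) w.1 := by
  ext g
  rw [MulAction.mem_stabilizer_iff, mem_decomp]
  constructor
  · intro h
    exact congrArg Subtype.val h
  · intro h
    exact Subtype.ext h

variable {F} in
/-- `A_q(N)ˣ / U_q(N) ≃ ℤ[primes above q]`, multiplicative form. -/
def divMulEquiv (q : Nat.Primes) :
    (Aq N q)ˣ ⧸ Uq N q ≃* Multiplicative (PrimesOver (q : ℕ) N → ℤ) :=
  (QuotientGroup.quotientMulEquivOfEq
    (show Uq N q = (divq (q : ℕ) N).ker by rw [ker_divq, Uq_eq_orderUnits])).trans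
    (QuotientGroup.quotientKerEquivOfSurjective (divq (q : ℕ) N) divq_surjective)

theorem divMulEquiv_mk (q : Nat.Primes) (x : (Aq N q)ˣ) :
    divMulEquiv N q (QuotientGroup.mk x) = divq (q : ℕ) N x := rfl

/-- `A_q(N)ˣ / U_q(N) ≃ ℤ[primes above q]`, additive form. -/
def divAddEquiv (q : Nat.Primes) :
    Additive ((Aq N q)ˣ ⧸ Uq N q) ≃+ (PrimesOver (q : ℕ) N → ℤ) :=
  (MulEquiv.toAdditive (divMulEquiv N q)).trans (AddEquiv.additiveMultiplicative _)

theorem divAddEquiv_mk (q : Nat.Primes) (x : (Aq N q)ˣ) (w : PrimesOver (q : ℕ) N) :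
    divAddEquiv N q (Additive.ofMul (QuotientGroup.mk x)) w =
      Multiplicative.toAdd (divq (q : ℕ) N x) w := rfl

/-- The divisor isomorphism is `G`-equivariant. -/
theorem divAddEquiv_equivariant (q : Nat.Primes) (g : N ≃ₐ[F] N)
    (a : Additive ((Aq N q)ˣ ⧸ Uq N q)) :
    divAddEquiv N q (divRho F N q g a) =
      ofSMul (N ≃ₐ[F] N) (PrimesOver (q : ℕ) N → ℤ) g (divAddEquiv N q a) := by
  obtain ⟨x, rfl⟩ : ∃ x : (Aq N q)ˣ, a = Additive.ofMul (QuotientGroup.mk x) := by
    obtain ⟨x, hx⟩ := QuotientGroup.mk_surjective (Additive.toMul a)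
    exact ⟨x, by rw [hx]; rfl⟩
  funext w
  rw [ofSMul_apply, SignLattice.PM.smul_apply, divAddEquiv_mk]
  show Multiplicative.toAdd (divq (q : ℕ) N (actA F N q g x)) w = _
  have h := divq_map (q := (q : ℕ)) (aut N g)
    ((galAct F N q g : Aq N q ≃+* Aq N q) : Aq N q →+* Aq N q) (fun y => rfl)
    (fun c => by
      show (g 1) ⊗ₜ[ℚ] c = (1 : N) ⊗ₜ[ℚ] c
      rw [map_one]) x (g⁻¹ • w)
  have hw : primesOverMap (q : ℕ) N (aut N g) (g⁻¹ • w) = w := smul_inv_smul g w
  rw [hw] at h
  exact h

/-- **[FI-D]** the divisor module above `q` is a permutation module: its Herbrand quotient is the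
product of the orders of the decomposition groups over a set of representatives of the orbits of
`G` on the primes of `𝓞 N` above `q`. -/
theorem divisorPerm [FiniteDimensional F N] : FI.Plan.DivisorPerm F N := by
  intro hcyc q R hRq hR₁ hR₂
  classical
  haveI : IsCyclic (N ≃ₐ[F] N) := hcyc
  haveI : Fintype (PrimesOver (q : ℕ) N) := Fintype.ofFinite _
  set RX : Finset (PrimesOver (q : ℕ) N) :=
    R.subtype (fun w => ((q : ℕ) : 𝓞 N) ∈ w.asIdeal) with hRX
  have hRX₁ : ∀ x : PrimesOver (q : ℕ) N, ∃ y ∈ RX, ∃ g : N ≃ₐ[F] N, g • y = x := by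
    intro x
    obtain ⟨y, hy, g, hg⟩ := hR₁ x.1 x.2
    refine ⟨⟨y, hRq y hy⟩, Finset.mem_subtype.mpr hy, g, Subtype.ext ?_⟩
    rw [coe_smul_primesOver]
    exact hg
  have hRX₂ : ∀ y ∈ RX, ∀ y' ∈ RX, ∀ g : N ≃ₐ[F] N, g • y = y' → y = y' := by
    intro y hy y' hy' g hg
    apply Subtype.ext
    refine hR₂ y.1 (Finset.mem_subtype.mp hy) y'.1 (Finset.mem_subtype.mp hy') g ?_
    rw [← coe_smul_primesOver, hg]
  obtain ⟨hfin, hherb⟩ := herbrand_perm (G := N ≃ₐ[F] N) RX hRX₁ hRX₂
  have he := divAddEquiv_equivariant F N q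
  refine ⟨⟨?_, ?_⟩, ?_⟩
  · rw [h0_congr (divAddEquiv N q) he]
    exact hfin.1
  · rw [hm1_congr (divAddEquiv N q) he]
    exact hfin.2
  · rw [herbrand_congr (divAddEquiv N q) he, hherb]
    have hstab : ∀ x : PrimesOver (q : ℕ) N,
        (Nat.card (MulAction.stabilizer (N ≃ₐ[F] N) x) : ℚ) =
          (Nat.card (decomp (N ≃ₐ[F] N) x.1) : ℚ) := by
      intro x
      rw [stabilizer_eq_decomp]
    simp_rw [hstab]
    rw [hRX, Finset.prod_subtype_eq_prod_filter
      (fun w => (Nat.card (decomp (N ≃ₐ[F] N) w) : ℚ)), Finset.filter_true_of_mem hRq]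

end Main

end Fermat.Agent.CFT.Global.FIDivisor
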