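import Mathlib
import Fermat.Agent.CFT.Global.FIDivisor

/-!
# A norm which is a unit is the norm of a unit

`L/K` a cyclic extension of number fields, `q` a rational prime (ramified or not).  If the norm
of `y ∈ A_q(L)ˣ` is a unit of the maximal order, then it is the norm of a unit of the maximal
order: `N(A_q(L)ˣ) ∩ U_q = N(U_q(L))`.

Proof: the divisor `c` of `y` (a function on the primes of `𝓞 L` above `q`) is killed by the
norm of the permutation module, hence is of the form `g₀ c' - c'` for a generator `g₀`
(`SignLattice.PM.ker_Nm_le_range_D`: `Ĥ⁻¹` of a permutation module vanishes); if `z` has divisor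
`c'` then `y · z / g₀ z` is a unit with the same norm as `y`.
-/

set_option autoImplicit false
set_option linter.unusedSectionVars false
set_option linter.style.haveILetI false
set_option warn.classDefReducibility false

noncomputable section

namespace Fermat.Agent.CFT.Global.UnitNorm

open NumberField IsDedekindDomain TensorProduct
open Fermat.Agent.CFT.Global.L7 Fermat.Agent.CFT.Global.FI
open Fermat.Agent.CFT.Global.QBridge
open Fermat.Agent.CFT.Global

attribute [local instance] Fermat.Agent.CFT.Global.SignLattice.PM.permAction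
attribute [local instance] Fermat.Agent.CFT.Global.FIDivisor.primesAction

variable (K L : Type) [Field K] [NumberField K] [Field L] [NumberField L] [Algebra K L]

/-- The divisor map is equivariant. -/
theorem divq_actA (q : Nat.Primes) (g : L ≃ₐ[K] L) (x : (Aq L q)ˣ) :
    (Multiplicative.toAdd (divq (q : ℕ) L (actA K L q g x)) : PrimesOver (q : ℕ) L → ℤ) =
      g • (Multiplicative.toAdd (divq (q : ℕ) L x) : PrimesOver (q : ℕ) L → ℤ) := by
  have h := FIDivisor.divAddEquiv_equivariant K L q g (Additive.ofMul (QuotientGroup.mk x))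
  funext w
  have h' := congrFun h w
  exact h'

variable [FiniteDimensional K L]

/-- The norm is invariant under the Galois action on its argument. -/
theorem normq_actA (q : Nat.Primes) (g : L ≃ₐ[K] L) (z : (Aq L q)ˣ) :
    normq K L q (actA K L q g z) = normq K L q z := by
  rw [normq_eq_prod, normq_eq_prod]
  refine Fintype.prod_equiv (Equiv.mulRight g) _ _ (fun h => ?_)
  show actA K L q h (actA K L q g z) = actA K L q (h * g) z
  rw [map_mul]
  rfl

/-- **A norm which is a unit is the norm of a unit** (cyclic `L/K`, any `q`). -/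
theorem exists_unit_norm [IsCyclic (L ≃ₐ[K] L)] (q : Nat.Primes) (y : (Aq L q)ˣ)
    (hy : normq K L q y ∈ Uq L q) :
    ∃ y' ∈ Uq L q, normq K L q y' = normq K L q y := by
  classical
  haveI : Fintype (PrimesOver (q : ℕ) L) := Fintype.ofFinite _
  obtain ⟨g₀, hg₀⟩ := IsCyclic.exists_generator (α := L ≃ₐ[K] L)
  set c : PrimesOver (q : ℕ) L → ℤ := Multiplicative.toAdd (divq (q : ℕ) L y) with hc
  -- the norm kills `c`
  have hNc : SignLattice.Nm (L ≃ₐ[K] L) (PrimesOver (q : ℕ) L → ℤ) c = 0 := by
    rw [SignLattice.Nm_apply]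
    have h1 : divq (q : ℕ) L (normq K L q y) = 1 := by
      rw [divq_eq_one_iff, ← FIDivisor.Uq_eq_orderUnits]
      exact hy
    rw [normq_eq_prod, map_prod] at h1
    have h2 := congrArg Multiplicative.toAdd h1
    rw [toAdd_prod, toAdd_one] at h2
    rw [← h2]
    refine Finset.sum_congr rfl (fun g _ => ?_)
    exact (divq_actA K L q g y).symm
  have hker : c ∈ (SignLattice.Nm (L ≃ₐ[K] L) (PrimesOver (q : ℕ) L → ℤ)).ker :=
    AddMonoidHom.mem_ker.mpr hNc
  obtain ⟨c', hc'⟩ := SignLattice.PM.ker_Nm_le_range_D
    (G := L ≃ₐ[K] L) (X := PrimesOver (q : ℕ) L) Quotient.out (fun o => Quotient.out_eq' o)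
    hg₀ hker
  rw [SignLattice.D_apply] at hc'
  obtain ⟨z, hz⟩ := divq_surjective (q := (q : ℕ)) (L := L) (Multiplicative.ofAdd c')
  refine ⟨y * z / actA K L q g₀ z, ?_, ?_⟩
  · rw [FIDivisor.Uq_eq_orderUnits, ← divq_eq_one_iff]
    apply Multiplicative.toAdd.injective
    rw [map_div, map_mul, toAdd_div, toAdd_mul, toAdd_one, divq_actA, hz, toAdd_ofAdd, ← hc,
      ← hc']
    abel
  · rw [map_div, map_mul, normq_actA, mul_div_cancel_right]

end Fermat.Agent.CFT.Global.UnitNorm
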