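import Mathlib
import Fermat.Agent.CFT.Coh.CyclicPlan
import Fermat.Agent.CFT.Glob.UnramReduced
import Fermat.Agent.CFT.Global.GaloisPair
import Fermat.Agent.CFT.Global.UnitNorm
import Fermat.Agent.CFT.Global.SUnitDescent
import Fermat.Agent.CFT.Global.IdeleH1
import Fermat.Agent.CFT.Global.LocUnitsHerbrand

/-!
# Class field theory program (P3), global layer: the local units at an unramified prime

For a Galois pair `(G, L)` and a rational prime `q` unramified in `L` (`UnramAt L q`):

* `isZero_H1_localUnitsRep` / `locUnitsH1` : `H¹(G, U_q(L)) = 0` for EVERY finite `G`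
  (the degree-one part `ClassDescentS.LocUnitsH1` of `Plan.LocUnitsAcyclic`);
* `h0_localUnits_of_cyclic` : for `G` cyclic, `|Ĥ⁰(G, U_q(L))| = 1` (every invariant local unit is
  the norm of a local unit).

Proof of the first statement, without local theory: a `1`-cocycle with values in `U_q(L)` is the
coboundary of some `b ∈ (L ⊗[ℚ] ℚ_[q])ˣ` (Hilbert 90 for the semilocal algebra,
`IdeleH1.isZero_H1_localRep`); the divisor of `b` (a function on the primes of `𝓞 L` above `q`)
is `G`-invariant, hence, `q` being unramified, it is the divisor of an element `a` of the fixed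
field (`exists_loc_div_mem_Uq`: `G` permutes the primes above a prime of the fixed field
transitively, and valuations restrict); `b / a` is a unit with the same coboundary.

The second statement: for `G = ⟨σ⟩` cyclic, `H¹ = 0` gives `ker N = (σ - 1) U_q(L)`, i.e.
`|Ĥ⁻¹| = 1`, and the Herbrand quotient of `U_q(L)` is `1` (`LocUnitsHerbrand.locUnitsHerbrand`).
-/

set_option autoImplicit false
set_option linter.unusedSectionVars false
set_option linter.style.haveILetI false
set_option warn.classDefReducibility false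

open scoped TensorProduct
open scoped Fermat.Agent.CFT.Global

noncomputable section

namespace Fermat.Agent.CFT.Global.LocUnitsRaw

open NumberField IsDedekindDomain HeightOneSpectrum
open Fermat.Agent.CFT.Global Fermat.Agent.CFT.Herbrand
open Fermat.Agent.CFT.Global.QBridge Fermat.Agent.CFT.Global.SUnitDescent
open Fermat.Agent.CFT.Global.L7 Fermat.Agent.CFT.Global.FI

/-! ## Invariant divisors descend at an unramified prime (relative vocabulary) -/

section Relative

variable (F N : Type) [Field F] [NumberField F] [Field N] [NumberField N] [Algebra F N]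

/-- At a prime `w` of `N` unramified over `ℤ`, the order at `w` of an element of `F` is its order
at the prime of `F` below `w`. -/
theorem ordZ_algebraMap (w : HeightOneSpectrum (𝓞 N))
    (h1 : Algebra.IsUnramifiedAt ℤ w.asIdeal) (a : Fˣ) :
    ordZ w (Units.map (algebraMap F N : F →* N) a) = ordZ (under F w) a := by
  have h2 : Algebra.IsUnramifiedAt (𝓞 F) w.asIdeal :=
    Algebra.IsUnramifiedAt.of_restrictScalars (R := ℤ) w.asIdeal
  have h3 : (under F w).asIdeal.ramificationIdx' w.asIdeal = 1 := by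
    rw [Ideal.ramificationIdx'_eq_ramificationIdx (under F w).asIdeal w.asIdeal
      (under F w).ne_bot]
    exact Ideal.ramificationIdx_eq_one w.asIdeal (𝓞 F)
  have h4 : w.valuation N (algebraMap F N (a : F)) = (under F w).valuation F (a : F) := by
    rw [← valuation_liesOver N (under F w) w (a : F), h3, pow_one]
  show -WithZero.log (w.valuation N (algebraMap F N (a : F))) = _
  rw [h4]
  rfl

attribute [local instance] Fermat.Agent.CFT.Global.SignLattice.PM.permAction
attribute [local instance] Fermat.Agent.CFT.Global.FIDivisor.primesAction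

variable [IsGalois F N] [FiniteDimensional F N]

/-- **Invariant divisors descend at an unramified prime**: if `b ∈ A_q(N)ˣ` has
`g b / b ∈ U_q(N)` for all `g ∈ Gal(N/F)` and every prime of `N` above `q` is unramified, then
`b ∈ Fˣ · U_q(N)`. -/
theorem exists_loc_div_mem_Uq (q : Nat.Primes)
    (hun : ∀ w : HeightOneSpectrum (𝓞 N), ((q : ℕ) : 𝓞 N) ∈ w.asIdeal →
      Algebra.IsUnramifiedAt ℤ w.asIdeal)
    (b : (Aq N q)ˣ) (hb : ∀ g : N ≃ₐ[F] N, actA F N q g b / b ∈ Uq N q) :
    ∃ a : Fˣ, b / loc N q (Units.map (algebraMap F N : F →* N) a) ∈ Uq N q := by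
  classical
  set D : PrimesOver (q : ℕ) N → ℤ := Multiplicative.toAdd (divq (q : ℕ) N b) with hD
  -- the divisor of `b` is invariant
  have hinv : ∀ (g : N ≃ₐ[F] N) (w : PrimesOver (q : ℕ) N), D (g • w) = D w := by
    intro g w
    have h1 : divq (q : ℕ) N (actA F N q g⁻¹ b) = divq (q : ℕ) N b := by
      have h := hb g⁻¹
      rw [FIDivisor.Uq_eq_orderUnits, ← divq_eq_one_iff, map_div, div_eq_one] at h
      exact h
    have h2 := UnitNorm.divq_actA F N q g⁻¹ b
    rw [h1] at h2
    have h3 := congrFun h2 w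
    rw [SignLattice.PM.smul_apply, inv_inv] at h3
    exact h3.symm
  -- a prime of `N` above each prime of `F`
  choose wv hwv using fun v : HeightOneSpectrum (𝓞 F) => exists_under_eq F (N := N) v
  let n : HeightOneSpectrum (𝓞 F) → ℤ := fun v =>
    if h : ((q : ℕ) : 𝓞 N) ∈ (wv v).asIdeal then D ⟨wv v, h⟩ else 0
  obtain ⟨a, ha⟩ := exists_ordZ_eq (finite_setOf_natCast_mem (q : ℕ) F).toFinset n
  refine ⟨a, ?_⟩
  rw [FIDivisor.Uq_eq_orderUnits, ← divq_eq_one_iff, map_div, div_eq_one]
  apply Multiplicative.toAdd.injective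
  funext w
  have e1 : Multiplicative.toAdd
      (divq (q : ℕ) N (loc N q (Units.map (algebraMap F N : F →* N) a))) w =
        ordZ w.1 (Units.map (algebraMap F N : F →* N) a) := divq_lamq _ w
  rw [e1, ordZ_algebraMap F N w.1 (hun w.1 w.2) a]
  have hqv : ((q : ℕ) : 𝓞 F) ∈ (under F w.1).asIdeal := (natCast_mem_under F w.1 q).mpr w.2
  rw [ha (under F w.1) ((Set.Finite.mem_toFinset _).mpr hqv)]
  have hq' : ((q : ℕ) : 𝓞 N) ∈ (wv (under F w.1)).asIdeal :=
    (natCast_mem_under F _ q).mp (by rw [hwv]; exact hqv)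
  have hn : n (under F w.1) = D ⟨wv (under F w.1), hq'⟩ := dif_pos hq'
  rw [hn]
  obtain ⟨g, hg⟩ := exists_primeMap_eq_of_under_eq F (wv (under F w.1)) w.1 (hwv _)
  have hw : w = g • (⟨wv (under F w.1), hq'⟩ : PrimesOver (q : ℕ) N) :=
    Subtype.ext (by rw [FIDivisor.coe_smul_primesOver]; exact hg)
  calc Multiplicative.toAdd (divq (q : ℕ) N b) w = D w := rfl
    _ = D (g • (⟨wv (under F w.1), hq'⟩ : PrimesOver (q : ℕ) N)) := congrArg D hw
    _ = D ⟨wv (under F w.1), hq'⟩ := hinv g _

end Relative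

/-! ## The Galois pair -/

section Pair

open Fermat.Agent.CFT.Global.GaloisPair

variable (G L : Type) [Group G] [Fintype G] [Field L] [NumberField L] [MulSemiringAction G L]
  [FaithfulSMul G L]

/-- **Invariant divisors descend at an unramified prime**, for a Galois pair: if
`g • b / b ∈ U_q(L)` for all `g ∈ G` and `q` is unramified in `L`, then `b = a · u` with `a`
fixed by `G` and `u ∈ U_q(L)`. -/
theorem exists_fixed_div_mem (q : ℕ) [Fact q.Prime] (hun : UnramAt L q)
    (b : (SemiLocal L q)ˣ) (hb : ∀ g : G, g • b / b ∈ localUnits L q) :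
    ∃ a : (SemiLocal L q)ˣ, (∀ g : G, g • a = a) ∧ b / a ∈ localUnits L q := by
  have hq : q.Prime := Fact.out
  have hun' : ∀ w : HeightOneSpectrum (𝓞 L), (q : 𝓞 L) ∈ w.asIdeal →
      Algebra.IsUnramifiedAt ℤ w.asIdeal := by
    intro w hw
    haveI := w.isPrime
    exact (Glob.UnramReduced.isReduced_quotient_span_iff_isUnramifiedAt L q hq).mp hun
      w.asIdeal hw
  obtain ⟨a, ha⟩ := exists_loc_div_mem_Uq (Base G L) L ⟨q, hq⟩ hun' b (fun g' => by
    obtain ⟨g, rfl⟩ := (galEquiv G L).surjective g'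
    have h := hb g
    rw [smul_units_eq G L ⟨q, hq⟩ g b] at h
    exact h)
  refine ⟨L7.loc L ⟨q, hq⟩ (Units.map (algebraMap (Base G L) L : Base G L →* L) a),
    fun g => ?_, ha⟩
  apply Units.ext
  show g • ((algebraMap (Base G L) L (a : Base G L)) ⊗ₜ[ℚ] (1 : ℚ_[q]) : SemiLocal L q) = _
  rw [smul_tmul_eq, smul_algebraMap_base]
  rfl

/-- **`H¹(G, U_q(L)) = 0`** at an unramified prime, for every Galois pair. -/
theorem isZero_H1_localUnitsRep (q : ℕ) [Fact q.Prime] (hun : UnramAt L q) :
    CategoryTheory.Limits.IsZero (groupCohomology (localUnitsRep G L q) 1) := by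
  apply IdeleH1.isZero_H1_of_forall
  intro f hf
  let c : G → (SemiLocal L q)ˣ := fun g => Additive.toMul (f g).1
  have hc : ∀ g, c g ∈ localUnits L q := fun g => (f g).2
  have hcoc : ∀ g h : G, c (g * h) = g • c h * c g := fun g h =>
    congrArg (fun z : ↥(addSub (localUnits L q)) => (Additive.toMul z.1 : (SemiLocal L q)ˣ))
      (hf g h)
  have hloc : ∃ b : (SemiLocal L q)ˣ, ∀ g : G, g • b / b = c g := by
    obtain ⟨y, hy⟩ := ClassDescentS.exists_of_isZero_H1 (localRep G L q)
      (IdeleH1.isZero_H1_localRep G L q) (fun g => Additive.ofMul (c g))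
      (fun g h => congrArg Additive.ofMul (hcoc g h))
    exact ⟨Additive.toMul y, fun g => hy g⟩
  obtain ⟨b, hb⟩ := hloc
  obtain ⟨a, hafix, hadiv⟩ := exists_fixed_div_mem G L q hun b
    (fun g => by rw [hb]; exact hc g)
  refine ⟨⟨Additive.ofMul (b / a), hadiv⟩, fun g => ?_⟩
  apply Subtype.ext
  show Additive.ofMul (g • (b / a) / (b / a)) = Additive.ofMul (c g)
  congr 1
  rw [smul_div', hafix, div_div_div_cancel_right, hb]

end Pair

/-! ## Cyclic groups -/

section Cyclic

open Fermat.Agent.CFT.Coh Fermat.Agent.CFT.Cyclic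

/-- For a finite cyclic group `G = ⟨g⟩` with `H¹(G, A) = 0`: `ker N = (g - 1) A`. -/
theorem exists_sub_of_norm_eq_zero {k G : Type} [CommRing k] [Group G] [Fintype G]
    (A : Rep.{0} k G) (g : G) (hg : ∀ x, x ∈ Subgroup.zpowers g)
    (hz : CategoryTheory.Limits.IsZero (groupCohomology A 1)) (a : A.V)
    (ha : A.ρ.norm a = 0) : ∃ b : A.V, A.ρ g b - b = a := by
  obtain ⟨-, h2, -⟩ := cyclicH1_holds k G g hg A
  obtain ⟨hc, hcg⟩ := h2 a ha
  have h0 : groupCohomology.H1π A ⟨cyc₁ g A a, hc⟩ = 0 := by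
    have := ModuleCat.subsingleton_of_isZero hz
    exact Subsingleton.elim _ _
  rw [groupCohomology.H1π_eq_zero_iff] at h0
  obtain ⟨x, hx⟩ := h0
  exact ⟨x, (congrFun hx g).trans hcg⟩

variable (G L : Type) [Group G] [Fintype G] [Field L] [NumberField L] [MulSemiringAction G L]
  [FaithfulSMul G L]

/-- For a cyclic Galois pair and `q` unramified in `L`: `|Ĥ⁻¹(G, U_q(L))| = 1`. -/
theorem hm1_localUnits_of_cyclic [IsCyclic G] (q : ℕ) [Fact q.Prime] (hun : UnramAt L q) :
    hm1 (ofRepresentation (localUnitsRep G L q).ρ) = 1 := by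
  obtain ⟨g, hg⟩ := IsCyclic.exists_generator (α := G)
  rw [hm1, AddSubgroup.relIndex_eq_one]
  intro a ha
  have ha' : (localUnitsRep G L q).ρ.norm a = 0 := by
    rw [AddMonoidHom.mem_ker, nEnd_apply] at ha
    rw [Representation.norm, LinearMap.sum_apply]
    exact ha
  obtain ⟨b, hb⟩ := exists_sub_of_norm_eq_zero (localUnitsRep G L q) g hg
    (isZero_H1_localUnitsRep G L q hun) a ha'
  have hmem : a ∈ (dEnd (ofRepresentation (localUnitsRep G L q).ρ) g).range := ⟨b, hb⟩
  exact (le_iSup (fun g : G => (dEnd (ofRepresentation (localUnitsRep G L q).ρ) g).range) g) hmem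

/-- **For a cyclic Galois pair and `q` unramified in `L`, `|Ĥ⁰(G, U_q(L))| = 1`**: every
`G`-invariant local unit is the norm of a local unit. -/
theorem h0_localUnits_of_cyclic [IsCyclic G] (q : ℕ) [Fact q.Prime] (hun : UnramAt L q) :
    h0 (ofRepresentation (localUnitsRep G L q).ρ) = 1 := by
  obtain ⟨hfin, hherb⟩ := LocUnitsHerbrand.locUnitsHerbrand G L q
  have h1 := hm1_localUnits_of_cyclic G L q hun
  rw [herbrand, h1, Nat.cast_one, div_one] at hherb
  exact_mod_cast hherb

end Cyclic

/-- **The degree-one part of `Plan.LocUnitsAcyclic`**: `H¹(G, U_q(L)) = 0` at an unramified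
prime, for every Galois pair. -/
theorem locUnitsH1 : ClassDescentS.LocUnitsH1 :=
  fun G L _ _ _ _ _ _ q _ hun => isZero_H1_localUnitsRep G L q hun

end Fermat.Agent.CFT.Global.LocUnitsRaw
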