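import Mathlib
import Fermat.Agent.CFT.Global.Defs
import Fermat.Agent.CFT.Coh.Provide
import Fermat.Agent.CFT.Coh.H2Order
import Fermat.Agent.CFT.Coh.HerbrandCyclic
import Fermat.Agent.CFT.Coh.CyclicPlan

/-!
# CFT program, global layer: the formal chain `[E4]`, `[E6]`

Pure plumbing over `Global/Defs` and the finite-group-cohomology layer `Coh`:

* `cyclic_of_herbrand` : for a group of prime order `p` and ANY module `A`: Herbrand quotient `p`
  and `|Ĥ⁰| ≤ p` give `H¹ = 0` and `|H²| = p`;
* `cyclicAxiom_of` : **[E4]** first inequality + second inequality ⟹ the class-formation axiom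
  for cyclic layers of degree `p` (for the idele class module `classRep G L`);
* `card_layer_eq` : a layer of prime order in a `p`-group has order `p`;
* `pGroupAxiom_of` : **[E6]** the cyclic axiom + Galois descent (`C_L^N` is the idele class
  module of the quotient pair) ⟹ `H¹(G, C_L) = 0` and `|H²(G, C_L)| ∣ |G|` for `p`-groups `G`
  (counting induction `Coh.Provide.h2Order`);
* `pGroupAxiom_of_ineq` : both steps together.

The hypotheses are written out verbatim (they are the bodies of the corresponding statements of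
the global plan).
-/

set_option autoImplicit false

open CategoryTheory
open scoped Fermat.Agent.CFT.Global

namespace Fermat.Agent.CFT.Global.PGroupAxiom

open Fermat.Agent.CFT Fermat.Agent.CFT.Global Fermat.Agent.CFT.Herbrand

/-- Abstract form of **[E4]**: for a group of prime order `p` and any module `A`, if the Herbrand
quotient is `p` and `|Ĥ⁰| ≤ p`, then `H¹ = 0` and `|H²| = p`. -/
theorem cyclic_of_herbrand {k : Type} [CommRing k] {p : ℕ} (hp : p.Prime) {G : Type} [Group G]
    [Fintype G] (hG : Nat.card G = p) (A : Rep.{0} k G)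
    (hfin : IsFinH (ofRepresentation A.ρ)) (hh : herbrand (ofRepresentation A.ρ) = p)
    (hle : h0 (ofRepresentation A.ρ) ≤ p) :
    Limits.IsZero (groupCohomology A 1) ∧ Nat.card (groupCohomology A 2) = p := by
  have : Fact p.Prime := ⟨hp⟩
  have hc : IsCyclic G := isCyclic_of_prime_card (p := p) hG
  obtain ⟨g, hg⟩ := hc.exists_generator
  have h2 : Nat.card (groupCohomology.H2 A) = h0 (ofRepresentation A.ρ) :=
    Cyclic.card_H2_eq_h0 A hg
  have h1 : Nat.card (groupCohomology.H1 A) = hm1 (ofRepresentation A.ρ) :=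
    Cyclic.card_H1_eq_hm1 A hg
  obtain ⟨-, hf1⟩ := hfin
  have hm1pos : 0 < hm1 (ofRepresentation A.ρ) := Nat.pos_of_ne_zero hf1
  -- `h0 = p * hm1`
  have hq : (h0 (ofRepresentation A.ρ) : ℚ) = (p : ℚ) * (hm1 (ofRepresentation A.ρ) : ℚ) := by
    have hne : (hm1 (ofRepresentation A.ρ) : ℚ) ≠ 0 := by exact_mod_cast hf1
    unfold herbrand at hh
    field_simp at hh
    linarith
  have hn : h0 (ofRepresentation A.ρ) = p * hm1 (ofRepresentation A.ρ) := by exact_mod_cast hq
  have hm1le : hm1 (ofRepresentation A.ρ) ≤ 1 := by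
    by_contra hcon
    rw [not_le] at hcon
    have : p * 2 ≤ p * hm1 (ofRepresentation A.ρ) := Nat.mul_le_mul_left p hcon
    have hppos := hp.pos
    omega
  have hm1eq : hm1 (ofRepresentation A.ρ) = 1 := le_antisymm hm1le hm1pos
  refine ⟨?_, ?_⟩
  · have hcard : Nat.card (groupCohomology.H1 A) = 1 := by rw [h1, hm1eq]
    have : Subsingleton (groupCohomology.H1 A) := (Nat.card_eq_one_iff_unique.mp hcard).1
    exact ModuleCat.isZero_of_subsingleton _
  · have : Nat.card (groupCohomology.H2 A) = p := by rw [h2, hn, hm1eq, mul_one]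
    exact this

/-- **[E4]** The class-formation axiom for cyclic layers of degree `p`, from the two
inequalities. -/
theorem cyclicAxiom_of
    (hFI : ∀ (p : ℕ) [Fact p.Prime], p ≠ 2 →
      ∀ (G L : Type) [Group G] [Fintype G] [Field L] [NumberField L] [MulSemiringAction G L]
        [FaithfulSMul G L], Nat.card G = p →
        IsFinH (ofRepresentation (classRep G L).ρ) ∧
          herbrand (ofRepresentation (classRep G L).ρ) = p)
    (hSI : ∀ (p : ℕ) [Fact p.Prime], p ≠ 2 →
      ∀ (G L : Type) [Group G] [Fintype G] [Field L] [NumberField L] [MulSemiringAction G L]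
        [FaithfulSMul G L], Nat.card G = p →
        h0 (ofRepresentation (classRep G L).ρ) ≤ p) :
    ∀ (p : ℕ) [Fact p.Prime], p ≠ 2 →
    ∀ (G L : Type) [Group G] [Fintype G] [Field L] [NumberField L] [MulSemiringAction G L]
      [FaithfulSMul G L], Nat.card G = p →
      Limits.IsZero (groupCohomology (classRep G L) 1) ∧
        Nat.card (groupCohomology (classRep G L) 2) = p := by
  intro p _ hp2 G L _ _ _ _ _ _ hG
  obtain ⟨hfin, hh⟩ := hFI p hp2 G L hG
  exact cyclic_of_herbrand Fact.out hG (classRep G L) hfin hh (hSI p hp2 G L hG)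

/-- A layer of prime order in a `p`-group has order `p`. -/
theorem card_layer_eq {p : ℕ} [Fact p.Prime] {G : Type} [Group G] (hG : IsPGroup p G)
    (H : Subgroup G) (N : Subgroup H) [N.Normal] (hp : (Nat.card (H ⧸ N)).Prime) :
    Nat.card (H ⧸ N) = p := by
  have h1 : IsPGroup p (H ⧸ N) := (hG.to_subgroup H).to_quotient N
  rcases h1.card_eq_or_dvd with h | h
  · rw [h] at hp
    exact absurd hp Nat.not_prime_one
  · exact ((Nat.prime_dvd_prime_iff_eq (Fact.out : p.Prime) hp).mp h).symm

/-- **[E6]** `H¹(G, C_L) = 0` and `|H²(G, C_L)|` divides `|G|` for `p`-groups, from the cyclic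
layers of degree `p` and Galois descent. -/
theorem pGroupAxiom_of
    (hC : ∀ (p : ℕ) [Fact p.Prime], p ≠ 2 →
      ∀ (G L : Type) [Group G] [Fintype G] [Field L] [NumberField L] [MulSemiringAction G L]
        [FaithfulSMul G L], Nat.card G = p →
        Limits.IsZero (groupCohomology (classRep G L) 1) ∧
          Nat.card (groupCohomology (classRep G L) 2) = p)
    (hD : ∀ (G L : Type) [Group G] [Fintype G] [Field L] [NumberField L] [MulSemiringAction G L]
      [FaithfulSMul G L] (N : Subgroup G) [N.Normal],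
      ∃ (L₀ : Type) (_ : Field L₀) (_ : NumberField L₀) (_ : MulSemiringAction (G ⧸ N) L₀),
        FaithfulSMul (G ⧸ N) L₀ ∧
          Nonempty ((classRep G L).quotientToInvariants N ≅ classRep (G ⧸ N) L₀)) :
    ∀ (p : ℕ) [Fact p.Prime], p ≠ 2 →
    ∀ (G L : Type) [Group G] [Fintype G] [Field L] [NumberField L] [MulSemiringAction G L]
      [FaithfulSMul G L], IsPGroup p G →
      Limits.IsZero (groupCohomology (classRep G L) 1) ∧
        Nat.card (groupCohomology (classRep G L) 2) ∣ Nat.card G := by
  intro p _ hp2 G L _ _ _ _ _ _ hG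
  classical
  have hO := Coh.Provide.h2Order G (classRep G L) ?_ ⊤
  · have hc : Coh.H2Order.Concl (classRep G L) := by
      refine Coh.H2Order.Concl.of_equiv
        (B' := Rep.res (⊤ : Subgroup G).subtype (classRep G L)) Subgroup.topEquiv.symm
        (AddEquiv.refl _).toIntLinearEquiv ?_ hO
      intro g
      rfl
    exact ⟨hc.1, hc.2.2⟩
  · intro H N _ hprime
    have hcard : Nat.card (H ⧸ N) = p := card_layer_eq hG H N hprime
    have : FaithfulSMul H L := ⟨fun {a b} h => Subtype.ext (eq_of_smul_eq_smul (fun x => h x))⟩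
    obtain ⟨L₀, _, _, _, hfaith, ⟨e⟩⟩ := hD H L N
    let _ : Fintype (H ⧸ N) := Fintype.ofFinite _
    obtain ⟨h1, h2⟩ := hC p hp2 (H ⧸ N) L₀ hcard
    have e' : (Rep.res H.subtype (classRep G L)).quotientToInvariants N ≅
        classRep (H ⧸ N) L₀ := e
    have i1 := (groupCohomology.functor ℤ (H ⧸ N) 1).mapIso e'
    have i2 := (groupCohomology.functor ℤ (H ⧸ N) 2).mapIso e'
    have hc2 : Nat.card (groupCohomology
        ((Rep.res H.subtype (classRep G L)).quotientToInvariants N) 2) = p := by
      rw [← h2]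
      exact Nat.card_congr i2.toLinearEquiv.toEquiv
    refine ⟨h1.of_iso i1, ?_, ?_⟩
    · apply Nat.finite_of_card_ne_zero
      rw [hc2]
      exact (Fact.out : p.Prime).ne_zero
    · rw [hc2, hcard]

/-- **[E4] + [E6]**: the two inequalities and Galois descent give the `p`-group axiom. -/
theorem pGroupAxiom_of_ineq
    (hFI : ∀ (p : ℕ) [Fact p.Prime], p ≠ 2 →
      ∀ (G L : Type) [Group G] [Fintype G] [Field L] [NumberField L] [MulSemiringAction G L]
        [FaithfulSMul G L], Nat.card G = p →
        IsFinH (ofRepresentation (classRep G L).ρ) ∧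
          herbrand (ofRepresentation (classRep G L).ρ) = p)
    (hSI : ∀ (p : ℕ) [Fact p.Prime], p ≠ 2 →
      ∀ (G L : Type) [Group G] [Fintype G] [Field L] [NumberField L] [MulSemiringAction G L]
        [FaithfulSMul G L], Nat.card G = p →
        h0 (ofRepresentation (classRep G L).ρ) ≤ p)
    (hD : ∀ (G L : Type) [Group G] [Fintype G] [Field L] [NumberField L] [MulSemiringAction G L]
      [FaithfulSMul G L] (N : Subgroup G) [N.Normal],
      ∃ (L₀ : Type) (_ : Field L₀) (_ : NumberField L₀) (_ : MulSemiringAction (G ⧸ N) L₀),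
        FaithfulSMul (G ⧸ N) L₀ ∧
          Nonempty ((classRep G L).quotientToInvariants N ≅ classRep (G ⧸ N) L₀)) :
    ∀ (p : ℕ) [Fact p.Prime], p ≠ 2 →
    ∀ (G L : Type) [Group G] [Fintype G] [Field L] [NumberField L] [MulSemiringAction G L]
      [FaithfulSMul G L], IsPGroup p G →
      Limits.IsZero (groupCohomology (classRep G L) 1) ∧
        Nat.card (groupCohomology (classRep G L) 2) ∣ Nat.card G :=
  pGroupAxiom_of (cyclicAxiom_of hFI hSI) hD

end Fermat.Agent.CFT.Global.PGroupAxiom
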