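import Mathlib
import Fermat.Agent.CFT.Global.Defs
import Fermat.Agent.CFT.Global.ClassDescent
import Fermat.Agent.CFT.Coh.HerbrandCyclic

/-!
# CFT program, global layer: `[E3]` the second inequality without roots of unity

Reduction of the second inequality for a cyclic layer of odd prime degree `p` to the Kummer case
(`ζ_p` in the base field), by adjoining `ζ_p`:

* `h0_le_of_tower` : pure algebra.  `G'` acts on `A`, `π : G' → G` onto with kernel of order prime
  to `p`, `|G| = p`, `P ≤ G'` of order `p`, `C ≅ A^{ker π}` through `i`: then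
  `h0(G, C) ≤ h0(P, A)` (`x = N_P y ⇒ |ker π|·x = N_{G'} y ∈ N_G C`, and `p·x = N_G x`);
* `cycNormal`, `cycGalois`, `cyc_tower_facts` : `K ⊆ L ⊆ L(ζ_p)` for `L / K` finite Galois;
* `exists_adjoin_root_tower` : the cyclotomic tower of a Galois pair `(G, L)`: a Galois pair
  `(G', L')`, `L' = L(ζ_p)`, with a tower datum `IsTower f π`, `|ker π|` dividing `p - 1`, and the
  cyclotomic character of `G'` on `ζ_p`;
* `secondIneqGen_of` : **[E3]** from the Kummer case **[E2]** (and the finiteness part of the
  first inequality, needed because `h0 = 0` encodes an infinite index).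

The hypotheses are written out verbatim (bodies of the statements of the global plan).
-/

set_option autoImplicit false

open scoped Fermat.Agent.CFT.Global

namespace Fermat.Agent.CFT.Global.SecondIneqGen

open Fermat.Agent.CFT Fermat.Agent.CFT.Global Fermat.Agent.CFT.Herbrand Polynomial

section Algebra

variable {p : ℕ} {G G' C A : Type} [Group G] [Fintype G] [Group G'] [Fintype G']
  [AddCommGroup C] [AddCommGroup A]

/-- **Descent of `Ĥ⁰` along a tower of degree prime to `p`.**  `G'` acts on `A`, `π : G' → G` is
onto with kernel of order prime to `p`, `|G| = p`, `P ≤ G'` has order `p`, and `C` is identified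
(through `i`) with the `ker π`-invariants of `A`.  Then `A^{G'} / N_G C` embeds into
`A^P / N_P A`; in particular `h0(G, C) ≤ h0(P, A)` if the latter is finite. -/
theorem h0_le_of_tower
    (ρC : G →* AddMonoid.End C) (ρA : G' →* AddMonoid.End A)
    (π : G' →* G) (hπ : Function.Surjective π) (hG : Nat.card G = p)
    (hker : (Nat.card π.ker).Coprime p)
    (P : Subgroup G') [Fintype P] (hP : Nat.card P = p)
    (ρP : P →* AddMonoid.End A) (hρP : ∀ (h : P) (a : A), ρP h a = ρA h a)
    (i : C →+ A) (hi : Function.Injective i)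
    (hequiv : ∀ (g : G') (x : C), i (ρC (π g) x) = ρA g (i x))
    (hfix : ∀ y : A, (∀ n ∈ π.ker, ρA n y = y) → y ∈ i.range)
    (hfin : h0 ρP ≠ 0) :
    h0 ρC ≤ h0 ρP := by
  classical
  let _ : Fintype π.ker := Fintype.ofFinite _
  -- `G' = ker π · P` with unique factorisation
  have hcardG' : Nat.card π.ker * Nat.card P = Nat.card G' := by
    rw [hP, ← hG, ← Nat.card_congr (QuotientGroup.quotientKerEquivOfSurjective π hπ).toEquiv,
      mul_comm]
    exact (Subgroup.card_eq_card_quotient_mul_card_subgroup π.ker).symm
  have hcompl : Subgroup.IsComplement' π.ker P :=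
    Subgroup.isComplement'_of_coprime hcardG' (hP ▸ hker)
  have S1 : ∀ F : G' → A, ∑ g : G', F g = ∑ n : π.ker, ∑ h : P, F ((n : G') * (h : G')) := by
    intro F
    let eqv : π.ker × P ≃ G' := Equiv.ofBijective (fun x => (x.1 : G') * (x.2 : G')) hcompl
    rw [← Equiv.sum_comp eqv F, Fintype.sum_prod_type]
    rfl
  have S2 : ∀ F : G' → A, ∑ g : G', F g = ∑ h : P, ∑ n : π.ker, F ((h : G') * (n : G')) := by
    intro F
    let eqv : P × π.ker ≃ G' :=
      Equiv.ofBijective (fun x => (x.1 : G') * (x.2 : G')) hcompl.symm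
    rw [← Equiv.sum_comp eqv F, Fintype.sum_prod_type]
    rfl
  -- `π` restricted to `P` is a bijection onto `G`
  have hPinj : Function.Injective (fun h : P => π (h : G')) := by
    intro h1 h2 h12
    have hmem : ((h1⁻¹ * h2 : P) : G') ∈ π.ker ⊓ P := by
      refine Subgroup.mem_inf.mpr ⟨?_, (h1⁻¹ * h2).2⟩
      rw [MonoidHom.mem_ker, Subgroup.coe_mul, Subgroup.coe_inv, map_mul, map_inv]
      rw [show π (h1 : G') = π (h2 : G') from h12, inv_mul_cancel]
    rw [hcompl.disjoint.eq_bot, Subgroup.mem_bot] at hmem
    have h3 : h1⁻¹ * h2 = 1 := Subtype.ext hmem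
    exact (inv_mul_eq_one.mp h3)
  have hPbij : Function.Bijective (fun h : P => π (h : G')) := by
    refine (Fintype.bijective_iff_injective_and_card _).mpr ⟨hPinj, ?_⟩
    rw [← Nat.card_eq_fintype_card, ← Nat.card_eq_fintype_card, hP, hG]
  -- the key step
  have key : ∀ x : C, x ∈ invariants ρC → i x ∈ (nEnd ρP).range → x ∈ (nEnd ρC).range := by
    rintro x hx ⟨y, hy⟩
    rw [nEnd_apply] at hy
    simp_rw [hρP] at hy
    have hwfix : ∀ m ∈ π.ker, ρA m (∑ n : π.ker, ρA (n : G') y) = ∑ n : π.ker, ρA (n : G') y := by
      intro m hm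
      rw [map_sum]
      have : ∀ n : π.ker, ρA m (ρA (n : G') y) = ρA (((⟨m, hm⟩ : π.ker) * n : π.ker) : G') y :=
        fun n => by
          rw [Subgroup.coe_mul, map_mul]
          rfl
      simp_rw [this]
      exact Fintype.sum_equiv (Equiv.mulLeft (⟨m, hm⟩ : π.ker)) _ _ (fun n => rfl)
    obtain ⟨c, hc⟩ := hfix _ hwfix
    have hT1 : ∑ g : G', ρA g y = Nat.card π.ker • i x := by
      rw [S1]
      have : ∀ n : π.ker, ∑ h : P, ρA ((n : G') * (h : G')) y = i x := by
        intro n
        have h1 : ∀ h : P, ρA ((n : G') * (h : G')) y = ρA (n : G') (ρA (h : G') y) := fun h => by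
          rw [map_mul]
          rfl
        simp_rw [h1]
        rw [← map_sum, hy, ← hequiv]
        have h2 : π (n : G') = 1 := n.2
        rw [h2, map_one]
        rfl
      simp_rw [this]
      rw [Finset.sum_const, Finset.card_univ, Nat.card_eq_fintype_card]
    have hT2 : ∑ g : G', ρA g y = i (nEnd ρC c) := by
      rw [S2]
      have : ∀ h : P, ∑ n : π.ker, ρA ((h : G') * (n : G')) y = i (ρC (π (h : G')) c) := by
        intro h
        have h1 : ∀ n : π.ker, ρA ((h : G') * (n : G')) y = ρA (h : G') (ρA (n : G') y) :=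
          fun n => by
            rw [map_mul]
            rfl
        simp_rw [h1]
        rw [← map_sum, ← hc, hequiv]
      simp_rw [this]
      rw [← map_sum, nEnd_apply]
      congr 1
      exact hPbij.sum_comp (fun g => ρC g c)
    have hd : Nat.card π.ker • x = nEnd ρC c := by
      apply hi
      rw [map_nsmul, ← hT1, hT2]
    have hpx : p • x = nEnd ρC x := by
      rw [nEnd_apply]
      simp_rw [(mem_invariants ρC).mp hx]
      rw [Finset.sum_const, Finset.card_univ, ← Nat.card_eq_fintype_card, hG]
    have hcop : IsCoprime (Nat.card π.ker : ℤ) (p : ℤ) := Nat.isCoprime_iff_coprime.mpr hker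
    obtain ⟨a, b, hab⟩ := hcop
    refine ⟨a • c + b • x, ?_⟩
    rw [map_add, map_zsmul, map_zsmul, ← hd, ← hpx]
    have hx1 : x = (a * (Nat.card π.ker : ℤ) + b * (p : ℤ)) • x := by rw [hab, one_smul]
    conv_rhs => rw [hx1]
    rw [add_smul, mul_smul, mul_smul, natCast_zsmul, natCast_zsmul]
  -- comparison of the indices
  have hmap : (invariants ρC).map i ≤ invariants ρP := by
    rintro _ ⟨x, hx, rfl⟩ h
    rw [hρP, ← hequiv, (mem_invariants ρC).mp hx]
  have hne : ((nEnd ρP).range.comap i).relIndex (invariants ρC) ≠ 0 := by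
    rw [AddSubgroup.relIndex_comap]
    exact fun h0' => hfin (AddSubgroup.relIndex_eq_zero_of_le_right hmap h0')
  unfold h0
  calc (nEnd ρC).range.relIndex (invariants ρC)
      ≤ ((nEnd ρP).range.comap i ⊓ invariants ρC).relIndex (invariants ρC) := by
        refine AddSubgroup.relIndex_le_of_le_left ?_ ?_
        · rintro x ⟨hx1, hx2⟩
          exact key x hx2 hx1
        · rw [AddSubgroup.inf_relIndex_right]
          exact hne
    _ = ((nEnd ρP).range.comap i).relIndex (invariants ρC) := AddSubgroup.inf_relIndex_right _ _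
    _ = (nEnd ρP).range.relIndex ((invariants ρC).map i) := AddSubgroup.relIndex_comap _ _ _
    _ ≤ (nEnd ρP).range.relIndex (invariants ρP) :=
        AddSubgroup.relIndex_le_of_le_right hmap hfin

end Algebra

section Field

variable (p : ℕ) [Fact p.Prime] (K L : Type) [Field K] [Field L] [Algebra K L]
  [FiniteDimensional K L] [IsGalois K L] [CharZero L]

omit [Fact p.Prime] [IsGalois K L] in
theorem cycFinite : FiniteDimensional K (CyclotomicField p L) := by
  have : FiniteDimensional L (CyclotomicField p L) :=
    IsCyclotomicExtension.finiteDimensional {p} L (CyclotomicField p L)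
  exact Module.Finite.trans L _

theorem cycNormal : Normal K (CyclotomicField p L) := by
  obtain ⟨q, hq, hsplit⟩ := IsGalois.is_separable_splitting_field K L
  have h1 : IsSplittingField L (CyclotomicField p L) ((X ^ p - 1 : K[X]).map (algebraMap K L)) := by
    have : (X ^ p - 1 : K[X]).map (algebraMap K L) = X ^ p - 1 := by simp
    rw [this]
    exact IsCyclotomicExtension.isSplittingField_X_pow_sub_one p L (CyclotomicField p L)
  have hq0 : q ≠ 0 := hq.ne_zero
  have hx0 : (X ^ p - 1 : K[X]) ≠ 0 := by
    simpa using X_pow_sub_C_ne_zero (R := K) (Fact.out : p.Prime).pos (1 : K)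
  have := IsSplittingField.mul (F := K) (K := L) (L := CyclotomicField p L) q (X ^ p - 1) hq0 hx0
  exact Normal.of_isSplittingField (q * (X ^ p - 1))

theorem cycGalois : IsGalois K (CyclotomicField p L) := by
  have : CharZero K := (algebraMap K L).charZero
  have := cycNormal p K L
  exact ⟨⟩

/-- The facts about `K ⊆ L ⊆ L(ζ_p)` needed for the tower. -/
theorem cyc_tower_facts :
    Function.Surjective
      (AlgEquiv.restrictNormalHom (F := K) (K₁ := CyclotomicField p L) L) ∧
    (∀ (g : CyclotomicField p L ≃ₐ[K] CyclotomicField p L) (x : L),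
      algebraMap L (CyclotomicField p L) (AlgEquiv.restrictNormalHom L g x) =
        g (algebraMap L (CyclotomicField p L) x)) ∧
    (∀ y : CyclotomicField p L,
      (∀ g : CyclotomicField p L ≃ₐ[K] CyclotomicField p L,
        AlgEquiv.restrictNormalHom L g = 1 → g y = y) →
      y ∈ (algebraMap L (CyclotomicField p L)).range) ∧
    ∃ (ζ : CyclotomicField p L) (hζ : IsPrimitiveRoot ζ p),
      ∀ g : CyclotomicField p L ≃ₐ[K] CyclotomicField p L,
        AlgEquiv.restrictNormalHom L g = 1 → hζ.autToPow K g = 1 → g = 1 := by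
  have hN := cycNormal p K L
  have hcomm : ∀ (g : CyclotomicField p L ≃ₐ[K] CyclotomicField p L) (x : L),
      algebraMap L (CyclotomicField p L) (AlgEquiv.restrictNormalHom L g x) =
        g (algebraMap L (CyclotomicField p L) x) := fun g x =>
    AlgEquiv.restrictNormal_commutes g L x
  refine ⟨AlgEquiv.restrictNormalHom_surjective _, hcomm, ?_, ?_⟩
  · intro y hy
    have hG : IsGalois L (CyclotomicField p L) :=
      IsCyclotomicExtension.isGalois {p} L (CyclotomicField p L)
    have hF : FiniteDimensional L (CyclotomicField p L) :=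
      IsCyclotomicExtension.finiteDimensional {p} L (CyclotomicField p L)
    have := (IsGalois.mem_range_algebraMap_iff_fixed (F := L) (E := CyclotomicField p L) y).mpr ?_
    · exact this
    · intro τ
      have h1 := hy (τ.restrictScalars K) ?_
      · exact h1
      · ext x
        apply (algebraMap L (CyclotomicField p L)).injective
        rw [hcomm]
        simp
  · have hζ := IsCyclotomicExtension.zeta_spec p L (CyclotomicField p L)
    refine ⟨_, hζ, ?_⟩
    intro g hg1 hg2
    have htop := IsCyclotomicExtension.adjoin_primitive_root_eq_top (A := L) hζ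
    have hgζ : g (IsCyclotomicExtension.zeta p L (CyclotomicField p L)) =
        IsCyclotomicExtension.zeta p L (CyclotomicField p L) := by
      have := hζ.autToPow_spec K g
      rw [hg2] at this
      rw [← this]
      simp [ZMod.val_one]
    have hgL : ∀ x : L, g (algebraMap L (CyclotomicField p L) x) =
        algebraMap L (CyclotomicField p L) x := by
      intro x
      rw [← hcomm, hg1]
      rfl
    ext y
    have hy : y ∈ Algebra.adjoin L ({IsCyclotomicExtension.zeta p L (CyclotomicField p L)} :
        Set (CyclotomicField p L)) := by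
      rw [htop]
      trivial
    induction hy using Algebra.adjoin_induction with
    | mem x hx =>
      rw [Set.mem_singleton_iff] at hx
      rw [hx]
      exact hgζ
    | algebraMap r => exact hgL r
    | add x y _ _ hx hy => simp [map_add, hx, hy]
    | mul x y _ _ hx hy => simp [map_mul, hx, hy]

end Field

section Tower

/-- **The cyclotomic tower of a Galois pair.**  For a finite group `G` acting faithfully on a
number field `L` there is a Galois pair `(G', L')` with `L' = L(ζ_p)`, a tower datum
`f : L → L'`, `π : G' → G` whose kernel has order dividing `p - 1`, and a character `χ` of `G'`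
giving the action on `ζ_p`. -/
theorem exists_adjoin_root_tower (p : ℕ) [Fact p.Prime] (G L : Type) [Group G] [Fintype G]
    [Field L] [NumberField L] [MulSemiringAction G L] [FaithfulSMul G L] :
    ∃ (L' : Type) (_ : Field L') (_ : NumberField L') (G' : Type) (_ : Group G')
      (_ : Fintype G') (_ : MulSemiringAction G' L') (f : L →+* L') (π : G' →* G),
      FaithfulSMul G' L' ∧ IsTower f π ∧ Nat.card π.ker ∣ p - 1 ∧
      ∃ ζ : L', IsPrimitiveRoot ζ p ∧ ∃ χ : G' →* (ZMod p)ˣ,
        ∀ g : G', g • ζ = ζ ^ ((χ g : ZMod p).val) := by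
  classical
  have hgal : IsGalois (FixedPoints.subfield G L) L := ⟨⟩
  have hfin := cycFinite p (FixedPoints.subfield G L) L
  obtain ⟨hsurj, hcomm, hfix, ζ, hζ, hinj⟩ := cyc_tower_facts p (FixedPoints.subfield G L) L
  let e : G ≃* (L ≃ₐ[FixedPoints.subfield G L] L) := FixedPoints.toAlgAutMulEquiv G L
  have he : ∀ (g : G) (x : L), e g x = g • x := fun g x => rfl
  let π : (CyclotomicField p L ≃ₐ[FixedPoints.subfield G L] CyclotomicField p L) →* G :=
    e.symm.toMonoidHom.comp (AlgEquiv.restrictNormalHom L)
  have hπ : ∀ g, e (π g) = AlgEquiv.restrictNormalHom L g := fun g => e.apply_symm_apply _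
  have hker : ∀ g, π g = 1 → AlgEquiv.restrictNormalHom L g = 1 := by
    intro g hg
    rw [← hπ, hg, map_one]
  refine ⟨CyclotomicField p L, inferInstance, inferInstance,
    (CyclotomicField p L ≃ₐ[FixedPoints.subfield G L] CyclotomicField p L), inferInstance,
    Fintype.ofFinite _, inferInstance, algebraMap L (CyclotomicField p L), π, inferInstance,
    ⟨?_, ?_, ?_⟩, ?_, ζ, hζ, hζ.autToPow (FixedPoints.subfield G L), ?_⟩
  · exact e.symm.surjective.comp hsurj
  · intro g x
    rw [← he, hπ, hcomm]
    rfl
  · intro y hy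
    exact hfix y (fun g hg => hy g (by
      rw [MonoidHom.mem_ker]
      show e.symm (AlgEquiv.restrictNormalHom L g) = 1
      rw [hg, map_one]))
  · let φ : π.ker →* (ZMod p)ˣ :=
      (hζ.autToPow (FixedPoints.subfield G L)).comp π.ker.subtype
    have hφ : Function.Injective φ := by
      rw [injective_iff_map_eq_one]
      intro g hg
      exact Subtype.ext (hinj g.1 (hker g.1 g.2) hg)
    have h1 := Subgroup.card_dvd_of_injective φ hφ
    rw [Nat.card_eq_fintype_card (α := (ZMod p)ˣ), ZMod.card_units] at h1
    exact h1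
  · intro g
    exact (hζ.autToPow_spec (FixedPoints.subfield G L) g).symm

end Tower

section Main

/-- **[E3]** The second inequality for cyclic layers of odd prime degree, without roots of unity,
from the Kummer case.  (`hFI` is only used for the finiteness of `Ĥ⁰`.) -/
theorem secondIneqGen_of
    (hFI : ∀ (p : ℕ) [Fact p.Prime], p ≠ 2 →
      ∀ (G L : Type) [Group G] [Fintype G] [Field L] [NumberField L] [MulSemiringAction G L]
        [FaithfulSMul G L], Nat.card G = p →
        IsFinH (ofRepresentation (classRep G L).ρ) ∧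
          herbrand (ofRepresentation (classRep G L).ρ) = p)
    (hSI : ∀ (p : ℕ) [Fact p.Prime], p ≠ 2 →
      ∀ (G L : Type) [Group G] [Fintype G] [Field L] [NumberField L] [MulSemiringAction G L]
        [FaithfulSMul G L], Nat.card G = p →
        (∃ ζ : L, IsPrimitiveRoot ζ p ∧ ∀ g : G, g • ζ = ζ) →
        h0 (ofRepresentation (classRep G L).ρ) ≤ p) :
    ∀ (p : ℕ) [Fact p.Prime], p ≠ 2 →
    ∀ (G L : Type) [Group G] [Fintype G] [Field L] [NumberField L] [MulSemiringAction G L]
      [FaithfulSMul G L], Nat.card G = p →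
      h0 (ofRepresentation (classRep G L).ρ) ≤ p := by
  intro p _ hp2 G L _ _ _ _ _ _ hG
  classical
  have hp : p.Prime := Fact.out
  obtain ⟨L', _, _, G', _, _, _, f, π, hfaith, htower, hdvd, ζ, hζ, χ, hχ⟩ :=
    exists_adjoin_root_tower p G L
  -- orders
  have hkerpos : 0 < Nat.card π.ker := Nat.card_pos
  have hcop : (Nat.card π.ker).Coprime p := by
    rw [Nat.coprime_comm, Nat.Prime.coprime_iff_not_dvd hp]
    intro hdiv
    have h1 : p ∣ p - 1 := hdiv.trans hdvd
    have h2 : p ≤ p - 1 := Nat.le_of_dvd (Nat.sub_pos_of_lt hp.one_lt) h1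
    have := hp.pos
    omega
  have hcardG' : Nat.card G' = p * Nat.card π.ker := by
    rw [Subgroup.card_eq_card_quotient_mul_card_subgroup π.ker,
      Nat.card_congr (QuotientGroup.quotientKerEquivOfSurjective π htower.surj).toEquiv, hG]
  -- a subgroup of order `p`
  obtain ⟨P, hP⟩ := Sylow.exists_subgroup_card_pow_prime (G := G') p (n := 1)
    (by rw [pow_one, hcardG']; exact dvd_mul_right _ _)
  rw [pow_one] at hP
  -- `P` fixes `ζ`
  have hPζ : ∀ g : P, g • ζ = ζ := by
    intro g
    have h1 : χ (g : G') ^ p = 1 := by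
      rw [← map_pow]
      have : (g : G') ^ p = 1 := by
        have h2 : g ^ p = 1 := by
          rw [← hP]
          exact pow_card_eq_one'
        have h3 := congrArg (Subtype.val) h2
        simpa using h3
      rw [this, map_one]
    have h2 : χ (g : G') ^ (p - 1) = 1 := by
      have := pow_card_eq_one (G := (ZMod p)ˣ) (x := χ (g : G'))
      rwa [ZMod.card_units] at this
    have h3 : χ (g : G') = 1 := by
      have h4 : χ (g : G') ^ p = χ (g : G') ^ (p - 1) * χ (g : G') := by
        rw [← pow_succ, Nat.sub_add_cancel hp.one_le]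
      rw [h1, h2, one_mul] at h4
      exact h4.symm
    show (g : G') • ζ = ζ
    rw [hχ, h3]
    simp [ZMod.val_one]
  have hfaithP : FaithfulSMul P L' :=
    ⟨fun {a b} h => Subtype.ext (eq_of_smul_eq_smul (fun x => h x))⟩
  have hle := hSI p hp2 P L' hP ⟨ζ, hζ, hPζ⟩
  have hfinP := (hFI p hp2 P L' hP).1.1
  -- descent
  obtain ⟨hinj, hfix, hequiv⟩ := ClassDescent.classDescent L L' G G' f π htower
  refine le_trans ?_ hle
  exact h0_le_of_tower (C := (classRep G L).V) (A := (classRep G' L').V)
    (ofRepresentation (classRep G L).ρ) (ofRepresentation (classRep G' L').ρ) π htower.surj hG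
    hcop P hP (ofRepresentation (classRep P L').ρ) (fun _ _ => rfl)
    (classMap f).toAddMonoidHom hinj hequiv
    (fun y hy => by
      obtain ⟨x, hx⟩ := hfix y hy
      exact ⟨x, hx⟩)
    hfinP

end Main

end Fermat.Agent.CFT.Global.SecondIneqGen
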