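import Fermat.Agent.CFT.Global.Plan
import Fermat.Agent.CFT.Global.PGroupAxiom
import Fermat.Agent.CFT.Global.SecondIneqGen

/-!
# CFT program, global layer: the formal chain `[E3]`, `[E4]`, `[E6]` in Plan form

`Plan.FirstIneq → Plan.SecondIneq → Plan.SecondIneqGen`,
`Plan.FirstIneq → Plan.SecondIneqGen → Plan.CyclicAxiom`,
`Plan.CyclicAxiom → Plan.DescentIso → Plan.PGroupAxiom`
(proofs: `Global/SecondIneqGen.lean`, `Global/PGroupAxiom.lean`).
-/

set_option autoImplicit false

namespace Fermat.Agent.CFT.Global.PGroupAxiomPlan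

open Fermat.Agent.CFT.Global

/-- **[E3]** -/
theorem secondIneqGen (h1 : Plan.FirstIneq) (h2 : Plan.SecondIneq) : Plan.SecondIneqGen :=
  SecondIneqGen.secondIneqGen_of h1 h2

/-- **[E4]** -/
theorem cyclicAxiom (h1 : Plan.FirstIneq) (h2 : Plan.SecondIneqGen) : Plan.CyclicAxiom :=
  PGroupAxiom.cyclicAxiom_of h1 h2

/-- **[E6]** -/
theorem pGroupAxiom (h1 : Plan.CyclicAxiom) (h2 : Plan.DescentIso) : Plan.PGroupAxiom :=
  PGroupAxiom.pGroupAxiom_of h1 h2

/-- **[E3] + [E4] + [E6]**: the two inequalities (Kummer case for the second) and Galois descent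
give the `p`-group axiom. -/
theorem pGroupAxiom_of_ineq (h1 : Plan.FirstIneq) (h2 : Plan.SecondIneq) (h3 : Plan.DescentIso) :
    Plan.PGroupAxiom :=
  pGroupAxiom (cyclicAxiom h1 (secondIneqGen h1 h2)) h3

end Fermat.Agent.CFT.Global.PGroupAxiomPlan
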