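import Mathlib
import Fermat.Agent.CFT.Global.FIPlan
import Fermat.Agent.CFT.Global.L7Plan

/-!
# The first inequality, raw form (spine)

`firstIneq_of_plan`: for `N/F` cyclic of odd prime degree `p`, `L7.FIraw F N` follows from the
three props of `FIPlan` (`UnitsTrivial`, `DivisorPerm`, `InvariantsDescend`) and the Herbrand
quotient of the `S`-units (`SUnitHerbrand`):

* `h(G, A_q(N)ˣ) = h(U_q(N)) · h(A_q(N)ˣ/U_q(N)) = ∏_{w ∈ R_q} |D_w|`;
* `h(G, J_S(N)) = ∏_{q ∈ S} h(G, A_q(N)ˣ)`;
* `h(G, N_S) = ∏_{w ∈ R} |D_w| / p`;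
* hence `h(G, J_S(N)/N_S) = p`, so `Ĥ⁰(G, J_S(N)/N_S) ≠ 0`;
* if `J_S(F) ≤ N_{N/F} J_S(N) · F_S`, every invariant class (which descends to `J_S(F)`) would be
  a norm, i.e. `Ĥ⁰ = 0`.
-/

set_option autoImplicit false
set_option linter.unusedSectionVars false
set_option linter.style.haveILetI false

noncomputable section

namespace Fermat.Agent.CFT.Global.FI

open NumberField IsDedekindDomain TensorProduct
open Fermat.Agent.CFT.Herbrand Fermat.Agent.CFT.Global.L7
open Fermat.Agent.CFT.Global.SUnitLattice (primeMap SUnits mem_primeMap)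
open Fermat.Agent.CFT.Global.SUnitHerbrand

/-! ### Small bridges -/

section Bridges

variable (N : Type) [Field N] [NumberField N]

/-- `a ↦ a ⊗ 1` is injective on units. -/
theorem loc_injective (q : Nat.Primes) : Function.Injective (loc N q) := by
  intro a b h
  have h1 : ((loc N q a : (Aq N q)ˣ) : Aq N q) = ((loc N q b : (Aq N q)ˣ) : Aq N q) := by
    rw [h]
  rw [loc_val, loc_val] at h1
  have hinj : Function.Injective
      (Algebra.TensorProduct.includeLeft : N →ₐ[ℚ] N ⊗[ℚ] ℚ_[(q : ℕ)]) :=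
    Algebra.TensorProduct.includeLeft_injective (S := ℚ) (algebraMap ℚ ℚ_[(q : ℕ)]).injective
  exact Units.ext (hinj h1)

/-- A unit of `N` is a local unit at `q` iff it is a unit at every prime above `q`. -/
theorem loc_mem_Uq_iff (q : Nat.Primes) (a : Nˣ) :
    loc N q a ∈ Uq N q ↔
      ∀ w : HeightOneSpectrum (𝓞 N), ((q : ℕ) : 𝓞 N) ∈ w.asIdeal → w.valuation N (a : N) = 1 := by
  rw [mem_Uq, ← QBridge.isIntegralElem_units_iff]
  have h : ((loc N q a)⁻¹ : (Aq N q)ˣ) = loc N q a⁻¹ := (map_inv _ _).symm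
  rw [h, loc_val, loc_val]

/-- The rational primes of `S` as a finset of natural numbers. -/
def natS (S : Finset Nat.Primes) : Finset ℕ :=
  S.map ⟨fun q : Nat.Primes => (q : ℕ), Nat.Primes.coe_nat_injective⟩

theorem mem_natS {S : Finset Nat.Primes} {n : ℕ} : n ∈ natS S ↔ ∃ q ∈ S, (q : ℕ) = n := by
  rw [natS, Finset.mem_map]
  rfl

theorem mem_above_natS (S : Finset Nat.Primes) (w : HeightOneSpectrum (𝓞 N)) :
    w ∈ above N (natS S) ↔ ∃ q ∈ S, ((q : ℕ) : 𝓞 N) ∈ w.asIdeal := by
  rw [mem_above]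
  constructor
  · rintro ⟨n, hn, -, hw⟩
    obtain ⟨q, hq, rfl⟩ := mem_natS.1 hn
    exact ⟨q, hq, hw⟩
  · rintro ⟨q, hq, hw⟩
    exact ⟨q, mem_natS.2 ⟨q, hq, rfl⟩, q.2, hw⟩

/-- **`L7.sUnits` is `SUnits` for the primes above `S`.** -/
theorem sUnits_eq (S : Finset Nat.Primes) : sUnits N S = SUnits N (above N (natS S)) := by
  ext a
  rw [mem_sUnits]
  constructor
  · intro h w hw
    obtain ⟨q, hq, hqw⟩ := QBridge.exists_prime_mem w
    have hqS : (⟨q, hq⟩ : Nat.Primes) ∉ S := by
      intro hS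
      exact hw (Finset.mem_coe.2 ((mem_above_natS N S w).2 ⟨⟨q, hq⟩, hS, hqw⟩))
    exact (loc_mem_Uq_iff N ⟨q, hq⟩ a).1 (h _ hqS) w hqw
  · intro h q hqS
    rw [loc_mem_Uq_iff]
    intro w hw
    refine h w ?_
    intro hmem
    obtain ⟨q', hq'S, hq'w⟩ := (mem_above_natS N S w).1 (Finset.mem_coe.1 hmem)
    have : (q : ℕ) = (q' : ℕ) := QBridge.prime_eq_of_mem w q.2 q'.2 hw hq'w
    exact hqS (Subtype.ext this ▸ hq'S)

end Bridges

/-! ### The Herbrand quotients of `A_q(N)ˣ` and of `J_S(N)` -/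

section Herbrand

variable (F N : Type) [Field F] [NumberField F] [Field N] [NumberField N] [Algebra F N]
  [FiniteDimensional F N]

/-- `h(G, A_q(N)ˣ) = ∏_{w ∈ R} |D_w|`, `R` representatives of the primes above `q`. -/
theorem herbrand_unitsRho [IsGalois F N] [IsCyclic (N ≃ₐ[F] N)] (hU : Plan.UnitsTrivial F N)
    (hD : Plan.DivisorPerm F N) (q : Nat.Primes) (R : Finset (HeightOneSpectrum (𝓞 N)))
    (hR₀ : ∀ w ∈ R, ((q : ℕ) : 𝓞 N) ∈ w.asIdeal)
    (hR₁ : ∀ w : HeightOneSpectrum (𝓞 N), ((q : ℕ) : 𝓞 N) ∈ w.asIdeal →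
      ∃ y ∈ R, ∃ g : N ≃ₐ[F] N, primeMap g.toRingEquiv y = w)
    (hR₂ : ∀ y ∈ R, ∀ y' ∈ R, ∀ g : N ≃ₐ[F] N, primeMap g.toRingEquiv y = y' → y = y') :
    IsFinH (unitsRho F N q) ∧
      herbrand (unitsRho F N q) = ∏ w ∈ R, (Nat.card (decomp (N ≃ₐ[F] N) w) : ℚ) := by
  have hE := equivExact_sub_quot (actA F N q) (Uq N q) (actA_mem_Uq F N q)
  obtain ⟨hU1, hU2⟩ := hU inferInstance inferInstance q
  obtain ⟨hD1, hD2⟩ := hD inferInstance q R hR₀ hR₁ hR₂
  refine ⟨hE.isFinH_mid hU1 hD1, ?_⟩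
  have h1 : herbrand (unitsRho F N q) = herbrand (uqRho F N q) *
      herbrand (A := Additive ((Aq N q)ˣ ⧸ Uq N q)) (divRho F N q) :=
    hE.herbrand_mul_of_left hU1
  rw [h1, hU2, one_mul, hD2]

/-- The inclusion of the `q`-component `A_q(N)ˣ → J_{S ∪ {q}}(N)`. -/
def singleJ (S : Finset Nat.Primes) (q : Nat.Primes) : (Aq N q)ˣ →* Jsupp N (insert q S) :=
  (MonoidHom.mulSingle (fun q : Nat.Primes => (Aq N q)ˣ) q).codRestrict _ (fun a => by
    intro q' hq'
    have hne : q' ≠ q := fun h => hq' (h ▸ Finset.mem_insert_self q S)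
    exact Pi.mulSingle_eq_of_ne (M := fun q : Nat.Primes => (Aq N q)ˣ) hne a)

theorem singleJ_apply_same (S : Finset Nat.Primes) (q : Nat.Primes) (a : (Aq N q)ˣ) :
    (singleJ N S q a : Jall N) q = a :=
  Pi.mulSingle_eq_same (M := fun q : Nat.Primes => (Aq N q)ˣ) q a

theorem singleJ_apply_ne (S : Finset Nat.Primes) (q : Nat.Primes) (a : (Aq N q)ˣ)
    {q' : Nat.Primes} (h : q' ≠ q) : (singleJ N S q a : Jall N) q' = 1 :=
  Pi.mulSingle_eq_of_ne (M := fun q : Nat.Primes => (Aq N q)ˣ) h a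

/-- The truncation `J_{S ∪ {q}}(N) → J_S(N)`. -/
def truncJ (S : Finset Nat.Primes) (q : Nat.Primes) : Jsupp N (insert q S) →* Jsupp N S :=
  ((trunc N S).comp (Jsupp N (insert q S)).subtype).codRestrict _
    (fun x => trunc_mem_Jsupp N S _)

theorem truncJ_apply (S : Finset Nat.Primes) (q : Nat.Primes) (x : Jsupp N (insert q S)) :
    (truncJ N S q x : Jall N) = trunc N S (x : Jall N) := rfl

/-- The equivariant exact sequence `0 → A_q(N)ˣ → J_{S ∪ {q}}(N) → J_S(N) → 0` (`q ∉ S`). -/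
theorem equivExact_insert (S : Finset Nat.Primes) (q : Nat.Primes) (hq : q ∉ S) :
    EquivExact (unitsRho F N q) (jRho F N (insert q S)) (jRho F N S)
      (MonoidHom.toAdditive (singleJ N S q)) (MonoidHom.toAdditive (truncJ N S q)) where
  inj := by
    intro a b h
    have h1 : (singleJ N S q (Additive.toMul a) : Jall N) q =
        (singleJ N S q (Additive.toMul b) : Jall N) q := by
      have h' : singleJ N S q (Additive.toMul a) = singleJ N S q (Additive.toMul b) := h
      rw [h']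
    rw [singleJ_apply_same, singleJ_apply_same] at h1
    exact h1
  surj := by
    intro y
    have hy : (Additive.toMul y : Jsupp N S).1 ∈ Jsupp N (insert q S) := by
      intro q' hq'
      exact (Additive.toMul y).2 q' (fun h => hq' (Finset.mem_insert_of_mem h))
    refine ⟨Additive.ofMul ⟨(Additive.toMul y : Jsupp N S).1, hy⟩, ?_⟩
    show Additive.ofMul (truncJ N S q ⟨(Additive.toMul y : Jsupp N S).1, hy⟩) = y
    have : truncJ N S q ⟨(Additive.toMul y : Jsupp N S).1, hy⟩ = Additive.toMul y := by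
      apply Subtype.ext
      rw [truncJ_apply]
      funext q'
      by_cases h : q' ∈ S
      · rw [trunc_apply_of_mem N _ h]
      · rw [trunc_apply_of_notMem N _ h]
        exact ((Additive.toMul y).2 q' h).symm
    rw [this]
    rfl
  exact := by
    ext x
    constructor
    · rintro ⟨a, rfl⟩
      show truncJ N S q (singleJ N S q (Additive.toMul a)) = 1
      apply Subtype.ext
      rw [truncJ_apply]
      funext q'
      by_cases h : q' ∈ S
      · rw [trunc_apply_of_mem N _ h]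
        have hne : q' ≠ q := fun h' => hq (h' ▸ h)
        exact singleJ_apply_ne N S q _ hne
      · rw [trunc_apply_of_notMem N _ h]
        rfl
    · intro hx
      have hx' : truncJ N S q (Additive.toMul x) = 1 := hx
      have hx'' : trunc N S ((Additive.toMul x : Jsupp N (insert q S)) : Jall N) = 1 := by
        have := congrArg Subtype.val hx'
        rw [truncJ_apply] at this
        exact this
      refine ⟨Additive.ofMul (((Additive.toMul x : Jsupp N (insert q S)) : Jall N) q), ?_⟩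
      show Additive.ofMul (singleJ N S q (((Additive.toMul x : Jsupp N (insert q S)) : Jall N) q))
        = x
      have : singleJ N S q (((Additive.toMul x : Jsupp N (insert q S)) : Jall N) q)
          = Additive.toMul x := by
        apply Subtype.ext
        funext q'
        by_cases h : q' = q
        · subst h
          exact singleJ_apply_same N S q' _
        · rw [singleJ_apply_ne N S q _ h]
          by_cases hS : q' ∈ S
          · have := congrFun hx'' q'
            rw [trunc_apply_of_mem N _ hS] at this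
            exact this.symm
          · have hq' : q' ∉ insert q S := by
              rw [Finset.mem_insert]
              rintro (h' | h')
              · exact h h'
              · exact hS h'
            exact ((Additive.toMul x).2 q' hq').symm
      rw [this]
      rfl
  hi := by
    intro g a
    show Additive.ofMul (singleJ N S q (actA F N q g (Additive.toMul a))) =
      Additive.ofMul (subAct (actJ F N) (Jsupp N (insert q S)) (actJ_mem_Jsupp F N _) g
        (singleJ N S q (Additive.toMul a)))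
    congr 1
    apply Subtype.ext
    funext q'
    rw [coe_subAct, actJ_apply]
    by_cases h : q' = q
    · subst h
      rw [singleJ_apply_same, singleJ_apply_same]
    · rw [singleJ_apply_ne N S q _ h, singleJ_apply_ne N S q _ h, map_one]
  hp := by
    intro g x
    show Additive.ofMul (truncJ N S q (subAct (actJ F N) (Jsupp N (insert q S))
        (actJ_mem_Jsupp F N _) g (Additive.toMul x))) =
      Additive.ofMul (subAct (actJ F N) (Jsupp N S) (actJ_mem_Jsupp F N _) g
        (truncJ N S q (Additive.toMul x)))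
    congr 1
    apply Subtype.ext
    funext q'
    rw [truncJ_apply, coe_subAct, coe_subAct, actJ_apply, truncJ_apply]
    by_cases h : q' ∈ S
    · rw [trunc_apply_of_mem N _ h, trunc_apply_of_mem N _ h, actJ_apply]
    · rw [trunc_apply_of_notMem N _ h, trunc_apply_of_notMem N _ h, map_one]

/-- `h(G, J_S(N)) = ∏_{q ∈ S} h(G, A_q(N)ˣ)`. -/
theorem herbrand_jRho [IsCyclic (N ≃ₐ[F] N)] (hfin : ∀ q : Nat.Primes, IsFinH (unitsRho F N q))
    (S : Finset Nat.Primes) :
    IsFinH (jRho F N S) ∧ herbrand (jRho F N S) = ∏ q ∈ S, herbrand (unitsRho F N q) := by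
  classical
  induction S using Finset.induction_on with
  | empty =>
    haveI : Subsingleton (Additive (Jsupp N ∅)) := by
      refine ⟨fun a b => ?_⟩
      have h : ∀ x : Jsupp N ∅, x = 1 := by
        intro x
        apply Subtype.ext
        funext q
        exact x.2 q (Finset.notMem_empty q)
      show Additive.ofMul (Additive.toMul a) = Additive.ofMul (Additive.toMul b)
      rw [h (Additive.toMul a), h (Additive.toMul b)]
    haveI : Finite (Additive (Jsupp N ∅)) := Finite.of_subsingleton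
    exact ⟨isFinH_of_finite _, by rw [herbrand_of_finite, Finset.prod_empty]⟩
  | insert q S hq ih =>
    have hE := equivExact_insert F N S q hq
    refine ⟨hE.isFinH_mid (hfin q) ih.1, ?_⟩
    rw [hE.herbrand_mul_of_left (hfin q), ih.2, Finset.prod_insert hq]

end Herbrand

/-! ### The Herbrand quotient of the `S`-units, in the `L7` vocabulary -/

section SUnitsH

variable (F N : Type) [Field F] [NumberField F] [Field N] [NumberField N] [Algebra F N]
  [FiniteDimensional F N]

/-- `h(G, N_S) = ∏_{w ∈ R} |D_w| / [N : F]` for `G = Gal(N/F)` cyclic of odd order. -/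
theorem herbrand_sUnitsRho [IsGalois F N] [IsCyclic (N ≃ₐ[F] N)]
    (hodd : Odd (Module.finrank F N)) (S : Finset Nat.Primes)
    (R : Finset (HeightOneSpectrum (𝓞 N))) (hRS : R ⊆ above N (natS S))
    (hR₁ : ∀ v ∈ above N (natS S), ∃ y ∈ R, ∃ g : N ≃ₐ[F] N, primeMap g.toRingEquiv y = v)
    (hR₂ : ∀ y ∈ R, ∀ y' ∈ R, ∀ g : N ≃ₐ[F] N, primeMap g.toRingEquiv y = y' → y = y') :
    IsFinH (sUnitsRho F N S) ∧ herbrand (sUnitsRho F N S) =
      (∏ v ∈ R, (Nat.card (decomp (N ≃ₐ[F] N) v) : ℚ)) / (Module.finrank F N : ℚ) := by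
  have key := herbrand_sunits_gal_odd (K := F) (L := N) hodd (natS S) R hRS hR₁ hR₂
  let e : Additive (SUnits N (above N (natS S))) ≃+ Additive (sUnits N S) :=
    MulEquiv.toAdditive (MulEquiv.subgroupCongr (sUnits_eq N S).symm)
  have he : ∀ (g : N ≃ₐ[F] N) (a : Additive (SUnits N (above N (natS S)))),
      e (sunitRho (G := N ≃ₐ[F] N) (above N (natS S)) (isStable_above (natS S)) g a) =
        sUnitsRho F N S g (e a) := by
    intro g a
    rfl
  refine ⟨⟨?_, ?_⟩, ?_⟩
  · rw [← h0_congr e he]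
    exact key.1.1
  · rw [← hm1_congr e he]
    exact key.1.2
  · rw [← herbrand_congr e he]
    exact key.2

end SUnitsH

/-! ### Orbit representatives of primes -/

section Reps

variable {N : Type} [Field N] [NumberField N] {G : Type*} [Group G] [MulSemiringAction G N]

/-- The action of `G` on a stable finite set of primes (local instance). -/
@[reducible] def primeAction (T : Finset (HeightOneSpectrum (𝓞 N))) (hT : IsStable G T) :
    MulAction G T where
  smul g v := ⟨primeMap (aut N g) v.1, (hT g v.1).2 v.2⟩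
  one_smul v := Subtype.ext (primeMap_aut_one v.1)
  mul_smul g h v := Subtype.ext (primeMap_aut_mul g h v.1)

/-- Every stable finite set of primes has a set of orbit representatives. -/
theorem exists_reps_primes (T : Finset (HeightOneSpectrum (𝓞 N))) (hT : IsStable G T) :
    ∃ R : Finset (HeightOneSpectrum (𝓞 N)), R ⊆ T ∧
      (∀ v ∈ T, ∃ y ∈ R, ∃ g : G, primeMap (aut N g) y = v) ∧
      (∀ y ∈ R, ∀ y' ∈ R, ∀ g : G, primeMap (aut N g) y = y' → y = y') := by
  classical
  letI := primeAction T hT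
  obtain ⟨R₀, h1, h2⟩ := exists_reps G T
  refine ⟨R₀.map (Function.Embedding.subtype _), ?_, ?_, ?_⟩
  · intro v hv
    obtain ⟨x, -, rfl⟩ := Finset.mem_map.1 hv
    exact x.2
  · intro v hv
    obtain ⟨y, hy, g, hg⟩ := h1 ⟨v, hv⟩
    refine ⟨y.1, Finset.mem_map.2 ⟨y, hy, rfl⟩, g, ?_⟩
    exact congrArg Subtype.val hg
  · intro y hy y' hy' g hg
    obtain ⟨x, hx, rfl⟩ := Finset.mem_map.1 hy
    obtain ⟨x', hx', rfl⟩ := Finset.mem_map.1 hy'
    have := h2 x hx x' hx' g (Subtype.ext hg)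
    rw [this]

end Reps

section RepsGal

variable (F N : Type) [Field F] [NumberField F] [Field N] [NumberField N] [Algebra F N]

/-- Representatives of the `Gal(N/F)`-orbits on the primes of `𝓞 N` above `q`. -/
theorem exists_reps_above (q : Nat.Primes) :
    ∃ R : Finset (HeightOneSpectrum (𝓞 N)),
      (∀ w ∈ R, ((q : ℕ) : 𝓞 N) ∈ w.asIdeal) ∧
      (∀ w : HeightOneSpectrum (𝓞 N), ((q : ℕ) : 𝓞 N) ∈ w.asIdeal →
        ∃ y ∈ R, ∃ g : N ≃ₐ[F] N, primeMap g.toRingEquiv y = w) ∧
      (∀ y ∈ R, ∀ y' ∈ R, ∀ g : N ≃ₐ[F] N, primeMap g.toRingEquiv y = y' → y = y') := by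
  have hmem : ∀ w : HeightOneSpectrum (𝓞 N),
      w ∈ above N {(q : ℕ)} ↔ ((q : ℕ) : 𝓞 N) ∈ w.asIdeal := by
    intro w
    rw [mem_above]
    constructor
    · rintro ⟨n, hn, -, hw⟩
      rw [Finset.mem_singleton] at hn
      subst hn
      exact hw
    · intro hw
      exact ⟨q, Finset.mem_singleton_self _, q.2, hw⟩
  obtain ⟨R, hR, h1, h2⟩ := exists_reps_primes (G := N ≃ₐ[F] N) (above N {(q : ℕ)})
    (isStable_above _)
  refine ⟨R, fun w hw => (hmem w).1 (hR hw), fun w hw => ?_, fun y hy y' hy' g hg => ?_⟩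
  · obtain ⟨y, hy, g, hg⟩ := h1 w ((hmem w).2 hw)
    exact ⟨y, hy, g, by rw [← aut_algEquiv]; exact hg⟩
  · exact h2 y hy y' hy' g (by rw [aut_algEquiv]; exact hg)

end RepsGal

/-! ### The module `J_S(N) / N_S` -/

section Quot

variable (F N : Type) [Field F] [NumberField F] [Field N] [NumberField N] [Algebra F N]

/-- The diagonal map `N_S → J_S(N)`. -/
def locSJ (S : Finset Nat.Primes) : sUnits N S →* Jsupp N S :=
  ((locS N S).comp (sUnits N S).subtype).codRestrict _ (fun _ => trunc_mem_Jsupp N S _)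

theorem locSJ_coe (S : Finset Nat.Primes) (a : sUnits N S) :
    (locSJ N S a : Jall N) = locS N S (a : Nˣ) := rfl

theorem locS_apply_of_mem {S : Finset Nat.Primes} (a : Nˣ) {q : Nat.Primes} (hq : q ∈ S) :
    locS N S a q = loc N q a := by
  show trunc N S (diag N a) q = _
  rw [trunc_apply_of_mem N _ hq, diag_apply]

theorem locS_apply_of_notMem {S : Finset Nat.Primes} (a : Nˣ) {q : Nat.Primes} (hq : q ∉ S) :
    locS N S a q = 1 := by
  show trunc N S (diag N a) q = _
  rw [trunc_apply_of_notMem N _ hq]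

theorem locSJ_injective (S : Finset Nat.Primes) (hS : S.Nonempty) :
    Function.Injective (locSJ N S) := by
  obtain ⟨q₀, hq₀⟩ := hS
  intro a b h
  have h1 : (locSJ N S a : Jall N) q₀ = (locSJ N S b : Jall N) q₀ := by rw [h]
  rw [locSJ_coe, locSJ_coe, locS_apply_of_mem N _ hq₀, locS_apply_of_mem N _ hq₀] at h1
  exact Subtype.ext (loc_injective N q₀ h1)

/-- The image of the `S`-units in `J_S(N)`. -/
def imgS (S : Finset Nat.Primes) : Subgroup (Jsupp N S) := (locSJ N S).range

/-- The image of the `S`-units is `G`-stable. -/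
theorem subAct_mem_imgS (S : Finset Nat.Primes) (g : N ≃ₐ[F] N) (x : Jsupp N S)
    (hx : x ∈ imgS N S) :
    subAct (actJ F N) (Jsupp N S) (actJ_mem_Jsupp F N S) g x ∈ imgS N S := by
  obtain ⟨a, rfl⟩ := hx
  refine ⟨⟨actN F N g a, actN_mem_sUnits F N S g a a.2⟩, ?_⟩
  apply Subtype.ext
  rw [locSJ_coe, coe_subAct, locSJ_coe]
  exact locS_actN F N S g a

/-- The `G`-module structure of the image of the `S`-units. -/
def imgRho (S : Finset Nat.Primes) :=
  addRho (subAct (subAct (actJ F N) (Jsupp N S) (actJ_mem_Jsupp F N S)) (imgS N S)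
    (subAct_mem_imgS F N S))

/-- The `G`-module `J_S(N) / N_S`. -/
def mRho (S : Finset Nat.Primes) :=
  addRho (M := Jsupp N S ⧸ imgS N S)
    (quotAct (subAct (actJ F N) (Jsupp N S) (actJ_mem_Jsupp F N S)) (imgS N S)
      (subAct_mem_imgS F N S))

variable [FiniteDimensional F N]

theorem equivExact_mRho (S : Finset Nat.Primes) :
    EquivExact (C := Additive (Jsupp N S ⧸ imgS N S)) (imgRho F N S) (jRho F N S) (mRho F N S)
      (MonoidHom.toAdditive (imgS N S).subtype)
      (MonoidHom.toAdditive (QuotientGroup.mk' (imgS N S))) :=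
  equivExact_sub_quot (subAct (actJ F N) (Jsupp N S) (actJ_mem_Jsupp F N S)) (imgS N S)
    (subAct_mem_imgS F N S)

/-- The image of the `S`-units is isomorphic to the `S`-units (`S ≠ ∅`). -/
theorem herbrand_imgRho (S : Finset Nat.Primes) (hS : S.Nonempty) :
    (IsFinH (sUnitsRho F N S) → IsFinH (imgRho F N S)) ∧
      herbrand (imgRho F N S) = herbrand (sUnitsRho F N S) := by
  let e : Additive (sUnits N S) ≃+ Additive (imgS N S) :=
    MulEquiv.toAdditive (MonoidHom.ofInjective (locSJ_injective N S hS))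
  have he : ∀ (g : N ≃ₐ[F] N) (a : Additive (sUnits N S)),
      e (sUnitsRho F N S g a) = imgRho F N S g (e a) := by
    intro g a
    apply Subtype.ext
    apply Subtype.ext
    exact locS_actN F N S g _
  refine ⟨fun h => ⟨?_, ?_⟩, (herbrand_congr e he).symm⟩
  · rw [← h0_congr e he]
    exact h.1
  · rw [← hm1_congr e he]
    exact h.2

end Quot

/-! ### Base change of `S`-units -/

section BaseChange

variable (F N : Type) [Field F] [NumberField F] [Field N] [NumberField N] [Algebra F N]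

theorem isIntegralElem_map {R A B : Type*} [CommRing R] [CommRing A] [CommRing B]
    (i : R →+* A) (j : R →+* B) (f : A →+* B) (h : f.comp i = j) {x : A}
    (hx : i.IsIntegralElem x) : j.IsIntegralElem (f x) := by
  obtain ⟨P, hP, hPx⟩ := hx
  refine ⟨P, hP, ?_⟩
  have h2 := Polynomial.hom_eval₂ P i f x
  rw [h] at h2
  rw [← h2, hPx, map_zero]

theorem baseCh_qInt (q : Nat.Primes) (c : ℤ_[(q : ℕ)]) :
    baseCh F N q (QBridge.qInt (q : ℕ) F c) = QBridge.qInt (q : ℕ) N c := by
  rw [QBridge.qInt_apply, QBridge.qInt_apply, baseCh_tmul, map_one]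

theorem baseCh_mem_Uq (q : Nat.Primes) (u : (Aq F q)ˣ) (hu : u ∈ Uq F q) :
    Units.map (baseCh F N q : Aq F q →* Aq N q) u ∈ Uq N q := by
  have hcomp : (baseCh F N q).comp (QBridge.qInt (q : ℕ) F) = QBridge.qInt (q : ℕ) N :=
    RingHom.ext (baseCh_qInt F N q)
  rw [mem_Uq] at hu ⊢
  refine ⟨isIntegralElem_map _ _ _ hcomp hu.1, ?_⟩
  have : ((Units.map (baseCh F N q : Aq F q →* Aq N q) u)⁻¹ : (Aq N q)ˣ) =
      Units.map (baseCh F N q : Aq F q →* Aq N q) u⁻¹ := (map_inv _ _).symm
  rw [this]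
  exact isIntegralElem_map _ _ _ hcomp hu.2

/-- `Fˣ → Nˣ`. -/
def unitsMap : Fˣ →* Nˣ := Units.map (algebraMap F N : F →* N)

theorem baseCh_loc (q : Nat.Primes) (e : Fˣ) :
    Units.map (baseCh F N q : Aq F q →* Aq N q) (loc F q e) = loc N q (unitsMap F N e) := by
  ext
  rfl

theorem unitsMap_mem_sUnits (S : Finset Nat.Primes) (e : Fˣ) (he : e ∈ sUnits F S) :
    unitsMap F N e ∈ sUnits N S := by
  intro q hq
  rw [← baseCh_loc]
  exact baseCh_mem_Uq F N q _ (he q hq)

theorem baseChJ_locS (S : Finset Nat.Primes) (e : Fˣ) :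
    baseChJ F N (locS F S e) = locS N S (unitsMap F N e) := by
  funext q
  rw [baseChJ_apply]
  by_cases hq : q ∈ S
  · rw [locS_apply_of_mem F _ hq, locS_apply_of_mem N _ hq, baseCh_loc]
  · rw [locS_apply_of_notMem F _ hq, locS_apply_of_notMem N _ hq, map_one]

end BaseChange

/-! ### The first inequality -/

section Main

variable (F N : Type) [Field F] [NumberField F] [Field N] [NumberField N] [Algebra F N]
  [FiniteDimensional F N]

/-- If `J_S(F) ≤ N J_S(N) · F_S` and invariant classes descend, then every `G`-invariant class of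
`J_S(N) / N_S` is a norm. -/
theorem invariants_le_range (S : Finset Nat.Primes)
    (hdesc : ∀ y ∈ Jsupp N S,
      (∀ g : N ≃ₐ[F] N, ∃ η ∈ sUnits N S, actJ F N g y = y * locS N S η) →
      ∃ ε ∈ sUnits N S, ∃ x ∈ Jsupp F S, y = baseChJ F N x * locS N S ε)
    (hle : Jsupp F S ≤ normRes F N S) :
    invariants (A := Additive (Jsupp N S ⧸ imgS N S)) (mRho F N S) ≤
      (nEnd (A := Additive (Jsupp N S ⧸ imgS N S)) (mRho F N S)).range := by
  classical
  intro m hm
  obtain ⟨y, hy⟩ := QuotientGroup.mk_surjective (Additive.toMul m)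
  have hm' : m = Additive.ofMul (QuotientGroup.mk y : Jsupp N S ⧸ imgS N S) := by
    rw [hy]
    rfl
  subst hm'
  -- the cocycle
  have hcoc : ∀ g : N ≃ₐ[F] N, ∃ η ∈ sUnits N S,
      actJ F N g (y : Jall N) = (y : Jall N) * locS N S η := by
    intro g
    have h1 : mRho F N S g (Additive.ofMul (QuotientGroup.mk y : Jsupp N S ⧸ imgS N S)) =
        Additive.ofMul (QuotientGroup.mk y : Jsupp N S ⧸ imgS N S) := hm g
    have h2 : (QuotientGroup.mk y : Jsupp N S ⧸ imgS N S) =
        QuotientGroup.mk (subAct (actJ F N) (Jsupp N S) (actJ_mem_Jsupp F N S) g y) :=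
      (congrArg Additive.toMul h1).symm
    rw [QuotientGroup.eq] at h2
    obtain ⟨a, ha⟩ := h2
    refine ⟨a, a.2, ?_⟩
    have h4 := congrArg (Subtype.val : Jsupp N S → Jall N) ha
    rw [locSJ_coe] at h4
    rw [h4]
    show actJ F N g (y : Jall N) = (y : Jall N) * ((y : Jall N)⁻¹ * actJ F N g (y : Jall N))
    rw [mul_inv_cancel_left]
  obtain ⟨ε, hε, x, hx, hyx⟩ := hdesc y.1 y.2 hcoc
  -- `x` is a norm times an `S`-unit
  obtain ⟨n, hn, t, ht, rfl⟩ := Subgroup.mem_sup.1 (hle hx)
  obtain ⟨e, he, rfl⟩ := Subgroup.mem_map.1 ht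
  have hnorm : ∀ q, ∃ z : (Aq N q)ˣ,
      normq F N q z = Units.map (baseCh F N q : Aq F q →* Aq N q) (n q) := hn.2
  choose z hz using hnorm
  let z' : Jsupp N S := ⟨trunc N S z, trunc_mem_Jsupp N S z⟩
  refine ⟨Additive.ofMul (QuotientGroup.mk z'), ?_⟩
  rw [nEnd_apply]
  -- compute the norm in the quotient
  have hsum : ∑ g : N ≃ₐ[F] N, mRho F N S g (Additive.ofMul (QuotientGroup.mk z')) =
      Additive.ofMul (QuotientGroup.mk
        (∏ g : N ≃ₐ[F] N, subAct (actJ F N) (Jsupp N S) (actJ_mem_Jsupp F N S) g z') :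
          Jsupp N S ⧸ imgS N S) := by
    have h1 : (QuotientGroup.mk
        (∏ g : N ≃ₐ[F] N, subAct (actJ F N) (Jsupp N S) (actJ_mem_Jsupp F N S) g z') :
          Jsupp N S ⧸ imgS N S) =
        ∏ g : N ≃ₐ[F] N, (QuotientGroup.mk
          (subAct (actJ F N) (Jsupp N S) (actJ_mem_Jsupp F N S) g z') :
            Jsupp N S ⧸ imgS N S) :=
      map_prod (QuotientGroup.mk' (imgS N S)) _ _
    rw [h1, ofMul_prod]
    exact Finset.sum_congr rfl (fun g _ => rfl)
  rw [hsum]
  congr 1
  rw [QuotientGroup.eq]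
  refine ⟨⟨unitsMap F N e * ε, mul_mem (unitsMap_mem_sUnits F N S e he) hε⟩, ?_⟩
  apply Subtype.ext
  rw [locSJ_coe]
  show locS N S (unitsMap F N e * ε) =
    ((∏ g : N ≃ₐ[F] N, subAct (actJ F N) (Jsupp N S) (actJ_mem_Jsupp F N S) g z' :
      Jsupp N S) : Jall N)⁻¹ * (y : Jall N)
  rw [eq_inv_mul_iff_mul_eq, hyx, map_mul, map_mul, baseChJ_locS, mul_assoc]
  congr 1
  -- the norm part
  funext q
  rw [Subgroup.val_finset_prod, Finset.prod_apply, baseChJ_apply]
  by_cases hq : q ∈ S
  · have h1 : ∀ g : N ≃ₐ[F] N,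
        ((subAct (actJ F N) (Jsupp N S) (actJ_mem_Jsupp F N S) g z' : Jsupp N S) : Jall N) q
          = actA F N q g (z q) := by
      intro g
      rw [coe_subAct, actJ_apply]
      show actA F N q g (trunc N S z q) = _
      rw [trunc_apply_of_mem N _ hq]
    rw [Finset.prod_congr rfl (fun g _ => h1 g), ← normq_eq_prod, hz]
  · have h1 : ∀ g : N ≃ₐ[F] N,
        ((subAct (actJ F N) (Jsupp N S) (actJ_mem_Jsupp F N S) g z' : Jsupp N S) : Jall N) q
          = 1 := by
      intro g
      rw [coe_subAct, actJ_apply]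
      show actA F N q g (trunc N S z q) = _
      rw [trunc_apply_of_notMem N _ hq, map_one]
    rw [Finset.prod_congr rfl (fun g _ => h1 g), Finset.prod_const_one, hn.1 q hq, map_one]

/-- **The first inequality, raw form**, from the three props of `FIPlan`: for `N/F` cyclic of
odd prime degree `p`, `F_S · N J_S(N) ≠ J_S(F)` for all sufficiently large `S`. -/
theorem firstIneq_of_plan (p : ℕ) (hp : p.Prime) (hp2 : p ≠ 2) [IsGalois F N]
    (hcard : Nat.card (N ≃ₐ[F] N) = p) (hU : Plan.UnitsTrivial F N)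
    (hD : Plan.DivisorPerm F N) (hA : Plan.InvariantsDescend F N) : FIraw F N := by
  classical
  haveI : Fact p.Prime := ⟨hp⟩
  haveI : IsCyclic (N ≃ₐ[F] N) := isCyclic_of_prime_card hcard
  obtain ⟨S₁, hS₁⟩ := hA inferInstance
  refine ⟨insert ⟨2, Nat.prime_two⟩ S₁, fun S hS hle => ?_⟩
  have hS₁S : S₁ ⊆ S := (Finset.subset_insert _ _).trans hS
  have hSne : S.Nonempty := ⟨_, hS (Finset.mem_insert_self _ _)⟩
  have hfinrank : Module.finrank F N = p := by
    rw [← hcard, IsGalois.card_aut_eq_finrank]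
  have hodd : Odd (Module.finrank F N) := by
    rw [hfinrank]
    exact hp.odd_of_ne_two hp2
  -- representatives of the primes above each `q`
  choose Rq hRq0 hRq1 hRq2 using exists_reps_above F N
  have hunits := fun q => herbrand_unitsRho F N hU hD q (Rq q) (hRq0 q) (hRq1 q) (hRq2 q)
  have hJ := herbrand_jRho F N (fun q => (hunits q).1) S
  -- the global set of representatives
  have hRS : S.biUnion Rq ⊆ above N (natS S) := by
    intro w hw
    obtain ⟨q, hq, hwq⟩ := Finset.mem_biUnion.1 hw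
    exact (mem_above_natS N S w).2 ⟨q, hq, hRq0 q w hwq⟩
  have hR1 : ∀ v ∈ above N (natS S), ∃ y ∈ S.biUnion Rq, ∃ g : N ≃ₐ[F] N,
      primeMap g.toRingEquiv y = v := by
    intro v hv
    obtain ⟨q, hq, hvq⟩ := (mem_above_natS N S v).1 hv
    obtain ⟨y, hy, g, hg⟩ := hRq1 q v hvq
    exact ⟨y, Finset.mem_biUnion.2 ⟨q, hq, hy⟩, g, hg⟩
  have hR2 : ∀ y ∈ S.biUnion Rq, ∀ y' ∈ S.biUnion Rq, ∀ g : N ≃ₐ[F] N,
      primeMap g.toRingEquiv y = y' → y = y' := by
    intro y hy y' hy' g hg
    obtain ⟨q, hq, hyq⟩ := Finset.mem_biUnion.1 hy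
    obtain ⟨q', hq', hyq'⟩ := Finset.mem_biUnion.1 hy'
    have h1 : ((q : ℕ) : 𝓞 N) ∈ y'.asIdeal := by
      rw [← hg, mem_primeMap, map_natCast]
      exact hRq0 q y hyq
    have h2 : (q : ℕ) = (q' : ℕ) := QBridge.prime_eq_of_mem y' q.2 q'.2 h1 (hRq0 q' y' hyq')
    have h3 : q = q' := Subtype.ext h2
    subst h3
    exact hRq2 q y hyq y' hyq' g hg
  have hE := herbrand_sUnitsRho F N hodd S (S.biUnion Rq) hRS hR1 hR2
  have hprod : ∏ v ∈ S.biUnion Rq, (Nat.card (decomp (N ≃ₐ[F] N) v) : ℚ) =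
      ∏ q ∈ S, herbrand (unitsRho F N q) := by
    rw [Finset.prod_biUnion]
    · exact Finset.prod_congr rfl fun q _ => ((hunits q).2).symm
    · intro q _ q' _ hne
      rw [Function.onFun, Finset.disjoint_left]
      intro w hw hw'
      exact hne (Subtype.ext
        (QBridge.prime_eq_of_mem w q.2 q'.2 (hRq0 q w hw) (hRq0 q' w hw')))
  -- the quotient module `J_S(N) / N_S`
  have hX := equivExact_mRho F N S
  obtain ⟨hI1, hI2⟩ := herbrand_imgRho F N S hSne
  have hIfin := hI1 hE.1
  have hMfin : IsFinH (A := Additive (Jsupp N S ⧸ imgS N S)) (mRho F N S) :=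
    hX.isFinH_right hIfin hJ.1
  have hmul : herbrand (jRho F N S) = herbrand (imgRho F N S) *
      herbrand (A := Additive (Jsupp N S ⧸ imgS N S)) (mRho F N S) :=
    hX.herbrand_mul_of_left hIfin
  have hpos : (∏ v ∈ S.biUnion Rq, (Nat.card (decomp (N ≃ₐ[F] N) v) : ℚ)) ≠ 0 := by
    refine Finset.prod_ne_zero_iff.2 fun v _ => ?_
    exact_mod_cast (Nat.card_pos (α := decomp (N ≃ₐ[F] N) v)).ne'
  have hp0 : (p : ℚ) ≠ 0 := by exact_mod_cast hp.ne_zero
  have hMp : herbrand (A := Additive (Jsupp N S ⧸ imgS N S)) (mRho F N S) = p := by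
    rw [hJ.2, hI2, hE.2, ← hprod, hfinrank] at hmul
    have h3 : (∏ v ∈ S.biUnion Rq, (Nat.card (decomp (N ≃ₐ[F] N) v) : ℚ)) *
        herbrand (A := Additive (Jsupp N S ⧸ imgS N S)) (mRho F N S) =
        (∏ v ∈ S.biUnion Rq, (Nat.card (decomp (N ≃ₐ[F] N) v) : ℚ)) * p := by
      rw [mul_comm _ (p : ℚ)]
      nth_rewrite 2 [hmul]
      field_simp
    exact mul_left_cancel₀ hpos h3
  -- `Ĥ⁰ ≠ 0`
  have hh0 : h0 (A := Additive (Jsupp N S ⧸ imgS N S)) (mRho F N S) ≠ 1 := by
    intro h1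
    have h2 : ((1 : ℕ) : ℚ) / (hm1 (A := Additive (Jsupp N S ⧸ imgS N S)) (mRho F N S) : ℚ)
        = p := by
      rw [← h1]
      exact hMp
    have hm0 : (hm1 (A := Additive (Jsupp N S ⧸ imgS N S)) (mRho F N S) : ℚ) ≠ 0 := by
      exact_mod_cast hMfin.2
    rw [div_eq_iff hm0] at h2
    have h3 : 1 = p * hm1 (A := Additive (Jsupp N S ⧸ imgS N S)) (mRho F N S) := by
      exact_mod_cast h2
    exact hp.one_lt.ne' (Nat.eq_one_of_mul_eq_one_right h3.symm)
  apply hh0
  show (nEnd (A := Additive (Jsupp N S ⧸ imgS N S)) (mRho F N S)).range.relIndex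
    (invariants (A := Additive (Jsupp N S ⧸ imgS N S)) (mRho F N S)) = 1
  rw [AddSubgroup.relIndex_eq_one]
  exact invariants_le_range F N S (hS₁ S hS₁S) hle

/-- `L7.Plan.FirstIneq p` for an odd prime `p`, from the three props of `FIPlan` for all cyclic
extensions of degree `p`. -/
theorem firstIneq_of_plans (p : ℕ) (hp : p.Prime) (hp2 : p ≠ 2)
    (h : ∀ (F N : Type) [Field F] [NumberField F] [Field N] [NumberField N] [Algebra F N]
      [FiniteDimensional F N] [IsGalois F N], Nat.card (N ≃ₐ[F] N) = p →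
      Plan.UnitsTrivial F N ∧ Plan.DivisorPerm F N ∧ Plan.InvariantsDescend F N) :
    L7.Plan.FirstIneq p := by
  intro F N _ _ _ _ _ _ _ _ hcard
  obtain ⟨hU, hD, hA⟩ := h F N hcard
  exact firstIneq_of_plan F N p hp hp2 hcard hU hD hA

end Main

end Fermat.Agent.CFT.Global.FI

end
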