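import Mathlib
import Fermat.Agent.CFT.Global.FirstIneq
import Fermat.Agent.CFT.Global.FIUnits
import Fermat.Agent.CFT.Global.FIDivisor

/-!
# The first inequality: the Herbrand quotient of `J_S(N) / N_S`, exported

For `N/F` cyclic of ODD degree `n` (any odd `n`, not only a prime) and EVERY nonempty finite set
`S` of rational primes, the `G`-module `J_S(N) / N_S` (`FI.mRho F N S`, `N_S` = the `S`-units of
`N`) has finite Tate groups and Herbrand quotient `n = [N : F]`:

* `herbrand_mRho_of_plan` : from the two props `FI.Plan.UnitsTrivial`, `FI.Plan.DivisorPerm`;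
* `herbrand_mRho`         : unconditional (leaves `FIUnits.unitsTrivial`, `FIDivisor.divisorPerm`);
* `herbrand_mRho_prime`   : the case `Nat.card (N ≃ₐ[F] N) = p`, `p` an odd prime;
* `h0_mRho_ne_one`        : `Ĥ⁰(G, J_S(N)/N_S) ≠ 1` when `n ≠ 1`.

This is the computation inside `FI.firstIneq_of_plan`, for consumers that need the Herbrand
quotient itself (bridge to the idele class module `C_N`).
-/

set_option autoImplicit false
set_option linter.unusedSectionVars false
set_option linter.style.haveILetI false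

noncomputable section

namespace Fermat.Agent.CFT.Global.FI

open NumberField IsDedekindDomain TensorProduct
open Fermat.Agent.CFT.Herbrand Fermat.Agent.CFT.Global.L7
open Fermat.Agent.CFT.Global.SUnitLattice (primeMap SUnits mem_primeMap)
open Fermat.Agent.CFT.Global.SUnitHerbrand

variable (F N : Type) [Field F] [NumberField F] [Field N] [NumberField N] [Algebra F N]
  [FiniteDimensional F N]

/-- **Herbrand quotient of `J_S(N)/N_S`**, from the two props of `FIPlan`: for `N/F` cyclic of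
odd degree and every nonempty `S`, `h(G, J_S(N)/N_S) = [N : F]`, with both Tate groups finite. -/
theorem herbrand_mRho_of_plan [IsGalois F N] [IsCyclic (N ≃ₐ[F] N)]
    (hodd : Odd (Module.finrank F N)) (hU : Plan.UnitsTrivial F N) (hD : Plan.DivisorPerm F N)
    (S : Finset Nat.Primes) (hSne : S.Nonempty) :
    IsFinH (A := Additive (Jsupp N S ⧸ imgS N S)) (mRho F N S) ∧
      herbrand (A := Additive (Jsupp N S ⧸ imgS N S)) (mRho F N S) = Module.finrank F N := by
  classical
  -- representatives of the primes above each `q`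
  choose Rq hRq0 hRq1 hRq2 using exists_reps_above F N
  have hunits := fun q => herbrand_unitsRho F N hU hD q (Rq q) (hRq0 q) (hRq1 q) (hRq2 q)
  have hJ := herbrand_jRho F N (fun q => (hunits q).1) S
  -- the global set of representatives
  have hRS : S.biUnion Rq ⊆ above N (natS S) := by
    intro w hw
    obtain ⟨q, hq, hwq⟩ := Finset.mem_biUnion.1 hw
    exact (mem_above_natS N S w).2 ⟨q, hq, hRq0 q w hwq⟩
  have hR1 : ∀ v ∈ above N (natS S), ∃ y ∈ S.biUnion Rq, ∃ g : N ≃ₐ[F] N,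
      primeMap g.toRingEquiv y = v := by
    intro v hv
    obtain ⟨q, hq, hvq⟩ := (mem_above_natS N S v).1 hv
    obtain ⟨y, hy, g, hg⟩ := hRq1 q v hvq
    exact ⟨y, Finset.mem_biUnion.2 ⟨q, hq, hy⟩, g, hg⟩
  have hR2 : ∀ y ∈ S.biUnion Rq, ∀ y' ∈ S.biUnion Rq, ∀ g : N ≃ₐ[F] N,
      primeMap g.toRingEquiv y = y' → y = y' := by
    intro y hy y' hy' g hg
    obtain ⟨q, hq, hyq⟩ := Finset.mem_biUnion.1 hy
    obtain ⟨q', hq', hyq'⟩ := Finset.mem_biUnion.1 hy'
    have h1 : ((q : ℕ) : 𝓞 N) ∈ y'.asIdeal := by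
      rw [← hg, mem_primeMap, map_natCast]
      exact hRq0 q y hyq
    have h2 : (q : ℕ) = (q' : ℕ) := QBridge.prime_eq_of_mem y' q.2 q'.2 h1 (hRq0 q' y' hyq')
    have h3 : q = q' := Subtype.ext h2
    subst h3
    exact hRq2 q y hyq y' hyq' g hg
  have hE := herbrand_sUnitsRho F N hodd S (S.biUnion Rq) hRS hR1 hR2
  have hprod : ∏ v ∈ S.biUnion Rq, (Nat.card (decomp (N ≃ₐ[F] N) v) : ℚ) =
      ∏ q ∈ S, herbrand (unitsRho F N q) := by
    rw [Finset.prod_biUnion]
    · exact Finset.prod_congr rfl fun q _ => ((hunits q).2).symm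
    · intro q _ q' _ hne
      rw [Function.onFun, Finset.disjoint_left]
      intro w hw hw'
      exact hne (Subtype.ext
        (QBridge.prime_eq_of_mem w q.2 q'.2 (hRq0 q w hw) (hRq0 q' w hw')))
  -- the quotient module `J_S(N) / N_S`
  have hX := equivExact_mRho F N S
  obtain ⟨hI1, hI2⟩ := herbrand_imgRho F N S hSne
  have hIfin := hI1 hE.1
  have hMfin : IsFinH (A := Additive (Jsupp N S ⧸ imgS N S)) (mRho F N S) :=
    hX.isFinH_right hIfin hJ.1
  have hmul : herbrand (jRho F N S) = herbrand (imgRho F N S) *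
      herbrand (A := Additive (Jsupp N S ⧸ imgS N S)) (mRho F N S) :=
    hX.herbrand_mul_of_left hIfin
  have hpos : (∏ v ∈ S.biUnion Rq, (Nat.card (decomp (N ≃ₐ[F] N) v) : ℚ)) ≠ 0 := by
    refine Finset.prod_ne_zero_iff.2 fun v _ => ?_
    exact_mod_cast (Nat.card_pos (α := decomp (N ≃ₐ[F] N) v)).ne'
  have hn0 : ((Module.finrank F N : ℕ) : ℚ) ≠ 0 := by
    exact_mod_cast (Module.finrank_pos (R := F) (M := N)).ne'
  refine ⟨hMfin, ?_⟩
  rw [hJ.2, hI2, hE.2, ← hprod] at hmul
  have h3 : (∏ v ∈ S.biUnion Rq, (Nat.card (decomp (N ≃ₐ[F] N) v) : ℚ)) *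
      herbrand (A := Additive (Jsupp N S ⧸ imgS N S)) (mRho F N S) =
      (∏ v ∈ S.biUnion Rq, (Nat.card (decomp (N ≃ₐ[F] N) v) : ℚ)) * (Module.finrank F N : ℕ) := by
    rw [mul_comm _ ((Module.finrank F N : ℕ) : ℚ)]
    nth_rewrite 2 [hmul]
    field_simp
  exact mul_left_cancel₀ hpos h3

/-- **Herbrand quotient of `J_S(N)/N_S`** (unconditional): for `N/F` cyclic of odd degree and
every nonempty `S`, `h(G, J_S(N)/N_S) = [N : F]`, with both Tate groups finite. -/
theorem herbrand_mRho [IsGalois F N] [IsCyclic (N ≃ₐ[F] N)]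
    (hodd : Odd (Module.finrank F N)) (S : Finset Nat.Primes) (hSne : S.Nonempty) :
    IsFinH (A := Additive (Jsupp N S ⧸ imgS N S)) (mRho F N S) ∧
      herbrand (A := Additive (Jsupp N S ⧸ imgS N S)) (mRho F N S) = Module.finrank F N :=
  herbrand_mRho_of_plan F N hodd (FIUnits.unitsTrivial F N) (FIDivisor.divisorPerm F N) S hSne

/-- The case of an odd prime degree `p`: `h(G, J_S(N)/N_S) = p` for every nonempty `S`. -/
theorem herbrand_mRho_prime (p : ℕ) (hp : p.Prime) (hp2 : p ≠ 2) [IsGalois F N]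
    (hcard : Nat.card (N ≃ₐ[F] N) = p) (S : Finset Nat.Primes) (hSne : S.Nonempty) :
    IsFinH (A := Additive (Jsupp N S ⧸ imgS N S)) (mRho F N S) ∧
      herbrand (A := Additive (Jsupp N S ⧸ imgS N S)) (mRho F N S) = p := by
  haveI : Fact p.Prime := ⟨hp⟩
  haveI : IsCyclic (N ≃ₐ[F] N) := isCyclic_of_prime_card hcard
  have hfinrank : Module.finrank F N = p := by
    rw [← hcard, IsGalois.card_aut_eq_finrank]
  have hodd : Odd (Module.finrank F N) := by
    rw [hfinrank]
    exact hp.odd_of_ne_two hp2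
  have h := herbrand_mRho F N hodd S hSne
  rw [hfinrank] at h
  exact h

/-- `Ĥ⁰(G, J_S(N)/N_S)` is not trivial for a nontrivial cyclic extension of odd degree:
`h0 ≠ 1`. -/
theorem h0_mRho_ne_one [IsGalois F N] [IsCyclic (N ≃ₐ[F] N)]
    (hodd : Odd (Module.finrank F N)) (hne : Module.finrank F N ≠ 1)
    (S : Finset Nat.Primes) (hSne : S.Nonempty) :
    h0 (A := Additive (Jsupp N S ⧸ imgS N S)) (mRho F N S) ≠ 1 := by
  obtain ⟨hMfin, hMp⟩ := herbrand_mRho F N hodd S hSne
  intro h1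
  have h2 : ((1 : ℕ) : ℚ) / (hm1 (A := Additive (Jsupp N S ⧸ imgS N S)) (mRho F N S) : ℚ)
      = (Module.finrank F N : ℕ) := by
    rw [← h1]
    exact hMp
  have hm0 : (hm1 (A := Additive (Jsupp N S ⧸ imgS N S)) (mRho F N S) : ℚ) ≠ 0 := by
    exact_mod_cast hMfin.2
  rw [div_eq_iff hm0] at h2
  have h3 : 1 = Module.finrank F N *
      hm1 (A := Additive (Jsupp N S ⧸ imgS N S)) (mRho F N S) := by
    exact_mod_cast h2
  exact hne (Nat.eq_one_of_mul_eq_one_right h3.symm)

/-- `Ĥ⁰(G, J_S(N)/N_S)` has order divisible by `[N : F]`... in the weak form used by consumers: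
`[N : F] * hm1 = h0` (`hm1 = |Ĥ⁻¹|`, `h0 = |Ĥ⁰|`, both nonzero). -/
theorem finrank_mul_hm1_mRho [IsGalois F N] [IsCyclic (N ≃ₐ[F] N)]
    (hodd : Odd (Module.finrank F N)) (S : Finset Nat.Primes) (hSne : S.Nonempty) :
    Module.finrank F N * hm1 (A := Additive (Jsupp N S ⧸ imgS N S)) (mRho F N S) =
      h0 (A := Additive (Jsupp N S ⧸ imgS N S)) (mRho F N S) := by
  obtain ⟨hMfin, hMp⟩ := herbrand_mRho F N hodd S hSne
  have hm0 : (hm1 (A := Additive (Jsupp N S ⧸ imgS N S)) (mRho F N S) : ℚ) ≠ 0 := by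
    exact_mod_cast hMfin.2
  have h2 : (h0 (A := Additive (Jsupp N S ⧸ imgS N S)) (mRho F N S) : ℚ) /
      (hm1 (A := Additive (Jsupp N S ⧸ imgS N S)) (mRho F N S) : ℚ) =
      (Module.finrank F N : ℕ) := hMp
  rw [div_eq_iff hm0] at h2
  exact_mod_cast h2.symm

end Fermat.Agent.CFT.Global.FI

end
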