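import Mathlib
import Fermat.Agent.CFT.Global.Plan
import Fermat.Agent.CFT.Global.RawBridge.Exact
import Fermat.Agent.CFT.Global.FirstIneqExport
import Fermat.Agent.CFT.Global.IdeleStructure
import Fermat.Agent.CFT.Global.LocUnitsHerbrand
import Fermat.Agent.CFT.Global.UnramFinite

/-!
# The first inequality for the idele class module: `Plan.FirstIneq` ([E1])

For a Galois pair `(G, L)` with `G` of odd prime order `p`: `Ĥ⁰(G, C_L)`, `Ĥ⁻¹(G, C_L)` are finite
and `h(G, C_L) = p`.

Proof: choose `S ≠ ∅` with `J_L = Lˣ · J_S · U^S` (`IdeleStructure.classGroupTrivial`) and `L`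
unramified outside `S` (`UnramFinite`).  The bridge `RawBridge.h_classRep_eq` identifies the
orders of the Tate groups of `C_L` with those of the raw module `J_S(L) / L_S` of
`Global/FirstIneq.lean`, whose Herbrand quotient is `p` (`FI.herbrand_mRho_prime`).

The only input which is not yet on main is the surjectivity of the norm on the local units at an
unramified prime (the `h0` clause of `Plan.LocUnitsAcyclic`, [C3]); `Ĥ⁻¹ = 0` then follows from
`LocUnitsHerbrand.locUnitsHerbrand` ([C4]).
-/

set_option autoImplicit false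

namespace Fermat.Agent.CFT.Global.RawBridge

open Fermat.Agent.CFT.Herbrand Fermat.Agent.CFT.Global
open scoped Fermat.Agent.CFT.Global

/-- For a cyclic Galois pair: if every invariant local unit at `q` is a norm (`h0 = 1`), then
`Ĥ⁻¹(G, U_q(L)) = 0` as well (the Herbrand quotient of the local units is `1`). -/
theorem hm1_localUnits_of_h0 (G L : Type) [Group G] [Fintype G] [IsCyclic G] [Field L]
    [NumberField L] [MulSemiringAction G L] [FaithfulSMul G L] (q : ℕ) [Fact q.Prime]
    (h : h0 (ofRepresentation (localUnitsRep G L q).ρ) = 1) :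
    hm1 (ofRepresentation (localUnitsRep G L q).ρ) = 1 := by
  obtain ⟨hfin, hh⟩ := LocUnitsHerbrand.locUnitsHerbrand G L q
  rw [herbrand, h, Nat.cast_one, div_eq_one_iff_eq (Nat.cast_ne_zero.2 hfin.2)] at hh
  exact_mod_cast hh.symm

/-- **[E1], with the minimal hypothesis**: the first inequality `Plan.FirstIneq` from
"at an unramified prime every invariant local unit is a norm of a local unit" (cyclic `G`). -/
theorem firstIneq_of_units
    (hU0 : ∀ (G L : Type) [Group G] [Fintype G] [IsCyclic G] [Field L] [NumberField L]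
      [MulSemiringAction G L] [FaithfulSMul G L] (q : ℕ) [Fact q.Prime], UnramAt L q →
      h0 (ofRepresentation (localUnitsRep G L q).ρ) = 1) : Plan.FirstIneq := by
  intro p hpf hp2 G L _ _ _ _ _ _ hcard
  haveI : IsCyclic G := isCyclic_of_prime_card hcard
  obtain ⟨S₀, hS₀⟩ := IdeleStructure.classGroupTrivial L
  obtain ⟨S, hS, hne, hunr⟩ := UnramFinite.exists_unramOutside_supset L S₀
  have hU : ∀ q : Nat.Primes, q ∉ S →
      h0 (ofRepresentation (localUnitsRep G L q).ρ) = 1 ∧
        hm1 (ofRepresentation (localUnitsRep G L q).ρ) = 1 := fun q hq => by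
    have h := hU0 G L q (hunr q hq)
    exact ⟨h, hm1_localUnits_of_h0 G L q h⟩
  obtain ⟨e0, e1⟩ := h_classRep_eq G L S hne (hS₀ S hS) hU
  have hcard' : Nat.card (L ≃ₐ[FixF G L] L) = p := (card_gal G L).trans hcard
  obtain ⟨hfin, hh⟩ := FI.herbrand_mRho_prime (FixF G L) L p hpf.out hp2 hcard' S hne
  refine ⟨⟨?_, ?_⟩, ?_⟩
  · rw [e0]
    exact hfin.1
  · rw [e1]
    exact hfin.2
  · rw [herbrand, e0, e1]
    exact hh

/-- **[E1]** `Plan.FirstIneq` from `Plan.LocUnitsAcyclic` ([C3]; only its `h0` clause is
used). -/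
theorem firstIneq (hC3 : Plan.LocUnitsAcyclic) : Plan.FirstIneq :=
  firstIneq_of_units (fun G L _ _ _ _ _ _ _ q _ hq => (hC3 G L q hq).2)

end Fermat.Agent.CFT.Global.RawBridge
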