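import Fermat.Agent.CFT.Global.L7Defs
import Fermat.Agent.CFT.Glob.GaloisTensor

/-!
# CFT program, layer Global, first inequality leaf [FI-A2]: Galois invariants of `A_q(L)`

For a finite Galois extension `L/K` of number fields and a rational prime `q`, in the vocabulary
of `L7Defs.lean` (`Aq`, `baseCh`, `galAct`, `Uq`, `Jall`, `Jsupp`):

* `baseCh_injective` : `A_q(K) → A_q(L)` is injective;
* `exists_baseCh_eq` : an element of `A_q(L)` fixed by `Gal(L/K)` comes from `A_q(K)`;
* `exists_units_baseCh_eq` : the same for units;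
* `mem_Uq_iff_baseCh` : a unit of `A_q(K)` is a unit of the maximal order iff its image in
  `A_q(L)` is;
* `exists_Jall_baseCh_eq`, `exists_Jsupp_baseCh_eq` : the idele-level statements.
-/

set_option autoImplicit false

namespace Fermat.Agent.CFT.Global.L7Invariants

open TensorProduct Fermat.Agent.CFT.Global.L7
open Fermat.Agent.CFT.Global.QBridge (qInt)
open Fermat.Agent.CFT.Glob

variable (K L : Type) [Field K] [NumberField K] [Field L] [NumberField L] [Algebra K L]

/-- `baseCh` is the base change map of `Glob/GaloisTensor`. -/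
theorem baseCh_eq_baseMap (q : Nat.Primes) (y : Aq K q) :
    baseCh K L q y = GaloisTensor.baseMap ℚ K L ℚ_[(q : ℕ)] y := by
  induction y using TensorProduct.induction_on with
  | zero => simp
  | tmul c m => rw [baseCh_tmul, GaloisTensor.baseMap_tmul]
  | add x y hx hy => rw [map_add, map_add, hx, hy]

/-- `galAct` is the action of `Glob/GaloisTensor`. -/
theorem galAct_eq_actEquiv (q : Nat.Primes) (g : L ≃ₐ[K] L) (x : Aq L q) :
    galAct K L q g x = GaloisTensor.actEquiv ℚ K L ℚ_[(q : ℕ)] g x := by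
  induction x using TensorProduct.induction_on with
  | zero => simp
  | tmul c m => rw [galAct_tmul, GaloisTensor.actEquiv_tmul]
  | add x y hx hy => rw [map_add, map_add, hx, hy]

/-- The base change map `A_q(K) → A_q(L)` is injective. -/
theorem baseCh_injective (q : Nat.Primes) : Function.Injective (baseCh K L q) := by
  have h : Function.Injective
      (LinearMap.rTensor ℚ_[(q : ℕ)] ((Algebra.ofId K L).restrictScalars ℚ).toLinearMap) :=
    Module.Flat.rTensor_preserves_injective_linearMap _ (algebraMap K L).injective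
  intro x y hxy
  apply h
  have e : ∀ z : Aq K q,
      LinearMap.rTensor ℚ_[(q : ℕ)] ((Algebra.ofId K L).restrictScalars ℚ).toLinearMap z =
        baseCh K L q z := by
    intro z
    induction z using TensorProduct.induction_on with
    | zero => simp
    | tmul c m => rfl
    | add x y hx hy => rw [map_add, map_add, hx, hy]
  rw [e, e, hxy]

/-- The base change map commutes with the structure maps from `ℤ_[q]`. -/
theorem baseCh_qInt (q : Nat.Primes) (c : ℤ_[(q : ℕ)]) :
    baseCh K L q (qInt (q : ℕ) K c) = qInt (q : ℕ) L c := by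
  rw [Fermat.Agent.CFT.Global.QBridge.qInt_apply, Fermat.Agent.CFT.Global.QBridge.qInt_apply,
    baseCh_tmul, map_one]

/-- Integrality over `ℤ_[q]` is preserved and reflected by the base change map. -/
theorem isIntegralElem_baseCh_iff (q : Nat.Primes) (y : Aq K q) :
    (qInt (q : ℕ) L).IsIntegralElem (baseCh K L q y) ↔ (qInt (q : ℕ) K).IsIntegralElem y := by
  have hcomp : (baseCh K L q).comp (qInt (q : ℕ) K) = qInt (q : ℕ) L :=
    RingHom.ext (baseCh_qInt K L q)
  constructor
  · rintro ⟨P, hP, h⟩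
    refine ⟨P, hP, baseCh_injective K L q ?_⟩
    rw [map_zero, Polynomial.hom_eval₂, hcomp]
    exact h
  · rintro ⟨P, hP, h⟩
    refine ⟨P, hP, ?_⟩
    have h' := congrArg (baseCh K L q) h
    rwa [Polynomial.hom_eval₂, hcomp, map_zero] at h'

/-- A unit of `A_q(K)` is a unit of the maximal order iff its image in `A_q(L)` is. -/
theorem mem_Uq_iff_baseCh (q : Nat.Primes) (y : (Aq K q)ˣ) :
    y ∈ Uq K q ↔ Units.map (baseCh K L q : Aq K q →* Aq L q) y ∈ Uq L q := by
  rw [mem_Uq, mem_Uq, ← map_inv]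
  exact and_congr (isIntegralElem_baseCh_iff K L q _).symm
    (isIntegralElem_baseCh_iff K L q _).symm

variable [FiniteDimensional K L] [IsGalois K L]

/-- **[FI-A2]** An element of `A_q(L)` fixed by `Gal(L/K)` comes from `A_q(K)`. -/
theorem exists_baseCh_eq (q : Nat.Primes) (x : Aq L q)
    (hx : ∀ g : L ≃ₐ[K] L, galAct K L q g x = x) : ∃ y : Aq K q, baseCh K L q y = x := by
  obtain ⟨y, hy⟩ := GaloisTensor.exists_of_forall_actEquiv_eq ℚ K L ℚ_[(q : ℕ)] x
    (fun g => (galAct_eq_actEquiv K L q g x).symm.trans (hx g))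
  exact ⟨y, (baseCh_eq_baseMap K L q y).trans hy⟩

/-- **[FI-A2], units.** A unit of `A_q(L)` fixed by `Gal(L/K)` comes from a unit of `A_q(K)`. -/
theorem exists_units_baseCh_eq (q : Nat.Primes) (x : (Aq L q)ˣ)
    (hx : ∀ g : L ≃ₐ[K] L,
      Units.map ((galAct K L q g : Aq L q ≃+* Aq L q) : Aq L q →* Aq L q) x = x) :
    ∃ y : (Aq K q)ˣ, Units.map (baseCh K L q : Aq K q →* Aq L q) y = x := by
  have h1 : ∀ g : L ≃ₐ[K] L, galAct K L q g (x : Aq L q) = x := fun g =>
    congrArg Units.val (hx g)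
  have h2 : ∀ g : L ≃ₐ[K] L, galAct K L q g ((x⁻¹ : (Aq L q)ˣ) : Aq L q) = (x⁻¹ : (Aq L q)ˣ) :=
    fun g => by
      have h := congrArg (fun u : (Aq L q)ˣ => ((u⁻¹ : (Aq L q)ˣ) : Aq L q)) (hx g)
      simpa [← map_inv] using h
  obtain ⟨y, hy⟩ := exists_baseCh_eq K L q (x : Aq L q) h1
  obtain ⟨y', hy'⟩ := exists_baseCh_eq K L q ((x⁻¹ : (Aq L q)ˣ) : Aq L q) h2
  have hyy' : y * y' = 1 := by
    apply baseCh_injective K L q
    rw [map_mul, hy, hy', map_one, Units.mul_inv]
  refine ⟨⟨y, y', hyy', by rw [mul_comm]; exact hyy'⟩, Units.ext ?_⟩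
  exact hy

/-- **[FI-A2], ideles.** A family fixed by `Gal(L/K)` comes from `∏_q A_q(K)ˣ`. -/
theorem exists_Jall_baseCh_eq (x : Jall L)
    (hx : ∀ (q : Nat.Primes) (g : L ≃ₐ[K] L),
      Units.map ((galAct K L q g : Aq L q ≃+* Aq L q) : Aq L q →* Aq L q) (x q) = x q) :
    ∃ y : Jall K, ∀ q, Units.map (baseCh K L q : Aq K q →* Aq L q) (y q) = x q := by
  choose y hy using fun q => exists_units_baseCh_eq K L q (x q) (hx q)
  exact ⟨y, hy⟩

omit [FiniteDimensional K L] [IsGalois K L] in
/-- A family over `K` whose base change is supported on `S` is supported on `S`. -/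
theorem mem_Jsupp_of_baseCh (S : Finset Nat.Primes) (x : Jall L) (hxS : x ∈ Jsupp L S)
    (y : Jall K) (hy : ∀ q, Units.map (baseCh K L q : Aq K q →* Aq L q) (y q) = x q) :
    y ∈ Jsupp K S := by
  intro q hq
  apply Units.ext
  apply baseCh_injective K L q
  have h := congrArg Units.val (hy q)
  rw [hxS q hq] at h
  rw [Units.val_one, map_one]
  exact h

/-- **[FI-A2], `S`-ideles.** An element of `J_S(L)` fixed by `Gal(L/K)` comes from `J_S(K)`. -/
theorem exists_Jsupp_baseCh_eq (S : Finset Nat.Primes) (x : Jall L) (hxS : x ∈ Jsupp L S)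
    (hx : ∀ (q : Nat.Primes) (g : L ≃ₐ[K] L),
      Units.map ((galAct K L q g : Aq L q ≃+* Aq L q) : Aq L q →* Aq L q) (x q) = x q) :
    ∃ y ∈ Jsupp K S, ∀ q, Units.map (baseCh K L q : Aq K q →* Aq L q) (y q) = x q := by
  obtain ⟨y, hy⟩ := exists_Jall_baseCh_eq K L x hx
  exact ⟨y, mem_Jsupp_of_baseCh K L S x hxS y hy, hy⟩

end Fermat.Agent.CFT.Global.L7Invariants
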