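import Mathlib
import Fermat.Agent.CFT.Global.FIPlan
import Fermat.Agent.CFT.Global.SUnitDescent
import Fermat.Agent.CFT.Global.L7Invariants

/-!
# First inequality (FI), leaf [FI-A]: invariant classes descend

`invariantsDescend F N : FI.Plan.InvariantsDescend F N` for every finite extension `N/F` of
number fields: for all sufficiently large finite `S`, an element `y` of `J_S(N)` whose class
modulo the `S`-units of `N` is fixed by `Gal(N/F)` is, modulo the `S`-units of `N`, the base
change of an element of `J_S(F)`.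

Proof.  Write `g y = y · η_g` with `η_g` an `S`-unit.  As `S ≠ ∅`, the map `N_S → J_S(N)` is
injective, so `η` is a 1-cocycle with values in `Nˣ`; by Hilbert 90 `η_g = g b / b`.  By
`SUnitDescent.exists_descent` ([FI-A1], helper87) `b = c · ε` with `c ∈ Fˣ` and `ε` an `S`-unit.
Then `y / b` is `Gal(N/F)`-fixed, hence the base change of some `x₀ ∈ J_S(F)`
(`L7Invariants.exists_Jsupp_baseCh_eq`, [FI-A2], helper75), and `y = (x₀ c) · ε`.
-/

set_option autoImplicit false

noncomputable section

namespace Fermat.Agent.CFT.Global.FIDescend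

open TensorProduct
open Fermat.Agent.CFT.Global.L7 Fermat.Agent.CFT.Global.FI

section Absolute

variable (K : Type) [Field K] [NumberField K]

/-- `loc K q : Kˣ → A_q(K)ˣ` is injective. -/
theorem loc_injective (q : Nat.Primes) : Function.Injective (loc K q) := by
  intro a b h
  apply Units.ext
  have h1 : ((loc K q a : (Aq K q)ˣ) : Aq K q) = ((loc K q b : (Aq K q)ˣ) : Aq K q) := by
    rw [h]
  rw [loc_val, loc_val] at h1
  exact Algebra.TensorProduct.includeLeft_injective (R := ℚ) (S := ℚ) (A := K)
    (B := ℚ_[(q : ℕ)]) (algebraMap ℚ ℚ_[(q : ℕ)]).injective h1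

theorem locS_apply_of_mem {S : Finset Nat.Primes} (a : Kˣ) {q : Nat.Primes} (hq : q ∈ S) :
    locS K S a q = loc K q a := by
  show trunc K S (diag K a) q = _
  rw [trunc_apply_of_mem K _ hq, diag_apply]

theorem locS_apply_of_notMem {S : Finset Nat.Primes} (a : Kˣ) {q : Nat.Primes} (hq : q ∉ S) :
    locS K S a q = 1 := by
  show trunc K S (diag K a) q = _
  rw [trunc_apply_of_notMem K _ hq]

theorem locS_mem_Jsupp (S : Finset Nat.Primes) (a : Kˣ) : locS K S a ∈ Jsupp K S :=
  trunc_mem_Jsupp K S _

/-- `locS K S : Kˣ → J_S(K)` is injective for `S ≠ ∅`. -/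
theorem locS_injective {S : Finset Nat.Primes} (hS : S.Nonempty) :
    Function.Injective (locS K S) := by
  obtain ⟨q, hq⟩ := hS
  intro a b h
  have h1 := congrFun h q
  rw [locS_apply_of_mem K a hq, locS_apply_of_mem K b hq] at h1
  exact loc_injective K q h1

end Absolute

section Relative

variable (F N : Type) [Field F] [NumberField F] [Field N] [NumberField N] [Algebra F N]

/-- Base change of the diagonal embedding. -/
theorem baseChJ_locS (S : Finset Nat.Primes) (c : Fˣ) :
    baseChJ F N (locS F S c) = locS N S (Units.map (algebraMap F N : F →* N) c) := by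
  funext q
  rw [baseChJ_apply]
  by_cases hq : q ∈ S
  · rw [locS_apply_of_mem F c hq, locS_apply_of_mem N _ hq]
    ext
    rfl
  · rw [locS_apply_of_notMem F c hq, locS_apply_of_notMem N _ hq, map_one]

variable [FiniteDimensional F N]

/-- **[FI-A]** invariant classes descend. -/
theorem invariantsDescend : FI.Plan.InvariantsDescend F N := by
  intro hGal
  classical
  obtain ⟨S₀, hS₀⟩ := SUnitDescent.exists_descent F N
  refine ⟨S₀ ∪ {⟨2, Nat.prime_two⟩}, ?_⟩
  intro S hS y hy hinv
  have hS0 : S₀ ⊆ S := fun q hq => hS (Finset.mem_union_left _ hq)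
  have hne : S.Nonempty :=
    ⟨⟨2, Nat.prime_two⟩, hS (Finset.mem_union_right _ (Finset.mem_singleton_self _))⟩
  choose η hηS hη using hinv
  -- `η` is a cocycle
  have hcoc : ∀ g h : N ≃ₐ[F] N, η (g * h) = actN F N g (η h) * η g := by
    intro g h
    apply locS_injective N hne
    have h1 : actJ F N (g * h) y = y * locS N S (η (g * h)) := hη (g * h)
    have h2 : actJ F N (g * h) y = y * (locS N S (actN F N g (η h)) * locS N S (η g)) := by
      have h3 : actJ F N (g * h) y = actJ F N g (actJ F N h y) := by
        rw [map_mul]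
        rfl
      rw [h3, hη h, map_mul, hη g, locS_actN]
      rw [mul_assoc, mul_comm (locS N S (η g))]
    rw [map_mul]
    exact mul_left_cancel (h1.symm.trans h2)
  -- Hilbert 90
  have hcoc' : groupCohomology.IsMulCocycle₁ η := by
    intro g h
    rw [hcoc g h]
    congr 1
  obtain ⟨b, hb⟩ :=
    groupCohomology.isMulCoboundary₁_of_isMulCocycle₁_of_aut_to_units (K := F) (L := N) η hcoc'
  have hb' : ∀ g : N ≃ₐ[F] N, actN F N g b = η g * b := by
    intro g
    have h := hb g
    rw [div_eq_iff_eq_mul] at h
    rw [← h]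
    apply Units.ext
    rfl
  -- descent of `b`
  obtain ⟨c, hc⟩ := hS₀ S hS0 b (by
    intro g
    have h : Units.map (g : N →* N) b / b = η g := by
      rw [div_eq_iff_eq_mul, ← hb' g]
      apply Units.ext
      rfl
    rw [h]
    exact hηS g)
  -- `t = y / b` is fixed
  set t : Jall N := y * (locS N S b)⁻¹ with ht
  have htS : t ∈ Jsupp N S := mul_mem hy (inv_mem (locS_mem_Jsupp N S b))
  have htfix : ∀ g : N ≃ₐ[F] N, actJ F N g t = t := by
    intro g
    rw [ht, map_mul, map_inv, hη g, ← locS_actN, hb' g, map_mul, mul_inv, mul_assoc,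
      mul_inv_cancel_left]
  obtain ⟨x₀, hx₀S, hx₀⟩ := L7Invariants.exists_Jsupp_baseCh_eq F N S t htS (by
    intro q g
    exact congrFun (htfix g) q)
  have hx₀' : baseChJ F N x₀ = t := funext hx₀
  refine ⟨b / Units.map (algebraMap F N : F →* N) c, hc, x₀ * locS F S c,
    mul_mem hx₀S (locS_mem_Jsupp F S c), ?_⟩
  rw [map_mul, hx₀', baseChJ_locS, map_div, ht]
  simp
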