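import Mathlib
import Fermat.Agent.CFT.Global.FirstIneq
import Fermat.Agent.CFT.Global.FIUnits
import Fermat.Agent.CFT.Global.FIDivisor
import Fermat.Agent.CFT.Global.FIDescend

/-!
# The first inequality, raw form

`firstIneq p : L7.Plan.FirstIneq p` for every odd prime `p`: for every cyclic extension `N/F`
of number fields of degree `p`, `F_S · N_{N/F} J_S(N) ≠ J_S(F)` for all sufficiently large
finite sets `S` of rational primes.

Assembly of the spine `FirstIneq.firstIneq_of_plans` with the three leaves
`FIUnits.unitsTrivial`, `FIDivisor.divisorPerm`, `FIDescend.invariantsDescend`.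
-/

set_option autoImplicit false

namespace Fermat.Agent.CFT.Global.FI

/-- **The first inequality** (raw semilocal form, the input of the second inequality `L7`). -/
theorem firstIneq (p : ℕ) (hp : p.Prime) (hp2 : p ≠ 2) : L7.Plan.FirstIneq p :=
  firstIneq_of_plans p hp hp2 (fun F N _ _ _ _ _ _ _ _ =>
    ⟨FIUnits.unitsTrivial F N, FIDivisor.divisorPerm F N, FIDescend.invariantsDescend F N⟩)

end Fermat.Agent.CFT.Global.FI
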