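/-
CFT program, layer Global, L7 (second inequality): the abstract counting core (helper59).

Pure group theory, Mathlib only.

* `index_dvd_of_count`: `J/J^p` of order `p^(2s)`, `E/E^p` of order `p^s`, `t = s - 1` further
  elements `π i` with independent valuations, and the KEY injectivity
  `w ∈ E·⟨π⟩, λ w ∈ J^p ⇒ w ∈ k^p` imply `[J : J^p · λ(E·⟨π⟩)] ∣ p`.
* `exists_places`: the choice of the auxiliary places from the Frobenius property.
-/
import Mathlib

set_option autoImplicit false
set_option linter.style.haveILetI false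

namespace Fermat.Agent.CFT.Global.L7

section Count

variable {J k : Type*} [CommGroup J] [CommGroup k]

/-- A finite family in a subgroup `M` that is injective modulo `P` bounds the relative index
from below. -/
theorem card_le_relIndex_of_injOn {G : Type*} [Group G] (P M : Subgroup G) [P.Normal]
    (hfin : P.relIndex M ≠ 0) {α : Type*} [Finite α] (f : α → G) (hfM : ∀ a, f a ∈ M)
    (hinj : ∀ a b, (f a)⁻¹ * f b ∈ P → a = b) : Nat.card α ≤ P.relIndex M := by
  classical
  haveI : (P.subgroupOf M).FiniteIndex := ⟨hfin⟩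
  haveI : Finite (↥M ⧸ P.subgroupOf M) := Subgroup.finite_quotient_of_finiteIndex
  let g : α → ↥M ⧸ P.subgroupOf M := fun a => QuotientGroup.mk ⟨f a, hfM a⟩
  have hg : Function.Injective g := by
    intro a b hab
    have h1 : (⟨f a, hfM a⟩ : ↥M)⁻¹ * ⟨f b, hfM b⟩ ∈ P.subgroupOf M := QuotientGroup.eq.mp hab
    exact hinj a b (Subgroup.mem_subgroupOf.mp h1)
  have := Nat.card_le_card_of_injective g hg
  rwa [← Subgroup.index_eq_card] at this

/-- **The count.**  See the file header. -/
theorem index_dvd_of_count (p : ℕ) [Fact p.Prime] (lam : k →* J) (E : Subgroup k) (s t : ℕ)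
    (hst : t + 1 = s)
    (hJ : (powMonoidHom p : J →* J).range.index = p ^ (2 * s))
    (hE : (powMonoidHom p : ↥E →* ↥E).range.index = p ^ s)
    (hsat : ∀ b : k, b ^ p ∈ E → b ∈ E)
    (π : Fin t → k) (ord : Fin t → k →* Multiplicative ℤ)
    (hord : ∀ i j, ord i (π j) = Multiplicative.ofAdd (if i = j then (1 : ℤ) else 0))
    (hordE : ∀ i, ∀ u ∈ E, ord i u = 1)
    (hkey : ∀ w ∈ E ⊔ Subgroup.closure (Set.range π),
      lam w ∈ (powMonoidHom p : J →* J).range → ∃ b : k, w = b ^ p) :
    ((powMonoidHom p : J →* J).range ⊔ (E ⊔ Subgroup.closure (Set.range π)).map lam).index ∣ p := by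
  classical
  have hp : p.Prime := Fact.out
  set P : Subgroup J := (powMonoidHom p : J →* J).range with hP
  set W : Subgroup k := E ⊔ Subgroup.closure (Set.range π) with hW
  set M : Subgroup J := P ⊔ W.map lam with hM
  have hPM : P ≤ M := le_sup_left
  have hmul : P.relIndex M * M.index = p ^ (2 * s) := by
    rw [Subgroup.relIndex_mul_index hPM, hJ]
  have hrel0 : P.relIndex M ≠ 0 := by
    intro h
    rw [h, zero_mul] at hmul
    exact (pow_pos hp.pos _).ne hmul
  -- the finite family
  haveI : (powMonoidHom p : ↥E →* ↥E).range.FiniteIndex :=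
    ⟨by rw [hE]; exact (pow_pos hp.pos _).ne'⟩
  haveI : Finite (↥E ⧸ (powMonoidHom p : ↥E →* ↥E).range) :=
    Subgroup.finite_quotient_of_finiteIndex
  haveI : NeZero p := ⟨hp.ne_zero⟩
  let f : (↥E ⧸ (powMonoidHom p : ↥E →* ↥E).range) × (Fin t → ZMod p) → J := fun x =>
    lam ((Quotient.out x.1 : ↥E) : k) * ∏ i, lam (π i) ^ (x.2 i).val
  have hπW : ∀ i, π i ∈ W := fun i =>
    (le_sup_right : Subgroup.closure (Set.range π) ≤ W) (Subgroup.subset_closure ⟨i, rfl⟩)
  have hEW : E ≤ W := le_sup_left
  have hfM : ∀ x, f x ∈ M := by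
    intro x
    refine (le_sup_right : W.map lam ≤ M) ?_
    refine mul_mem (Subgroup.mem_map_of_mem _ (hEW (Quotient.out x.1 : ↥E).2)) ?_
    exact Subgroup.prod_mem _ fun i _ => pow_mem (Subgroup.mem_map_of_mem _ (hπW i)) _
  have hinj : ∀ x y, (f x)⁻¹ * f y ∈ P → x = y := by
    rintro ⟨u, m⟩ ⟨u', m'⟩ h
    -- the element of `W`
    set w : k := ((Quotient.out u : ↥E) : k)⁻¹ * ((Quotient.out u' : ↥E) : k) *
      ∏ i, ((π i) ^ (m i).val)⁻¹ * (π i) ^ (m' i).val with hw
    have hwW : w ∈ W := by
      refine mul_mem (mul_mem (inv_mem (hEW (Quotient.out u : ↥E).2))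
        (hEW (Quotient.out u' : ↥E).2)) ?_
      exact Subgroup.prod_mem _ fun i _ =>
        mul_mem (inv_mem (pow_mem (hπW i) _)) (pow_mem (hπW i) _)
    have hlw : lam w = (f (u, m))⁻¹ * f (u', m') := by
      show lam w = (lam ((Quotient.out u : ↥E) : k) * ∏ i, lam (π i) ^ (m i).val)⁻¹ *
        (lam ((Quotient.out u' : ↥E) : k) * ∏ i, lam (π i) ^ (m' i).val)
      rw [hw, map_mul, map_mul, map_inv, map_prod]
      simp_rw [map_mul, map_inv, map_pow]
      rw [Finset.prod_mul_distrib, Finset.prod_inv_distrib, mul_inv, mul_mul_mul_comm]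
    obtain ⟨b, hb⟩ := hkey w hwW (hlw ▸ h)
    -- valuations
    have hordw : ∀ j, ord j w = Multiplicative.ofAdd (((m' j).val : ℤ) - ((m j).val : ℤ)) := by
      intro j
      have h1 : ord j (((Quotient.out u : ↥E) : k)⁻¹ * ((Quotient.out u' : ↥E) : k)) = 1 := by
        rw [map_mul, map_inv, hordE j _ (Quotient.out u : ↥E).2,
          hordE j _ (Quotient.out u' : ↥E).2, inv_one, one_mul]
      have h2 : ∀ i, ord j (((π i) ^ (m i).val)⁻¹ * (π i) ^ (m' i).val) =
          Multiplicative.ofAdd (if j = i then ((m' i).val : ℤ) - ((m i).val : ℤ) else 0) := by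
        intro i
        rw [map_mul, map_inv, map_pow, map_pow, hord j i]
        by_cases hji : j = i
        · simp only [hji, if_true]
          rw [← ofAdd_nsmul, ← ofAdd_nsmul, ← ofAdd_neg, ← ofAdd_add]
          congr 1
          simp
          ring
        · simp only [hji, if_false]
          simp
      rw [hw, map_mul, h1, one_mul, map_prod]
      simp only [h2]
      rw [← ofAdd_sum, Finset.sum_ite_eq Finset.univ j]
      simp
    have hmm : m = m' := by
      funext j
      have h1 : ord j w = (ord j b) ^ p := by rw [hb, map_pow]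
      rw [hordw j] at h1
      have h2 : ((m' j).val : ℤ) - ((m j).val : ℤ) = p * Multiplicative.toAdd (ord j b) := by
        have := congrArg Multiplicative.toAdd h1
        rw [toAdd_ofAdd, toAdd_pow] at this
        rw [this]
        simp
      have h3 := congrArg (Int.cast : ℤ → ZMod p) h2
      push_cast at h3
      rw [ZMod.natCast_self, zero_mul, ZMod.natCast_zmod_val, ZMod.natCast_zmod_val] at h3
      exact (sub_eq_zero.mp h3).symm
    subst hmm
    have hw' : w = ((Quotient.out u : ↥E) : k)⁻¹ * ((Quotient.out u' : ↥E) : k) := by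
      rw [hw]
      have : ∏ i, ((π i) ^ (m i).val)⁻¹ * (π i) ^ (m i).val = 1 :=
        Finset.prod_eq_one fun i _ => inv_mul_cancel _
      rw [this, mul_one]
    have hbE : b ∈ E := by
      apply hsat
      rw [← hb, hw']
      exact mul_mem (inv_mem (Quotient.out u : ↥E).2) (Quotient.out u' : ↥E).2
    have huu' : u = u' := by
      rw [← Quotient.out_eq u, ← Quotient.out_eq u']
      apply QuotientGroup.eq.mpr
      refine ⟨⟨b, hbE⟩, ?_⟩
      apply Subtype.ext
      show b ^ p = _
      rw [← hb, hw']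
      rfl
    rw [huu']
  have hcard := card_le_relIndex_of_injOn P M hrel0 f hfM hinj
  have hcard' : Nat.card ((↥E ⧸ (powMonoidHom p : ↥E →* ↥E).range) × (Fin t → ZMod p)) =
      p ^ (s + t) := by
    rw [Nat.card_prod, ← Subgroup.index_eq_card, hE, Nat.card_eq_fintype_card,
      Fintype.card_fun, ZMod.card, Fintype.card_fin, pow_add]
  rw [hcard'] at hcard
  -- conclusion
  have hdvd : M.index ∣ p ^ (2 * s) := Dvd.intro_left _ hmul
  obtain ⟨j, hj, hMj⟩ := (Nat.dvd_prime_pow hp).mp hdvd
  have hle : p ^ (s + t) * p ^ j ≤ p ^ (2 * s) := by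
    rw [← hmul, hMj]
    exact Nat.mul_le_mul_right _ hcard
  rw [← pow_add] at hle
  have hj1 : s + t + j ≤ 2 * s := (Nat.pow_le_pow_iff_right hp.one_lt).mp hle
  have hj1' : j ≤ 1 := by omega
  rw [hMj]
  exact pow_dvd_pow p hj1' |>.trans (by rw [pow_one])

end Count

section Places

variable {E : Type*} [CommGroup E]

/-- A nontrivial element of `Multiplicative (ZMod p)` generates it. -/
theorem exists_pow_eq_of_ne_one (p : ℕ) [Fact p.Prime] {g : Multiplicative (ZMod p)} (hg : g ≠ 1)
    (h : Multiplicative (ZMod p)) : ∃ m : ℕ, g ^ m = h := by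
  have hp : p.Prime := Fact.out
  haveI : NeZero p := ⟨hp.ne_zero⟩
  have hg0 : Multiplicative.toAdd g ≠ 0 := fun h0 => hg (Multiplicative.toAdd.injective h0)
  refine ⟨(Multiplicative.toAdd h * (Multiplicative.toAdd g)⁻¹).val, ?_⟩
  apply Multiplicative.toAdd.injective
  rw [toAdd_pow, nsmul_eq_mul, ZMod.natCast_zmod_val, mul_assoc, inv_mul_cancel₀ hg0, mul_one]

/-- If `a ^ p ∈ P` then `P` has relative index at most `p` in `⟨a⟩ ⊔ P`. -/
theorem relIndex_zpowers_sup_le (p : ℕ) [Fact p.Prime] (P : Subgroup E) (a : E) (hap : a ^ p ∈ P)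
    (hfin : P.relIndex (Subgroup.zpowers a ⊔ P) ≠ 0) :
    P.relIndex (Subgroup.zpowers a ⊔ P) ≤ p := by
  classical
  have hp : p.Prime := Fact.out
  set H : Subgroup E := Subgroup.zpowers a ⊔ P with hH
  haveI : (P.subgroupOf H).FiniteIndex := ⟨hfin⟩
  haveI : Finite (↥H ⧸ P.subgroupOf H) := Subgroup.finite_quotient_of_finiteIndex
  have haH : ∀ i : ℕ, a ^ i ∈ H := fun i =>
    (le_sup_left : Subgroup.zpowers a ≤ H) (Subgroup.pow_mem _ (Subgroup.mem_zpowers a) i)
  let g : Fin p → ↥H ⧸ P.subgroupOf H := fun i => QuotientGroup.mk ⟨a ^ (i : ℕ), haH i⟩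
  have hg : Function.Surjective g := by
    intro x
    obtain ⟨⟨h, hh⟩, rfl⟩ := QuotientGroup.mk_surjective x
    obtain ⟨y, hy, z, hz, rfl⟩ := Subgroup.mem_sup.mp hh
    obtain ⟨m, rfl⟩ := Subgroup.mem_zpowers_iff.mp hy
    have hpos : (0 : ℤ) < p := by exact_mod_cast hp.pos
    have hmod : 0 ≤ m % (p : ℤ) := Int.emod_nonneg _ hpos.ne'
    have hlt : m % (p : ℤ) < p := Int.emod_lt_of_pos _ hpos
    obtain ⟨r, hr⟩ := Int.eq_ofNat_of_zero_le hmod
    have hrlt : r < p := by
      have : (r : ℤ) < p := hr ▸ hlt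
      exact_mod_cast this
    refine ⟨⟨r, hrlt⟩, ?_⟩
    apply QuotientGroup.eq.mpr
    rw [Subgroup.mem_subgroupOf]
    show (a ^ r)⁻¹ * (a ^ m * z) ∈ P
    have hm : m = p * (m / p) + r := by rw [← hr]; exact (Int.mul_ediv_add_emod m p).symm
    have h1 : (a ^ r)⁻¹ * (a ^ m * z) = (a ^ p) ^ (m / p) * z := by
      conv_lhs => rw [hm]
      rw [zpow_add, zpow_mul, zpow_natCast, zpow_natCast]
      rw [mul_comm ((a ^ p) ^ (m / (p : ℤ))) (a ^ r), mul_assoc, inv_mul_cancel_left]
    rw [h1]
    exact mul_mem (Subgroup.zpow_mem _ hap _) hz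
  have h1 := Nat.card_le_card_of_surjective g hg
  rw [Nat.card_fin] at h1
  rwa [Subgroup.relIndex, Subgroup.index_eq_card]

/-- **Choice of the auxiliary places.**  `E/E^p` has order `p^s`, `a ∉ E^p`, and the characters
`χ v` satisfy the Frobenius property: every `x ∉ ⟨a⟩·E^p` is detected by some `χ v` that kills
`a`, with `qof v` outside any prescribed finite set.  Then there are `s - 1` places with distinct
`qof`, outside `S`, killing `a`, whose characters are jointly surjective. -/
theorem exists_places (p : ℕ) [Fact p.Prime] (s : ℕ)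
    (hE : (powMonoidHom p : E →* E).range.index = p ^ s)
    (a : E) {Pl : Type*} (χ : Pl → E →* Multiplicative (ZMod p)) (qof : Pl → Nat.Primes)
    (hfrob : ∀ x : E, x ∉ Subgroup.zpowers a ⊔ (powMonoidHom p : E →* E).range →
      ∀ T : Finset Nat.Primes, ∃ v, qof v ∉ T ∧ χ v a = 1 ∧ χ v x ≠ 1)
    (S : Finset Nat.Primes) :
    ∃ T : Fin (s - 1) → Pl, Function.Injective (qof ∘ T) ∧ (∀ i, qof (T i) ∉ S) ∧
      (∀ i, χ (T i) a = 1) ∧
      ∀ c : Fin (s - 1) → Multiplicative (ZMod p), ∃ y : E, ∀ i, χ (T i) y = c i := by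
  classical
  have hp : p.Prime := Fact.out
  haveI : NeZero p := ⟨hp.ne_zero⟩
  set P : Subgroup E := (powMonoidHom p : E →* E).range with hP
  set H : Subgroup E := Subgroup.zpowers a ⊔ P with hH
  have hPH : P ≤ H := le_sup_right
  have hapP : a ^ p ∈ P := ⟨a, rfl⟩
  have key : ∀ n : ℕ, n ≤ s - 1 → ∃ T : Fin n → Pl, Function.Injective (qof ∘ T) ∧
      (∀ i, qof (T i) ∉ S) ∧ (∀ i, χ (T i) a = 1) ∧
      ∀ c : Fin n → Multiplicative (ZMod p), ∃ y : E, ∀ i, χ (T i) y = c i := by
    intro n
    induction n with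
    | zero =>
      intro _
      exact ⟨Fin.elim0, fun i => i.elim0, fun i => i.elim0, fun i => i.elim0,
        fun _ => ⟨1, fun i => i.elim0⟩⟩
    | succ n ih =>
      intro hn
      obtain ⟨T, hTinj, hTS, hTa, hTsurj⟩ := ih (by omega)
      -- an element of the joint kernel outside `H`
      have hx : ∃ x : E, (∀ i, χ (T i) x = 1) ∧ x ∉ H := by
        by_contra hcon
        have hcon : ∀ x : E, (∀ i, χ (T i) x = 1) → x ∈ H := fun x hx => by
          by_contra hxH
          exact hcon ⟨x, hx, hxH⟩
        let f : E →* (Fin n → Multiplicative (ZMod p)) := MonoidHom.pi fun i => χ (T i)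
        have hfsurj : Function.Surjective f := by
          intro c
          obtain ⟨y, hy⟩ := hTsurj c
          exact ⟨y, funext hy⟩
        have hker : f.ker ≤ H := by
          intro x hx
          refine hcon x fun i => ?_
          have := congrFun (MonoidHom.mem_ker.mp hx) i
          exact this
        have hidx : f.ker.index = p ^ n := by
          rw [Subgroup.index_ker, MonoidHom.range_eq_top.mpr hfsurj, Subgroup.card_top,
            Nat.card_eq_fintype_card, Fintype.card_fun, Fintype.card_fin]
          rw [Fintype.card_multiplicative, ZMod.card]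
        have hHdvd : H.index ∣ p ^ n := hidx ▸ Subgroup.index_dvd_of_le hker
        have hmul : P.relIndex H * H.index = p ^ s := by
          rw [Subgroup.relIndex_mul_index hPH, hE]
        have hH0 : H.index ≠ 0 := fun h0 => by
          rw [h0, mul_zero] at hmul
          exact (pow_pos hp.pos _).ne hmul
        have hrel0 : P.relIndex H ≠ 0 := fun h0 => by
          rw [h0, zero_mul] at hmul
          exact (pow_pos hp.pos _).ne hmul
        have hrel : P.relIndex H ≤ p := relIndex_zpowers_sup_le p P a hapP hrel0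
        have hHle : H.index ≤ p ^ n := Nat.le_of_dvd (pow_pos hp.pos _) hHdvd
        have : p ^ s ≤ p ^ (n + 1) := by
          rw [← hmul, pow_succ, mul_comm (p ^ n) p]
          exact Nat.mul_le_mul hrel hHle
        have := (Nat.pow_le_pow_iff_right hp.one_lt).mp this
        omega
      obtain ⟨x, hxker, hxH⟩ := hx
      obtain ⟨v, hvq, hva, hvx⟩ := hfrob x hxH (S ∪ Finset.univ.image (qof ∘ T))
      have hvS : qof v ∉ S := fun h => hvq (Finset.mem_union_left _ h)
      have hvT : ∀ i, qof (T i) ≠ qof v := fun i h =>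
        hvq (Finset.mem_union_right _ (Finset.mem_image.mpr ⟨i, Finset.mem_univ _, h⟩))
      refine ⟨Fin.snoc T v, ?_, ?_, ?_, ?_⟩
      · intro i j hij
        simp only [Function.comp_apply] at hij
        induction i using Fin.lastCases with
        | last =>
          induction j using Fin.lastCases with
          | last => rfl
          | cast j =>
            rw [Fin.snoc_last, Fin.snoc_castSucc] at hij
            exact absurd hij.symm (hvT j)
        | cast i =>
          induction j using Fin.lastCases with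
          | last =>
            rw [Fin.snoc_last, Fin.snoc_castSucc] at hij
            exact absurd hij (hvT i)
          | cast j =>
            rw [Fin.snoc_castSucc, Fin.snoc_castSucc] at hij
            rw [hTinj hij]
      · intro i
        induction i using Fin.lastCases with
        | last => rw [Fin.snoc_last]; exact hvS
        | cast i => rw [Fin.snoc_castSucc]; exact hTS i
      · intro i
        induction i using Fin.lastCases with
        | last => rw [Fin.snoc_last]; exact hva
        | cast i => rw [Fin.snoc_castSucc]; exact hTa i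
      · intro c
        obtain ⟨y₀, hy₀⟩ := hTsurj fun i => c i.castSucc
        obtain ⟨m, hm⟩ := exists_pow_eq_of_ne_one p hvx (c (Fin.last n) * (χ v y₀)⁻¹)
        refine ⟨y₀ * x ^ m, fun i => ?_⟩
        induction i using Fin.lastCases with
        | last =>
          rw [Fin.snoc_last, map_mul, map_pow, hm, mul_comm, inv_mul_cancel_right]
        | cast i =>
          rw [Fin.snoc_castSucc, map_mul, map_pow, hxker i, one_pow, mul_one, hy₀ i]
  exact key (s - 1) le_rfl

end Places

end Fermat.Agent.CFT.Global.L7
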