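import Mathlib

/-!
# Kummer idempotents: elements trivial off a split part are Galois norms

Abstract form of the step "if `a` is a `p`-th power on the `e`-part of a semilocal algebra and
`L = K(a^(1/p))`, then every `x` with `(1 - e) x = 1 - e` is a norm from `L`".

`B` is a commutative ring with an automorphism `τ` (a generator of the Galois group acting on the
semilocal algebra of `L`), `ζ` a `τ`-fixed `p`-th root of unity with `1 - ζ ^ k` invertible for
`0 < k < p`, `α` with `τ α = ζ α` (the Kummer generator), `e` a `τ`-fixed idempotent with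
`e α ^ p = e b ^ p` for a `τ`-fixed `b` invertible on the `e`-part.  Then every `τ`-fixed `x`
with `(1 - e) x = 1 - e` is `∏ i < p, τ ^ i y` for some `y` with `(1 - e) y = 1 - e`
(`exists_prod_pow_eq`).

The proof uses the elements `E i = e p⁻¹ ∑ k < p, ζ ^ (i k) (α b⁻¹) ^ k`: they are pairwise
orthogonal, sum to `e`, and are permuted cyclically by `τ`.
-/

set_option autoImplicit false

namespace Fermat.Agent.CFT.Global.KummerIdem

open Finset

variable {B : Type*} [CommRing B]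

/-- Geometric sums of a root of unity `ζ` with `1 - ζ ^ k` invertible vanish. -/
theorem sum_pow_mul_eq_zero {p : ℕ} {ζ : B} (hζ : ζ ^ p = 1)
    (hζu : ∀ k, 0 < k → k < p → IsUnit (1 - ζ ^ k)) {k : ℕ} (hk0 : 0 < k) (hkp : k < p) :
    ∑ i ∈ range p, ζ ^ (i * k) = 0 := by
  have h1 : (1 - ζ ^ k) * ∑ i ∈ range p, (ζ ^ k) ^ i = 1 - (ζ ^ k) ^ p := mul_neg_geom_sum _ _
  rw [← pow_mul, mul_comm k p, pow_mul, hζ, one_pow, sub_self] at h1
  have h2 := (hζu k hk0 hkp).mul_right_eq_zero.mp h1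
  rw [← h2]
  exact sum_congr rfl fun i _ => by rw [← pow_mul, mul_comm]

/-- A product of `1 + d f i` over pairwise orthogonal `f i`. -/
theorem prod_one_add_mul {ι : Type*} (s : Finset ι) (f : ι → B) (d : B)
    (hf : ∀ i ∈ s, ∀ j ∈ s, i ≠ j → f i * f j = 0) :
    ∏ i ∈ s, (1 + d * f i) = 1 + d * ∑ i ∈ s, f i := by
  classical
  induction s using Finset.induction_on with
  | empty => simp
  | insert a s ha ih =>
    rw [prod_insert ha, sum_insert ha,
      ih fun i hi j hj hij => hf i (mem_insert_of_mem hi) j (mem_insert_of_mem hj) hij]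
    have h0 : f a * ∑ i ∈ s, f i = 0 := by
      rw [mul_sum]
      exact sum_eq_zero fun i hi =>
        hf a (mem_insert_self a s) i (mem_insert_of_mem hi) (fun h => ha (h ▸ hi))
    linear_combination d ^ 2 * h0

/-- The `i`-th Kummer idempotent (times `e`): `e c ∑ k < p, ζ ^ (i k) u ^ k`, where `c = p⁻¹` and
`u = α b⁻¹`. -/
def idem (p : ℕ) (ζ u e c : B) (i : ℕ) : B := e * c * ∑ k ∈ range p, ζ ^ (i * k) * u ^ k

theorem sum_idem {p : ℕ} {ζ : B} (hζ : ζ ^ p = 1)
    (hζu : ∀ k, 0 < k → k < p → IsUnit (1 - ζ ^ k)) (hp : 0 < p) (u e : B) {c : B}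
    (hc : (p : B) * c = 1) : ∑ i ∈ range p, idem p ζ u e c i = e := by
  simp only [idem]
  rw [← mul_sum, sum_comm]
  have h1 : ∀ k ∈ range p, ∑ i ∈ range p, ζ ^ (i * k) * u ^ k =
      if k = 0 then (p : B) else 0 := by
    intro k hk
    rw [← sum_mul]
    split_ifs with h
    · subst h
      simp
    · rw [sum_pow_mul_eq_zero hζ hζu (Nat.pos_of_ne_zero h) (mem_range.mp hk), zero_mul]
  rw [sum_congr rfl h1, sum_ite_eq' (range p) 0, if_pos (mem_range.mpr hp)]
  linear_combination e * hc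

theorem idem_eigen {p : ℕ} {ζ : B} (hζ : ζ ^ p = 1) {u e : B} (hu : e * u ^ p = e) (c : B)
    (i : ℕ) : ζ ^ i * u * idem p ζ u e c i = idem p ζ u e c i := by
  simp only [idem]
  have h1 : ζ ^ i * u * (e * c * ∑ k ∈ range p, ζ ^ (i * k) * u ^ k) =
      e * c * ∑ k ∈ range p, ζ ^ (i * (k + 1)) * u ^ (k + 1) := by
    rw [mul_sum, mul_sum, mul_sum]
    exact sum_congr rfl fun k _ => by ring
  have h2 := sum_range_succ (fun k => ζ ^ (i * k) * u ^ k) p
  have h3 := sum_range_succ' (fun k => ζ ^ (i * k) * u ^ k) p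
  simp only [mul_zero, pow_zero, mul_one] at h3
  have h4 : ζ ^ (i * p) = 1 := by rw [mul_comm, pow_mul, hζ, one_pow]
  rw [h1]
  have h5 : ∑ k ∈ range p, ζ ^ (i * (k + 1)) * u ^ (k + 1) =
      ∑ k ∈ range p, ζ ^ (i * k) * u ^ k + ζ ^ (i * p) * u ^ p - 1 := by
    rw [← h2, h3]; ring
  rw [h5, h4]
  linear_combination c * hu

theorem idem_mul_idem {p : ℕ} {ζ : B} (hζ : ζ ^ p = 1)
    (hζu : ∀ k, 0 < k → k < p → IsUnit (1 - ζ ^ k)) {u e : B} (hu : e * u ^ p = e) (c : B)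
    {i j : ℕ} (hij : i < j) (hj : j < p) : idem p ζ u e c i * idem p ζ u e c j = 0 := by
  have hi := idem_eigen hζ hu c i
  have hj' := idem_eigen hζ hu c j
  set Ei := idem p ζ u e c i
  set Ej := idem p ζ u e c j
  have hζi : IsUnit (ζ ^ i) := by
    refine IsUnit.pow i (IsUnit.of_mul_eq_one (ζ ^ (p - 1)) ?_)
    rw [← pow_succ', Nat.sub_add_cancel (by omega), hζ]
  have h1 : (ζ ^ i * (1 - ζ ^ (j - i))) * (u * Ei * Ej) = 0 := by
    have h2 : ζ ^ i * ζ ^ (j - i) = ζ ^ j := by rw [← pow_add, Nat.add_sub_cancel' hij.le]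
    linear_combination Ej * hi - Ei * hj' - u * Ei * Ej * h2
  have h3 : u * Ei * Ej = 0 :=
    (hζi.mul (hζu (j - i) (by omega) (by omega))).mul_right_eq_zero.mp h1
  linear_combination Ej * (-hi) + ζ ^ i * h3

theorem idem_mul_idem_of_ne {p : ℕ} {ζ : B} (hζ : ζ ^ p = 1)
    (hζu : ∀ k, 0 < k → k < p → IsUnit (1 - ζ ^ k)) {u e : B} (hu : e * u ^ p = e) (c : B)
    {i j : ℕ} (hi : i < p) (hj : j < p) (hij : i ≠ j) :
    idem p ζ u e c i * idem p ζ u e c j = 0 := by
  rcases lt_or_gt_of_ne hij with h | h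
  · exact idem_mul_idem hζ hζu hu c h hj
  · rw [mul_comm]
    exact idem_mul_idem hζ hζu hu c h hi

theorem map_idem (τ : B ≃+* B) {p : ℕ} {ζ u e c : B} (hτζ : τ ζ = ζ) (hτu : τ u = ζ * u)
    (hτe : τ e = e) (hτc : τ c = c) (i : ℕ) :
    τ (idem p ζ u e c i) = idem p ζ u e c (i + 1) := by
  simp only [idem, map_mul, map_sum, map_pow, hτζ, hτu, hτe, hτc]
  congr 1
  exact sum_congr rfl fun k _ => by ring

theorem pow_apply_idem (τ : B ≃+* B) {p : ℕ} {ζ u e c : B} (hτζ : τ ζ = ζ)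
    (hτu : τ u = ζ * u) (hτe : τ e = e) (hτc : τ c = c) (i : ℕ) :
    (τ ^ i) (idem p ζ u e c 0) = idem p ζ u e c i := by
  induction i with
  | zero => rfl
  | succ i ih =>
    rw [pow_succ', RingAut.mul_apply, ih, map_idem τ hτζ hτu hτe hτc]

theorem pow_apply_of_fixed (τ : B ≃+* B) {x : B} (hτx : τ x = x) (i : ℕ) : (τ ^ i) x = x := by
  induction i with
  | zero => rfl
  | succ i ih => rw [pow_succ', RingAut.mul_apply, ih, hτx]

/-- **Elements trivial off a split part are Galois norms.** -/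
theorem exists_prod_pow_eq (τ : B ≃+* B) {p : ℕ} (hp : 0 < p) {ζ : B} (hζ : ζ ^ p = 1)
    (hζu : ∀ k, 0 < k → k < p → IsUnit (1 - ζ ^ k)) (hpu : IsUnit (p : B)) (hτζ : τ ζ = ζ)
    {α b b' e x : B} (hτα : τ α = ζ * α) (hτb' : τ b' = b') (hτe : τ e = e) (hτx : τ x = x)
    (he : e * e = e) (hab : e * α ^ p = e * b ^ p) (hbb' : e * (b * b') = e)
    (hx : (1 - e) * x = 1 - e) :
    ∃ y : B, ∏ i ∈ range p, (τ ^ i) y = x ∧ (1 - e) * y = 1 - e ∧ (IsUnit x → IsUnit y) := by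
  obtain ⟨c, hc⟩ := hpu.exists_right_inv
  have hτc : τ c = c := by
    have h1 : τ c * (p : B) = 1 := by
      rw [← map_natCast τ p, ← map_mul, mul_comm, hc, map_one]
    calc τ c = τ c * ((p : B) * c) := by rw [hc, mul_one]
      _ = τ c * (p : B) * c := by ring
      _ = c := by rw [h1, one_mul]
  set u : B := α * b' with hu_def
  have hτu : τ u = ζ * u := by rw [hu_def, map_mul, hτα, hτb']; ring
  have hbbp : ∀ n : ℕ, e * (b * b') ^ n = e := by
    intro n
    induction n with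
    | zero => simp
    | succ n ih => rw [pow_succ, ← mul_assoc, ih, hbb']
  have hu : e * u ^ p = e := by
    rw [hu_def, mul_pow, ← mul_assoc, hab, mul_assoc, ← mul_pow, hbbp]
  have hprod : ∀ y : B, y = 1 + (x - 1) * idem p ζ u e c 0 →
      ∏ i ∈ range p, (τ ^ i) y = x := by
    intro y hy
    have h1 : ∀ i ∈ range p, (τ ^ i) y = 1 + (x - 1) * idem p ζ u e c i := by
      intro i _
      rw [hy, map_add, map_one, map_mul, map_sub, map_one, pow_apply_of_fixed τ hτx,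
        pow_apply_idem τ hτζ hτu hτe hτc]
    rw [prod_congr rfl h1, prod_one_add_mul _ _ _ (fun i hi j hj hij =>
      idem_mul_idem_of_ne hζ hζu hu c (mem_range.mp hi) (mem_range.mp hj) hij),
      sum_idem hζ hζu hp u e hc]
    linear_combination (-1 : B) * hx
  refine ⟨1 + (x - 1) * idem p ζ u e c 0, hprod _ rfl, ?_, ?_⟩
  · have h0 : (1 - e) * idem p ζ u e c 0 = 0 := by
      simp only [idem]
      linear_combination (-(c * ∑ k ∈ range p, ζ ^ (0 * k) * u ^ k)) * he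
    linear_combination (x - 1) * h0
  · intro hxu
    have h1 := hprod _ rfl
    obtain ⟨q, rfl⟩ : ∃ q, p = q + 1 := ⟨p - 1, by omega⟩
    rw [prod_range_succ', pow_zero, RingAut.one_apply, mul_comm] at h1
    rw [← h1] at hxu
    exact isUnit_of_mul_isUnit_left hxu

/-- The hypothesis on `ζ` holds for the image of a primitive root of unity of a field. -/
theorem isUnit_one_sub_pow_of_field {F : Type*} [Field F] (φ : F →+* B) {p : ℕ} {ζ₀ : F}
    (hζ₀ : IsPrimitiveRoot ζ₀ p) {k : ℕ} (hk0 : 0 < k) (hkp : k < p) :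
    IsUnit (1 - (φ ζ₀) ^ k) := by
  rw [← map_pow, ← map_one φ, ← map_sub]
  apply IsUnit.map
  rw [isUnit_iff_ne_zero, sub_ne_zero]
  exact fun h => (hζ₀.pow_ne_one_of_pos_of_lt hk0.ne' hkp) h.symm

/-- `exists_prod_pow_eq` with `ζ` the image of a primitive `p`-th root of unity of a field `F`
mapping to `B` (e.g. `F = K`, `B = L ⊗ ℚ_q`), in terms of units. -/
theorem exists_unit_prod_pow_eq {F : Type*} [Field F] (φ : F →+* B) (τ : B ≃+* B)
    (hτφ : ∀ a : F, τ (φ a) = φ a) {p : ℕ} (hp : 0 < p) {ζ₀ : F} (hζ₀ : IsPrimitiveRoot ζ₀ p)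
    (hpF : (p : F) ≠ 0) {α b b' e : B} (x : Bˣ) (hτα : τ α = φ ζ₀ * α) (hτb' : τ b' = b')
    (hτe : τ e = e) (hτx : τ (x : B) = x) (he : e * e = e) (hab : e * α ^ p = e * b ^ p)
    (hbb' : e * (b * b') = e) (hx : (1 - e) * (x : B) = 1 - e) :
    ∃ y : Bˣ, ∏ i ∈ range p, (τ ^ i) (y : B) = x ∧ (1 - e) * (y : B) = 1 - e := by
  have hζ : (φ ζ₀) ^ p = 1 := by rw [← map_pow, hζ₀.pow_eq_one, map_one]
  have hpu : IsUnit (p : B) := by
    rw [← map_natCast φ p]
    exact (isUnit_iff_ne_zero.mpr hpF).map φ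
  obtain ⟨y, h1, h2, h3⟩ := exists_prod_pow_eq τ hp hζ
    (fun k hk0 hkp => isUnit_one_sub_pow_of_field φ hζ₀ hk0 hkp) hpu (hτφ ζ₀) hτα hτb' hτe hτx he
    hab hbb' hx
  exact ⟨(h3 x.isUnit).unit, h1, h2⟩

end Fermat.Agent.CFT.Global.KummerIdem
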