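import Mathlib
import Fermat.Agent.CFT.Global.L7Plan
import Fermat.Agent.CFT.Global.KummerIdem

/-!
# CFT program, layer Global, L7: the split part `[L7.4]` (helper40)

`splitNorm : Plan.SplitNorm p K L`: for `L = K(α)`, `α ^ p = a`, of degree `p` over `K ∋ ζ_p`, if
`a` is a `p`-th power on the `e`-part of `A_q(K)` then every unit of `A_q(K)` supported on the
`e`-part is a Galois norm from `A_q(L)`.

The algebra is in `KummerIdem.exists_unit_prod_pow_eq`; this file supplies the Kummer generator
`τ` of `Gal(L/K)` (`τ α = ζ α`), the fact that `Gal(L/K) = {τ ^ i | i < p}`, and the translation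
to the vocabulary of `L7Defs`.
-/

set_option autoImplicit false

noncomputable section

namespace Fermat.Agent.CFT.Global.L7Split

open TensorProduct Polynomial IntermediateField
open Fermat.Agent.CFT.Global.L7

section GalAct

variable (K L : Type) [Field K] [NumberField K] [Field L] [NumberField L] [Algebra K L]

theorem galAct_mul (q : Nat.Primes) (g h : L ≃ₐ[K] L) (z : Aq L q) :
    galAct K L q (g * h) z = galAct K L q g (galAct K L q h z) := by
  induction z using TensorProduct.induction_on with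
  | zero => rw [map_zero, map_zero, map_zero]
  | tmul x c => rfl
  | add x y hx hy => rw [map_add, map_add, map_add, hx, hy]

theorem galAct_one (q : Nat.Primes) (z : Aq L q) : galAct K L q (1 : L ≃ₐ[K] L) z = z := by
  induction z using TensorProduct.induction_on with
  | zero => rw [map_zero]
  | tmul x c => rfl
  | add x y hx hy => rw [map_add, hx, hy]

theorem galAct_pow (q : Nat.Primes) (g : L ≃ₐ[K] L) (i : ℕ) (z : Aq L q) :
    galAct K L q (g ^ i) z = ((galAct K L q g) ^ i) z := by
  induction i generalizing z with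
  | zero => rw [pow_zero, pow_zero, galAct_one, RingAut.one_apply]
  | succ i ih => rw [pow_succ, pow_succ, galAct_mul, ih, RingAut.mul_apply]

theorem galAct_baseCh (q : Nat.Primes) (g : L ≃ₐ[K] L) (z : Aq K q) :
    galAct K L q g (baseCh K L q z) = baseCh K L q z := by
  induction z using TensorProduct.induction_on with
  | zero => rw [map_zero, map_zero]
  | tmul x c => rw [baseCh_tmul, galAct_tmul, g.commutes]
  | add x y hx hy => rw [map_add, map_add, hx, hy]

end GalAct

section Kummer

variable {K L : Type} [Field K] [Field L] [Algebra K L] [FiniteDimensional K L]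

/-- The degree of `K(α)/K`, `α ^ p = a`, is `p` as soon as the automorphism group has order
`p`. -/
theorem finrank_eq_of_card {p : ℕ} (hcard : Nat.card (L ≃ₐ[K] L) = p) {a : K} {α : L}
    (hα : α ^ p = algebraMap K L a) (htop : K⟮α⟯ = ⊤) : Module.finrank K L = p := by
  have hp : 0 < p := hcard ▸ Nat.card_pos
  apply le_antisymm
  · rw [← (Field.primitive_element_iff_minpoly_natDegree_eq K α).mp htop]
    have hdvd : minpoly K α ∣ X ^ p - C a := by
      apply minpoly.dvd
      rw [map_sub, map_pow, aeval_X, aeval_C, hα, sub_self]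
    have := natDegree_le_of_dvd hdvd (X_pow_sub_C_ne_zero hp a)
    rwa [natDegree_X_pow_sub_C] at this
  · rw [← hcard, Nat.card_eq_fintype_card]
    exact AlgEquiv.card_le

/-- The Kummer generator of the Galois group and the fact that its powers exhaust the group. -/
theorem exists_kummer_generator {p : ℕ} {ζ : K} (hζ : IsPrimitiveRoot ζ p)
    (hcard : Nat.card (L ≃ₐ[K] L) = p) {a : K} (ha : a ≠ 0) {α : L}
    (hα : α ^ p = algebraMap K L a) (htop : K⟮α⟯ = ⊤) :
    ∃ τ : L ≃ₐ[K] L, τ α = algebraMap K L ζ * α ∧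
      Function.Bijective (fun i : Fin p => τ ^ (i : ℕ)) := by
  have hp : 0 < p := hcard ▸ Nat.card_pos
  have hfin : Module.finrank K L = p := finrank_eq_of_card hcard hα htop
  have hα0 : α ≠ 0 := by
    rintro rfl
    rw [zero_pow hp.ne'] at hα
    exact ha ((map_eq_zero (algebraMap K L)).mp hα.symm)
  subst hfin
  have hK : (primitiveRoots (Module.finrank K L) K).Nonempty :=
    ⟨ζ, (mem_primitiveRoots hp).mpr hζ⟩
  have : NeZero (Module.finrank K L) := ⟨hp.ne'⟩
  have H : Irreducible (X ^ (Module.finrank K L) - C a) :=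
    irreducible_X_pow_sub_C_of_root_adjoin_eq_top hα htop
  have := isSplittingField_X_pow_sub_C_of_root_adjoin_eq_top hK hα htop
  set τ : L ≃ₐ[K] L := (autEquivZmod H L hζ).symm (Multiplicative.ofAdd ((1 : ℕ) : ZMod _))
    with hτdef
  have hτ : τ α = algebraMap K L ζ * α := by
    rw [hτdef, autEquivZmod_symm_apply_natCast H L hα hζ 1, pow_one, Algebra.smul_def]
  have hpow : ∀ i : ℕ, (τ ^ i) α = algebraMap K L (ζ ^ i) * α := by
    intro i
    induction i with
    | zero => rw [pow_zero, pow_zero, map_one, one_mul, AlgEquiv.one_apply]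
    | succ i ih =>
      rw [pow_succ, AlgEquiv.mul_apply, hτ, map_mul, AlgEquiv.commutes, ih, pow_succ, map_mul]
      ring
  refine ⟨τ, hτ, (Fintype.bijective_iff_injective_and_card _).mpr ⟨?_, ?_⟩⟩
  · intro i j hij
    have h1 : (τ ^ (i : ℕ)) α = (τ ^ (j : ℕ)) α := congrArg (fun g : L ≃ₐ[K] L => g α) hij
    rw [hpow, hpow] at h1
    have h2 : ζ ^ (i : ℕ) = ζ ^ (j : ℕ) :=
      (algebraMap K L).injective (mul_right_cancel₀ hα0 h1)
    exact Fin.ext (hζ.pow_inj i.2 j.2 h2)
  · rw [Fintype.card_fin, ← Nat.card_eq_fintype_card, hcard]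

end Kummer

section Main

variable (p : ℕ) (K L : Type) [Field K] [NumberField K] [Field L] [NumberField L] [Algebra K L]
  [FiniteDimensional K L]

/-- **[L7.4] split part.** -/
theorem splitNorm : Plan.SplitNorm p K L := by
  intro ζ hζ hcard a α hα htop q e he hy x
  obtain ⟨y, hy⟩ := hy
  have hp : 0 < p := hcard ▸ Nat.card_pos
  obtain ⟨τ, hτα, hbij⟩ := exists_kummer_generator hζ hcard a.ne_zero hα htop
  -- the data in `B = A_q(L)`
  set φ : K →+* Aq L q :=
    (Algebra.TensorProduct.includeLeftRingHom : L →+* L ⊗[ℚ] ℚ_[(q : ℕ)]).comp (algebraMap K L)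
    with hφ
  have hφ_apply : ∀ k : K, φ k = (algebraMap K L k) ⊗ₜ[ℚ] (1 : ℚ_[(q : ℕ)]) := fun _ => rfl
  set τB : Aq L q ≃+* Aq L q := galAct K L q τ with hτB
  set xB : (Aq L q)ˣ := Units.map (baseCh K L q : Aq K q →* Aq L q) (part e he x) with hxB
  have hxB_val : (xB : Aq L q) = baseCh K L q (e * (x : Aq K q) + (1 - e)) := rfl
  have hee : e * e = e := he
  have hyv : e * ((a : K) ⊗ₜ[ℚ] (1 : ℚ_[(q : ℕ)])) + (1 - e) = (y : Aq K q) ^ p := by
    have := congrArg (fun u : (Aq K q)ˣ => (u : Aq K q)) hy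
    simpa only [part_val, loc_val, Units.val_pow_eq_pow_val] using this
  obtain ⟨yB, hprod, -⟩ := KummerIdem.exists_unit_prod_pow_eq (B := Aq L q) φ τB
    (fun k => by rw [hφ_apply, hτB, galAct_tmul, τ.commutes]) hp hζ
    (Nat.cast_ne_zero.mpr hp.ne') (α := α ⊗ₜ[ℚ] (1 : ℚ_[(q : ℕ)]))
    (b := baseCh K L q (y : Aq K q)) (b' := baseCh K L q ((y⁻¹ : (Aq K q)ˣ) : Aq K q))
    (e := baseCh K L q e) xB
    (by rw [hτB, galAct_tmul, hτα, hφ_apply, Algebra.TensorProduct.tmul_mul_tmul, mul_one])
    (galAct_baseCh K L q τ _) (galAct_baseCh K L q τ _)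
    (by rw [hxB_val]; exact galAct_baseCh K L q τ _)
    (by rw [← map_mul, hee])
    (by
      rw [Algebra.TensorProduct.tmul_pow, one_pow, hα, ← baseCh_tmul, ← map_pow, ← map_mul,
        ← map_mul]
      congr 1
      rw [← hyv]
      linear_combination (1 - (a : K) ⊗ₜ[ℚ] (1 : ℚ_[(q : ℕ)])) * hee)
    (by rw [← map_mul, ← Units.val_mul, mul_inv_cancel, Units.val_one, map_one, mul_one])
    (by
      rw [hxB_val, ← map_one (baseCh K L q), ← map_sub, ← map_mul]
      congr 1
      linear_combination (1 - (x : Aq K q)) * hee)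
  refine ⟨yB, Units.ext ?_⟩
  rw [normq_apply, Units.coe_prod, ← hprod, Finset.prod_range,
    ← Fintype.prod_bijective _ hbij _ _ (fun _ => rfl)]
  refine Finset.prod_congr rfl fun i _ => ?_
  exact galAct_pow K L q τ i yB

end Main

end Fermat.Agent.CFT.Global.L7Split
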