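/-
CFT program, layer Global, L7 (second inequality): the Frobenius property `[L7.8]` (helper1).

`frob`: let `K ∋ ζ_p`, `a, x ∈ K_S` with `x ∉ ⟨a⟩ · Kˣᵖ`, and `T` a finite set of rational primes.
Then there is a place `(q, e)` (`e` a primitive idempotent of `A_q(K)`), `q ∉ T`, at which `a` is
a `p`-th power and `x` is not.  This is the hypothesis `hfrob` of `L7Count.exists_places`.

Hypothesis form over the props of `L7Plan.lean` (`FirstIneq`, `KummerField`, `KummerSat`,
`WeakApprox`, `PlaceChar`); the split part `[L7.4]` is used through `L7Split.splitNorm`.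

Proof.  `F := K(a^{1/p})` (or `K`), `N := F(x^{1/p})`.  If the conclusion failed, `x` would be a
`p`-th power in `A_q(F)` for all `q ∉ T ∪ S ∪ {p}` (componentwise over the primitive idempotents
of `A_q(K)`), so every element of `A_q(F)ˣ` would be a norm from `N` there; weak approximation at
the remaining primes then gives `J_S(F) = F_S · N J_S(N)`, contradicting the first inequality.

Unconditional by-products: `exists_primIdem_decomp` (the complete decomposition of `1 ∈ A_q(K)`
into primitive idempotents) and `prod_part_eq`.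
-/
import Mathlib
import Fermat.Agent.CFT.Global.L7Plan
import Fermat.Agent.CFT.Global.L7Split
import Fermat.Agent.CFT.Global.L7Count

set_option autoImplicit false
set_option linter.style.haveILetI false

noncomputable section

namespace Fermat.Agent.CFT.Global.L7Frobenius

open TensorProduct
open Fermat.Agent.CFT.Global.L7

universe u

/-! ### Idempotents and parts -/

section Idem

variable {A B : Type*} [CommRing A] [CommRing B]

theorem part_one (h : IsIdempotentElem (1 : A)) (x : Aˣ) : part 1 h x = x :=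
  Units.ext (by rw [part_val]; ring)

theorem map_part (f : A →+* B) (e : A) (he : IsIdempotentElem e) (he' : IsIdempotentElem (f e))
    (x : Aˣ) :
    Units.map (f : A →* B) (part e he x) = part (f e) he' (Units.map (f : A →* B) x) := by
  apply Units.ext
  rw [part_val, Units.coe_map, part_val, Units.coe_map]
  simp only [MonoidHom.coe_coe, map_add, map_mul, map_sub, map_one]

theorem prod_part_val {ι : Type*} (s : Finset ι) (e : ι → A) (he : ∀ i, IsIdempotentElem (e i))
    (horth : ∀ i j, i ≠ j → e i * e j = 0) (x : Aˣ) :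
    ((∏ i ∈ s, part (e i) (he i) x : Aˣ) : A) = (∑ i ∈ s, e i) * x + (1 - ∑ i ∈ s, e i) := by
  classical
  induction s using Finset.induction_on with
  | empty => simp
  | insert j s hj ih =>
    rw [Finset.prod_insert hj, Finset.sum_insert hj, Units.val_mul, ih, part_val]
    have h0 : e j * ∑ i ∈ s, e i = 0 := by
      rw [Finset.mul_sum]
      refine Finset.sum_eq_zero fun i hi => horth j i ?_
      rintro rfl
      exact hj hi
    linear_combination ((x : A) ^ 2 - 2 * (x : A) + 1) * h0

/-- The product of the parts of a unit over a complete orthogonal family of idempotents is the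
unit itself. -/
theorem prod_part_eq {ι : Type*} [Fintype ι] (e : ι → A) (he : ∀ i, IsIdempotentElem (e i))
    (horth : ∀ i j, i ≠ j → e i * e j = 0) (hsum : ∑ i, e i = 1) (x : Aˣ) :
    ∏ i, part (e i) (he i) x = x := by
  apply Units.ext
  rw [prod_part_val Finset.univ e he horth x, hsum]
  ring

/-- A reduced artinian ring has a complete orthogonal family of primitive idempotents. -/
theorem exists_primIdem_decomp_of_artinian (R : Type u) [CommRing R] [IsArtinianRing R]
    [IsReduced R] :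
    ∃ (ι : Type u) (_ : Fintype ι) (e : ι → R), (∀ i, IsPrimIdem (e i)) ∧
      (∀ i j, i ≠ j → e i * e j = 0) ∧ ∑ i, e i = 1 := by
  classical
  haveI : Fintype (MaximalSpectrum R) := Fintype.ofFinite _
  set φ : R ≃+* ((I : MaximalSpectrum R) → R ⧸ I.asIdeal) :=
    (IsArtinianRing.equivPi R).toRingEquiv with hφ
  have hsingle : ∀ (i : MaximalSpectrum R) (x : (I : MaximalSpectrum R) → R ⧸ I.asIdeal),
      Pi.single i (1 : R ⧸ i.asIdeal) * x = Pi.single i (x i) := by
    intro i x
    funext j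
    by_cases hji : j = i
    · subst hji
      simp
    · simp [Pi.single_eq_of_ne hji]
  refine ⟨MaximalSpectrum R, inferInstance, fun i => φ.symm (Pi.single i 1), ?_, ?_, ?_⟩
  · intro i
    haveI := i.isMaximal
    refine ⟨?_, ?_, ?_⟩
    · show φ.symm (Pi.single i 1) * φ.symm (Pi.single i 1) = φ.symm (Pi.single i 1)
      rw [← map_mul, hsingle, Pi.single_eq_same]
    · intro h
      have h1 : (Pi.single i (1 : R ⧸ i.asIdeal) : (I : MaximalSpectrum R) → R ⧸ I.asIdeal) = 0 := by
        have := congrArg φ h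
        rwa [RingEquiv.apply_symm_apply, map_zero] at this
      have h2 := congrFun h1 i
      rw [Pi.single_eq_same, Pi.zero_apply] at h2
      exact one_ne_zero h2
    · intro x hx
      have hxi : φ x i ≠ 0 := by
        intro h0
        apply hx
        apply φ.injective
        rw [map_mul, RingEquiv.apply_symm_apply, hsingle, h0, Pi.single_zero, map_zero]
      obtain ⟨b, hb⟩ := Ideal.Quotient.exists_inv hxi
      refine ⟨φ.symm (Pi.single i b), ?_⟩
      apply φ.injective
      rw [map_mul, map_mul, RingEquiv.apply_symm_apply, RingEquiv.apply_symm_apply, hsingle,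
        ← Pi.single_mul, hb]
  · intro i j hij
    rw [← map_mul, hsingle, Pi.single_eq_of_ne hij, Pi.single_zero, map_zero]
  · rw [← map_sum, Finset.univ_sum_single]
    exact map_one φ.symm

end Idem

/-! ### The semilocal algebra `A_q(K)` -/

section Semilocal

variable (K : Type) [Field K] [NumberField K]

theorem isArtinianRing_Aq (q : Nat.Primes) : IsArtinianRing (Aq K q) := by
  have : IsArtinianRing (ℚ_[(q : ℕ)] ⊗[ℚ] K) :=
    IsArtinianRing.of_finite ℚ_[(q : ℕ)] (ℚ_[(q : ℕ)] ⊗[ℚ] K)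
  exact (Algebra.TensorProduct.comm ℚ ℚ_[(q : ℕ)] K).toRingEquiv.isArtinianRing

theorem isReduced_Aq (q : Nat.Primes) : IsReduced (Aq K q) := by
  have : Algebra.FormallyUnramified ℚ K := Algebra.FormallyUnramified.of_isSeparable ℚ K
  have : IsReduced (ℚ_[(q : ℕ)] ⊗[ℚ] K) :=
    Algebra.FormallyUnramified.isReduced_of_field ℚ_[(q : ℕ)] (ℚ_[(q : ℕ)] ⊗[ℚ] K)
  exact isReduced_of_injective (Algebra.TensorProduct.comm ℚ K ℚ_[(q : ℕ)])
    (Algebra.TensorProduct.comm ℚ K ℚ_[(q : ℕ)]).injective

/-- **Decomposition into places**: `1 ∈ A_q(K)` is the sum of a finite family of pairwise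
orthogonal primitive idempotents. -/
theorem exists_primIdem_decomp (q : Nat.Primes) :
    ∃ (ι : Type) (_ : Fintype ι) (e : ι → Aq K q), (∀ i, IsPrimIdem (e i)) ∧
      (∀ i j, i ≠ j → e i * e j = 0) ∧ ∑ i, e i = 1 := by
  haveI := isArtinianRing_Aq K q
  haveI := isReduced_Aq K q
  exact exists_primIdem_decomp_of_artinian (Aq K q)

variable (F : Type) [Field F] [NumberField F] [Algebra K F]

theorem map_loc (q : Nat.Primes) (u : Kˣ) :
    Units.map (baseCh K F q : Aq K q →* Aq F q) (loc K q u) =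
      loc F q (Units.map (algebraMap K F : K →* F) u) :=
  Units.ext rfl

variable {K F} in
/-- `p`-th powers are norms from an extension with `p` automorphisms. -/
theorem isNormq_pow [FiniteDimensional K F] {p : ℕ} (hcard : Nat.card (F ≃ₐ[K] F) = p)
    (q : Nat.Primes) (z : (Aq K q)ˣ) : IsNormq K F q (z ^ p) := by
  refine ⟨Units.map (baseCh K F q : Aq K q →* Aq F q) z, ?_⟩
  have h : ∀ g : F ≃ₐ[K] F,
      Units.map ((galAct K F q g : Aq F q ≃+* Aq F q) : Aq F q →* Aq F q)
        (Units.map (baseCh K F q : Aq K q →* Aq F q) z) =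
      Units.map (baseCh K F q : Aq K q →* Aq F q) z := by
    intro g
    apply Units.ext
    exact L7Split.galAct_baseCh K F q g _
  rw [normq_apply, Finset.prod_congr rfl (fun g _ => h g), Finset.prod_const, Finset.card_univ,
    ← Nat.card_eq_fintype_card, hcard, map_pow]

end Semilocal

/-! ### The Frobenius property -/

section Frob

/-- **Step 0**: a unit of `F ∋ ζ_p` that is not a `p`-th power is not a `p`-th power in
`A_q(F)` for some `q` outside any given finite set (from the first inequality for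
`F(x^{1/p})/F`). -/
theorem exists_not_pow_aux (p : ℕ) (hFI : Plan.FirstIneq p)
    (F : Type) [Field F] [NumberField F]
    (hKF : Plan.KummerField p F) (hWA : Plan.WeakApprox p F)
    (ζ : F) (hζ : IsPrimitiveRoot ζ p) (x : Fˣ) (hx : ∀ c : Fˣ, c ^ p ≠ x)
    (T : Finset Nat.Primes) :
    ∃ q : Nat.Primes, q ∉ T ∧ ¬ ∃ y : (Aq F q)ˣ, loc F q x = y ^ p := by
  classical
  by_contra hcon
  have h3a : ∀ q : Nat.Primes, q ∉ T → ∃ y : (Aq F q)ˣ, loc F q x = y ^ p := by
    intro q hq
    by_contra h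
    exact hcon ⟨q, hq, h⟩
  -- the Kummer extension `N = F(x^{1/p})`
  obtain ⟨N, _, _, _, _, _, hcardN, ξ, hξ, hadj⟩ := hKF ζ hζ x hx
  have h3b : ∀ q : Nat.Primes, q ∉ T → ∀ z : (Aq F q)ˣ, IsNormq F N q z := by
    intro q hq z
    obtain ⟨y, hy⟩ := h3a q hq
    have h1 : IsIdempotentElem (1 : Aq F q) := IsIdempotentElem.one
    have h2 := L7Split.splitNorm p F N ζ hζ hcardN x ξ hξ hadj q 1 h1
      ⟨y, by rw [part_one]; exact hy⟩ z
    rwa [part_one] at h2
  obtain ⟨S₁, hS₁⟩ := hFI F N ⟨ζ, hζ⟩ hcardN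
  obtain ⟨S₂, hS₂, hWA'⟩ := hWA (T ∪ S₁)
  apply hS₁ S₂ (Finset.union_subset_right hS₂)
  intro y hy
  obtain ⟨b, hb, z, hz, hyz⟩ := hWA' (trunc F (T ∪ S₁) y) (trunc_mem_Jsupp F _ y)
  have hw : y * (locS F S₂ b)⁻¹ ∈ Jsupp F S₂ ⊓ normGroup F N := by
    refine Subgroup.mem_inf.mpr ⟨(Jsupp F S₂).mul_mem hy
      ((Jsupp F S₂).inv_mem (trunc_mem_Jsupp F S₂ _)), (mem_normGroup F N).mpr fun q => ?_⟩
    by_cases hq : q ∈ T ∪ S₁
    · have hq2 : q ∈ S₂ := hS₂ hq
      have h1 : y q = loc F q b * (z q) ^ p := by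
        have h := congrFun hyz q
        rw [trunc_apply_of_mem F y hq, Pi.mul_apply, Pi.pow_apply] at h
        rw [h]
        congr 1
        show trunc F (T ∪ S₁) (diag F b) q = _
        rw [trunc_apply_of_mem F _ hq, diag_apply]
      have h2 : (y * (locS F S₂ b)⁻¹) q = (z q) ^ p := by
        have h3 : locS F S₂ b q = loc F q b := by
          show trunc F S₂ (diag F b) q = _
          rw [trunc_apply_of_mem F _ hq2, diag_apply]
        rw [Pi.mul_apply, Pi.inv_apply, h3, h1, mul_comm (loc F q b), mul_inv_cancel_right]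
      rw [h2]
      exact isNormq_pow hcardN q (z q)
    · have hq' : q ∉ T := fun h => hq (Finset.mem_union_left _ h)
      exact h3b q hq' _
  have hy2 : y = y * (locS F S₂ b)⁻¹ * locS F S₂ b := by rw [inv_mul_cancel_right]
  rw [hy2]
  exact Subgroup.mul_mem_sup hw (Subgroup.mem_map_of_mem _ hb)

/-- **Step 0**, with the Plan props quantified over all number fields. -/
theorem exists_not_pow (p : ℕ) (hp : p.Prime) (hFI : Plan.FirstIneq p)
    (hKF : ∀ (F : Type) [Field F] [NumberField F], Plan.KummerField p F)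
    (hWA : ∀ (F : Type) [Field F] [NumberField F], Plan.WeakApprox p F)
    (F : Type) [Field F] [NumberField F] (ζ : F) (hζ : IsPrimitiveRoot ζ p) (x : Fˣ)
    (hx : ∀ c : Fˣ, c ^ p ≠ x) (T : Finset Nat.Primes) :
    ∃ q : Nat.Primes, q ∉ T ∧ ¬ ∃ y : (Aq F q)ˣ, loc F q x = y ^ p :=
  have _ := hp
  exists_not_pow_aux p hFI F (hKF F) (hWA F) ζ hζ x hx T

/-- The core: `F ⊇ K` any number field in which `a` is a `p`-th power and `x` is not. -/
theorem frob_core (p : ℕ) [Fact p.Prime] (hFI : Plan.FirstIneq p)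
    (K F : Type) [Field K] [NumberField K] [Field F] [NumberField F] [Algebra K F]
    (hKF : Plan.KummerField p F) (hWA : Plan.WeakApprox p F) (hPC : Plan.PlaceChar p K)
    (ζ : K) (hζ : IsPrimitiveRoot ζ p) (S : Finset Nat.Primes) (a x : Kˣ)
    (ha : a ∈ sUnits K S) (hx : x ∈ sUnits K S)
    (α : Fˣ) (hα : α ^ p = Units.map (algebraMap K F : K →* F) a)
    (hxF : ∀ c : Fˣ, c ^ p ≠ Units.map (algebraMap K F : K →* F) x)
    (T : Finset Nat.Primes) :
    ∃ (q : Nat.Primes) (e : Aq K q) (he : IsIdempotentElem e), q ∉ T ∧ IsPrimIdem e ∧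
      (∃ y : (Aq K q)ˣ, part e he (loc K q a) = y ^ p) ∧
      ¬ ∃ y : (Aq K q)ˣ, part e he (loc K q x) = y ^ p := by
  classical
  have hp : p.Prime := Fact.out
  by_contra hcon
  have hfail : ∀ (q : Nat.Primes) (e : Aq K q) (he : IsIdempotentElem e), q ∉ T → IsPrimIdem e →
      (∃ y : (Aq K q)ˣ, part e he (loc K q a) = y ^ p) →
      ∃ y : (Aq K q)ˣ, part e he (loc K q x) = y ^ p := by
    intro q e he hq hprim hy
    by_contra h
    exact hcon ⟨q, e, he, hq, hprim, hy, h⟩
  set xF : Fˣ := Units.map (algebraMap K F : K →* F) x with hxFdef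
  set aF : Fˣ := Units.map (algebraMap K F : K →* F) a with haFdef
  set T' : Finset Nat.Primes := T ∪ S ∪ {(⟨p, hp⟩ : Nat.Primes)} with hT'
  -- `x` is a `p`-th power in `A_q(F)` for `q ∉ T'`
  have h3a : ∀ q : Nat.Primes, q ∉ T' → ∃ y : (Aq F q)ˣ, loc F q xF = y ^ p := by
    intro q hq
    have hqT : q ∉ T := fun h => hq (Finset.mem_union_left _ (Finset.mem_union_left _ h))
    have hqS : q ∉ S := fun h => hq (Finset.mem_union_left _ (Finset.mem_union_right _ h))
    have hqp : (q : ℕ) ≠ p := fun h =>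
      hq (Finset.mem_union_right _ (Finset.mem_singleton.mpr (Subtype.ext h)))
    obtain ⟨ι, _, e, hprim, horth, hsum⟩ := exists_primIdem_decomp K q
    have he : ∀ i, IsIdempotentElem (e i) := fun i => (hprim i).1
    have he' : ∀ i, IsIdempotentElem (baseCh K F q (e i)) := fun i =>
      (he i).map (baseCh K F q)
    have key : ∀ i, ∃ w : (Aq F q)ˣ,
        part (baseCh K F q (e i)) (he' i) (loc F q xF) = w ^ p := by
      intro i
      by_cases hai : ∃ y : (Aq K q)ˣ, part (e i) (he i) (loc K q a) = y ^ p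
      · obtain ⟨y, hy⟩ := hfail q (e i) (he i) hqT (hprim i) hai
        refine ⟨Units.map (baseCh K F q : Aq K q →* Aq F q) y, ?_⟩
        rw [← map_pow, ← hy, map_part (baseCh K F q) (e i) (he i) (he' i), map_loc]
      · obtain ⟨ψ, hψ⟩ := hPC ζ hζ q hqp (e i) (hprim i) (he i)
        set ua : ↥(Uq K q) := ⟨loc K q a, ha q hqS⟩ with hua
        set ux : ↥(Uq K q) := ⟨loc K q x, hx q hqS⟩ with hux
        have hψa : ψ ua ≠ 1 := fun h => hai ((hψ ua).mp h)
        obtain ⟨m, hm⟩ := exists_pow_eq_of_ne_one p hψa (ψ ux)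
        have h1 : ψ (ux * (ua ^ m)⁻¹) = 1 := by
          rw [map_mul, map_inv, map_pow, hm, mul_inv_cancel]
        obtain ⟨y, hy⟩ := (hψ _).mp h1
        have hy' : part (e i) (he i) (loc K q x) =
            y ^ p * (part (e i) (he i) (loc K q a)) ^ m := by
          have h2 : ((ux * (ua ^ m)⁻¹ : ↥(Uq K q)) : (Aq K q)ˣ) =
              loc K q x * ((loc K q a) ^ m)⁻¹ := rfl
          rw [h2, map_mul, map_inv, map_pow] at hy
          rw [← hy, inv_mul_cancel_right]
        refine ⟨Units.map (baseCh K F q : Aq K q →* Aq F q) y *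
          (part (baseCh K F q (e i)) (he' i) (loc F q α)) ^ m, ?_⟩
        have h2 := congrArg (Units.map (baseCh K F q : Aq K q →* Aq F q)) hy'
        rw [map_part (baseCh K F q) (e i) (he i) (he' i), map_loc, map_mul, map_pow, map_pow,
          map_part (baseCh K F q) (e i) (he i) (he' i), map_loc] at h2
        rw [h2, ← haFdef, ← hα, map_pow, map_pow, mul_pow, ← pow_mul, ← pow_mul, mul_comm p m]
    choose w hw using key
    refine ⟨∏ i, w i, ?_⟩
    rw [← Finset.prod_pow]
    have hprod := prod_part_eq (fun i => baseCh K F q (e i)) he'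
      (fun i j hij => by rw [← map_mul, horth i j hij, map_zero])
      (by rw [← map_sum, hsum, map_one]) (loc F q xF)
    rw [← hprod]
    exact Finset.prod_congr rfl fun i _ => hw i
  have hζF : IsPrimitiveRoot (algebraMap K F ζ) p :=
    hζ.map_of_injective (algebraMap K F).injective
  obtain ⟨q, hq, hnot⟩ := exists_not_pow_aux p hFI F hKF hWA (algebraMap K F ζ) hζF xF hxF T'
  exact hnot (h3a q hq)

/-- **[L7.8] the Frobenius property.**  For `a, x ∈ K_S` with `x ∉ ⟨a⟩ · Kˣᵖ` and any finite set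
`T` of rational primes there is a place `(q, e)`, `q ∉ T`, at which `a` is a `p`-th power and `x`
is not. -/
theorem frob (p : ℕ) (hp : p.Prime) (hFI : Plan.FirstIneq p)
    (hKF : ∀ (F : Type) [Field F] [NumberField F], Plan.KummerField p F)
    (hWA : ∀ (F : Type) [Field F] [NumberField F], Plan.WeakApprox p F)
    (K : Type) [Field K] [NumberField K]
    (hKS : ∀ (L : Type) [Field L] [NumberField L] [Algebra K L] [FiniteDimensional K L],
      Plan.KummerSat p K L)
    (hPC : Plan.PlaceChar p K)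
    (ζ : K) (hζ : IsPrimitiveRoot ζ p) (S : Finset Nat.Primes) (a x : Kˣ)
    (ha : a ∈ sUnits K S) (hx : x ∈ sUnits K S)
    (hxa : ∀ (m : ℕ) (c : Kˣ), x ≠ a ^ m * c ^ p) (T : Finset Nat.Primes) :
    ∃ (q : Nat.Primes) (e : Aq K q) (he : IsIdempotentElem e), q ∉ T ∧ IsPrimIdem e ∧
      (∃ y : (Aq K q)ˣ, part e he (loc K q a) = y ^ p) ∧
      ¬ ∃ y : (Aq K q)ˣ, part e he (loc K q x) = y ^ p := by
  haveI : Fact p.Prime := ⟨hp⟩
  by_cases hap : ∃ c : Kˣ, c ^ p = a
  · obtain ⟨c, hc⟩ := hap
    refine frob_core p hFI K K (hKF K) (hWA K) hPC ζ hζ S a x ha hx c ?_ ?_ T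
    · rw [hc]
      exact Units.ext rfl
    · intro c' hc'
      apply hxa 0 c'
      rw [pow_zero, one_mul, hc']
      exact Units.ext rfl
  · have hap' : ∀ c : Kˣ, c ^ p ≠ a := fun c hc => hap ⟨c, hc⟩
    obtain ⟨L, _, _, _, _, _, hcard, α, hα, hadj⟩ := hKF K ζ hζ a hap'
    have hα0 : α ≠ 0 := by
      rintro rfl
      rw [zero_pow hp.ne_zero] at hα
      exact a.ne_zero ((map_eq_zero (algebraMap K L)).mp hα.symm)
    refine frob_core p hFI K L (hKF L) (hWA L) hPC ζ hζ S a x ha hx (Units.mk0 α hα0) ?_ ?_ T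
    · apply Units.ext
      rw [Units.val_pow_eq_pow_val, Units.val_mk0, hα]
      rfl
    · intro c hc
      obtain ⟨m, c', h⟩ := hKS L ζ hζ hcard a α hα hadj x
        ⟨(c : L), by
          have h := congrArg Units.val hc
          rw [Units.val_pow_eq_pow_val] at h
          exact h⟩
      exact hxa m c' h

/-- `U_q(K)` is saturated: a unit whose `n`-th power (`n ≠ 0`) lies in `U_q(K)` lies in
`U_q(K)`. -/
theorem mem_Uq_of_pow_mem (K : Type) [Field K] [NumberField K] (q : Nat.Primes) {n : ℕ}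
    (hn : 0 < n) {u : (Aq K q)ˣ} (hu : u ^ n ∈ Uq K q) : u ∈ Uq K q := by
  letI : Algebra ℤ_[(q : ℕ)] (Aq K q) := (QBridge.qInt (q : ℕ) K).toAlgebra
  obtain ⟨h1, h2⟩ := hu
  refine ⟨?_, ?_⟩
  · rw [Units.val_pow_eq_pow_val] at h1
    exact IsIntegral.of_pow hn h1
  · rw [← inv_pow, Units.val_pow_eq_pow_val] at h2
    exact IsIntegral.of_pow hn h2

/-- `K_S` is saturated in `Kˣ`. -/
theorem mem_sUnits_of_pow_mem (K : Type) [Field K] [NumberField K] (S : Finset Nat.Primes)
    {n : ℕ} (hn : 0 < n) {b : Kˣ} (hb : b ^ n ∈ sUnits K S) : b ∈ sUnits K S := by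
  intro q hq
  have h := hb q hq
  rw [map_pow] at h
  exact mem_Uq_of_pow_mem K q hn h

/-- **[L7.8]**, subgroup form: the hypothesis is `x ∉ ⟨a⟩ · K_Sᵖ` inside `K_S`. -/
theorem frob_sUnits (p : ℕ) (hp : p.Prime) (hFI : Plan.FirstIneq p)
    (hKF : ∀ (F : Type) [Field F] [NumberField F], Plan.KummerField p F)
    (hWA : ∀ (F : Type) [Field F] [NumberField F], Plan.WeakApprox p F)
    (K : Type) [Field K] [NumberField K]
    (hKS : ∀ (L : Type) [Field L] [NumberField L] [Algebra K L] [FiniteDimensional K L],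
      Plan.KummerSat p K L)
    (hPC : Plan.PlaceChar p K)
    (ζ : K) (hζ : IsPrimitiveRoot ζ p) (S : Finset Nat.Primes) (a x : ↥(sUnits K S))
    (hx : x ∉ Subgroup.zpowers a ⊔ (powMonoidHom p : ↥(sUnits K S) →* ↥(sUnits K S)).range)
    (T : Finset Nat.Primes) :
    ∃ (q : Nat.Primes) (e : Aq K q) (he : IsIdempotentElem e), q ∉ T ∧ IsPrimIdem e ∧
      (∃ y : (Aq K q)ˣ, part e he (loc K q (a : Kˣ)) = y ^ p) ∧
      ¬ ∃ y : (Aq K q)ˣ, part e he (loc K q (x : Kˣ)) = y ^ p := by
  refine frob p hp hFI hKF hWA K hKS hPC ζ hζ S a x a.2 x.2 ?_ T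
  intro m c h
  apply hx
  have hc : c ^ p ∈ sUnits K S := by
    have h1 : c ^ p = ((a : Kˣ)⁻¹) ^ m * (x : Kˣ) := by
      rw [h, inv_pow, inv_mul_cancel_left]
    rw [h1]
    exact mul_mem (pow_mem (inv_mem a.2) m) x.2
  have hc' : c ∈ sUnits K S := mem_sUnits_of_pow_mem K S hp.pos hc
  refine Subgroup.mem_sup.mpr ⟨a ^ m, Subgroup.pow_mem _ (Subgroup.mem_zpowers a) m,
    (⟨c, hc'⟩ : ↥(sUnits K S)) ^ p, ⟨⟨c, hc'⟩, rfl⟩, ?_⟩
  exact Subtype.ext h.symm

/-- **[L7.8]**, the Plan prop verbatim. -/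
theorem frobPlan (p : ℕ) (hp : p.Prime) (hFI : Plan.FirstIneq p)
    (hKF : ∀ (F : Type) [Field F] [NumberField F], Plan.KummerField p F)
    (hWA : ∀ (F : Type) [Field F] [NumberField F], Plan.WeakApprox p F)
    (K : Type) [Field K] [NumberField K]
    (hKS : ∀ (L : Type) [Field L] [NumberField L] [Algebra K L] [FiniteDimensional K L],
      Plan.KummerSat p K L)
    (hPC : Plan.PlaceChar p K) : Plan.Frob p K := by
  classical
  intro ζ hζ S _ a ha x hx hxa T
  obtain ⟨q, e, he, hq, hprim, hy, hny⟩ :=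
    frob p hp hFI hKF hWA K hKS hPC ζ hζ S a x ha hx hxa (T ∪ S)
  exact ⟨q, fun h => hq (Finset.mem_union_left _ h), fun h => hq (Finset.mem_union_right _ h),
    e, hprim, he, hy, hny⟩

/-- By-product: `Plan.PrimDecomp` (an element of `A_q(K)ˣ` that is an `n`-th power on every
primitive part is an `n`-th power). -/
theorem primDecomp_holds (K : Type) [Field K] [NumberField K] : Plan.PrimDecomp K := by
  intro q x n h
  obtain ⟨ι, _, e, hprim, horth, hsum⟩ := exists_primIdem_decomp K q
  have he : ∀ i, IsIdempotentElem (e i) := fun i => (hprim i).1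
  choose y hy using fun i => h (e i) (hprim i) (he i)
  refine ⟨∏ i, y i, ?_⟩
  rw [← Finset.prod_pow, ← Finset.prod_congr rfl fun i _ => hy i]
  exact (prod_part_eq e he horth hsum x).symm

end Frob

end Fermat.Agent.CFT.Global.L7Frobenius
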