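import Mathlib
import Fermat.Agent.CFT.Global.L7Plan
import Fermat.Agent.CFT.Global.L7Split

/-!
# CFT program, layer Global, L7: Kummer fields `[L7.0]` and Kummer saturation `[L7.K]` (helper40)

* `kummerSat : Plan.KummerSat p K L` (any `p`): for `L = K(α)`, `α ^ p = a`, with
  `|Aut(L/K)| = p` and `ζ_p ∈ K`, an element `x ∈ Kˣ` that is a `p`-th power in `L` lies in
  `⟨a⟩ · Kˣᵖ`.
* `kummerField (hp : p.Prime) : Plan.KummerField p K`: for `a ∈ Kˣ` not a `p`-th power, the
  splitting field of `X ^ p - a` is a number field, Galois over `K` with group of order `p`,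
  generated by a `p`-th root of `a`.
-/

set_option autoImplicit false

noncomputable section

namespace Fermat.Agent.CFT.Global.L7Kummer

open Polynomial IntermediateField
open Fermat.Agent.CFT.Global.L7

section Sat

variable {K L : Type} [Field K] [Field L] [Algebra K L] [FiniteDimensional K L]

/-- **Kummer saturation** for fields: `L = K(α)`, `α ^ p = a`, `|Aut(L/K)| = p`, `ζ_p ∈ K`.  If
`x ∈ K` is a `p`-th power in `L` then `x = a ^ m c ^ p` with `c ∈ K`. -/
theorem exists_eq_pow_mul_pow {p : ℕ} {ζ : K} (hζ : IsPrimitiveRoot ζ p)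
    (hcard : Nat.card (L ≃ₐ[K] L) = p) {a : K} (ha : a ≠ 0) {α : L}
    (hα : α ^ p = algebraMap K L a) (htop : K⟮α⟯ = ⊤) {x : K} (hx : x ≠ 0) {β : L}
    (hβ : β ^ p = algebraMap K L x) : ∃ (m : ℕ) (c : K), c ≠ 0 ∧ x = a ^ m * c ^ p := by
  have hp : 0 < p := hcard ▸ Nat.card_pos
  have : NeZero p := ⟨hp.ne'⟩
  obtain ⟨τ, hτα, hbij⟩ := L7Split.exists_kummer_generator hζ hcard ha hα htop
  have hfin : Module.finrank K L = p := L7Split.finrank_eq_of_card hcard hα htop
  have hgal : IsGalois K L := IsGalois.of_card_aut_eq_finrank K L (hcard.trans hfin.symm)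
  have hinj : Function.Injective (algebraMap K L) := (algebraMap K L).injective
  have hα0 : α ≠ 0 := by
    rintro rfl
    rw [zero_pow hp.ne'] at hα
    exact ha ((map_eq_zero (algebraMap K L)).mp hα.symm)
  have hβ0 : β ≠ 0 := by
    rintro rfl
    rw [zero_pow hp.ne'] at hβ
    exact hx ((map_eq_zero (algebraMap K L)).mp hβ.symm)
  have hζL : IsPrimitiveRoot (algebraMap K L ζ) p := hζ.map_of_injective hinj
  have hζ0 : algebraMap K L ζ ≠ 0 := hζL.ne_zero hp.ne'
  have h1 : (τ β / β) ^ p = 1 := by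
    rw [div_pow, ← map_pow, hβ, τ.commutes, ← hβ, div_self (pow_ne_zero _ hβ0)]
  obtain ⟨m, -, hm⟩ := hζL.eq_pow_of_pow_eq_one h1
  have hτβ : τ β = algebraMap K L ζ ^ m * β := by
    rw [hm, div_mul_cancel₀ _ hβ0]
  have hτγ : τ (β / α ^ m) = β / α ^ m := by
    rw [map_div₀, map_pow, hτα, hτβ, mul_pow, mul_div_mul_left _ _ (pow_ne_zero _ hζ0)]
  have hfix : ∀ g : L ≃ₐ[K] L, g (β / α ^ m) = β / α ^ m := by
    intro g
    obtain ⟨i, rfl⟩ := hbij.surjective g
    show (τ ^ (i : ℕ)) (β / α ^ m) = β / α ^ m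
    generalize (i : ℕ) = j
    induction j with
    | zero => rw [pow_zero, AlgEquiv.one_apply]
    | succ j ih => rw [pow_succ, AlgEquiv.mul_apply, hτγ, ih]
  obtain ⟨c, hc⟩ := (IsGalois.mem_range_algebraMap_iff_fixed (β / α ^ m)).mpr hfix
  have hβc : β = α ^ m * algebraMap K L c := by
    rw [hc, mul_div_cancel₀ _ (pow_ne_zero _ hα0)]
  refine ⟨m, c, ?_, ?_⟩
  · rintro rfl
    rw [map_zero, mul_zero] at hβc
    exact hβ0 hβc
  · apply hinj
    rw [map_mul, map_pow, map_pow, ← hα, ← hβ, hβc, mul_pow, ← pow_mul, ← pow_mul, mul_comm m p]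

end Sat

/-- **[L7.K] Kummer saturation.** -/
theorem kummerSat (p : ℕ) (K L : Type) [Field K] [NumberField K] [Field L] [NumberField L]
    [Algebra K L] [FiniteDimensional K L] : Plan.KummerSat p K L := by
  rintro ζ hζ hcard a α hα htop x ⟨β, hβ⟩
  obtain ⟨m, c, hc0, hc⟩ := exists_eq_pow_mul_pow hζ hcard a.ne_zero hα htop x.ne_zero hβ
  refine ⟨m, Units.mk0 c hc0, Units.ext ?_⟩
  rw [Units.val_mul, Units.val_pow_eq_pow_val, Units.val_pow_eq_pow_val, Units.val_mk0]
  exact hc

/-- **[L7.0] Kummer fields exist as number fields** (`p` prime). -/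
theorem kummerField (p : ℕ) (hp : p.Prime) (K : Type) [Field K] [NumberField K] :
    Plan.KummerField p K := by
  intro ζ hζ a ha
  have : NeZero p := ⟨hp.ne_zero⟩
  have ha' : ∀ b : K, b ^ p ≠ (a : K) := by
    intro b hb
    have hb0 : b ≠ 0 := by
      rintro rfl
      rw [zero_pow hp.ne_zero] at hb
      exact a.ne_zero hb.symm
    exact ha (Units.mk0 b hb0) (Units.ext hb)
  have H : Irreducible (X ^ p - C (a : K)) := X_pow_sub_C_irreducible_of_prime hp ha'
  have hK : (primitiveRoots p K).Nonempty := ⟨ζ, (mem_primitiveRoots hp.pos).mpr hζ⟩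
  have hgal : IsGalois K (X ^ p - C (a : K)).SplittingField :=
    isGalois_of_isSplittingField_X_pow_sub_C hK H _
  have hroot :
      (rootOfSplitsXPowSubC (NeZero.pos p) (a : K) (X ^ p - C (a : K)).SplittingField) ^ p =
        algebraMap K (X ^ p - C (a : K)).SplittingField (a : K) :=
    rootOfSplitsXPowSubC_pow (a : K) _
  refine ⟨(X ^ p - C (a : K)).SplittingField, inferInstance, NumberField.of_module_finite K _,
    inferInstance, inferInstance, hgal, ?_, _, hroot, ?_⟩
  · rw [IsGalois.card_aut_eq_finrank]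
    exact finrank_of_isSplittingField_X_pow_sub_C hK H _
  · exact IntermediateField.adjoin_root_eq_top_of_isSplittingField hK H hroot

end Fermat.Agent.CFT.Global.L7Kummer
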