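/-
CFT program, layer Global, L7 (second inequality): generic lemmas of the spine (helper59).

* A. idempotent algebra: `part`, the predicate `IsPowOn n e x` (`x` is an `n`-th power on the
  `e`-part), orthogonality of primitive idempotents, gluing along a decomposition of `1`;
* B. integrality: `part e · ` preserves `U_q`, `U_q` and `sUnits` are saturated;
* C. finite products: elements of `J_S` as products of `Pi.mulSingle`, the generation lemma
  `Jsupp_le_of_gen`;
* D. norms: `p`-th powers are norms, membership in `normRes`.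
-/
import Mathlib
import Fermat.Agent.CFT.Global.L7Plan
import Fermat.Agent.CFT.Global.SUnitPlan

set_option autoImplicit false

noncomputable section

namespace Fermat.Agent.CFT.Global.L7

open TensorProduct NumberField IsDedekindDomain
open Fermat.Agent.CFT.Global.QBridge (qInt)

/-! ## A. Idempotent algebra -/

section Idem

variable {A : Type*} [CommRing A]

theorem part_one (h : IsIdempotentElem (1 : A)) (x : Aˣ) : part 1 h x = x := by
  apply Units.ext
  rw [part_val]; ring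

theorem part_zero (h : IsIdempotentElem (0 : A)) (x : Aˣ) : part 0 h x = 1 := by
  apply Units.ext
  rw [part_val, Units.val_one]; ring

theorem part_part (e f : A) (he : IsIdempotentElem e) (hf : IsIdempotentElem f)
    (hef : IsIdempotentElem (e * f)) (x : Aˣ) :
    part e he (part f hf x) = part (e * f) hef x := by
  apply Units.ext
  rw [part_val, part_val, part_val]; ring

theorem part_mul_part_compl (e : A) (he : IsIdempotentElem e) (hc : IsIdempotentElem (1 - e))
    (x : Aˣ) : part e he x * part (1 - e) hc x = x := by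
  apply Units.ext
  rw [Units.val_mul, part_val, part_val]
  have h2 : e * e = e := he
  linear_combination (-(x : A) * (x : A) + 2 * (x : A) - 1) * h2

theorem part_compl_part (e : A) (he : IsIdempotentElem e) (hc : IsIdempotentElem (1 - e))
    (x : Aˣ) : part (1 - e) hc (part e he x) = 1 := by
  apply Units.ext
  rw [part_val, part_val, Units.val_one]
  have h2 : e * e = e := he
  linear_combination (1 - (x : A)) * h2

theorem part_part_self (e : A) (he : IsIdempotentElem e) (x : Aˣ) :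
    part e he (part e he x) = part e he x := by
  apply Units.ext
  rw [part_val, part_val]
  have h2 : e * e = e := he
  linear_combination ((x : A) - 1) * h2

theorem mul_pow_congr {e a b : A} (h : e * a = e * b) (n : ℕ) : e * a ^ n = e * b ^ n := by
  induction n with
  | zero => rw [pow_zero, pow_zero]
  | succ n ih =>
    calc e * a ^ (n + 1) = (e * a ^ n) * a := by ring
      _ = b ^ n * (e * a) := by rw [ih]; ring
      _ = e * b ^ (n + 1) := by rw [h]; ring

/-- `x` is an `n`-th power on the `e`-part. -/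
def IsPowOn (n : ℕ) (e : A) (x : Aˣ) : Prop := ∃ y : Aˣ, e * (x : A) = e * (y : A) ^ n

theorem isPowOn_iff_part (n : ℕ) (e : A) (he : IsIdempotentElem e) (x : Aˣ) :
    IsPowOn n e x ↔ ∃ y : Aˣ, part e he x = y ^ n := by
  have h2 : e * e = e := he
  constructor
  · rintro ⟨y, hy⟩
    refine ⟨part e he y, ?_⟩
    rw [← map_pow]
    apply Units.ext
    rw [part_val, part_val, Units.val_pow_eq_pow_val, hy]
  · rintro ⟨y, hy⟩
    refine ⟨y, ?_⟩
    have h := congrArg (fun u : Aˣ => e * (u : A)) hy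
    simp only [part_val, Units.val_pow_eq_pow_val] at h
    rw [← h]
    linear_combination (1 - (x : A)) * h2

theorem isPowOn_one_iff (n : ℕ) (x : Aˣ) : IsPowOn n 1 x ↔ ∃ y : Aˣ, x = y ^ n := by
  constructor
  · rintro ⟨y, hy⟩
    refine ⟨y, Units.ext ?_⟩
    rw [Units.val_pow_eq_pow_val]
    simpa using hy
  · rintro ⟨y, rfl⟩
    exact ⟨y, by rw [Units.val_pow_eq_pow_val]⟩

theorem isPowOn_zero (n : ℕ) (x : Aˣ) : IsPowOn n 0 x := ⟨1, by simp⟩

theorem isPowOn_pow_self (n : ℕ) (e : A) (y : Aˣ) : IsPowOn n e (y ^ n) :=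
  ⟨y, by rw [Units.val_pow_eq_pow_val]⟩

theorem IsPowOn.mul_left {n : ℕ} {e : A} {x : Aˣ} (h : IsPowOn n e x) (f : A) :
    IsPowOn n (f * e) x := by
  obtain ⟨y, hy⟩ := h
  exact ⟨y, by rw [mul_assoc, hy, mul_assoc]⟩

theorem IsPowOn.map {B : Type*} [CommRing B] (φ : A →+* B) {n : ℕ} {e : A} {x : Aˣ}
    (h : IsPowOn n e x) : IsPowOn n (φ e) (Units.map (φ : A →* B) x) := by
  obtain ⟨y, hy⟩ := h
  refine ⟨Units.map (φ : A →* B) y, ?_⟩
  have := congrArg φ hy
  simpa [map_mul, map_pow] using this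

theorem IsPowOn.mul {n : ℕ} {e : A} {x y : Aˣ} (hx : IsPowOn n e x) (hy : IsPowOn n e y) :
    IsPowOn n e (x * y) := by
  obtain ⟨a, ha⟩ := hx
  obtain ⟨b, hb⟩ := hy
  refine ⟨a * b, ?_⟩
  rw [Units.val_mul, Units.val_mul, mul_pow]
  calc e * ((x : A) * (y : A)) = (e * (x : A)) * (y : A) := by ring
    _ = (a : A) ^ n * (e * (y : A)) := by rw [ha]; ring
    _ = e * ((a : A) ^ n * (b : A) ^ n) := by rw [hb]; ring

theorem IsPowOn.inv {n : ℕ} {e : A} {x : Aˣ} (hx : IsPowOn n e x) : IsPowOn n e x⁻¹ := by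
  obtain ⟨a, ha⟩ := hx
  refine ⟨a⁻¹, ?_⟩
  have h1 : (x : A) * ((x⁻¹ : Aˣ) : A) = 1 := x.mul_inv
  have h2 : (a : A) ^ n * ((a⁻¹ : Aˣ) : A) ^ n = 1 := by
    rw [← mul_pow, a.mul_inv, one_pow]
  calc e * ((x⁻¹ : Aˣ) : A) = (e * (a : A) ^ n) * ((a⁻¹ : Aˣ) : A) ^ n * ((x⁻¹ : Aˣ) : A) := by
        linear_combination (-e * ((x⁻¹ : Aˣ) : A)) * h2
    _ = (e * (x : A)) * ((a⁻¹ : Aˣ) : A) ^ n * ((x⁻¹ : Aˣ) : A) := by rw [ha]
    _ = e * ((a⁻¹ : Aˣ) : A) ^ n := by linear_combination (e * ((a⁻¹ : Aˣ) : A) ^ n) * h1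

theorem IsPowOn.pow {n : ℕ} {e : A} {x : Aˣ} (hx : IsPowOn n e x) (m : ℕ) :
    IsPowOn n e (x ^ m) := by
  induction m with
  | zero => rw [pow_zero]; exact ⟨1, by simp⟩
  | succ m ih => rw [pow_succ]; exact ih.mul hx

theorem IsPowOn.add {n : ℕ} {e f : A} (he : IsIdempotentElem e) (hf : IsIdempotentElem f)
    (hef : e * f = 0) {x : Aˣ} (hxe : IsPowOn n e x) (hxf : IsPowOn n f x) :
    IsPowOn n (e + f) x := by
  obtain ⟨y, hy⟩ := hxe
  obtain ⟨z, hz⟩ := hxf
  have he2 : e * e = e := he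
  have hf2 : f * f = f := hf
  refine ⟨part e he y * part f hf z, ?_⟩
  have h1 : e * ((part e he y * part f hf z : Aˣ) : A) = e * (y : A) := by
    rw [Units.val_mul, part_val, part_val]
    linear_combination ((y : A) * (f * z + 1 - f) - (f * z + 1 - f)) * he2 +
      ((y : A) * z - (y : A)) * hef
  have h2 : f * ((part e he y * part f hf z : Aˣ) : A) = f * (z : A) := by
    rw [Units.val_mul, part_val, part_val]
    linear_combination ((z : A) * (e * y + 1 - e) - (e * y + 1 - e)) * hf2 +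
      ((y : A) * z - (z : A)) * hef
  rw [add_mul, add_mul, mul_pow_congr h1 n, mul_pow_congr h2 n, hy, hz]

theorem isPowOn_sum {ι : Type*} {n : ℕ} {x : Aˣ} (s : Finset ι) (f : ι → A)
    (hs : ∀ i ∈ s, IsIdempotentElem (f i))
    (horth : ∀ i ∈ s, ∀ j ∈ s, i ≠ j → f i * f j = 0) (h : ∀ i ∈ s, IsPowOn n (f i) x) :
    IsIdempotentElem (∑ i ∈ s, f i) ∧ IsPowOn n (∑ i ∈ s, f i) x := by
  classical
  induction s using Finset.induction_on with
  | empty =>
    rw [Finset.sum_empty]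
    exact ⟨IsIdempotentElem.zero, isPowOn_zero n x⟩
  | insert i t hit ih =>
    rw [Finset.sum_insert hit]
    obtain ⟨h1, h2⟩ := ih (fun j hj => hs j (Finset.mem_insert_of_mem hj))
      (fun j hj k hk hjk => horth j (Finset.mem_insert_of_mem hj) k (Finset.mem_insert_of_mem hk)
        hjk)
      (fun j hj => h j (Finset.mem_insert_of_mem hj))
    have hi := hs i (Finset.mem_insert_self i t)
    have h0 : f i * ∑ j ∈ t, f j = 0 := by
      rw [Finset.mul_sum]
      refine Finset.sum_eq_zero (fun j hj => ?_)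
      exact horth i (Finset.mem_insert_self i t) j (Finset.mem_insert_of_mem hj)
        (fun hij => hit (hij ▸ hj))
    refine ⟨?_, IsPowOn.add hi h1 h0 (h i (Finset.mem_insert_self i t)) h2⟩
    have hi2 : f i * f i = f i := hi
    have h12 : (∑ j ∈ t, f j) * (∑ j ∈ t, f j) = ∑ j ∈ t, f j := h1
    show (f i + ∑ j ∈ t, f j) * (f i + ∑ j ∈ t, f j) = f i + ∑ j ∈ t, f j
    linear_combination hi2 + h12 + 2 * h0

theorem IsPrimIdem.mul_eq_self_of_ne_zero {e f : A} (he : IsPrimIdem e)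
    (hf : IsIdempotentElem f) (h : e * f ≠ 0) : e * f = e := by
  obtain ⟨y, hy⟩ := he.2.2 f h
  have hf2 : f * f = f := hf
  calc e * f = (e * f * y) * f := by rw [hy]
    _ = e * (f * f) * y := by ring
    _ = e * f * y := by rw [hf2]
    _ = e := hy

/-- Distinct primitive idempotents are orthogonal. -/
theorem IsPrimIdem.mul_eq_zero_of_ne {e f : A} (he : IsPrimIdem e) (hf : IsPrimIdem f)
    (hne : e ≠ f) : e * f = 0 := by
  by_contra h
  have h1 := he.mul_eq_self_of_ne_zero hf.1 h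
  have h' : f * e ≠ 0 := by rwa [mul_comm]
  have h2 := hf.mul_eq_self_of_ne_zero he.1 h'
  exact hne (by rw [← h1, mul_comm, h2])

/-- Gluing along a decomposition of `1` into primitive idempotents (possibly after a ring
homomorphism `φ`). -/
theorem exists_pow_of_primSum {B : Type*} [CommRing B] (φ : A →+* B) (s : Finset A)
    (hs : ∀ e ∈ s, IsPrimIdem e) (hsum : ∑ e ∈ s, e = 1) (n : ℕ) (x : Bˣ)
    (h : ∀ e ∈ s, IsPowOn n (φ e) x) : ∃ y : Bˣ, x = y ^ n := by
  have h1 := (isPowOn_sum s (fun e => φ e)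
    (fun e he => by
      have h2 : e * e = e := (hs e he).1
      show φ e * φ e = φ e
      rw [← map_mul, h2])
    (fun e he f hf hef => by
      rw [← map_mul, (hs e he).mul_eq_zero_of_ne (hs f hf) hef, map_zero]) h).2
  rw [← map_sum, hsum, map_one] at h1
  exact (isPowOn_one_iff n x).mp h1

end Idem

/-! ## B. Integrality -/

section Integral

variable (K : Type) [Field K] [NumberField K]

theorem isIntegralElem_of_isIdempotentElem {q : Nat.Primes} {e : Aq K q}
    (he : IsIdempotentElem e) : (qInt (q : ℕ) K).IsIntegralElem e := by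
  refine ⟨Polynomial.X ^ 2 - Polynomial.X, ?_, ?_⟩
  · apply Polynomial.monic_X_pow_sub
    rw [Polynomial.degree_X]; norm_num
  · have h2 : e * e = e := he
    rw [Polynomial.eval₂_sub, Polynomial.eval₂_pow, Polynomial.eval₂_X, pow_two, h2, sub_self]

theorem part_mem_Uq {q : Nat.Primes} (e : Aq K q) (he : IsIdempotentElem e) {u : (Aq K q)ˣ}
    (hu : u ∈ Uq K q) : part e he u ∈ Uq K q := by
  have hie := isIntegralElem_of_isIdempotentElem K he
  have h1e : (qInt (q : ℕ) K).IsIntegralElem (1 - e) :=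
    RingHom.IsIntegralElem.sub _ (RingHom.isIntegralElem_one _) hie
  refine ⟨?_, ?_⟩
  · rw [part_val]
    exact RingHom.IsIntegralElem.add _ (RingHom.IsIntegralElem.mul _ hie hu.1) h1e
  · rw [← map_inv, part_val]
    exact RingHom.IsIntegralElem.add _ (RingHom.IsIntegralElem.mul _ hie hu.2) h1e

theorem mem_Uq_of_pow_mem {q : Nat.Primes} {u : (Aq K q)ˣ} {n : ℕ} (hn : 0 < n)
    (h : u ^ n ∈ Uq K q) : u ∈ Uq K q := by
  let alg : Algebra ℤ_[(q : ℕ)] (Aq K q) := (qInt (q : ℕ) K).toAlgebra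
  refine ⟨?_, ?_⟩
  · have h1 : @IsIntegral ℤ_[(q : ℕ)] (Aq K q) _ _ alg (((u ^ n : (Aq K q)ˣ) : Aq K q)) := h.1
    rw [Units.val_pow_eq_pow_val] at h1
    exact @IsIntegral.of_pow ℤ_[(q : ℕ)] (Aq K q) _ _ alg _ _ hn h1
  · have h1 : @IsIntegral ℤ_[(q : ℕ)] (Aq K q) _ _ alg ((((u ^ n)⁻¹ : (Aq K q)ˣ) : Aq K q)) :=
      h.2
    rw [← inv_pow, Units.val_pow_eq_pow_val] at h1
    exact @IsIntegral.of_pow ℤ_[(q : ℕ)] (Aq K q) _ _ alg _ _ hn h1

theorem sUnits_mono {S S' : Finset Nat.Primes} (h : S ⊆ S') : sUnits K S ≤ sUnits K S' :=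
  fun _ ha q hq => ha q (fun hqS => hq (h hqS))

theorem sUnits_of_pow_mem {S : Finset Nat.Primes} {b : Kˣ} {n : ℕ} (hn : 0 < n)
    (h : b ^ n ∈ sUnits K S) : b ∈ sUnits K S :=
  fun q hq => mem_Uq_of_pow_mem K hn (by rw [← map_pow]; exact h q hq)

/-- Every element of `Kˣ` is an `S`-unit for some finite `S`. -/
theorem exists_mem_sUnits (a : Kˣ) : ∃ S : Finset Nat.Primes, a ∈ sUnits K S := by
  classical
  have hfin : {w : HeightOneSpectrum (𝓞 K) | w.valuation K (a : K) ≠ 1}.Finite := by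
    have h1 := HeightOneSpectrum.Support.finite (𝓞 K) (a : K)
    have h2 := HeightOneSpectrum.Support.finite (𝓞 K) ((a⁻¹ : Kˣ) : K)
    refine (h1.union h2).subset ?_
    intro w hw
    rcases lt_or_gt_of_ne hw with h | h
    · right
      show 1 < w.valuation K ((a⁻¹ : Kˣ) : K)
      rw [Units.val_inv_eq_inv_val, map_inv₀]
      have hx0 : w.valuation K (a : K) ≠ 0 := (Valuation.ne_zero_iff _).mpr a.ne_zero
      exact (one_lt_inv₀ (zero_lt_iff.mpr hx0)).mpr h
    · left
      exact h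
  have hex : ∀ w : HeightOneSpectrum (𝓞 K), ∃ q : Nat.Primes, ((q : ℕ) : 𝓞 K) ∈ w.asIdeal := by
    intro w
    obtain ⟨q, hq, hqw⟩ := QBridge.exists_prime_mem w
    exact ⟨⟨q, hq⟩, hqw⟩
  choose qof hqof using hex
  refine ⟨hfin.toFinset.image qof, ?_⟩
  intro q hq
  rw [SUnitPlan.loc_mem_Uq_iff]
  intro w hw
  by_contra hne
  apply hq
  rw [Finset.mem_image]
  refine ⟨w, hfin.mem_toFinset.mpr hne, ?_⟩
  exact Subtype.ext (QBridge.prime_eq_of_mem w (qof w).2 q.2 (hqof w) hw)

end Integral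

/-! ## C. Finite products -/

section Prod

variable (K : Type) [Field K] [NumberField K]

theorem Jsupp_mono {S S' : Finset Nat.Primes} (h : S ⊆ S') : Jsupp K S ≤ Jsupp K S' :=
  fun _ hx q hq => hx q (fun hqS => hq (h hqS))

theorem mulSingle_mem_Jsupp {S : Finset Nat.Primes} {q : Nat.Primes} (hq : q ∈ S)
    (x : (Aq K q)ˣ) : (Pi.mulSingle q x : Jall K) ∈ Jsupp K S := by
  rw [mem_Jsupp]
  intro q' hq'
  have hne : q' ≠ q := fun h => hq' (h ▸ hq)
  exact Pi.mulSingle_eq_of_ne (M := fun q : Nat.Primes => (Aq K q)ˣ) hne x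

theorem eq_prod_mulSingle {S : Finset Nat.Primes} {x : Jall K} (hx : x ∈ Jsupp K S) :
    x = ∏ q ∈ S, (Pi.mulSingle q (x q) : Jall K) := by
  funext q'
  rw [Finset.prod_apply, Finset.prod_pi_mulSingle]
  split_ifs with h
  · rfl
  · exact hx q' h

/-- Singling out one component. -/
theorem mulSingle_mem_of_forall_ne (H : Subgroup (Jall K)) {S : Finset Nat.Primes} {Y : Jall K}
    (hY : Y ∈ H) (hYS : Y ∈ Jsupp K S) {q : Nat.Primes} (hq : q ∈ S)
    (h : ∀ q' ∈ S, q' ≠ q → (Pi.mulSingle q' (Y q') : Jall K) ∈ H) :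
    (Pi.mulSingle q (Y q) : Jall K) ∈ H := by
  have h1 : Y = (Pi.mulSingle q (Y q) : Jall K) *
      ∏ q' ∈ S.erase q, (Pi.mulSingle q' (Y q') : Jall K) := by
    rw [Finset.mul_prod_erase S (fun q' => (Pi.mulSingle q' (Y q') : Jall K)) hq]
    exact eq_prod_mulSingle K hYS
  have h2 : ∏ q' ∈ S.erase q, (Pi.mulSingle q' (Y q') : Jall K) ∈ H :=
    Subgroup.prod_mem _ (fun q' hq' => h q' (Finset.mem_of_mem_erase hq')
      (Finset.ne_of_mem_erase hq'))
  have h3 : (Pi.mulSingle q (Y q) : Jall K) =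
      Y * (∏ q' ∈ S.erase q, (Pi.mulSingle q' (Y q') : Jall K))⁻¹ := by
    rw [eq_mul_inv_iff_mul_eq]
    exact h1.symm
  rw [h3]
  exact mul_mem hY (inv_mem h2)

/-- The truncation to `S` stays in `H` if the removed components are in `H`. -/
theorem trunc_mem_of_forall (H : Subgroup (Jall K)) {S S' : Finset Nat.Primes} {Y : Jall K}
    (hY : Y ∈ H) (hYS : Y ∈ Jsupp K S')
    (h : ∀ q ∈ S', q ∉ S → (Pi.mulSingle q (Y q) : Jall K) ∈ H) : trunc K S Y ∈ H := by
  classical
  have h1 : trunc K S Y = Y * (∏ q ∈ S' \ S, (Pi.mulSingle q (Y q) : Jall K))⁻¹ := by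
    rw [eq_mul_inv_iff_mul_eq]
    funext q'
    rw [Pi.mul_apply, Finset.prod_apply, Finset.prod_pi_mulSingle]
    by_cases hq' : q' ∈ S
    · rw [trunc_apply_of_mem K Y hq', if_neg (by simp [hq']), mul_one]
    · rw [trunc_apply_of_notMem K Y hq', one_mul]
      by_cases hq'' : q' ∈ S'
      · rw [if_pos (by simp [hq', hq''])]
      · rw [if_neg (by simp [hq'']), hYS q' hq'']
  rw [h1]
  exact mul_mem hY (inv_mem (Subgroup.prod_mem _ (fun q hq =>
    h q (Finset.mem_sdiff.mp hq).1 (Finset.mem_sdiff.mp hq).2)))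

theorem locS_apply_of_mem {S : Finset Nat.Primes} (b : Kˣ) {q : Nat.Primes} (h : q ∈ S) :
    locS K S b q = loc K q b := by
  show trunc K S (diag K b) q = _
  rw [trunc_apply_of_mem K _ h, diag_apply]

theorem locS_apply_of_notMem {S : Finset Nat.Primes} (b : Kˣ) {q : Nat.Primes} (h : q ∉ S) :
    locS K S b q = 1 := by
  show trunc K S (diag K b) q = _
  rw [trunc_apply_of_notMem K _ h]

theorem locS_mem_Jsupp (S : Finset Nat.Primes) (b : Kˣ) : locS K S b ∈ Jsupp K S :=
  trunc_mem_Jsupp K S _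

theorem trunc_locS {S S' : Finset Nat.Primes} (h : S ⊆ S') (b : Kˣ) :
    trunc K S (locS K S' b) = locS K S b := by
  funext q
  by_cases hq : q ∈ S
  · rw [trunc_apply_of_mem K _ hq, locS_apply_of_mem K b (h hq), locS_apply_of_mem K b hq]
  · rw [trunc_apply_of_notMem K _ hq, locS_apply_of_notMem K b hq]

/-- **Generation lemma.**  A subgroup `H` of the full product that contains the `S'`-units, all
of `A_q(K)ˣ` for `q ∈ S`, the units `U_q` for `q ∈ S' ∖ S`, contains `J_{S'}` as soon as every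
element of `A_q(K)ˣ`, `q ∈ S' ∖ S`, is an `(S ∪ {q})`-unit times a unit of the maximal order. -/
theorem Jsupp_le_of_gen (H : Subgroup (Jall K)) {S S' : Finset Nat.Primes} (hSS : S ⊆ S')
    (h0 : ∀ b ∈ sUnits K S', locS K S' b ∈ H)
    (h1 : ∀ q ∈ S, ∀ x : (Aq K q)ˣ, (Pi.mulSingle q x : Jall K) ∈ H)
    (h2 : ∀ q ∈ S', q ∉ S → ∀ u ∈ Uq K q, (Pi.mulSingle q u : Jall K) ∈ H)
    (h3 : ∀ q ∈ S', q ∉ S → ∀ x : (Aq K q)ˣ,
      ∃ b ∈ sUnits K (insert q S), ∃ u ∈ Uq K q, x = loc K q b * u) :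
    Jsupp K S' ≤ H := by
  intro x hx
  rw [eq_prod_mulSingle K hx]
  refine Subgroup.prod_mem _ (fun q hq => ?_)
  by_cases hqS : q ∈ S
  · exact h1 q hqS _
  · obtain ⟨b, hb, u, hu, hxq⟩ := h3 q hq hqS (x q)
    rw [hxq, Pi.mulSingle_mul]
    refine mul_mem ?_ (h2 q hq hqS u hu)
    have hb' : b ∈ sUnits K S' := sUnits_mono K (Finset.insert_subset hq hSS) hb
    have hY := h0 b hb'
    have key := mulSingle_mem_of_forall_ne K H hY (locS_mem_Jsupp K S' b) hq
      (fun q' hq' hne => by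
        rw [locS_apply_of_mem K b hq']
        by_cases hq'S : q' ∈ S
        · exact h1 q' hq'S _
        · exact h2 q' hq' hq'S _ (hb q' (by simp [hne, hq'S])))
    rwa [locS_apply_of_mem K b hq] at key

end Prod

/-! ## D. Norms -/

section Norm

variable (K L : Type) [Field K] [NumberField K] [Field L] [NumberField L] [Algebra K L]

theorem galAct_comp_baseCh (q : Nat.Primes) (g : L ≃ₐ[K] L) (z : Aq K q) :
    galAct K L q g (baseCh K L q z) = baseCh K L q z := by
  induction z using TensorProduct.induction_on with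
  | zero => rw [map_zero, map_zero]
  | tmul x c => rw [baseCh_tmul, galAct_tmul, g.commutes]
  | add x y hx hy => rw [map_add, map_add, hx, hy]

theorem baseCh_loc (q : Nat.Primes) (a : Kˣ) :
    Units.map (baseCh K L q : Aq K q →* Aq L q) (loc K q a) =
      loc L q (Units.map (algebraMap K L : K →* L) a) := by
  apply Units.ext
  rfl

variable [FiniteDimensional K L]

theorem isNormq_one (q : Nat.Primes) : IsNormq K L q 1 := ⟨1, by rw [map_one, map_one]⟩

variable {K L}

theorem IsNormq.mul {q : Nat.Primes} {x y : (Aq K q)ˣ} (hx : IsNormq K L q x)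
    (hy : IsNormq K L q y) : IsNormq K L q (x * y) := by
  obtain ⟨a, ha⟩ := hx
  obtain ⟨b, hb⟩ := hy
  exact ⟨a * b, by rw [map_mul, ha, hb, map_mul]⟩

theorem IsNormq.inv {q : Nat.Primes} {x : (Aq K q)ˣ} (hx : IsNormq K L q x) :
    IsNormq K L q x⁻¹ := by
  obtain ⟨a, ha⟩ := hx
  exact ⟨a⁻¹, by rw [map_inv, ha, map_inv]⟩

variable (K L)

/-- `p`-th powers are norms when `#Gal(L/K) = p`. -/
theorem isNormq_pow_card {p : ℕ} (hcard : Nat.card (L ≃ₐ[K] L) = p) (q : Nat.Primes)
    (z : (Aq K q)ˣ) : IsNormq K L q (z ^ p) := by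
  refine ⟨Units.map (baseCh K L q : Aq K q →* Aq L q) z, ?_⟩
  rw [normq_apply, map_pow]
  have h : ∀ g : L ≃ₐ[K] L,
      Units.map ((galAct K L q g : Aq L q ≃+* Aq L q) : Aq L q →* Aq L q)
        (Units.map (baseCh K L q : Aq K q →* Aq L q) z) =
      Units.map (baseCh K L q : Aq K q →* Aq L q) z := by
    intro g
    apply Units.ext
    exact galAct_comp_baseCh K L q g z
  rw [Finset.prod_congr rfl (fun g _ => h g), Finset.prod_const, Finset.card_univ,
    ← Nat.card_eq_fintype_card, hcard]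

variable {K L}

theorem mulSingle_mem_normGroup {q : Nat.Primes} {x : (Aq K q)ˣ} (h : IsNormq K L q x) :
    (Pi.mulSingle q x : Jall K) ∈ normGroup K L := by
  intro q'
  by_cases hq : q' = q
  · subst hq
    rw [Pi.mulSingle_eq_same]
    exact h
  · rw [Pi.mulSingle_eq_of_ne hq]
    exact isNormq_one K L q'

theorem mulSingle_mem_normRes {S : Finset Nat.Primes} {q : Nat.Primes} (hq : q ∈ S)
    {x : (Aq K q)ˣ} (h : IsNormq K L q x) : (Pi.mulSingle q x : Jall K) ∈ normRes K L S :=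
  Subgroup.mem_sup_left ⟨mulSingle_mem_Jsupp K hq x, mulSingle_mem_normGroup h⟩

variable (K L)

theorem locS_mem_normRes {S : Finset Nat.Primes} {b : Kˣ} (hb : b ∈ sUnits K S) :
    locS K S b ∈ normRes K L S :=
  Subgroup.mem_sup_right (Subgroup.mem_map_of_mem _ hb)

theorem normRes_le_Jsupp (S : Finset Nat.Primes) : normRes K L S ≤ Jsupp K S := by
  refine sup_le inf_le_left ?_
  rintro _ ⟨b, -, rfl⟩
  exact locS_mem_Jsupp K S b

theorem pow_mem_normRes {p : ℕ} (hcard : Nat.card (L ≃ₐ[K] L) = p) {S : Finset Nat.Primes}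
    {z : Jall K} (hz : z ∈ Jsupp K S) : z ^ p ∈ normRes K L S :=
  Subgroup.mem_sup_left ⟨pow_mem hz p, fun q => by
    rw [Pi.pow_apply]
    exact isNormq_pow_card K L hcard q (z q)⟩

end Norm

end Fermat.Agent.CFT.Global.L7
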