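/-
CFT program, layer Global, L7 (second inequality): the key lemma `[L7.10]` (helper59).

`key`: let `S` be a finite set of primes (`p ∈ S`, class group generated by `S`), and
`(q_i, e_i)`, `i < t`, places outside `S` such that the `S`-units surject onto
`∏_i U_{e_i} / U_{e_i}^p`.  If `w ∈ Kˣ` is an `(S ∪ {q_i})`-unit, a unit off `e_i` at each `q_i`,
and a `p`-th power at every `q ∈ S`, then `w` is a `p`-th power in `K`.

Proof: otherwise `N = K(w^{1/p})` is a cyclic extension of degree `p`, and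
`J_{S'}(K) ≤ K_{S'} · N J_{S'}(N)` for all large `S'` (split at `S`, unramified outside `S`,
and the units at the `e_i` are covered by the surjectivity), contradicting the first inequality.
-/
import Mathlib
import Fermat.Agent.CFT.Global.L7Gen

set_option autoImplicit false

noncomputable section

namespace Fermat.Agent.CFT.Global.L7

open TensorProduct

theorem part_part_compl {A : Type*} [CommRing A] (e : A) (he : IsIdempotentElem e)
    (hc : IsIdempotentElem (1 - e)) (x : Aˣ) : part e he (part (1 - e) hc x) = 1 := by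
  apply Units.ext
  rw [part_val, part_val, Units.val_one]
  have h2 : e * e = e := he
  linear_combination (1 - (x : A)) * h2

/-- **The key lemma** of the second inequality. -/
theorem key (p : ℕ) (K : Type) [Field K] [NumberField K] (hp : p.Prime) (ζ : K)
    (hζ : IsPrimitiveRoot ζ p) (hFI : Plan.FirstIneq p) (hKF : Plan.KummerField p K)
    (hSN : ∀ (N : Type) [Field N] [NumberField N] [Algebra K N] [FiniteDimensional K N],
      Plan.SplitNorm p K N)
    (hUN : ∀ (N : Type) [Field N] [NumberField N] [Algebra K N] [FiniteDimensional K N],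
      Plan.UnramNorm p K N)
    (S : Finset Nat.Primes) (hpS : (⟨p, hp⟩ : Nat.Primes) ∈ S)
    (hcl : ∀ q : Nat.Primes, q ∉ S → ∀ x : (Aq K q)ˣ,
      ∃ b ∈ sUnits K (insert q S), ∃ u ∈ Uq K q, x = loc K q b * u)
    {t : ℕ} (qi : Fin t → Nat.Primes) (hqiS : ∀ i, qi i ∉ S)
    (ei : ∀ i, Aq K (qi i)) (he : ∀ i, IsIdempotentElem (ei i))
    (hsurj : ∀ i, ∀ u ∈ Uq K (qi i), ∃ y ∈ sUnits K S,
      IsPowOn p (ei i) (u * (loc K (qi i) y)⁻¹) ∧
        ∀ j, j ≠ i → IsPowOn p (ei j) (loc K (qi j) y))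
    (w : Kˣ) (hwS : ∀ q ∈ S, ∃ z : (Aq K q)ˣ, loc K q w = z ^ p)
    (hw1 : w ∈ sUnits K (S ∪ Finset.univ.image qi))
    (hw2 : ∀ i, part (1 - ei i) (he i).one_sub (loc K (qi i) w) ∈ Uq K (qi i)) :
    ∃ c : Kˣ, w = c ^ p := by
  classical
  by_contra hne
  have hne' : ∀ c : Kˣ, c ^ p ≠ w := fun c hc => hne ⟨c, hc.symm⟩
  obtain ⟨N, _, _, _, _, _, hcard, β, hβ, htop⟩ := hKF ζ hζ w hne'
  obtain ⟨S₁, hS₁⟩ := hFI K N ⟨ζ, hζ⟩ hcard
  set S' : Finset Nat.Primes := (S ∪ Finset.univ.image qi) ∪ S₁ with hS'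
  have hSS' : S ⊆ S' := fun q hq => Finset.mem_union_left _ (Finset.mem_union_left _ hq)
  apply hS₁ S' Finset.subset_union_right
  have hSN' := hSN N ζ hζ hcard w β hβ htop
  have hUN' := hUN N ζ hζ hcard w β hβ htop
  set H : Subgroup (Jall K) := normRes K N S' with hH
  have hpow : ∀ (q : Nat.Primes) (z : (Aq K q)ˣ), IsNormq K N q (z ^ p) :=
    fun q z => isNormq_pow_card K N hcard q z
  have hqp : ∀ q : Nat.Primes, q ∉ S → (q : ℕ) ≠ p := by
    intro q hq h
    apply hq
    have hq' : q = ⟨p, hp⟩ := Subtype.ext h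
    rw [hq']
    exact hpS
  -- everything at `S` is a norm
  have h1 : ∀ q ∈ S, ∀ x : (Aq K q)ˣ, IsNormq K N q x := by
    intro q hq x
    have h := hSN' q 1 IsIdempotentElem.one (by
      obtain ⟨z, hz⟩ := hwS q hq
      exact ⟨z, by rw [part_one]; exact hz⟩) x
    rwa [part_one] at h
  -- units outside `S ∪ {q_i}` are norms
  have h2 : ∀ q : Nat.Primes, q ∉ S → q ∉ Finset.univ.image qi → ∀ u ∈ Uq K q,
      IsNormq K N q u := by
    intro q hq hq' u hu
    have h := hUN' q (hqp q hq) 1 IsIdempotentElem.one (by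
      rw [part_one]
      exact hw1 q (by simp only [Finset.mem_union, not_or]; exact ⟨hq, hq'⟩)) u hu
    rwa [part_one] at h
  -- units off `e_i` at `q_i` are norms
  have h3 : ∀ i, ∀ v ∈ Uq K (qi i),
      IsNormq K N (qi i) (part (1 - ei i) (he i).one_sub v) := by
    intro i v hv
    exact hUN' (qi i) (hqp _ (hqiS i)) (1 - ei i) (he i).one_sub (hw2 i) v hv
  have hmem : ∀ i, qi i ∈ S' := fun i =>
    Finset.mem_union_left _ (Finset.mem_union_right _
      (Finset.mem_image_of_mem _ (Finset.mem_univ i)))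
  -- units on `e_i` at `q_i` are in `H`
  have h5 : ∀ i, ∀ u ∈ Uq K (qi i),
      (Pi.mulSingle (qi i) (part (ei i) (he i) u) : Jall K) ∈ H := by
    intro i u hu
    obtain ⟨y, hy, hyi, hyj⟩ := hsurj i u hu
    obtain ⟨z, hz⟩ := (isPowOn_iff_part p (ei i) (he i) _).mp hyi
    have hu_eq : part (ei i) (he i) u = z ^ p * part (ei i) (he i) (loc K (qi i) y) := by
      rw [← hz, ← map_mul, inv_mul_cancel_right]
    have hyS' : y ∈ sUnits K S' := sUnits_mono K hSS' hy
    have hY : locS K S' y ∈ H := locS_mem_normRes K N hyS'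
    have hloc : (Pi.mulSingle (qi i) (loc K (qi i) y) : Jall K) ∈ H := by
      have key := mulSingle_mem_of_forall_ne K H hY (locS_mem_Jsupp K S' y) (hmem i)
        (fun q' hq' hne => by
          rw [locS_apply_of_mem K y hq']
          by_cases hq'S : q' ∈ S
          · exact mulSingle_mem_normRes hq' (h1 q' hq'S _)
          · by_cases hq'i : q' ∈ Finset.univ.image qi
            · obtain ⟨j, -, rfl⟩ := Finset.mem_image.mp hq'i
              have hji : j ≠ i := fun h => hne (by rw [h])
              obtain ⟨zj, hzj⟩ := (isPowOn_iff_part p (ei j) (he j) _).mp (hyj j hji)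
              have hUj : loc K (qi j) y ∈ Uq K (qi j) := hy (qi j) (hqiS j)
              have h4 := (hpow (qi j) zj).mul (h3 j _ hUj)
              rw [← hzj, part_mul_part_compl] at h4
              exact mulSingle_mem_normRes hq' h4
            · exact mulSingle_mem_normRes hq' (h2 q' hq'S hq'i _ (hy q' hq'S)))
      rwa [locS_apply_of_mem K y (hmem i)] at key
    have hUi : loc K (qi i) y ∈ Uq K (qi i) := hy (qi i) (hqiS i)
    have h6 : part (ei i) (he i) (loc K (qi i) y) =
        loc K (qi i) y * (part (1 - ei i) (he i).one_sub (loc K (qi i) y))⁻¹ := by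
      rw [eq_mul_inv_iff_mul_eq, part_mul_part_compl]
    rw [hu_eq, h6, Pi.mulSingle_mul, Pi.mulSingle_mul, Pi.mulSingle_inv]
    exact mul_mem (mulSingle_mem_normRes (hmem i) (hpow _ z))
      (mul_mem hloc (inv_mem (mulSingle_mem_normRes (hmem i) (h3 i _ hUi))))
  -- assemble
  refine Jsupp_le_of_gen K H hSS' (fun b hb => locS_mem_normRes K N hb)
    (fun q hq x => mulSingle_mem_normRes (hSS' hq) (h1 q hq x)) ?_
    (fun q _ hqS x => hcl q hqS x)
  intro q hq hqS u hu
  by_cases hqi : q ∈ Finset.univ.image qi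
  · obtain ⟨i, -, rfl⟩ := Finset.mem_image.mp hqi
    have h7 := mul_mem (h5 i u hu) (mulSingle_mem_normRes (hmem i) (h3 i u hu))
    rwa [← Pi.mulSingle_mul, part_mul_part_compl] at h7
  · exact mulSingle_mem_normRes hq (h2 q hqS hqi u hu)

end Fermat.Agent.CFT.Global.L7
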