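/-
CFT program, layer Global, L7 (second inequality): the assembly `[L7.11]/[L7.12]` (helper59).

`secondIneq_of`: for a cyclic extension `L/K` of odd prime degree `p` of number fields with
`μ_p ⊆ K`, the raw second inequality `SIraw K L p` follows from the Plan leaves (`L7Plan.lean`).
`secondIneq`: the same, packaged as `Plan.SecondIneq p`.

Proof (Cassels–Fröhlich VII.9 in the raw semilocal vocabulary): `L = K(α)`, `α^p = a`.  Choose `S`
containing `p`, the primes where `a` is not a unit and a set generating the class group;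
`E = K_S`, `[E : E^p] = p^s`, `[J_S : J_S^p] = p^{2s}`.  Choose `s - 1` places `(q_i, e_i)` outside
`S` where `a` is a `p`-th power and whose characters are jointly surjective on `E`
(`exists_places`, from `Plan.Frob`); choose `π_i ∈ Kˣ` of order `1` at `(q_i, e_i)` and units at
the other places outside `S`.  By the key lemma `W = E · ⟨π_i⟩` injects into `J_S / J_S^p` modulo
`p`-th powers, so `[J_S : J_S^p · W] ∣ p` (`index_dvd_of_count`); finally
`J_{S*} = J_S · (K_{S*} · N J_{S*}(L))` and `J_S^p · W ≤ K_{S*} · N J_{S*}(L)` for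
`S* = S ∪ {q_i}`.
-/
import Mathlib
import Fermat.Agent.CFT.Global.L7Key
import Fermat.Agent.CFT.Global.L7Count

set_option autoImplicit false

noncomputable section

namespace Fermat.Agent.CFT.Global.L7

open TensorProduct

/-- A cyclic extension of prime degree `p` of a field containing `μ_p` is a Kummer extension. -/
theorem exists_kummer_gen (p : ℕ) (hp : p.Prime) (K L : Type) [Field K] [Field L] [Algebra K L]
    [FiniteDimensional K L] [IsGalois K L] (ζ : K) (hζ : IsPrimitiveRoot ζ p)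
    (hcard : Nat.card (L ≃ₐ[K] L) = p) :
    ∃ (a : Kˣ) (α : L), α ^ p = algebraMap K L a ∧ IntermediateField.adjoin K {α} = ⊤ := by
  have hfin : Module.finrank K L = p := by rw [← IsGalois.card_aut_eq_finrank, hcard]
  have : Fact p.Prime := ⟨hp⟩
  have : IsCyclic (L ≃ₐ[K] L) := isCyclic_of_prime_card hcard
  have hK : (primitiveRoots (Module.finrank K L) K).Nonempty := by
    rw [hfin]
    exact ⟨ζ, (mem_primitiveRoots hp.pos).mpr hζ⟩
  obtain ⟨α, ⟨a, ha⟩, htop⟩ := exists_root_adjoin_eq_top_of_isCyclic K L hK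
  rw [hfin] at ha
  have ha0 : a ≠ 0 := by
    rintro rfl
    rw [map_zero] at ha
    have hα : α = 0 := (pow_eq_zero_iff hp.ne_zero).mp ha.symm
    rw [hα, IntermediateField.adjoin_zero] at htop
    have h1 : Module.finrank K L = 1 := IntermediateField.bot_eq_top_iff_finrank_eq_one.mp htop
    rw [hfin] at h1
    exact hp.one_lt.ne' h1
  exact ⟨Units.mk0 a ha0, α, ha.symm, htop⟩

/-- **The second inequality** (raw form) from the Plan leaves. -/
theorem secondIneq_of (p : ℕ) (hp : p.Prime) (hp2 : p ≠ 2) (K L : Type) [Field K]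
    [NumberField K] [Field L] [NumberField L] [Algebra K L] [FiniteDimensional K L]
    [IsGalois K L] (ζ : K) (hζ : IsPrimitiveRoot ζ p) (hcard : Nat.card (L ≃ₐ[K] L) = p)
    (hFI : Plan.FirstIneq p) (hKF : Plan.KummerField p K)
    (hSN : ∀ (N : Type) [Field N] [NumberField N] [Algebra K N] [FiniteDimensional K N],
      Plan.SplitNorm p K N)
    (hUN : ∀ (N : Type) [Field N] [NumberField N] [Algebra K N] [FiniteDimensional K N],
      Plan.UnramNorm p K N)
    (hSU : Plan.SUnitCount p K) (hLI : Plan.LocalIndex p K) (hPC : Plan.PlaceChar p K)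
    (hPO : Plan.PlaceOrd K) (hCG : Plan.ClassGroupS K) (hFrob : Plan.Frob p K) :
    SIraw K L p := by
  classical
  have : Fact p.Prime := ⟨hp⟩
  obtain ⟨a, α, hα, htop⟩ := exists_kummer_gen p hp K L ζ hζ hcard
  obtain ⟨Scl, hScl⟩ := hCG
  obtain ⟨Sa, hSa⟩ := exists_mem_sUnits K a
  intro S₀
  set S : Finset Nat.Primes := insert ⟨p, hp⟩ (S₀ ∪ Scl ∪ Sa) with hSdef
  have hpS : (⟨p, hp⟩ : Nat.Primes) ∈ S := Finset.mem_insert_self _ _
  have hS₀S : S₀ ⊆ S := fun q hq =>
    Finset.mem_insert_of_mem (Finset.mem_union_left _ (Finset.mem_union_left _ hq))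
  have hSclS : Scl ⊆ S := fun q hq =>
    Finset.mem_insert_of_mem (Finset.mem_union_left _ (Finset.mem_union_right _ hq))
  have haS : a ∈ sUnits K S :=
    sUnits_mono K (fun q hq => Finset.mem_insert_of_mem (Finset.mem_union_right _ hq)) hSa
  have hcl : ∀ q : Nat.Primes, q ∉ S → ∀ x : (Aq K q)ˣ,
      ∃ b ∈ sUnits K (insert q S), ∃ u ∈ Uq K q, x = loc K q b * u :=
    fun q hq x => hScl S hSclS q hq x
  have hqp : ∀ q : Nat.Primes, q ∉ S → (q : ℕ) ≠ p := by
    intro q hq h
    apply hq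
    have hq' : q = ⟨p, hp⟩ := Subtype.ext h
    rw [hq']
    exact hpS
  have hE := hSU ζ hζ S
  have hJ := hLI ζ hζ hp2 S (fun _ => hpS)
  have hs1 : 1 ≤ Plan.sExp K S := by
    have h0 : 0 < Fintype.card (NumberField.InfinitePlace K) := Fintype.card_pos
    show 1 ≤ Fintype.card (NumberField.InfinitePlace K) + Plan.nAbove K S
    omega
  -- the places outside `S` and their characters
  let Pl : Type := {v : Σ q : Nat.Primes, Aq K q // v.1 ∉ S ∧ IsPrimIdem v.2}
  have hψ : ∀ v : Pl, ∃ ψ : ↥(Uq K v.1.1) →* Multiplicative (ZMod p),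
      ∀ u : ↥(Uq K v.1.1), ψ u = 1 ↔
        ∃ y : (Aq K v.1.1)ˣ, part v.1.2 v.2.2.1 (u : (Aq K v.1.1)ˣ) = y ^ p :=
    fun v => hPC ζ hζ v.1.1 (hqp _ v.2.1) v.1.2 v.2.2 v.2.2.1
  choose ψ hψs using hψ
  let toU : ∀ v : Pl, ↥(sUnits K S) →* ↥(Uq K v.1.1) := fun v =>
    ((loc K v.1.1).comp (sUnits K S).subtype).codRestrict (Uq K v.1.1)
      (fun u => u.2 v.1.1 v.2.1)
  let χ : Pl → ↥(sUnits K S) →* Multiplicative (ZMod p) := fun v => (ψ v).comp (toU v)
  let qof : Pl → Nat.Primes := fun v => v.1.1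
  let aE : ↥(sUnits K S) := ⟨a, haS⟩
  have hχ1 : ∀ (v : Pl) (u : ↥(sUnits K S)), χ v u = 1 ↔
      ∃ y : (Aq K v.1.1)ˣ, part v.1.2 v.2.2.1 (loc K v.1.1 (u : Kˣ)) = y ^ p :=
    fun v u => hψs v (toU v u)
  have hfrob : ∀ x : ↥(sUnits K S),
      x ∉ Subgroup.zpowers aE ⊔ (powMonoidHom p : ↥(sUnits K S) →* ↥(sUnits K S)).range →
      ∀ T : Finset Nat.Primes, ∃ v, qof v ∉ T ∧ χ v aE = 1 ∧ χ v x ≠ 1 := by
    intro x hx T
    have hxa : ∀ (m : ℕ) (c : Kˣ), (x : Kˣ) ≠ a ^ m * c ^ p := by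
      intro m c hxc
      apply hx
      have hc : c ∈ sUnits K S := by
        apply sUnits_of_pow_mem K hp.pos
        have h1 : c ^ p = (x : Kˣ) * (a ^ m)⁻¹ := by
          rw [hxc, mul_comm, inv_mul_cancel_left]
        rw [h1]
        exact mul_mem x.2 (inv_mem (pow_mem haS m))
      refine Subgroup.mem_sup.mpr ⟨aE ^ m, Subgroup.pow_mem _ (Subgroup.mem_zpowers aE) m,
        (⟨c, hc⟩ : ↥(sUnits K S)) ^ p, ⟨⟨c, hc⟩, rfl⟩, ?_⟩
      exact Subtype.ext hxc.symm
    obtain ⟨q, hqT, hqS, e, hprim, he, hapow, hxpow⟩ :=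
      hFrob ζ hζ S (fun _ => hpS) a haS x x.2 hxa T
    have hv1 := hχ1 ⟨⟨q, e⟩, hqS, hprim⟩ aE
    have hv2 := hχ1 ⟨⟨q, e⟩, hqS, hprim⟩ x
    refine ⟨⟨⟨q, e⟩, hqS, hprim⟩, hqT, hv1.mpr hapow, ?_⟩
    intro h
    exact hxpow (hv2.mp h)
  obtain ⟨T, hTinj, hTS, hTa, hTsurj⟩ := exists_places p (Plan.sExp K S) hE aE χ qof hfrob S
  have hst : (Plan.sExp K S - 1) + 1 = Plan.sExp K S := by omega
  let qi : Fin (Plan.sExp K S - 1) → Nat.Primes := fun i => (T i).1.1
  let ei : ∀ i, Aq K (qi i) := fun i => (T i).1.2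
  have hprim : ∀ i, IsPrimIdem (ei i) := fun i => (T i).2.2
  have he : ∀ i, IsIdempotentElem (ei i) := fun i => (hprim i).1
  have hqiS : ∀ i, qi i ∉ S := fun i => (T i).2.1
  have hqinj : Function.Injective qi := hTinj
  have hapow : ∀ i, ∃ y : (Aq K (qi i))ˣ, part (ei i) (he i) (loc K (qi i) a) = y ^ p :=
    fun i => (hχ1 (T i) aE).mp (hTa i)
  -- valuations and uniformizers
  have hO : ∀ i, ∃ ord : (Aq K (qi i))ˣ →* Multiplicative ℤ,
      (∀ x, ord x = 1 ↔ part (ei i) (he i) x ∈ Uq K (qi i)) ∧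
        ∃ x, ord x = Multiplicative.ofAdd 1 :=
    fun i => hPO (qi i) (ei i) (hprim i) (he i)
  choose ordi hordi x0 hx0 using hO
  have hC : ∀ i, ∃ b ∈ sUnits K (insert (qi i) S), ∃ u ∈ Uq K (qi i),
      part (ei i) (he i) (x0 i) = loc K (qi i) b * u := fun i => hcl (qi i) (hqiS i) _
  choose π hπ ui hui hπu using hC
  have ho1 : ∀ i, ∀ u ∈ Uq K (qi i), ordi i u = 1 :=
    fun i u hu => ((hordi i) u).mpr (part_mem_Uq K (ei i) (he i) hu)
  have ho2 : ∀ i, ordi i (part (ei i) (he i) (x0 i)) = Multiplicative.ofAdd 1 := by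
    intro i
    have h1 : ordi i (part (1 - ei i) (he i).one_sub (x0 i)) = 1 := by
      rw [hordi i, part_part_compl]
      exact one_mem _
    have h2 := congrArg (ordi i) (part_mul_part_compl (ei i) (he i) (he i).one_sub (x0 i))
    rw [map_mul, h1, mul_one] at h2
    rw [h2, hx0 i]
  have ho3 : ∀ i, ordi i (loc K (qi i) (π i)) = Multiplicative.ofAdd 1 := by
    intro i
    have h := congrArg (ordi i) (hπu i)
    rw [map_mul, ho1 i _ (hui i), mul_one, ho2 i] at h
    exact h.symm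
  let Ord : Fin (Plan.sExp K S - 1) → Kˣ →* Multiplicative ℤ :=
    fun i => (ordi i).comp (loc K (qi i))
  have hπunit : ∀ i j, i ≠ j → loc K (qi i) (π j) ∈ Uq K (qi i) := by
    intro i j hij
    apply hπ j (qi i)
    rw [Finset.mem_insert, not_or]
    exact ⟨fun h => hij (hqinj h), hqiS i⟩
  have hord : ∀ i j, Ord i (π j) = Multiplicative.ofAdd (if i = j then (1 : ℤ) else 0) := by
    intro i j
    by_cases hij : i = j
    · subst hij
      rw [if_pos rfl]
      exact ho3 i
    · rw [if_neg hij, ofAdd_zero]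
      exact ho1 i _ (hπunit i j hij)
  have hordE : ∀ i, ∀ u ∈ sUnits K S, Ord i u = 1 :=
    fun i u hu => ho1 i _ (hu (qi i) (hqiS i))
  have ho4 : ∀ i, part (1 - ei i) (he i).one_sub (loc K (qi i) (π i)) ∈ Uq K (qi i) := by
    intro i
    have h : loc K (qi i) (π i) = part (ei i) (he i) (x0 i) * (ui i)⁻¹ := by
      rw [hπu i, mul_inv_cancel_right]
    rw [h, map_mul, part_compl_part, one_mul, map_inv]
    exact inv_mem (part_mem_Uq K _ _ (hui i))
  -- the group `W = E · ⟨π_i⟩` consists of `S*`-units that are units off `e_i` at `q_i`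
  have hWg : ∀ w ∈ sUnits K S ⊔ Subgroup.closure (Set.range π),
      w ∈ sUnits K (S ∪ Finset.univ.image qi) ∧
        ∀ i, part (1 - ei i) (he i).one_sub (loc K (qi i) w) ∈ Uq K (qi i) := by
    let Wg : Subgroup Kˣ := sUnits K (S ∪ Finset.univ.image qi) ⊓
      ⨅ i, (Uq K (qi i)).comap ((part (1 - ei i) (he i).one_sub).comp (loc K (qi i)))
    have hle : sUnits K S ⊔ Subgroup.closure (Set.range π) ≤ Wg := by
      refine sup_le ?_ ?_
      · intro u hu
        refine Subgroup.mem_inf.mpr ⟨sUnits_mono K Finset.subset_union_left hu,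
          Subgroup.mem_iInf.mpr (fun i => ?_)⟩
        show part (1 - ei i) (he i).one_sub (loc K (qi i) u) ∈ Uq K (qi i)
        exact part_mem_Uq K _ _ (hu (qi i) (hqiS i))
      · rw [Subgroup.closure_le]
        rintro _ ⟨j, rfl⟩
        refine Subgroup.mem_inf.mpr ⟨sUnits_mono K ?_ (hπ j),
          Subgroup.mem_iInf.mpr (fun i => ?_)⟩
        · intro q hq
          rcases Finset.mem_insert.mp hq with rfl | hq
          · exact Finset.mem_union_right _ (Finset.mem_image_of_mem _ (Finset.mem_univ j))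
          · exact Finset.mem_union_left _ hq
        · show part (1 - ei i) (he i).one_sub (loc K (qi i) (π j)) ∈ Uq K (qi i)
          by_cases hij : i = j
          · subst hij
            exact ho4 i
          · exact part_mem_Uq K _ _ (hπunit i j hij)
    intro w hw
    have hw' := Subgroup.mem_inf.mp (hle hw)
    exact ⟨hw'.1, fun i => Subgroup.mem_iInf.mp hw'.2 i⟩
  -- surjectivity of the characters, in the form used by the key lemma
  have hsurj : ∀ i, ∀ u ∈ Uq K (qi i), ∃ y ∈ sUnits K S,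
      IsPowOn p (ei i) (u * (loc K (qi i) y)⁻¹) ∧
        ∀ j, j ≠ i → IsPowOn p (ei j) (loc K (qi j) y) := by
    intro i u hu
    obtain ⟨y, hy⟩ := hTsurj (fun j => if j = i then ψ (T i) ⟨u, hu⟩ else 1)
    refine ⟨y, y.2, ?_, ?_⟩
    · have h1 : ψ (T i) (toU (T i) y) = ψ (T i) ⟨u, hu⟩ := by
        have h := hy i
        rw [if_pos rfl] at h
        exact h
      have h2 : ψ (T i) (⟨u, hu⟩ * (toU (T i) y)⁻¹) = 1 := by
        rw [map_mul, map_inv, h1]
        exact mul_inv_cancel _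
      exact (isPowOn_iff_part p (ei i) (he i) _).mpr ((hψs (T i) _).mp h2)
    · intro j hji
      have h1 := hy j
      rw [if_neg hji] at h1
      exact (isPowOn_iff_part p (ei j) (he j) _).mpr ((hχ1 (T j) y).mp h1)
  -- the count
  let lam : Kˣ →* ↥(Jsupp K S) := (locS K S).codRestrict (Jsupp K S) (locS_mem_Jsupp K S)
  have hkey : ∀ w ∈ sUnits K S ⊔ Subgroup.closure (Set.range π),
      lam w ∈ (powMonoidHom p : ↥(Jsupp K S) →* ↥(Jsupp K S)).range → ∃ b : Kˣ, w = b ^ p := by
    intro w hw hlam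
    obtain ⟨z, hz⟩ := hlam
    refine key p K hp ζ hζ hFI hKF hSN hUN S hpS hcl qi hqiS ei he hsurj w ?_ (hWg w hw).1
      (hWg w hw).2
    intro q hq
    refine ⟨(z : Jall K) q, ?_⟩
    have h1 : ((lam w : ↥(Jsupp K S)) : Jall K) q = ((z ^ p : ↥(Jsupp K S)) : Jall K) q := by
      rw [← hz]
      rfl
    have h2 : ((lam w : ↥(Jsupp K S)) : Jall K) q = loc K q w := locS_apply_of_mem K w hq
    rw [← h2, h1]
    rfl
  have hsat : ∀ b : Kˣ, b ^ p ∈ sUnits K S → b ∈ sUnits K S :=
    fun b hb => sUnits_of_pow_mem K hp.pos hb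
  have hcount := index_dvd_of_count p lam (sUnits K S) (Plan.sExp K S) (Plan.sExp K S - 1) hst
    hJ hE hsat π Ord hord hordE hkey
  -- transfer to `S* = S ∪ {q_i}`
  have hSsub : S ⊆ S ∪ Finset.univ.image qi := Finset.subset_union_left
  refine ⟨S ∪ Finset.univ.image qi, fun q hq => Finset.mem_union_left _ (hS₀S hq), ?_⟩
  have hSNL := hSN L ζ hζ hcard a α hα htop
  have hUNL := hUN L ζ hζ hcard a α hα htop
  have hn1 : ∀ i, ∀ x : (Aq K (qi i))ˣ, IsNormq K L (qi i) (part (ei i) (he i) x) :=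
    fun i x => hSNL (qi i) (ei i) (he i) (hapow i) x
  have hn2 : ∀ i, ∀ v ∈ Uq K (qi i),
      IsNormq K L (qi i) (part (1 - ei i) (he i).one_sub v) :=
    fun i v hv => hUNL (qi i) (hqp _ (hqiS i)) (1 - ei i) (he i).one_sub
      (part_mem_Uq K _ _ (haS (qi i) (hqiS i))) v hv
  have hn3 : ∀ i, ∀ x : (Aq K (qi i))ˣ,
      part (1 - ei i) (he i).one_sub x ∈ Uq K (qi i) → IsNormq K L (qi i) x := by
    intro i x hx
    have h := (hn1 i x).mul (hn2 i _ hx)
    rwa [part_part_self, part_mul_part_compl] at h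
  have hMR : ((powMonoidHom p : ↥(Jsupp K S) →* ↥(Jsupp K S)).range ⊔
      (sUnits K S ⊔ Subgroup.closure (Set.range π)).map lam).map (Jsupp K S).subtype ≤
      normRes K L (S ∪ Finset.univ.image qi) := by
    rw [Subgroup.map_le_iff_le_comap]
    refine sup_le ?_ ?_
    · rintro _ ⟨z, rfl⟩
      show ((z : Jall K)) ^ p ∈ normRes K L (S ∪ Finset.univ.image qi)
      exact pow_mem_normRes K L hcard (Jsupp_mono K hSsub z.2)
    · rintro _ ⟨w, hw, rfl⟩
      show locS K S w ∈ normRes K L (S ∪ Finset.univ.image qi)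
      rw [← trunc_locS K hSsub w]
      refine trunc_mem_of_forall K _ (locS_mem_normRes K L (hWg w hw).1)
        (locS_mem_Jsupp K _ w) ?_
      intro q hq hqS
      rcases Finset.mem_union.mp hq with h | h
      · exact absurd h hqS
      · obtain ⟨i, -, rfl⟩ := Finset.mem_image.mp h
        rw [locS_apply_of_mem K w hq]
        exact mulSingle_mem_normRes hq (hn3 i _ ((hWg w hw).2 i))
  have hBAR : Jsupp K (S ∪ Finset.univ.image qi) ≤
      Jsupp K S ⊔ normRes K L (S ∪ Finset.univ.image qi) := by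
    refine Jsupp_le_of_gen K _ hSsub
      (fun b hb => Subgroup.mem_sup_right (locS_mem_normRes K L hb))
      (fun q hq x => Subgroup.mem_sup_left (mulSingle_mem_Jsupp K hq x)) ?_
      (fun q _ hqS x => hcl q hqS x)
    intro q hq hqS u hu
    rcases Finset.mem_union.mp hq with h | h
    · exact absurd h hqS
    · obtain ⟨i, -, rfl⟩ := Finset.mem_image.mp h
      exact Subgroup.mem_sup_right
        (mulSingle_mem_normRes hq (hn3 i u (part_mem_Uq K _ _ hu)))
  have hB : Jsupp K (S ∪ Finset.univ.image qi) =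
      Jsupp K S ⊔ normRes K L (S ∪ Finset.univ.image qi) :=
    le_antisymm hBAR (sup_le (Jsupp_mono K hSsub) (normRes_le_Jsupp K L _))
  rw [hB, Subgroup.relIndex_sup_right]
  have h1 := Subgroup.relIndex_dvd_of_le_left (Jsupp K S) hMR
  have h2 : (((powMonoidHom p : ↥(Jsupp K S) →* ↥(Jsupp K S)).range ⊔
      (sUnits K S ⊔ Subgroup.closure (Set.range π)).map lam).map
        (Jsupp K S).subtype).relIndex (Jsupp K S) =
      ((powMonoidHom p : ↥(Jsupp K S) →* ↥(Jsupp K S)).range ⊔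
        (sUnits K S ⊔ Subgroup.closure (Set.range π)).map lam).index := by
    rw [Subgroup.relIndex, Subgroup.subgroupOf,
      Subgroup.comap_map_eq_self_of_injective (Subgroup.subtype_injective _)]
  rw [h2] at h1
  exact h1.trans hcount

/-- **`Plan.SecondIneq p`** from the Plan leaves (`p` an odd prime). -/
theorem secondIneq (p : ℕ) (hp : p.Prime) (hp2 : p ≠ 2) (hFI : Plan.FirstIneq p)
    (hKF : ∀ (K : Type) [Field K] [NumberField K], Plan.KummerField p K)
    (hSN : ∀ (K N : Type) [Field K] [NumberField K] [Field N] [NumberField N] [Algebra K N]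
      [FiniteDimensional K N], Plan.SplitNorm p K N)
    (hUN : ∀ (K N : Type) [Field K] [NumberField K] [Field N] [NumberField N] [Algebra K N]
      [FiniteDimensional K N], Plan.UnramNorm p K N)
    (hSU : ∀ (K : Type) [Field K] [NumberField K], Plan.SUnitCount p K)
    (hLI : ∀ (K : Type) [Field K] [NumberField K], Plan.LocalIndex p K)
    (hPC : ∀ (K : Type) [Field K] [NumberField K], Plan.PlaceChar p K)
    (hPO : ∀ (K : Type) [Field K] [NumberField K], Plan.PlaceOrd K)
    (hCG : ∀ (K : Type) [Field K] [NumberField K], Plan.ClassGroupS K)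
    (hFrob : ∀ (K : Type) [Field K] [NumberField K], Plan.Frob p K) : Plan.SecondIneq p := by
  intro K L _ _ _ _ _ _ _ hζ hcard
  obtain ⟨ζ, hζ⟩ := hζ
  exact secondIneq_of p hp hp2 K L ζ hζ hcard hFI (hKF K) (fun N _ _ _ _ => hSN K N)
    (fun N _ _ _ _ => hUN K N) (hSU K) (hLI K) (hPC K) (hPO K) (hCG K) (hFrob K)

end Fermat.Agent.CFT.Global.L7
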