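/-
CFT program, layer Global, L7 (second inequality): the local structure of `A_q(K)` at a place,
i.e. at a primitive idempotent `e` (helper45).

* `placeOrd   : Plan.PlaceOrd K`      [L7.3b]  — unconditional;
* `primDecomp : Plan.PrimDecomp K`    [L7.3c]  — unconditional;
* `placeChar  : Plan.PlaceChar p K`   [L7.3a]  — for `p` prime, from the unit half of the local
  index of `p`-th powers.

Method: for a primitive idempotent `e` of `A = A_q(K)` the quotient `E = A ⧸ (1 - e)` is a field,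
finite over `ℚ_[q]`; an element is integral on the `e`-part iff its image in `E` is integral.
-/
import Mathlib
import Fermat.Agent.CFT.Global.L7Plan
import Fermat.Agent.CFT.Local.OrdCore

set_option autoImplicit false

noncomputable section

namespace Fermat.Agent.CFT.Global.L7Place

open TensorProduct Polynomial
open Fermat.Agent.CFT.Global.QBridge (qInt)
open Fermat.Agent.CFT.Global.L7
open Fermat.Agent.CFT.Local

/-! ## 1. Idempotents and the quotient by `1 - e` -/

section Idem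

variable {A : Type*} [CommRing A]

theorem mk_eq_mk_iff {e : A} (he : IsIdempotentElem e) {x y : A} :
    (Ideal.Quotient.mk (Ideal.span {1 - e}) x = Ideal.Quotient.mk (Ideal.span {1 - e}) y) ↔
      e * x = e * y := by
  rw [Ideal.Quotient.eq, Ideal.mem_span_singleton']
  have h2 : e * e = e := he
  constructor
  · rintro ⟨a, ha⟩
    linear_combination (-e) * ha - a * h2
  · intro h
    exact ⟨x - y, by linear_combination (-1 : A) * h⟩

theorem mk_eq_zero_iff {e : A} (he : IsIdempotentElem e) {x : A} :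
    Ideal.Quotient.mk (Ideal.span {1 - e}) x = 0 ↔ e * x = 0 := by
  rw [← map_zero (Ideal.Quotient.mk (Ideal.span {1 - e})), mk_eq_mk_iff he, mul_zero]

/-- For a primitive idempotent `e`, the ideal `(1 - e)` is maximal. -/
theorem isMaximal_span_of_isPrimIdem {e : A} (h : IsPrimIdem e) :
    (Ideal.span {1 - e}).IsMaximal := by
  obtain ⟨he, hne, hinv⟩ := h
  refine Ideal.Quotient.maximal_of_isField _ ?_
  refine ⟨⟨0, 1, ?_⟩, mul_comm, ?_⟩
  · intro h01
    have := (mk_eq_mk_iff he (x := 0) (y := 1)).mp h01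
    rw [mul_zero, mul_one] at this
    exact hne this.symm
  · intro a ha
    obtain ⟨x, rfl⟩ := Ideal.Quotient.mk_surjective a
    have hx : e * x ≠ 0 := fun h0 => ha ((mk_eq_zero_iff he).mpr h0)
    obtain ⟨y, hy⟩ := hinv x hx
    refine ⟨Ideal.Quotient.mk _ y, ?_⟩
    rw [← map_mul, ← map_one (Ideal.Quotient.mk (Ideal.span {1 - e})), mk_eq_mk_iff he, mul_one,
      ← mul_assoc, hy]

end Idem

/-! ## 2. A surjection onto a field with kernel `{x | e x = 0}` -/

section Proj

variable {A : Type*} [CommRing A] {e : A} (he : IsIdempotentElem e)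
  {E : Type*} [Field E] (π : A →+* E) (hπ : Function.Surjective π)
  (hker : ∀ x, π x = 0 ↔ e * x = 0)

include he hker in
theorem proj_e : π e = 1 := by
  have h : π (1 - e) = 0 := by
    rw [hker]
    have h2 : e * e = e := he
    linear_combination (-1 : A) * h2
  rw [map_sub, map_one, sub_eq_zero] at h
  exact h.symm

include hker in
theorem proj_eq_iff {x y : A} : π x = π y ↔ e * x = e * y := by
  rw [← sub_eq_zero, ← map_sub, hker, mul_sub, sub_eq_zero]

include he hker in
theorem proj_part (x : Aˣ) : π ((part e he x : Aˣ) : A) = π x := by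
  rw [part_val, map_add, map_mul, proj_e he π hker, one_mul, map_sub, map_one, proj_e he π hker,
    sub_self, add_zero]

include he hker in
theorem unitsMap_part (x : Aˣ) :
    Units.map (π : A →* E) (part e he x) = Units.map (π : A →* E) x :=
  Units.ext (proj_part he π hker x)

include he hπ hker in
/-- Units of `E` lift to units of `A` supported on the `e`-part. -/
theorem exists_unit_lift (w : Eˣ) :
    ∃ y : Aˣ, π (y : A) = w ∧ (1 - e) * (y : A) = 1 - e := by
  obtain ⟨a, ha⟩ := hπ (w : E)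
  obtain ⟨b, hb⟩ := hπ ((w⁻¹ : Eˣ) : E)
  have h2 : e * e = e := he
  have hab : e * (a * b) = e := by
    have h1 : π (a * b) = π 1 := by
      rw [map_mul, ha, hb, map_one]; exact w.mul_inv
    have h3 := (proj_eq_iff π hker).mp h1
    rw [h3, mul_one]
  refine ⟨⟨e * a + (1 - e), e * b + (1 - e), ?_, ?_⟩, ?_, ?_⟩
  · linear_combination hab + (a * b - a - b + 1) * h2
  · linear_combination hab + (a * b - a - b + 1) * h2
  · show π (e * a + (1 - e)) = w
    rw [map_add, map_mul, proj_e he π hker, one_mul, map_sub, map_one, proj_e he π hker, sub_self,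
      add_zero, ha]
  · show (1 - e) * (e * a + (1 - e)) = 1 - e
    linear_combination (1 - a) * h2

include he hπ hker in
/-- Being an `n`-th power on the `e`-part is being an `n`-th power in `E`. -/
theorem exists_part_eq_pow_iff (x : Aˣ) (n : ℕ) :
    (∃ y : Aˣ, part e he x = y ^ n) ↔ ∃ w : Eˣ, Units.map (π : A →* E) x = w ^ n := by
  constructor
  · rintro ⟨y, hy⟩
    refine ⟨Units.map (π : A →* E) y, ?_⟩
    rw [← map_pow, ← hy, unitsMap_part he π hker]
  · rintro ⟨w, hw⟩
    obtain ⟨y, hy1, hy2⟩ := exists_unit_lift he π hπ hker w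
    refine ⟨y, Units.ext ?_⟩
    rw [part_val, Units.val_pow_eq_pow_val]
    have h1 : e * (x : A) = e * (y : A) ^ n := by
      rw [← proj_eq_iff π hker, map_pow, hy1]
      have := congrArg (fun u : Eˣ => (u : E)) hw
      simpa using this
    have h3 : ∀ m : ℕ, (1 - e) * (y : A) ^ m = 1 - e := by
      intro m
      induction m with
      | zero => rw [pow_zero, mul_one]
      | succ k ih => rw [pow_succ, ← mul_assoc, ih, hy2]
    linear_combination h1 - h3 n

end Proj

/-! ## 3. Integrality on the `e`-part -/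

section Integral

variable {R A : Type*} [CommRing R] [CommRing A] {e : A} (he : IsIdempotentElem e)
  {E : Type*} [Field E] (π : A →+* E) (hker : ∀ x, π x = 0 ↔ e * x = 0) (f : R →+* A)

theorem isIntegralElem_proj {x : A} (hx : f.IsIntegralElem x) :
    (π.comp f).IsIntegralElem (π x) := by
  obtain ⟨p, hp, hpx⟩ := hx
  exact ⟨p, hp, by rw [← Polynomial.hom_eval₂, hpx, map_zero]⟩

include he hker in
theorem isIntegralElem_part_of_proj {x : A} (hx : (π.comp f).IsIntegralElem (π x)) :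
    f.IsIntegralElem (e * x + (1 - e)) := by
  obtain ⟨p, hp, hpx⟩ := hx
  refine ⟨p * (X - C 1), hp.mul (monic_X_sub_C 1), ?_⟩
  have hπt : π (e * x + (1 - e)) = π x := by
    rw [map_add, map_mul, proj_e he π hker, one_mul, map_sub, map_one, proj_e he π hker,
      sub_self, add_zero]
  have h1 : e * eval₂ f (e * x + (1 - e)) p = 0 := by
    rw [← hker, Polynomial.hom_eval₂, hπt, hpx]
  rw [eval₂_mul, eval₂_sub, eval₂_X, eval₂_C, map_one]
  have h3 : e * x + (1 - e) - 1 = e * (x - 1) := by ring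
  rw [h3, ← mul_assoc, mul_comm _ e, h1, zero_mul]

end Integral

/-! ## 4. The semilocal algebra `A_q(K)` is a finite product of fields -/

section Structure

variable (K : Type) [Field K] [NumberField K] (q : ℕ) [Fact q.Prime]

theorem isReduced_left : IsReduced (ℚ_[q] ⊗[ℚ] K) := by
  have := Algebra.FormallyUnramified.of_isSeparable ℚ K
  exact Algebra.FormallyUnramified.isReduced_of_field ℚ_[q] _

theorem isReduced_tensor : IsReduced (K ⊗[ℚ] ℚ_[q]) := by
  have := isReduced_left K q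
  exact isReduced_of_injective (Algebra.TensorProduct.comm ℚ K ℚ_[q]).toRingEquiv
    (Algebra.TensorProduct.comm ℚ K ℚ_[q]).injective

theorem isArtinianRing_tensor : IsArtinianRing (K ⊗[ℚ] ℚ_[q]) := by
  have : IsArtinianRing (ℚ_[q] ⊗[ℚ] K) := IsArtinianRing.of_finite ℚ_[q] _
  exact (Algebra.TensorProduct.comm ℚ ℚ_[q] K).toRingEquiv.isArtinianRing

end Structure

/-- In a reduced Artinian ring, a unit which is an `n`-th power on every primitive part is an
`n`-th power. -/
theorem exists_eq_pow_of_forall_part {A : Type*} [CommRing A] [IsArtinianRing A] [IsReduced A]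
    (x : Aˣ) (n : ℕ)
    (hx : ∀ e : A, IsPrimIdem e → ∀ he : IsIdempotentElem e, ∃ y : Aˣ, part e he x = y ^ n) :
    ∃ y : Aˣ, x = y ^ n := by
  classical
  let Φ := IsArtinianRing.equivPi A
  have hne : ∀ I : MaximalSpectrum A, (1 : A ⧸ I.asIdeal) ≠ 0 := by
    intro I h
    have h1 : (Ideal.Quotient.mk I.asIdeal) (1 : A) = 0 := by rw [map_one]; exact h
    rw [Ideal.Quotient.eq_zero_iff_mem] at h1
    exact (Ideal.ne_top_iff_one _).mp I.isMaximal.ne_top h1
  let ε : MaximalSpectrum A → A := fun I => Φ.symm (Pi.single I 1)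
  have hΦε : ∀ I J, Φ (ε I) J = if J = I then 1 else 0 := by
    intro I J
    show Φ (Φ.symm (Pi.single I 1)) J = _
    rw [AlgEquiv.apply_symm_apply]
    by_cases hJ : J = I
    · subst hJ
      rw [Pi.single_eq_same, if_pos rfl]
    · rw [Pi.single_eq_of_ne hJ, if_neg hJ]
  have hε : ∀ I, IsPrimIdem (ε I) := by
    intro I
    refine ⟨?_, ?_, ?_⟩
    · apply Φ.injective
      funext J
      rw [map_mul, Pi.mul_apply, hΦε]
      split_ifs <;> simp
    · intro h0
      have := hΦε I I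
      rw [h0, map_zero, if_pos rfl] at this
      exact hne I this.symm
    · intro a ha
      have hc : Φ a I ≠ 0 := by
        intro hc
        apply ha
        apply Φ.injective
        funext J
        rw [map_mul, Pi.mul_apply, hΦε, map_zero, Pi.zero_apply]
        split_ifs with hJ
        · rw [hJ, hc, mul_zero]
        · rw [zero_mul]
      have := I.isMaximal
      obtain ⟨d, hd⟩ := Ideal.Quotient.exists_inv hc
      refine ⟨Φ.symm (Pi.single I d), ?_⟩
      apply Φ.injective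
      funext J
      rw [map_mul, map_mul, Pi.mul_apply, Pi.mul_apply, hΦε, AlgEquiv.apply_symm_apply]
      by_cases hJ : J = I
      · subst hJ
        rw [if_pos rfl, one_mul, Pi.single_eq_same, hd]
      · rw [if_neg hJ, zero_mul, zero_mul]
  choose y hy using fun I => hx (ε I) (hε I) (hε I).1
  have hyI : ∀ I, Φ (x : A) I = (Φ (y I : A) I) ^ n := by
    intro I
    have h1 := congrArg (fun u : Aˣ => Φ (u : A) I) (hy I)
    simp only [part_val, Units.val_pow_eq_pow_val, map_add, map_mul, map_sub, map_one, map_pow,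
      Pi.add_apply, Pi.mul_apply, Pi.sub_apply, Pi.one_apply, Pi.pow_apply, hΦε, if_true] at h1
    rw [← h1]; ring
  let a : A := Φ.symm (fun I => Φ (y I : A) I)
  let b : A := Φ.symm (fun I => Φ (((y I)⁻¹ : Aˣ) : A) I)
  have hab : a * b = 1 := by
    apply Φ.injective
    funext I
    show Φ (Φ.symm _ * Φ.symm _) I = _
    rw [map_mul, AlgEquiv.apply_symm_apply, AlgEquiv.apply_symm_apply, map_one, Pi.mul_apply,
      Pi.one_apply]
    show Φ (y I : A) I * Φ (((y I)⁻¹ : Aˣ) : A) I = 1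
    rw [← Pi.mul_apply, ← map_mul, Units.mul_inv, map_one, Pi.one_apply]
  refine ⟨⟨a, b, hab, by rw [mul_comm]; exact hab⟩, Units.ext ?_⟩
  rw [Units.val_pow_eq_pow_val]
  show (x : A) = a ^ n
  apply Φ.injective
  funext I
  rw [map_pow, Pi.pow_apply, hyI I]
  show _ = (Φ (Φ.symm _) I) ^ n
  rw [AlgEquiv.apply_symm_apply]

/-- **[L7.3c]** An element of `A_q(K)ˣ` which is an `n`-th power on every primitive part is an
`n`-th power. -/
theorem primDecomp (K : Type) [Field K] [NumberField K] : Plan.PrimDecomp K := by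
  intro q x n hx
  have hred : IsReduced (Aq K q) := isReduced_tensor K (q : ℕ)
  have hart : IsArtinianRing (Aq K q) := isArtinianRing_tensor K (q : ℕ)
  exact exists_eq_pow_of_forall_part x n hx

/-! ## 5. The field of a place -/

section Place

variable (K : Type) [Field K] [NumberField K] (q : ℕ) [Fact q.Prime]

/-- The field of a place: for a primitive idempotent `e` of `K ⊗ ℚ_q` there is a finite extension
`E` of `ℚ_q` and a surjection `π : K ⊗ ℚ_q → E` with kernel `{x | e x = 0}`, compatible with the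
`ℚ_q`-structures. -/
theorem exists_placeField {e : K ⊗[ℚ] ℚ_[q]} (h : IsPrimIdem e) :
    ∃ (E : Type) (_ : Field E) (_ : Algebra ℚ_[q] E) (_ : FiniteDimensional ℚ_[q] E)
      (π : K ⊗[ℚ] ℚ_[q] →+* E),
      Function.Surjective π ∧ (∀ x, π x = 0 ↔ e * x = 0) ∧
      (∀ c : ℚ_[q], π ((1 : K) ⊗ₜ[ℚ] c) = algebraMap ℚ_[q] E c) := by
  have hmax := isMaximal_span_of_isPrimIdem h
  let _ : Field (K ⊗[ℚ] ℚ_[q] ⧸ Ideal.span {1 - e}) := Ideal.Quotient.field _
  let π : K ⊗[ℚ] ℚ_[q] →+* (K ⊗[ℚ] ℚ_[q] ⧸ Ideal.span {1 - e}) := Ideal.Quotient.mk _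
  let alg : Algebra ℚ_[q] (K ⊗[ℚ] ℚ_[q] ⧸ Ideal.span {1 - e}) :=
    (π.comp (Algebra.TensorProduct.includeRight : ℚ_[q] →ₐ[ℚ] K ⊗[ℚ] ℚ_[q]).toRingHom).toAlgebra
  have fd : FiniteDimensional ℚ_[q] (K ⊗[ℚ] ℚ_[q] ⧸ Ideal.span {1 - e}) := by
    let φ : ℚ_[q] ⊗[ℚ] K →ₐ[ℚ_[q]] (K ⊗[ℚ] ℚ_[q] ⧸ Ideal.span {1 - e}) :=
      { toRingHom := π.comp (Algebra.TensorProduct.comm ℚ ℚ_[q] K).toAlgHom.toRingHom
        commutes' := fun c => by
          show π ((Algebra.TensorProduct.comm ℚ ℚ_[q] K) (algebraMap ℚ_[q] (ℚ_[q] ⊗[ℚ] K) c)) = _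
          rw [Algebra.TensorProduct.algebraMap_apply, Algebra.TensorProduct.comm_tmul]
          rfl }
    have hsurj : Function.Surjective φ := by
      intro y
      obtain ⟨a, rfl⟩ := Ideal.Quotient.mk_surjective y
      refine ⟨(Algebra.TensorProduct.comm ℚ ℚ_[q] K).symm a, ?_⟩
      show π ((Algebra.TensorProduct.comm ℚ ℚ_[q] K) ((Algebra.TensorProduct.comm ℚ ℚ_[q] K).symm a))
        = _
      rw [AlgEquiv.apply_symm_apply]
    exact Module.Finite.of_surjective φ.toLinearMap hsurj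
  exact ⟨_, inferInstance, alg, fd, π, Ideal.Quotient.mk_surjective,
    fun x => mk_eq_zero_iff h.1, fun c => rfl⟩

variable {K q}

theorem mem_integers_iff_isIntegralElem (E : Type) [Field E] [Algebra ℚ_[q] E] (y : E) :
    y ∈ integers q E ↔
      ((algebraMap ℚ_[q] E).comp (algebraMap ℤ_[q] ℚ_[q])).IsIntegralElem y := Iff.rfl

/-- Integrality on the `e`-part is integrality in the field of the place. -/
theorem part_integral_iff {e : K ⊗[ℚ] ℚ_[q]} (he : IsIdempotentElem e)
    (E : Type) [Field E] [Algebra ℚ_[q] E] (π : K ⊗[ℚ] ℚ_[q] →+* E)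
    (hker : ∀ x, π x = 0 ↔ e * x = 0)
    (hc : ∀ c : ℚ_[q], π ((1 : K) ⊗ₜ[ℚ] c) = algebraMap ℚ_[q] E c) (x : (K ⊗[ℚ] ℚ_[q])ˣ) :
    ((qInt q K).IsIntegralElem ((part e he x : (K ⊗[ℚ] ℚ_[q])ˣ) : K ⊗[ℚ] ℚ_[q]) ∧
      (qInt q K).IsIntegralElem (((part e he x)⁻¹ : (K ⊗[ℚ] ℚ_[q])ˣ) : K ⊗[ℚ] ℚ_[q])) ↔
      Units.map (π : K ⊗[ℚ] ℚ_[q] →* E) x ∈ unitGroup q E := by
  have hcomp : π.comp (qInt q K) = (algebraMap ℚ_[q] E).comp (algebraMap ℤ_[q] ℚ_[q]) := by
    ext c
    exact hc _
  have hinv : ((part e he x)⁻¹ : (K ⊗[ℚ] ℚ_[q])ˣ) = part e he x⁻¹ := (map_inv _ _).symm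
  show _ ↔ ((Units.map (π : K ⊗[ℚ] ℚ_[q] →* E) x : Eˣ) : E) ∈ integers q E ∧
    (((Units.map (π : K ⊗[ℚ] ℚ_[q] →* E) x)⁻¹ : Eˣ) : E) ∈ integers q E
  rw [mem_integers_iff_isIntegralElem, mem_integers_iff_isIntegralElem, ← hcomp, hinv,
    ← map_inv]
  constructor
  · rintro ⟨h1, h2⟩
    refine ⟨?_, ?_⟩
    · have := isIntegralElem_proj π (qInt q K) h1
      rwa [proj_part he π hker] at this
    · have := isIntegralElem_proj π (qInt q K) h2
      rwa [proj_part he π hker] at this
  · rintro ⟨h1, h2⟩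
    exact ⟨isIntegralElem_part_of_proj he π hker (qInt q K) h1,
      isIntegralElem_part_of_proj he π hker (qInt q K) h2⟩

end Place

/-- **[L7.3b]** The valuation of a place. -/
theorem placeOrd (K : Type) [Field K] [NumberField K] : Plan.PlaceOrd K := by
  intro q e hprim he
  obtain ⟨E, _, _, _, π, hπ, hker, hc⟩ := exists_placeField K (q : ℕ) hprim
  refine ⟨(OrdCore.ordHom (q : ℕ) E).comp (Units.map (π : Aq K q →* E)), ?_, ?_⟩
  · intro x
    rw [mem_Uq, part_integral_iff he E π hker hc x, OrdCore.mem_unitGroup_iff_ordZ]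
    show Multiplicative.ofAdd (ordZ (q : ℕ) E (Units.map (π : Aq K q →* E) x)) = 1 ↔ _
    rw [← ofAdd_zero, Multiplicative.ofAdd.apply_eq_iff_eq]
  · obtain ⟨ϖ, hϖ⟩ := OrdCore.exists_ordZ_eq_one (q : ℕ) E
    obtain ⟨y, hy1, -⟩ := exists_unit_lift he π hπ hker ϖ
    refine ⟨y, ?_⟩
    have hy : Units.map (π : Aq K q →* E) y = ϖ := Units.ext hy1
    show Multiplicative.ofAdd (ordZ (q : ℕ) E (Units.map (π : Aq K q →* E) y)) = _
    rw [hy, hϖ]

/-- The image of a unit of the maximal order is a unit of the integers of the place field. -/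
theorem unitsMap_mem_unitGroup {K : Type} [Field K] [NumberField K] {q : ℕ} [Fact q.Prime]
    (E : Type) [Field E] [Algebra ℚ_[q] E] (π : K ⊗[ℚ] ℚ_[q] →+* E)
    (hc : ∀ c : ℚ_[q], π ((1 : K) ⊗ₜ[ℚ] c) = algebraMap ℚ_[q] E c) {u : (K ⊗[ℚ] ℚ_[q])ˣ}
    (hu : (qInt q K).IsIntegralElem (u : K ⊗[ℚ] ℚ_[q]) ∧
      (qInt q K).IsIntegralElem ((u⁻¹ : (K ⊗[ℚ] ℚ_[q])ˣ) : K ⊗[ℚ] ℚ_[q])) :
    Units.map (π : K ⊗[ℚ] ℚ_[q] →* E) u ∈ unitGroup q E := by
  have hcomp : π.comp (qInt q K) = (algebraMap ℚ_[q] E).comp (algebraMap ℤ_[q] ℚ_[q]) := by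
    ext c
    exact hc _
  show ((Units.map (π : K ⊗[ℚ] ℚ_[q] →* E) u : Eˣ) : E) ∈ integers q E ∧
    (((Units.map (π : K ⊗[ℚ] ℚ_[q] →* E) u)⁻¹ : Eˣ) : E) ∈ integers q E
  rw [mem_integers_iff_isIntegralElem, mem_integers_iff_isIntegralElem, ← hcomp, ← map_inv]
  exact ⟨isIntegralElem_proj π (qInt q K) hu.1, isIntegralElem_proj π (qInt q K) hu.2⟩

/-- **[L7.3a]**, from the minimal local input: for `q ≠ p` and a finite extension `F` of `ℚ_q`
containing a primitive `p`-th root of unity, the `p`-th powers have index `p` in the units. -/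
theorem placeChar_of_local (p : ℕ) (hp : p.Prime) (K : Type) [Field K] [NumberField K]
    (hloc : ∀ (q : ℕ) [Fact q.Prime], q ≠ p → ∀ (F : Type) [Field F] [Algebra ℚ_[q] F]
      [FiniteDimensional ℚ_[q] F], (∃ ζ : F, IsPrimitiveRoot ζ p) →
      ((MonoidHom.range (powMonoidHom p : Fˣ →* Fˣ)).subgroupOf (unitGroup q F)).index = p) :
    Plan.PlaceChar p K := by
  intro ζ hζ q hqp e hprim he
  obtain ⟨E, _, _, _, π, hπ, hker, hc⟩ := exists_placeField K (q : ℕ) hprim
  have : Fact p.Prime := ⟨hp⟩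
  -- a primitive `p`-th root of unity in `E`
  let ι : K →+* E :=
    π.comp (Algebra.TensorProduct.includeLeft : K →ₐ[ℚ] K ⊗[ℚ] ℚ_[(q : ℕ)]).toRingHom
  have hζE : IsPrimitiveRoot (ι ζ) p := hζ.map_of_injective ι.injective
  have hQ : Nat.card (↥(unitGroup (q : ℕ) E) ⧸
      (MonoidHom.range (powMonoidHom p : Eˣ →* Eˣ)).subgroupOf (unitGroup (q : ℕ) E)) = p :=
    hloc (q : ℕ) hqp E ⟨ι ζ, hζE⟩
  have hZ : Nat.card (Multiplicative (ZMod p)) = p := by
    rw [Nat.card_eq_fintype_card, Fintype.card_multiplicative, ZMod.card]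
  let iso := mulEquivOfPrimeCardEq hQ hZ
  let r : ↥(Uq K q) →* ↥(unitGroup (q : ℕ) E) :=
    MonoidHom.codRestrict ((Units.map (π : Aq K q →* E)).comp (Uq K q).subtype)
      (unitGroup (q : ℕ) E) (fun u => unitsMap_mem_unitGroup E π hc u.2)
  refine ⟨iso.toMonoidHom.comp ((QuotientGroup.mk' _).comp r), ?_⟩
  intro u
  rw [exists_part_eq_pow_iff he π hπ hker]
  show iso (QuotientGroup.mk' _ (r u)) = 1 ↔ _
  rw [MulEquiv.map_eq_one_iff, QuotientGroup.mk'_apply, QuotientGroup.eq_one_iff,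
    Subgroup.mem_subgroupOf, MonoidHom.mem_range]
  constructor
  · rintro ⟨w, hw⟩
    exact ⟨w, hw.symm⟩
  · rintro ⟨w, hw⟩
    exact ⟨w, hw.symm⟩

/-- **[L7.3a]** The character of a place, from the unit half of the local index of `p`-th powers
(the second component of `Local.Plan.PowIndex`, same text). -/
theorem placeChar (p : ℕ) (hp : p.Prime) (K : Type) [Field K] [NumberField K]
    (hpow : ∀ (q : ℕ) [Fact q.Prime] (F : Type) [Field F] [Algebra ℚ_[q] F]
      [FiniteDimensional ℚ_[q] F],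
      ((MonoidHom.range (powMonoidHom p : Fˣ →* Fˣ)).subgroupOf (unitGroup q F)).index =
        Nat.card (rootsOfUnity p F) * q ^ (Module.finrank ℚ_[q] F * padicValNat q p)) :
    Plan.PlaceChar p K := by
  refine placeChar_of_local p hp K ?_
  intro q _ hqp F _ _ _ hζ
  obtain ⟨ζ, hζ⟩ := hζ
  have : NeZero p := ⟨hp.ne_zero⟩
  have hcard : Nat.card (rootsOfUnity p F) = p := hζ.card_rootsOfUnity
  have hval : padicValNat q p = 0 :=
    padicValNat.eq_zero_of_not_dvd fun hdvd =>
      hqp ((Nat.prime_dvd_prime_iff_eq (Fact.out : q.Prime) hp).mp hdvd)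
  rw [hpow q F, hcard, hval, mul_zero, pow_zero, mul_one]

end Fermat.Agent.CFT.Global.L7Place
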