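/-
CFT program, layer Global, L7: `[L7.3a] Plan.PlaceChar p K` for every prime `p`, unconditionally
(helper45).  The local input is `Local.PowIndexQ.powIndex` (helper64).
-/
import Mathlib
import Fermat.Agent.CFT.Global.L7Place
import Fermat.Agent.CFT.Local.PowIndexQ

set_option autoImplicit false

namespace Fermat.Agent.CFT.Global.L7Place

open Fermat.Agent.CFT.Global.L7

/-- **[L7.3a]** The character of a place: for a prime `p`, `q ≠ p` and a primitive idempotent `e`
of `A_q(K)` there is a character `U_q(K) → ℤ/p` whose kernel is the set of units that are `p`-th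
powers on the `e`-part. -/
theorem placeCharStmt (p : ℕ) (hp : p.Prime) (K : Type) [Field K] [NumberField K] :
    Plan.PlaceChar p K :=
  placeChar p hp K fun q _ F _ _ _ => (Fermat.Agent.CFT.Local.PowIndexQ.powIndex q p hp F).2

end Fermat.Agent.CFT.Global.L7Place
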