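import Mathlib
import Fermat.Agent.CFT.Global.L7Plan
import Fermat.Agent.CFT.Glob.GaloisTensor

/-!
# CFT program, layer Global, L7: primitive idempotents `[L7.3d]` (helper40)

* `primSum : Plan.PrimSum K`: `A_q(K)` has a finite set of primitive idempotents with sum `1`
  (it is reduced and Artinian, hence a finite product of fields).
* generic lemmas on primitive idempotents and `part` in any commutative ring:
  `primIdem_mul_idem`, `primIdem_mul_primIdem`, `prod_part_val`, `part_part_of_mul_eq`,
  `part_induction` (a multiplicative property of units holds for `part e₀ x` as soon as it holds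
  for `part e x` for the primitive `e ≤ e₀`), `unit_induction` (the case `e₀ = 1`);
* `part_mem_Uq`: `part e` preserves the units of the maximal order.
-/

set_option autoImplicit false

noncomputable section

namespace Fermat.Agent.CFT.Global.L7PrimSum

open TensorProduct
open Fermat.Agent.CFT.Global.L7

section Generic

variable {A : Type*} [CommRing A]

/-- A primitive idempotent times an idempotent is `0` or itself. -/
theorem primIdem_mul_idem {e f : A} (he : IsPrimIdem e) (hf : IsIdempotentElem f) :
    e * f = 0 ∨ e * f = e := by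
  by_cases h : e * f = 0
  · exact Or.inl h
  · obtain ⟨y, hy⟩ := he.2.2 f h
    refine Or.inr ?_
    have hff : f * f = f := hf
    calc e * f = e * f * y * f := by rw [hy]
      _ = e * (f * f) * y := by ring
      _ = e * f * y := by rw [hff]
      _ = e := hy

/-- Distinct primitive idempotents are orthogonal. -/
theorem primIdem_mul_primIdem {e f : A} (he : IsPrimIdem e) (hf : IsPrimIdem f) (hne : e ≠ f) :
    e * f = 0 := by
  rcases primIdem_mul_idem he hf.1 with h | h
  · exact h
  · rcases primIdem_mul_idem hf he.1 with h' | h'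
    · rw [mul_comm] at h'
      exact h'
    · exact absurd (h.symm.trans ((mul_comm e f).trans h')) hne

/-- For pairwise orthogonal `e ∈ s`: `∏ (e x + (1 - e)) = (∑ e) x + (1 - ∑ e)`. -/
theorem prod_part_val (s : Finset A) (hs : ∀ e ∈ s, ∀ f ∈ s, e ≠ f → e * f = 0) (x : A) :
    ∏ e ∈ s, (e * x + (1 - e)) = (∑ e ∈ s, e) * x + (1 - ∑ e ∈ s, e) := by
  classical
  induction s using Finset.induction_on with
  | empty => simp
  | insert a s ha ih =>
    rw [Finset.prod_insert ha, Finset.sum_insert ha,
      ih fun e he f hf hef => hs e (Finset.mem_insert_of_mem he) f (Finset.mem_insert_of_mem hf) hef]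
    have h0 : a * ∑ e ∈ s, e = 0 := by
      rw [Finset.mul_sum]
      exact Finset.sum_eq_zero fun e he =>
        hs a (Finset.mem_insert_self a s) e (Finset.mem_insert_of_mem he) (fun h => ha (h ▸ he))
    linear_combination (x - 1) ^ 2 * h0

theorem part_one (x : Aˣ) : part (1 : A) IsIdempotentElem.one x = x := by
  apply Units.ext
  rw [part_val]
  ring

theorem part_zero (x : Aˣ) : part (0 : A) IsIdempotentElem.zero x = 1 := by
  apply Units.ext
  rw [part_val, Units.val_one]
  ring

theorem part_congr {e e' : A} (h : e = e') (he : IsIdempotentElem e) (he' : IsIdempotentElem e')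
    (x : Aˣ) : part e he x = part e' he' x := by
  subst h
  rfl

/-- `part e' ∘ part e = part e'` for `e' ≤ e`. -/
theorem part_part_of_mul_eq {e e' : A} (he : IsIdempotentElem e) (he' : IsIdempotentElem e')
    (h : e * e' = e') (x : Aˣ) : part e' he' (part e he x) = part e' he' x := by
  apply Units.ext
  rw [part_val, part_val, part_val]
  linear_combination ((x : A) - 1) * h

theorem part_part (e : A) (he : IsIdempotentElem e) (x : Aˣ) :
    part e he (part e he x) = part e he x :=
  part_part_of_mul_eq he he he x

/-- `part` of a sum of two orthogonal idempotents. -/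
theorem part_add {e f : A} (he : IsIdempotentElem e) (hf : IsIdempotentElem f) (hef : e * f = 0)
    (hef' : IsIdempotentElem (e + f)) (x : Aˣ) :
    part (e + f) hef' x = part e he x * part f hf x := by
  apply Units.ext
  rw [Units.val_mul, part_val, part_val, part_val]
  linear_combination (-((x : A) - 1) ^ 2) * hef

/-- **Induction over the primitive parts.**  `s` a finite set of primitive idempotents with sum
`1`, `P` a property of units stable under products, `e₀` any idempotent.  If `P (part e x)` for
every `e ∈ s` with `e₀ e = e`, then `P (part e₀ x)`. -/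
theorem part_induction (s : Finset A) (hs : ∀ e ∈ s, IsPrimIdem e) (h1 : ∑ e ∈ s, e = 1)
    (P : Aˣ → Prop) (hP1 : P 1) (hPmul : ∀ x y, P x → P y → P (x * y)) (e₀ : A)
    (he₀ : IsIdempotentElem e₀) (x : Aˣ)
    (h : ∀ e ∈ s, e₀ * e = e → ∀ he : IsIdempotentElem e, P (part e he x)) :
    P (part e₀ he₀ x) := by
  classical
  -- the product over the attached subset `t ⊆ s` of the idempotents below `e₀`
  have key : ∀ t : Finset A, t ⊆ s → (∀ e ∈ t, e₀ * e = e) →
      ∃ y : Aˣ, P y ∧ (y : A) = (∑ e ∈ t, e) * x + (1 - ∑ e ∈ t, e) := by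
    intro t
    induction t using Finset.induction_on with
    | empty =>
      intro _ _
      exact ⟨1, hP1, by simp⟩
    | insert a t ha ih =>
      intro hts hte
      obtain ⟨y, hy, hyv⟩ := ih (fun e he => hts (Finset.mem_insert_of_mem he))
        (fun e he => hte e (Finset.mem_insert_of_mem he))
      have has : a ∈ s := hts (Finset.mem_insert_self a t)
      refine ⟨part a (hs a has).1 x * y,
        hPmul _ _ (h a has (hte a (Finset.mem_insert_self a t)) _) hy, ?_⟩
      have h0 : a * ∑ e ∈ t, e = 0 := by
        rw [Finset.mul_sum]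
        refine Finset.sum_eq_zero fun e he => ?_
        exact primIdem_mul_primIdem (hs a has) (hs e (hts (Finset.mem_insert_of_mem he)))
          (fun hae => ha (hae ▸ he))
      rw [Units.val_mul, part_val, hyv, Finset.sum_insert ha]
      linear_combination ((x : A) - 1) ^ 2 * h0
  obtain ⟨y, hy, hyv⟩ := key (s.filter fun e => e₀ * e = e) (Finset.filter_subset _ _)
    (fun e he => (Finset.mem_filter.mp he).2)
  have hsum : ∑ e ∈ s.filter (fun e => e₀ * e = e), e = e₀ := by
    have h2 : ∑ e ∈ s.filter (fun e => e₀ * e = e), e = ∑ e ∈ s, e₀ * e := by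
      rw [Finset.sum_filter]
      refine Finset.sum_congr rfl fun e he => ?_
      split_ifs with hc
      · exact hc.symm
      · rcases primIdem_mul_idem (hs e he) he₀ with h' | h'
        · rw [mul_comm] at h'
          exact h'.symm
        · rw [mul_comm] at h'
          exact absurd h' hc
    rw [h2, ← Finset.mul_sum, h1, mul_one]
  have : part e₀ he₀ x = y := by
    apply Units.ext
    rw [part_val, hyv, hsum]
  rw [this]
  exact hy

/-- **Induction over the primitive parts**, for the whole unit. -/
theorem unit_induction (s : Finset A) (hs : ∀ e ∈ s, IsPrimIdem e) (h1 : ∑ e ∈ s, e = 1)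
    (P : Aˣ → Prop) (hP1 : P 1) (hPmul : ∀ x y, P x → P y → P (x * y)) (x : Aˣ)
    (h : ∀ e ∈ s, ∀ he : IsIdempotentElem e, P (part e he x)) : P x := by
  have := part_induction s hs h1 P hP1 hPmul 1 IsIdempotentElem.one x (fun e he _ => h e he)
  rwa [part_one] at this

/-- A ring isomorphic to a finite product of fields has a finite set of primitive idempotents
with sum `1`. -/
theorem exists_primIdem_sum_of_equiv {ι : Type*} [Fintype ι] {F : ι → Type*}
    [∀ i, CommRing (F i)] (hF : ∀ i, IsField (F i)) (φ : A ≃+* ∀ i, F i) :
    ∃ s : Finset A, (∀ e ∈ s, IsPrimIdem e) ∧ ∑ e ∈ s, e = 1 := by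
  classical
  have hne : ∀ i, (1 : F i) ≠ 0 := fun i => by
    obtain ⟨a, b, hab⟩ := (hF i).exists_pair_ne
    intro h10
    exact hab (by rw [← mul_one a, ← mul_one b, h10, mul_zero, mul_zero])
  set ε : ι → A := fun i => φ.symm (Pi.single i 1) with hε
  have hφε : ∀ i, φ (ε i) = Pi.single i 1 := fun i => φ.apply_symm_apply _
  have hinj : Function.Injective ε := by
    intro i j hij
    by_contra hne'
    have h2 : (Pi.single i (1 : F i) : ∀ k, F k) i = (Pi.single j (1 : F j) : ∀ k, F k) i := by
      rw [← hφε i, ← hφε j, hij]
    rw [Pi.single_eq_same, Pi.single_eq_of_ne hne'] at h2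
    exact hne i h2
  refine ⟨Finset.univ.image ε, ?_, ?_⟩
  · intro e he
    obtain ⟨i, -, rfl⟩ := Finset.mem_image.mp he
    refine ⟨?_, ?_, ?_⟩
    · apply φ.injective
      rw [map_mul, hφε, ← Pi.single_mul, mul_one]
    · intro h0
      have h2 := congrFun (congrArg φ h0) i
      rw [hφε, map_zero, Pi.single_eq_same, Pi.zero_apply] at h2
      exact hne i h2
    · intro x hx
      have hxi : φ x i ≠ 0 := by
        intro h0
        apply hx
        apply φ.injective
        rw [map_mul, hφε, map_zero]
        funext j
        by_cases hj : j = i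
        · subst hj
          rw [Pi.mul_apply, h0, mul_zero, Pi.zero_apply]
        · rw [Pi.mul_apply, Pi.single_eq_of_ne hj, zero_mul, Pi.zero_apply]
      obtain ⟨b, hb⟩ := (hF i).mul_inv_cancel hxi
      refine ⟨φ.symm (Pi.single i b), ?_⟩
      apply φ.injective
      rw [map_mul, map_mul, hφε, φ.apply_symm_apply]
      funext j
      by_cases hj : j = i
      · subst hj
        rw [Pi.mul_apply, Pi.mul_apply, Pi.single_eq_same, Pi.single_eq_same, one_mul, hb]
      · rw [Pi.mul_apply, Pi.mul_apply, Pi.single_eq_of_ne hj, zero_mul, zero_mul]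
  · rw [Finset.sum_image fun i _ j _ hij => hinj hij]
    apply φ.injective
    rw [map_sum, map_one]
    simp only [hφε]
    exact Finset.univ_sum_single (1 : ∀ i, F i)

/-- A reduced Artinian ring has a finite set of primitive idempotents with sum `1`. -/
theorem exists_primIdem_sum [IsArtinianRing A] [IsReduced A] :
    ∃ s : Finset A, (∀ e ∈ s, IsPrimIdem e) ∧ ∑ e ∈ s, e = 1 := by
  have : Fintype (MaximalSpectrum A) := Fintype.ofFinite _
  exact exists_primIdem_sum_of_equiv
    (fun m : MaximalSpectrum A =>
      (Ideal.Quotient.maximal_ideal_iff_isField_quotient m.asIdeal).mp m.isMaximal)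
    (IsArtinianRing.equivPi A).toRingEquiv

end Generic

section NumberField

variable (K : Type) [Field K] [NumberField K]

/-- **[L7.3d] primitive idempotents sum to one.** -/
theorem primSum : Plan.PrimSum K := by
  intro q
  have : IsReduced (Aq K q) := Fermat.Agent.CFT.Glob.GaloisTensor.isReduced ℚ K ℚ_[(q : ℕ)]
  have : IsArtinianRing (Aq K q) :=
    Fermat.Agent.CFT.Glob.GaloisTensor.isArtinianRing ℚ K ℚ_[(q : ℕ)]
  exact exists_primIdem_sum

open Fermat.Agent.CFT.Global.QBridge (qInt) in
/-- Idempotents are integral. -/
theorem isIntegralElem_of_idem (q : Nat.Primes) {e : Aq K q} (he : IsIdempotentElem e) :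
    (qInt (q : ℕ) K).IsIntegralElem e := by
  refine ⟨Polynomial.X ^ 2 - Polynomial.X, ?_, ?_⟩
  · exact Polynomial.monic_X_pow_sub (by simp)
  · have hee : e * e = e := he
    rw [Polynomial.eval₂_sub, Polynomial.eval₂_pow, Polynomial.eval₂_X, pow_two, hee, sub_self]

/-- `part e` preserves the units of the maximal order. -/
theorem part_mem_Uq (q : Nat.Primes) {e : Aq K q} (he : IsIdempotentElem e) {x : (Aq K q)ˣ}
    (hx : x ∈ Uq K q) : part e he x ∈ Uq K q := by
  have hie := isIntegralElem_of_idem K q he
  have h1e : (QBridge.qInt (q : ℕ) K).IsIntegralElem (1 - e) :=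
    RingHom.IsIntegralElem.sub _ (RingHom.isIntegralElem_one _) hie
  refine ⟨?_, ?_⟩
  · rw [part_val]
    exact RingHom.IsIntegralElem.add _ (RingHom.IsIntegralElem.mul _ hie hx.1) h1e
  · rw [← map_inv, part_val]
    exact RingHom.IsIntegralElem.add _ (RingHom.IsIntegralElem.mul _ hie hx.2) h1e

end NumberField

end Fermat.Agent.CFT.Global.L7PrimSum
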