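import Mathlib
import Fermat.Agent.CFT.Global.L7Plan
import Fermat.Agent.CFT.Global.L7Split
import Fermat.Agent.CFT.Global.L7Count

/-!
# `[L7.5]` the unramified part: `Plan.UnramNorm` from `Plan.PlaceChar` and `Plan.PrimSum`

`L = K(α)`, `α ^ p = a`, cyclic of odd prime degree `p` over `K ∋ ζ_p`; `q ≠ p` a rational prime,
`e` an idempotent of `A_q(K)` such that `a` is a unit on the `e`-part.  Then every unit `u` of the
maximal order, restricted to the `e`-part, is a norm from `A_q(L)ˣ`.

Proof (no local fields): decompose `e` into primitive idempotents (`PrimSum`).  At a primitive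
`e' ≤ e` let `ψ` be the character of `PlaceChar`.  If `ψ (a) = 1` then `a` is a `p`-th power at
`e'` and the split case (`L7Split.splitNorm`) applies.  Otherwise `ψ u = ψ(a) ^ m`, so on the
`e'`-part `u = a ^ m * y ^ p`, and both `a = N(α)` (`p` odd) and `y ^ p = N(y)` are norms.
-/

set_option autoImplicit false
set_option linter.unusedSectionVars false

namespace Fermat.Agent.CFT.Global.L7Unram

open TensorProduct
open Fermat.Agent.CFT.Global.L7

noncomputable section

/-! ### Generic lemmas on idempotents and `part` -/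

section Generic

variable {A : Type*} [CommRing A]

/-- The product of the "parts" over a pairwise orthogonal family is the part of the sum. -/
theorem prod_mul_add_one_sub {ι : Type*} (s : Finset ι) (f : ι → A) (x : A)
    (horth : ∀ i ∈ s, ∀ j ∈ s, i ≠ j → f i * f j = 0) :
    ∏ i ∈ s, (f i * x + (1 - f i)) = (∑ i ∈ s, f i) * x + (1 - ∑ i ∈ s, f i) := by
  classical
  induction s using Finset.induction_on with
  | empty => simp
  | insert i s hi ih =>
    rw [Finset.prod_insert hi, Finset.sum_insert hi,
      ih (fun j hj k hk hjk => horth j (Finset.mem_insert_of_mem hj) k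
        (Finset.mem_insert_of_mem hk) hjk)]
    have h0 : f i * ∑ j ∈ s, f j = 0 := by
      rw [Finset.mul_sum]
      exact Finset.sum_eq_zero fun j hj => horth i (Finset.mem_insert_self i s) j
        (Finset.mem_insert_of_mem hj) (fun h => hi (h ▸ hj))
    linear_combination (x * x - 2 * x + 1) * h0

/-- A primitive idempotent times an idempotent is `0` or itself. -/
theorem primIdem_mul_eq_zero_or {e' e : A} (h' : IsPrimIdem e') (he : IsIdempotentElem e) :
    e' * e = 0 ∨ e' * e = e' := by
  by_cases h0 : e' * e = 0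
  · exact Or.inl h0
  · right
    obtain ⟨y, hy⟩ := h'.2.2 e h0
    have hee : e * e = e := he
    calc e' * e = (e' * e * y) * e := by rw [hy]
      _ = e' * (e * e) * y := by ring
      _ = e' * e * y := by rw [hee]
      _ = e' := hy

/-- Distinct primitive idempotents are orthogonal. -/
theorem primIdem_mul_eq_zero {e' e'' : A} (h' : IsPrimIdem e') (h'' : IsPrimIdem e'')
    (hne : e' ≠ e'') : e' * e'' = 0 := by
  rcases primIdem_mul_eq_zero_or h' h''.1 with h | h
  · exact h
  · rcases primIdem_mul_eq_zero_or h'' h'.1 with k | k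
    · rw [mul_comm] at k; exact k
    · exact absurd (h.symm.trans ((mul_comm e' e'').trans k)) hne

theorem part_congr {e f : A} (h : e = f) (he : IsIdempotentElem e) (hf : IsIdempotentElem f)
    (x : Aˣ) : part e he x = part f hf x := by
  subst h; rfl

theorem part_zero (h : IsIdempotentElem (0 : A)) (x : Aˣ) : part 0 h x = 1 := by
  apply Units.ext
  rw [part_val, Units.val_one]
  ring

theorem part_part_of_mul_eq {e e' : A} (he : IsIdempotentElem e) (he' : IsIdempotentElem e')
    (h : e' * e = e') (x : Aˣ) : part e' he' (part e he x) = part e' he' x := by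
  apply Units.ext
  rw [part_val, part_val, part_val]
  linear_combination ((x : A) - 1) * h

theorem map_part {B : Type*} [CommRing B] (φ : A →+* B) (e : A) (he : IsIdempotentElem e)
    (x : Aˣ) :
    Units.map (φ : A →* B) (part e he x) = part (φ e) (he.map φ) (Units.map (φ : A →* B) x) := by
  apply Units.ext
  rw [Units.coe_map, part_val, part_val, Units.coe_map]
  simp only [MonoidHom.coe_coe, map_add, map_mul, map_sub, map_one]

/-- The part at a sum of pairwise orthogonal idempotents is the product of the parts. -/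
theorem part_eq_prod {ι : Type*} (s : Finset ι) (f : ι → A) (hf : ∀ i, IsIdempotentElem (f i))
    (horth : ∀ i ∈ s, ∀ j ∈ s, i ≠ j → f i * f j = 0) (e : A) (he : IsIdempotentElem e)
    (hsum : ∑ i ∈ s, f i = e) (x : Aˣ) :
    part e he x = ∏ i ∈ s, part (f i) (hf i) x := by
  apply Units.ext
  rw [Units.coe_prod, part_val]
  simp only [part_val]
  rw [prod_mul_add_one_sub s f (x : A) horth, hsum]

end Generic

/-! ### Norms from the semilocal algebra -/

section Norm

variable (K L : Type) [Field K] [NumberField K] [Field L] [NumberField L] [Algebra K L]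
  [FiniteDimensional K L]

theorem isNormq_one (q : Nat.Primes) : IsNormq K L q 1 :=
  ⟨1, by rw [map_one, map_one]⟩

variable {K L}

theorem isNormq_mul {q : Nat.Primes} {x y : (Aq K q)ˣ} (hx : IsNormq K L q x)
    (hy : IsNormq K L q y) : IsNormq K L q (x * y) := by
  obtain ⟨x', hx'⟩ := hx
  obtain ⟨y', hy'⟩ := hy
  exact ⟨x' * y', by rw [map_mul, hx', hy', map_mul]⟩

theorem isNormq_pow {q : Nat.Primes} {x : (Aq K q)ˣ} (hx : IsNormq K L q x) (m : ℕ) :
    IsNormq K L q (x ^ m) := by
  obtain ⟨x', hx'⟩ := hx
  exact ⟨x' ^ m, by rw [map_pow, hx', map_pow]⟩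

theorem isNormq_prod {q : Nat.Primes} {ι : Type*} (s : Finset ι) (f : ι → (Aq K q)ˣ)
    (h : ∀ i ∈ s, IsNormq K L q (f i)) : IsNormq K L q (∏ i ∈ s, f i) := by
  classical
  induction s using Finset.induction_on with
  | empty => rw [Finset.prod_empty]; exact isNormq_one K L q
  | insert i s hi ih =>
    rw [Finset.prod_insert hi]
    exact isNormq_mul (h i (Finset.mem_insert_self i s))
      (ih fun j hj => h j (Finset.mem_insert_of_mem hj))

/-- A `p`-th power is a norm when the Galois group has order `p`. -/
theorem isNormq_pow_card {p : ℕ} (hcard : Nat.card (L ≃ₐ[K] L) = p) {q : Nat.Primes}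
    (y : (Aq K q)ˣ) : IsNormq K L q (y ^ p) := by
  refine ⟨Units.map (baseCh K L q : Aq K q →* Aq L q) y, ?_⟩
  rw [normq_apply]
  have h1 : ∀ g : L ≃ₐ[K] L,
      Units.map ((galAct K L q g : Aq L q ≃+* Aq L q) : Aq L q →* Aq L q)
        (Units.map (baseCh K L q : Aq K q →* Aq L q) y) =
      Units.map (baseCh K L q : Aq K q →* Aq L q) y := by
    intro g
    apply Units.ext
    exact L7Split.galAct_baseCh K L q g (y : Aq K q)
  rw [Finset.prod_congr rfl (fun g _ => h1 g), Finset.prod_const, Finset.card_univ,
    ← Nat.card_eq_fintype_card, hcard, map_pow]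

/-- The Galois norm commutes with the part at a Galois-fixed idempotent. -/
theorem normq_part {q : Nat.Primes} (E : Aq L q) (hE : IsIdempotentElem E)
    (hfix : ∀ g : L ≃ₐ[K] L, galAct K L q g E = E) (z : (Aq L q)ˣ) :
    normq K L q (part E hE z) = part E hE (normq K L q z) := by
  rw [normq_apply, normq_apply, map_prod]
  refine Finset.prod_congr rfl fun g _ => ?_
  apply Units.ext
  rw [Units.coe_map, part_val, part_val, Units.coe_map]
  simp only [MonoidHom.coe_coe, map_add, map_mul, map_sub, map_one]
  rw [show (galAct K L q g : Aq L q ≃+* Aq L q) E = E from hfix g]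

end Norm

/-! ### The Kummer generator is a norm: `N(α) = a` for odd `p` -/

section Kummer

variable {K L : Type} [Field K] [Field L] [Algebra K L] [FiniteDimensional K L]

theorem prod_conj_eq {p : ℕ} (hp : p.Prime) (hp2 : p ≠ 2) {ζ : K} (hζ : IsPrimitiveRoot ζ p)
    (hcard : Nat.card (L ≃ₐ[K] L) = p) {a : K} (ha : a ≠ 0) {α : L}
    (hα : α ^ p = algebraMap K L a) (htop : IntermediateField.adjoin K {α} = ⊤) :
    ∏ g : L ≃ₐ[K] L, g α = algebraMap K L a := by
  obtain ⟨τ, hτ, hbij⟩ := L7Split.exists_kummer_generator hζ hcard ha hα htop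
  have hpow : ∀ i : ℕ, (τ ^ i) α = algebraMap K L ζ ^ i * α := by
    intro i
    induction i with
    | zero => rw [pow_zero, pow_zero, one_mul, AlgEquiv.one_apply]
    | succ i ih =>
      rw [pow_succ, AlgEquiv.mul_apply, hτ, map_mul, AlgEquiv.commutes, ih, pow_succ]
      ring
  rw [← Fintype.prod_bijective _ hbij (fun i : Fin p => (τ ^ (i : ℕ)) α) (fun g => g α)
    (fun _ => rfl)]
  rw [Fin.prod_univ_eq_prod_range (fun i => (τ ^ i) α) p]
  rw [Finset.prod_congr rfl (fun i _ => hpow i), Finset.prod_mul_distrib, Finset.prod_const,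
    Finset.card_range, Finset.prod_pow_eq_pow_sum, hα]
  have hodd : Odd p := hp.odd_of_ne_two hp2
  obtain ⟨k, hk⟩ := hodd
  have hsum : ∑ i ∈ Finset.range p, i = p * k := by
    have h2 := Finset.sum_range_id_mul_two p
    have h3 : p * (p - 1) = (p * k) * 2 := by
      rw [hk]; simp; ring
    rw [h3] at h2
    exact Nat.eq_of_mul_eq_mul_right (by norm_num) h2
  rw [hsum, pow_mul, ← map_pow, hζ.pow_eq_one, map_one, one_pow, one_mul]

end Kummer

/-! ### The theorem -/

section Main

variable (p : ℕ) (K L : Type) [Field K] [NumberField K] [Field L] [NumberField L] [Algebra K L]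
  [FiniteDimensional K L]

/-- In the Kummer situation, `a` restricted to any idempotent part is a norm. -/
theorem isNormq_part_loc (hp : p.Prime) (hp2 : p ≠ 2) {ζ : K} (hζ : IsPrimitiveRoot ζ p)
    (hcard : Nat.card (L ≃ₐ[K] L) = p) (a : Kˣ) {α : L} (hα : α ^ p = algebraMap K L a)
    (htop : IntermediateField.adjoin K {α} = ⊤) (q : Nat.Primes) (e : Aq K q)
    (he : IsIdempotentElem e) : IsNormq K L q (part e he (loc K q a)) := by
  have hα0 : α ≠ 0 := by
    rintro rfl
    rw [zero_pow hp.ne_zero] at hα
    exact a.ne_zero ((map_eq_zero (algebraMap K L)).mp hα.symm)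
  set αu : Lˣ := Units.mk0 α hα0 with hαu
  have hE : IsIdempotentElem (baseCh K L q e) := he.map (baseCh K L q)
  refine ⟨part (baseCh K L q e) hE (loc L q αu), ?_⟩
  rw [normq_part (baseCh K L q e) hE (fun g => L7Split.galAct_baseCh K L q g e), map_part]
  congr 1
  -- `N(loc α) = baseCh (loc a)`
  apply Units.ext
  rw [normq_apply, Units.coe_prod, Units.coe_map, loc_val]
  have h1 : ∀ g : L ≃ₐ[K] L,
      ((Units.map ((galAct K L q g : Aq L q ≃+* Aq L q) : Aq L q →* Aq L q) (loc L q αu) :
        (Aq L q)ˣ) : Aq L q) =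
      (Algebra.TensorProduct.includeLeftRingHom : L →+* L ⊗[ℚ] ℚ_[(q : ℕ)]) (g α) := by
    intro g
    rw [Units.coe_map, loc_val]
    exact galAct_tmul K L q g α 1
  rw [Finset.prod_congr rfl (fun g _ => h1 g), ← map_prod,
    prod_conj_eq hp hp2 hζ hcard a.ne_zero hα htop]
  rfl

/-- **[L7.5] unramified part**, from the character of a place (`PlaceChar`) and the
decomposition of `1` into primitive idempotents (`PrimSum`). -/
theorem unramNorm (hp : p.Prime) (hp2 : p ≠ 2) (hPC : Plan.PlaceChar p K)
    (hPS : Plan.PrimSum K) : Plan.UnramNorm p K L := by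
  intro ζ hζ hcard a α hα htop q hq e he ha u hu
  have : Fact p.Prime := ⟨hp⟩
  classical
  obtain ⟨s, hs_prim, hs_sum⟩ := hPS q
  have hidem : ∀ e' : Aq K q, e' ∈ s → IsIdempotentElem (e * e') := fun e' he' =>
    he.mul (hs_prim e' he').1
  -- total family of idempotents indexed by `Aq K q`
  set f : Aq K q → Aq K q := fun e' => if e' ∈ s then e * e' else 0 with hf
  have hf_idem : ∀ e', IsIdempotentElem (f e') := by
    intro e'
    by_cases h : e' ∈ s
    · simp only [hf, h, if_true]; exact hidem e' h
    · simp only [hf, h, if_false]; exact IsIdempotentElem.zero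
  have hf_orth : ∀ i ∈ s, ∀ j ∈ s, i ≠ j → f i * f j = 0 := by
    intro i hi j hj hij
    simp only [hf, hi, hj, if_true]
    have h0 := primIdem_mul_eq_zero (hs_prim i hi) (hs_prim j hj) hij
    have hee : e * e = e := he
    linear_combination (e * e) * h0
  have hf_sum : ∑ i ∈ s, f i = e := by
    rw [Finset.sum_congr rfl (fun i hi => show f i = e * i by simp only [hf, hi, if_true]),
      ← Finset.mul_sum, hs_sum, mul_one]
  rw [part_eq_prod s f hf_idem hf_orth e he hf_sum u]
  refine isNormq_prod s _ fun e' he's => ?_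
  have hprim := hs_prim e' he's
  have he'idem : IsIdempotentElem e' := hprim.1
  have hfe : f e' = e * e' := by simp only [hf, he's, if_true]
  rcases primIdem_mul_eq_zero_or hprim he with h0 | h1
  · -- `e * e' = 0`: the part is trivial
    have h0' : f e' = 0 := by rw [hfe, mul_comm]; exact h0
    rw [part_congr h0' (hf_idem e') IsIdempotentElem.zero, part_zero]
    exact isNormq_one K L q
  · -- `e' ≤ e`
    have h1' : f e' = e' := by rw [hfe, mul_comm]; exact h1
    rw [part_congr h1' (hf_idem e') he'idem]
    obtain ⟨ψ, hψ⟩ := hPC ζ hζ q hq e' hprim he'idem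
    set a' : ↥(Uq K q) := ⟨part e he (loc K q a), ha⟩ with ha'
    set u' : ↥(Uq K q) := ⟨u, hu⟩ with hu'
    have hpa : part e' he'idem (part e he (loc K q a)) = part e' he'idem (loc K q a) :=
      part_part_of_mul_eq he he'idem h1 _
    by_cases hψa : ψ a' = 1
    · -- `a` is a `p`-th power at `e'`: split case
      obtain ⟨y, hy⟩ := (hψ a').1 hψa
      have hy' : part e' he'idem (loc K q a) = y ^ p := by
        rw [← hpa]; exact hy
      exact L7Split.splitNorm p K L ζ hζ hcard a α hα htop q e' he'idem ⟨y, hy'⟩ u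
    · -- `ψ u = ψ(a) ^ m`
      obtain ⟨m, hm⟩ := exists_pow_eq_of_ne_one p hψa (ψ u')
      have h2 : ψ (u' * (a' ^ m)⁻¹) = 1 := by
        rw [map_mul, map_inv, map_pow, hm, mul_inv_cancel]
      obtain ⟨y, hy⟩ := (hψ (u' * (a' ^ m)⁻¹)).1 h2
      have hy' : part e' he'idem u = part e' he'idem (loc K q a) ^ m * y ^ p := by
        have h3 : ((u' * (a' ^ m)⁻¹ : ↥(Uq K q)) : (Aq K q)ˣ) =
            u * (part e he (loc K q a) ^ m)⁻¹ := rfl
        rw [h3, map_mul, map_inv, map_pow, hpa] at hy
        rw [← hy, mul_comm (part e' he'idem u), mul_inv_cancel_left]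
      rw [hy']
      exact isNormq_mul
        (isNormq_pow (isNormq_part_loc p K L hp hp2 hζ hcard a hα htop q e' he'idem) m)
        (isNormq_pow_card hcard y)

end Main

end

end Fermat.Agent.CFT.Global.L7Unram
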