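import Mathlib
import Fermat.Agent.CFT.Global.L7Unram
import Fermat.Agent.CFT.Global.L7Place
import Fermat.Agent.CFT.Global.L7PrimSum
import Fermat.Agent.CFT.Local.PowIndexQ

/-!
# `[L7.5]` `Plan.UnramNorm`, unconditionally

`L7Unram.unramNorm` with its two inputs discharged: `Plan.PlaceChar` (`L7Place.placeChar` fed with
the Local theorem `PowIndexQ.powIndex`) and `Plan.PrimSum` (`L7PrimSum.primSum`).
-/

set_option autoImplicit false

namespace Fermat.Agent.CFT.Global.L7UnramMain

open Fermat.Agent.CFT.Global.L7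

/-- **[L7.3a] `Plan.PlaceChar`**, unconditionally (for `p` prime). -/
theorem placeChar (p : ℕ) (hp : p.Prime) (K : Type) [Field K] [NumberField K] :
    Plan.PlaceChar p K :=
  L7Place.placeChar p hp K
    (fun q _ F _ _ _ => (Fermat.Agent.CFT.Local.PowIndexQ.powIndex q p hp F).2)

/-- **[L7.5] `Plan.UnramNorm`**, unconditionally (for `p` an odd prime). -/
theorem unramNorm (p : ℕ) (hp : p.Prime) (hp2 : p ≠ 2) (K L : Type) [Field K] [NumberField K]
    [Field L] [NumberField L] [Algebra K L] [FiniteDimensional K L] :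
    Plan.UnramNorm p K L :=
  L7Unram.unramNorm p K L hp hp2 (placeChar p hp K) (L7PrimSum.primSum K)

end Fermat.Agent.CFT.Global.L7UnramMain
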