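/-
CFT program, layer Global, L7 (second inequality): the spine with the landed leaves plugged in
(helper59).

`secondIneq_final`: `Plan.SecondIneq p` for an odd prime `p` from the three inputs that are proved
elsewhere: `Plan.FirstIneq p` (L6), `Plan.WeakApprox p F` (`[L7.6]`) and `Plan.LocalIndex p K`
(`[L7.2]`).  All the other leaves of `L7Plan.lean` are discharged by the theorems on main:
`SUnitPlan.sUnitCount`, `SUnitPlan.classGroupS` (helper87), `L7Split.splitNorm`,
`L7Kummer.kummerField`, `L7Kummer.kummerSat` (helper40), `L7UnramMain.unramNorm` (helper87),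
`L7Place.placeOrd`, `L7Place.placeCharStmt` (helper45), `L7Frobenius.frobPlan` (helper1).
-/
import Mathlib
import Fermat.Agent.CFT.Global.L7Main
import Fermat.Agent.CFT.Global.L7Frobenius
import Fermat.Agent.CFT.Global.L7UnramMain
import Fermat.Agent.CFT.Global.L7Kummer
import Fermat.Agent.CFT.Global.L7PlaceChar
import Fermat.Agent.CFT.Global.SUnitPlan
import Fermat.Agent.CFT.Global.L7Split

set_option autoImplicit false

noncomputable section

namespace Fermat.Agent.CFT.Global.L7

/-- `Plan.Frob p K` from the first inequality and weak approximation. -/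
theorem frob_final (p : ℕ) (hp : p.Prime) (hFI : Plan.FirstIneq p)
    (hWA : ∀ (F : Type) [Field F] [NumberField F], Plan.WeakApprox p F)
    (K : Type) [Field K] [NumberField K] : Plan.Frob p K :=
  L7Frobenius.frobPlan p hp hFI (fun F _ _ => L7Kummer.kummerField p hp F) hWA K
    (fun L _ _ _ _ => L7Kummer.kummerSat p K L) (L7Place.placeCharStmt p hp K)

/-- **The second inequality** for an odd prime `p`, from the first inequality, weak
approximation and the local index. -/
theorem secondIneq_final (p : ℕ) (hp : p.Prime) (hp2 : p ≠ 2) (hFI : Plan.FirstIneq p)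
    (hWA : ∀ (F : Type) [Field F] [NumberField F], Plan.WeakApprox p F)
    (hLI : ∀ (K : Type) [Field K] [NumberField K], Plan.LocalIndex p K) : Plan.SecondIneq p :=
  secondIneq p hp hp2 hFI (fun K _ _ => L7Kummer.kummerField p hp K)
    (fun K N _ _ _ _ _ _ => L7Split.splitNorm p K N)
    (fun K N _ _ _ _ _ _ => L7UnramMain.unramNorm p hp hp2 K N)
    (fun K _ _ => SUnitPlan.sUnitCount K p hp.ne_zero)
    hLI
    (fun K _ _ => L7Place.placeCharStmt p hp K)
    (fun K _ _ => L7Place.placeOrd K)
    (fun K _ _ => SUnitPlan.classGroupS K)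
    (fun K _ _ => frob_final p hp hFI hWA K)

end Fermat.Agent.CFT.Global.L7
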