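import Mathlib
import Fermat.Agent.CFT.Global.L7Plan
import Fermat.Agent.CFT.Global.SUnitRat
import Fermat.Agent.CFT.Glob.GaloisTensor
import Fermat.Agent.CFT.Local.PowIndexQ
import Fermat.Agent.CFT.Global.CountDict

/-!
# L7.2: the local index `[J_S(K) : J_S(K)^p] = p^(2s)`

`K` a number field containing a primitive `p`-th root of unity, `p` an odd prime, `S ∋ p` a finite
set of rational primes.  Then the index of the `p`-th powers in
`J_S(K) = ∏_{q ∈ S} (K ⊗ ℚ_q)ˣ` is `p ^ (2 * (r₂ + #{primes of 𝓞 K above S}))`.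

Proof: `K ⊗ ℚ_q` is a finite product of finite extensions `F` of `ℚ_q`, each containing `μ_p`,
and `(Fˣ : Fˣᵖ) = p² · q ^ ([F : ℚ_q] v_q(p))` (`Local.PowIndexQ.powIndex_holds`).  The only
input about the number field is the count `#MaxSpec (K ⊗ ℚ_q) = #{primes of 𝓞 K above q}`.
-/

set_option autoImplicit false

noncomputable section

namespace Fermat.Agent.CFT.Global.L7LocalIndex

open TensorProduct NumberField IsDedekindDomain
open Fermat.Agent.CFT.Global.L7
open Fermat.Agent.CFT.Glob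

/-! ### Generic group theory -/

section Generic

/-- The index of the `n`-th powers is invariant under isomorphism. -/
theorem index_range_pow_mulEquiv {G G' : Type*} [CommGroup G] [CommGroup G'] (e : G ≃* G')
    (n : ℕ) :
    (powMonoidHom n : G →* G).range.index = (powMonoidHom n : G' →* G').range.index := by
  have h : (powMonoidHom n : G' →* G').range
      = (powMonoidHom n : G →* G).range.map (e : G →* G') := by
    ext y
    constructor
    · rintro ⟨x, rfl⟩
      exact ⟨e.symm x ^ n, ⟨e.symm x, rfl⟩, by simp⟩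
    · rintro ⟨_, ⟨x, rfl⟩, rfl⟩
      exact ⟨e x, by simp⟩
  rw [h, Subgroup.index_map_equiv]

/-- The index of the `n`-th powers in a finite (dependent) product is the product of the
indices. -/
theorem index_range_pow_pi {ι : Type*} [Fintype ι] (G : ι → Type*) [∀ i, CommGroup (G i)]
    (n : ℕ) :
    (powMonoidHom n : (∀ i, G i) →* (∀ i, G i)).range.index
      = ∏ i, (powMonoidHom n : G i →* G i).range.index := by
  let H : ∀ i, Subgroup (G i) := fun i => (powMonoidHom n : G i →* G i).range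
  let φ : (∀ i, G i) →* (∀ i, G i ⧸ H i) :=
    MonoidHom.pi (fun i => (QuotientGroup.mk' (H i)).comp (Pi.evalMonoidHom G i))
  have hsurj : Function.Surjective φ := by
    intro y
    choose x hx using fun i => QuotientGroup.mk'_surjective (H i) (y i)
    exact ⟨x, funext hx⟩
  have hker : φ.ker = (powMonoidHom n : (∀ i, G i) →* (∀ i, G i)).range := by
    ext x
    rw [MonoidHom.mem_ker]
    constructor
    · intro hx
      have h1 : ∀ i, x i ∈ H i := fun i => by
        have h2 := congrFun hx i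
        exact (QuotientGroup.eq_one_iff (x i)).1 h2
      choose y hy using h1
      exact ⟨y, funext hy⟩
    · rintro ⟨y, rfl⟩
      funext i
      exact (QuotientGroup.eq_one_iff _).2 ⟨y i, rfl⟩
  rw [← hker, Subgroup.index_ker, MonoidHom.range_eq_top.2 hsurj, Subgroup.card_top, Nat.card_pi]
  rfl

end Generic

/-! ### `J_S(K)` as a finite product -/

section Jsupp

variable (K : Type) [Field K] [NumberField K]

/-- `J_S(K) ≃ ∏_{q ∈ S} A_q(K)ˣ`. -/
def jsuppEquiv (S : Finset Nat.Primes) : ↥(Jsupp K S) ≃* (∀ q : S, (Aq K q.1)ˣ) where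
  toFun x := fun q => (x : Jall K) q.1
  invFun y := ⟨fun q => if h : q ∈ S then y ⟨q, h⟩ else 1, fun q hq => dif_neg hq⟩
  left_inv x := by
    apply Subtype.ext
    funext q
    by_cases h : q ∈ S
    · simp [h]
    · simp [h, x.2 q h]
  right_inv y := by
    funext q
    simp [q.2]
  map_mul' _ _ := rfl

end Jsupp

/-! ### The semilocal algebra `A_q(K)` as a product of local fields -/

section PerQ

variable (K : Type) [Field K] [NumberField K] (q : Nat.Primes)

attribute [local instance] Algebra.TensorProduct.rightAlgebra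

theorem isArtinianRing_Aq : IsArtinianRing (Aq K q) := GaloisTensor.isArtinianRing ℚ K ℚ_[(q : ℕ)]

theorem isReduced_Aq : IsReduced (Aq K q) := GaloisTensor.isReduced ℚ K ℚ_[(q : ℕ)]

attribute [local instance] isArtinianRing_Aq isReduced_Aq

theorem finite_Aq : Module.Finite ℚ_[(q : ℕ)] (Aq K q) :=
  Module.Finite.equiv (Algebra.TensorProduct.commRight ℚ ℚ_[(q : ℕ)] K).toLinearEquiv

attribute [local instance] finite_Aq

theorem finrank_Aq : Module.finrank ℚ_[(q : ℕ)] (Aq K q) = Module.finrank ℚ K := by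
  rw [← (Algebra.TensorProduct.commRight ℚ ℚ_[(q : ℕ)] K).toLinearEquiv.finrank_eq,
    Module.finrank_baseChange]

/-- The (classical) `Fintype` structure on the maximal spectrum of `A_q(K)`; a local instance
only. -/
@[reducible] def fintypeMaxSpec : Fintype (MaximalSpectrum (Aq K q)) := Fintype.ofFinite _

attribute [local instance] fintypeMaxSpec

/-- `A_q(K)ˣ ≃ ∏_𝔪 (A_q(K)/𝔪)ˣ`. -/
def unitsEquivPi :
    (Aq K q)ˣ ≃* (∀ m : MaximalSpectrum (Aq K q), (Aq K q ⧸ m.asIdeal)ˣ) :=
  (Units.mapEquiv (IsArtinianRing.equivPi (Aq K q)).toMulEquiv).trans MulEquiv.piUnits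

/-- `Σ_𝔪 [A_q(K)/𝔪 : ℚ_q] = [K : ℚ]`. -/
theorem sum_finrank_quotient :
    ∑ m : MaximalSpectrum (Aq K q), Module.finrank ℚ_[(q : ℕ)] (Aq K q ⧸ m.asIdeal)
      = Module.finrank ℚ K := by
  rw [← finrank_Aq K q, ← Module.finrank_pi_fintype ℚ_[(q : ℕ)]]
  exact ((IsArtinianRing.equivPi (Aq K q)).restrictScalars ℚ_[(q : ℕ)]).toLinearEquiv.finrank_eq.symm

/-- The index of the `p`-th powers in one local factor. -/
theorem index_factor {p : ℕ} (hp : p.Prime) {ζ : K} (hζ : IsPrimitiveRoot ζ p)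
    (m : MaximalSpectrum (Aq K q)) :
    (powMonoidHom (α := (Aq K q ⧸ m.asIdeal)ˣ) p).range.index
      = p * p * (q : ℕ) ^ (Module.finrank ℚ_[(q : ℕ)] (Aq K q ⧸ m.asIdeal)
          * padicValNat (q : ℕ) p) := by
  let _ : Field (Aq K q ⧸ m.asIdeal) := Ideal.Quotient.field m.asIdeal
  have h := (Local.PowIndexQ.powIndex_holds (q : ℕ) p hp (Aq K q ⧸ m.asIdeal)).1
  let f : K →+* (Aq K q ⧸ m.asIdeal) :=
    (Ideal.Quotient.mk m.asIdeal).comp
      (Algebra.TensorProduct.includeLeft : K →ₐ[ℚ] K ⊗[ℚ] ℚ_[(q : ℕ)]).toRingHom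
  have hζ' : IsPrimitiveRoot (f ζ) p := hζ.map_of_injective f.injective
  have : NeZero p := ⟨hp.ne_zero⟩
  have hcard : Nat.card (rootsOfUnity p (Aq K q ⧸ m.asIdeal)) = p :=
    IsPrimitiveRoot.card_rootsOfUnity hζ'
  rw [hcard] at h
  exact h

/-- The index of the `p`-th powers in `A_q(K)ˣ`. -/
theorem index_Aq {p : ℕ} (hp : p.Prime) {ζ : K} (hζ : IsPrimitiveRoot ζ p) :
    (powMonoidHom p : (Aq K q)ˣ →* (Aq K q)ˣ).range.index
      = p ^ (2 * Nat.card (MaximalSpectrum (Aq K q)))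
        * (q : ℕ) ^ (Module.finrank ℚ K * padicValNat (q : ℕ) p) := by
  rw [index_range_pow_mulEquiv
    (G' := ∀ m : MaximalSpectrum (Aq K q), (Aq K q ⧸ m.asIdeal)ˣ) (unitsEquivPi K q) p,
    index_range_pow_pi]
  simp_rw [index_factor K q hp hζ]
  rw [Finset.prod_mul_distrib, Finset.prod_const, Finset.prod_pow_eq_pow_sum, ← Finset.sum_mul,
    sum_finrank_quotient, Finset.card_univ, Nat.card_eq_fintype_card, ← pow_two, ← pow_mul]

end PerQ

/-! ### Assembly -/

section Final

variable (K : Type) [Field K] [NumberField K]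

/-- The primes of `𝓞 K` above `S`, counted prime by prime. -/
theorem sum_card_above (S : Finset Nat.Primes) :
    ∑ q ∈ S, Nat.card {w : HeightOneSpectrum (𝓞 K) // ((q : ℕ) : 𝓞 K) ∈ w.asIdeal}
      = Plan.nAbove K S := by
  classical
  have hfin : ∀ q : Nat.Primes,
      Finite {w : HeightOneSpectrum (𝓞 K) // ((q : ℕ) : 𝓞 K) ∈ w.asIdeal} :=
    fun q => (SUnitRat.finite_primesOver (K := K) (q : ℕ) q.2.ne_zero).to_subtype
  let f : (Σ q : S, {w : HeightOneSpectrum (𝓞 K) // (((q : Nat.Primes) : ℕ) : 𝓞 K) ∈ w.asIdeal}) →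
      {w : HeightOneSpectrum (𝓞 K) // ∃ q ∈ S, ((q : ℕ) : 𝓞 K) ∈ w.asIdeal} :=
    fun x => ⟨x.2.1, x.1.1, x.1.2, x.2.2⟩
  have hf : Function.Bijective f := by
    constructor
    · rintro ⟨q, w, hw⟩ ⟨q', w', hw'⟩ h
      have hww : w = w' := congrArg Subtype.val h
      subst hww
      have hqq : q = q' :=
        Subtype.ext (Subtype.ext (QBridge.prime_eq_of_mem w q.1.2 q'.1.2 hw hw'))
      subst hqq
      rfl
    · rintro ⟨w, q, hq, hw⟩
      exact ⟨⟨⟨q, hq⟩, w, hw⟩, rfl⟩
  unfold Plan.nAbove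
  rw [← Nat.card_congr (Equiv.ofBijective f hf), Nat.card_sigma,
    Finset.sum_coe_sort S
      (fun q => Nat.card {w : HeightOneSpectrum (𝓞 K) // ((q : ℕ) : 𝓞 K) ∈ w.asIdeal})]

/-- **[L7.2]**, assuming the count `#MaxSpec (K ⊗ ℚ_q) = #{primes of 𝓞 K above q}`. -/
theorem localIndex_of_card {p : ℕ} (hp : p.Prime)
    (hCD : ∀ q : Nat.Primes, Nat.card (MaximalSpectrum (Aq K q))
      = Nat.card {w : HeightOneSpectrum (𝓞 K) // ((q : ℕ) : 𝓞 K) ∈ w.asIdeal}) :
    Plan.LocalIndex p K := by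
  intro ζ hζ hp2 S hS
  have hpS : (⟨p, hp⟩ : Nat.Primes) ∈ S := hS hp
  have hfact : Fact p.Prime := ⟨hp⟩
  rw [index_range_pow_mulEquiv (G' := ∀ q : S, (Aq K q.1)ˣ) (jsuppEquiv K S) p,
    index_range_pow_pi]
  simp_rw [index_Aq K _ hp hζ]
  have hprod : ∏ q ∈ S, ((q : Nat.Primes) : ℕ) ^ (Module.finrank ℚ K * padicValNat (q : ℕ) p)
      = p ^ Module.finrank ℚ K := by
    refine (Finset.prod_eq_single_of_mem (⟨p, hp⟩ : Nat.Primes) hpS ?_).trans ?_
    · intro q _ hq
      have hne : (q : ℕ) ≠ p := fun h => hq (Subtype.ext h)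
      rw [padicValNat_primes hne, mul_zero, pow_zero]
    · change p ^ (Module.finrank ℚ K * padicValNat p p) = _
      rw [padicValNat_self, mul_one]
  have hsum : ∑ q ∈ S, Nat.card (MaximalSpectrum (Aq K q)) = Plan.nAbove K S := by
    rw [← sum_card_above]
    exact Finset.sum_congr rfl (fun q _ => hCD q)
  rw [Finset.prod_mul_distrib, Finset.prod_pow_eq_pow_sum, ← Finset.mul_sum,
    Finset.sum_coe_sort S (fun q => Nat.card (MaximalSpectrum (Aq K q))),
    Finset.prod_coe_sort S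
      (fun q : Nat.Primes => (q : ℕ) ^ (Module.finrank ℚ K * padicValNat (q : ℕ) p)),
    hprod, hsum, ← SUnitRat.two_mul_card_infinitePlace hp hp2 hζ, ← pow_add]
  unfold Plan.sExp
  ring_nf

/-- **[L7.2] local index** `[J_S(K) : J_S(K)^p] = p^(2s)`, for every prime `p`. -/
theorem localIndex (p : ℕ) (hp : p.Prime) (K : Type) [Field K] [NumberField K] :
    Plan.LocalIndex p K :=
  localIndex_of_card K hp (CountDict.card_maximalSpectrum_Aq K)

end Final

end Fermat.Agent.CFT.Global.L7LocalIndex
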