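import Mathlib
import Fermat.Agent.CFT.Global.QBridge
import Fermat.Agent.CFT.Global.QBridgeOrder

/-!
# Weak approximation for the semilocal algebras `F ⊗[ℚ] ℚ_[q]`

For a number field `F` and a prime number `q`, let `A_q(F) = F ⊗[ℚ] ℚ_[q]` and let
`maxOrder q F` be its maximal order (helper84's `QBridgeOrder`).

* `exists_pow_eq_one_add` : `n`-th powers are a neighbourhood of `1`: there is `m` with
  `1 + q ^ m * maxOrder ⊆ (A_q(F)ˣ) ^ n`;
* `exists_simul_approx` : `F` is dense in `∏_{q ∈ S} A_q(F)` (simultaneous approximation);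
* `exists_global_mul_pow` : `Fˣ → ∏_{q ∈ S} A_q(F)ˣ / (A_q(F)ˣ) ^ n` is surjective.
-/

set_option autoImplicit false

noncomputable section

namespace Fermat.Agent.CFT.Global.WeakApprox

open TensorProduct

/-! ## 1. Abstract `q`-adically complete rings -/

/-- `R` is `q`-adically separated and complete (sequence form). -/
structure IsQComplete (R : Type*) [CommRing R] (q : R) : Prop where
  sep : ∀ x : R, (∀ N : ℕ, q ^ N ∣ x) → x = 0
  complete : ∀ f : ℕ → R, (∀ n, q ^ n ∣ f (n + 1) - f n) → ∃ L, ∀ n, q ^ n ∣ L - f n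

section Newton

variable {R : Type*} [CommRing R] {q : R}

/-- One Newton step for the equation `z ^ p = u`. -/
theorem newton_step (p c : ℕ) (p' v : R) (hp : (p : R) = q ^ c * p') (hv : p' * v = 1)
    (u : R) (n : ℕ) (z : R) (h1 : q ^ (n + 2 * c + 1) ∣ u - z ^ p) (h2 : q ∣ z - 1) :
    ∃ z' : R, q ^ (n + 1 + 2 * c + 1) ∣ u - z' ^ p ∧ q ∣ z' - 1 ∧ q ^ n ∣ z' - z := by
  obtain ⟨e, he⟩ := h1
  set w : R := q ^ (n + c + 1) * e * v with hw
  have hpw : (p : R) * w = u - z ^ p := by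
    rw [he, hw, hp]
    have : q ^ c * p' * (q ^ (n + c + 1) * e * v) = q ^ (n + 2 * c + 1) * e * (p' * v) := by
      ring
    rw [this, hv, mul_one]
  obtain ⟨k, hk⟩ := Polynomial.binomExpansion (Polynomial.X ^ p : Polynomial R) z w
  simp only [Polynomial.eval_pow, Polynomial.eval_X, Polynomial.derivative_X_pow,
    Polynomial.eval_mul, Polynomial.eval_C] at hk
  refine ⟨z + w, ?_, ?_, ?_⟩
  · -- `u - (z + w)^p = p w (1 - z^(p-1)) - k w^2`
    have h3 : u - (z + w) ^ p = (p : R) * w * (1 - z ^ (p - 1)) - k * w ^ 2 := by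
      linear_combination (-1 : R) * hk - hpw
    rw [h3]
    have h4 : q ∣ 1 - z ^ (p - 1) := by
      have h5 : z - 1 ∣ z ^ (p - 1) - 1 ^ (p - 1) := sub_dvd_pow_sub_pow z 1 (p - 1)
      rw [one_pow] at h5
      have h6 : q ∣ z ^ (p - 1) - 1 := h2.trans h5
      have h7 : 1 - z ^ (p - 1) = -(z ^ (p - 1) - 1) := by ring
      rw [h7]
      exact (dvd_neg).mpr h6
    obtain ⟨t, ht⟩ := h4
    refine dvd_sub ?_ ?_
    · refine ⟨e * t, ?_⟩
      rw [hpw, he, ht]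
      ring
    · refine ⟨q ^ n * e ^ 2 * v ^ 2 * k, ?_⟩
      rw [hw]
      ring
  · have h3 : z + w - 1 = (z - 1) + w := by ring
    rw [h3]
    refine dvd_add h2 ?_
    refine ⟨q ^ (n + c) * e * v, ?_⟩
    rw [hw]
    ring
  · rw [add_sub_cancel_left]
    refine ⟨q ^ (c + 1) * e * v, ?_⟩
    rw [hw]
    ring

/-- **Hensel/Newton for `n`-th roots of `1 + q^(2c+1) y`.**  If `p = q ^ c * p'` in `R` with `p'` a
unit, then every `1 + q ^ (2 c + 1) y` is a `p`-th power in a `q`-adically complete ring. -/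
theorem IsQComplete.exists_pow_eq (h : IsQComplete R q) (p c : ℕ) (p' v : R)
    (hp : (p : R) = q ^ c * p') (hv : p' * v = 1) (y : R) :
    ∃ z : R, z ^ p = 1 + q ^ (2 * c + 1) * y := by
  classical
  set u : R := 1 + q ^ (2 * c + 1) * y with hu
  let P : ℕ → R → Prop := fun n z => q ^ (n + 2 * c + 1) ∣ u - z ^ p ∧ q ∣ z - 1
  have hstep : ∀ n z, P n z → ∃ z', P (n + 1) z' ∧ q ^ n ∣ z' - z := by
    intro n z hz
    obtain ⟨z', h1, h2, h3⟩ := newton_step p c p' v hp hv u n z hz.1 hz.2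
    exact ⟨z', ⟨h1, h2⟩, h3⟩
  let step : ℕ → R → R := fun n z => if hz : P n z then Classical.choose (hstep n z hz) else z
  let f : ℕ → R := fun n => Nat.rec (1 : R) (fun n z => step n z) n
  have hf0 : f 0 = 1 := rfl
  have hfs : ∀ n, f (n + 1) = step n (f n) := fun n => rfl
  have hP : ∀ n, P n (f n) := by
    intro n
    induction n with
    | zero =>
      refine ⟨?_, ?_⟩
      · rw [hf0, one_pow, hu, add_sub_cancel_left]
        refine ⟨y, ?_⟩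
        ring_nf
      · rw [hf0, sub_self]
        exact dvd_zero q
    | succ n ih =>
      rw [hfs]
      show P (n + 1) (if hz : P n (f n) then Classical.choose (hstep n (f n) hz) else f n)
      rw [dif_pos ih]
      exact (Classical.choose_spec (hstep n (f n) ih)).1
  have hdiff : ∀ n, q ^ n ∣ f (n + 1) - f n := by
    intro n
    rw [hfs]
    show q ^ n ∣ (if hz : P n (f n) then Classical.choose (hstep n (f n) hz) else f n) - f n
    rw [dif_pos (hP n)]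
    exact (Classical.choose_spec (hstep n (f n) (hP n))).2
  obtain ⟨L, hL⟩ := h.complete f hdiff
  refine ⟨L, ?_⟩
  have h0 : L ^ p - u = 0 := by
    apply h.sep
    intro N
    have h1 : q ^ N ∣ L ^ p - f N ^ p := (hL N).trans (sub_dvd_pow_sub_pow L (f N) p)
    have h2 : q ^ N ∣ u - f N ^ p :=
      (pow_dvd_pow q (by omega : N ≤ N + 2 * c + 1)).trans (hP N).1
    have h3 : L ^ p - u = (L ^ p - f N ^ p) - (u - f N ^ p) := by ring
    rw [h3]
    exact dvd_sub h1 h2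
  exact sub_eq_zero.mp h0

end Newton

/-! ## 2. `ℤ_[q]` and finite free algebras over it -/

section Padic

variable (q : ℕ) [Fact q.Prime]

theorem padicInt_smodEq_iff (x y : ℤ_[q]) (n : ℕ) :
    x ≡ y [SMOD (IsLocalRing.maximalIdeal ℤ_[q] ^ n • ⊤ : Submodule ℤ_[q] ℤ_[q])] ↔
      (q : ℤ_[q]) ^ n ∣ x - y := by
  rw [SModEq.sub_mem, smul_eq_mul, Ideal.mul_top, PadicInt.maximalIdeal_eq_span_p,
    Ideal.span_singleton_pow, Ideal.mem_span_singleton]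

theorem isQComplete_padicInt : IsQComplete ℤ_[q] (q : ℤ_[q]) where
  sep := by
    intro x hx
    have h := (inferInstance : IsAdicComplete (IsLocalRing.maximalIdeal ℤ_[q]) ℤ_[q])
    apply h.toIsHausdorff.haus' x
    intro n
    rw [padicInt_smodEq_iff, sub_zero]
    exact hx n
  complete := by
    intro f hf
    have h := (inferInstance : IsAdicComplete (IsLocalRing.maximalIdeal ℤ_[q]) ℤ_[q])
    have hle : ∀ m n : ℕ, m ≤ n → (q : ℤ_[q]) ^ m ∣ f n - f m := by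
      intro m n hmn
      induction n, hmn using Nat.le_induction with
      | base => simp
      | succ n hmn ih =>
        have h1 : f (n + 1) - f m = (f (n + 1) - f n) + (f n - f m) := by ring
        rw [h1]
        exact dvd_add ((pow_dvd_pow _ hmn).trans (hf n)) ih
    obtain ⟨L, hL⟩ := h.toIsPrecomplete.prec' f (by
      intro m n hmn
      rw [padicInt_smodEq_iff]
      have := hle m n hmn
      rw [← dvd_neg, neg_sub] at this
      exact this)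
    refine ⟨L, fun n => ?_⟩
    have := hL n
    rw [padicInt_smodEq_iff] at this
    rw [← dvd_neg, neg_sub]
    exact this

end Padic

section Basis

variable {R T : Type*} [CommRing R] [CommRing T] [Algebra R T] {ι : Type*} [Fintype ι]
  (B : Module.Basis ι R T)

theorem algebraMap_pow_dvd_iff (q : R) (n : ℕ) (x : T) :
    (algebraMap R T q) ^ n ∣ x ↔ ∀ i, q ^ n ∣ B.repr x i := by
  constructor
  · rintro ⟨y, rfl⟩ i
    refine ⟨B.repr y i, ?_⟩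
    rw [← map_pow, ← Algebra.smul_def, map_smul, Finsupp.smul_apply, smul_eq_mul]
  · intro h
    choose c hc using h
    refine ⟨∑ i, c i • B i, ?_⟩
    rw [← map_pow, ← Algebra.smul_def, Finset.smul_sum]
    conv_lhs => rw [← B.sum_repr x]
    refine Finset.sum_congr rfl fun i _ => ?_
    rw [hc i, smul_smul]

include B in
theorem IsQComplete.of_basis {q : R} (h : IsQComplete R q) :
    IsQComplete T (algebraMap R T q) where
  sep := by
    intro x hx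
    have h1 : ∀ i, B.repr x i = 0 := by
      intro i
      apply h.sep
      intro N
      exact (algebraMap_pow_dvd_iff B q N x).mp (hx N) i
    rw [← B.sum_repr x]
    simp [h1]
  complete := by
    intro f hf
    have h1 : ∀ i, ∃ L : R, ∀ n, q ^ n ∣ L - B.repr (f n) i := by
      intro i
      apply h.complete (fun n => B.repr (f n) i)
      intro n
      have := (algebraMap_pow_dvd_iff B q n _).mp (hf n) i
      rwa [map_sub, Finsupp.sub_apply] at this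
    choose L hL using h1
    refine ⟨B.equivFun.symm L, fun n => ?_⟩
    rw [algebraMap_pow_dvd_iff B]
    intro i
    rw [map_sub, Finsupp.sub_apply]
    have h2 : B.repr (B.equivFun.symm L) i = L i := by
      have := congrFun (B.equivFun.apply_symm_apply L) i
      rwa [Module.Basis.equivFun_apply] at this
    rw [h2]
    exact hL i n

end Basis

/-! ## 3. The maximal order of `F ⊗[ℚ] ℚ_[q]` is `q`-adically complete -/

section Concrete

open Fermat.Agent.CFT.Global.QBridge NumberField IsDedekindDomain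

variable (q : ℕ) [Fact q.Prime] (F : Type*) [Field F] [NumberField F]

/-- The abstract maximal order `ℤ_[q] ⊗[ℤ] 𝓞 F`, a finite free `ℤ_[q]`-algebra. -/
abbrev Rq : Type _ := ℤ_[q] ⊗[ℤ] (𝓞 F)

theorem isQComplete_Rq : IsQComplete (Rq q F) ((q : ℕ) : Rq q F) := by
  have h := (isQComplete_padicInt q).of_basis
    (Algebra.TensorProduct.basis ℤ_[q] (RingOfIntegers.basis F))
  rwa [map_natCast] at h

/-- The comparison map `ℤ_[q] ⊗[ℤ] 𝓞 F → F ⊗[ℚ] ℚ_[q]`, `c ⊗ y ↦ y ⊗ c`. -/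
def mu : Rq q F →+* F ⊗[ℚ] ℚ_[q] :=
  (Algebra.TensorProduct.lift (qInt q F).toIntAlgHom
    (((Algebra.TensorProduct.includeLeft : F →ₐ[ℚ] F ⊗[ℚ] ℚ_[q]).toRingHom.comp
      (algebraMap (𝓞 F) F)).toIntAlgHom)
    (fun _ _ => Commute.all _ _)).toRingHom

theorem mu_tmul (c : ℤ_[q]) (y : 𝓞 F) :
    mu q F (c ⊗ₜ[ℤ] y) = (y : F) ⊗ₜ[ℚ] (c : ℚ_[q]) := by
  show qInt q F c * ((y : F) ⊗ₜ[ℚ] (1 : ℚ_[q])) = _
  rw [qInt_apply, Algebra.TensorProduct.tmul_mul_tmul, one_mul, mul_one]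

theorem mu_mem_maxOrder (r : Rq q F) : mu q F r ∈ maxOrder q F := by
  induction r using TensorProduct.induction_on with
  | zero => rw [map_zero]; exact zero_mem _
  | tmul c y => rw [mu_tmul]; exact tmul_mem_maxOrder y c
  | add a b ha hb => rw [map_add]; exact add_mem ha hb

theorem exists_mu_eq {a : F ⊗[ℚ] ℚ_[q]} (ha : a ∈ maxOrder q F) : ∃ r, mu q F r = a := by
  have h : maxOrder q F ≤ (mu q F).range := by
    apply Subring.closure_le.mpr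
    rintro _ ⟨y, c, rfl⟩
    exact ⟨c ⊗ₜ[ℤ] y, mu_tmul q F c y⟩
  exact h ha

variable {q F}

/-- If `n = q ^ c * n'` with `q ∤ n'`, then every element of `1 + q ^ (2 c + 1) * maxOrder` is
an `n`-th power of an element of the maximal order. -/
theorem exists_pow_eq_one_add_of_eq (n c n' : ℕ) (hn : n = q ^ c * n') (hn' : ¬ q ∣ n')
    {y : F ⊗[ℚ] ℚ_[q]} (hy : y ∈ maxOrder q F) :
    ∃ z ∈ maxOrder q F, z ^ n = 1 + (q : F ⊗[ℚ] ℚ_[q]) ^ (2 * c + 1) * y := by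
  obtain ⟨r, rfl⟩ := exists_mu_eq q F hy
  have hunit : IsUnit ((n' : ℕ) : ℤ_[q]) := by
    rw [PadicInt.isUnit_iff, PadicInt.norm_natCast_eq_one_iff]
    exact (Nat.Prime.coprime_iff_not_dvd Fact.out).mpr hn'
  obtain ⟨v', hv'⟩ := hunit.exists_right_inv
  have hp : ((n : ℕ) : Rq q F) = ((q : ℕ) : Rq q F) ^ c * ((n' : ℕ) : Rq q F) := by
    rw [hn]
    push_cast
    rfl
  have hv : ((n' : ℕ) : Rq q F) * algebraMap ℤ_[q] (Rq q F) v' = 1 := by
    rw [← map_natCast (algebraMap ℤ_[q] (Rq q F)), ← map_mul, hv', map_one]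
  obtain ⟨z, hz⟩ := (isQComplete_Rq q F).exists_pow_eq n c _ _ hp hv r
  refine ⟨mu q F z, mu_mem_maxOrder q F z, ?_⟩
  rw [← map_pow, hz, map_add, map_one, map_mul, map_pow, map_natCast]

/-- **Open `n`-th powers (W1).**  For `n ≠ 0` there is `m > 0` such that every element of
`1 + q ^ m * maxOrder` is the `n`-th power of a unit of the maximal order. -/
theorem exists_pow_eq_one_add (q : ℕ) [Fact q.Prime] (F : Type*) [Field F] [NumberField F]
    (n : ℕ) (hn : n ≠ 0) :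
    ∃ m : ℕ, 0 < m ∧ ∀ y ∈ maxOrder q F, ∃ z : (F ⊗[ℚ] ℚ_[q])ˣ,
      (z : F ⊗[ℚ] ℚ_[q]) ∈ maxOrder q F ∧
      ((z⁻¹ : (F ⊗[ℚ] ℚ_[q])ˣ) : F ⊗[ℚ] ℚ_[q]) ∈ maxOrder q F ∧
      (z : F ⊗[ℚ] ℚ_[q]) ^ n = 1 + (q : F ⊗[ℚ] ℚ_[q]) ^ m * y := by
  obtain ⟨c, n', hn', hnc⟩ := Nat.exists_eq_pow_mul_and_not_dvd hn q
    (Fact.out : q.Prime).ne_one
  refine ⟨2 * c + 1, by omega, fun y hy => ?_⟩
  obtain ⟨z, hzmem, hz⟩ := exists_pow_eq_one_add_of_eq n c n' hnc hn' hy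
  have hqmem : ∀ k : ℕ, (q : F ⊗[ℚ] ℚ_[q]) ^ k ∈ maxOrder q F :=
    fun k => pow_mem (natCast_mem _ q) k
  obtain ⟨u', hu'mem, hu'⟩ := exists_inv_one_add_mul (q := q) (L := F)
    (b := (q : F ⊗[ℚ] ℚ_[q]) ^ (2 * c) * y) (mul_mem (hqmem _) hy)
  have hzu : z * (z ^ (n - 1) * u') = 1 := by
    rw [← mul_assoc, mul_pow_sub_one hn, hz]
    have h1 : (1 : F ⊗[ℚ] ℚ_[q]) + (q : F ⊗[ℚ] ℚ_[q]) ^ (2 * c + 1) * y =
        1 + (q : F ⊗[ℚ] ℚ_[q]) * ((q : F ⊗[ℚ] ℚ_[q]) ^ (2 * c) * y) := by ring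
    rw [h1, hu']
  refine ⟨⟨z, z ^ (n - 1) * u', hzu, by rw [mul_comm]; exact hzu⟩, hzmem, ?_, hz⟩
  exact mul_mem (pow_mem hzmem _) hu'mem

/-! ## 4. Simultaneous approximation -/

variable (q F)

/-- The elements of `F` which are integral at `q`. -/
def locInt : Subring F :=
  (maxOrder q F).comap (Algebra.TensorProduct.includeLeft : F →ₐ[ℚ] F ⊗[ℚ] ℚ_[q]).toRingHom

variable {q F}

theorem mem_locInt_iff (x : F) : x ∈ locInt q F ↔ x ⊗ₜ[ℚ] (1 : ℚ_[q]) ∈ maxOrder q F :=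
  Iff.rfl

theorem coe_mem_locInt (y : 𝓞 F) : (y : F) ∈ locInt q F := by
  rw [mem_locInt_iff]
  have h := tmul_mem_maxOrder (q := q) y 1
  simpa using h

theorem inv_natCast_mem_locInt (d : ℕ) (hd : ¬ q ∣ d) : ((d : F))⁻¹ ∈ locInt q F := by
  rw [mem_locInt_iff]
  apply tmul_one_mem_maxOrder_of_valuation_le_one
  intro w hw
  rw [map_inv₀, valuation_natCast_eq_one hd w hw, inv_one]

theorem natCast_pow_mul_tmul_one (N : ℕ) (t : F) :
    (q : F ⊗[ℚ] ℚ_[q]) ^ N * (t ⊗ₜ[ℚ] (1 : ℚ_[q])) = ((q : F) ^ N * t) ⊗ₜ[ℚ] (1 : ℚ_[q]) := by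
  rw [natCast_eq_tmul_one, Algebra.TensorProduct.tmul_pow, one_pow,
    Algebra.TensorProduct.tmul_mul_tmul, one_mul]

/-- Local approximation: every element of `F ⊗[ℚ] ℚ_[q]` is `(y / q ^ N) ⊗ 1` modulo
`q ^ M * maxOrder`, with `y ∈ 𝓞 F`. -/
theorem exists_local_approx (a : F ⊗[ℚ] ℚ_[q]) (M : ℕ) :
    ∃ (N : ℕ) (y : 𝓞 F), ∃ b' ∈ maxOrder q F,
      a = (((y : F) / (q : F) ^ N) ⊗ₜ[ℚ] (1 : ℚ_[q])) + (q : F ⊗[ℚ] ℚ_[q]) ^ M * b' := by
  have hq0 : (q : F) ≠ 0 := by exact_mod_cast (Fact.out : q.Prime).ne_zero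
  obtain ⟨N, hN⟩ := exists_pow_mul_mem_maxOrder a
  obtain ⟨y, b', hb', hyb⟩ := exists_approx hN (M + N)
  refine ⟨N, y, b', hb', ?_⟩
  apply (isUnit_natCast_pow (q := q) (L := F) N).mul_left_cancel
  rw [hyb, mul_add, natCast_pow_mul_tmul_one, mul_div_cancel₀ _ (pow_ne_zero N hq0)]
  ring

/-- **Simultaneous approximation (W2).**  For finitely many primes `q ∈ S` and targets
`x q ∈ F ⊗[ℚ] ℚ_[q]`, there is `b ∈ F` with `b ⊗ 1 ≡ x q` modulo `q ^ M * maxOrder` for all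
primes `q ∈ S`. -/
theorem exists_simul_approx (F : Type*) [Field F] [NumberField F] (S : Finset ℕ)
    (x : ∀ (q : ℕ) [Fact q.Prime], F ⊗[ℚ] ℚ_[q]) (M : ℕ) :
    ∃ b : F, ∀ (q : ℕ) [Fact q.Prime], q ∈ S →
      ∃ y ∈ maxOrder q F,
        (b ⊗ₜ[ℚ] (1 : ℚ_[q])) = x q + (q : F ⊗[ℚ] ℚ_[q]) ^ M * y := by
  classical
  -- local approximations
  have key : ∀ q : ℕ, ∃ (N : ℕ) (y : 𝓞 F), ∀ [Fact q.Prime], ∃ b' ∈ maxOrder q F,
      x q = (((y : F) / (q : F) ^ N) ⊗ₜ[ℚ] (1 : ℚ_[q])) + (q : F ⊗[ℚ] ℚ_[q]) ^ M * b' := by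
    intro q
    by_cases hq : q.Prime
    · have : Fact q.Prime := ⟨hq⟩
      obtain ⟨N, y, h⟩ := exists_local_approx (x q) M
      exact ⟨N, y, fun {_} => h⟩
    · exact ⟨0, 0, fun {h} => absurd h.out hq⟩
  choose N y hNy using key
  set S' := S.filter Nat.Prime with hS'
  have hprime : ∀ q ∈ S', q.Prime := fun q hq => (Finset.mem_filter.mp hq).2
  -- CRT idempotents
  have hcrt : ∀ q' : ℕ, ∃ e : ℕ, ∀ q ∈ S',
      e ≡ (if q = q' then 1 else 0) [MOD q ^ (M + N q)] := by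
    intro q'
    have h := Nat.chineseRemainderOfFinset (fun q => if q = q' then 1 else 0)
      (fun q => q ^ (M + N q)) S' (fun q hq => pow_ne_zero _ (hprime q hq).ne_zero)
      (by
        intro q₁ h₁ q₂ h₂ hne
        exact Nat.Coprime.pow _ _ ((Nat.coprime_primes (hprime q₁ h₁) (hprime q₂ h₂)).mpr hne))
    exact ⟨h.1, h.2⟩
  choose e he using hcrt
  refine ⟨∑ q' ∈ S', (e q' : F) * ((y q' : F) / (q' : F) ^ N q'), ?_⟩
  intro q _ hqS
  have hq : q.Prime := Fact.out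
  have hq0 : (q : F) ≠ 0 := by exact_mod_cast hq.ne_zero
  have hqS' : q ∈ S' := Finset.mem_filter.mpr ⟨hqS, hq⟩
  obtain ⟨b', hb', hx⟩ := hNy q
  -- `b - β_q = q ^ M * t` with `t` integral at `q`
  have h1 : ∃ t₁ ∈ locInt q F,
      (e q : F) * ((y q : F) / (q : F) ^ N q) - (y q : F) / (q : F) ^ N q =
        (q : F) ^ M * t₁ := by
    have h2 := he q q hqS'
    rw [if_pos rfl] at h2
    obtain ⟨k, hk⟩ := (Nat.modEq_iff_dvd.mp h2.symm)
    refine ⟨((k : 𝓞 F) * y q : 𝓞 F), coe_mem_locInt _, ?_⟩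
    have h3 : (e q : F) - 1 = (q : F) ^ (M + N q) * (k : F) := by
      have := congrArg (Int.cast : ℤ → F) hk
      push_cast at this
      exact this
    have h4 : (e q : F) = 1 + (q : F) ^ (M + N q) * (k : F) := by
      rw [← h3]; ring
    have hcoe : (((k : 𝓞 F) * y q : 𝓞 F) : F) = (k : F) * (y q : F) := by
      simp
    rw [hcoe, h4]
    field_simp
    ring
  have h2 : ∀ q' ∈ S'.erase q, ∃ t ∈ locInt q F,
      (e q' : F) * ((y q' : F) / (q' : F) ^ N q') = (q : F) ^ M * t := by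
    intro q' hq'
    have hq'S : q' ∈ S' := Finset.mem_of_mem_erase hq'
    have hne : q' ≠ q := Finset.ne_of_mem_erase hq'
    have h3 := he q' q hqS'
    rw [if_neg (Ne.symm hne)] at h3
    obtain ⟨k, hk⟩ := Nat.modEq_zero_iff_dvd.mp h3
    have hndvd : ¬ q ∣ q' ^ N q' := by
      intro hdvd
      exact hne ((Nat.prime_dvd_prime_iff_eq hq (hprime q' hq'S)).mp
        (hq.dvd_of_dvd_pow hdvd)).symm
    have hq'0 : (q' : F) ≠ 0 := by exact_mod_cast (hprime q' hq'S).ne_zero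
    refine ⟨(((q : 𝓞 F) ^ N q * (k : 𝓞 F) * y q' : 𝓞 F) : F) * (((q' ^ N q' : ℕ) : F))⁻¹,
      mul_mem (coe_mem_locInt _) (inv_natCast_mem_locInt _ hndvd), ?_⟩
    rw [hk]
    push_cast
    field_simp
    ring
  choose! t ht using h2
  obtain ⟨t₁, ht₁, h1⟩ := h1
  have hmain : (∑ q' ∈ S', (e q' : F) * ((y q' : F) / (q' : F) ^ N q')) =
      (y q : F) / (q : F) ^ N q + (q : F) ^ M * (t₁ + ∑ q' ∈ S'.erase q, t q') := by
    rw [← Finset.add_sum_erase S' _ hqS', mul_add, Finset.mul_sum, ← h1,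
      Finset.sum_congr rfl (fun q' hq' => (ht q' hq').2)]
    ring
  have htmem : t₁ + ∑ q' ∈ S'.erase q, t q' ∈ locInt q F :=
    add_mem ht₁ (sum_mem fun q' hq' => (ht q' hq').1)
  refine ⟨(t₁ + ∑ q' ∈ S'.erase q, t q') ⊗ₜ[ℚ] (1 : ℚ_[q]) - b',
    sub_mem ((mem_locInt_iff _).mp htmem) hb', ?_⟩
  rw [hmain, TensorProduct.add_tmul, ← natCast_pow_mul_tmul_one, hx]
  ring

/-! ## 5. Surjectivity onto `∏_{q ∈ S} A_q(F)ˣ / (A_q(F)ˣ) ^ n` -/

/-- **(W3) = L7.6, first half.**  For finitely many primes `q ∈ S` and units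
`x q ∈ (F ⊗[ℚ] ℚ_[q])ˣ`, there is `b ∈ Fˣ` with `b ⊗ 1 ∈ x q * ((F ⊗[ℚ] ℚ_[q])ˣ) ^ n` for all
primes `q ∈ S`. -/
theorem exists_global_mul_pow (F : Type*) [Field F] [NumberField F] (n : ℕ) (hn : n ≠ 0)
    (S : Finset ℕ) (x : ∀ (q : ℕ) [Fact q.Prime], (F ⊗[ℚ] ℚ_[q])ˣ) :
    ∃ b : Fˣ, ∀ (q : ℕ) [Fact q.Prime], q ∈ S →
      ∃ z : (F ⊗[ℚ] ℚ_[q])ˣ,
        ((b : F) ⊗ₜ[ℚ] (1 : ℚ_[q])) = (x q : F ⊗[ℚ] ℚ_[q]) * (z : F ⊗[ℚ] ℚ_[q]) ^ n := by
  classical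
  have key : ∀ q : ℕ, ∃ (m N : ℕ), ∀ [Fact q.Prime],
      (∀ y ∈ maxOrder q F, ∃ z : (F ⊗[ℚ] ℚ_[q])ˣ,
        (z : F ⊗[ℚ] ℚ_[q]) ^ n = 1 + (q : F ⊗[ℚ] ℚ_[q]) ^ m * y) ∧
      (q : F ⊗[ℚ] ℚ_[q]) ^ N * (((x q)⁻¹ : (F ⊗[ℚ] ℚ_[q])ˣ) : F ⊗[ℚ] ℚ_[q]) ∈
        maxOrder q F := by
    intro q
    by_cases hq : q.Prime
    · have : Fact q.Prime := ⟨hq⟩
      obtain ⟨m, -, hm⟩ := exists_pow_eq_one_add q F n hn
      obtain ⟨N, hN⟩ := exists_pow_mul_mem_maxOrder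
        ((((x q)⁻¹ : (F ⊗[ℚ] ℚ_[q])ˣ) : F ⊗[ℚ] ℚ_[q]))
      refine ⟨m, N, fun {_} => ⟨fun y hy => ?_, hN⟩⟩
      obtain ⟨z, -, -, hz⟩ := hm y hy
      exact ⟨z, hz⟩
    · exact ⟨0, 0, fun {h} => absurd h.out hq⟩
  choose m N hmN using key
  set M : ℕ := ∑ q ∈ S, (m q + N q) with hM
  obtain ⟨b, hb⟩ := exists_simul_approx F S (fun q _ => ((x q : (F ⊗[ℚ] ℚ_[q])ˣ) : F ⊗[ℚ] ℚ_[q])) M
  -- the local statement for `b`
  have hloc : ∀ (q : ℕ) [Fact q.Prime], q ∈ S →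
      ∃ z : (F ⊗[ℚ] ℚ_[q])ˣ,
        (b ⊗ₜ[ℚ] (1 : ℚ_[q])) = (x q : F ⊗[ℚ] ℚ_[q]) * (z : F ⊗[ℚ] ℚ_[q]) ^ n := by
    intro q _ hqS
    obtain ⟨y, hy, hby⟩ := hb q hqS
    obtain ⟨hm, hN⟩ := hmN q
    have hle : m q + N q ≤ M := Finset.single_le_sum (f := fun q => m q + N q)
      (fun _ _ => Nat.zero_le _) hqS
    obtain ⟨k, hk⟩ := Nat.exists_eq_add_of_le hle
    have hqmem : ∀ j : ℕ, (q : F ⊗[ℚ] ℚ_[q]) ^ j ∈ maxOrder q F :=
      fun j => pow_mem (natCast_mem _ q) j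
    obtain ⟨z, hz⟩ := hm ((q : F ⊗[ℚ] ℚ_[q]) ^ k *
      ((q : F ⊗[ℚ] ℚ_[q]) ^ N q * (((x q)⁻¹ : (F ⊗[ℚ] ℚ_[q])ˣ) : F ⊗[ℚ] ℚ_[q])) * y)
      (mul_mem (mul_mem (hqmem k) hN) hy)
    refine ⟨z, ?_⟩
    have hxx : (x q : F ⊗[ℚ] ℚ_[q]) * (((x q)⁻¹ : (F ⊗[ℚ] ℚ_[q])ˣ) : F ⊗[ℚ] ℚ_[q]) = 1 :=
      Units.mul_inv _
    rw [hby, hz, hk]
    linear_combination (-(q : F ⊗[ℚ] ℚ_[q]) ^ (m q + N q + k) * y) * hxx
  by_cases hb0 : b = 0
  · refine ⟨1, fun q _ hqS => ?_⟩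
    obtain ⟨z, hz⟩ := hloc q hqS
    rw [hb0, TensorProduct.zero_tmul] at hz
    have hunit : IsUnit ((x q : F ⊗[ℚ] ℚ_[q]) * (z : F ⊗[ℚ] ℚ_[q]) ^ n) :=
      (x q).isUnit.mul (z.isUnit.pow n)
    rw [← hz] at hunit
    have hsub : Subsingleton (F ⊗[ℚ] ℚ_[q]) :=
      subsingleton_of_zero_eq_one (isUnit_zero_iff.mp hunit)
    exact ⟨1, Subsingleton.elim _ _⟩
  · exact ⟨Units.mk0 b hb0, fun q _ hqS => hloc q hqS⟩

end Concrete

end Fermat.Agent.CFT.Global.WeakApprox
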