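import Mathlib
import Fermat.Agent.CFT.Global.QBridge
import Fermat.Agent.CFT.Global.QBridgeOrder
import Fermat.Agent.CFT.Global.WeakApprox

/-!
# Finiteness of `A_q(F)ˣ / (A_q(F)ˣ) ^ n`

For a number field `F`, a prime number `q` and `n ≠ 0`, the group of `n`-th powers has finite
index in the unit group of `A_q(F) = F ⊗[ℚ] ℚ_[q]`: there is a finite set `R` of units such that
every unit is `r * z ^ n` with `r ∈ R` (`exists_finite_reps`).
-/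

set_option autoImplicit false

noncomputable section

namespace Fermat.Agent.CFT.Global.PowFinite

open TensorProduct NumberField IsDedekindDomain Fermat.Agent.CFT.Global.QBridge
  Fermat.Agent.CFT.Global.WeakApprox

/-! ## 1. Elements with prescribed valuations at finitely many primes -/

section CRT

variable {F : Type*} [Field F] [NumberField F]

/-- There is a nonzero integer with prescribed valuations `exp (-k w)`, `k w ≥ 0`, at the primes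
of a finite set. -/
theorem exists_intValuation_eq (P : Finset (HeightOneSpectrum (𝓞 F)))
    (k : HeightOneSpectrum (𝓞 F) → ℕ) :
    ∃ d : 𝓞 F, d ≠ 0 ∧ ∀ w ∈ P, w.intValuation d = WithZero.exp (-(k w : ℤ)) := by
  classical
  rcases P.eq_empty_or_nonempty with hP | hP
  · exact ⟨1, one_ne_zero, by simp [hP]⟩
  have hunif : ∀ w : HeightOneSpectrum (𝓞 F), ∃ π : 𝓞 F,
      w.intValuation π = WithZero.exp (-(1 : ℤ)) :=
    fun w => w.intValuation_exists_uniformizer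
  choose π hπ using hunif
  obtain ⟨y, hy⟩ := IsDedekindDomain.exists_forall_sub_mem_ideal (s := P)
    (fun w => w.asIdeal) (fun w => k w + 1) (fun w _ => w.prime)
    (fun w _ w' _ hne h => hne (HeightOneSpectrum.ext h)) (fun w => π w ^ k w)
  have hval : ∀ w ∈ P, w.intValuation y = WithZero.exp (-(k w : ℤ)) := by
    intro w hw
    have h1 : w.intValuation (y - π w ^ k w) ≤ WithZero.exp (-((k w + 1 : ℕ) : ℤ)) :=
      (w.intValuation_le_pow_iff_mem _ _).mpr (hy w hw)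
    have h2 : w.intValuation (π w ^ k w) = WithZero.exp (-(k w : ℤ)) := by
      rw [map_pow, hπ, ← WithZero.exp_nsmul]
      congr 1
      simp
    have h3 : y = (y - π w ^ k w) + π w ^ k w := by ring
    have h4 : w.intValuation (y - π w ^ k w) < w.intValuation (π w ^ k w) := by
      rw [h2]
      refine lt_of_le_of_lt h1 (WithZero.exp_lt_exp.mpr ?_)
      push_cast
      omega
    rw [h3, Valuation.map_add_eq_of_lt_right _ h4, h2]
  refine ⟨y, ?_, hval⟩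
  obtain ⟨w, hw⟩ := hP
  rintro rfl
  have h := hval w hw
  rw [map_zero] at h
  exact WithZero.exp_ne_zero h.symm

/-- There is a unit of `F` with prescribed valuations `exp (-c w)`, `c w ∈ ℤ`, at the primes of a
finite set. -/
theorem exists_valuation_eq (P : Finset (HeightOneSpectrum (𝓞 F)))
    (c : HeightOneSpectrum (𝓞 F) → ℤ) :
    ∃ d : Fˣ, ∀ w ∈ P, w.valuation F (d : F) = WithZero.exp (-(c w)) := by
  obtain ⟨d₁, hd₁0, hd₁⟩ := exists_intValuation_eq P (fun w => (c w).toNat)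
  obtain ⟨d₂, hd₂0, hd₂⟩ := exists_intValuation_eq P (fun w => (-(c w)).toNat)
  have hinj : Function.Injective (algebraMap (𝓞 F) F) := IsFractionRing.injective (𝓞 F) F
  have h1 : algebraMap (𝓞 F) F d₁ ≠ 0 := fun h => hd₁0 (hinj (h.trans (map_zero _).symm))
  have h2 : algebraMap (𝓞 F) F d₂ ≠ 0 := fun h => hd₂0 (hinj (h.trans (map_zero _).symm))
  refine ⟨Units.mk0 (algebraMap (𝓞 F) F d₁ / algebraMap (𝓞 F) F d₂) (div_ne_zero h1 h2),
    fun w hw => ?_⟩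
  rw [Units.val_mk0, map_div₀, HeightOneSpectrum.valuation_of_algebraMap,
    HeightOneSpectrum.valuation_of_algebraMap, hd₁ w hw, hd₂ w hw, ← WithZero.exp_sub]
  congr 1
  omega

/-- If all valuations of `b` at the primes of `P` are divisible by `n`, then `b = d ^ n * ε` with
`ε` a unit at the primes of `P`. -/
theorem exists_eq_pow_mul (P : Finset (HeightOneSpectrum (𝓞 F))) (n : ℕ) (b : Fˣ)
    (h : ∀ w ∈ P, ∃ c : ℤ, w.valuation F (b : F) = WithZero.exp (-((n : ℤ) * c))) :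
    ∃ d ε : Fˣ, b = d ^ n * ε ∧ ∀ w ∈ P, w.valuation F (ε : F) = 1 := by
  choose! c hc using h
  obtain ⟨d, hd⟩ := exists_valuation_eq P c
  refine ⟨d, (d ^ n)⁻¹ * b, by rw [mul_inv_cancel_left], fun w hw => ?_⟩
  rw [Units.val_mul, Units.val_inv_eq_inv_val, Units.val_pow_eq_pow_val, map_mul, map_inv₀,
    map_pow, hd w hw, hc w hw, ← WithZero.exp_nsmul, ← WithZero.exp_neg, ← WithZero.exp_add,
    ← WithZero.exp_zero]
  congr 1
  simp

/-- The valuations of a unit modulo `n`, at the primes of `P`. -/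
def valMod (P : Finset (HeightOneSpectrum (𝓞 F))) (n : ℕ) :
    Fˣ →* ((w : ↥P) → Multiplicative (ZMod n)) :=
  MonoidHom.pi fun w : ↥P =>
    (AddMonoidHom.toMultiplicative (Int.castAddHom (ZMod n))).comp (w.1.valuationOfNeZero)

theorem valMod_apply (P : Finset (HeightOneSpectrum (𝓞 F))) (n : ℕ) (b : Fˣ) (w : ↥P) :
    valMod P n b w =
      Multiplicative.ofAdd (((w.1.valuationOfNeZero b).toAdd : ℤ) : ZMod n) := rfl

theorem exists_eq_pow_mul_of_mem_ker (P : Finset (HeightOneSpectrum (𝓞 F))) (n : ℕ) (b : Fˣ)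
    (hb : b ∈ (valMod P n).ker) :
    ∃ d ε : Fˣ, b = d ^ n * ε ∧ ∀ w ∈ P, w.valuation F (ε : F) = 1 := by
  apply exists_eq_pow_mul P n b
  intro w hw
  have h1 : valMod P n b ⟨w, hw⟩ = 1 := by
    rw [MonoidHom.mem_ker] at hb
    rw [hb]
    rfl
  rw [valMod_apply] at h1
  have h2 : (((w.valuationOfNeZero b).toAdd : ℤ) : ZMod n) = 0 := h1
  rw [ZMod.intCast_zmod_eq_zero_iff_dvd] at h2
  obtain ⟨c, hc⟩ := h2
  refine ⟨-c, ?_⟩
  rw [← HeightOneSpectrum.valuationOfNeZero_eq]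
  have h3 : ((w.valuationOfNeZero b : Multiplicative ℤ) : WithZero (Multiplicative ℤ)) =
      WithZero.exp ((w.valuationOfNeZero b).toAdd) := rfl
  rw [h3, hc]
  congr 1
  ring

/-- Finitely many representatives of `Fˣ` modulo `n`-th powers and units at `P`. -/
theorem exists_finite_reps_field (P : Finset (HeightOneSpectrum (𝓞 F))) (n : ℕ) (hn : n ≠ 0) :
    ∃ R : Finset Fˣ, ∀ b : Fˣ, ∃ r ∈ R, ∃ d ε : Fˣ, b = r * d ^ n * ε ∧
      ∀ w ∈ P, w.valuation F (ε : F) = 1 := by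
  classical
  have : NeZero n := ⟨hn⟩
  have hfin : (valMod P n).ker.FiniteIndex := Subgroup.finiteIndex_ker _
  have hfinQ : Finite (Fˣ ⧸ (valMod P n).ker) := Subgroup.finite_quotient_of_finiteIndex
  refine ⟨(Set.finite_range (fun c : Fˣ ⧸ (valMod P n).ker => c.out)).toFinset, fun b => ?_⟩
  obtain ⟨h, hh⟩ := QuotientGroup.mk_out_eq_mul (valMod P n).ker b
  obtain ⟨d, ε, hdε, hε⟩ := exists_eq_pow_mul_of_mem_ker P n _ (inv_mem h.2)
  refine ⟨(QuotientGroup.mk b : Fˣ ⧸ (valMod P n).ker).out, ?_, d, ε, ?_, hε⟩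
  · rw [Set.Finite.mem_toFinset]
    exact ⟨_, rfl⟩
  · rw [mul_assoc, ← hdε, hh, mul_inv_cancel_right]

end CRT

/-! ## 2. The units of the maximal order modulo `n`-th powers -/

section Local

variable (q : ℕ) [Fact q.Prime] (F : Type*) [Field F] [NumberField F]

/-- The diagonal map `Fˣ → (F ⊗[ℚ] ℚ_[q])ˣ`, `a ↦ a ⊗ 1`. -/
def lam : Fˣ →* (F ⊗[ℚ] ℚ_[q])ˣ :=
  Units.map ((Algebra.TensorProduct.includeLeft : F →ₐ[ℚ] F ⊗[ℚ] ℚ_[q]) : F →* F ⊗[ℚ] ℚ_[q])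

@[simp] theorem lam_val (a : Fˣ) :
    ((lam q F a : (F ⊗[ℚ] ℚ_[q])ˣ) : F ⊗[ℚ] ℚ_[q]) = (a : F) ⊗ₜ[ℚ] (1 : ℚ_[q]) := rfl

variable {q F}

/-- If `ε` is a unit at all primes above `q`, then `ε ⊗ 1` is a unit of the maximal order. -/
theorem lam_mem_maxOrder (ε : Fˣ)
    (h : ∀ w : HeightOneSpectrum (𝓞 F), (q : 𝓞 F) ∈ w.asIdeal → w.valuation F (ε : F) = 1) :
    ((lam q F ε : (F ⊗[ℚ] ℚ_[q])ˣ) : F ⊗[ℚ] ℚ_[q]) ∈ maxOrder q F ∧
      (((lam q F ε)⁻¹ : (F ⊗[ℚ] ℚ_[q])ˣ) : F ⊗[ℚ] ℚ_[q]) ∈ maxOrder q F := by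
  obtain ⟨h1, h2⟩ := (isIntegralElem_units_iff (q := q) ε).mpr h
  rw [← mem_maxOrder_iff] at h1 h2
  refine ⟨h1, ?_⟩
  rw [← map_inv]
  exact h2

variable (q F)

/-- Finitely many representatives of the units of the maximal order modulo `n`-th powers. -/
theorem exists_finite_reps_units (n : ℕ) (hn : n ≠ 0) :
    ∃ R : Finset (F ⊗[ℚ] ℚ_[q])ˣ, ∀ u : (F ⊗[ℚ] ℚ_[q])ˣ,
      (u : F ⊗[ℚ] ℚ_[q]) ∈ maxOrder q F →
      ((u⁻¹ : (F ⊗[ℚ] ℚ_[q])ˣ) : F ⊗[ℚ] ℚ_[q]) ∈ maxOrder q F →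
      ∃ r ∈ R, ∃ z : (F ⊗[ℚ] ℚ_[q])ˣ, u = r * z ^ n := by
  classical
  obtain ⟨m, -, hm⟩ := exists_pow_eq_one_add q F n hn
  have hq0 : (q : 𝓞 F) ≠ 0 := by exact_mod_cast (Fact.out : q.Prime).ne_zero
  have hI : Ideal.span {(q : 𝓞 F) ^ m} ≠ ⊥ := by
    rw [Ne, Ideal.span_singleton_eq_bot]
    exact pow_ne_zero m hq0
  have hfin : Finite (𝓞 F ⧸ Ideal.span {(q : 𝓞 F) ^ m}) :=
    Ideal.finiteQuotientOfFreeOfNeBot _ hI
  -- the good units in a class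
  let Good : (𝓞 F ⧸ Ideal.span {(q : 𝓞 F) ^ m}) → (F ⊗[ℚ] ℚ_[q])ˣ → Prop := fun c u =>
    ((u⁻¹ : (F ⊗[ℚ] ℚ_[q])ˣ) : F ⊗[ℚ] ℚ_[q]) ∈ maxOrder q F ∧
      ∃ y : 𝓞 F, Ideal.Quotient.mk _ y = c ∧ ∃ b' ∈ maxOrder q F,
        (u : F ⊗[ℚ] ℚ_[q]) = (y : F) ⊗ₜ[ℚ] (1 : ℚ_[q]) + (q : F ⊗[ℚ] ℚ_[q]) ^ m * b'
  let rep : (𝓞 F ⧸ Ideal.span {(q : 𝓞 F) ^ m}) → (F ⊗[ℚ] ℚ_[q])ˣ := fun c =>
    if h : ∃ u, Good c u then h.choose else 1
  refine ⟨(Set.finite_range rep).toFinset, fun u hu hu' => ?_⟩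
  obtain ⟨y, b', hb', hyb⟩ := exists_approx hu m
  have hgood : ∃ u, Good (Ideal.Quotient.mk _ y) u := ⟨u, hu', y, rfl, b', hb', hyb⟩
  have hrep : Good (Ideal.Quotient.mk _ y) (rep (Ideal.Quotient.mk _ y)) := by
    show Good (Ideal.Quotient.mk _ y) (if h : ∃ u, Good (Ideal.Quotient.mk _ y) u then h.choose
      else 1)
    rw [dif_pos hgood]
    exact hgood.choose_spec
  obtain ⟨hr', y', hy', b'', hb'', hyb'⟩ := hrep
  set r := rep (Ideal.Quotient.mk _ y) with hr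
  -- `y - y' = q ^ m * t`
  have hmem : y - y' ∈ Ideal.span {(q : 𝓞 F) ^ m} := by
    rw [← Ideal.Quotient.eq, hy']
  obtain ⟨t, ht⟩ := Ideal.mem_span_singleton.mp hmem
  have hyy : (y : F) ⊗ₜ[ℚ] (1 : ℚ_[q]) =
      (y' : F) ⊗ₜ[ℚ] (1 : ℚ_[q]) + (q : F ⊗[ℚ] ℚ_[q]) ^ m * ((t : F) ⊗ₜ[ℚ] (1 : ℚ_[q])) := by
    have h1 : (y : F) = (y' : F) + (q : F) ^ m * (t : F) := by
      have h2 : y = y' + (q : 𝓞 F) ^ m * t := by rw [← ht]; ring
      rw [h2]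
      simp
    rw [natCast_pow_mul_tmul_one, ← TensorProduct.add_tmul, ← h1]
  -- `u = r * (1 + q ^ m * e)`
  set e : F ⊗[ℚ] ℚ_[q] := ((r⁻¹ : (F ⊗[ℚ] ℚ_[q])ˣ) : F ⊗[ℚ] ℚ_[q]) *
    ((t : F) ⊗ₜ[ℚ] (1 : ℚ_[q]) + b' - b'') with he
  have hemem : e ∈ maxOrder q F := by
    refine mul_mem hr' (sub_mem (add_mem ?_ hb') hb'')
    have := tmul_mem_maxOrder (q := q) t 1
    simpa using this
  obtain ⟨z, -, -, hz⟩ := hm e hemem
  refine ⟨r, ?_, z, ?_⟩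
  · rw [Set.Finite.mem_toFinset]
    exact ⟨_, rfl⟩
  · apply Units.ext
    rw [Units.val_mul, Units.val_pow_eq_pow_val, hz, hyb, hyy, he]
    have h1 : (r : F ⊗[ℚ] ℚ_[q]) * ((r⁻¹ : (F ⊗[ℚ] ℚ_[q])ˣ) : F ⊗[ℚ] ℚ_[q]) = 1 :=
      Units.mul_inv r
    linear_combination (-(q : F ⊗[ℚ] ℚ_[q]) ^ m * ((t : F) ⊗ₜ[ℚ] (1 : ℚ_[q]) + b' - b'')) * h1 -
      hyb'

/-! ## 3. Finiteness of `A_q(F)ˣ / (A_q(F)ˣ) ^ n` -/

/-- The primes of `𝓞 F` above `q`, as a finite set. -/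
def primesOver : Finset (HeightOneSpectrum (𝓞 F)) :=
  (Ideal.finite_factors (I := Ideal.span {(q : 𝓞 F)}) (by
    rw [Ne, Ideal.zero_eq_bot, Ideal.span_singleton_eq_bot]
    exact_mod_cast (Fact.out : q.Prime).ne_zero)).toFinset

theorem mem_primesOver (w : HeightOneSpectrum (𝓞 F)) :
    w ∈ primesOver q F ↔ (q : 𝓞 F) ∈ w.asIdeal := by
  unfold primesOver
  rw [Set.Finite.mem_toFinset]
  show w.asIdeal ∣ Ideal.span {(q : 𝓞 F)} ↔ _
  rw [Ideal.dvd_iff_le, Ideal.span_singleton_le_iff_mem]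

/-- **Finiteness of `A_q(F)ˣ / (A_q(F)ˣ) ^ n`**: there is a finite set `R` of units of
`F ⊗[ℚ] ℚ_[q]` such that every unit is `r * z ^ n` with `r ∈ R`. -/
theorem exists_finite_reps (n : ℕ) (hn : n ≠ 0) :
    ∃ R : Finset (F ⊗[ℚ] ℚ_[q])ˣ, ∀ x : (F ⊗[ℚ] ℚ_[q])ˣ,
      ∃ r ∈ R, ∃ z : (F ⊗[ℚ] ℚ_[q])ˣ, x = r * z ^ n := by
  classical
  obtain ⟨R₁, hR₁⟩ := exists_finite_reps_field (primesOver q F) n hn
  obtain ⟨R₂, hR₂⟩ := exists_finite_reps_units q F n hn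
  refine ⟨Finset.image₂ (fun r₁ r₂ => lam q F r₁ * r₂) R₁ R₂, fun x => ?_⟩
  obtain ⟨b, u₀, hu₀, hu₀', hx⟩ := exists_eq_tmul_mul_unit x
  obtain ⟨r₁, hr₁, d, ε, hb, hε⟩ := hR₁ b
  obtain ⟨hε1, hε2⟩ := lam_mem_maxOrder (q := q) ε
    (fun w hw => hε w ((mem_primesOver q F w).mpr hw))
  obtain ⟨r₂, hr₂, z, hz⟩ := hR₂ (lam q F ε * u₀)
    (by rw [Units.val_mul]; exact mul_mem hε1 hu₀)
    (by rw [mul_inv, Units.val_mul]; exact mul_mem hε2 hu₀')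
  refine ⟨lam q F r₁ * r₂, Finset.mem_image₂.mpr ⟨r₁, hr₁, r₂, hr₂, rfl⟩, lam q F d * z, ?_⟩
  have hx' : x = lam q F b * u₀ := by
    apply Units.ext
    rw [Units.val_mul, lam_val]
    exact hx
  rw [hx', hb, map_mul, map_mul, map_pow, mul_pow]
  calc lam q F r₁ * lam q F d ^ n * lam q F ε * u₀
      = lam q F r₁ * lam q F d ^ n * (lam q F ε * u₀) := by rw [mul_assoc]
    _ = lam q F r₁ * lam q F d ^ n * (r₂ * z ^ n) := by rw [hz]
    _ = lam q F r₁ * r₂ * (lam q F d ^ n * z ^ n) := by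
      rw [mul_mul_mul_comm]

end Local

end Fermat.Agent.CFT.Global.PowFinite
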