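import Mathlib
import Fermat.Agent.CFT.Global.L7Plan
import Fermat.Agent.CFT.Global.WeakApprox
import Fermat.Agent.CFT.Global.PowFinite
import Fermat.Agent.CFT.Global.SUnitPlan
import Fermat.Agent.CFT.Global.QBridgeFin

/-!
# `Plan.WeakApprox` ([L7.6])

For a number field `F`, `p ≠ 0` and a finite set `T` of rational primes there is a finite set
`S₂ ⊇ T` such that every element of `J_T(F) = ∏_{q ∈ T} A_q(F)ˣ` is, modulo `p`-th powers, the
image of an `S₂`-unit of `F`.
-/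

set_option autoImplicit false

noncomputable section

namespace Fermat.Agent.CFT.Global.L7WeakApprox

open TensorProduct NumberField IsDedekindDomain
open Fermat.Agent.CFT.Global Fermat.Agent.CFT.Global.QBridge

variable (F : Type) [Field F] [NumberField F]

/-- Every `b ∈ Fˣ` is an `S`-unit for some finite set `S` of rational primes. -/
theorem exists_mem_sUnits (b : Fˣ) : ∃ S : Finset Nat.Primes, b ∈ L7.sUnits F S := by
  classical
  have hB := QBridge.finite_valuation_ne_one b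
  choose f hf using fun w : HeightOneSpectrum (𝓞 F) => exists_prime_mem w
  let g : HeightOneSpectrum (𝓞 F) → Nat.Primes := fun w => ⟨f w, (hf w).1⟩
  have hfin : (g '' {w : HeightOneSpectrum (𝓞 F) | w.valuation F (b : F) ≠ 1}).Finite :=
    hB.image g
  refine ⟨hfin.toFinset, ?_⟩
  intro q hq
  rw [SUnitPlan.loc_mem_Uq_iff]
  intro w hw
  by_contra hne
  apply hq
  rw [Set.Finite.mem_toFinset]
  refine ⟨w, hne, ?_⟩
  apply Subtype.ext
  exact prime_eq_of_mem w (hf w).1 q.2 (hf w).2 hw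

open Classical in
/-- A family indexed by the primes of `T`, extended to all prime numbers. -/
def fam (T : Finset Nat.Primes) (ρ : ∀ q ∈ T, (L7.Aq F q)ˣ) :
    ∀ (q : ℕ) [Fact q.Prime], (F ⊗[ℚ] ℚ_[q])ˣ :=
  fun q hqf => if h : (⟨q, hqf.out⟩ : Nat.Primes) ∈ T then ρ ⟨q, hqf.out⟩ h else 1

theorem fam_coe (T : Finset Nat.Primes) (ρ : ∀ q ∈ T, (L7.Aq F q)ˣ)
    (q : Nat.Primes) (hq : q ∈ T) : fam F T ρ (q : ℕ) = ρ q hq := by
  unfold fam
  exact dif_pos hq

/-- **[L7.6] `Plan.WeakApprox`.** -/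
theorem weakApprox (p : ℕ) (hp : p ≠ 0) : L7.Plan.WeakApprox p F := by
  classical
  intro T
  -- finite sets of representatives modulo `p`-th powers
  have hR : ∀ q : Nat.Primes, ∃ R : Finset (L7.Aq F q)ˣ, ∀ x : (L7.Aq F q)ˣ,
      ∃ r ∈ R, ∃ z : (L7.Aq F q)ˣ, x = r * z ^ p :=
    fun q => PowFinite.exists_finite_reps (q : ℕ) F p hp
  choose R hR using hR
  -- a global approximant for each family of representatives
  have happ : ∀ ρ : (∀ q ∈ T, (L7.Aq F q)ˣ), ∃ b : Fˣ, ∀ q (hq : q ∈ T),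
      ∃ z : (L7.Aq F q)ˣ, L7.loc F q b = ρ q hq * z ^ p := by
    intro ρ
    obtain ⟨b, hb⟩ := WeakApprox.exists_global_mul_pow F p hp (SUnitPlan.natSet T) (fam F T ρ)
    refine ⟨b, fun q hq => ?_⟩
    obtain ⟨z, hz⟩ := hb (q : ℕ) (SUnitPlan.coe_mem_natSet.mpr hq)
    refine ⟨z, Units.ext ?_⟩
    rw [L7.loc_val, hz, fam_coe F T ρ q hq, Units.val_mul, Units.val_pow_eq_pow_val]
  choose B hB using happ
  choose supp hsupp using exists_mem_sUnits F
  refine ⟨T ∪ (T.pi R).biUnion (fun ρ => supp (B ρ)), Finset.subset_union_left, ?_⟩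
  intro y hy
  have hyr : ∀ q : Nat.Primes, ∃ r ∈ R q, ∃ z : (L7.Aq F q)ˣ, y q = r * z ^ p :=
    fun q => hR q (y q)
  choose r hr z hz using hyr
  let ρ : ∀ q ∈ T, (L7.Aq F q)ˣ := fun q _ => r q
  have hρ : ρ ∈ T.pi R := Finset.mem_pi.mpr (fun q _ => hr q)
  choose z' hz' using hB ρ
  refine ⟨B ρ, ?_, fun q => if h : q ∈ T then z q * (z' q h)⁻¹ else 1, ?_, ?_⟩
  · intro q hq
    apply hsupp (B ρ) q
    intro hq'
    exact hq (Finset.mem_union_right _ (Finset.mem_biUnion.mpr ⟨ρ, hρ, hq'⟩))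
  · intro q hq
    exact dif_neg hq
  · funext q
    by_cases hq : q ∈ T
    · have h1 : L7.locS F T (B ρ) q = L7.loc F q (B ρ) := L7.trunc_apply_of_mem F _ hq
      rw [Pi.mul_apply, Pi.pow_apply, dif_pos hq, h1, hz' q hq, hz q, mul_pow, inv_pow]
      show r q * z q ^ p = r q * z' q hq ^ p * (z q ^ p * (z' q hq ^ p)⁻¹)
      rw [mul_comm (z q ^ p), mul_assoc, mul_inv_cancel_left]
    · have h1 : L7.locS F T (B ρ) q = 1 := L7.trunc_apply_of_notMem F _ hq
      rw [Pi.mul_apply, Pi.pow_apply, dif_neg hq, one_pow, mul_one, h1]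
      exact hy q hq

end Fermat.Agent.CFT.Global.L7WeakApprox
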