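/-
CFT program, layer Global, L7: **the second inequality, unconditionally** (helper59).

`secondIneq_holds (p) (hp : p.Prime) (hp2 : p ≠ 2) : Plan.SecondIneq p`: for every cyclic
extension `L/K` of number fields of odd prime degree `p` with `μ_p ⊆ K`, and every finite set
`S₀` of rational primes, there is a finite `S ⊇ S₀` with
`[J_S(K) : K_S · (J_S(K) ∩ N J(L))] ∣ p`.

Inputs: the spine `L7Final.secondIneq_final` (helper59), the first inequality
`FI.firstIneq` (helper82 and the FI team), weak approximation `L7WeakApprox.weakApprox`
(helper22), the local index `L7LocalIndex.localIndex` (helper64, helper42).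
-/
import Mathlib
import Fermat.Agent.CFT.Global.L7Final
import Fermat.Agent.CFT.Global.FirstIneqMain
import Fermat.Agent.CFT.Global.L7WeakApprox
import Fermat.Agent.CFT.Global.L7LocalIndex

set_option autoImplicit false

noncomputable section

namespace Fermat.Agent.CFT.Global.L7

/-- **The second inequality** (`Plan.SecondIneq p`), unconditionally, for an odd prime `p`. -/
theorem secondIneq_holds (p : ℕ) (hp : p.Prime) (hp2 : p ≠ 2) : Plan.SecondIneq p :=
  secondIneq_final p hp hp2 (FI.firstIneq p hp hp2)
    (fun F _ _ => L7WeakApprox.weakApprox F p hp.ne_zero)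
    (fun K _ _ => L7LocalIndex.localIndex p hp K)

/-- The Frobenius substitute `Plan.Frob p K`, unconditionally, for an odd prime `p`. -/
theorem frob_holds (p : ℕ) (hp : p.Prime) (hp2 : p ≠ 2) (K : Type) [Field K] [NumberField K] :
    Plan.Frob p K :=
  frob_final p hp (FI.firstIneq p hp hp2) (fun F _ _ => L7WeakApprox.weakApprox F p hp.ne_zero) K

/-- The raw second inequality for one extension. -/
theorem siRaw_holds (p : ℕ) (hp : p.Prime) (hp2 : p ≠ 2) (K L : Type) [Field K] [NumberField K]
    [Field L] [NumberField L] [Algebra K L] [FiniteDimensional K L] [IsGalois K L]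
    (hζ : ∃ ζ : K, IsPrimitiveRoot ζ p) (hcard : Nat.card (L ≃ₐ[K] L) = p) : SIraw K L p :=
  secondIneq_holds p hp hp2 K L hζ hcard

end Fermat.Agent.CFT.Global.L7
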