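import Mathlib
import Fermat.Agent.CFT.Global.Plan
import Fermat.Agent.CFT.Global.L7Plan
import Fermat.Agent.CFT.Global.L7Dict
import Fermat.Agent.CFT.Global.L7Main
import Fermat.Agent.CFT.Global.L7Holds
import Fermat.Agent.CFT.Global.L7UnramMain
import Fermat.Agent.CFT.Global.L7Invariants
import Fermat.Agent.CFT.Global.GaloisPair
import Fermat.Agent.CFT.Global.UnitNorm
import Fermat.Agent.CFT.Global.IdeleStructure

/-!
# Class field theory program (P3), global layer: the second inequality for the idele class module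

`Plan.SecondIneq` (`|Ĥ⁰(G, C_L)| ≤ p` for a Galois pair `(G, L)` with `|G| = p` an odd prime and
`μ_p ⊆ L^G`) from the raw second inequality `L7.Plan.SecondIneq p`
(`[J_S(K) : K_S · N J_S(L)]` divides `p` for cofinally many `S`, `K = L^G`), which is
`L7.secondIneq_holds`; main statements `secondIneq_of` and `secondIneq : Plan.SecondIneq`.

Proof.  `C_L^G` is the image of `J_K` (Galois descent, `GaloisPair.exists_base_of_invariant`) and
`J_K = Kˣ · J_S(K) · U^S(K)` for large `S` (`IdeleStructure.classGroupTrivial`).  For `S`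
containing `p` and the primes where the Kummer generator `a` (`L = K(a^{1/p})`) is not a unit,
every element of `U^S(K)` is the norm of an element of `U^S(L)`: it is a norm at every `q ∉ S`
(`L7UnramMain.unramNorm`), and a norm which is a unit is the norm of a unit
(`UnitNorm.exists_unit_norm`).  Hence `J_S(K) → C_L^G / N C_L` is surjective, and it kills
`K_S · N J_S(L)`.
-/

set_option autoImplicit false
set_option linter.unusedSectionVars false

open scoped TensorProduct
open scoped Fermat.Agent.CFT.Global

noncomputable section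

namespace Fermat.Agent.CFT.Global.SIBridge

open Fermat.Agent.CFT.Global Fermat.Agent.CFT.Herbrand
open Fermat.Agent.CFT.Global.GaloisPair

/-! ## Unit norms at the primes outside `S` (relative vocabulary) -/

section Relative

variable (K L : Type) [Field K] [NumberField K] [Field L] [NumberField L] [Algebra K L]
  [FiniteDimensional K L]

/-- `L = K(α)`, `α^p = a`, cyclic of odd prime degree `p`, `μ_p ⊆ K`, `q ≠ p` and `a` a unit at
`q`: every unit of the maximal order of `A_q(K)` is the norm of a unit of the maximal order of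
`A_q(L)`. -/
theorem exists_unit_norm_eq (p : ℕ) (hp : p.Prime) (hp2 : p ≠ 2) (ζ : K)
    (hζ : IsPrimitiveRoot ζ p) (hcard : Nat.card (L ≃ₐ[K] L) = p) (a : Kˣ) (α : L)
    (hα : α ^ p = algebraMap K L a) (htop : IntermediateField.adjoin K {α} = ⊤)
    (q : Nat.Primes) (hqp : (q : ℕ) ≠ p) (haq : L7.loc K q a ∈ L7.Uq K q)
    (u : (L7.Aq K q)ˣ) (hu : u ∈ L7.Uq K q) :
    ∃ y ∈ L7.Uq L q, L7.normq K L q y =
      Units.map (L7.baseCh K L q : L7.Aq K q →* L7.Aq L q) u := by
  have : Fact p.Prime := ⟨hp⟩
  have hcyc : IsCyclic (L ≃ₐ[K] L) := isCyclic_of_prime_card hcard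
  have hpart : ∀ x : (L7.Aq K q)ˣ, L7.part (1 : L7.Aq K q) (IsIdempotentElem.one) x = x :=
    fun x => Units.ext (by simp [L7.part_val])
  have h := L7UnramMain.unramNorm p hp hp2 K L ζ hζ hcard a α hα htop q hqp 1
    (IsIdempotentElem.one) (by rw [hpart]; exact haq) u hu
  rw [hpart] at h
  obtain ⟨y, hy⟩ := h
  have hyU : L7.normq K L q y ∈ L7.Uq L q := by
    rw [hy]
    exact (L7Invariants.mem_Uq_iff_baseCh K L q u).mp hu
  obtain ⟨y', hy', hyy'⟩ := UnitNorm.exists_unit_norm K L q y hyU
  exact ⟨y', hy', hyy'.trans hy⟩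

end Relative

/-! ## Ideles whose class is a norm -/

section NormClasses

variable {L : Type} [Field L] [CharZero L] (G : Type) [Group G] [Fintype G]
  [MulSemiringAction G L]

/-- The ideles whose class is a norm: the preimage in `J_L` of `N_G C_L`, as a subgroup of the
full product. -/
def normClasses : Subgroup (IdeleProd L) :=
  ((AddSubgroup.toSubgroup (nEnd (ofRepresentation (classRep G L).ρ)).range).comap
    (mkCH L)).map (finIdele L).subtype

theorem mem_normClasses_iff (z : ↥(finIdele L)) :
    (z : IdeleProd L) ∈ normClasses G ↔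
      Multiplicative.toAdd (mkCH L z) ∈ (nEnd (ofRepresentation (classRep G L).ρ)).range := by
  constructor
  · rintro ⟨z', hz', h⟩
    have : z' = z := Subtype.ext h
    rw [← this]
    exact hz'
  · intro h
    exact ⟨z, h, rfl⟩

theorem normClasses_le : normClasses (L := L) G ≤ finIdele L := by
  rintro _ ⟨z, -, rfl⟩
  exact z.2

theorem principal_mem_normClasses (hprin : (principal L).range ≤ finIdele L) (b : Lˣ) :
    principal L b ∈ normClasses G := by
  have h : (principal L b : IdeleProd L) =
      ((⟨principal L b, hprin ⟨b, rfl⟩⟩ : ↥(finIdele L)) : IdeleProd L) := rfl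
  rw [h, mem_normClasses_iff, (mkCH_eq_one_iff _).mpr ⟨b, rfl⟩]
  exact zero_mem _

theorem prod_smul_mem_normClasses (y : IdeleProd L) (hy : y ∈ finIdele L) :
    ∏ g : G, g • y ∈ normClasses G := by
  refine ⟨∏ g : G, smulFin G g ⟨y, hy⟩, ?_, coe_prod_smulFin G ⟨y, hy⟩⟩
  exact ⟨Multiplicative.toAdd (mkCH L ⟨y, hy⟩), nEnd_mkCH G ⟨y, hy⟩⟩

end NormClasses

/-! ## The Galois pair -/

section Pair

variable (p : ℕ) (G L : Type) [Group G] [Fintype G] [Field L] [NumberField L]
  [MulSemiringAction G L] [FaithfulSMul G L]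

/-- Unit norms at a prime `q ≠ p` where the Kummer generator is a unit, in the vocabulary of
`Global/Defs.lean`. -/
theorem exists_localUnits_norm (hp : p.Prime) (hp2 : p ≠ 2) (hG : Nat.card G = p)
    (ζ' : Base G L) (hζ' : IsPrimitiveRoot ζ' p) (a : (Base G L)ˣ) (α : L)
    (hα : α ^ p = algebraMap (Base G L) L a)
    (htop : IntermediateField.adjoin (Base G L) {α} = ⊤)
    (q : Nat.Primes) (hqp : (q : ℕ) ≠ p)
    (haq : principal (Base G L) a q ∈ localUnits (Base G L) q)
    (u : (SemiLocal (Base G L) q)ˣ) (hu : u ∈ localUnits (Base G L) q) :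
    ∃ y ∈ localUnits L q, ∏ g : G, g • y =
      Units.map (semiLocalMap (q : ℕ) (algebraMap (Base G L) L)).toMonoidHom u := by
  obtain ⟨y, hy, h⟩ := exists_unit_norm_eq (Base G L) L p hp hp2 ζ' hζ'
    ((card_gal G L).trans hG) a α hα htop q hqp haq u hu
  refine ⟨y, hy, ?_⟩
  rw [prod_smul_eq_normq, h]
  apply Units.ext
  show L7.baseCh (Base G L) L q (u : SemiLocal (Base G L) q) = _
  rw [GaloisPair.baseCh_eq]
  rfl

/-- If the local units outside `S` are norms of local units, every element of `U^S(K)` is the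
norm of an element of `U^S(L)`. -/
theorem exists_unitsOutside_norm (S : Finset Nat.Primes)
    (hloc : ∀ q : Nat.Primes, q ∉ S → ∀ u ∈ localUnits (Base G L) q,
      ∃ y ∈ localUnits L q, ∏ g : G, g • y =
        Units.map (semiLocalMap (q : ℕ) (algebraMap (Base G L) L)).toMonoidHom u)
    (x : IdeleProd (Base G L)) (hx : x ∈ unitsOutside (Base G L) S) :
    ∃ y ∈ unitsOutside L S, ∏ g : G, g • y = ideleProdMap (algebraMap (Base G L) L) x := by
  classical
  have key : ∀ q : Nat.Primes, ∃ y : (SemiLocal L q)ˣ, y ∈ localUnits L q ∧ (q ∈ S → y = 1) ∧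
      ∏ g : G, g • y =
        Units.map (semiLocalMap (q : ℕ) (algebraMap (Base G L) L)).toMonoidHom (x q) := by
    intro q
    by_cases hq : q ∈ S
    · refine ⟨1, one_mem _, fun _ => rfl, ?_⟩
      rw [hx.2 q hq, map_one]
      exact Finset.prod_eq_one (fun g _ => smul_one g)
    · obtain ⟨y, hy, h⟩ := hloc q hq (x q) (hx.1 q)
      exact ⟨y, hy, fun h' => absurd h' hq, h⟩
  choose y hy1 hy2 hy3 using key
  refine ⟨y, ⟨hy1, hy2⟩, ?_⟩
  funext q
  rw [Finset.prod_apply, ideleProdMap_apply]
  exact hy3 q

/-- An element of `J_S(K)` which is a norm at every prime is the norm of an element of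
`J_S(L)`. -/
theorem exists_supportedOn_norm (S : Finset Nat.Primes) (n : IdeleProd (Base G L))
    (hn : n ∈ supportedOn (Base G L) S) (hN : n ∈ L7.normGroup (Base G L) L) :
    ∃ y ∈ supportedOn L S, ∏ g : G, g • y = ideleProdMap (algebraMap (Base G L) L) n := by
  classical
  have key : ∀ q : Nat.Primes, ∃ y : (SemiLocal L q)ˣ, (q ∉ S → y = 1) ∧
      ∏ g : G, g • y =
        Units.map (semiLocalMap (q : ℕ) (algebraMap (Base G L) L)).toMonoidHom (n q) := by
    intro q
    by_cases hq : q ∈ S
    · obtain ⟨y, hy⟩ := hN q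
      refine ⟨y, fun h' => absurd hq h', ?_⟩
      rw [prod_smul_eq_normq, hy]
      apply Units.ext
      show L7.baseCh (Base G L) L q (n q : SemiLocal (Base G L) q) = _
      rw [GaloisPair.baseCh_eq]
      rfl
    · refine ⟨1, fun _ => rfl, ?_⟩
      rw [hn q hq, map_one]
      exact Finset.prod_eq_one (fun g _ => smul_one g)
  choose y hy1 hy2 using key
  refine ⟨y, hy1, ?_⟩
  funext q
  rw [Finset.prod_apply, ideleProdMap_apply]
  exact hy2 q

end Pair

/-! ## The second inequality for the idele class module -/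

section Main

variable (p : ℕ) (G L : Type) [Group G] [Fintype G] [Field L] [NumberField L]
  [MulSemiringAction G L] [FaithfulSMul G L]

/-- The map `J_S(K) → C_L`, `K = L^G`. -/
def phi (S : Finset Nat.Primes) :
    ↥(L7.Jsupp (Base G L) S) →* Multiplicative (ClassGroupOf L) :=
  (mkCH L).comp
    (((ideleProdMap (algebraMap (Base G L) L)).comp (L7.Jsupp (Base G L) S).subtype).codRestrict
      (finIdele L)
      (fun x => ideleProdMap_mem_finIdele _ (supportedOn_le_finIdele (Base G L) S x.2)))

theorem phi_apply (S : Finset Nat.Primes) (s : ↥(L7.Jsupp (Base G L) S)) :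
    phi G L S s = mkCH L ⟨ideleProdMap (algebraMap (Base G L) L) (s : L7.Jall (Base G L)),
      ideleProdMap_mem_finIdele _ (supportedOn_le_finIdele (Base G L) S s.2)⟩ := rfl

/-- **The second inequality for a Galois pair** of odd prime order `p` with `μ_p` in the base
field, from the raw second inequality. -/
theorem secondIneq_pair (hp : p.Prime) (hp2 : p ≠ 2) (hSI : L7.Plan.SecondIneq p)
    (hG : Nat.card G = p) (hζ : ∃ ζ : L, IsPrimitiveRoot ζ p ∧ ∀ g : G, g • ζ = ζ) :
    h0 (ofRepresentation (classRep G L).ρ) ≤ p := by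
  classical
  obtain ⟨ζ, hζ1, hζ2⟩ := hζ
  obtain ⟨ζ', hζ', -⟩ := exists_fixed_root G L ζ hζ1 hζ2
  have hcard : Nat.card (L ≃ₐ[Base G L] L) = p := (card_gal G L).trans hG
  obtain ⟨a, α, hα, htop⟩ := L7.exists_kummer_gen p hp (Base G L) L ζ' hζ' hcard
  obtain ⟨Sa, hSa⟩ := QBridge.exists_mem_sUnits a
  obtain ⟨S₀, hS₀⟩ := IdeleStructure.classGroupTrivial (Base G L)
  obtain ⟨S, hSsub, hidx⟩ := hSI (Base G L) L ⟨ζ', hζ'⟩ hcard (S₀ ∪ Sa ∪ {⟨p, hp⟩})
  have hS₀S : S₀ ⊆ S := fun q hq => hSsub (by simp [hq])
  have hSaS : Sa ⊆ S := fun q hq => hSsub (by simp [hq])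
  have hpS : (⟨p, hp⟩ : Nat.Primes) ∈ S :=
    hSsub (Finset.mem_union_right _ (Finset.mem_singleton_self _))
  have hA3 := hS₀ S hS₀S
  -- unit norms outside `S`
  have hloc : ∀ q : Nat.Primes, q ∉ S → ∀ u ∈ localUnits (Base G L) q,
      ∃ y ∈ localUnits L q, ∏ g : G, g • y =
        Units.map (semiLocalMap (q : ℕ) (algebraMap (Base G L) L)).toMonoidHom u := by
    intro q hq u hu
    have hqp : (q : ℕ) ≠ p := by
      intro h
      have h' : q = ⟨p, hp⟩ := Subtype.ext h
      exact hq (by rw [h']; exact hpS)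
    exact exists_localUnits_norm p G L hp hp2 hG ζ' hζ' a α hα htop q hqp
      (hSa q (fun h => hq (hSaS h))) u hu
  -- images of `U^S(K)` and of principal ideles are norm classes
  have hU : ∀ x ∈ unitsOutside (Base G L) S,
      ideleProdMap (algebraMap (Base G L) L) x ∈ normClasses (L := L) G := by
    intro x hx
    obtain ⟨y, hy, h⟩ := exists_unitsOutside_norm G L S hloc x hx
    rw [← h]
    exact prod_smul_mem_normClasses G y (unitsOutside_le_finIdele L S hy)
  have hP : ∀ b : (Base G L)ˣ,
      ideleProdMap (algebraMap (Base G L) L) (principal (Base G L) b) ∈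
        normClasses (L := L) G := by
    intro b
    rw [ideleProdMap_principal]
    exact principal_mem_normClasses G QBridge.range_principal_le_finIdele _
  -- the image of `K_S · N J_S(L)` consists of norm classes
  have hB : ∀ s : ↥(L7.Jsupp (Base G L) S),
      (s : L7.Jall (Base G L)) ∈ L7.normRes (Base G L) L S →
      ideleProdMap (algebraMap (Base G L) L) (s : L7.Jall (Base G L)) ∈
        normClasses (L := L) G := by
    intro s hs
    obtain ⟨n, hn, l, hl, hnl⟩ := Subgroup.mem_sup.mp hs
    obtain ⟨b, hb, rfl⟩ := hl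
    rw [← hnl, map_mul]
    refine mul_mem ?_ ?_
    · obtain ⟨y, hy, h⟩ := exists_supportedOn_norm G L S n hn.1 hn.2
      rw [← h]
      exact prod_smul_mem_normClasses G y (supportedOn_le_finIdele L S hy)
    · have hu : principal (Base G L) b / L7.locS (Base G L) S b ∈
          unitsOutside (Base G L) S := by
        rw [L7Dict.locS_eq]
        constructor
        · intro q
          by_cases hq : q ∈ S
          · have : (principal (Base G L) b / sDiag (Base G L) S b) q = 1 := by
              simp [sDiag, hq]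
            rw [this]
            exact one_mem _
          · have : (principal (Base G L) b / sDiag (Base G L) S b) q =
                principal (Base G L) b q := by
              simp [sDiag, hq]
            rw [this]
            exact hb q hq
        · intro q hq
          simp [sDiag, hq]
      have h2 : L7.locS (Base G L) S b = principal (Base G L) b /
          (principal (Base G L) b / L7.locS (Base G L) S b) := by
        rw [div_div_cancel]
      rw [h2, map_div]
      exact div_mem (hP b) (hU _ hu)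
  -- the index computation
  set R' : Subgroup (Multiplicative (ClassGroupOf L)) :=
    AddSubgroup.toSubgroup (nEnd (ofRepresentation (classRep G L).ρ)).range with hR'
  set I' : Subgroup (Multiplicative (ClassGroupOf L)) :=
    AddSubgroup.toSubgroup (invariants (ofRepresentation (classRep G L).ρ)) with hI'
  have hh0 : h0 (ofRepresentation (classRep G L).ρ) = R'.relIndex I' :=
    (AddSubgroup.relIndex_toSubgroup _ _).symm
  have hRI : R' ≤ I' := by
    rintro c ⟨d, hd⟩
    intro g
    rw [← hd]
    exact rho_nEnd _ g d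
  have hΦI : (phi G L S).range ≤ I' := by
    rintro _ ⟨s, rfl⟩
    intro g
    rw [phi_apply]
    show (classRep G L).ρ g (Multiplicative.toAdd (mkCH L _)) = Multiplicative.toAdd (mkCH L _)
    rw [rho_mkCH]
    congr 2
    exact Subtype.ext (smul_ideleProdMap G L g _)
  have hIle : I' ≤ (phi G L S).range ⊔ R' := by
    intro c hc
    obtain ⟨x, hx, hcx⟩ := exists_base_of_invariant G L (Multiplicative.toAdd c) (fun g => hc g)
    obtain ⟨bs, hbs, u, hu, hx'⟩ := Subgroup.mem_sup.mp (hA3 hx)
    obtain ⟨b', ⟨b, rfl⟩, s, hs, rfl⟩ := Subgroup.mem_sup.mp hbs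
    have hc' : c = phi G L S ⟨s, hs⟩ * (c / phi G L S ⟨s, hs⟩) := by rw [mul_div_cancel]
    rw [hc']
    refine Subgroup.mul_mem_sup ⟨_, rfl⟩ ?_
    have hc2 : c = mkCH L ⟨ideleProdMap (algebraMap (Base G L) L) x,
        ideleProdMap_mem_finIdele _ hx⟩ := by
      rw [mkCH_apply, ← hcx]
      rfl
    rw [hc2, phi_apply, ← map_div]
    refine (mem_normClasses_iff G _).mp ?_
    show ideleProdMap (algebraMap (Base G L) L) x /
      ideleProdMap (algebraMap (Base G L) L) s ∈ normClasses G
    rw [← hx', map_mul, map_mul, mul_right_comm, mul_div_cancel_right]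
    exact mul_mem (hP b) (hU u hu)
  have hIeq : I' = (phi G L S).range ⊔ R' := le_antisymm hIle (sup_le hΦI hRI)
  have h1 : R'.relIndex I' = (R'.comap (phi G L S)).index := by
    rw [hIeq, Subgroup.relIndex_sup_right, Subgroup.index_comap]
  have h2 : (L7.normRes (Base G L) L S).subgroupOf (L7.Jsupp (Base G L) S) ≤
      R'.comap (phi G L S) := by
    intro s hs
    rw [Subgroup.mem_comap, phi_apply]
    exact (mem_normClasses_iff G _).mp (hB s hs)
  have h3 : (R'.comap (phi G L S)).index ∣
      (L7.normRes (Base G L) L S).relIndex (L7.Jsupp (Base G L) S) :=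
    Subgroup.index_dvd_of_le h2
  have h4 : h0 (ofRepresentation (classRep G L).ρ) ∣ p := by
    rw [hh0, h1]
    exact h3.trans hidx
  exact Nat.le_of_dvd hp.pos h4

/-- **[E2] `Plan.SecondIneq`** from the raw second inequality `L7.Plan.SecondIneq`. -/
theorem secondIneq_of (hSI : ∀ p : ℕ, p.Prime → p ≠ 2 → L7.Plan.SecondIneq p) :
    Plan.SecondIneq := by
  intro p hpf hp2 G L _ _ _ _ _ _ hG hζ
  exact secondIneq_pair p G L hpf.out hp2 (hSI p hpf.out hp2) hG hζ

/-- **[E2] `Plan.SecondIneq`**, unconditionally: for a Galois pair `(G, L)` with `|G| = p` an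
odd prime and `μ_p ⊆ L^G`, `|Ĥ⁰(G, C_L)| ≤ p`. -/
theorem secondIneq : Plan.SecondIneq :=
  secondIneq_of L7.secondIneq_holds

end Main

end Fermat.Agent.CFT.Global.SIBridge
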