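import Fermat.Agent.CFT.Global.Plan
import Fermat.Agent.CFT.Global.RawBridge
import Fermat.Agent.CFT.Global.SIBridge
import Fermat.Agent.CFT.Global.PGroupAxiomPlan
import Fermat.Agent.CFT.Global.DescentIsoProvide
import Fermat.Agent.CFT.Global.LocUnitsRaw
import Fermat.Agent.CFT.Global.IdeleH1
import Fermat.Agent.CFT.Global.ClassDescentS

/-!
# CFT program, global layer: the chain `[E1]`–`[E6]` holds unconditionally

* `firstIneq : Plan.FirstIneq` (the first inequality for the idele class module of a cyclic pair
  of prime degree), from `RawBridge.firstIneq_of_units` and the vanishing of `Ĥ⁰` of the local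
  units at unramified primes for cyclic pairs (`LocUnitsRaw.h0_localUnits_of_cyclic`);
* `secondIneq : Plan.SecondIneq` (`SIBridge.secondIneq`);
* `secondIneqGen : Plan.SecondIneqGen`, `cyclicAxiom : Plan.CyclicAxiom`,
  `descentIso : Plan.DescentIso`, **`pGroupAxiom : Plan.PGroupAxiom`**;
* `ideleH1 : Plan.IdeleH1`, `classDescentS : Plan.ClassDescentS` (from
  `LocUnitsRaw.locUnitsH1`).
-/

set_option autoImplicit false

namespace Fermat.Agent.CFT.Global.ChainHolds

open Fermat.Agent.CFT.Global

/-- **[E1]** the first inequality, unconditionally. -/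
theorem firstIneq : Plan.FirstIneq :=
  RawBridge.firstIneq_of_units
    (fun G L _ _ _ _ _ _ _ q _ hun => LocUnitsRaw.h0_localUnits_of_cyclic G L q hun)

/-- **[E2]** the second inequality in the Kummer case, unconditionally. -/
theorem secondIneq : Plan.SecondIneq := SIBridge.secondIneq

/-- **[E3]** the second inequality for every cyclic pair of prime degree. -/
theorem secondIneqGen : Plan.SecondIneqGen :=
  PGroupAxiomPlan.secondIneqGen firstIneq secondIneq

/-- **[E4]** the class field axiom for cyclic pairs of prime degree. -/
theorem cyclicAxiom : Plan.CyclicAxiom :=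
  PGroupAxiomPlan.cyclicAxiom firstIneq secondIneqGen

/-- **[E5]** Galois descent of the idele class module. -/
theorem descentIso : Plan.DescentIso := DescentIso.descentIsoPlan

/-- **[E6]** the class field axiom for `p`-groups, unconditionally. -/
theorem pGroupAxiom : Plan.PGroupAxiom :=
  PGroupAxiomPlan.pGroupAxiom cyclicAxiom descentIso

/-- `H¹(G, U_q(L)) = 0` at unramified primes. -/
theorem locUnitsH1 : ClassDescentS.LocUnitsH1 := LocUnitsRaw.locUnitsH1

/-- **[D1]** `H¹(G, J_L) = 0`, unconditionally. -/
theorem ideleH1 : Plan.IdeleH1 := IdeleH1.ideleH1 locUnitsH1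

/-- **[G2]** Galois descent for the `S`-idele class group, unconditionally. -/
theorem classDescentS : Plan.ClassDescentS :=
  fun L L' G G' _ _ _ _ _ _ _ _ _ _ f π h S hS hur =>
    ClassDescentS.classDescentS locUnitsH1 L L' G G' f π h S hS hur

end Fermat.Agent.CFT.Global.ChainHolds
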