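/-
CFT program, layer Global: linear disjointness of a number field `L` and `ℚ(ζ_ℓ)` for a prime
`ℓ` unramified in `L` (helper13).

* `natCast_notMem_sq`                  : `UnramAt L ℓ` ⇒ `ℓ ∉ P ^ 2` for every prime `P` of `𝓞 L`;
* `irreducible_cyclotomic_int`         : `Φ_ℓ` is irreducible over `𝓞 L` (Eisenstein for
  `Φ_ℓ(X + 1)` at a prime of `𝓞 L` above `ℓ`);
* `irreducible_cyclotomic_of_unramAt`  : `Φ_ℓ` is irreducible over `L`;
* `exists_gal_autToPow_eq`             : for every cyclotomic extension `M = L(ζ_ℓ)` and every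
  `u ∈ (ℤ/ℓ)ˣ` there is `σ ∈ Gal(M/L)` with `σ ζ = ζ ^ u`;
* `exists_prime_modEq_one_unramAt`     : there are primes `ℓ ≡ 1 mod k`, `ℓ > n`, unramified
  in `L`.
-/
import Mathlib
import Fermat.Agent.CFT.Global.Defs
import Fermat.Agent.CFT.Global.UnramFinite
import Fermat.Agent.CFT.Glob.UnramReduced

set_option autoImplicit false

namespace Fermat.Agent.CFT.Global.CycloIrred

open Polynomial NumberField
open Fermat.Agent.CFT.Global

/-- If `L` is unramified at `ℓ`, then `ℓ` lies in the square of no prime ideal of `𝓞 L`. -/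
theorem natCast_notMem_sq (L : Type) [Field L] [NumberField L] (ℓ : ℕ) (hℓ : ℓ.Prime)
    (h : UnramAt L ℓ) (P : Ideal (𝓞 L)) (hP : P.IsPrime) : (ℓ : 𝓞 L) ∉ P ^ 2 := by
  intro hmem
  have hrad : (Ideal.span {(ℓ : 𝓞 L)}).IsRadical := by
    rw [Ideal.isRadical_iff_quotient_reduced]
    exact h
  have hℓ0 : (ℓ : 𝓞 L) ≠ 0 := by exact_mod_cast hℓ.ne_zero
  have hI0 : Ideal.span {(ℓ : 𝓞 L)} ≠ ⊥ := by simpa using hℓ0
  exact Fermat.Agent.CFT.Glob.UnramReduced.not_le_sq_of_isRadical _ hI0 hrad P hP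
    ((Ideal.span_singleton_le_iff_mem _).mpr hmem)

/-- Irreducibility can be tested after the substitution `X ↦ X + 1`. -/
theorem irreducible_of_comp_X_add_one {R : Type*} [CommRing R] {g : R[X]}
    (h : Irreducible (g.comp (X + 1))) : Irreducible g := by
  have h1 : (algEquivAevalXAddC (1 : R)) g = g.comp (X + 1) := by
    rw [algEquivAevalXAddC_apply]
    simp [aeval_def, comp, Polynomial.algebraMap_eq]
  rw [← h1] at h
  exact (MulEquiv.irreducible_iff (algEquivAevalXAddC (1 : R)).toMulEquiv).mp h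

/-- `Φ_ℓ` is irreducible over the ring of integers of a number field unramified at `ℓ`. -/
theorem irreducible_cyclotomic_int (L : Type) [Field L] [NumberField L] (ℓ : ℕ)
    [hℓ : Fact ℓ.Prime] (h : UnramAt L ℓ) : Irreducible (cyclotomic ℓ (𝓞 L)) := by
  apply irreducible_of_comp_X_add_one
  -- a prime of `𝓞 L` above `ℓ`
  have hpmax : (Ideal.span {(ℓ : ℤ)}).IsMaximal :=
    PrincipalIdealRing.isMaximal_of_irreducible
      (Nat.prime_iff_prime_int.mp hℓ.out).irreducible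
  obtain ⟨P, hPmax, hPover⟩ :=
    Ideal.exists_maximal_ideal_liesOver_of_isIntegral (S := 𝓞 L) (Ideal.span {(ℓ : ℤ)})
  have hℓP : (ℓ : 𝓞 L) ∈ P := by
    have h1 : (ℓ : ℤ) ∈ P.under ℤ := by
      rw [← hPover.over]
      exact Ideal.mem_span_singleton_self _
    have h2 : algebraMap ℤ (𝓞 L) (ℓ : ℤ) ∈ P := h1
    simpa using h2
  have hmonic : ((cyclotomic ℓ (𝓞 L)).comp (X + 1)).Monic := by
    have h1 := (cyclotomic.monic ℓ (𝓞 L)).comp_X_add_C 1
    simpa using h1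
  have hmap : (cyclotomic ℓ (𝓞 L)).comp (X + 1) =
      ((cyclotomic ℓ ℤ).comp (X + 1)).map (algebraMap ℤ (𝓞 L)) := by
    rw [Polynomial.map_comp, map_cyclotomic]
    simp
  have hdeg : ((cyclotomic ℓ (𝓞 L)).comp (X + 1)).natDegree = ℓ - 1 := by
    have h1 : ((X : (𝓞 L)[X]) + 1) = X + C 1 := by simp
    rw [h1, natDegree_comp, natDegree_X_add_C, mul_one, natDegree_cyclotomic,
      Nat.totient_prime hℓ.out]
  have hdegZ : ((cyclotomic ℓ ℤ).comp (X + 1)).natDegree = ℓ - 1 := by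
    have h1 : ((X : ℤ[X]) + 1) = X + C 1 := by simp
    rw [h1, natDegree_comp, natDegree_X_add_C, mul_one, natDegree_cyclotomic,
      Nat.totient_prime hℓ.out]
  have hE : ((cyclotomic ℓ (𝓞 L)).comp (X + 1)).IsEisensteinAt P := by
    refine Monic.isEisensteinAt_of_mem_of_notMem hmonic hPmax.ne_top ?_ ?_
    · intro n hn
      rw [hdeg] at hn
      have h1 := (cyclotomic_comp_X_add_one_isEisensteinAt ℓ).mem (n := n) (by rw [hdegZ]; exact hn)
      rw [hmap, coeff_map]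
      obtain ⟨c, hc⟩ := Ideal.mem_span_singleton.mp h1
      rw [hc]
      have h2 : algebraMap ℤ (𝓞 L) ((ℓ : ℤ) * c) = (ℓ : 𝓞 L) * algebraMap ℤ (𝓞 L) c := by simp
      rw [h2]
      exact P.mul_mem_right _ hℓP
    · have h1 : ((cyclotomic ℓ (𝓞 L)).comp (X + 1)).coeff 0 = (ℓ : 𝓞 L) := by
        rw [coeff_zero_eq_eval_zero, eval_comp]
        simp [eval_one_cyclotomic_prime]
      rw [h1]
      exact natCast_notMem_sq L ℓ hℓ.out h P hPmax.isPrime
  refine hE.irreducible hPmax.isPrime hmonic.isPrimitive ?_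
  rw [hdeg]
  have := hℓ.out.two_le
  omega

/-- **`Φ_ℓ` is irreducible over a number field unramified at `ℓ`.** -/
theorem irreducible_cyclotomic_of_unramAt (L : Type) [Field L] [NumberField L] (ℓ : ℕ)
    [hℓ : Fact ℓ.Prime] (h : UnramAt L ℓ) : Irreducible (cyclotomic ℓ L) := by
  have h1 := irreducible_cyclotomic_int L ℓ h
  rw [(cyclotomic.monic ℓ (𝓞 L)).irreducible_iff_irreducible_map_fraction_map (K := L),
    map_cyclotomic] at h1
  exact h1

/-- For `L` unramified at `ℓ`, the Galois group of `L(ζ_ℓ)/L` realises every exponent. -/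
theorem exists_gal_autToPow_eq (L : Type) [Field L] [NumberField L] (ℓ : ℕ) [hℓ : Fact ℓ.Prime]
    (h : UnramAt L ℓ) (M : Type*) [Field M] [Algebra L M] [IsCyclotomicExtension {ℓ} L M]
    {ζ : M} (hζ : IsPrimitiveRoot ζ ℓ) (u : (ZMod ℓ)ˣ) :
    ∃ σ : M ≃ₐ[L] M, σ ζ = ζ ^ (u : ZMod ℓ).val := by
  have : NeZero ℓ := ⟨hℓ.out.ne_zero⟩
  have hirr := irreducible_cyclotomic_of_unramAt L ℓ h
  let e := IsCyclotomicExtension.autEquivPow M hirr
  let σ := e.symm u
  have hσ : e σ = u := e.apply_symm_apply u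
  have hz := IsCyclotomicExtension.zeta_spec ℓ L M
  have h1 : IsCyclotomicExtension.zeta ℓ L M ^ ((e σ : (ZMod ℓ)ˣ) : ZMod ℓ).val =
      σ (IsCyclotomicExtension.zeta ℓ L M) := hz.autToPow_spec L σ
  rw [hσ] at h1
  refine ⟨σ, ?_⟩
  obtain ⟨i, -, rfl⟩ := hz.eq_pow_of_pow_eq_one hζ.pow_eq_one
  rw [map_pow, ← h1, ← pow_mul, ← pow_mul, mul_comm]

/-- There are primes `ℓ ≡ 1 mod k`, arbitrarily large, unramified in `L`. -/
theorem exists_prime_modEq_one_unramAt (L : Type) [Field L] [NumberField L] (k : ℕ) (hk : k ≠ 0)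
    (n : ℕ) : ∃ ℓ : ℕ, ℓ.Prime ∧ n < ℓ ∧ ℓ ≡ 1 [MOD k] ∧ UnramAt L ℓ := by
  obtain ⟨N, hN0, hN⟩ := UnramFinite.exists_natCast_mem L (differentIdeal ℤ (𝓞 L))
    differentIdeal_ne_bot
  obtain ⟨ℓ, hℓ, hlt, hmod⟩ := Nat.exists_prime_gt_modEq_one (k := k) (max n N) hk
  refine ⟨ℓ, hℓ, lt_of_le_of_lt (le_max_left _ _) hlt, hmod, ?_⟩
  apply UnramFinite.unramAt_of_not_dvd L N hN ℓ hℓ
  intro hdvd
  have h1 := Nat.le_of_dvd (Nat.pos_of_ne_zero hN0) hdvd
  have h2 : N < ℓ := lt_of_le_of_lt (le_max_right _ _) hlt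
  omega

/-- **The auxiliary tame prime** ([Rec-T.ℓ] of the reciprocity roster, verbatim): a prime
`ℓ ≡ 1 mod n`, unramified in `L`, with `Φ_ℓ` irreducible over `L`. -/
theorem exists_aux_prime (L : Type) [Field L] [NumberField L] (n : ℕ) (hn : n ≠ 0) :
    ∃ ℓ : ℕ, ℓ.Prime ∧ n ∣ ℓ - 1 ∧ UnramAt L ℓ ∧ Irreducible (Polynomial.cyclotomic ℓ L) := by
  obtain ⟨ℓ, hℓ, -, hmod, hunr⟩ := exists_prime_modEq_one_unramAt L n hn 0
  have : Fact ℓ.Prime := ⟨hℓ⟩
  exact ⟨ℓ, hℓ, (Nat.modEq_iff_dvd' hℓ.one_le).mp hmod.symm, hunr,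
    irreducible_cyclotomic_of_unramAt L ℓ hunr⟩

end Fermat.Agent.CFT.Global.CycloIrred
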