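/-
CFT program, layer Global: formal calculus of tower data `IsTower` (helper13).

`IsTower f π` (from `Global/Defs`) says that `(G', L')` is a Galois pair above `(G, L)`:
`π : G' →* G` is surjective, `f : L →+* L'` is equivariant, and `f(L)` is the fixed field of
`ker π`.  This file contains only group theory / field theory of such data, no arithmetic:

* `IsTower.fixed_iff`, `IsTower.apply_ker_smul` : the range of `f` IS the fixed field of `ker π`;
* `IsTower.refl`, `IsTower.comp`          : identity and composition;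
* `exists_factor`                          : **factorisation**.  Two towers `(G₁, L₁) ← (G₃, L₃)`
  and `(G₂, L₂) ← (G₃, L₃)` under the same top pair with `ker π₃₂ ≤ ker π₃₁` factor through a
  (unique) tower `(G₁, L₁) ← (G₂, L₂)`;
* `IsTower.of_comp`                        : the concrete form of the same statement, when the
  middle maps are already given;
* `IsTower.card_ker_dvd`, `IsTower.isPGroup_of_ker` : sizes.
-/
import Mathlib
import Fermat.Agent.CFT.Global.Defs

set_option autoImplicit false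

namespace Fermat.Agent.CFT.Global.TowerFactor

open Fermat.Agent.CFT.Global

section Basic

variable {G G' : Type} [Group G] [Group G'] {L L' : Type} [Field L] [Field L']
  [MulSemiringAction G L] [MulSemiringAction G' L']

/-- Elements of the kernel fix the image of the lower field. -/
theorem apply_ker_smul {f : L →+* L'} {π : G' →* G} (h : IsTower f π) (n : G') (hn : n ∈ π.ker)
    (x : L) : n • f x = f x := by
  rw [← h.equivariant, MonoidHom.mem_ker.mp hn, one_smul]

/-- The image of the lower field is exactly the fixed field of the kernel. -/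
theorem fixed_iff {f : L →+* L'} {π : G' →* G} (h : IsTower f π) (y : L') :
    (∀ n ∈ π.ker, n • y = y) ↔ y ∈ f.range := by
  constructor
  · exact h.fixed y
  · rintro ⟨x, rfl⟩ n hn
    exact apply_ker_smul h n hn x

/-- The identity tower. -/
theorem refl (G L : Type) [Group G] [Field L] [MulSemiringAction G L] :
    IsTower (RingHom.id L) (MonoidHom.id G) where
  surj := Function.surjective_id
  equivariant := fun _ _ => rfl
  fixed := fun y _ => ⟨y, rfl⟩

end Basic

section Three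

variable {G₁ G₂ G₃ : Type} [Group G₁] [Group G₂] [Group G₃]
  {L₁ L₂ L₃ : Type} [Field L₁] [Field L₂] [Field L₃]
  [MulSemiringAction G₁ L₁] [MulSemiringAction G₂ L₂] [MulSemiringAction G₃ L₃]

/-- Composition of towers. -/
theorem comp {f₁₂ : L₁ →+* L₂} {π₂₁ : G₂ →* G₁} {f₂₃ : L₂ →+* L₃} {π₃₂ : G₃ →* G₂}
    (h₁₂ : IsTower f₁₂ π₂₁) (h₂₃ : IsTower f₂₃ π₃₂) :
    IsTower (f₂₃.comp f₁₂) (π₂₁.comp π₃₂) where
  surj := h₁₂.surj.comp h₂₃.surj
  equivariant := by
    intro g x
    show f₂₃ (f₁₂ (π₂₁ (π₃₂ g) • x)) = g • f₂₃ (f₁₂ x)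
    rw [h₁₂.equivariant, h₂₃.equivariant]
  fixed := by
    intro y hy
    have h1 : y ∈ f₂₃.range := by
      apply h₂₃.fixed
      intro n hn
      apply hy
      rw [MonoidHom.mem_ker] at hn ⊢
      show π₂₁ (π₃₂ n) = 1
      rw [hn, map_one]
    obtain ⟨z, rfl⟩ := h1
    have h2 : z ∈ f₁₂.range := by
      apply h₁₂.fixed
      intro m hm
      obtain ⟨n, rfl⟩ := h₂₃.surj m
      apply f₂₃.injective
      rw [h₂₃.equivariant]
      apply hy
      rw [MonoidHom.mem_ker] at hm ⊢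
      exact hm
    obtain ⟨x, rfl⟩ := h2
    exact ⟨x, rfl⟩

/-- **Factorisation, concrete form.**  If the composite `(f₂₃ ∘ f₁₂, π₂₁ ∘ π₃₂)` and the upper
step `(f₂₃, π₃₂)` are towers, then so is the lower step `(f₁₂, π₂₁)`. -/
theorem of_comp {f₁₂ : L₁ →+* L₂} {π₂₁ : G₂ →* G₁} {f₂₃ : L₂ →+* L₃} {π₃₂ : G₃ →* G₂}
    (h₁₃ : IsTower (f₂₃.comp f₁₂) (π₂₁.comp π₃₂)) (h₂₃ : IsTower f₂₃ π₃₂) :
    IsTower f₁₂ π₂₁ where
  surj := by
    intro g
    obtain ⟨g₃, hg₃⟩ := h₁₃.surj g
    exact ⟨π₃₂ g₃, hg₃⟩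
  equivariant := by
    intro g x
    obtain ⟨g₃, rfl⟩ := h₂₃.surj g
    apply f₂₃.injective
    rw [h₂₃.equivariant]
    exact h₁₃.equivariant g₃ x
  fixed := by
    intro y hy
    have h1 : f₂₃ y ∈ (f₂₃.comp f₁₂).range := by
      apply h₁₃.fixed
      intro n hn
      rw [← h₂₃.equivariant]
      congr 1
      apply hy
      rw [MonoidHom.mem_ker] at hn ⊢
      exact hn
    obtain ⟨x, hx⟩ := h1
    exact ⟨x, f₂₃.injective hx⟩

/-- **Factorisation of towers.**  Let `(G₃, L₃)` be a tower over `(G₁, L₁)` and over `(G₂, L₂)`.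
If `ker (G₃ → G₂) ≤ ker (G₃ → G₁)` (i.e. `L₁ ⊆ L₂` inside `L₃`), then `(G₂, L₂)` is a tower over
`(G₁, L₁)`, compatibly. -/
theorem exists_factor {f₁₃ : L₁ →+* L₃} {π₃₁ : G₃ →* G₁} {f₂₃ : L₂ →+* L₃} {π₃₂ : G₃ →* G₂}
    (h₁ : IsTower f₁₃ π₃₁) (h₂ : IsTower f₂₃ π₃₂) (hker : π₃₂.ker ≤ π₃₁.ker) :
    ∃ (f₁₂ : L₁ →+* L₂) (π₂₁ : G₂ →* G₁),
      f₂₃.comp f₁₂ = f₁₃ ∧ π₂₁.comp π₃₂ = π₃₁ ∧ IsTower f₁₂ π₂₁ := by
  have hmem : ∀ x : L₁, f₁₃ x ∈ f₂₃.range := by
    intro x
    apply h₂.fixed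
    intro n hn
    exact apply_ker_smul h₁ n (hker hn) x
  choose φ hφ using hmem
  have hinj := f₂₃.injective
  let f₁₂ : L₁ →+* L₂ :=
    { toFun := φ
      map_one' := hinj (by rw [hφ, map_one, map_one])
      map_mul' := fun x y => hinj (by rw [hφ, map_mul, map_mul, hφ, hφ])
      map_zero' := hinj (by rw [hφ, map_zero, map_zero])
      map_add' := fun x y => hinj (by rw [hφ, map_add, map_add, hφ, hφ]) }
  have hf : f₂₃.comp f₁₂ = f₁₃ := RingHom.ext hφ
  let π₂₁ : G₂ →* G₁ :=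
    π₃₂.liftOfRightInverse (Function.surjInv h₂.surj) (Function.rightInverse_surjInv h₂.surj)
      ⟨π₃₁, hker⟩
  have hπ : π₂₁.comp π₃₂ = π₃₁ :=
    MonoidHom.liftOfRightInverse_comp π₃₂ (Function.surjInv h₂.surj)
      (Function.rightInverse_surjInv h₂.surj) ⟨π₃₁, hker⟩
  refine ⟨f₁₂, π₂₁, hf, hπ, ?_⟩
  apply of_comp (f₂₃ := f₂₃) (π₃₂ := π₃₂) _ h₂
  rw [hf, hπ]
  exact h₁

/-- Uniqueness of the field part of a factorisation. -/
theorem factor_unique_ringHom {f₂₃ : L₂ →+* L₃} {f f' : L₁ →+* L₂}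
    (h : f₂₃.comp f = f₂₃.comp f') : f = f' :=
  RingHom.ext fun x => f₂₃.injective (RingHom.congr_fun h x)

/-- Uniqueness of the group part of a factorisation. -/
theorem factor_unique_monoidHom {π₃₂ : G₃ →* G₂} (hsurj : Function.Surjective π₃₂)
    {π π' : G₂ →* G₁} (h : π.comp π₃₂ = π'.comp π₃₂) : π = π' :=
  MonoidHom.ext fun g => by
    obtain ⟨g₃, rfl⟩ := hsurj g
    exact DFunLike.congr_fun h g₃

end Three

section Sizes

variable {G G' : Type} [Group G] [Group G'] {L L' : Type} [Field L] [Field L']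
  [MulSemiringAction G L] [MulSemiringAction G' L']

/-- `|G'| = |ker π| · |G|` for a tower. -/
theorem card_eq {f : L →+* L'} {π : G' →* G} (h : IsTower f π) :
    Nat.card G' = Nat.card π.ker * Nat.card G := by
  rw [← Subgroup.card_mul_index π.ker, Subgroup.index_ker, MonoidHom.range_eq_top.mpr h.surj,
    Subgroup.card_top]

/-- An extension of a `p`-group by a `p`-group is a `p`-group (no surjectivity needed). -/
theorem isPGroup_of_ker {p : ℕ} (π : G' →* G)
    (hker : IsPGroup p π.ker) (hG : IsPGroup p G) : IsPGroup p G' := by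
  intro g
  obtain ⟨k, hk⟩ := hG (π g)
  have h1 : g ^ p ^ k ∈ π.ker := by
    rw [MonoidHom.mem_ker, map_pow, hk]
  obtain ⟨j, hj⟩ := hker ⟨g ^ p ^ k, h1⟩
  refine ⟨k + j, ?_⟩
  have h2 : (g ^ p ^ k) ^ p ^ j = 1 := by
    have := congrArg Subtype.val hj
    simpa using this
  rw [pow_add, pow_mul, h2]

end Sizes

end Fermat.Agent.CFT.Global.TowerFactor
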