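/-
CFT program, layer Global, reciprocity package [F0]: the crossing tower `Rec.Plan.CrossTower`
(helper13).

Over a Galois pair `(G, L)`, for `n = p ^ μ`: a prime `ℓ ≡ 1 mod n` unramified in `L`, the
cyclotomic pair `(Gt, M) = (CycloPair.towerGroup ℓ G L, L(ζ_ℓ))`, for which
`(π, χt) : Gt → G × (ℤ/ℓ)ˣ` is bijective (`Φ_ℓ` is irreducible over `L`, `CycloIrred`), a
character `θ : (ℤ/ℓ)ˣ → ℤ/n` killing `-1` and onto, and the quotient pair
`(G', L') = (Gt ⧸ H, M^H)`, `H = ker π ⊓ ker (θ ∘ χt)`, whose kernel over `(G, L)` is central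
cyclic of order `n`.

* `exists_theta`        : the character `θ`;
* `exists_ker_χ_eq`     : `χt` maps `ker π` onto `(ℤ/ℓ)ˣ`;
* `cross_of_top`        : the abstract quotient construction, for ANY tower `(Gt, M)` over
  `(G, L)` with a character `Θ : Gt → ℤ/n` taking the value `1` on `ker π`;
* `crossTower`          : `Rec.Plan.CrossTower`.
-/
import Mathlib
import Fermat.Agent.CFT.Global.Defs
import Fermat.Agent.CFT.Global.Rec.Plan
import Fermat.Agent.CFT.Global.CycloPair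
import Fermat.Agent.CFT.Global.TowerFactor
import Fermat.Agent.CFT.Global.DescentIsoProvide
import Fermat.Agent.CFT.Global.CycloIrred

set_option autoImplicit false

namespace Fermat.Agent.CFT.Global.CrossTowerHolds

open Fermat.Agent.CFT.Global

/-! ### The character `θ` -/

/-- For `p` odd, `a + a = 0` in `ℤ/p^μ` forces `a = 0`. -/
theorem eq_zero_of_add_self (p : ℕ) [hp : Fact p.Prime] (hp2 : p ≠ 2) (μ : ℕ)
    (a : ZMod (p ^ μ)) (h : a + a = 0) : a = 0 := by
  have hcop : Nat.Coprime 2 (p ^ μ) := by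
    apply Nat.Coprime.pow_right
    rw [Nat.coprime_primes Nat.prime_two hp.out]
    exact fun h2 => hp2 h2.symm
  have hu : IsUnit ((2 : ℕ) : ZMod (p ^ μ)) := (ZMod.isUnit_iff_coprime 2 (p ^ μ)).mpr hcop
  have h2 : ((2 : ℕ) : ZMod (p ^ μ)) * a = 0 := by
    rw [Nat.cast_ofNat, two_mul]
    exact h
  exact (hu.mul_right_eq_zero).mp h2

/-- For a prime `ℓ ≡ 1 mod p^μ` (`p` odd) there is a character `θ : (ℤ/ℓ)ˣ → ℤ/p^μ` which kills
`-1` and takes the value `1`. -/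
theorem exists_theta (p : ℕ) [Fact p.Prime] (hp2 : p ≠ 2) (μ : ℕ) (ℓ : ℕ) [hℓ : Fact ℓ.Prime]
    (hmod : ℓ ≡ 1 [MOD p ^ μ]) :
    ∃ θ : (ZMod ℓ)ˣ →* Multiplicative (ZMod (p ^ μ)),
      θ (-1) = 1 ∧ ∃ u : (ZMod ℓ)ˣ, θ u = Multiplicative.ofAdd 1 := by
  obtain ⟨γ, hγ⟩ := IsCyclic.exists_generator (α := (ZMod ℓ)ˣ)
  have hord : orderOf γ = ℓ - 1 := by
    rw [orderOf_eq_card_of_forall_mem_zpowers hγ, Nat.card_eq_fintype_card, ZMod.card_units]
  have hdvd : orderOf (Multiplicative.ofAdd (1 : ZMod (p ^ μ))) ∣ orderOf γ := by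
    rw [orderOf_ofAdd_eq_addOrderOf, ZMod.addOrderOf_one, hord]
    exact (Nat.modEq_iff_dvd' hℓ.out.one_le).mp hmod.symm
  refine ⟨monoidHomOfForallMemZpowers hγ hdvd, ?_, γ,
    monoidHomOfForallMemZpowers_apply_gen hγ hdvd⟩
  have h1 : monoidHomOfForallMemZpowers hγ hdvd (-1) * monoidHomOfForallMemZpowers hγ hdvd (-1)
      = 1 := by
    rw [← map_mul]
    simp
  have h2 : Multiplicative.toAdd (monoidHomOfForallMemZpowers hγ hdvd (-1)) +
      Multiplicative.toAdd (monoidHomOfForallMemZpowers hγ hdvd (-1)) = 0 :=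
    congrArg Multiplicative.toAdd h1
  have h3 := eq_zero_of_add_self p hp2 μ _ h2
  exact Multiplicative.toAdd.injective h3

/-! ### The cyclotomic character is onto on the kernel -/

section Cyclo

variable (ℓ : ℕ) [hℓ : Fact ℓ.Prime] [NeZero ℓ] (G L : Type) [Group G] [Field L] [NumberField L]
  [MulSemiringAction G L]

/-- If `L` is unramified at `ℓ`, the cyclotomic character of the tower `(Gt, L(ζ_ℓ))` maps the
kernel of `Gt → G` onto `(ℤ/ℓ)ˣ`. -/
theorem exists_ker_χ_eq (h : UnramAt L ℓ) (u : (ZMod ℓ)ˣ) :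
    ∃ x : CycloPair.towerGroup ℓ G L, CycloPair.towerπ ℓ G L x = 1 ∧
      CycloPair.towerχ ℓ G L x = u := by
  obtain ⟨σ, hσ⟩ := CycloIrred.exists_gal_autToPow_eq L ℓ h (CyclotomicField ℓ L)
    (CycloPair.towerζ_spec ℓ L) u
  let x : CycloPair.towerGroup ℓ G L := ⟨((σ : CyclotomicField ℓ L ≃+* CyclotomicField ℓ L), 1), by
    rw [CycloPair.mem_towerGroup]
    intro a
    show σ (algebraMap L (CyclotomicField ℓ L) a) = algebraMap L (CyclotomicField ℓ L) ((1 : G) • a)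
    rw [one_smul]
    exact σ.commutes a⟩
  refine ⟨x, rfl, ?_⟩
  have h1 := CycloPair.smul_towerζ ℓ G L x
  have h2 : x • CycloPair.towerζ ℓ L = σ (CycloPair.towerζ ℓ L) := rfl
  rw [h2, hσ] at h1
  have h3 := (CycloPair.towerζ_spec ℓ L).pow_inj (ZMod.val_lt _) (ZMod.val_lt _) h1
  exact (Units.ext (ZMod.val_injective ℓ h3)).symm

end Cyclo

/-! ### The abstract quotient construction -/

/-- **Crossing from a top tower.**  Let `(Gt, M)` be a Galois pair which is a tower over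
`(G, L)`, `Θ : Gt → ℤ/n` a character and `c ∈ ker (Gt → G)` with `Θ c = 1`.  Then the quotient
pair `(G', L') = (Gt ⧸ H, M^H)`, `H = ker π ⊓ ker Θ`, is a tower over `(G, L)` whose kernel is
central, generated by the image `c₀` of `c`, of exponent `n`, and `Θ` descends to `χ` on `G'`. -/
theorem cross_of_top (n : ℕ) {G L : Type} [Group G] [Field L] [MulSemiringAction G L]
    (Gt M : Type) [Group Gt] [Fintype Gt] [Field M] [NumberField M] [MulSemiringAction Gt M]
    [FaithfulSMul Gt M] (fM : L →+* M) (πM : Gt →* G) (h₁ : IsTower fM πM)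
    (Θ : Gt →* Multiplicative (ZMod n)) (c : Gt) (hcπ : πM c = 1)
    (hcΘ : Θ c = Multiplicative.ofAdd 1) :
    ∃ (L' : Type) (_ : Field L') (_ : NumberField L') (G' : Type) (_ : Group G')
      (_ : Fintype G') (_ : MulSemiringAction G' L') (f : L →+* L') (π : G' →* G)
      (χ : G' →* Multiplicative (ZMod n)) (c₀ : G') (ft : L' →+* M) (πt : Gt →* G'),
      FaithfulSMul G' L' ∧ IsTower f π ∧
      (∀ g : G', π g = 1 ↔ g ∈ Subgroup.zpowers c₀) ∧
      (∀ g : G', c₀ * g = g * c₀) ∧ c₀ ^ n = 1 ∧ χ c₀ = Multiplicative.ofAdd 1 ∧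
      IsTower ft πt ∧ ft.comp f = fM ∧ π.comp πt = πM ∧ ∀ g : Gt, χ (πt g) = Θ g := by
  classical
  let H : Subgroup Gt := πM.ker ⊓ Θ.ker
  have hHn : H.Normal := Subgroup.normal_inf_normal _ _
  have hHmem : ∀ g : Gt, g ∈ H ↔ πM g = 1 ∧ Θ g = 1 := by
    intro g
    show g ∈ πM.ker ⊓ Θ.ker ↔ _
    rw [Subgroup.mem_inf, MonoidHom.mem_ker, MonoidHom.mem_ker]
  obtain ⟨L₀, iF, iNF, iA, ft, hfaith, htow, -, -⟩ := DescentIso.descentIso_tower Gt M H
  have hker : (QuotientGroup.mk' H).ker ≤ πM.ker := by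
    rw [QuotientGroup.ker_mk']
    exact inf_le_left
  obtain ⟨f, π, hf, hπ, htow'⟩ := TowerFactor.exists_factor h₁ htow hker
  have hπ' : ∀ g : Gt, π (QuotientGroup.mk' H g) = πM g := fun g => DFunLike.congr_fun hπ g
  let χ : Gt ⧸ H →* Multiplicative (ZMod n) := QuotientGroup.lift H Θ inf_le_right
  have hχ : ∀ g : Gt, χ (QuotientGroup.mk' H g) = Θ g := fun g => rfl
  have hmk : ∀ a b : Gt, a⁻¹ * b ∈ H → QuotientGroup.mk' H a = QuotientGroup.mk' H b :=
    fun a b hab => QuotientGroup.eq.mpr hab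
  have hΘc : ∀ k : ℤ, Θ (c ^ k) = Multiplicative.ofAdd ((k : ZMod n)) := by
    intro k
    rw [map_zpow, hcΘ, ← ofAdd_zsmul, zsmul_one]
  refine ⟨L₀, iF, iNF, Gt ⧸ H, inferInstance, Fintype.ofFinite _, iA, f, π, χ,
    QuotientGroup.mk' H c, ft, QuotientGroup.mk' H, hfaith, htow', ?_, ?_, ?_, ?_, htow, hf, hπ,
    hχ⟩
  · intro g
    obtain ⟨g, rfl⟩ := QuotientGroup.mk'_surjective H g
    rw [hπ']
    constructor
    · intro hg
      rw [Subgroup.mem_zpowers_iff]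
      refine ⟨(ZMod.cast (Multiplicative.toAdd (Θ g)) : ℤ), ?_⟩
      rw [← map_zpow]
      apply hmk
      rw [hHmem]
      constructor
      · rw [map_mul, map_inv, map_zpow, hcπ, one_zpow, inv_one, one_mul, hg]
      · rw [map_mul, map_inv, hΘc, ZMod.intCast_zmod_cast, ofAdd_toAdd, inv_mul_cancel]
    · intro hg
      rw [Subgroup.mem_zpowers_iff] at hg
      obtain ⟨k, hk⟩ := hg
      have h2 : πM g = π (QuotientGroup.mk' H g) := (hπ' g).symm
      rw [h2, ← hk, map_zpow, hπ', hcπ, one_zpow]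
  · intro g
    obtain ⟨g, rfl⟩ := QuotientGroup.mk'_surjective H g
    rw [← map_mul, ← map_mul]
    apply hmk
    rw [hHmem]
    constructor
    · rw [map_mul, map_inv, map_mul, map_mul, hcπ, one_mul, mul_one, inv_mul_cancel]
    · rw [map_mul, map_inv, map_mul, map_mul, mul_comm (Θ g) (Θ c), inv_mul_cancel]
  · rw [← map_pow]
    have h1 : c ^ n ∈ H := by
      rw [hHmem]
      constructor
      · rw [map_pow, hcπ, one_pow]
      · rw [map_pow, hcΘ, ← ofAdd_nsmul, nsmul_one, ZMod.natCast_self]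
        rfl
    exact (QuotientGroup.eq_one_iff _).mpr h1
  · exact hcΘ

/-! ### The crossing tower -/

/-- **[Rec-T] The crossing tower** (`Rec.Plan.CrossTower`), unconditional. -/
theorem crossTower : Rec.Plan.CrossTower := by
  intro p _ hp2 G L _ _ _ _ _ _ μ _
  have hk : p ^ μ ≠ 0 := pow_ne_zero _ (Fact.out : p.Prime).ne_zero
  obtain ⟨ℓ, hℓ, -, hmod, hunr⟩ := CycloIrred.exists_prime_modEq_one_unramAt L (p ^ μ) hk 0
  have : Fact ℓ.Prime := ⟨hℓ⟩
  have : NeZero ℓ := ⟨hℓ.ne_zero⟩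
  obtain ⟨θ, hθ, u, hu⟩ := exists_theta p hp2 μ ℓ hmod
  obtain ⟨c, hcπ, hcχ⟩ := exists_ker_χ_eq ℓ G L hunr u
  have hcΘ : (θ.comp (CycloPair.towerχ ℓ G L)) c = Multiplicative.ofAdd 1 := by
    rw [MonoidHom.comp_apply, hcχ, hu]
  obtain ⟨L', iF, iNF, G', iG, iFin, iA, f, π, χ, c₀, ft, πt, hfaith, htow, hz, hcent, hpow, hχc,
    htow', -, -, hχ⟩ := cross_of_top (p ^ μ) (CycloPair.towerGroup ℓ G L) (CyclotomicField ℓ L)
      (algebraMap L (CyclotomicField ℓ L)) (CycloPair.towerπ ℓ G L) (CycloPair.isTower ℓ G L)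
      (θ.comp (CycloPair.towerχ ℓ G L)) c hcπ hcΘ
  exact ⟨ℓ, ⟨hℓ⟩, θ, L', iF, iNF, G', iG, iFin, iA, f, π, χ, c₀, CyclotomicField ℓ L, inferInstance,
    inferInstance, CycloPair.towerGroup ℓ G L, inferInstance, inferInstance, inferInstance, ft, πt,
    CycloPair.towerζ ℓ L, CycloPair.towerχ ℓ G L, hunr, hθ, hfaith, htow, hz, hcent, hpow, hχc,
    inferInstance, htow', CycloPair.towerζ_spec ℓ L, CycloPair.smul_towerζ ℓ G L, hχ⟩

end Fermat.Agent.CFT.Global.CrossTowerHolds
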