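import Mathlib
import Fermat.Agent.CFT.Global.Defs
import Fermat.Agent.CFT.Global.ClassDescent
import Fermat.Agent.CFT.Global.SemiLocalGalois

/-!
# Class field theory program (P3), global layer: Galois descent for the block of a place

Let `f : L →+* L'`, `π : G' →* G` be a tower datum (`IsTower f π`) of number fields, `q` a
rational prime, `m'` a maximal ideal of `L' ⊗[ℚ] ℚ_[q]` (a place `w'` of `L'`) and
`m = m' ∩ (L ⊗[ℚ] ℚ_[q])` (the place `w` of `L` below `w'`).  Then the block
`∏_{v ∈ G·w} L_vˣ` of `w` is the module of `ker π`-invariants of the block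
`∏_{v' ∈ G'·w'} L'_{v'}ˣ` of `w'`:

* `comap_isMaximal`     : `m` is maximal;
* `map_mem_orbitUnits`  : `semiLocalMap q f` maps `orbitUnits G L q m` into
                          `orbitUnits G' L' q m'`;
* `exists_of_fixed`     : a `ker π`-invariant element of `orbitUnits G' L' q m'` comes from
                          `orbitUnits G L q m`;
* `blockMap`, `blockDescent` : the packaged equivariant map `orbitRep G L q m → orbitRep G' L' q m'`
                          (injective, image = `ker π`-invariants, `π`-equivariant).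

The only non-formal input is that maximal ideals of `L' ⊗ ℚ_q` with the same contraction are
conjugate under `ker π` (Mathlib's `Algebra.IsInvariant.exists_smul_of_under_eq`, fed with the
landed `ClassDescent.mem_range_iff_fixed`).
-/

set_option autoImplicit false

open scoped TensorProduct Pointwise Fermat.Agent.CFT.Global

namespace Fermat.Agent.CFT.Global.BlockDescent

open Fermat.Agent.CFT Fermat.Agent.CFT.Global Fermat.Agent.CFT.Global.SemiLocalGalois

/-! ### Abstract: a finite group acting on a ring, over the ring of invariants -/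

section Abstract

variable {A B : Type*} [CommRing A] [CommRing B] (φ : A →+* B)
variable {N : Type*} [Group N] [Finite N] [MulSemiringAction N B]

/-- Prime ideals of `B` with the same contraction to the ring of invariants are conjugate. -/
theorem exists_conj (hfix : ∀ (n : N) (a : A), n • φ a = φ a)
    (hinv : ∀ b : B, (∀ n : N, n • b = b) → b ∈ φ.range)
    (P Q : Ideal B) [P.IsPrime] [Q.IsPrime] (h : P.comap φ = Q.comap φ) :
    ∃ n : N, ∀ b : B, b ∈ Q ↔ n • b ∈ P := by
  let _ : Algebra A B := φ.toAlgebra
  have hcomm : SMulCommClass N A B := ⟨fun n a b => by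
    show n • (φ a * b) = φ a * n • b
    rw [smul_mul', hfix]⟩
  have hI : Algebra.IsInvariant A B N := ⟨fun b hb => hinv b hb⟩
  obtain ⟨g, hg⟩ := Algebra.IsInvariant.exists_smul_of_under_eq A B N P Q h
  refine ⟨g⁻¹, fun b => ?_⟩
  rw [hg, Ideal.mem_pointwise_smul_iff_inv_smul_mem]

/-- `B` is integral over the ring of invariants. -/
theorem isIntegral_of_invariant (hinv : ∀ b : B, (∀ n : N, n • b = b) → b ∈ φ.range) :
    φ.IsIntegral := by
  let _ : Algebra A B := φ.toAlgebra
  have hI : Algebra.IsInvariant A B N := ⟨fun b hb => hinv b hb⟩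
  have := Algebra.IsInvariant.isIntegral A B N
  exact fun b => Algebra.IsIntegral.isIntegral (R := A) b

/-- Lying over for the ring of invariants. -/
theorem exists_maximal_comap_eq (hφ : Function.Injective φ)
    (hinv : ∀ b : B, (∀ n : N, n • b = b) → b ∈ φ.range)
    (P : Ideal A) [P.IsMaximal] : ∃ Q : Ideal B, Q.IsMaximal ∧ Q.comap φ = P := by
  let _ : Algebra A B := φ.toAlgebra
  have hI : Algebra.IsInvariant A B N := ⟨fun b hb => hinv b hb⟩
  have := Algebra.IsInvariant.isIntegral A B N
  refine Ideal.exists_ideal_over_maximal_of_isIntegral (S := B) P ?_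
  have : RingHom.ker (algebraMap A B) = ⊥ := (RingHom.injective_iff_ker_eq_bot _).1 hφ
  rw [this]
  exact bot_le

/-- The contraction of a maximal ideal to the ring of invariants is maximal. -/
theorem comap_isMaximal_of_invariant
    (hinv : ∀ b : B, (∀ n : N, n • b = b) → b ∈ φ.range)
    (Q : Ideal B) [Q.IsMaximal] : (Q.comap φ).IsMaximal := by
  let _ : Algebra A B := φ.toAlgebra
  have hI : Algebra.IsInvariant A B N := ⟨fun b hb => hinv b hb⟩
  have := Algebra.IsInvariant.isIntegral A B N
  exact Ideal.isMaximal_comap_of_isIntegral_of_isMaximal (R := A) Q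

end Abstract

/-! ### The blocks along a tower -/

section Tower

variable {L L' : Type} [Field L] [NumberField L] [Field L'] [NumberField L']
variable {G G' : Type} [Group G] [Group G'] [Finite G'] [MulSemiringAction G L]
  [MulSemiringAction G' L'] {f : L →+* L'} {π : G' →* G}

omit [Finite G'] in
theorem ker_smul_map (h : IsTower f π) (q : ℕ) [Fact q.Prime] (n : π.ker) (a : SemiLocal L q) :
    n • semiLocalMap q f a = semiLocalMap q f a :=
  ClassDescent.smul_semiLocalMap_of_mem_ker h q n.2 a

theorem ker_invariant (h : IsTower f π) (q : ℕ) [Fact q.Prime] (b : SemiLocal L' q)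
    (hb : ∀ n : π.ker, n • b = b) : b ∈ (semiLocalMap q f).range :=
  ClassDescent.mem_range_of_fixed h q b (fun n hn => hb ⟨n, hn⟩)

/-- The contraction of a maximal ideal of `L' ⊗ ℚ_q` to `L ⊗ ℚ_q` is maximal. -/
theorem comap_isMaximal (h : IsTower f π) (q : ℕ) [Fact q.Prime] (m' : Ideal (SemiLocal L' q))
    (hm' : m'.IsMaximal) : (m'.comap (semiLocalMap q f)).IsMaximal :=
  comap_isMaximal_of_invariant (N := π.ker) (semiLocalMap q f) (ker_invariant h q) m'

omit [Finite G'] in
/-- Being in the orbit descends along the tower. -/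
theorem inOrbit_comap (h : IsTower f π) (q : ℕ) [Fact q.Prime]
    {n' m' : Ideal (SemiLocal L' q)} (ho : InOrbit G' n' m') :
    InOrbit G (n'.comap (semiLocalMap q f)) (m'.comap (semiLocalMap q f)) := by
  obtain ⟨g', hg'⟩ := ho
  refine ⟨π g', fun a => ?_⟩
  rw [Ideal.mem_comap, Ideal.mem_comap, hg', ClassDescent.semiLocalMap_smul h]

/-- Being in the orbit lifts along the tower: maximal ideals of `L' ⊗ ℚ_q` whose contractions
are `G`-conjugate are `G'`-conjugate. -/
theorem inOrbit_of_comap (h : IsTower f π) (q : ℕ) [Fact q.Prime]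
    {n' m' : Ideal (SemiLocal L' q)} (hn' : n'.IsMaximal) (hm' : m'.IsMaximal)
    (ho : InOrbit G (n'.comap (semiLocalMap q f)) (m'.comap (semiLocalMap q f))) :
    InOrbit G' n' m' := by
  obtain ⟨g, hg⟩ := ho
  obtain ⟨g', rfl⟩ := h.surj g
  have hP : (translate m' g').IsMaximal := translate_isMaximal hm' g'
  have hcomap : (translate m' g').comap (semiLocalMap q f) = n'.comap (semiLocalMap q f) := by
    ext a
    rw [hg a, Ideal.mem_comap, Ideal.mem_comap, mem_translate,
      ClassDescent.semiLocalMap_smul h]
  have hPp : (translate m' g').IsPrime := hP.isPrime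
  have hn'p : n'.IsPrime := hn'.isPrime
  obtain ⟨k, hk⟩ := exists_conj (N := π.ker) (semiLocalMap q f) (ker_smul_map h q)
    (ker_invariant h q) (translate m' g') n' hcomap
  refine ⟨g' * (k : G'), fun b => ?_⟩
  rw [hk b, mem_translate, mul_smul]
  rfl

/-- **[LG.b], first half**: `semiLocalMap q f` maps the block of the place below into the block
of the place above. -/
theorem map_mem_orbitUnits (h : IsTower f π) (q : ℕ) [Fact q.Prime]
    (m' : Ideal (SemiLocal L' q)) (hm' : m'.IsMaximal) {x : (SemiLocal L q)ˣ}
    (hx : x ∈ orbitUnits G L q (m'.comap (semiLocalMap q f))) :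
    Units.map (semiLocalMap q f).toMonoidHom x ∈ orbitUnits G' L' q m' := by
  rw [mem_orbitUnits_iff] at hx ⊢
  intro n' hn' hno
  have hn : (n'.comap (semiLocalMap q f)).IsMaximal := comap_isMaximal h q n' hn'
  have h1 := hx _ hn (fun ho => hno (inOrbit_of_comap h q hn' hm' ho))
  rw [Ideal.mem_comap, map_sub, map_one] at h1
  exact h1

/-- **[LG.b], second half**: a `ker π`-invariant element of the block of the place above comes
from the block of the place below. -/
theorem exists_of_fixed (h : IsTower f π) (q : ℕ) [Fact q.Prime]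
    (m' : Ideal (SemiLocal L' q)) {u : (SemiLocal L' q)ˣ}
    (hu : u ∈ orbitUnits G' L' q m') (hfix : ∀ n ∈ π.ker, n • u = u) :
    ∃ x ∈ orbitUnits G L q (m'.comap (semiLocalMap q f)),
      Units.map (semiLocalMap q f).toMonoidHom x = u := by
  have hinj := ClassDescent.semiLocalMap_injective q f
  obtain ⟨a, ha⟩ := ClassDescent.mem_range_of_fixed h q (u : SemiLocal L' q)
    (fun n hn => by
      have := congrArg (fun v : (SemiLocal L' q)ˣ => (v : SemiLocal L' q)) (hfix n hn)
      exact this)
  obtain ⟨b, hb⟩ := ClassDescent.mem_range_of_fixed h q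
    ((u⁻¹ : (SemiLocal L' q)ˣ) : SemiLocal L' q)
    (fun n hn => by
      have h1 : n • u⁻¹ = u⁻¹ := by rw [smul_inv', hfix n hn]
      have := congrArg (fun v : (SemiLocal L' q)ˣ => (v : SemiLocal L' q)) h1
      exact this)
  have hab : a * b = 1 := by
    apply hinj
    rw [map_mul, ha, hb, map_one, Units.mul_inv]
  have hba : b * a = 1 := by rw [mul_comm, hab]
  refine ⟨⟨a, b, hab, hba⟩, ?_, Units.ext ha⟩
  rw [mem_orbitUnits_iff] at hu ⊢
  intro n hn hno
  have := hn
  obtain ⟨n', hn', hcomap⟩ := exists_maximal_comap_eq (N := π.ker) (semiLocalMap q f) hinj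
    (ker_invariant h q) n
  have h1 := hu n' hn' (fun ho => hno (by
    have := inOrbit_comap h q ho
    rwa [hcomap] at this))
  rw [← hcomap, Ideal.mem_comap, map_sub, map_one, ha]
  exact h1

/-- The map of blocks `∏_{v ∈ G·w} L_vˣ → ∏_{v' ∈ G'·w'} L'_{v'}ˣ` induced by a tower datum
(additive notation, on the carriers of `orbitRep`). -/
noncomputable def blockMap (h : IsTower f π) (q : ℕ) [Fact q.Prime]
    (m' : Ideal (SemiLocal L' q)) (hm' : m'.IsMaximal) :
    ↥(addSub (orbitUnits G L q (m'.comap (semiLocalMap q f)))) →ₗ[ℤ]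
      ↥(addSub (orbitUnits G' L' q m')) :=
  LinearMap.restrict
    (MonoidHom.toAdditive (Units.map (semiLocalMap q f).toMonoidHom)).toIntLinearMap
    (fun _ hx => map_mem_orbitUnits h q m' hm' hx)

theorem blockMap_coe (h : IsTower f π) (q : ℕ) [Fact q.Prime]
    (m' : Ideal (SemiLocal L' q)) (hm' : m'.IsMaximal)
    (x : ↥(addSub (orbitUnits G L q (m'.comap (semiLocalMap q f))))) :
    Additive.toMul (blockMap h q m' hm' x).1
      = Units.map (semiLocalMap q f).toMonoidHom (Additive.toMul x.1) := rfl

/-- **[LG.b] `BlockDescent`**, packaged in the shape of `ClassDescent.classDescent`: the map of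
blocks is injective, its image is the module of `ker π`-invariants, and it is `π`-equivariant. -/
theorem blockDescent (h : IsTower f π) (q : ℕ) [Fact q.Prime]
    (m' : Ideal (SemiLocal L' q)) (hm' : m'.IsMaximal) :
    Function.Injective (blockMap h q m' hm') ∧
    (∀ y : ↥(addSub (orbitUnits G' L' q m')),
      (∀ n ∈ π.ker, (orbitRep G' L' q m').ρ n y = y) →
        y ∈ LinearMap.range (blockMap h q m' hm')) ∧
    ∀ (g : G') (x : ↥(addSub (orbitUnits G L q (m'.comap (semiLocalMap q f))))),
      blockMap h q m' hm' ((orbitRep G L q (m'.comap (semiLocalMap q f))).ρ (π g) x)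
        = (orbitRep G' L' q m').ρ g (blockMap h q m' hm' x) := by
  refine ⟨?_, ?_, ?_⟩
  · intro x y hxy
    apply Subtype.ext
    have h1 := congrArg (fun z : ↥(addSub (orbitUnits G' L' q m')) =>
      ((Additive.toMul z.1 : (SemiLocal L' q)ˣ) : SemiLocal L' q)) hxy
    have h2 : semiLocalMap q f ((Additive.toMul x.1 : (SemiLocal L q)ˣ) : SemiLocal L q)
        = semiLocalMap q f ((Additive.toMul y.1 : (SemiLocal L q)ˣ) : SemiLocal L q) := h1
    exact congrArg Additive.ofMul (Units.ext (ClassDescent.semiLocalMap_injective q f h2))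
  · intro y hy
    obtain ⟨x, hx, hxy⟩ := exists_of_fixed h q m'
      (u := Additive.toMul y.1) y.2 (fun n hn => by
        have := congrArg (fun z : ↥(addSub (orbitUnits G' L' q m')) =>
          Additive.toMul z.1) (hy n hn)
        exact this)
    exact ⟨⟨Additive.ofMul x, hx⟩, Subtype.ext (congrArg Additive.ofMul hxy)⟩
  · intro g x
    apply Subtype.ext
    apply congrArg Additive.ofMul
    apply Units.ext
    exact ClassDescent.semiLocalMap_smul h q g _

end Tower

section Square

variable {L L' : Type} [Field L] [NumberField L] [Field L'] [NumberField L']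
variable {G G' : Type} [Group G] [Group G'] [Finite G'] [MulSemiringAction G L]
  [MulSemiringAction G' L'] {f : L →+* L'} {π : G' →* G}

omit [NumberField L] [NumberField L'] in
theorem ideleProdMap_mulSingle [CharZero L] [CharZero L'] (q : Nat.Primes)
    (x : (SemiLocal L q)ˣ) :
    ideleProdMap f (Pi.mulSingle q x)
      = Pi.mulSingle q (Units.map (semiLocalMap (q : ℕ) f).toMonoidHom x) := by
  funext q'
  rw [ideleProdMap_apply]
  by_cases hq : q' = q
  · subst hq
    rw [Pi.mulSingle_eq_same, Pi.mulSingle_eq_same]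
  · rw [Pi.mulSingle_eq_of_ne hq, Pi.mulSingle_eq_of_ne hq, map_one]

/-- The square `block → C` commutes with the tower maps:
`classMap f ∘ orbitToClass = orbitToClass ∘ blockMap`. -/
theorem classMap_orbitToClass (h : IsTower f π) (q : Nat.Primes)
    (m' : Ideal (SemiLocal L' q)) (hm' : m'.IsMaximal)
    (x : ↥(addSub (orbitUnits G L q (m'.comap (semiLocalMap (q : ℕ) f))))) :
    classMap f ((orbitToClass G L q (m'.comap (semiLocalMap (q : ℕ) f))).hom x)
      = (orbitToClass G' L' q m').hom (blockMap h q m' hm' x) := by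
  show classMap f (Submodule.Quotient.mk _) = Submodule.Quotient.mk _
  show Submodule.Quotient.mk _ = Submodule.Quotient.mk _
  congr 1
  apply Subtype.ext
  exact congrArg Additive.ofMul (ideleProdMap_mulSingle q _)

end Square

end Fermat.Agent.CFT.Global.BlockDescent
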