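import Fermat.Agent.CFT.Global.CycloAuxCore
import Fermat.Agent.CFT.Global.AuxL.Plan
import Fermat.Agent.CFT.Global.AuxL.Dict
import Fermat.Agent.CFT.Global.AuxL.Extract
import Fermat.Agent.CFT.Global.BlockDescent

/-!
# Reciprocity for the auxiliary layer: `AuxL.AuxRec`

`auxRec_of : AuxL.AuxUnif → AuxL.AuxFrob → AuxL.AuxExtract → AuxL.AuxRec`.

`a₁` is the image in the block of `m` of a uniformizer `x` of `K` at the place below `m`
(`AuxUnif`).  If `n • a₁` is the norm of an idele class, then `(x at q) ^ n` times a principal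
idele of `K` is a norm from `E` (`AuxExtract`), so `φ ^ n` fixes `E` for the Frobenius `φ` of
`AuxFrob` (`CycloArtin.zpow_fix_of_norm_mulSingle_gal`), hence `|Stab P| ∣ n`.
-/

set_option autoImplicit false

open scoped TensorProduct Pointwise
open scoped Fermat.Agent.CFT.Global

noncomputable section

namespace Fermat.Agent.CFT.Global.CycloArtin

open Fermat.Agent.CFT.Global Fermat.Agent.CFT.Global.QBridge NumberField

/-- The tower `(Gal(E/K), E)` over `(Gal(K/K), K)`. -/
theorem isTower_base (K E : Type) [Field K] [Field E] [Algebra K E] [FiniteDimensional K E]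
    [IsGalois K E] : IsTower (algebraMap K E) (1 : Gal(E/K) →* Gal(K/K)) where
  surj g := ⟨1, by
    ext x
    exact (g.commutes x).symm⟩
  equivariant g x := by
    show algebraMap K E x = g (algebraMap K E x)
    exact (g.commutes x).symm
  fixed y hy := by
    have h : ∀ σ : Gal(E/K), σ y = y := fun σ => hy σ (by simp)
    exact (IsGalois.mem_range_algebraMap_iff_fixed (F := K) (E := E) y).mpr h

set_option synthInstance.maxHeartbeats 400000 in
/-- **[AUX.Rec]** from the three contracts. -/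
theorem auxRec_of (hU : AuxL.AuxUnif) (hF : AuxL.AuxFrob) (hX : AuxL.AuxExtract) :
    AuxL.AuxRec := by
  intro K _ _ ℓ _ E _ _ _ hodd hunr q hq m hm
  classical
  have hT := isTower_base K E
  -- the place of `K` below `m`
  have hmK : (m.comap (semiLocalMap (q : ℕ) (algebraMap K E))).IsMaximal :=
    BlockDescent.comap_isMaximal hT (q : ℕ) m hm
  obtain ⟨x, hx1, hx2, hx3⟩ := hU K (q : ℕ) ⟨_, hmK⟩
  -- `x` lies in the block of the place below (for the trivial group)
  have hxK : x ∈ orbitUnits Gal(K/K) K (q : ℕ)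
      (m.comap (semiLocalMap (q : ℕ) (algebraMap K E))) := by
    intro m'' hm'' hno
    apply hx1 m'' hm''
    rintro rfl
    obtain ⟨a, ha⟩ := hno 1
    exact ha (by rw [one_smul])
  have hxE : Units.map (semiLocalMap (q : ℕ) (algebraMap K E)).toMonoidHom x ∈
      orbitUnits Gal(E/K) E (q : ℕ) m :=
    BlockDescent.map_mem_orbitUnits hT (q : ℕ) m hm hxK
  refine ⟨(⟨Additive.ofMul (Units.map (semiLocalMap (q : ℕ) (algebraMap K E)).toMonoidHom x),
    hxE⟩ : ↥(addSub (orbitUnits Gal(E/K) E (q : ℕ) m))), ?_, ?_⟩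
  · intro γ
    apply Subtype.ext
    show Additive.ofMul (γ • Units.map (semiLocalMap (q : ℕ) (algebraMap K E)).toMonoidHom x) =
      Additive.ofMul (Units.map (semiLocalMap (q : ℕ) (algebraMap K E)).toMonoidHom x)
    congr 1
    apply Units.ext
    exact AuxL.Extract.smul_semiLocalMap_of_fixed (algebraMap K E)
      (fun (γ : Gal(E/K)) a => γ.commutes a) (q : ℕ) γ (x : SemiLocal K q)
  · rintro n ⟨c, hc⟩
    have hxn : Units.map (semiLocalMap (q : ℕ) (algebraMap K E)).toMonoidHom (x ^ n) ∈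
        orbitUnits Gal(E/K) E (q : ℕ) m := by
      rw [map_zpow]
      exact zpow_mem hxE n
    have hna : n • (⟨Additive.ofMul
          (Units.map (semiLocalMap (q : ℕ) (algebraMap K E)).toMonoidHom x), hxE⟩ :
          ↥(addSub (orbitUnits Gal(E/K) E (q : ℕ) m))) =
        ⟨Additive.ofMul (Units.map (semiLocalMap (q : ℕ) (algebraMap K E)).toMonoidHom (x ^ n)),
          hxn⟩ := by
      apply Subtype.ext
      show n • Additive.ofMul (Units.map (semiLocalMap (q : ℕ) (algebraMap K E)).toMonoidHom x) =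
        Additive.ofMul (Units.map (semiLocalMap (q : ℕ) (algebraMap K E)).toMonoidHom (x ^ n))
      rw [map_zpow, ofMul_zpow]
    have hfix : ∀ y : E, (∀ γ : Gal(E/K), γ • y = y) ↔ y ∈ (algebraMap K E).range := by
      intro y
      rw [RingHom.mem_range]
      exact (IsGalois.mem_range_algebraMap_iff_fixed (F := K) (E := E) y).symm
    obtain ⟨u, b, hub⟩ := hX K E Gal(E/K) (algebraMap K E) hfix q m (x ^ n) hxn
      ⟨c, by rw [← hna]; exact hc⟩
    -- the prime of `E` below `m` and its Frobenius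
    have hPprime : (AuxL.Dict.primeBelow m hm).IsPrime :=
      (CountDict.placeBelow (⟨m, hm⟩ : MaximalSpectrum (E ⊗[ℚ] ℚ_[(q : ℕ)]))).isPrime
    have hP0 : AuxL.Dict.primeBelow m hm ≠ ⊥ :=
      (CountDict.placeBelow (⟨m, hm⟩ : MaximalSpectrum (E ⊗[ℚ] ℚ_[(q : ℕ)]))).ne_bot
    have hqP : (((q : ℕ) : ℕ) : 𝓞 E) ∈ AuxL.Dict.primeBelow m hm :=
      CountDict.natCast_mem_placeBelow (⟨m, hm⟩ : MaximalSpectrum (E ⊗[ℚ] ℚ_[(q : ℕ)]))
    have hℓP : (ℓ : 𝓞 E) ∉ AuxL.Dict.primeBelow m hm := by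
      intro hmem
      have hcop : Nat.Coprime (q : ℕ) ℓ :=
        (Nat.coprime_primes q.2 (Fact.out : ℓ.Prime)).mpr hq
      obtain ⟨a, b', hab⟩ := Nat.Coprime.isCoprime hcop
      have h1 : ((1 : ℤ) : 𝓞 E) ∈ AuxL.Dict.primeBelow m hm := by
        rw [← hab]
        push_cast
        exact add_mem (Ideal.mul_mem_left _ _ hqP) (Ideal.mul_mem_left _ _ hmem)
      have h2 : (1 : 𝓞 E) ∈ AuxL.Dict.primeBelow m hm := by exact_mod_cast h1
      exact hPprime.ne_top ((Ideal.eq_top_iff_one _).mpr h2)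
    obtain ⟨φ, hφ, hφn⟩ := hF K ℓ E (AuxL.Dict.primeBelow m hm) hPprime hP0 hℓP
      (hunr _ hPprime hP0 hℓP)
    have hunder := AuxL.Dict.auxDict2 K E (q : ℕ) m hm hmK
    have hfixE := zpow_fix_of_norm_mulSingle_gal K ℓ E hodd q hq x
      ⟨CountDict.placeBelow ⟨_, hmK⟩, CountDict.natCast_mem_placeBelow ⟨_, hmK⟩⟩ hx2 hx3 φ
      (fun t ht => by rw [hφ t ht, ← hunder]; rfl) n u b
      (by rw [← Pi.mulSingle_zpow]; exact hub)
    rw [AuxL.Dict.auxDict1 K E (q : ℕ) m hm]
    exact hφn n hfixE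

end Fermat.Agent.CFT.Global.CycloArtin
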