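import Mathlib

/-!
# The count behind the existence theorem mod `p` ([EX.a])

Abstract setting: commutative groups `k` ("`Lˣ`") and `J` ("ideles"), a homomorphism `d : k →* J`
("principal ideles"), subgroups `JS` ("ideles supported on `S`") and `US` ("units outside `S`") of
`J`, and a projection `πS : J →* J` onto `JS` which kills `US`.  With

* `A = d(k) · US · J^p`        (`J / A = C_S / p`),
* `B = d(k) · JS · US · J^p`   (`J / B = Cl_S / p`),
* `Sel = d⁻¹(JS · US · J^p)`, `V = d⁻¹(US · J^p)`, `Pw = k^p`,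

and the three inputs `[E : E^p] = p^s` (`E = d⁻¹(JS · US)`, the `S`-units),
`[JS : JS^p] = p^(2s)`, `J / (d(k) · JS · US)` finite, plus torsion-freeness of `J / (JS · US)`,
we prove

  `[J : A] · [J : B] = [Sel : Pw] · [V : Pw]`.
-/

set_option autoImplicit false

namespace Fermat.Agent.CFT.Global.ExistCount

open Subgroup

section Abstract

variable {J k : Type*} [CommGroup J] [CommGroup k]

/-- The index of the `p`-th powers of a subgroup, in `relIndex` form. -/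
theorem range_powMonoidHom_index (H : Subgroup J) (p : ℕ) :
    (powMonoidHom p : ↥H →* ↥H).range.index = (H.map (powMonoidHom p)).relIndex H := by
  rw [relIndex]
  congr 1
  ext x
  simp only [MonoidHom.mem_range, mem_subgroupOf, mem_map, powMonoidHom_apply]
  constructor
  · rintro ⟨y, rfl⟩
    exact ⟨y, y.2, rfl⟩
  · rintro ⟨y, hy, hyx⟩
    exact ⟨⟨y, hy⟩, Subtype.ext hyx⟩

variable (d : k →* J) (JS US : Subgroup J) (πS : J →* J) (p : ℕ)

/-- `J^p`. -/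
abbrev Jp : Subgroup J := (powMonoidHom p : J →* J).range

theorem mem_W_sup_Jp {x : J} :
    x ∈ JS ⊔ US ⊔ (powMonoidHom p : J →* J).range ↔
      ∃ j ∈ JS, ∃ u ∈ US, ∃ y : J, x = j * u * y ^ p := by
  simp only [Subgroup.mem_sup, MonoidHom.mem_range, powMonoidHom_apply]
  constructor
  · rintro ⟨w, ⟨j, hj, u, hu, rfl⟩, z, ⟨y, rfl⟩, rfl⟩
    exact ⟨j, hj, u, hu, y, rfl⟩
  · rintro ⟨j, hj, u, hu, y, rfl⟩
    exact ⟨j * u, ⟨j, hj, u, hu, rfl⟩, y ^ p, ⟨y, rfl⟩, rfl⟩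

theorem mem_US_sup_Jp {x : J} :
    x ∈ US ⊔ (powMonoidHom p : J →* J).range ↔ ∃ u ∈ US, ∃ y : J, x = u * y ^ p := by
  simp only [Subgroup.mem_sup, MonoidHom.mem_range, powMonoidHom_apply]
  constructor
  · rintro ⟨u, hu, z, ⟨y, rfl⟩, rfl⟩
    exact ⟨u, hu, y, rfl⟩
  · rintro ⟨u, hu, y, rfl⟩
    exact ⟨u, hu, y ^ p, ⟨y, rfl⟩, rfl⟩

theorem mem_A {x : J} :
    x ∈ d.range ⊔ US ⊔ (powMonoidHom p : J →* J).range ↔
      ∃ a : k, ∃ u ∈ US, ∃ y : J, x = d a * u * y ^ p := by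
  simp only [Subgroup.mem_sup, MonoidHom.mem_range, powMonoidHom_apply]
  constructor
  · rintro ⟨w, ⟨_, ⟨a, rfl⟩, u, hu, rfl⟩, z, ⟨y, rfl⟩, rfl⟩
    exact ⟨a, u, hu, y, rfl⟩
  · rintro ⟨a, u, hu, y, rfl⟩
    exact ⟨d a * u, ⟨d a, ⟨a, rfl⟩, u, hu, rfl⟩, y ^ p, ⟨y, rfl⟩, rfl⟩

theorem mem_B {x : J} :
    x ∈ d.range ⊔ JS ⊔ US ⊔ (powMonoidHom p : J →* J).range ↔
      ∃ a : k, ∃ j ∈ JS, ∃ u ∈ US, ∃ y : J, x = d a * j * u * y ^ p := by
  simp only [Subgroup.mem_sup, MonoidHom.mem_range, powMonoidHom_apply]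
  constructor
  · rintro ⟨w, ⟨_, ⟨_, ⟨a, rfl⟩, j, hj, rfl⟩, u, hu, rfl⟩, z, ⟨y, rfl⟩, rfl⟩
    exact ⟨a, j, hj, u, hu, y, rfl⟩
  · rintro ⟨a, j, hj, u, hu, y, rfl⟩
    exact ⟨d a * j * u, ⟨d a * j, ⟨d a, ⟨a, rfl⟩, j, hj, rfl⟩, u, hu, rfl⟩, y ^ p, ⟨y, rfl⟩, rfl⟩

theorem mem_D {x : J} :
    x ∈ d.range ⊔ JS ⊔ US ↔ ∃ a : k, ∃ j ∈ JS, ∃ u ∈ US, x = d a * j * u := by
  simp only [Subgroup.mem_sup, MonoidHom.mem_range]
  constructor
  · rintro ⟨_, ⟨_, ⟨a, rfl⟩, j, hj, rfl⟩, u, hu, rfl⟩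
    exact ⟨a, j, hj, u, hu, rfl⟩
  · rintro ⟨a, j, hj, u, hu, rfl⟩
    exact ⟨d a * j, ⟨d a, ⟨a, rfl⟩, j, hj, rfl⟩, u, hu, rfl⟩

/-- Inside `Sel`, membership in `V` is detected by the `S`-component. -/
theorem mem_V_iff_of_mem_Sel (hπ_mem : ∀ x, πS x ∈ JS) (hπ_JS : ∀ x ∈ JS, πS x = x)
    (hπ_US : ∀ x ∈ US, πS x = 1) {a : k}
    (ha : a ∈ (JS ⊔ US ⊔ (powMonoidHom p : J →* J).range).comap d) :
    a ∈ (US ⊔ (powMonoidHom p : J →* J).range).comap d ↔
      πS (d a) ∈ JS.map (powMonoidHom p) := by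
  rw [mem_comap, mem_US_sup_Jp, mem_map]
  rw [mem_comap, mem_W_sup_Jp] at ha
  constructor
  · rintro ⟨u, hu, y, hy⟩
    refine ⟨πS y, hπ_mem y, ?_⟩
    rw [hy, map_mul, hπ_US u hu, one_mul, map_pow, powMonoidHom_apply]
  · rintro ⟨z, hz, hzp⟩
    obtain ⟨j, hj, u, hu, y, hy⟩ := ha
    rw [powMonoidHom_apply] at hzp
    have h1 : πS (d a) = j * πS y ^ p := by
      rw [hy, map_mul, map_mul, hπ_JS j hj, hπ_US u hu, mul_one, map_pow]
    refine ⟨u, hu, z * (πS y)⁻¹ * y, ?_⟩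
    have hj' : j = z ^ p * (πS y ^ p)⁻¹ := by
      rw [hzp, h1, mul_inv_cancel_right]
    rw [hy, hj']
    apply Additive.ofMul.injective
    simp only [ofMul_mul, ofMul_inv, ofMul_pow, smul_add, smul_neg]
    abel

/-- `A ∩ JS = JS^p · loc_S(Sel)`. -/
theorem A_inf_JS (hπ_mem : ∀ x, πS x ∈ JS) (hπ_JS : ∀ x ∈ JS, πS x = x)
    (hπ_US : ∀ x ∈ US, πS x = 1) :
    (d.range ⊔ US ⊔ (powMonoidHom p : J →* J).range) ⊓ JS =
      JS.map (powMonoidHom p) ⊔
        ((JS ⊔ US ⊔ (powMonoidHom p : J →* J).range).comap d).map (πS.comp d) := by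
  apply le_antisymm
  · intro x hx
    obtain ⟨hxA, hxJ⟩ := mem_inf.mp hx
    rw [mem_A] at hxA
    obtain ⟨a, u, hu, y, hy⟩ := hxA
    have hx' : x = πS y ^ p * πS (d a) := by
      have h := hπ_JS x hxJ
      rw [← h, hy, map_mul, map_mul, hπ_US u hu, mul_one, map_pow, mul_comm]
    rw [hx']
    refine mul_mem_sup (mem_map.mpr ⟨πS y, hπ_mem y, rfl⟩) (mem_map.mpr ⟨a, ?_, rfl⟩)
    rw [mem_comap, mem_W_sup_Jp]
    refine ⟨x, hxJ, u⁻¹, inv_mem hu, y⁻¹, ?_⟩
    rw [hy]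
    apply Additive.ofMul.injective
    simp only [ofMul_mul, ofMul_inv, ofMul_pow, smul_neg]
    abel
  · refine sup_le ?_ ?_
    · rintro _ ⟨z, hz, rfl⟩
      refine mem_inf.mpr ⟨?_, pow_mem hz p⟩
      rw [mem_A]
      exact ⟨1, 1, one_mem _, z, by rw [map_one, one_mul, one_mul, powMonoidHom_apply]⟩
    · rintro _ ⟨a, ha, rfl⟩
      rw [SetLike.mem_coe, mem_comap, mem_W_sup_Jp] at ha
      obtain ⟨j, hj, u, hu, y, hy⟩ := ha
      refine mem_inf.mpr ⟨?_, hπ_mem _⟩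
      rw [mem_A]
      refine ⟨a, u⁻¹, inv_mem hu, πS y * y⁻¹, ?_⟩
      have h1 : πS (d a) = j * πS y ^ p := by
        rw [hy, map_mul, map_mul, hπ_JS j hj, hπ_US u hu, mul_one, map_pow]
      rw [MonoidHom.comp_apply, h1, hy]
      apply Additive.ofMul.injective
      simp only [ofMul_mul, ofMul_inv, ofMul_pow, smul_add, smul_neg]
      abel

/-- `JS^p ∩ loc_S(Sel) = loc_S(V)`. -/
theorem JSp_inf_locSel (hπ_mem : ∀ x, πS x ∈ JS) (hπ_JS : ∀ x ∈ JS, πS x = x)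
    (hπ_US : ∀ x ∈ US, πS x = 1) :
    JS.map (powMonoidHom p) ⊓
        ((JS ⊔ US ⊔ (powMonoidHom p : J →* J).range).comap d).map (πS.comp d) =
      ((US ⊔ (powMonoidHom p : J →* J).range).comap d).map (πS.comp d) := by
  have hVS : (US ⊔ (powMonoidHom p : J →* J).range).comap d ≤
      (JS ⊔ US ⊔ (powMonoidHom p : J →* J).range).comap d :=
    comap_mono (sup_le_sup_right le_sup_right _)
  apply le_antisymm
  · intro x hx
    obtain ⟨hx1, hx2⟩ := mem_inf.mp hx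
    obtain ⟨a, ha, rfl⟩ := mem_map.mp hx2
    exact mem_map.mpr ⟨a, (mem_V_iff_of_mem_Sel d JS US πS p hπ_mem hπ_JS hπ_US ha).mpr hx1, rfl⟩
  · rintro _ ⟨a, ha, rfl⟩
    exact mem_inf.mpr
      ⟨(mem_V_iff_of_mem_Sel d JS US πS p hπ_mem hπ_JS hπ_US (hVS ha)).mp ha,
        mem_map.mpr ⟨a, hVS ha, rfl⟩⟩

/-- `loc_S⁻¹(loc_S(V)) ∩ Sel = V`. -/
theorem comap_map_V_inf_Sel (hπ_mem : ∀ x, πS x ∈ JS) (hπ_JS : ∀ x ∈ JS, πS x = x)
    (hπ_US : ∀ x ∈ US, πS x = 1) :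
    ((((US ⊔ (powMonoidHom p : J →* J).range).comap d).map (πS.comp d)).comap (πS.comp d)) ⊓
        (JS ⊔ US ⊔ (powMonoidHom p : J →* J).range).comap d =
      (US ⊔ (powMonoidHom p : J →* J).range).comap d := by
  have hVS : (US ⊔ (powMonoidHom p : J →* J).range).comap d ≤
      (JS ⊔ US ⊔ (powMonoidHom p : J →* J).range).comap d :=
    comap_mono (sup_le_sup_right le_sup_right _)
  apply le_antisymm
  · intro x hx
    obtain ⟨hx1, hx2⟩ := mem_inf.mp hx
    obtain ⟨v, hv, hvx⟩ := mem_map.mp (mem_comap.mp hx1)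
    refine (mem_V_iff_of_mem_Sel d JS US πS p hπ_mem hπ_JS hπ_US hx2).mpr ?_
    have := (mem_V_iff_of_mem_Sel d JS US πS p hπ_mem hπ_JS hπ_US (hVS hv)).mp hv
    rw [MonoidHom.comp_apply, MonoidHom.comp_apply] at hvx
    rwa [← hvx]
  · intro x hx
    exact mem_inf.mpr ⟨mem_comap.mpr (mem_map.mpr ⟨x, hx, rfl⟩), hVS hx⟩

/-- `k^p ∩ E = E^p`. -/
theorem Pw_inf_E (hTF : ∀ x : J, x ^ p ∈ JS ⊔ US → x ∈ JS ⊔ US) :
    (powMonoidHom p : k →* k).range ⊓ (JS ⊔ US).comap d =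
      ((JS ⊔ US).comap d).map (powMonoidHom p) := by
  apply le_antisymm
  · intro x hx
    obtain ⟨hx1, hx2⟩ := mem_inf.mp hx
    obtain ⟨b, rfl⟩ := hx1
    refine mem_map.mpr ⟨b, ?_, rfl⟩
    rw [mem_comap, powMonoidHom_apply, map_pow] at hx2
    exact hTF _ hx2
  · rintro _ ⟨b, hb, rfl⟩
    exact mem_inf.mpr ⟨⟨b, rfl⟩, pow_mem hb p⟩

/-- The auxiliary subgroup `Γ = {(a, y) | d a / y ^ p ∈ JS · US}` of `k × J`. -/
def gamma : Subgroup (k × J) :=
  (JS ⊔ US).comap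
    ((d.comp (MonoidHom.fst k J)) * ((powMonoidHom p).comp (MonoidHom.snd k J))⁻¹)

theorem mem_gamma {x : k × J} :
    x ∈ gamma d JS US p ↔ d x.1 * (x.2 ^ p)⁻¹ ∈ JS ⊔ US := Iff.rfl

theorem map_fst_gamma :
    (gamma d JS US p).map (MonoidHom.fst k J) =
      (JS ⊔ US ⊔ (powMonoidHom p : J →* J).range).comap d := by
  ext a
  rw [mem_map, mem_comap, Subgroup.mem_sup]
  constructor
  · rintro ⟨⟨a', y⟩, hx, rfl⟩
    rw [mem_gamma] at hx
    refine ⟨_, hx, y ^ p, ⟨y, rfl⟩, ?_⟩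
    simp
  · rintro ⟨w, hw, _, ⟨y, rfl⟩, hwy⟩
    refine ⟨(a, y), ?_, rfl⟩
    rw [mem_gamma]
    have : d a * (y ^ p)⁻¹ = w := by
      rw [← hwy, powMonoidHom_apply, mul_inv_cancel_right]
    rw [this]
    exact hw

theorem map_snd_gamma :
    (gamma d JS US p).map (MonoidHom.snd k J) =
      (d.range ⊔ JS ⊔ US).comap (powMonoidHom p) := by
  ext y
  rw [mem_map, mem_comap, sup_assoc, Subgroup.mem_sup]
  constructor
  · rintro ⟨⟨a, y'⟩, hx, rfl⟩
    rw [mem_gamma] at hx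
    refine ⟨d a, ⟨a, rfl⟩, (d a * (y' ^ p)⁻¹)⁻¹, inv_mem hx, ?_⟩
    simp
  · rintro ⟨_, ⟨a, rfl⟩, w, hw, hwy⟩
    refine ⟨(a, y), ?_, rfl⟩
    rw [mem_gamma]
    have : d a * (y ^ p)⁻¹ = w⁻¹ := by
      rw [powMonoidHom_apply] at hwy
      rw [← hwy, mul_inv_rev, mul_inv_cancel_comm_assoc]
    rw [this]
    exact inv_mem hw

theorem comap_fst_inf_gamma (hTF : ∀ x : J, x ^ p ∈ JS ⊔ US → x ∈ JS ⊔ US) :
    (((powMonoidHom p : k →* k).range ⊔ (JS ⊔ US).comap d).comap (MonoidHom.fst k J)) ⊓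
        gamma d JS US p =
      ((d.range ⊔ JS ⊔ US).comap (MonoidHom.snd k J)) ⊓ gamma d JS US p := by
  ext ⟨a, y⟩
  rw [mem_inf, mem_inf, mem_comap, mem_comap, mem_gamma]
  simp only [MonoidHom.coe_fst, MonoidHom.coe_snd]
  refine and_congr_left fun hw => ?_
  rw [sup_assoc, Subgroup.mem_sup, Subgroup.mem_sup]
  constructor
  · rintro ⟨_, ⟨b, rfl⟩, e, he, hbe⟩
    rw [mem_comap] at he
    have h1 : (d b * y⁻¹) ^ p ∈ JS ⊔ US := by
      have : (d b * y⁻¹) ^ p = d a * (y ^ p)⁻¹ * (d e)⁻¹ := by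
        rw [← hbe, map_mul, powMonoidHom_apply, map_pow]
        apply Additive.ofMul.injective
        simp only [ofMul_mul, ofMul_inv, ofMul_pow, smul_add, smul_neg]
        abel
      rw [this]
      exact mul_mem hw (inv_mem he)
    have h2 := hTF _ h1
    refine ⟨d b, ⟨b, rfl⟩, (d b * y⁻¹)⁻¹, inv_mem h2, ?_⟩
    simp
  · rintro ⟨_, ⟨b, rfl⟩, w', hw', hy⟩
    refine ⟨b ^ p, ⟨b, rfl⟩, a * (b ^ p)⁻¹, ?_, by simp⟩
    rw [mem_comap]
    have : d (a * (b ^ p)⁻¹) = d a * (y ^ p)⁻¹ * w' ^ p := by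
      rw [← hy, map_mul, map_inv, map_pow]
      apply Additive.ofMul.injective
      simp only [ofMul_mul, ofMul_inv, ofMul_pow, smul_add]
      abel
    rw [this]
    exact mul_mem hw (pow_mem hw' p)

/-- `[Sel : E · k^p] = [M : D]`, where `D = d(k) · JS · US` and `M = {y | y ^ p ∈ D}`. -/
theorem relIndex_EP_Sel (hTF : ∀ x : J, x ^ p ∈ JS ⊔ US → x ∈ JS ⊔ US) :
    ((powMonoidHom p : k →* k).range ⊔ (JS ⊔ US).comap d).relIndex
        ((JS ⊔ US ⊔ (powMonoidHom p : J →* J).range).comap d) =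
      (d.range ⊔ JS ⊔ US).relIndex ((d.range ⊔ JS ⊔ US).comap (powMonoidHom p)) := by
  rw [← map_fst_gamma, ← relIndex_comap, ← inf_relIndex_right, comap_fst_inf_gamma d JS US p hTF,
    inf_relIndex_right, relIndex_comap, map_snd_gamma]

/-- `[M : D] = [J : D · J^p]` when `J / D` is finite. -/
theorem relIndex_D_M (D : Subgroup J) (hD : D.index ≠ 0) :
    D.relIndex (D.comap (powMonoidHom p)) = (D ⊔ (powMonoidHom p : J →* J).range).index := by
  have hfin : Finite (J ⧸ D) := index_ne_zero_iff_finite.mp hD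
  set π : J →* J ⧸ D := QuotientGroup.mk' D with hπ
  have hπs : Function.Surjective π := QuotientGroup.mk'_surjective D
  set f : (J ⧸ D) →* (J ⧸ D) := powMonoidHom p with hf
  have h1 : D.comap (powMonoidHom p) = f.ker.comap π := by
    ext y
    rw [mem_comap, mem_comap, MonoidHom.mem_ker, hf, powMonoidHom_apply, powMonoidHom_apply,
      ← map_pow, hπ, QuotientGroup.mk'_apply, QuotientGroup.eq_one_iff]
  have h2 : D = (⊥ : Subgroup (J ⧸ D)).comap π := by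
    rw [MonoidHom.comap_bot, hπ, QuotientGroup.ker_mk']
  have h3 : D ⊔ (powMonoidHom p : J →* J).range = f.range.comap π := by
    ext x
    rw [mem_comap, Subgroup.mem_sup]
    constructor
    · rintro ⟨w, hw, _, ⟨y, rfl⟩, rfl⟩
      refine ⟨π y, ?_⟩
      have hw1 : π w = 1 := (QuotientGroup.eq_one_iff w).mpr hw
      show (π y) ^ p = π (w * y ^ p)
      rw [map_mul, map_pow, hw1, one_mul]
    · rintro ⟨q, hq⟩
      obtain ⟨y, rfl⟩ := hπs q
      rw [hf, powMonoidHom_apply, ← map_pow, hπ, QuotientGroup.mk'_apply,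
        QuotientGroup.mk'_apply, QuotientGroup.eq] at hq
      refine ⟨x * (y ^ p)⁻¹, ?_, y ^ p, ⟨y, rfl⟩, by simp⟩
      have : x * (y ^ p)⁻¹ = ((y ^ p)⁻¹ * x) := mul_comm _ _
      rw [this]
      exact hq
  have h4 : D.relIndex (D.comap (powMonoidHom p)) = Nat.card f.ker := by
    have e : ((⊥ : Subgroup (J ⧸ D)).comap π).relIndex (f.ker.comap π) = Nat.card f.ker := by
      rw [relIndex_comap, map_comap_eq_self_of_surjective hπs, relIndex_bot_left]
    rw [h1]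
    exact (congrArg (fun H : Subgroup J => H.relIndex (f.ker.comap π)) h2).trans e
  rw [h4, h3, index_comap_of_surjective _ hπs, index_range]

/-- **The count [EX.a]**: `[J : A] · [J : B] = [Sel : k^p] · [V : k^p]`, all four numbers
being nonzero. -/
theorem index_mul_index_eq (s : ℕ) (hp : p ≠ 0)
    (hπ_mem : ∀ x, πS x ∈ JS) (hπ_JS : ∀ x ∈ JS, πS x = x) (hπ_US : ∀ x ∈ US, πS x = 1)
    (hTF : ∀ x : J, x ^ p ∈ JS ⊔ US → x ∈ JS ⊔ US)
    (hE : (((JS ⊔ US).comap d).map (powMonoidHom p)).relIndex ((JS ⊔ US).comap d) = p ^ s)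
    (hJS : (JS.map (powMonoidHom p)).relIndex JS = p ^ (2 * s))
    (hCl : (d.range ⊔ JS ⊔ US).index ≠ 0) :
    (d.range ⊔ US ⊔ (powMonoidHom p : J →* J).range).index *
        (d.range ⊔ JS ⊔ US ⊔ (powMonoidHom p : J →* J).range).index =
      (powMonoidHom p : k →* k).range.relIndex
          ((JS ⊔ US ⊔ (powMonoidHom p : J →* J).range).comap d) *
        (powMonoidHom p : k →* k).range.relIndex
          ((US ⊔ (powMonoidHom p : J →* J).range).comap d) ∧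
      (d.range ⊔ US ⊔ (powMonoidHom p : J →* J).range).index ≠ 0 ∧
      (d.range ⊔ JS ⊔ US ⊔ (powMonoidHom p : J →* J).range).index ≠ 0 ∧
      (powMonoidHom p : k →* k).range.relIndex
          ((JS ⊔ US ⊔ (powMonoidHom p : J →* J).range).comap d) ≠ 0 ∧
      (powMonoidHom p : k →* k).range.relIndex
          ((US ⊔ (powMonoidHom p : J →* J).range).comap d) ≠ 0 := by
  -- the structural identities
  have k1 := A_inf_JS d JS US πS p hπ_mem hπ_JS hπ_US
  have k2 := JSp_inf_locSel d JS US πS p hπ_mem hπ_JS hπ_US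
  have k3 := comap_map_V_inf_Sel d JS US πS p hπ_mem hπ_JS hπ_US
  have k4 := Pw_inf_E d JS US p hTF
  have k5 := relIndex_EP_Sel d JS US p hTF
  have k6 := relIndex_D_M p (d.range ⊔ JS ⊔ US) hCl
  have hAB : d.range ⊔ US ⊔ (powMonoidHom p : J →* J).range ≤
      d.range ⊔ JS ⊔ US ⊔ (powMonoidHom p : J →* J).range :=
    sup_le_sup_right (sup_le (le_sup_of_le_left le_sup_left) le_sup_right) _
  have hB' : d.range ⊔ JS ⊔ US ⊔ (powMonoidHom p : J →* J).range =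
      d.range ⊔ US ⊔ (powMonoidHom p : J →* J).range ⊔ JS := by
    apply le_antisymm
    · refine sup_le (sup_le (sup_le ?_ le_sup_right) ?_) ?_
      · exact le_sup_of_le_left (le_sup_of_le_left le_sup_left)
      · exact le_sup_of_le_left (le_sup_of_le_left le_sup_right)
      · exact le_sup_of_le_left le_sup_right
    · exact sup_le hAB (le_sup_of_le_left (le_sup_of_le_left le_sup_right))
  have hVS : (US ⊔ (powMonoidHom p : J →* J).range).comap d ≤
      (JS ⊔ US ⊔ (powMonoidHom p : J →* J).range).comap d :=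
    comap_mono (sup_le_sup_right le_sup_right _)
  have hPwV : (powMonoidHom p : k →* k).range ≤
      (US ⊔ (powMonoidHom p : J →* J).range).comap d := by
    rintro _ ⟨b, rfl⟩
    rw [mem_comap, powMonoidHom_apply, map_pow]
    exact mem_sup_right ⟨d b, rfl⟩
  have hES : (JS ⊔ US).comap d ≤ (JS ⊔ US ⊔ (powMonoidHom p : J →* J).range).comap d :=
    comap_mono le_sup_left
  have hDB : d.range ⊔ JS ⊔ US ≤ d.range ⊔ JS ⊔ US ⊔ (powMonoidHom p : J →* J).range :=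
    le_sup_left
  have hT2 : JS.map (powMonoidHom p) ⊔
      ((JS ⊔ US ⊔ (powMonoidHom p : J →* J).range).comap d).map (πS.comp d) ≤ JS := by
    refine sup_le ?_ ?_
    · rintro _ ⟨z, hz, rfl⟩
      exact pow_mem hz p
    · rintro _ ⟨a, -, rfl⟩
      exact hπ_mem _
  -- abbreviations
  set Jp : Subgroup J := (powMonoidHom p : J →* J).range with hJp
  set Pw : Subgroup k := (powMonoidHom p : k →* k).range with hPw
  set D : Subgroup J := d.range ⊔ JS ⊔ US with hD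
  set B : Subgroup J := D ⊔ Jp with hB
  set A : Subgroup J := d.range ⊔ US ⊔ Jp with hA
  set Sel : Subgroup k := (JS ⊔ US ⊔ Jp).comap d with hSel
  set V : Subgroup k := (US ⊔ Jp).comap d with hV
  set E : Subgroup k := (JS ⊔ US).comap d with hEdef
  set loc : k →* J := πS.comp d with hloc
  set JSp : Subgroup J := JS.map (powMonoidHom p) with hJSp
  -- (1) and (2)
  have h1 : A.relIndex B * B.index = A.index := relIndex_mul_index hAB
  have h2 : A.relIndex B = (JSp ⊔ Sel.map loc).relIndex JS := by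
    rw [hB', relIndex_sup_left, ← inf_relIndex_right (H := A) (K := JS), k1]
  -- (3)
  have h3 : JSp.relIndex (JSp ⊔ Sel.map loc) * (JSp ⊔ Sel.map loc).relIndex JS =
      p ^ (2 * s) := by
    rw [relIndex_mul_relIndex _ _ _ le_sup_left hT2, hJS]
  have h3' : JSp.relIndex (JSp ⊔ Sel.map loc) = V.relIndex Sel := by
    rw [relIndex_sup_left, ← inf_relIndex_right (H := JSp) (K := Sel.map loc), k2,
      ← relIndex_comap, ← inf_relIndex_right (H := (V.map loc).comap loc) (K := Sel), k3]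
  -- (4)
  have h4 : Pw.relIndex V * V.relIndex Sel = Pw.relIndex Sel :=
    relIndex_mul_relIndex _ _ _ hPwV hVS
  -- (5)
  have h5a : Pw.relIndex (Pw ⊔ E) = p ^ s := by
    rw [relIndex_sup_left, ← inf_relIndex_right (H := Pw) (K := E), k4, hE]
  have h5b : (Pw ⊔ E).relIndex Sel = B.index := by
    rw [k5, k6]
  have h5 : Pw.relIndex Sel = p ^ s * B.index := by
    rw [← relIndex_mul_relIndex _ _ _ (le_sup_left : Pw ≤ Pw ⊔ E) (sup_le (hPwV.trans hVS) hES),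
      h5a, h5b]
  -- nonvanishing
  have hps : p ^ s ≠ 0 := pow_ne_zero _ hp
  have hp2s : p ^ (2 * s) ≠ 0 := pow_ne_zero _ hp
  have hBne : B.index ≠ 0 := by
    intro h0
    have := index_dvd_of_le hDB
    rw [h0] at this
    exact hCl (Nat.eq_zero_of_zero_dvd this)
  have hσ : Pw.relIndex Sel ≠ 0 := by
    rw [h5]
    exact mul_ne_zero hps hBne
  have hx : V.relIndex Sel ≠ 0 := by
    intro h0
    rw [h0, mul_zero] at h4
    exact hσ h4.symm
  have hv : Pw.relIndex V ≠ 0 := by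
    intro h0
    rw [h0, zero_mul] at h4
    exact hσ h4.symm
  have ht : (JSp ⊔ Sel.map loc).relIndex JS ≠ 0 := by
    intro h0
    rw [h0, mul_zero] at h3
    exact hp2s h3.symm
  have hAne : A.index ≠ 0 := by
    rw [← h1, h2]
    exact mul_ne_zero ht hBne
  refine ⟨?_, hAne, hBne, hσ, hv⟩
  -- the final computation
  apply Nat.eq_of_mul_eq_mul_right (Nat.pos_of_ne_zero hx)
  rw [h3'] at h3
  calc A.index * B.index * V.relIndex Sel
      = (V.relIndex Sel * (JSp ⊔ Sel.map loc).relIndex JS) * (B.index * B.index) := by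
        rw [← h1, h2]
        ring
    _ = p ^ (2 * s) * (B.index * B.index) := by rw [h3]
    _ = (p ^ s * B.index) * (p ^ s * B.index) := by ring
    _ = Pw.relIndex Sel * (Pw.relIndex V * V.relIndex Sel) := by rw [h4, h5]
    _ = Pw.relIndex Sel * Pw.relIndex V * V.relIndex Sel := by ring

end Abstract

end Fermat.Agent.CFT.Global.ExistCount
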