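/-
CFT program (P3), layer Global, package [EX] (existence theorem mod `p`), leaf [EX.a]:
the count `ExistPlan.Count` (helper28).

`|C_S/p| · |C_S/(p·C_S + im J_S)| = [Sel : Pw] · [V : Pw]`, all numbers finite, for a number
field `L ∋ ζ_p`, `p` odd, `p ∈ S`.

This file instantiates the abstract count `ExistCount.index_mul_index_eq` with
`J = finIdele L`, `d = principal L`, `JS = supportedOn L S`, `US = unitsOutside L S` and the
truncation `J → J_S`, and plugs in the three landed inputs:

* `SUnitPlan.sUnitCount`            `[E_S : E_S^p] = p^s`;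
* `L7LocalIndex.localIndex`         `[J_S : J_S^p] = p^(2s)`;
* `IdeleStructure.classGroupFinite` `J / (Lˣ · J_S · U^S)` is finite.
-/
import Mathlib
import Fermat.Agent.CFT.Global.Defs
import Fermat.Agent.CFT.Global.ExistPlan
import Fermat.Agent.CFT.Global.ExistCount
import Fermat.Agent.CFT.Global.IdeleStructure
import Fermat.Agent.CFT.Global.L7Dict
import Fermat.Agent.CFT.Global.L7LocalIndex
import Fermat.Agent.CFT.Global.SUnitPlan

set_option autoImplicit false

open scoped Fermat.Agent.CFT.Global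

noncomputable section

namespace Fermat.Agent.CFT.Global.ExistCountInst

open Fermat.Agent.CFT.Global Fermat.Agent.CFT.Global.ExistPlan

/-! ### Torsion-freeness of `A_q(L)ˣ / U_q(L)` -/

section Local

variable (L : Type) [Field L] [CharZero L] (q : ℕ) [Fact q.Prime]

theorem isInt_of_pow {n : ℕ} (hn : 0 < n) {x : SemiLocal L q} (h : IsInt L q (x ^ n)) :
    IsInt L q x := by
  let _ : Algebra ℤ_[q] (SemiLocal L q) := (intHom L q).toAlgebra
  have h' : IsIntegral ℤ_[q] (x ^ n) := h
  exact IsIntegral.of_pow hn h'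

theorem mem_localUnits_of_pow_mem {n : ℕ} (hn : 0 < n) {y : (SemiLocal L q)ˣ}
    (h : y ^ n ∈ localUnits L q) : y ∈ localUnits L q := by
  obtain ⟨h1, h2⟩ := h
  refine ⟨isInt_of_pow L q hn ?_, isInt_of_pow L q hn ?_⟩
  · rwa [Units.val_pow_eq_pow_val] at h1
  · rwa [← inv_pow, Units.val_pow_eq_pow_val] at h2

end Local

/-! ### The instantiation data -/

section Setup

variable (L : Type) [Field L] [NumberField L] (S : Finset Nat.Primes)

/-- The principal ideles, as a map into the finite ideles. -/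
def prin : Lˣ →* ↥(finIdele L) :=
  (principal L).codRestrict (finIdele L) (fun a => IdeleStructure.principalLe L ⟨a, rfl⟩)

theorem prin_apply (a : Lˣ) (q : Nat.Primes) :
    (prin L a : IdeleProd L) q = principal L a q := rfl

theorem range_prin : (prin L).range = (principal L).range.subgroupOf (finIdele L) := by
  ext x
  constructor
  · rintro ⟨a, rfl⟩
    exact ⟨a, rfl⟩
  · rintro ⟨a, ha⟩
    exact ⟨a, Subtype.ext ha⟩

/-- `J_S(L)` inside the finite ideles. -/
def JSf : Subgroup ↥(finIdele L) := (supportedOn L S).subgroupOf (finIdele L)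

/-- `U^S(L)` inside the finite ideles. -/
def USf : Subgroup ↥(finIdele L) := (unitsOutside L S).subgroupOf (finIdele L)

theorem mem_JSf {x : ↥(finIdele L)} :
    x ∈ JSf L S ↔ ∀ q : Nat.Primes, q ∉ S → (x : IdeleProd L) q = 1 := Iff.rfl

theorem mem_USf {x : ↥(finIdele L)} :
    x ∈ USf L S ↔ (∀ q : Nat.Primes, (x : IdeleProd L) q ∈ localUnits L q) ∧
      ∀ q ∈ S, (x : IdeleProd L) q = 1 := Iff.rfl

/-- The truncation `∏_q A_q(L)ˣ → J_S(L)`. -/
def truncProd : IdeleProd L →* IdeleProd L where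
  toFun x := fun q => if q ∈ S then x q else 1
  map_one' := by
    funext q
    by_cases h : q ∈ S <;> simp [h]
  map_mul' x y := by
    funext q
    by_cases h : q ∈ S <;> simp [h]

theorem truncProd_apply_of_mem (x : IdeleProd L) {q : Nat.Primes} (h : q ∈ S) :
    truncProd L S x q = x q := if_pos h

theorem truncProd_apply_of_notMem (x : IdeleProd L) {q : Nat.Primes} (h : q ∉ S) :
    truncProd L S x q = 1 := if_neg h

theorem truncProd_mem_supportedOn (x : IdeleProd L) : truncProd L S x ∈ supportedOn L S :=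
  fun _ hq => truncProd_apply_of_notMem L S x hq

/-- The truncation `J_L → J_S(L)`, as an endomorphism of the finite ideles. -/
def truncS : ↥(finIdele L) →* ↥(finIdele L) :=
  ((truncProd L S).comp (finIdele L).subtype).codRestrict (finIdele L)
    (fun x => supportedOn_le_finIdele L S (truncProd_mem_supportedOn L S x))

theorem truncS_apply (x : ↥(finIdele L)) :
    (truncS L S x : IdeleProd L) = truncProd L S (x : IdeleProd L) := rfl

theorem truncS_mem (x : ↥(finIdele L)) : truncS L S x ∈ JSf L S :=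
  truncProd_mem_supportedOn L S _

theorem truncS_of_mem (x : ↥(finIdele L)) (hx : x ∈ JSf L S) : truncS L S x = x := by
  apply Subtype.ext
  funext q
  rw [truncS_apply]
  by_cases h : q ∈ S
  · exact truncProd_apply_of_mem L S _ h
  · rw [truncProd_apply_of_notMem L S _ h]
    exact (hx q h).symm

theorem truncS_of_mem_USf (x : ↥(finIdele L)) (hx : x ∈ USf L S) : truncS L S x = 1 := by
  apply Subtype.ext
  funext q
  rw [truncS_apply]
  by_cases h : q ∈ S
  · rw [truncProd_apply_of_mem L S _ h]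
    exact hx.2 q h
  · rw [truncProd_apply_of_notMem L S _ h]
    rfl

/-- `J_S · U^S` is the group of finite ideles which are units outside `S`. -/
theorem mem_JSf_sup_USf {x : ↥(finIdele L)} :
    x ∈ JSf L S ⊔ USf L S ↔
      ∀ q : Nat.Primes, q ∉ S → (x : IdeleProd L) q ∈ localUnits L q := by
  constructor
  · intro hx q hq
    obtain ⟨j, hj, u, hu, rfl⟩ := Subgroup.mem_sup.mp hx
    have h1 : ((j * u : ↥(finIdele L)) : IdeleProd L) q =
        (j : IdeleProd L) q * (u : IdeleProd L) q := rfl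
    have h2 : (j : IdeleProd L) q = 1 := hj q hq
    rw [h1, h2, one_mul]
    exact hu.1 q
  · intro h
    have hx : x = truncS L S x * (x * (truncS L S x)⁻¹) := by
      rw [mul_comm x, mul_inv_cancel_left]
    rw [hx]
    refine Subgroup.mul_mem_sup (truncS_mem L S x) ⟨fun q => ?_, fun q hq => ?_⟩
    · show (x : IdeleProd L) q * (truncProd L S (x : IdeleProd L) q)⁻¹ ∈ localUnits L q
      by_cases hq : q ∈ S
      · rw [truncProd_apply_of_mem L S _ hq, mul_inv_cancel]
        exact one_mem _
      · rw [truncProd_apply_of_notMem L S _ hq, inv_one, mul_one]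
        exact h q hq
    · show (x : IdeleProd L) q * (truncProd L S (x : IdeleProd L) q)⁻¹ = 1
      rw [truncProd_apply_of_mem L S _ hq, mul_inv_cancel]

/-- Torsion-freeness of `J / (J_S · U^S)`. -/
theorem mem_of_pow_mem (p : ℕ) (hp : 0 < p) (x : ↥(finIdele L))
    (h : x ^ p ∈ JSf L S ⊔ USf L S) : x ∈ JSf L S ⊔ USf L S := by
  rw [mem_JSf_sup_USf] at h ⊢
  intro q hq
  exact mem_localUnits_of_pow_mem L q hp (h q hq)

theorem comap_prin_eq_sUnits : (JSf L S ⊔ USf L S).comap (prin L) = sUnits L S := by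
  ext a
  rw [Subgroup.mem_comap, mem_JSf_sup_USf]
  rfl

/-! ### The three inputs -/

theorem index_sUnits (p : ℕ) (hp : p ≠ 0) (ζ : L) (hζ : IsPrimitiveRoot ζ p) :
    (((JSf L S ⊔ USf L S).comap (prin L)).map (powMonoidHom p)).relIndex
      ((JSf L S ⊔ USf L S).comap (prin L)) = p ^ L7.Plan.sExp L S := by
  rw [comap_prin_eq_sUnits, ← ExistCount.range_powMonoidHom_index]
  exact SUnitPlan.sUnitCount L p hp ζ hζ S

theorem index_JSf (p : ℕ) (hp : p.Prime) (hp2 : p ≠ 2) (hpS : ∃ q ∈ S, (q : ℕ) = p) (ζ : L)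
    (hζ : IsPrimitiveRoot ζ p) :
    ((JSf L S).map (powMonoidHom p)).relIndex (JSf L S) = p ^ (2 * L7.Plan.sExp L S) := by
  rw [← ExistCount.range_powMonoidHom_index]
  have e : ↥(JSf L S) ≃* ↥(supportedOn L S) :=
    Subgroup.subgroupOfEquivOfLe (supportedOn_le_finIdele L S)
  rw [L7LocalIndex.index_range_pow_mulEquiv e p]
  have hS : ∀ hp' : p.Prime, (⟨p, hp'⟩ : Nat.Primes) ∈ S := by
    intro hp'
    obtain ⟨q, hq, hqp⟩ := hpS
    have hq' : q = ⟨p, hp'⟩ := Subtype.ext hqp
    rwa [← hq']
  exact L7LocalIndex.localIndex p hp L ζ hζ hp2 S hS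

theorem index_classGroup : ((prin L).range ⊔ JSf L S ⊔ USf L S).index ≠ 0 := by
  have h := IdeleStructure.classGroupFinite L S
  rw [Subgroup.relIndex, Subgroup.subgroupOf_sup
    (sup_le (IdeleStructure.principalLe L) (supportedOn_le_finIdele L S))
    (unitsOutside_le_finIdele L S),
    Subgroup.subgroupOf_sup (IdeleStructure.principalLe L) (supportedOn_le_finIdele L S)] at h
  rw [range_prin]
  exact h

/-! ### Bridges: `Sel` and `Vgrp` -/

theorem comap_eq_Sel (p : ℕ) :
    (JSf L S ⊔ USf L S ⊔ (powMonoidHom p : ↥(finIdele L) →* ↥(finIdele L)).range).comap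
      (prin L) = Sel p L S := by
  classical
  ext a
  rw [Subgroup.mem_comap, mem_Sel]
  constructor
  · intro h q hq
    obtain ⟨w, hw, z, ⟨y, rfl⟩, hwz⟩ := Subgroup.mem_sup.mp h
    refine ⟨(w : IdeleProd L) q, (mem_JSf_sup_USf L S).mp hw q hq, (y : IdeleProd L) q, ?_⟩
    have h1 := congrArg (fun t : ↥(finIdele L) => (t : IdeleProd L) q) hwz
    exact h1.symm
  · intro h
    choose u hu y hy using h
    let Y : IdeleProd L := fun q =>
      if hq : q ∉ S ∧ principal L a q ∉ localUnits L q then y q hq.1 else 1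
    have hY : Y ∈ finIdele L := by
      have hfin : principal L a ∈ finIdele L := IdeleStructure.principalLe L ⟨a, rfl⟩
      refine Set.Finite.subset hfin ?_
      intro q hq
      by_contra hcon
      apply hq
      have h1 : Y q = 1 := dif_neg (fun h' => hcon h'.2)
      rw [h1]
      exact one_mem _
    have hdec : prin L a = (prin L a * ((⟨Y, hY⟩ : ↥(finIdele L)) ^ p)⁻¹) *
        (powMonoidHom p (⟨Y, hY⟩ : ↥(finIdele L))) := by
      rw [powMonoidHom_apply, inv_mul_cancel_right]
    rw [hdec]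
    refine Subgroup.mul_mem_sup ?_ ⟨_, rfl⟩
    rw [mem_JSf_sup_USf]
    intro q hq
    show principal L a q * ((Y q) ^ p)⁻¹ ∈ localUnits L q
    by_cases hcase : principal L a q ∈ localUnits L q
    · have h1 : Y q = 1 := dif_neg (fun h' => h'.2 hcase)
      rw [h1, one_pow, inv_one, mul_one]
      exact hcase
    · have h1 : Y q = y q hq := dif_pos ⟨hq, hcase⟩
      rw [h1, hy q hq, mul_inv_cancel_right]
      exact hu q hq

theorem comap_eq_Vgrp (p : ℕ) :
    (USf L S ⊔ (powMonoidHom p : ↥(finIdele L) →* ↥(finIdele L)).range).comap (prin L) =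
      Vgrp p L S := by
  classical
  ext a
  rw [mem_Vgrp, ← comap_eq_Sel]
  have key := fun ha => ExistCount.mem_V_iff_of_mem_Sel (prin L) (JSf L S) (USf L S)
    (truncS L S) p (truncS_mem L S) (truncS_of_mem L S) (truncS_of_mem_USf L S) (a := a) ha
  constructor
  · intro h
    have hSel : a ∈ (JSf L S ⊔ USf L S ⊔
        (powMonoidHom p : ↥(finIdele L) →* ↥(finIdele L)).range).comap (prin L) :=
      Subgroup.comap_mono (sup_le (le_sup_of_le_left le_sup_right) le_sup_right) h
    refine ⟨hSel, ?_⟩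
    obtain ⟨z, -, hzp⟩ := (key hSel).mp h
    intro q hq
    refine ⟨(z : IdeleProd L) q, ?_⟩
    have h1 := congrArg (fun t : ↥(finIdele L) => (t : IdeleProd L) q) hzp
    have h2 : (truncS L S (prin L a) : IdeleProd L) q = principal L a q :=
      truncProd_apply_of_mem L S _ hq
    exact h2.symm.trans h1.symm
  · rintro ⟨hSel, hV⟩
    rw [key hSel]
    choose y hy using hV
    let Z : IdeleProd L := fun q => if hq : q ∈ S then y q hq else 1
    have hZ : Z ∈ supportedOn L S := fun q hq => dif_neg hq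
    refine ⟨⟨Z, supportedOn_le_finIdele L S hZ⟩, hZ, ?_⟩
    apply Subtype.ext
    funext q
    show (Z q) ^ p = truncProd L S (principal L a) q
    by_cases hq : q ∈ S
    · rw [truncProd_apply_of_mem L S _ hq, show Z q = y q hq from dif_pos hq, hy q hq]
    · rw [truncProd_apply_of_notMem L S _ hq, show Z q = 1 from dif_neg hq, one_pow]

/-! ### Bridges: the subgroups of `C_S(L)` -/

/-- The projection `J_L → C_S(L)`, written multiplicatively. -/
def toClass : ↥(finIdele L) →* Multiplicative (ClassGroupSOf L S) where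
  toFun x := Multiplicative.ofAdd (mkS L S (x : IdeleProd L) x.2)
  map_one' := rfl
  map_mul' _ _ := rfl

theorem toClass_surjective : Function.Surjective (toClass L S) := by
  intro c
  obtain ⟨x, hx⟩ := Submodule.Quotient.mk_surjective _ (Multiplicative.toAdd c)
  exact ⟨⟨Additive.toMul (x : Additive (IdeleProd L)), x.2⟩, congrArg Multiplicative.ofAdd hx⟩

theorem toClass_eq_one_iff {x : ↥(finIdele L)} :
    toClass L S x = 1 ↔ (x : IdeleProd L) ∈ (principal L).range ⊔ unitsOutside L S := by
  have h : toClass L S x = 1 ↔ mkS L S (x : IdeleProd L) x.2 = 0 := Iff.rfl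
  rw [h, mkS, Submodule.Quotient.mk_eq_zero]
  rfl

theorem ker_toClass : (toClass L S).ker = (prin L).range ⊔ USf L S := by
  rw [range_prin, USf, ← Subgroup.subgroupOf_sup (IdeleStructure.principalLe L)
    (unitsOutside_le_finIdele L S)]
  ext x
  rw [MonoidHom.mem_ker, toClass_eq_one_iff, Subgroup.mem_subgroupOf]

theorem toSubgroup_pMul (p : ℕ) :
    AddSubgroup.toSubgroup (pMul p L S) =
      (powMonoidHom p : Multiplicative (ClassGroupSOf L S) →* _).range := by
  ext x
  constructor
  · rintro ⟨y, hy⟩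
    exact ⟨Multiplicative.ofAdd y, congrArg Multiplicative.ofAdd hy⟩
  · rintro ⟨y, hy⟩
    exact ⟨Multiplicative.toAdd y, congrArg Multiplicative.toAdd hy⟩

theorem toSubgroup_sImage :
    AddSubgroup.toSubgroup (sImage L S) = (JSf L S).map (toClass L S) := by
  ext x
  constructor
  · rintro ⟨j, hj, hx⟩
    exact ⟨⟨j, supportedOn_le_finIdele L S hj⟩, hj, (congrArg Multiplicative.ofAdd hx).symm⟩
  · rintro ⟨j, hj, rfl⟩
    exact ⟨(j : IdeleProd L), hj, rfl⟩

end Setup

/-! ### Generic: preimage of the `p`-th powers under a surjection -/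

theorem comap_range_pow {J M : Type*} [CommGroup J] [CommGroup M] (φ : J →* M)
    (hφ : Function.Surjective φ) (p : ℕ) :
    (powMonoidHom p : M →* M).range.comap φ = φ.ker ⊔ (powMonoidHom p : J →* J).range := by
  ext x
  rw [Subgroup.mem_comap]
  constructor
  · rintro ⟨m, hm⟩
    obtain ⟨y, rfl⟩ := hφ m
    have hx : x = (x * (y ^ p)⁻¹) * powMonoidHom p y := by
      rw [powMonoidHom_apply, inv_mul_cancel_right]
    rw [hx]
    refine Subgroup.mul_mem_sup ?_ ⟨y, rfl⟩
    rw [MonoidHom.mem_ker, map_mul, map_inv, map_pow]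
    rw [powMonoidHom_apply] at hm
    rw [← hm, mul_inv_cancel]
  · intro hx
    obtain ⟨w, hw, z, ⟨y, rfl⟩, rfl⟩ := Subgroup.mem_sup.mp hx
    refine ⟨φ y, ?_⟩
    rw [map_mul, MonoidHom.mem_ker.mp hw, one_mul, powMonoidHom_apply, powMonoidHom_apply,
      map_pow]

section Main

variable (L : Type) [Field L] [NumberField L] (S : Finset Nat.Primes)

theorem index_pMul (p : ℕ) :
    (pMul p L S).index =
      ((prin L).range ⊔ USf L S ⊔
        (powMonoidHom p : ↥(finIdele L) →* ↥(finIdele L)).range).index := by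
  rw [← AddSubgroup.index_toSubgroup, toSubgroup_pMul,
    ← Subgroup.index_comap_of_surjective _ (toClass_surjective L S),
    comap_range_pow _ (toClass_surjective L S), ker_toClass]

theorem index_pMul_sup_sImage (p : ℕ) :
    (pMul p L S ⊔ sImage L S).index =
      ((prin L).range ⊔ JSf L S ⊔ USf L S ⊔
        (powMonoidHom p : ↥(finIdele L) →* ↥(finIdele L)).range).index := by
  have hsurj := toClass_surjective L S
  have h1 : AddSubgroup.toSubgroup (pMul p L S ⊔ sImage L S) =
      (powMonoidHom p : Multiplicative (ClassGroupSOf L S) →* _).range ⊔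
        (JSf L S).map (toClass L S) := by
    rw [← toSubgroup_pMul, ← toSubgroup_sImage]
    exact map_sup _ _ _
  have h2 : ((powMonoidHom p : Multiplicative (ClassGroupSOf L S) →* _).range ⊔
      (JSf L S).map (toClass L S)).comap (toClass L S) =
      (prin L).range ⊔ JSf L S ⊔ USf L S ⊔
        (powMonoidHom p : ↥(finIdele L) →* ↥(finIdele L)).range := by
    rw [← Subgroup.comap_sup_eq _ _ _ hsurj, comap_range_pow _ hsurj, Subgroup.comap_map_eq,
      ker_toClass]
    generalize (prin L).range = P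
    generalize JSf L S = A
    generalize USf L S = U
    generalize (powMonoidHom p : ↥(finIdele L) →* ↥(finIdele L)).range = Q
    have hP : P ≤ P ⊔ A ⊔ U ⊔ Q := le_sup_of_le_left (le_sup_of_le_left le_sup_left)
    have hA : A ≤ P ⊔ A ⊔ U ⊔ Q := le_sup_of_le_left (le_sup_of_le_left le_sup_right)
    have hU : U ≤ P ⊔ A ⊔ U ⊔ Q := le_sup_of_le_left le_sup_right
    have hQ : Q ≤ P ⊔ A ⊔ U ⊔ Q := le_sup_right
    have hP' : P ≤ P ⊔ U ⊔ Q ⊔ (A ⊔ (P ⊔ U)) :=
      le_sup_of_le_left (le_sup_of_le_left le_sup_left)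
    have hA' : A ≤ P ⊔ U ⊔ Q ⊔ (A ⊔ (P ⊔ U)) := le_sup_of_le_right le_sup_left
    have hU' : U ≤ P ⊔ U ⊔ Q ⊔ (A ⊔ (P ⊔ U)) :=
      le_sup_of_le_left (le_sup_of_le_left le_sup_right)
    have hQ' : Q ≤ P ⊔ U ⊔ Q ⊔ (A ⊔ (P ⊔ U)) := le_sup_of_le_left le_sup_right
    exact le_antisymm (sup_le (sup_le (sup_le hP hU) hQ) (sup_le hA (sup_le hP hU)))
      (sup_le (sup_le (sup_le hP' hA') hU') hQ')
  rw [← AddSubgroup.index_toSubgroup, h1, ← Subgroup.index_comap_of_surjective _ hsurj, h2]

/-- **[EX.a] the count** `|C_S/p| · |C_S/(p·C_S + im J_S)| = [Sel : Pw] · [V : Pw]`. -/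
theorem count : ExistPlan.Count := by
  intro p _ hp2 L _ _ S hpS hζ
  obtain ⟨ζ, hζ⟩ := hζ
  have hp : p.Prime := Fact.out
  obtain ⟨h1, h2, -, h4, h5⟩ := ExistCount.index_mul_index_eq (prin L) (JSf L S) (USf L S)
    (truncS L S) p (L7.Plan.sExp L S) hp.ne_zero (truncS_mem L S) (truncS_of_mem L S)
    (truncS_of_mem_USf L S) (mem_of_pow_mem L S p hp.pos)
    (index_sUnits L S p hp.ne_zero ζ hζ) (index_JSf L S p hp hp2 hpS ζ hζ)
    (index_classGroup L S)
  rw [comap_eq_Sel, comap_eq_Vgrp, ← index_pMul, ← index_pMul_sup_sImage] at h1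
  rw [← index_pMul] at h2
  rw [comap_eq_Sel] at h4
  rw [comap_eq_Vgrp] at h5
  exact ⟨h1, h2, h4, h5⟩

end Main

end Fermat.Agent.CFT.Global.ExistCountInst
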