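/-
CFT program (P3), Global layer, leaf [EX.b] (helper32): MULTI-KUMMER theory.

For a field `K ∋ ζ_p` and a subgroup `Kˣᵖ ≤ Δ ≤ Kˣ` of finite index over `Kˣᵖ`, the field
`K(Δ^{1/p})` is Galois over `K` with abelian Galois group of exponent dividing `p` and of order
`[Δ : Kˣᵖ]`; moreover `Kˣ ∩ (K(Δ^{1/p})ˣ)ᵖ = Δ`.  Mathlib only (no Kummer tower: the count is
done by the Kummer pairing and the duality of finite abelian groups).
-/
import Mathlib

set_option autoImplicit false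
set_option linter.unusedSectionVars false
set_option linter.unusedVariables false

namespace Fermat.Agent.CFT.Global.KummerMulti

open Polynomial

noncomputable section

section Abstract

variable {K L : Type*} [Field K] [Field L] [Algebra K L]

/-! ### Roots of unity are fixed -/

theorem apply_eq_of_pow_eq_one {p : ℕ} (hp : p ≠ 0) {ζ : K} (hζ : IsPrimitiveRoot ζ p)
    (σ : L ≃ₐ[K] L) {z : L} (hz : z ^ p = 1) : σ z = z := by
  have : NeZero p := ⟨hp⟩
  have hζL : IsPrimitiveRoot (algebraMap K L ζ) p :=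
    hζ.map_of_injective (algebraMap K L).injective
  obtain ⟨i, -, rfl⟩ := hζL.eq_pow_of_pow_eq_one hz
  rw [map_pow, AlgEquiv.commutes]

/-- `σ b / b` is a `p`-th root of unity when `b ^ p ∈ K`. -/
theorem div_pow_eq_one {p : ℕ} (σ : L ≃ₐ[K] L) {b : L} (hb0 : b ≠ 0) {a : K}
    (hb : b ^ p = algebraMap K L a) : (σ b / b) ^ p = 1 := by
  rw [div_pow, ← map_pow, hb, AlgEquiv.commutes]
  exact div_self (by rw [← hb]; exact pow_ne_zero _ hb0)

theorem apply_eq_div_mul (σ : L ≃ₐ[K] L) {b : L} (hb0 : b ≠ 0) : σ b = σ b / b * b :=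
  (div_mul_cancel₀ _ hb0).symm

/-- automorphisms commute on radicals. -/
theorem apply_apply_comm {p : ℕ} (hp : p ≠ 0) {ζ : K} (hζ : IsPrimitiveRoot ζ p)
    (σ τ : L ≃ₐ[K] L) {b : L} (hb0 : b ≠ 0) {a : K} (hb : b ^ p = algebraMap K L a) :
    σ (τ b) = τ (σ b) := by
  have h1 : σ (τ b / b) = τ b / b := apply_eq_of_pow_eq_one hp hζ σ (div_pow_eq_one τ hb0 hb)
  have h2 : τ (σ b / b) = σ b / b := apply_eq_of_pow_eq_one hp hζ τ (div_pow_eq_one σ hb0 hb)
  calc σ (τ b) = σ (τ b / b * b) := by rw [← apply_eq_div_mul τ hb0]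
    _ = τ b / b * σ b := by rw [map_mul, h1]
    _ = τ b / b * (σ b / b * b) := by rw [← apply_eq_div_mul σ hb0]
    _ = σ b / b * (τ b / b * b) := by ring
    _ = σ b / b * τ b := by rw [← apply_eq_div_mul τ hb0]
    _ = τ (σ b / b * b) := by rw [map_mul, h2]
    _ = τ (σ b) := by rw [← apply_eq_div_mul σ hb0]

theorem pow_apply_eq {p : ℕ} (hp : p ≠ 0) {ζ : K} (hζ : IsPrimitiveRoot ζ p)
    (σ : L ≃ₐ[K] L) {b : L} (hb0 : b ≠ 0) {a : K} (hb : b ^ p = algebraMap K L a) (k : ℕ) :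
    (σ ^ k) b = (σ b / b) ^ k * b := by
  induction k with
  | zero => simp
  | succ k ih =>
    have h1 : σ (σ b / b) = σ b / b := apply_eq_of_pow_eq_one hp hζ σ (div_pow_eq_one σ hb0 hb)
    rw [pow_succ', AlgEquiv.mul_apply, ih, map_mul, map_pow, h1, pow_succ]
    have := apply_eq_div_mul σ hb0
    calc (σ b / b) ^ k * σ b = (σ b / b) ^ k * (σ b / b * b) := by rw [← this]
      _ = (σ b / b) ^ k * (σ b / b) * b := by ring

/-! ### The Kummer symbol -/

/-- the Kummer symbol `σ(b)/b`, as a unit. -/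
def kum (σ : L ≃ₐ[K] L) (b : Lˣ) : Lˣ := Units.map (σ : L →* L) b / b

theorem val_kum (σ : L ≃ₐ[K] L) (b : Lˣ) : ((kum σ b : Lˣ) : L) = σ (b : L) / (b : L) := by
  simp [kum, Units.val_div_eq_div_val]

theorem kum_mul (σ : L ≃ₐ[K] L) (b b' : Lˣ) : kum σ (b * b') = kum σ b * kum σ b' := by
  apply Units.ext
  simp only [val_kum, Units.val_mul, map_mul]
  field_simp

theorem kum_one_left (b : Lˣ) : kum (1 : L ≃ₐ[K] L) b = 1 := by
  apply Units.ext
  simp [val_kum]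

theorem kum_algebraMap (σ : L ≃ₐ[K] L) (c : Kˣ) :
    kum σ (Units.map (algebraMap K L : K →* L) c) = 1 := by
  apply Units.ext
  simp [val_kum]

theorem kum_pow_eq_one {p : ℕ} (σ : L ≃ₐ[K] L) (b : Lˣ) {a : K}
    (hb : (b : L) ^ p = algebraMap K L a) : kum σ b ^ p = 1 := by
  apply Units.ext
  rw [Units.val_pow_eq_pow_val, val_kum, Units.val_one]
  exact div_pow_eq_one σ b.ne_zero hb

/-- the Kummer symbol only depends on `b ^ p`. -/
theorem kum_eq_of_pow_eq {p : ℕ} (hp : p ≠ 0) {ζ : K} (hζ : IsPrimitiveRoot ζ p)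
    (σ : L ≃ₐ[K] L) {b b' : Lˣ} (h : b ^ p = b' ^ p) : kum σ b = kum σ b' := by
  have hz : ((b' : L) / (b : L)) ^ p = 1 := by
    have h' : (b : L) ^ p = (b' : L) ^ p := by
      have := congrArg (fun u : Lˣ => (u : L)) h
      simpa using this
    rw [div_pow, ← h']
    exact div_self (pow_ne_zero _ b.ne_zero)
  have hfix := apply_eq_of_pow_eq_one hp hζ σ hz
  apply Units.ext
  rw [val_kum, val_kum]
  have hb : (b' : L) = (b' : L) / (b : L) * (b : L) := (div_mul_cancel₀ _ b.ne_zero).symm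
  have h3 : σ (b' : L) = (b' : L) / (b : L) * σ (b : L) := by
    conv_lhs => rw [hb]
    rw [map_mul, hfix]
  rw [h3]
  have hb0 := b.ne_zero
  have hb0' := b'.ne_zero
  field_simp

theorem kum_mul_left {p : ℕ} (hp : p ≠ 0) {ζ : K} (hζ : IsPrimitiveRoot ζ p)
    (σ τ : L ≃ₐ[K] L) (b : Lˣ) {a : K} (hb : (b : L) ^ p = algebraMap K L a) :
    kum (σ * τ) b = kum σ b * kum τ b := by
  have h1 : σ (τ (b : L) / (b : L)) = τ (b : L) / (b : L) :=
    apply_eq_of_pow_eq_one hp hζ σ (div_pow_eq_one τ b.ne_zero hb)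
  apply Units.ext
  rw [Units.val_mul, val_kum, val_kum, val_kum, AlgEquiv.mul_apply]
  have h2 : σ (τ (b : L)) = τ (b : L) / (b : L) * σ (b : L) := by
    conv_lhs => rw [apply_eq_div_mul τ b.ne_zero]
    rw [map_mul, h1]
  rw [h2]
  have hb0 := b.ne_zero
  field_simp

/-! ### The radical group and the Kummer pairing -/

variable (K L) in
/-- the elements of `Kˣ` which are `p`-th powers in `L`. -/
def rad (p : ℕ) : Subgroup Kˣ where
  carrier := {a | ∃ b : Lˣ, b ^ p = Units.map (algebraMap K L : K →* L) a}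
  one_mem' := ⟨1, by simp⟩
  mul_mem' := by
    rintro a a' ⟨b, hb⟩ ⟨b', hb'⟩
    exact ⟨b * b', by rw [mul_pow, hb, hb', map_mul]⟩
  inv_mem' := by
    rintro a ⟨b, hb⟩
    exact ⟨b⁻¹, by rw [inv_pow, hb, map_inv]⟩

theorem mem_rad {p : ℕ} {a : Kˣ} :
    a ∈ rad K L p ↔ ∃ b : Lˣ, b ^ p = Units.map (algebraMap K L : K →* L) a := Iff.rfl

/-- a chosen `p`-th root. -/
def root {p : ℕ} (a : rad K L p) : Lˣ := a.2.choose

theorem root_pow {p : ℕ} (a : rad K L p) :
    root a ^ p = Units.map (algebraMap K L : K →* L) (a : Kˣ) := a.2.choose_spec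

theorem root_pow_val {p : ℕ} (a : rad K L p) :
    ((root a : Lˣ) : L) ^ p = algebraMap K L ((a : Kˣ) : K) := by
  have := congrArg (fun u : Lˣ => (u : L)) (root_pow a)
  simpa using this

/-- **The Kummer pairing** `a ↦ (σ ↦ σ(a^{1/p}) / a^{1/p})`. -/
def psi {p : ℕ} (hp : p ≠ 0) {ζ : K} (hζ : IsPrimitiveRoot ζ p) :
    ↥(rad K L p) →* ((L ≃ₐ[K] L) →* Lˣ) where
  toFun a :=
    { toFun := fun σ => kum σ (root a)
      map_one' := kum_one_left _
      map_mul' := fun σ τ => kum_mul_left hp hζ σ τ (root a) (root_pow_val a) }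
  map_one' := by
    ext σ
    show ((kum σ (root (1 : rad K L p)) : Lˣ) : L) = ((1 : Lˣ) : L)
    have h : root (1 : rad K L p) ^ p = (1 : Lˣ) ^ p := by
      rw [root_pow, one_pow]
      simp
    rw [kum_eq_of_pow_eq hp hζ σ h]
    simp [val_kum]
  map_mul' a a' := by
    ext σ
    show ((kum σ (root (a * a')) : Lˣ) : L) = ((kum σ (root a) * kum σ (root a') : Lˣ) : L)
    have h : root (a * a') ^ p = (root a * root a') ^ p := by
      rw [mul_pow, root_pow, root_pow, root_pow, Subgroup.coe_mul, map_mul]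
    rw [kum_eq_of_pow_eq hp hζ σ h, kum_mul]

theorem psi_apply {p : ℕ} (hp : p ≠ 0) {ζ : K} (hζ : IsPrimitiveRoot ζ p) (a : rad K L p)
    (σ : L ≃ₐ[K] L) : psi hp hζ a σ = kum σ (root a) := rfl

/-- the values of the pairing do not depend on the chosen root. -/
theorem psi_apply_eq {p : ℕ} (hp : p ≠ 0) {ζ : K} (hζ : IsPrimitiveRoot ζ p) (a : rad K L p)
    (σ : L ≃ₐ[K] L) {b : Lˣ} (hb : b ^ p = Units.map (algebraMap K L : K →* L) (a : Kˣ)) :
    psi hp hζ a σ = kum σ b := by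
  rw [psi_apply]
  exact kum_eq_of_pow_eq hp hζ σ ((root_pow a).trans hb.symm)

/-- the kernel of the Kummer pairing is `Kˣᵖ`. -/
theorem psi_eq_one_iff [FiniteDimensional K L] [IsGalois K L] {p : ℕ} (hp : p ≠ 0) {ζ : K}
    (hζ : IsPrimitiveRoot ζ p) (a : rad K L p) :
    psi hp hζ a = 1 ↔ (a : Kˣ) ∈ (powMonoidHom p : Kˣ →* Kˣ).range := by
  constructor
  · intro h
    have hfix : ∀ σ : L ≃ₐ[K] L, σ ((root a : Lˣ) : L) = ((root a : Lˣ) : L) := by
      intro σ
      have h1 : psi hp hζ a σ = 1 := by rw [h]; rfl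
      rw [psi_apply] at h1
      have h2 := congrArg (fun u : Lˣ => (u : L)) h1
      simp only [val_kum, Units.val_one] at h2
      exact (div_eq_one_iff_eq (root a).ne_zero).mp h2
    obtain ⟨c, hc⟩ := (IsGalois.mem_range_algebraMap_iff_fixed ((root a : Lˣ) : L)).mpr hfix
    have hc0 : c ≠ 0 := by
      rintro rfl
      rw [map_zero] at hc
      exact (root a).ne_zero hc.symm
    refine ⟨Units.mk0 c hc0, ?_⟩
    apply Units.ext
    apply (algebraMap K L).injective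
    rw [powMonoidHom_apply, Units.val_pow_eq_pow_val, Units.val_mk0, map_pow, hc, root_pow_val]
  · rintro ⟨c, hc⟩
    ext σ
    have hb : (Units.map (algebraMap K L : K →* L) c) ^ p =
        Units.map (algebraMap K L : K →* L) (a : Kˣ) := by
      rw [← map_pow, ← hc]
      rfl
    show ((psi hp hζ a σ : Lˣ) : L) = ((1 : Lˣ) : L)
    rw [psi_apply_eq hp hζ a σ hb, kum_algebraMap]

end Abstract

/-! ### Duality of finite abelian groups of exponent `p` -/

/-- a subgroup of the dual of a finite abelian group of exponent `p` which separates points is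
the whole dual, and has the order of the group. -/
theorem card_eq_of_separating {G M : Type*} [Group G] [Finite G] [CommRing M] [IsDomain M]
    {p : ℕ} (hp : p ≠ 0) (hcomm : ∀ g h : G, g * h = h * g) (hpow : ∀ g : G, g ^ p = 1)
    (hprim : ∃ z : M, IsPrimitiveRoot z p) (B : Subgroup (G →* Mˣ))
    (hsep : ∀ g : G, (∀ χ ∈ B, χ g = 1) → g = 1) :
    Nat.card B = Nat.card G ∧ B = ⊤ := by
  classical
  let _ : CommGroup G := { (inferInstance : Group G) with mul_comm := hcomm }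
  have : NeZero p := ⟨hp⟩
  have hM : HasEnoughRootsOfUnity M p := ⟨hprim, rootsOfUnity.isCyclic M p⟩
  have hexpG : Monoid.exponent G ∣ p := Monoid.exponent_dvd_of_forall_pow_eq_one hpow
  have : HasEnoughRootsOfUnity M (Monoid.exponent G) := HasEnoughRootsOfUnity.of_dvd M hexpG
  have hcardDual : Nat.card (G →* Mˣ) = Nat.card G :=
    CommGroup.card_monoidHom_of_hasEnoughRootsOfUnity G M
  have hfinDual : Finite (G →* Mˣ) :=
    Nat.finite_of_card_ne_zero (by rw [hcardDual]; exact Nat.card_pos.ne')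
  have hB_le : Nat.card B ≤ Nat.card G := by
    rw [← hcardDual]
    exact Nat.card_le_card_of_injective Subtype.val Subtype.val_injective
  have hBpow : ∀ χ : B, χ ^ p = 1 := by
    intro χ
    apply Subtype.ext
    apply MonoidHom.ext
    intro g
    show ((χ : G →* Mˣ) ^ p) g = 1
    rw [MonoidHom.pow_apply, ← map_pow, hpow, map_one]
  have : HasEnoughRootsOfUnity M (Monoid.exponent B) :=
    HasEnoughRootsOfUnity.of_dvd M (Monoid.exponent_dvd_of_forall_pow_eq_one hBpow)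
  have hcardBdual : Nat.card (B →* Mˣ) = Nat.card B :=
    CommGroup.card_monoidHom_of_hasEnoughRootsOfUnity B M
  have hfinBdual : Finite (B →* Mˣ) :=
    Nat.finite_of_card_ne_zero (by rw [hcardBdual]; exact Nat.card_pos.ne')
  let ev : G → (B →* Mˣ) := fun g =>
    { toFun := fun χ => (χ : G →* Mˣ) g
      map_one' := rfl
      map_mul' := fun _ _ => rfl }
  have hev : Function.Injective ev := by
    intro g h hgh
    have h1 : ∀ χ ∈ B, χ (g * h⁻¹) = 1 := by
      intro χ hχ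
      have h2 : χ g = χ h := DFunLike.congr_fun hgh ⟨χ, hχ⟩
      rw [map_mul, map_inv, h2, mul_inv_cancel]
    exact mul_inv_eq_one.mp (hsep _ h1)
  have hG_le : Nat.card G ≤ Nat.card B := by
    rw [← hcardBdual]
    exact Nat.card_le_card_of_injective ev hev
  have hcard : Nat.card B = Nat.card G := le_antisymm hB_le hG_le
  exact ⟨hcard, Subgroup.eq_top_of_card_eq _ (by rw [hcard, hcardDual])⟩

/-! ### The count -/

section Count

variable {K L : Type*} [Field K] [Field L] [Algebra K L]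

/-- the `p`-th roots in `L` of the elements of `Δ`. -/
def radSet (L : Type*) [Field L] [Algebra K L] (Δ : Subgroup Kˣ) (p : ℕ) : Set L :=
  {b | ∃ a ∈ Δ, b ^ p = algebraMap K L ((a : Kˣ) : K)}

theorem ne_zero_of_mem_radSet {Δ : Subgroup Kˣ} {p : ℕ} (hp : p ≠ 0) {b : L}
    (hb : b ∈ radSet L Δ p) : b ≠ 0 := by
  obtain ⟨a, -, hb⟩ := hb
  rintro rfl
  rw [zero_pow hp] at hb
  exact (Units.ne_zero a) ((map_eq_zero _).mp hb.symm)

theorem gal_comm {p : ℕ} (hp : p ≠ 0) {ζ : K} (hζ : IsPrimitiveRoot ζ p) (Δ : Subgroup Kˣ)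
    (hgen : Algebra.adjoin K (radSet L Δ p) = ⊤) (σ τ : L ≃ₐ[K] L) : σ * τ = τ * σ := by
  apply AlgEquiv.coe_toAlgHom_injective
  apply AlgHom.ext_of_adjoin_eq_top hgen
  intro b hb
  obtain ⟨a, -, hba⟩ := id hb
  exact apply_apply_comm hp hζ σ τ (ne_zero_of_mem_radSet hp hb) hba

theorem gal_pow {p : ℕ} (hp : p ≠ 0) {ζ : K} (hζ : IsPrimitiveRoot ζ p) (Δ : Subgroup Kˣ)
    (hgen : Algebra.adjoin K (radSet L Δ p) = ⊤) (σ : L ≃ₐ[K] L) : σ ^ p = 1 := by
  apply AlgEquiv.coe_toAlgHom_injective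
  apply AlgHom.ext_of_adjoin_eq_top hgen
  intro b hb
  obtain ⟨a, -, hba⟩ := id hb
  have hb0 := ne_zero_of_mem_radSet hp hb
  show (σ ^ p) b = b
  rw [pow_apply_eq hp hζ σ hb0 hba, div_pow_eq_one σ hb0 hba, one_mul]

theorem eq_one_of_fix_radSet {p : ℕ} (Δ : Subgroup Kˣ)
    (hgen : Algebra.adjoin K (radSet L Δ p) = ⊤) (σ : L ≃ₐ[K] L)
    (h : ∀ b ∈ radSet L Δ p, σ b = b) : σ = 1 := by
  apply AlgEquiv.coe_toAlgHom_injective
  apply AlgHom.ext_of_adjoin_eq_top hgen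
  intro b hb
  exact h b hb

/-- **Multi-Kummer, abstract form.** `L/K` finite Galois, `ζ_p ∈ K`, `Δ ≤ Kˣ` consisting of
`p`-th powers of `L`, and `L` generated over `K` by the `p`-th roots of the elements of `Δ`.
Then `Gal(L/K)` is abelian of exponent dividing `p`, of order `[Δ : Δ ∩ Kˣᵖ]`, and every element
of `Kˣ` which is a `p`-th power in `L` lies in `Δ · Kˣᵖ`. -/
theorem multiKummer_abstract [FiniteDimensional K L] [IsGalois K L] {p : ℕ} (hp : p ≠ 0)
    {ζ : K} (hζ : IsPrimitiveRoot ζ p) (Δ : Subgroup Kˣ) (hΔ : Δ ≤ rad K L p)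
    (hgen : Algebra.adjoin K (radSet L Δ p) = ⊤) :
    (∀ σ τ : L ≃ₐ[K] L, σ * τ = τ * σ) ∧ (∀ σ : L ≃ₐ[K] L, σ ^ p = 1) ∧
    Nat.card (L ≃ₐ[K] L) = ((powMonoidHom p : Kˣ →* Kˣ).range).relIndex Δ ∧
    rad K L p ≤ Δ ⊔ (powMonoidHom p : Kˣ →* Kˣ).range := by
  have hcomm := gal_comm hp hζ Δ hgen
  have hpow := gal_pow hp hζ Δ hgen
  have hker : ((psi (L := L) hp hζ).comp (Subgroup.inclusion hΔ)).ker =
      ((powMonoidHom p : Kˣ →* Kˣ).range).subgroupOf Δ := by
    ext x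
    rw [MonoidHom.mem_ker, Subgroup.mem_subgroupOf]
    exact psi_eq_one_iff hp hζ (Subgroup.inclusion hΔ x)
  have hrel : ((powMonoidHom p : Kˣ →* Kˣ).range).relIndex Δ =
      Nat.card ((psi (L := L) hp hζ).comp (Subgroup.inclusion hΔ)).range := by
    rw [Subgroup.relIndex, ← hker, Subgroup.index_ker]
  have hsep : ∀ σ : L ≃ₐ[K] L,
      (∀ χ ∈ ((psi (L := L) hp hζ).comp (Subgroup.inclusion hΔ)).range, χ σ = 1) → σ = 1 := by
    intro σ hσ
    apply eq_one_of_fix_radSet Δ hgen σ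
    rintro b ⟨a, ha, hba⟩
    have hb0 : b ≠ 0 := ne_zero_of_mem_radSet hp ⟨a, ha, hba⟩
    have h1 := hσ _ ⟨⟨a, ha⟩, rfl⟩
    have hbu : (Units.mk0 b hb0) ^ p = Units.map (algebraMap K L : K →* L) a := by
      apply Units.ext
      simpa using hba
    have h2 : psi (L := L) hp hζ (Subgroup.inclusion hΔ ⟨a, ha⟩) σ = kum σ (Units.mk0 b hb0) :=
      psi_apply_eq hp hζ _ σ hbu
    have h3 : kum σ (Units.mk0 b hb0) = 1 := h2.symm.trans h1
    have h4 := congrArg (fun u : Lˣ => (u : L)) h3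
    simp only [val_kum, Units.val_one, Units.val_mk0] at h4
    exact (div_eq_one_iff_eq hb0).mp h4
  obtain ⟨hcard, htop⟩ := card_eq_of_separating (M := L) hp hcomm hpow
    ⟨algebraMap K L ζ, hζ.map_of_injective (algebraMap K L).injective⟩ _ hsep
  refine ⟨hcomm, hpow, by rw [hrel, hcard], ?_⟩
  intro a ha
  have hmem : psi (L := L) hp hζ ⟨a, ha⟩ ∈
      ((psi (L := L) hp hζ).comp (Subgroup.inclusion hΔ)).range := by
    rw [htop]
    trivial
  obtain ⟨d, hd⟩ := hmem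
  have h1 : psi (L := L) hp hζ (⟨a, ha⟩ * (Subgroup.inclusion hΔ d)⁻¹) = 1 := by
    rw [map_mul, map_inv, ← hd]
    exact mul_inv_cancel _
  rw [psi_eq_one_iff] at h1
  have h2 : a = (d : Kˣ) * (a * (d : Kˣ)⁻¹) := by
    rw [mul_comm a, mul_inv_cancel_left]
  rw [h2]
  exact Subgroup.mul_mem_sup d.2 h1

end Count

/-! ### The construction -/

section Concrete

/-- finitely many coset representatives of `Δ` modulo `Pw`. -/
theorem exists_reps {G : Type*} [Group G] (Δ Pw : Subgroup G) (hfin : Pw.relIndex Δ ≠ 0) :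
    ∃ T : Finset G, (∀ t ∈ T, t ∈ Δ) ∧ ∀ a ∈ Δ, ∃ t ∈ T, t⁻¹ * a ∈ Pw := by
  classical
  have hf : Finite (↥Δ ⧸ Pw.subgroupOf Δ) := Nat.finite_of_card_ne_zero hfin
  have := Fintype.ofFinite (↥Δ ⧸ Pw.subgroupOf Δ)
  refine ⟨Finset.univ.image (fun q : ↥Δ ⧸ Pw.subgroupOf Δ => ((Quotient.out q : ↥Δ) : G)),
    ?_, ?_⟩
  · intro t ht
    obtain ⟨q, -, rfl⟩ := Finset.mem_image.mp ht
    exact (Quotient.out q).2
  · intro a ha
    let q : ↥Δ ⧸ Pw.subgroupOf Δ := QuotientGroup.mk ⟨a, ha⟩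
    refine ⟨_, Finset.mem_image.mpr ⟨q, Finset.mem_univ _, rfl⟩, ?_⟩
    have h1 : (QuotientGroup.mk (Quotient.out q) : ↥Δ ⧸ Pw.subgroupOf Δ) =
        QuotientGroup.mk ⟨a, ha⟩ := QuotientGroup.out_eq' q
    have h2 := QuotientGroup.eq.mp h1
    rw [Subgroup.mem_subgroupOf] at h2
    exact h2

universe u

/-- **Multi-Kummer, existence.** `K` a perfect field containing a primitive `p`-th root of unity,
`Δ ≤ Kˣ` with `[Δ : Δ ∩ Kˣᵖ]` finite.  There is a finite Galois extension `L/K`, generated by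
`p`-th roots of the elements of `Δ`, in which every element of `Δ` is a `p`-th power, with
`Gal(L/K)` abelian of exponent dividing `p` and order `[Δ : Δ ∩ Kˣᵖ]`, and such that
`Kˣ ∩ Lˣᵖ ≤ Δ · Kˣᵖ`. -/
theorem exists_multiKummer_field {K : Type u} [Field K] [PerfectField K] {p : ℕ} (hp : p ≠ 0)
    {ζ : K} (hζ : IsPrimitiveRoot ζ p) (Δ : Subgroup Kˣ)
    (hfin : ((powMonoidHom p : Kˣ →* Kˣ).range).relIndex Δ ≠ 0) :
    ∃ (L : Type u) (_ : Field L) (_ : Algebra K L), FiniteDimensional K L ∧ IsGalois K L ∧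
      (∀ σ τ : L ≃ₐ[K] L, σ * τ = τ * σ) ∧ (∀ σ : L ≃ₐ[K] L, σ ^ p = 1) ∧
      Nat.card (L ≃ₐ[K] L) = ((powMonoidHom p : Kˣ →* Kˣ).range).relIndex Δ ∧
      (∀ a ∈ Δ, ∃ b : L, b ^ p = algebraMap K L ((a : Kˣ) : K)) ∧
      Algebra.adjoin K (radSet L Δ p) = ⊤ ∧
      (∀ a : Kˣ, (∃ b : L, b ^ p = algebraMap K L (a : K)) →
        a ∈ Δ ⊔ (powMonoidHom p : Kˣ →* Kˣ).range) ∧
      (∃ B : Finset L, (∀ b ∈ B, b ∈ radSet L Δ p) ∧ Algebra.adjoin K (B : Set L) = ⊤) := by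
  classical
  obtain ⟨T, hTΔ, hT⟩ := exists_reps Δ _ hfin
  let f : K[X] := ∏ t ∈ T, (X ^ p - C ((t : Kˣ) : K))
  have hfac0 : ∀ t : Kˣ, (X ^ p - C ((t : Kˣ) : K) : K[X]) ≠ 0 := fun t =>
    X_pow_sub_C_ne_zero (Nat.pos_of_ne_zero hp) _
  have hf0 : f ≠ 0 := Finset.prod_ne_zero_iff.mpr fun t _ => hfac0 t
  let L := f.SplittingField
  have hnormal : Normal K L := Normal.of_isSplittingField f
  have hgal : IsGalois K L := isGalois_iff.mpr ⟨inferInstance, hnormal⟩
  have hsplit : (f.map (algebraMap K L)).Splits := SplittingField.splits f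
  -- roots of the representatives
  have hroot : ∀ t ∈ T, ∃ β : L, β ^ p = algebraMap K L ((t : Kˣ) : K) := by
    intro t ht
    have hdvd : (X ^ p - C ((t : Kˣ) : K) : K[X]).map (algebraMap K L) ∣ f.map (algebraMap K L) :=
      Polynomial.map_dvd _ (Finset.dvd_prod_of_mem _ ht)
    have hs := hsplit.of_dvd (by simpa using hf0) hdvd
    have hdeg : ((X ^ p - C ((t : Kˣ) : K) : K[X]).map (algebraMap K L)).degree ≠ 0 := by
      rw [degree_map, degree_X_pow_sub_C (Nat.pos_of_ne_zero hp)]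
      exact_mod_cast hp
    obtain ⟨β, hβ⟩ := hs.exists_eval_eq_zero hdeg
    refine ⟨β, ?_⟩
    simpa [sub_eq_zero] using hβ
  have hrootΔ : ∀ a ∈ Δ, ∃ b : L, b ^ p = algebraMap K L ((a : Kˣ) : K) := by
    intro a ha
    obtain ⟨t, ht, c, hc⟩ := hT a ha
    obtain ⟨β, hβ⟩ := hroot t ht
    refine ⟨β * algebraMap K L ((c : Kˣ) : K), ?_⟩
    have hc' : ((c : Kˣ) : K) ^ p = ((t : Kˣ) : K)⁻¹ * ((a : Kˣ) : K) := by
      have := congrArg (fun u : Kˣ => (u : K)) hc
      simpa using this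
    rw [mul_pow, hβ, ← map_pow, hc', ← map_mul, mul_inv_cancel_left₀ (Units.ne_zero t)]
  have hΔ : Δ ≤ rad K L p := by
    intro a ha
    obtain ⟨b, hb⟩ := hrootΔ a ha
    have hb0 : b ≠ 0 := by
      rintro rfl
      rw [zero_pow hp] at hb
      exact (Units.ne_zero a) ((map_eq_zero _).mp hb.symm)
    refine ⟨Units.mk0 b hb0, ?_⟩
    apply Units.ext
    simpa using hb
  have hsub : f.rootSet L ⊆ radSet L Δ p := by
    intro x hx
    rw [mem_rootSet] at hx
    have h2 : ∏ t ∈ T, (x ^ p - algebraMap K L ((t : Kˣ) : K)) = 0 := by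
      have := hx.2
      simpa [f, map_prod] using this
    obtain ⟨t, ht, h3⟩ := Finset.prod_eq_zero_iff.mp h2
    exact ⟨t, hTΔ t ht, sub_eq_zero.mp h3⟩
  have h1 : Algebra.adjoin K (f.rootSet L) = ⊤ := SplittingField.adjoin_rootSet f
  have hgen : Algebra.adjoin K (radSet L Δ p) = ⊤ :=
    top_le_iff.mp (h1 ▸ Algebra.adjoin_mono hsub)
  obtain ⟨hcomm, hpow, hcard, hsat⟩ := multiKummer_abstract hp hζ Δ hΔ hgen
  refine ⟨L, inferInstance, inferInstance, inferInstance, hgal, hcomm, hpow, hcard, hrootΔ, hgen,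
    ?_, ⟨(f.rootSet_finite L).toFinset, fun b hb => hsub ((Set.Finite.mem_toFinset _).mp hb), ?_⟩⟩
  swap
  · rw [Set.Finite.coe_toFinset]
    exact h1
  rintro a ⟨b, hb⟩
  apply hsat
  have hb0 : b ≠ 0 := by
    rintro rfl
    rw [zero_pow hp] at hb
    exact (Units.ne_zero a) ((map_eq_zero _).mp hb.symm)
  refine ⟨Units.mk0 b hb0, ?_⟩
  apply Units.ext
  simpa using hb

/-- the Galois-pair facts for a finite Galois extension, with `G' := L ≃ₐ[K] L` acting by
evaluation. -/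
theorem galois_pair_facts (K L : Type*) [Field K] [Field L] [Algebra K L] [FiniteDimensional K L]
    [IsGalois K L] :
    FaithfulSMul (L ≃ₐ[K] L) L ∧
      (∀ y : L, (∀ g : L ≃ₐ[K] L, g • y = y) ↔ y ∈ (algebraMap K L).range) :=
  ⟨inferInstance, fun y => (IsGalois.mem_range_algebraMap_iff_fixed y).symm⟩

/-- a group of exponent dividing the prime `p` is a `p`-group. -/
theorem isPGroup_of_pow_eq_one {G : Type*} [Group G] {p : ℕ} (h : ∀ g : G, g ^ p = 1) :
    IsPGroup p G := fun g => ⟨1, by rw [pow_one]; exact h g⟩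

/-- **[EX.b] Multi-Kummer for number fields.**  `L` a number field containing a primitive `p`-th
root of unity, `Lˣᵖ ≤ Δ ≤ Lˣ` with `[Δ : Lˣᵖ]` finite.  There is a number field `L1 ⊇ L`, Galois
over `L`, with `Gal(L1/L)` abelian of exponent dividing `p` and of order `[Δ : Lˣᵖ]`, in which
every element of `Δ` is a `p`-th power, which is generated over `L` by (finitely many) `p`-th
roots of elements of `Δ`, and such that `Lˣ ∩ L1ˣᵖ = Δ`. -/
theorem exists_multiKummer_of_ne_zero (p : ℕ) (hp : p ≠ 0) (L : Type) [Field L] [NumberField L]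
    (ζ : L) (hζ : IsPrimitiveRoot ζ p) (Δ : Subgroup Lˣ)
    (hpow : (powMonoidHom p : Lˣ →* Lˣ).range ≤ Δ)
    (hfin : ((powMonoidHom p : Lˣ →* Lˣ).range).relIndex Δ ≠ 0) :
    ∃ (L1 : Type) (_ : Field L1) (_ : NumberField L1) (_ : Algebra L L1),
      IsGalois L L1 ∧ (∀ g h : L1 ≃ₐ[L] L1, g * h = h * g) ∧ (∀ g : L1 ≃ₐ[L] L1, g ^ p = 1) ∧
      Nat.card (L1 ≃ₐ[L] L1) = ((powMonoidHom p : Lˣ →* Lˣ).range).relIndex Δ ∧
      (∀ a ∈ Δ, ∃ b : L1, b ^ p = algebraMap L L1 ((a : Lˣ) : L)) ∧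
      IntermediateField.adjoin L {b : L1 | ∃ a ∈ Δ, b ^ p = algebraMap L L1 ((a : Lˣ) : L)} = ⊤ ∧
      (∀ a : Lˣ, (∃ b : L1, b ^ p = algebraMap L L1 (a : L)) → a ∈ Δ) ∧
      (∀ g : L1 ≃ₐ[L] L1,
        (∀ b : L1, (∃ a ∈ Δ, b ^ p = algebraMap L L1 ((a : Lˣ) : L)) → g b = b) → g = 1) ∧
      (∃ B : Finset L1, (∀ b ∈ B, ∃ a ∈ Δ, b ^ p = algebraMap L L1 ((a : Lˣ) : L)) ∧
        Algebra.adjoin L (B : Set L1) = ⊤ ∧ IntermediateField.adjoin L (B : Set L1) = ⊤) := by
  obtain ⟨L1, _, _, hfd, hgal, hcomm, hexp, hcard, hroot, hgen, hsat, B, hB, hBgen⟩ :=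
    exists_multiKummer_field hp hζ Δ hfin
  have hnf : NumberField L1 := NumberField.of_module_finite L L1
  have hadj : ∀ s : Set L1, Algebra.adjoin L s = ⊤ → IntermediateField.adjoin L s = ⊤ := by
    intro s hs
    apply IntermediateField.toSubalgebra_injective
    rw [IntermediateField.top_toSubalgebra]
    exact top_le_iff.mp (hs ▸ IntermediateField.algebra_adjoin_le_adjoin L s)
  refine ⟨L1, inferInstance, hnf, inferInstance, hgal, hcomm, hexp, hcard, hroot, hadj _ hgen,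
    ?_, ?_, B, hB, hBgen, hadj _ hBgen⟩
  · intro a ha
    have := hsat a ha
    rwa [sup_eq_left.mpr hpow] at this
  · intro g hg
    exact eq_one_of_fix_radSet Δ hgen g hg

/-- **[EX.b]**, the posted shape (`p` prime). -/
theorem exists_multiKummer (p : ℕ) (hp : p.Prime) (L : Type) [Field L] [NumberField L] (ζ : L)
    (hζ : IsPrimitiveRoot ζ p) (Δ : Subgroup Lˣ)
    (hpow : (powMonoidHom p : Lˣ →* Lˣ).range ≤ Δ)
    (hfin : ((powMonoidHom p : Lˣ →* Lˣ).range).relIndex Δ ≠ 0) :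
    ∃ (L1 : Type) (_ : Field L1) (_ : NumberField L1) (_ : Algebra L L1),
      IsGalois L L1 ∧ (∀ g h : L1 ≃ₐ[L] L1, g * h = h * g) ∧ (∀ g : L1 ≃ₐ[L] L1, g ^ p = 1) ∧
      Nat.card (L1 ≃ₐ[L] L1) = ((powMonoidHom p : Lˣ →* Lˣ).range).relIndex Δ ∧
      (∀ a ∈ Δ, ∃ b : L1, b ^ p = algebraMap L L1 ((a : Lˣ) : L)) ∧
      IntermediateField.adjoin L {b : L1 | ∃ a ∈ Δ, b ^ p = algebraMap L L1 ((a : Lˣ) : L)} = ⊤ ∧
      (∀ a : Lˣ, (∃ b : L1, b ^ p = algebraMap L L1 (a : L)) → a ∈ Δ) := by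
  obtain ⟨L1, i1, i2, i3, h1, h2, h3, h4, h5, h6, h7, -⟩ :=
    exists_multiKummer_of_ne_zero p hp.ne_zero L ζ hζ Δ hpow hfin
  exact ⟨L1, i1, i2, i3, h1, h2, h3, h4, h5, h6, h7⟩

/-- **[EX.b], Galois-pair form** `(G', L', f)` with `G' := L' ≃ₐ[L] L'` acting by evaluation and
`f := algebraMap L L'`: faithful action, fixed points `= f.range`, `G'` abelian of exponent
dividing `p` (hence a `p`-group, as is every subgroup), `|G'| = [Δ : Lˣᵖ]`, the elements of `Δ`
are exactly the elements of `Lˣ` which become `p`-th powers, and an element of `G'` fixing all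
`p`-th roots of elements of `Δ` (even: those in a finite set `B`) is trivial. -/
theorem exists_multiKummer_pair (p : ℕ) (hp : p.Prime) (L : Type) [Field L] [NumberField L]
    (ζ : L) (hζ : IsPrimitiveRoot ζ p) (Δ : Subgroup Lˣ)
    (hpow : (powMonoidHom p : Lˣ →* Lˣ).range ≤ Δ)
    (hfin : ((powMonoidHom p : Lˣ →* Lˣ).range).relIndex Δ ≠ 0) :
    ∃ (L' : Type) (_ : Field L') (_ : NumberField L') (G' : Type) (_ : Group G') (_ : Fintype G')
      (_ : MulSemiringAction G' L') (f : L →+* L'),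
      FaithfulSMul G' L' ∧ (∀ y : L', (∀ g : G', g • y = y) ↔ y ∈ f.range) ∧
      (∀ g h : G', g * h = h * g) ∧ (∀ g : G', g ^ p = 1) ∧
      (∀ H : Subgroup G', IsPGroup p H) ∧
      Nat.card G' = ((powMonoidHom p : Lˣ →* Lˣ).range).relIndex Δ ∧
      (∀ a ∈ Δ, ∃ b : L', b ^ p = f ((a : Lˣ) : L)) ∧
      (∀ a : Lˣ, (∃ b : L', b ^ p = f (a : L)) → a ∈ Δ) ∧
      (∃ B : Finset L', (∀ b ∈ B, ∃ a ∈ Δ, b ^ p = f ((a : Lˣ) : L)) ∧
        ∀ g : G', (∀ b ∈ B, g • b = b) → g = 1) := by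
  classical
  obtain ⟨L1, i1, i2, i3, hgal, hcomm, hexp, hcard, hroot, -, hsat, -, B, hB, hBgen, -⟩ :=
    exists_multiKummer_of_ne_zero p hp.ne_zero L ζ hζ Δ hpow hfin
  have hfd : FiniteDimensional L L1 := IsGalois.finiteDimensional_of_finite L L1
  refine ⟨L1, i1, i2, L1 ≃ₐ[L] L1, inferInstance, Fintype.ofFinite _, inferInstance,
    algebraMap L L1, (galois_pair_facts L L1).1, (galois_pair_facts L L1).2, hcomm, hexp,
    fun H => (isPGroup_of_pow_eq_one hexp).to_subgroup H, hcard, hroot, hsat, B, hB, ?_⟩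
  intro g hg
  apply AlgEquiv.coe_toAlgHom_injective
  apply AlgHom.ext_of_adjoin_eq_top hBgen
  intro b hb
  exact hg b hb

end Concrete

end

end Fermat.Agent.CFT.Global.KummerMulti
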