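/-
CFT program (P3), Global layer, leaf [EX.c]-TOWER (helper32): the multi-Kummer field
`L(Δ^{1/p})` is unramified outside `S` when `L` is, `p ∈ S`, and the elements of `Δ` are
units times `p`-th powers locally outside `S`.

The proof is an induction along the tower `L ⊂ L(b₁) ⊂ L(b₁, b₂) ⊂ …` (Mathlib's
`IntermediateField.induction_on_adjoin_finset`), each step being the single Kummer step
`Glob/UnramReduced.isReduced_of_kummer`.
-/
import Mathlib
import Fermat.Agent.CFT.Global.Defs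
import Fermat.Agent.CFT.Global.QBridgeDefs
import Fermat.Agent.CFT.Global.QBridgeDiv
import Fermat.Agent.CFT.Glob.UnramReduced
import Fermat.Agent.CFT.Global.KummerPair
import Fermat.Agent.CFT.Global.KummerLimit
import Fermat.Agent.CFT.Global.KummerMulti

set_option autoImplicit false
set_option linter.unusedSectionVars false
set_option linter.unusedVariables false

namespace Fermat.Agent.CFT.Global.KummerMultiUnram

open NumberField IsDedekindDomain
open Fermat.Agent.CFT.Global Fermat.Agent.CFT.Glob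

noncomputable section

/-! ### Transport along a ring isomorphism -/

/-- `𝓞 K / (q)` reduced is invariant under ring isomorphisms of `K`. -/
theorem isReduced_of_ringEquiv {K K' : Type*} [Field K] [Field K'] (e : K ≃+* K') (q : ℕ)
    (h : IsReduced (𝓞 K ⧸ Ideal.span {(q : 𝓞 K)})) :
    IsReduced (𝓞 K' ⧸ Ideal.span {(q : 𝓞 K')}) := by
  have hIJ : Ideal.span {(q : 𝓞 K)} =
      (Ideal.span {(q : 𝓞 K')}).map (RingOfIntegers.mapRingEquiv e.symm) := by
    rw [Ideal.map_span, Set.image_singleton, map_natCast]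
  let φ : (𝓞 K' ⧸ Ideal.span {(q : 𝓞 K')}) ≃+* (𝓞 K ⧸ Ideal.span {(q : 𝓞 K)}) :=
    Ideal.quotientEquiv _ _ (RingOfIntegers.mapRingEquiv e.symm) hIJ
  exact isReduced_of_injective φ φ.injective

/-! ### One step of the tower -/

section Step

variable {L L1 : Type} [Field L] [NumberField L] [Field L1] [NumberField L1] [Algebra L L1]

/-- the scaling hypothesis of `isReduced_of_kummer` goes up. -/
theorem scale_up (E : Type) [Field E] [NumberField E] [Algebra L E] (q n : ℕ) (u : L)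
    (hu : ∀ 𝔭 : Ideal (𝓞 L), 𝔭.IsPrime → (q : 𝓞 L) ∈ 𝔭 →
      ∃ (c : L) (r : 𝓞 L), c ≠ 0 ∧ (r : L) = c ^ n * u ∧ r ∉ 𝔭) :
    ∀ 𝔓 : Ideal (𝓞 E), 𝔓.IsPrime → (q : 𝓞 E) ∈ 𝔓 →
      ∃ (c : E) (r : 𝓞 E), c ≠ 0 ∧ (r : E) = c ^ n * algebraMap L E u ∧ r ∉ 𝔓 := by
  intro 𝔓 h𝔓 hq𝔓
  have h1 : (𝔓.comap (algebraMap (𝓞 L) (𝓞 E))).IsPrime := Ideal.comap_isPrime _ _
  have h2 : (q : 𝓞 L) ∈ 𝔓.comap (algebraMap (𝓞 L) (𝓞 E)) := by
    rw [Ideal.mem_comap, map_natCast]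
    exact hq𝔓
  obtain ⟨c, r, hc0, hrc, hr⟩ := hu _ h1 h2
  refine ⟨algebraMap L E c, algebraMap (𝓞 L) (𝓞 E) r, ?_, ?_, ?_⟩
  · exact (map_ne_zero _).mpr hc0
  · have h3 : ((algebraMap (𝓞 L) (𝓞 E) r : 𝓞 E) : E) = algebraMap L E (r : L) := rfl
    rw [h3, hrc, map_mul, map_pow]
  · exact fun h => hr (Ideal.mem_comap.mpr h)

/-- the property carried along the tower. -/
def UnramE (q : ℕ) (E : IntermediateField L L1) : Prop :=
  IsReduced (𝓞 ↥E ⧸ Ideal.span {(q : 𝓞 ↥E)})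

theorem unramE_step (q : ℕ) (hq : q.Prime) (n : ℕ) (hn : n ≠ 0) (hqn : ¬ q ∣ n)
    (E : IntermediateField L L1) (b : L1) (u : L) (hb : b ^ n = algebraMap L L1 u)
    (hu : ∀ 𝔭 : Ideal (𝓞 L), 𝔭.IsPrime → (q : 𝓞 L) ∈ 𝔭 →
      ∃ (c : L) (r : 𝓞 L), c ≠ 0 ∧ (r : L) = c ^ n * u ∧ r ∉ 𝔭)
    (hE : UnramE q E) : UnramE q ((IntermediateField.adjoin (↥E) {b}).restrictScalars L) := by
  have hint : IsIntegral (↥E) b := IsIntegral.of_finite _ _
  have hgen : Algebra.adjoin (↥E) {IntermediateField.AdjoinSimple.gen (↥E) b} = ⊤ := by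
    have := (IntermediateField.adjoin.powerBasis hint).adjoin_gen_eq_top
    rwa [IntermediateField.adjoin.powerBasis_gen] at this
  have hx : (IntermediateField.AdjoinSimple.gen (↥E) b) ^ n =
      algebraMap (↥E) (↥(IntermediateField.adjoin (↥E) {b})) (algebraMap L (↥E) u) := by
    apply Subtype.ext
    show b ^ n = algebraMap L L1 u
    exact hb
  have key : IsReduced (𝓞 ↥(IntermediateField.adjoin (↥E) {b}) ⧸
      Ideal.span {(q : 𝓞 ↥(IntermediateField.adjoin (↥E) {b}))}) :=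
    UnramReduced.isReduced_of_kummer q hq n hqn (IntermediateField.AdjoinSimple.gen (↥E) b) hgen
      (algebraMap L (↥E) u) hx (scale_up (↥E) q n u hu) hE
  let e : ↥(IntermediateField.adjoin (↥E) {b}) ≃+*
      ↥((IntermediateField.adjoin (↥E) {b}).restrictScalars L) :=
    { toFun := fun x => ⟨x.1, x.2⟩
      invFun := fun x => ⟨x.1, x.2⟩
      left_inv := fun _ => rfl
      right_inv := fun _ => rfl
      map_mul' := fun _ _ => rfl
      map_add' := fun _ _ => rfl }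
  exact isReduced_of_ringEquiv e q key

end Step

/-! ### (T1) the multi-Kummer field is unramified -/

/-- **[EX.c], core.** `L1` generated over `L` by finitely many `n`-th roots `b` of elements
`u ∈ L` which are, at every prime of `L` above `q`, a unit times an `n`-th power; `q ∤ n`; `q`
unramified in `L`.  Then `q` is unramified in `L1`. -/
theorem isReduced_of_multiKummer (L L1 : Type) [Field L] [NumberField L] [Field L1]
    [NumberField L1] [Algebra L L1] (q : ℕ) (hq : q.Prime) (n : ℕ) (hn : n ≠ 0) (hqn : ¬ q ∣ n)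
    (B : Finset L1) (hBgen : IntermediateField.adjoin L (B : Set L1) = ⊤)
    (hB : ∀ b ∈ B, ∃ u : L, b ^ n = algebraMap L L1 u ∧
      ∀ 𝔭 : Ideal (𝓞 L), 𝔭.IsPrime → (q : 𝓞 L) ∈ 𝔭 →
        ∃ (c : L) (r : 𝓞 L), c ≠ 0 ∧ (r : L) = c ^ n * u ∧ r ∉ 𝔭)
    (hL : IsReduced (𝓞 L ⧸ Ideal.span {(q : 𝓞 L)})) :
    IsReduced (𝓞 L1 ⧸ Ideal.span {(q : 𝓞 L1)}) := by
  have base : UnramE (L := L) (L1 := L1) q ⊥ :=
    isReduced_of_ringEquiv (IntermediateField.botEquiv L L1).symm.toRingEquiv q hL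
  have step : ∀ (E : IntermediateField L L1), ∀ b ∈ B, UnramE q E →
      UnramE q ((IntermediateField.adjoin (↥E) {b}).restrictScalars L) := by
    intro E b hbB hE
    obtain ⟨u, hb, hu⟩ := hB b hbB
    exact unramE_step q hq n hn hqn E b u hb hu hE
  have htop : UnramE (L := L) (L1 := L1) q (IntermediateField.adjoin L (B : Set L1)) :=
    IntermediateField.induction_on_adjoin_finset B (UnramE q) base step
  rw [hBgen] at htop
  exact isReduced_of_ringEquiv (IntermediateField.topEquiv (F := L) (E := L1)).toRingEquiv q htop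

/-! ### (T1') the same in the vocabulary of `Global/Defs` -/

/-- **[EX.c], `UnramOutside` form.** `L1` generated over `L` by finitely many `p`-th roots of
elements of `Δ ≤ Lˣ`; `p ∈ S`; `p ∣ ord_w(a)` for `a ∈ Δ` and `w` above a prime outside `S`;
`L` unramified outside `S`.  Then `L1` is unramified outside `S`. -/
theorem unramOutside_of_multiKummer (p : ℕ) [Fact p.Prime] (L L1 : Type) [Field L]
    [NumberField L] [Field L1] [NumberField L1] [Algebra L L1] (S : Finset Nat.Primes)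
    (hpS : ∃ q ∈ S, (q : ℕ) = p) (Δ : Subgroup Lˣ) (B : Finset L1)
    (hB : ∀ b ∈ B, ∃ a ∈ Δ, b ^ p = algebraMap L L1 ((a : Lˣ) : L))
    (hBgen : IntermediateField.adjoin L (B : Set L1) = ⊤)
    (hdiv : ∀ a ∈ Δ, ∀ q : Nat.Primes, q ∉ S → ∀ w : HeightOneSpectrum (𝓞 L),
      ((q : ℕ) : 𝓞 L) ∈ w.asIdeal → (p : ℤ) ∣ QBridge.ordZ w a)
    (hL : UnramOutside S L) : UnramOutside S L1 := by
  have hp : p.Prime := Fact.out
  obtain ⟨q₀, hq₀S, hq₀p⟩ := hpS
  intro q hqS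
  have hqp : ¬ (q : ℕ) ∣ p := by
    intro hdvd
    have h1 : (q : ℕ) = p := (Nat.prime_dvd_prime_iff_eq q.2 hp).mp hdvd
    have h2 : q = q₀ := Subtype.ext (h1.trans hq₀p.symm)
    exact hqS (h2 ▸ hq₀S)
  refine isReduced_of_multiKummer L L1 (q : ℕ) q.2 p hp.ne_zero hqp B hBgen ?_ (hL q hqS)
  intro b hb
  obtain ⟨a, ha, hba⟩ := hB b hb
  refine ⟨(a : L), hba, ?_⟩
  intro 𝔭 h𝔭 hq𝔭
  have h𝔭0 : 𝔭 ≠ ⊥ := by
    rintro rfl
    have h0 : ((q : ℕ) : 𝓞 L) = 0 := by simpa using hq𝔭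
    exact (Nat.cast_ne_zero.mpr q.2.ne_zero) h0
  exact KummerPair.exists_scale_of_dvd_ordZ ⟨𝔭, h𝔭, h𝔭0⟩ a p hp.ne_zero
    (hdiv a ha q hqS ⟨𝔭, h𝔭, h𝔭0⟩ hq𝔭)

/-- the divisibility hypothesis from the idelic `Sel` condition: `a` is, at every `q ∉ S`, a
local unit times a `p`-th power. -/
theorem hdiv_of_sel (p : ℕ) (L : Type) [Field L] [NumberField L] (S : Finset Nat.Primes)
    (Δ : Subgroup Lˣ)
    (hSel : ∀ a ∈ Δ, ∀ q : Nat.Primes, q ∉ S → ∃ y u : (SemiLocal L q)ˣ,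
      u ∈ localUnits L q ∧ principal L a q = y ^ p * u) :
    ∀ a ∈ Δ, ∀ q : Nat.Primes, q ∉ S → ∀ w : HeightOneSpectrum (𝓞 L),
      ((q : ℕ) : 𝓞 L) ∈ w.asIdeal → (p : ℤ) ∣ QBridge.ordZ w a := by
  intro a ha q hq w hw
  obtain ⟨y, u, hu, h⟩ := hSel a ha q hq
  exact KummerLimit.dvd_ordZ_of_principal_eq p a q y u hu h w hw

/-! ### (T2) existence: multi-Kummer + unramified -/

/-- **[EX.b] + [EX.c], algebra form.** -/
theorem exists_multiKummer_unram_alg (p : ℕ) [Fact p.Prime] (L : Type) [Field L]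
    [NumberField L] (ζ : L) (hζ : IsPrimitiveRoot ζ p) (S : Finset Nat.Primes)
    (hpS : ∃ q ∈ S, (q : ℕ) = p) (Δ : Subgroup Lˣ)
    (hpow : (powMonoidHom p : Lˣ →* Lˣ).range ≤ Δ)
    (hfin : ((powMonoidHom p : Lˣ →* Lˣ).range).relIndex Δ ≠ 0)
    (hdiv : ∀ a ∈ Δ, ∀ q : Nat.Primes, q ∉ S → ∀ w : HeightOneSpectrum (𝓞 L),
      ((q : ℕ) : 𝓞 L) ∈ w.asIdeal → (p : ℤ) ∣ QBridge.ordZ w a)
    (hL : UnramOutside S L) :
    ∃ (L1 : Type) (_ : Field L1) (_ : NumberField L1) (_ : Algebra L L1),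
      IsGalois L L1 ∧ (∀ g h : L1 ≃ₐ[L] L1, g * h = h * g) ∧ (∀ g : L1 ≃ₐ[L] L1, g ^ p = 1) ∧
      Nat.card (L1 ≃ₐ[L] L1) = ((powMonoidHom p : Lˣ →* Lˣ).range).relIndex Δ ∧
      (∀ a ∈ Δ, ∃ b : L1, b ^ p = algebraMap L L1 ((a : Lˣ) : L)) ∧
      (∀ a : Lˣ, (∃ b : L1, b ^ p = algebraMap L L1 (a : L)) → a ∈ Δ) ∧
      (∃ B : Finset L1, (∀ b ∈ B, ∃ a ∈ Δ, b ^ p = algebraMap L L1 ((a : Lˣ) : L)) ∧
        Algebra.adjoin L (B : Set L1) = ⊤ ∧ IntermediateField.adjoin L (B : Set L1) = ⊤) ∧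
      UnramOutside S L1 := by
  have hp : p.Prime := Fact.out
  obtain ⟨L1, i1, i2, i3, hgal, hcomm, hexp, hcard, hroot, -, hsat, -, B, hB, hBgen, hBgen'⟩ :=
    KummerMulti.exists_multiKummer_of_ne_zero p hp.ne_zero L ζ hζ Δ hpow hfin
  exact ⟨L1, i1, i2, i3, hgal, hcomm, hexp, hcard, hroot, hsat, ⟨B, hB, hBgen, hBgen'⟩,
    unramOutside_of_multiKummer p L L1 S hpS Δ B hB hBgen' hdiv hL⟩

/-- **[EX.b] + [EX.c], Galois-pair form** (the binder list of `ExistenceModP`): for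
`Lˣᵖ ≤ Δ ≤ Lˣ` of finite index over `Lˣᵖ`, locally a unit times a `p`-th power outside `S ∋ p`,
and `L ∋ ζ_p` unramified outside `S`, the pair `(G', L', f)` of `L' = L(Δ^{1/p})` is a Galois
pair, `G'` is abelian of exponent dividing `p` and of order `[Δ : Lˣᵖ]`, `Δ` is exactly the set
of elements of `Lˣ` which become `p`-th powers in `L'`, `G'` acts faithfully on a finite set `B`
of `p`-th roots of elements of `Δ`, and `L'` is unramified outside `S`. -/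
theorem exists_multiKummer_unram (p : ℕ) [Fact p.Prime] (L : Type) [Field L] [NumberField L]
    (ζ : L) (hζ : IsPrimitiveRoot ζ p) (S : Finset Nat.Primes)
    (hpS : ∃ q ∈ S, (q : ℕ) = p) (Δ : Subgroup Lˣ)
    (hpow : (powMonoidHom p : Lˣ →* Lˣ).range ≤ Δ)
    (hfin : ((powMonoidHom p : Lˣ →* Lˣ).range).relIndex Δ ≠ 0)
    (hdiv : ∀ a ∈ Δ, ∀ q : Nat.Primes, q ∉ S → ∀ w : HeightOneSpectrum (𝓞 L),
      ((q : ℕ) : 𝓞 L) ∈ w.asIdeal → (p : ℤ) ∣ QBridge.ordZ w a)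
    (hL : UnramOutside S L) :
    ∃ (L' : Type) (_ : Field L') (_ : NumberField L') (G' : Type) (_ : Group G') (_ : Fintype G')
      (_ : MulSemiringAction G' L') (f : L →+* L'),
      FaithfulSMul G' L' ∧ (∀ y : L', (∀ g : G', g • y = y) ↔ y ∈ f.range) ∧
      (∀ g h : G', g * h = h * g) ∧ (∀ g : G', g ^ p = 1) ∧
      (∀ H : Subgroup G', IsPGroup p H) ∧
      Nat.card G' = ((powMonoidHom p : Lˣ →* Lˣ).range).relIndex Δ ∧
      (∀ a ∈ Δ, ∃ b : L', b ^ p = f ((a : Lˣ) : L)) ∧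
      (∀ a : Lˣ, (∃ b : L', b ^ p = f (a : L)) → a ∈ Δ) ∧
      (∃ B : Finset L', (∀ b ∈ B, ∃ a ∈ Δ, b ^ p = f ((a : Lˣ) : L)) ∧
        ∀ g : G', (∀ b ∈ B, g • b = b) → g = 1) ∧
      UnramOutside S L' := by
  classical
  obtain ⟨L1, i1, i2, i3, hgal, hcomm, hexp, hcard, hroot, hsat, ⟨B, hB, hBgen, -⟩, hunr⟩ :=
    exists_multiKummer_unram_alg p L ζ hζ S hpS Δ hpow hfin hdiv hL
  have hfd : FiniteDimensional L L1 := IsGalois.finiteDimensional_of_finite L L1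
  refine ⟨L1, i1, i2, L1 ≃ₐ[L] L1, inferInstance, Fintype.ofFinite _, inferInstance,
    algebraMap L L1, (KummerMulti.galois_pair_facts L L1).1,
    (KummerMulti.galois_pair_facts L L1).2, hcomm, hexp,
    fun H => (KummerMulti.isPGroup_of_pow_eq_one hexp).to_subgroup H, hcard, hroot, hsat,
    ⟨B, hB, ?_⟩, hunr⟩
  intro g hg
  apply AlgEquiv.coe_toAlgHom_injective
  apply AlgHom.ext_of_adjoin_eq_top hBgen
  intro b hb
  exact hg b hb

end

end Fermat.Agent.CFT.Global.KummerMultiUnram
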