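/-
CFT program (P3), Global layer, package [EX] (helper32): the leaves
`ExistPlan.MultiKummer` ([EX.b]) and `ExistPlan.KummerUnram` ([EX.c]), verbatim, from
`Global/KummerMulti.lean` (multi-Kummer theory) and `Global/KummerMultiUnram.lean` (tower).
-/
import Mathlib
import Fermat.Agent.CFT.Global.ExistPlan
import Fermat.Agent.CFT.Global.KummerMulti
import Fermat.Agent.CFT.Global.KummerMultiUnram

set_option autoImplicit false

namespace Fermat.Agent.CFT.Global.ExistKummer

open Fermat.Agent.CFT Fermat.Agent.CFT.Global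

/-- **[EX.b]** multi-Kummer extensions exist. -/
theorem multiKummer : ExistPlan.MultiKummer := by
  intro p hp L _ _ hζ Δ hpow hfin
  obtain ⟨ζ, hζ⟩ := hζ
  classical
  obtain ⟨L1, i1, i2, i3, hgal, hcomm, hexp, hcard, hroot, -, hsat, -, B, hB, -, hBgen⟩ :=
    KummerMulti.exists_multiKummer_of_ne_zero p hp.out.ne_zero L ζ hζ Δ hpow hfin
  refine ⟨L1, i1, i2, L1 ≃ₐ[L] L1, inferInstance, Fintype.ofFinite _, inferInstance,
    algebraMap L L1, ?_⟩
  refine
    { faithful := (KummerMulti.galois_pair_facts L L1).1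
      fixed := (KummerMulti.galois_pair_facts L L1).2
      comm := hcomm
      exp := hexp
      card := hcard
      gen := ⟨(B : Set L1), hB, ?_⟩ }
  have h1 := IntermediateField.adjoin_toSubfield L (B : Set L1)
  rw [hBgen] at h1
  rw [← h1]
  rfl

/-- **[EX.c]** a Kummer pair for `Δ ≤ Sel` over a field unramified outside `S ∋ p` is
unramified outside `S` (bridge from the tower theorem
`KummerMultiUnram.unramOutside_of_multiKummer`). -/
theorem kummerUnram_of_tower : ExistPlan.KummerUnram := by
  intro p hp L _ _ S hpS hL Δ hΔ L' _ _ G' _ _ _ f hK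
  let _ : Algebra L L' := f.toAlgebra
  obtain ⟨B, hB, hcl⟩ := hK.gen
  have hadj : IntermediateField.adjoin L B = ⊤ := by
    apply IntermediateField.toSubfield_injective
    rw [IntermediateField.adjoin_toSubfield]
    exact hcl
  obtain ⟨α, hα⟩ := Field.exists_primitive_element L L'
  have hαmem : α ∈ IntermediateField.adjoin L B := by
    rw [hadj]
    trivial
  obtain ⟨T, hTB, hαT⟩ := IntermediateField.exists_finset_of_mem_adjoin hαmem
  have hT : IntermediateField.adjoin L (T : Set L') = ⊤ := by
    rw [eq_top_iff, ← hα]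
    exact IntermediateField.adjoin_simple_le_iff.mpr hαT
  refine KummerMultiUnram.unramOutside_of_multiKummer p L L' S hpS Δ T
    (fun b hb => hB b (hTB hb)) hT ?_ hL
  apply KummerMultiUnram.hdiv_of_sel p L S Δ
  intro a ha q hq
  obtain ⟨u, hu, y, hy⟩ := hΔ ha q hq
  exact ⟨y, u, hu, by rw [hy, mul_comm]⟩

end Fermat.Agent.CFT.Global.ExistKummer
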