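/-
CFT program, layer Global, existence theorem `[EX.d]` (helper42): every `S`-idele of `L` is a norm
from a multi-Kummer extension `L'/L` whose radicands are `p`-th powers in `A_q(L)` for `q ∈ S`.

Basis-free route:
* `exists_prod_smul_eq` : a finite group acting on a reduced Artinian ring with no nontrivial
  stabiliser of a maximal ideal ⇒ every invariant unit is a product of conjugates (`z ≡ x` at one
  representative of each orbit of maximal ideals, `z ≡ 1` elsewhere).
* `eq_one_of_stabilizes` : Kummer generators whose radicands are `p`-th powers in `A_q(L)` ⇒ no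
  nontrivial element of the group stabilises a maximal ideal of `A_q(L')`.
* `exists_norm_eq_local`, `exists_norm_eq_supportedOn` : the statements in the vocabulary of
  `Global/Defs`.
* `eq_one_of_forall_smul_eq_of_closure`, `eq_one_of_forall_smul_eq_of_adjoin` : the hypothesis
  `hgen` from "`L'` is generated by `B` over `L`" for a faithful action.
-/
import Mathlib
import Fermat.Agent.CFT.Global.Defs
import Fermat.Agent.CFT.Glob.GaloisTensor
import Fermat.Agent.CFT.Global.CountDict

set_option autoImplicit false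

noncomputable section

namespace Fermat.Agent.CFT.Global.ExistSplit

open scoped TensorProduct
open Fermat.Agent.CFT.Global
open Fermat.Agent.CFT.Global.CountDict (eq_of_forall_sub_mem)

/-! ### 1. Free actions on the maximal spectrum of a reduced Artinian ring -/

section Abstract

variable {A : Type*} [CommRing A] {G : Type*} [Group G] [MulSemiringAction G A]

/-- The action of `G` on the maximal ideals of `A`: `g • m = {x | g⁻¹ • x ∈ m}`. -/
@[reducible] def maxSpecAction : MulAction G (MaximalSpectrum A) where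
  smul g m := ⟨Ideal.comap (MulSemiringAction.toRingEquiv G A g⁻¹) m.asIdeal,
    Ideal.comap_isMaximal_of_equiv _⟩
  one_smul m := by
    apply MaximalSpectrum.ext
    apply Ideal.ext
    intro x
    show (1 : G)⁻¹ • x ∈ m.asIdeal ↔ x ∈ m.asIdeal
    rw [inv_one, one_smul]
  mul_smul g h m := by
    apply MaximalSpectrum.ext
    apply Ideal.ext
    intro x
    show (g * h)⁻¹ • x ∈ m.asIdeal ↔ h⁻¹ • g⁻¹ • x ∈ m.asIdeal
    rw [mul_inv_rev, mul_smul]

attribute [local instance] maxSpecAction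

theorem mem_smul_max (g : G) (m : MaximalSpectrum A) (x : A) :
    x ∈ (g • m).asIdeal ↔ g⁻¹ • x ∈ m.asIdeal := Iff.rfl

theorem smul_mem_smul_max (g : G) (m : MaximalSpectrum A) (x : A) :
    g • x ∈ (g • m).asIdeal ↔ x ∈ m.asIdeal := by
  rw [mem_smul_max, inv_smul_smul]

variable [IsArtinianRing A] [IsReduced A]

/-- **Norm surjectivity for a free action.**  If a finite group `G` acts on a reduced Artinian
ring `A` and no nontrivial element of `G` stabilises a maximal ideal, every `G`-invariant unit of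
`A` is the product of the conjugates of a unit. -/
theorem exists_prod_smul_eq [Fintype G]
    (hfree : ∀ (g : G) (m : Ideal A), m.IsMaximal → (∀ x : A, g • x ∈ m ↔ x ∈ m) → g = 1)
    (x : Aˣ) (hx : ∀ g : G, g • (x : A) = x) :
    ∃ z : Aˣ, ∏ g : G, g • (z : A) = x := by
  classical
  -- freeness in terms of the action on the maximal spectrum
  have hfree' : ∀ (g : G) (m : MaximalSpectrum A), g • m = m → g = 1 := by
    intro g m hgm
    have h1 : g⁻¹ = 1 := by
      refine hfree g⁻¹ m.asIdeal m.isMaximal (fun y => ?_)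
      rw [← mem_smul_max, hgm]
    rwa [inv_eq_one] at h1
  -- a set of orbit representatives
  let T : Set (MaximalSpectrum A) :=
    Set.range (Quotient.out : Quotient (MulAction.orbitRel G (MaximalSpectrum A)) → _)
  have hT1 : ∀ m : MaximalSpectrum A, ∃ g : G, g • m ∈ T := by
    intro m
    have h1 : (MulAction.orbitRel G (MaximalSpectrum A)).r
        (Quotient.out (Quotient.mk (MulAction.orbitRel G (MaximalSpectrum A)) m)) m :=
      Quotient.mk_out (s := MulAction.orbitRel G (MaximalSpectrum A)) m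
    obtain ⟨g, hg⟩ := h1
    have hg' : g • m = Quotient.out (Quotient.mk (MulAction.orbitRel G (MaximalSpectrum A)) m) :=
      hg
    exact ⟨g, by rw [hg']; exact ⟨_, rfl⟩⟩
  have hT2 : ∀ (t t' : MaximalSpectrum A) (g : G), t ∈ T → t' ∈ T → g • t = t' → t = t' := by
    rintro t t' g ⟨c, rfl⟩ ⟨c', rfl⟩ h
    have h1 : (MulAction.orbitRel G (MaximalSpectrum A)).r (Quotient.out c') (Quotient.out c) :=
      ⟨g, h⟩
    have h2 : c' = c := by
      rw [← Quotient.out_eq c', ← Quotient.out_eq c]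
      exact Quotient.sound h1
    rw [h2]
  -- the element `z`: `≡ x` at the representatives, `≡ 1` elsewhere
  let zA : A := (IsArtinianRing.equivPi A).symm
    (fun m => if m ∈ T then Ideal.Quotient.mk m.asIdeal (x : A) else 1)
  have hz : ∀ m : MaximalSpectrum A,
      Ideal.Quotient.mk m.asIdeal zA = if m ∈ T then Ideal.Quotient.mk m.asIdeal (x : A) else 1 := by
    intro m
    have h := IsArtinianRing.equivPi_apply (R := A) zA m
    rw [← h, AlgEquiv.apply_symm_apply]
  have hz1 : ∀ m : MaximalSpectrum A, m ∈ T → zA - x ∈ m.asIdeal := by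
    intro m hm
    rw [← Ideal.Quotient.eq_zero_iff_mem, map_sub, hz m, if_pos hm, sub_self]
  have hz2 : ∀ m : MaximalSpectrum A, m ∉ T → zA - 1 ∈ m.asIdeal := by
    intro m hm
    rw [← Ideal.Quotient.eq_zero_iff_mem, map_sub, hz m, if_neg hm, map_one, sub_self]
  -- `z` is a unit
  have hunit : IsUnit zA := by
    by_contra hnu
    obtain ⟨M, hM, hzM⟩ := exists_max_ideal_of_mem_nonunits (mem_nonunits_iff.mpr hnu)
    by_cases hMT : (⟨M, hM⟩ : MaximalSpectrum A) ∈ T
    · have h1 : (x : A) ∈ M := by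
        have h2 := hz1 ⟨M, hM⟩ hMT
        have h3 : (x : A) = zA - (zA - x) := by ring
        rw [h3]
        exact M.sub_mem hzM h2
      exact hM.ne_top (Ideal.eq_top_of_isUnit_mem _ h1 x.isUnit)
    · have h1 : (1 : A) ∈ M := by
        have h2 := hz2 ⟨M, hM⟩ hMT
        have h3 : (1 : A) = zA - (zA - 1) := by ring
        rw [h3]
        exact M.sub_mem hzM h2
      exact hM.ne_top ((Ideal.eq_top_iff_one _).mpr h1)
  refine ⟨hunit.unit, ?_⟩
  rw [IsUnit.unit_spec]
  apply eq_of_forall_sub_mem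
  intro m'
  rw [← Ideal.Quotient.eq_zero_iff_mem, map_sub, sub_eq_zero, map_prod]
  -- the unique `g₀` with `g₀⁻¹ • m' ∈ T`
  obtain ⟨h₀, hh₀⟩ := hT1 m'
  have hkey : ∀ g : G, Ideal.Quotient.mk m'.asIdeal (g • zA) =
      if g⁻¹ • m' ∈ T then Ideal.Quotient.mk m'.asIdeal (x : A) else 1 := by
    intro g
    split_ifs with hgT
    · rw [← sub_eq_zero, ← map_sub, Ideal.Quotient.eq_zero_iff_mem]
      have h1 : g • zA - (x : A) = g • (zA - x) := by rw [smul_sub, hx g]
      rw [h1]
      have h2 := (smul_mem_smul_max g (g⁻¹ • m') (zA - x)).mpr (hz1 _ hgT)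
      rwa [smul_inv_smul] at h2
    · rw [← sub_eq_zero, ← map_one (Ideal.Quotient.mk m'.asIdeal), ← map_sub,
        Ideal.Quotient.eq_zero_iff_mem]
      have h1 : g • zA - 1 = g • (zA - 1) := by rw [smul_sub, smul_one]
      rw [h1]
      have h2 := (smul_mem_smul_max g (g⁻¹ • m') (zA - 1)).mpr (hz2 _ hgT)
      rwa [smul_inv_smul] at h2
  rw [Finset.prod_eq_single h₀⁻¹]
  · rw [hkey, inv_inv, if_pos hh₀]
  · intro g _ hg
    rw [hkey, if_neg]
    intro hgT
    apply hg
    -- `g⁻¹ • m'` and `h₀ • m'` are representatives in the same orbit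
    have h1 : (h₀ * g) • (g⁻¹ • m') = h₀ • m' := by rw [mul_smul, smul_inv_smul]
    have h2 := hT2 _ _ _ hgT hh₀ h1
    have h3 : (g * h₀) • m' = m' := by
      rw [mul_smul, ← h2, smul_inv_smul]
    have h4 := hfree' _ _ h3
    exact eq_inv_of_mul_eq_one_left h4
  · intro h
    exact absurd (Finset.mem_univ _) h

end Abstract

/-! ### 2. Kummer generators which are local `p`-th powers: the action is free -/

section Kummer

variable {L L' : Type} [Field L] [CharZero L] [Field L'] [CharZero L']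
  {G' : Type} [Group G'] [MulSemiringAction G' L'] (f : L →+* L')

/-- Elements coming from the base field are fixed by `G'`. -/
theorem smul_semiLocalMap (hfix : ∀ (g : G') (c : L), g • f c = f c) (q : ℕ) [Fact q.Prime]
    (g : G') (r : SemiLocal L q) : g • semiLocalMap q f r = semiLocalMap q f r := by
  induction r using TensorProduct.induction_on with
  | zero => rw [map_zero, smul_zero]
  | tmul a b => rw [semiLocalMap_tmul, smul_tmul_eq, hfix]
  | add r₁ r₂ h₁ h₂ => rw [map_add, smul_add, h₁, h₂]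

theorem tmul_one_mul_inv (q : ℕ) [Fact q.Prime] {c : L'} (hc : c ≠ 0) :
    (c ⊗ₜ[ℚ] (1 : ℚ_[q]) : SemiLocal L' q) * (c⁻¹ ⊗ₜ[ℚ] (1 : ℚ_[q])) = 1 := by
  rw [Algebra.TensorProduct.tmul_mul_tmul, mul_inv_cancel₀ hc, mul_one,
    Algebra.TensorProduct.one_def]

/-- **Kummer generators which are local `p`-th powers ⇒ free action on the places.**
`ζ ∈ L` a primitive `p`-th root of unity, `G'` acts on `L'` fixing `f(L)`, and `G'` is detected on
a set `B` of elements `β` with `β ^ p = f a`, `a` a `p`-th power in `A_q(L)`.  Then no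
nontrivial element of `G'` stabilises a maximal ideal of `A_q(L')`. -/
theorem eq_one_of_stabilizes (p : ℕ) [Fact p.Prime]
    (hfix : ∀ (g : G') (c : L), g • f c = f c) {ζ : L} (hζ : IsPrimitiveRoot ζ p)
    (q : ℕ) [Fact q.Prime] (B : Set L')
    (hB : ∀ β ∈ B, ∃ a : Lˣ, β ^ p = f a ∧
      ∃ y : (SemiLocal L q)ˣ, (y : SemiLocal L q) ^ p = (a : L) ⊗ₜ[ℚ] (1 : ℚ_[q]))
    (hgen : ∀ g : G', (∀ β ∈ B, g • β = β) → g = 1)
    (g : G') (m : Ideal (SemiLocal L' q)) (hm : m.IsMaximal)
    (hg : ∀ x : SemiLocal L' q, g • x ∈ m ↔ x ∈ m) : g = 1 := by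
  have hp : p.Prime := Fact.out
  have hpne : NeZero p := ⟨hp.ne_zero⟩
  apply hgen
  intro β hβ
  obtain ⟨a, ha, y, hy⟩ := hB β hβ
  have hfa : f (a : L) ≠ 0 := (map_ne_zero f).mpr a.ne_zero
  have hβ0 : β ≠ 0 := by
    intro h0
    rw [h0, zero_pow hp.ne_zero] at ha
    exact hfa ha.symm
  -- `g • β = (f ζ) ^ k * β`
  have hζ' : IsPrimitiveRoot (f ζ) p := hζ.map_of_injective f.injective
  have hgβ : (g • β / β) ^ p = 1 := by
    rw [div_pow, ← smul_pow', ha, hfix, div_self hfa]
  obtain ⟨k, -, hk⟩ := hζ'.eq_pow_of_pow_eq_one hgβ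
  have hgβ' : g • β = (f ζ) ^ k * β := by
    rw [hk, div_mul_cancel₀ _ hβ0]
  by_contra hne
  have hu : (f ζ) ^ k - 1 ≠ 0 := by
    intro h0
    apply hne
    rw [hgβ', sub_eq_zero.mp h0, one_mul]
  -- the residue field at `m`
  have := hm.isPrime
  let ρ : L' →+* SemiLocal L' q ⧸ m :=
    (Ideal.Quotient.mk m).comp
      (Algebra.TensorProduct.includeLeft : L' →ₐ[ℚ] L' ⊗[ℚ] ℚ_[q]).toRingHom
  have hρ : ∀ c : L', ρ c = Ideal.Quotient.mk m (c ⊗ₜ[ℚ] (1 : ℚ_[q])) := fun c => rfl
  have : Nontrivial (SemiLocal L' q ⧸ m) := Ideal.Quotient.nontrivial_iff.mpr hm.ne_top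
  have hζ'' : IsPrimitiveRoot (ρ (f ζ)) p := hζ'.map_of_injective ρ.injective
  -- `t = (β ⊗ 1) / y` is a `p`-th root of unity
  set φ := semiLocalMap q f with hφ
  have hφy : φ (y : SemiLocal L q) ^ p = (β ^ p) ⊗ₜ[ℚ] (1 : ℚ_[q]) := by
    rw [← map_pow, hy, hφ, semiLocalMap_tmul, ha]
  have hyinv : φ (y : SemiLocal L q) * φ ((y⁻¹ : (SemiLocal L q)ˣ) : SemiLocal L q) = 1 := by
    rw [← map_mul, Units.mul_inv, map_one]
  have ht : (Ideal.Quotient.mk m ((β ⊗ₜ[ℚ] (1 : ℚ_[q]) : SemiLocal L' q) *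
      φ ((y⁻¹ : (SemiLocal L q)ˣ) : SemiLocal L q))) ^ p = 1 := by
    rw [← map_pow, mul_pow, Algebra.TensorProduct.tmul_pow, one_pow, ← hφy, ← mul_pow, hyinv,
      one_pow, map_one]
  obtain ⟨i, -, hi⟩ := hζ''.eq_pow_of_pow_eq_one ht
  -- `β ⊗ 1 ≡ c` mod `m`, with `c` in the image of `A_q(L)`
  set c : SemiLocal L' q := φ (((ζ ⊗ₜ[ℚ] (1 : ℚ_[q]) : SemiLocal L q)) ^ i * (y : SemiLocal L q))
    with hc
  have hbc : (β ⊗ₜ[ℚ] (1 : ℚ_[q]) : SemiLocal L' q) - c ∈ m := by
    rw [← Ideal.Quotient.eq_zero_iff_mem, map_sub, sub_eq_zero]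
    have h1 : Ideal.Quotient.mk m c =
        ρ (f ζ) ^ i * Ideal.Quotient.mk m (φ (y : SemiLocal L q)) := by
      rw [hc, map_mul, map_pow, map_mul, map_pow, hφ, semiLocalMap_tmul, hρ]
    rw [h1, hi, ← map_mul, mul_assoc, mul_comm (φ _) (φ _), hyinv, mul_one]
  have hgc : g • c = c := smul_semiLocalMap f hfix q g _
  have h1 : g • ((β ⊗ₜ[ℚ] (1 : ℚ_[q]) : SemiLocal L' q) - c) ∈ m := (hg _).mpr hbc
  rw [smul_sub, hgc, smul_tmul_eq, hgβ'] at h1
  have h2 : ((((f ζ) ^ k - 1) * β) ⊗ₜ[ℚ] (1 : ℚ_[q]) : SemiLocal L' q) ∈ m := by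
    have h3 := m.sub_mem h1 hbc
    have h4 : ((((f ζ) ^ k * β) ⊗ₜ[ℚ] (1 : ℚ_[q]) : SemiLocal L' q) - c) -
        ((β ⊗ₜ[ℚ] (1 : ℚ_[q]) : SemiLocal L' q) - c) =
        (((f ζ) ^ k - 1) * β) ⊗ₜ[ℚ] (1 : ℚ_[q]) := by
      rw [sub_sub_sub_cancel_right, ← TensorProduct.sub_tmul]
      congr 1
      ring
    rwa [h4] at h3
  have h5 : (1 : SemiLocal L' q) ∈ m := by
    rw [← tmul_one_mul_inv q (mul_ne_zero hu hβ0)]
    exact m.mul_mem_right _ h2
  exact hm.ne_top ((Ideal.eq_top_iff_one _).mpr h5)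

end Kummer

/-! ### 3. The generation hypothesis -/

section Gen

variable {L L' : Type} [Field L] [Field L'] {G' : Type} [Group G'] [MulSemiringAction G' L']
  [FaithfulSMul G' L']

/-- The subfield of `L'` fixed by one element of the group. -/
def fixedBy (g : G') : Subfield L' where
  carrier := {y | g • y = y}
  mul_mem' := fun {a b} ha hb => by
    show g • (a * b) = a * b
    rw [smul_mul', ha, hb]
  one_mem' := smul_one g
  add_mem' := fun {a b} ha hb => by
    show g • (a + b) = a + b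
    rw [smul_add, ha, hb]
  zero_mem' := smul_zero g
  neg_mem' := fun {a} ha => by
    show g • (-a) = -a
    rw [smul_neg, ha]
  inv_mem' := fun a ha => by
    show g • a⁻¹ = a⁻¹
    rw [smul_inv'', ha]

theorem mem_fixedBy (g : G') (y : L') : y ∈ fixedBy g ↔ g • y = y := Iff.rfl

/-- If `L'` is generated as a field by `f(L)` and `B`, an element of a faithfully acting group
which fixes `f(L)` and `B` pointwise is trivial. -/
theorem eq_one_of_forall_smul_eq_of_closure (f : L →+* L')
    (hfix : ∀ (g : G') (c : L), g • f c = f c) (B : Set L')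
    (hcl : Subfield.closure (Set.range f ∪ B) = ⊤) (g : G') (hg : ∀ β ∈ B, g • β = β) :
    g = 1 := by
  have hle : Subfield.closure (Set.range f ∪ B) ≤ fixedBy g := by
    rw [Subfield.closure_le]
    rintro y (⟨c, rfl⟩ | hy)
    · exact hfix g c
    · exact hg y hy
  rw [hcl] at hle
  apply FaithfulSMul.eq_of_smul_eq_smul (α := L')
  intro y
  rw [one_smul]
  exact hle (Subfield.mem_top y)

/-- The same for `IntermediateField.adjoin L B = ⊤`. -/
theorem eq_one_of_forall_smul_eq_of_adjoin [Algebra L L']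
    (hfix : ∀ (g : G') (c : L), g • algebraMap L L' c = algebraMap L L' c) (B : Set L')
    (hadj : IntermediateField.adjoin L B = ⊤) (g : G') (hg : ∀ β ∈ B, g • β = β) : g = 1 := by
  apply eq_one_of_forall_smul_eq_of_closure (algebraMap L L') hfix B _ g hg
  have h1 := congrArg IntermediateField.toSubfield hadj
  rw [IntermediateField.adjoin_toSubfield] at h1
  rw [h1]
  rfl

end Gen

/-! ### 4. `[EX.d]`: every `S`-idele of `L` is a norm from `L'` -/

section Split

variable (p : ℕ) [Fact p.Prime] (L L' : Type) [Field L] [CharZero L] [Field L'] [NumberField L']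
  (G' : Type) [Group G'] [Fintype G'] [MulSemiringAction G' L'] (f : L →+* L')

/-- **`[EX.d]`, one prime.**  If `G'` is detected on Kummer generators `β` (`β ^ p = f a`) whose
radicands `a` are `p`-th powers in `A_q(L)`, every unit of `A_q(L)` is a norm from `A_q(L')`. -/
theorem exists_norm_eq_local (hfix : ∀ (g : G') (c : L), g • f c = f c) (ζ : L)
    (hζ : IsPrimitiveRoot ζ p) (q : ℕ) [Fact q.Prime] (B : Set L')
    (hB : ∀ β ∈ B, ∃ a : Lˣ, β ^ p = f a ∧
      ∃ y : (SemiLocal L q)ˣ, (y : SemiLocal L q) ^ p = (a : L) ⊗ₜ[ℚ] (1 : ℚ_[q]))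
    (hgen : ∀ g : G', (∀ β ∈ B, g • β = β) → g = 1) (x : (SemiLocal L q)ˣ) :
    ∃ z : (SemiLocal L' q)ˣ, ∏ g : G', g • z = Units.map (semiLocalMap q f).toMonoidHom x := by
  have : IsArtinianRing (SemiLocal L' q) :=
    Fermat.Agent.CFT.Glob.GaloisTensor.isArtinianRing ℚ L' ℚ_[q]
  have : IsReduced (SemiLocal L' q) := Fermat.Agent.CFT.Glob.GaloisTensor.isReduced ℚ L' ℚ_[q]
  obtain ⟨z, hz⟩ := exists_prod_smul_eq (A := SemiLocal L' q) (G := G')
    (fun g m hm hg => eq_one_of_stabilizes f p hfix hζ q B hB hgen g m hm hg)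
    (Units.map (semiLocalMap q f).toMonoidHom x)
    (fun g => smul_semiLocalMap f hfix q g _)
  refine ⟨z, ?_⟩
  apply Units.ext
  rw [Units.coe_prod, ← hz]
  rfl

/-- **`[EX.d]`.**  If `G'` is detected on Kummer generators whose radicands are `p`-th powers in
`A_q(L)` for all `q ∈ S`, every element of `J_S(L)` is the norm of an element of `J_S(L')`. -/
theorem exists_norm_eq_supportedOn (hfix : ∀ (g : G') (c : L), g • f c = f c) (ζ : L)
    (hζ : IsPrimitiveRoot ζ p) (S : Finset Nat.Primes) (B : Set L')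
    (hB : ∀ q ∈ S, ∀ β ∈ B, ∃ a : Lˣ, β ^ p = f a ∧
      ∃ y : (SemiLocal L (q : ℕ))ˣ,
        (y : SemiLocal L (q : ℕ)) ^ p = (a : L) ⊗ₜ[ℚ] (1 : ℚ_[(q : ℕ)]))
    (hgen : ∀ g : G', (∀ β ∈ B, g • β = β) → g = 1)
    (x : IdeleProd L) (hx : x ∈ supportedOn L S) :
    ∃ z ∈ supportedOn L' S, ∏ g : G', g • z = ideleProdMap f x := by
  classical
  have hloc : ∀ q : Nat.Primes, q ∈ S → ∃ z : (SemiLocal L' (q : ℕ))ˣ,
      ∏ g : G', g • z = Units.map (semiLocalMap (q : ℕ) f).toMonoidHom (x q) :=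
    fun q hq => exists_norm_eq_local p L L' G' f hfix ζ hζ (q : ℕ) B (hB q hq) hgen (x q)
  let z : IdeleProd L' := fun q => if hq : q ∈ S then (hloc q hq).choose else 1
  refine ⟨z, ?_, ?_⟩
  · intro q hq
    show (if hq : q ∈ S then (hloc q hq).choose else 1) = 1
    rw [dif_neg hq]
  · funext q
    rw [Finset.prod_apply, ideleProdMap_apply]
    by_cases hq : q ∈ S
    · have h1 : ∀ g : G', (g • z) q = g • (hloc q hq).choose := by
        intro g
        show g • z q = _
        show g • (if hq : q ∈ S then (hloc q hq).choose else 1) = _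
        rw [dif_pos hq]
      rw [Finset.prod_congr rfl (fun g _ => h1 g)]
      exact (hloc q hq).choose_spec
    · have h1 : ∀ g : G', (g • z) q = 1 := by
        intro g
        show g • (if hq : q ∈ S then (hloc q hq).choose else 1) = _
        rw [dif_neg hq, smul_one]
      rw [Finset.prod_congr rfl (fun g _ => h1 g), Finset.prod_const_one, hx q hq, map_one]

end Split

end Fermat.Agent.CFT.Global.ExistSplit
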