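/-
CFT program (P3), layer Global, package [EX]: leaf **[EX.d]** in the vocabulary of
`Global/ExistPlan.lean` (helper42).

`theorem splitNorm : ExistPlan.SplitNorm` — for a Kummer pair `(G', L', f)` for `Δ ≤ V`,
every element of `J_S(L)` is a norm from `J_S(L')`.  A verbatim bridge from
`ExistSplit.exists_norm_eq_supportedOn` via `ExistPlan.IsKummerPair.exists_gen`.
-/
import Mathlib
import Fermat.Agent.CFT.Global.ExistPlan
import Fermat.Agent.CFT.Global.ExistSplit

set_option autoImplicit false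

open scoped TensorProduct

noncomputable section

namespace Fermat.Agent.CFT.Global.ExistSplitPlan

open Fermat.Agent.CFT Fermat.Agent.CFT.Global

/-- **[EX.d]** (`ExistPlan.SplitNorm`, verbatim). -/
theorem splitNorm : ExistPlan.SplitNorm := by
  intro p _ L _ _ S hζ Δ hΔ L' _ _ G' _ _ _ f hK x hx
  obtain ⟨ζ, hζ⟩ := hζ
  obtain ⟨B, hB, -, hgen⟩ := hK.exists_gen
  have hfix : ∀ (g : G') (c : L), g • f c = f c := fun g c => (hK.fixed (f c)).mpr ⟨c, rfl⟩ g
  refine ExistSplit.exists_norm_eq_supportedOn p L L' G' f hfix ζ hζ S B ?_ hgen x hx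
  intro q hq β hβ
  obtain ⟨a, ha, hβa⟩ := hB β hβ
  obtain ⟨y, hy⟩ := (hΔ ha).2 q hq
  refine ⟨a, hβa, y, ?_⟩
  have h1 := congrArg (fun u : (SemiLocal L (q : ℕ))ˣ => (u : SemiLocal L (q : ℕ))) hy
  simp only [Units.val_pow_eq_pow_val] at h1
  rw [← h1]
  exact principal_apply_coe L a q

end Fermat.Agent.CFT.Global.ExistSplitPlan
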