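import Mathlib
import Fermat.Agent.CFT.Global.ExistPlan
import Fermat.Agent.CFT.Formation.TateCount

/-!
# CFT program, layer Global, package [EX]: leaf [EX.e] `ExistPlan.TateCount`

The Tate count for a `p`-class module of a finite abelian group of exponent `p`, in the
pointwise spelling of `Global/ExistPlan.lean`:

* `p · C^G ⊆ N_G C`;
* `[C^G : N_G C] = |G|` for ANY additive subgroups `H`, `N` of `C` that are pointwise the
  invariants and the norms.

This is a thin bridge from `Formation/TateCount.lean` (`nsmul_mem_normSub`,
`card_quotient_eq`).
-/

set_option autoImplicit false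

namespace Fermat.Agent.CFT.Global.ExistTate

open Fermat.Agent.CFT Fermat.Agent.CFT.Global

/-- **[EX.e]** the Tate count, verbatim `ExistPlan.TateCount`. -/
theorem tateCount : ExistPlan.TateCount := by
  intro p _ G _ _ C σ hσ hcomm hexp
  have hG : IsPGroup p G := fun g => ⟨1, by simpa using hexp g⟩
  refine ⟨fun c hc => ?_, fun H N hH hN => ?_⟩
  · have h1 := Formation.TateCount.nsmul_mem_normSub hG C σ hσ p hexp c
      (Formation.TateCount.mem_invSub.mpr hc)
    exact Formation.TateCount.mem_normSub.mp h1
  · have hHe : H = Formation.TateCount.invSub C := by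
      ext c
      exact hH c
    have hNe : N = Formation.TateCount.normSub C := by
      ext c
      rw [hN, Formation.TateCount.mem_normSub]
    subst hHe hNe
    exact Formation.TateCount.card_quotient_eq hG C σ hσ hcomm

end Fermat.Agent.CFT.Global.ExistTate
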