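/-
# Class field theory program (P3), existence theorem mod `p`: leaf [EX.c]

`kummerUnram : ExistPlan.KummerUnram` — a Kummer pair `(L', G', f)` for `Δ ≤ Sel p L S` over a
number field `L` unramified outside `S ∋ p` is unramified outside `S`.

Route: strong induction on the degree over all pairs of number fields `M ⊆ L'` such that `L'`
is generated over `M` by `p`-th roots of elements of `M` which are "good at `q`" (a unit times a
`p`-th power at every prime above `q`; `GoodAt`).  One step `M ⊆ M⟮β⟯` is the landed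
`Glob/UnramReduced.isReduced_of_kummer`; goodness goes up a tower by contracting primes
(`GoodAt.map`); elements of `Sel` are good at `q ∉ S` (`goodAt_of_mem_Sel`, via the landed
`KummerLimit.dvd_ordZ_of_principal_eq` and `KummerPair.exists_scale_of_dvd_ordZ`).
-/
import Mathlib
import Fermat.Agent.CFT.Global.ExistPlan
import Fermat.Agent.CFT.Global.KummerPair
import Fermat.Agent.CFT.Global.KummerLimit
import Fermat.Agent.CFT.Glob.UnramReduced

set_option autoImplicit false

noncomputable section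

namespace Fermat.Agent.CFT.Global.ExistUnram

open NumberField IsDedekindDomain IntermediateField
open Fermat.Agent.CFT.Global Fermat.Agent.CFT.Glob

/-- `a ∈ M` is, at every prime of `𝓞 M` above `q`, a unit times a `p`-th power (witnessed by a
rescaling `c ^ p * a ∈ 𝓞 M ∖ 𝔭`). -/
def GoodAt (p q : ℕ) (M : Type) [Field M] [NumberField M] (a : M) : Prop :=
  ∀ 𝔭 : Ideal (𝓞 M), 𝔭.IsPrime → (q : 𝓞 M) ∈ 𝔭 →
    ∃ (c : M) (r : 𝓞 M), c ≠ 0 ∧ (r : M) = c ^ p * a ∧ r ∉ 𝔭

/-- Goodness goes up in a tower. -/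
theorem GoodAt.map {p q : ℕ} {M M' : Type} [Field M] [NumberField M] [Field M'] [NumberField M']
    [Algebra M M'] {a : M} (h : GoodAt p q M a) : GoodAt p q M' (algebraMap M M' a) := by
  intro 𝔓 h𝔓 hq𝔓
  have hq𝔭 : (q : 𝓞 M) ∈ 𝔓.under (𝓞 M) := by
    rw [Ideal.under, Ideal.mem_comap]
    simpa using hq𝔓
  have h𝔭 : (𝔓.under (𝓞 M)).IsPrime := inferInstance
  obtain ⟨c, r, hc0, hrc, hr⟩ := h _ h𝔭 hq𝔭
  refine ⟨algebraMap M M' c, algebraMap (𝓞 M) (𝓞 M') r, ?_, ?_, ?_⟩
  · exact (map_ne_zero _).mpr hc0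
  · have h1 : ((algebraMap (𝓞 M) (𝓞 M') r : 𝓞 M') : M') = algebraMap M M' (r : M) := rfl
    rw [h1, hrc, map_mul, map_pow]
  · exact hr

/-- **The induction.**  If `L'` is generated over `M` by `p`-th roots of elements of `M` which
are good at `q ≠ p`, and `q` is unramified in `M`, then `q` is unramified in `L'`. -/
theorem unramAt_of_generated (p q : ℕ) (hq : q.Prime) (hqp : ¬ q ∣ p) :
    ∀ (n : ℕ) (M L' : Type) [Field M] [NumberField M] [Field L'] [NumberField L']
      [Algebra M L'], Module.finrank M L' = n →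
      ∀ B : Set L', (∀ β ∈ B, ∃ a : M, GoodAt p q M a ∧ β ^ p = algebraMap M L' a) →
        IntermediateField.adjoin M B = ⊤ → UnramAt M q → UnramAt L' q := by
  intro n
  induction n using Nat.strong_induction_on with
  | _ n ih =>
    intro M L' _ _ _ _ _ hn B hB hgen hM
    by_cases hsub : ∀ β ∈ B, β ∈ (⊥ : IntermediateField M L')
    · -- `L' = M`
      have hbot : (⊥ : IntermediateField M L') = ⊤ := by
        apply le_antisymm bot_le
        rw [← hgen, IntermediateField.adjoin_le_iff]
        exact hsub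
      have hbot' : (⊥ : Subalgebra M L') = ⊤ := by
        have := congrArg IntermediateField.toSubalgebra hbot
        rwa [IntermediateField.bot_toSubalgebra, IntermediateField.top_toSubalgebra] at this
      refine UnramReduced.isReduced_of_kummer q hq 1 (by simpa using hq.one_lt.ne') (1 : L')
        (by rw [Algebra.adjoin_singleton_one]; exact hbot') (1 : M) (by simp) ?_ hM
      intro 𝔭 h𝔭 _
      exact ⟨1, 1, one_ne_zero, by simp, fun h1 => h𝔭.ne_top ((Ideal.eq_top_iff_one _).mpr h1)⟩
    · push Not at hsub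
      obtain ⟨β, hβB, hβ⟩ := hsub
      obtain ⟨a, ha, hβa⟩ := hB β hβB
      have hβint : IsIntegral M β := IsIntegral.of_finite M β
      -- the first step `M ⊆ M⟮β⟯`
      have h1 : UnramAt (M⟮β⟯) q := by
        refine UnramReduced.isReduced_of_kummer q hq p hqp (AdjoinSimple.gen M β) ?_ a ?_ ha hM
        · have := (IntermediateField.adjoin.powerBasis hβint).adjoin_gen_eq_top
          rwa [IntermediateField.adjoin.powerBasis_gen] at this
        · apply Subtype.ext
          show ((AdjoinSimple.gen M β : M⟮β⟯) : L') ^ p = algebraMap M L' a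
          rw [AdjoinSimple.coe_gen, hβa]
      -- the degree drops
      have hmul := Module.finrank_mul_finrank M (M⟮β⟯) L'
      have hne1 : Module.finrank M (M⟮β⟯) ≠ 1 := by
        rw [Ne, IntermediateField.finrank_eq_one_iff, IntermediateField.adjoin_simple_eq_bot_iff]
        exact hβ
      have hpos1 : 0 < Module.finrank M (M⟮β⟯) := Module.finrank_pos
      have hpos2 : 0 < Module.finrank (M⟮β⟯) L' := Module.finrank_pos
      have hlt : Module.finrank (M⟮β⟯) L' < n := by
        rw [← hn, ← hmul]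
        have : 2 ≤ Module.finrank M (M⟮β⟯) := by omega
        nlinarith
      -- generation over `M⟮β⟯`
      have hgen' : IntermediateField.adjoin (M⟮β⟯) B = ⊤ := by
        rw [← IntermediateField.restrictScalars_eq_top_iff (K := M), eq_top_iff, ← hgen,
          IntermediateField.adjoin_le_iff]
        intro x hx
        exact IntermediateField.subset_adjoin (M⟮β⟯) B hx
      refine ih _ hlt (M⟮β⟯) L' rfl B ?_ hgen' h1
      intro β' hβ'
      obtain ⟨a', ha', hβa'⟩ := hB β' hβ'
      exact ⟨algebraMap M (M⟮β⟯) a', ha'.map, by rw [hβa']; rfl⟩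

/-- An element of `Sel` is good at every prime outside `S`. -/
theorem goodAt_of_mem_Sel (p : ℕ) [Fact p.Prime] (L : Type) [Field L] [NumberField L]
    (S : Finset Nat.Primes) (a : Lˣ) (ha : a ∈ ExistPlan.Sel p L S) (q : Nat.Primes)
    (hq : q ∉ S) : GoodAt p (q : ℕ) L (a : L) := by
  intro 𝔭 h𝔭 hq𝔭
  have h𝔭0 : 𝔭 ≠ ⊥ := by
    rintro rfl
    have h0 : ((q : ℕ) : 𝓞 L) = 0 := by simpa using hq𝔭
    exact (Nat.cast_ne_zero.mpr q.2.ne_zero) h0
  obtain ⟨u, hu, y, hy⟩ := ExistPlan.mem_Sel.mp ha q hq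
  have hdvd := KummerLimit.dvd_ordZ_of_principal_eq p a q y u hu (by rw [hy, mul_comm])
    ⟨𝔭, h𝔭, h𝔭0⟩ hq𝔭
  exact KummerPair.exists_scale_of_dvd_ordZ ⟨𝔭, h𝔭, h𝔭0⟩ a p (Fact.out : p.Prime).ne_zero hdvd

/-- **[EX.c]** `ExistPlan.KummerUnram`: a Kummer pair for `Δ ≤ Sel` over a field unramified
outside `S ∋ p` is unramified outside `S`. -/
theorem kummerUnram : ExistPlan.KummerUnram := by
  intro p _ L _ _ S hpS hL Δ hΔ L' _ _ G' _ _ _ f hK q hqS
  obtain ⟨q₀, hq₀S, hq₀p⟩ := hpS
  have hp : p.Prime := Fact.out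
  have hqp : ¬ (q : ℕ) ∣ p := by
    intro hdvd
    have h1 : (q : ℕ) = p := (Nat.prime_dvd_prime_iff_eq q.2 hp).mp hdvd
    have h2 : q = q₀ := Subtype.ext (h1.trans hq₀p.symm)
    exact hqS (h2 ▸ hq₀S)
  obtain ⟨B, hB, hcl⟩ := hK.gen
  let _ : Algebra L L' := f.toAlgebra
  have hgen : IntermediateField.adjoin L B = ⊤ := by
    apply IntermediateField.toSubfield_injective
    rw [IntermediateField.adjoin_toSubfield, IntermediateField.top_toSubfield]
    exact hcl
  refine unramAt_of_generated p (q : ℕ) q.2 hqp _ L L' rfl B ?_ hgen (hL q hqS)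
  intro β hβ
  obtain ⟨a, haΔ, hβa⟩ := hB β hβ
  exact ⟨(a : L), goodAt_of_mem_Sel p L S a (hΔ haΔ) q hqS, hβa⟩

end Fermat.Agent.CFT.Global.ExistUnram
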