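/-
CFT program (P3), layer Global, package [EX] (helper85): the leaves plugged into the assembly.

`existenceModP_of : ExistPlan.Count → ExistPlan.SClassModule → Plan.LocUnitsAcyclic →
  ExistPlan.ExistenceModP` and, with the landed count,
`existenceModP_of_sClassModule : ExistPlan.SClassModule → Plan.LocUnitsAcyclic →
  ExistPlan.ExistenceModP`.

Landed leaves used: `ExistCountInst.count` ([EX.a], helper28),
`ExistKummer.multiKummer` ([EX.b], helper32), `ExistUnram.kummerUnram` ([EX.c], helper31),
`ExistSplitPlan.splitNorm` ([EX.d], helper42), `ExistTate.tateCount` ([EX.e], helper37/helper55),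
`ExistSDescent.sDescent_of_plan` ([EX.h], helper89).

[EX.g] `ExistPlan.SClassModule` is `Glob.ClassExport.sClassModule` (helper51) from
`Plan.ClassFormationP` and `Plan.SClassCompare`, the latter being
`SClassCompare.sClassCompare_of_locUnitsAcyclic` (helper69) from [C3]:

`existenceModP_of_plan : Plan.ClassFormationP → Plan.LocUnitsAcyclic → ExistPlan.ExistenceModP`.

[EX.h] is unconditional (`sDescent`, with helper9's `LocUnitsDirect.locUnitsH1`), hence

`existenceModP_of_sClass : ExistPlan.SClassModule → ExistPlan.ExistenceModP`,
`existenceModP_of_classFormation : Plan.ClassFormationP → Plan.SClassCompare →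
  ExistPlan.ExistenceModP`.

[C3] is unconditional (`Bridge.LocUnits.locUnitsAcyclic`, helper44), hence [G3] is, and

`existenceModP_of_classFormationP : Plan.ClassFormationP → ExistPlan.ExistenceModP`.

Remaining input: [F1] `Plan.ClassFormationP` (the reciprocity package).
-/
import Mathlib
import Fermat.Agent.CFT.Global.ExistP
import Fermat.Agent.CFT.Global.ExistCountInst
import Fermat.Agent.CFT.Global.ExistKummer
import Fermat.Agent.CFT.Global.ExistUnram
import Fermat.Agent.CFT.Global.ExistSplitPlan
import Fermat.Agent.CFT.Global.ExistTate
import Fermat.Agent.CFT.Global.ExistSDescent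
import Fermat.Agent.CFT.Global.SClassComparePlan
import Fermat.Agent.CFT.Global.LocUnitsDirect.H1
import Fermat.Agent.CFT.Bridge.LocUnits
import Fermat.Agent.CFT.Glob.ClassExport

set_option autoImplicit false

namespace Fermat.Agent.CFT.Global.ExistHolds

open Fermat.Agent.CFT Fermat.Agent.CFT.Global

/-- The existence theorem mod `p`, from the count [EX.a], the `S`-class module [EX.g] and the
vanishing of the cohomology of the local units at unramified primes [C3]. -/
theorem existenceModP_of (hA : ExistPlan.Count) (hG : ExistPlan.SClassModule)
    (hC3 : Plan.LocUnitsAcyclic) : ExistPlan.ExistenceModP :=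
  ExistP.existenceModP hA ExistKummer.multiKummer ExistUnram.kummerUnram
    ExistSplitPlan.splitNorm ExistTate.tateCount hG (ExistSDescent.sDescent_of_plan hC3)

/-- The existence theorem mod `p`, from the `S`-class module [EX.g] and [C3] (the count [EX.a]
is `ExistCountInst.count`). -/
theorem existenceModP_of_sClassModule (hG : ExistPlan.SClassModule)
    (hC3 : Plan.LocUnitsAcyclic) : ExistPlan.ExistenceModP :=
  existenceModP_of ExistCountInst.count hG hC3

/-- The existence theorem mod `p`, from the `p`-primary class formation [F1] and [C3]. -/
theorem existenceModP_of_plan (hF1 : Plan.ClassFormationP) (hC3 : Plan.LocUnitsAcyclic) :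
    ExistPlan.ExistenceModP :=
  existenceModP_of_sClassModule
    (Glob.ClassExport.sClassModule hF1 (SClassCompare.sClassCompare_of_locUnitsAcyclic hC3)) hC3

/-- **[EX.h]** is unconditional: `ExistSDescent.sDescent` with `LocUnitsDirect.locUnitsH1`. -/
theorem sDescent : ExistPlan.SDescent := ExistSDescent.sDescent LocUnitsDirect.locUnitsH1

/-- The existence theorem mod `p` from the `S`-class module [EX.g] alone. -/
theorem existenceModP_of_sClass (hG : ExistPlan.SClassModule) : ExistPlan.ExistenceModP :=
  ExistP.existenceModP ExistCountInst.count ExistKummer.multiKummer ExistUnram.kummerUnram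
    ExistSplitPlan.splitNorm ExistTate.tateCount hG sDescent

/-- The existence theorem mod `p` from the `p`-primary class formation [F1] and the comparison
[G3] of `C_L` with `C_S(L)`. -/
theorem existenceModP_of_classFormation (hF1 : Plan.ClassFormationP)
    (hG3 : Plan.SClassCompare) : ExistPlan.ExistenceModP :=
  existenceModP_of_sClass (Glob.ClassExport.sClassModule hF1 hG3)

/-- **[G3]** is unconditional: `SClassCompare.sClassCompare_of_locUnitsAcyclic` with
`Bridge.LocUnits.locUnitsAcyclic`. -/
theorem sClassCompare : Plan.SClassCompare :=
  SClassCompare.sClassCompare_of_locUnitsAcyclic Bridge.LocUnits.locUnitsAcyclic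

/-- **The existence theorem mod `p` from the `p`-primary class formation [F1]** (all other
inputs are landed theorems). -/
theorem existenceModP_of_classFormationP (hF1 : Plan.ClassFormationP) :
    ExistPlan.ExistenceModP :=
  existenceModP_of_classFormation hF1 sClassCompare

end Fermat.Agent.CFT.Global.ExistHolds
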