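import Mathlib
import Fermat.Agent.CFT.Global.Plan
import Fermat.Agent.CFT.Global.IdeleStructure

/-!
# Global plan, block A: the providers

`theorem x : Plan.X` for `[A1] PrincipalLe`, `[A2] ClassGroupFinite`, `[A3] ClassGroupTrivial`,
`[A4] SExact` of `Fermat/Agent/CFT/Global/Plan.lean`, from `Global/IdeleStructure.lean`.
-/

set_option autoImplicit false

namespace Fermat.Agent.CFT.Global.IdeleStructure

/-- **[A1]** -/
theorem principalLe_plan : Plan.PrincipalLe := fun L _ _ => principalLe L

/-- **[A2]** -/
theorem classGroupFinite_plan : Plan.ClassGroupFinite := fun L _ _ S => classGroupFinite L S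

/-- **[A3]** -/
theorem classGroupTrivial_plan : Plan.ClassGroupTrivial := fun L _ _ => classGroupTrivial L

/-- **[A4]** -/
theorem sExact_plan : Plan.SExact := fun L _ _ S => sExact L S

end Fermat.Agent.CFT.Global.IdeleStructure
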