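import Fermat.Agent.CFT.Global.Plan
import Fermat.Agent.CFT.Global.LocUnitsHerbrand

/-!
# Global Plan, prop [C4] `LocUnitsHerbrand`: provider

`locUnitsHerbrand : Plan.LocUnitsHerbrand` (unconditional), from
`LocUnitsHerbrand.locUnitsHerbrand`.
-/

namespace Fermat.Agent.CFT.Global.LocUnitsHerbrand

/-- **[C4]** The Herbrand quotient of the local units is `1` (cyclic `G`, every prime). -/
theorem locUnitsHerbrand_plan : Plan.LocUnitsHerbrand :=
  fun G L _ _ _ _ _ _ _ q _ => locUnitsHerbrand G L q

end Fermat.Agent.CFT.Global.LocUnitsHerbrand
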