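import Mathlib
import Fermat.Agent.CFT.Global.Defs

/-!
# P3 / CFT, global layer, [B5]: `G` permutes the places above `q` transitively

`G` a finite group acting on a field `L` of characteristic zero with fixed field `ℚ`.  Then the
invariants of `G` on the semilocal algebra `L ⊗[ℚ] ℚ_[q]` are `ℚ_[q]` (`isInvariant_semiLocal`;
coordinates in a `ℚ`-basis of `ℚ_[q]`), hence `G` permutes the maximal ideals of `L ⊗[ℚ] ℚ_[q]`
transitively (`orbitTransitive`).
-/

set_option autoImplicit false

open scoped TensorProduct Pointwise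

noncomputable section

namespace Fermat.Agent.CFT.Global.OrbitTransitive

open Fermat.Agent.CFT.Global

section Coord

variable (G : Type) [Group G] (L : Type) [Field L] [CharZero L] [MulSemiringAction G L]
  (q : ℕ) [Fact q.Prime]

theorem smul_algebraMap_rat (g : G) (r : ℚ) : g • (algebraMap ℚ L r) = algebraMap ℚ L r := by
  rw [eq_ratCast]
  exact map_ratCast (MulSemiringAction.toRingHom G L g) r

/-- The coordinates of `g • x` in the `L`-basis `1 ⊗ e i` of `L ⊗[ℚ] ℚ_[q]`. -/
theorem repr_smul {ι : Type*} (e : Module.Basis ι ℚ ℚ_[q]) (g : G) (x : SemiLocal L q) (i : ι) :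
    (Algebra.TensorProduct.basis L e).repr (g • x) i =
      g • (Algebra.TensorProduct.basis L e).repr x i := by
  induction x using TensorProduct.induction_on with
  | zero => simp
  | tmul a b =>
    rw [smul_tmul_eq, Algebra.TensorProduct.basis_repr_tmul, Algebra.TensorProduct.basis_repr_tmul]
    simp only [Finsupp.smul_apply, Finsupp.mapRange_apply, smul_eq_mul, smul_mul']
    rw [smul_algebraMap_rat]
  | add x y hx hy => simp only [smul_add, map_add, Finsupp.add_apply, hx, hy]

/-- The invariants of `G` on `L ⊗[ℚ] ℚ_[q]` are `ℚ_[q]` when the fixed field of `G` is `ℚ`. -/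
theorem isInvariant_semiLocal
    (hfix : ∀ y : L, (∀ g : G, g • y = y) → y ∈ (algebraMap ℚ L).range) :
    letI := Algebra.TensorProduct.rightAlgebra (R := ℚ) (A := L) (B := ℚ_[q])
    Algebra.IsInvariant ℚ_[q] (SemiLocal L q) G := by
  let _ := Algebra.TensorProduct.rightAlgebra (R := ℚ) (A := L) (B := ℚ_[q])
  refine ⟨fun b hb => ?_⟩
  let e := Module.Free.chooseBasis ℚ ℚ_[q]
  let B := Algebra.TensorProduct.basis L e
  have hcoord : ∀ i, ∃ r : ℚ, algebraMap ℚ L r = B.repr b i := by
    intro i
    apply hfix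
    intro g
    rw [← repr_smul, hb g]
  choose r hr using hcoord
  refine ⟨∑ i ∈ (B.repr b).support, r i • e i, ?_⟩
  rw [Algebra.TensorProduct.right_algebraMap_apply, TensorProduct.tmul_sum]
  conv_rhs => rw [← B.linearCombination_repr b]
  rw [Finsupp.linearCombination_apply, Finsupp.sum]
  refine Finset.sum_congr rfl fun i _ => ?_
  rw [← hr i, Algebra.TensorProduct.basis_apply, TensorProduct.tmul_smul,
    TensorProduct.smul_tmul', TensorProduct.smul_tmul', Algebra.smul_def, mul_one, smul_eq_mul,
    mul_one]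

end Coord

/-- **[B5]** If the fixed field of `G` on `L` is `ℚ`, then `G` permutes the maximal ideals of
`L ⊗[ℚ] ℚ_[q]` (the places of `L` above `q`) transitively. -/
theorem orbitTransitive (G L : Type) [Group G] [Fintype G] [Field L] [NumberField L]
    [MulSemiringAction G L] (q : ℕ) [Fact q.Prime]
    (hfix : ∀ y : L, (∀ g : G, g • y = y) → y ∈ (algebraMap ℚ L).range)
    (m m' : Ideal (SemiLocal L q)) (hm : m.IsMaximal) (hm' : m'.IsMaximal) :
    ∃ g : G, ∀ x : SemiLocal L q, x ∈ m' ↔ g • x ∈ m := by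
  let _ := Algebra.TensorProduct.rightAlgebra (R := ℚ) (A := L) (B := ℚ_[q])
  have : SMulCommClass G ℚ_[q] (SemiLocal L q) := ⟨fun g c x => by
    rw [Algebra.smul_def, Algebra.smul_def, smul_mul',
      Algebra.TensorProduct.right_algebraMap_apply, smul_tmul_eq, smul_one]⟩
  have := isInvariant_semiLocal G L q hfix
  have hu : ∀ P : Ideal (SemiLocal L q), P.IsPrime → P.under ℚ_[q] = ⊥ := by
    intro P hP
    rcases Ideal.eq_bot_or_top (P.under ℚ_[q]) with h | h
    · exact h
    · exact absurd h (Ideal.comap_ne_top _ hP.ne_top)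
  have := hm.isPrime
  have := hm'.isPrime
  obtain ⟨g, hg⟩ := Algebra.IsInvariant.exists_smul_of_under_eq ℚ_[q] (SemiLocal L q) G m m'
    (by rw [hu m hm.isPrime, hu m' hm'.isPrime])
  refine ⟨g⁻¹, fun x => ?_⟩
  rw [hg, Ideal.mem_pointwise_smul_iff_inv_smul_mem]

end Fermat.Agent.CFT.Global.OrbitTransitive

end
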