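import Fermat.Agent.CFT.Global.Plan
import Fermat.Agent.CFT.Global.OrbitTransitive

/-!
# P3 / CFT, global layer: `Plan.OrbitTransitive` ([B5]) holds
-/

set_option autoImplicit false

namespace Fermat.Agent.CFT.Global.OrbitTransitive

open Fermat.Agent.CFT.Global

/-- **[B5]** `Plan.OrbitTransitive`, unconditionally. -/
theorem orbitTransitive_holds : Plan.OrbitTransitive :=
  fun G L _ _ _ _ _ q _ hfix m m' hm hm' => orbitTransitive G L q hfix m m' hm hm'

end Fermat.Agent.CFT.Global.OrbitTransitive
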