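import Fermat.Agent.CFT.Global.CycloChar
import Fermat.Agent.CFT.Global.QBridgeNorm
import Fermat.Agent.CFT.Global.CycloNorm

/-!
# The idelic cyclotomic character, part 4: reciprocity ("lands in Galois")

For a number field `L`, a prime `r`, `e : ℕ` and a finite Galois extension `M / L`:

* `exists_localChar_eq_finprod` : for `q ≠ r` the local character is
  `x ↦ ∏_{w ∣ q} N(w) ^ (div x)(w)` (a uniformizer at `w` goes to `N(w)`);
* `galExp L r e M` : the subgroup of `(ZMod (r ^ e))ˣ` of the exponents `k` such that some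
  `σ ∈ Gal(M / L)` acts on the `r ^ e`-th roots of unity of `M` by `t ↦ t ^ k`;
* `exists_gal_localChar` : the values of the local characters at `q ≠ r` lie in `galExp`;
* `exists_gal_chi` : up to sign, the values of `chi` lie in `galExp`.
-/

set_option autoImplicit false
set_option linter.unusedSectionVars false

open scoped TensorProduct

noncomputable section

namespace Fermat.Agent.CFT.Global.CycloChar

open Fermat.Agent.CFT.Global Fermat.Agent.CFT.Global.QBridge NumberField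

section Finprod

variable (L : Type) [Field L] [NumberField L] (r e : ℕ) [Fact r.Prime]

attribute [local instance] Algebra.TensorProduct.rightAlgebra in
/-- For `q ≠ r` the local character is `x ↦ ∏_{w ∣ q} N(w) ^ (div x)(w)`. -/
theorem exists_localChar_eq_finprod (q : Nat.Primes) (hq : (q : ℕ) ≠ r) :
    ∃ u : QBridge.PrimesOver (q : ℕ) L → (ZMod (r ^ e))ˣ,
      (∀ w, ((u w : (ZMod (r ^ e))ˣ) : ZMod (r ^ e)) =
        (Ideal.absNorm w.1.asIdeal : ZMod (r ^ e))) ∧
      ∀ x : (SemiLocal L q)ˣ, localChar L r e q x =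
        ∏ᶠ w : QBridge.PrimesOver (q : ℕ) L,
          u w ^ (Multiplicative.toAdd (QBridge.divq (q : ℕ) L x) w) := by
  classical
  set g : (ZMod (r ^ e))ˣ := ZMod.unitOfCoprime (q : ℕ) (coprime_pow_of_ne (q : ℕ) r e hq)
    with hg
  refine ⟨fun w => g ^ fDeg (q : ℕ) L w, ?_, ?_⟩
  · intro w
    rw [Units.val_pow_eq_pow_val, hg, ZMod.coe_unitOfCoprime, absNorm_eq_pow_fDeg, Nat.cast_pow]
  · intro x
    let _ : Fintype (QBridge.PrimesOver (q : ℕ) L) := Fintype.ofFinite _
    have hsum : ∀ (s : Finset (QBridge.PrimesOver (q : ℕ) L))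
        (f : QBridge.PrimesOver (q : ℕ) L → ℤ), g ^ (∑ w ∈ s, f w) = ∏ w ∈ s, g ^ f w := by
      intro s f
      induction s using Finset.induction_on with
      | empty => simp
      | insert i s hi ih => rw [Finset.sum_insert hi, Finset.prod_insert hi, zpow_add, ih]
    rw [localChar_apply, padicChar_of_ne (q : ℕ) r e hq, coe_localNorm, normFun_eq_norm,
      valuation_norm_eq, finsum_eq_sum_of_fintype, finprod_eq_prod_of_fintype, hsum]
    refine Finset.prod_congr rfl fun w _ => ?_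
    show g ^ ((fDeg (q : ℕ) L w : ℤ) * Multiplicative.toAdd (QBridge.divq (q : ℕ) L x) w) =
      (g ^ fDeg (q : ℕ) L w) ^ (Multiplicative.toAdd (QBridge.divq (q : ℕ) L x) w)
    rw [zpow_mul, zpow_natCast]

end Finprod

section Galois

variable (L : Type) [Field L] [NumberField L] (r e : ℕ) [Fact r.Prime]
variable (M : Type) [Field M] [NumberField M] [Algebra L M] [IsGalois L M]

/-- The exponents `k ∈ (ZMod (r ^ e))ˣ` realised by `Gal(M / L)` on the `r ^ e`-th roots of
unity of `M`. -/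
def galExp : Subgroup (ZMod (r ^ e))ˣ where
  carrier := {c | ∃ σ : M ≃ₐ[L] M, ∃ k : ℕ, (∀ t : M, t ^ (r ^ e) = 1 → σ t = t ^ k) ∧
    (k : ZMod (r ^ e)) = ((c : (ZMod (r ^ e))ˣ) : ZMod (r ^ e))}
  one_mem' := ⟨1, 1, fun t _ => by simp, by simp⟩
  mul_mem' := by
    rintro c d ⟨σ, k, hσ, hk⟩ ⟨τ, l, hτ, hl⟩
    refine ⟨σ * τ, k * l, fun t ht => ?_, ?_⟩
    · rw [AlgEquiv.mul_apply, hτ t ht, map_pow, hσ t ht, ← pow_mul]
    · rw [Nat.cast_mul, hk, hl, Units.val_mul]
  inv_mem' := by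
    rintro c ⟨σ, k, hσ, hk⟩
    have hne : NeZero (r ^ e) := ⟨pow_ne_zero _ (Fact.out : r.Prime).ne_zero⟩
    refine ⟨σ⁻¹, ((c⁻¹ : (ZMod (r ^ e))ˣ) : ZMod (r ^ e)).val, fun t ht => ?_,
      ZMod.natCast_zmod_val _⟩
    set l := ((c⁻¹ : (ZMod (r ^ e))ˣ) : ZMod (r ^ e)).val with hl
    have hkl : k * l ≡ 1 [MOD r ^ e] := by
      rw [← ZMod.natCast_eq_natCast_iff, Nat.cast_mul, hk, hl, ZMod.natCast_zmod_val,
        Units.mul_inv, Nat.cast_one]
    have h1 : σ (t ^ l) = t := by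
      rw [map_pow, hσ t ht, ← pow_mul, pow_eq_pow_of_modEq hkl ht, pow_one]
    have h2 : σ⁻¹ (σ (t ^ l)) = t ^ l := by
      show σ.symm (σ (t ^ l)) = t ^ l
      exact σ.symm_apply_apply _
    rw [h1] at h2
    exact h2

theorem mem_galExp (c : (ZMod (r ^ e))ˣ) :
    c ∈ galExp L r e M ↔ ∃ σ : M ≃ₐ[L] M, ∃ k : ℕ, (∀ t : M, t ^ (r ^ e) = 1 → σ t = t ^ k) ∧
      (k : ZMod (r ^ e)) = ((c : (ZMod (r ^ e))ˣ) : ZMod (r ^ e)) := Iff.rfl

/-- The class of the norm of a prime not above `r` lies in `galExp` (Frobenius). -/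
theorem mem_galExp_of_absNorm (q : Nat.Primes) (hq : (q : ℕ) ≠ r)
    (w : QBridge.PrimesOver (q : ℕ) L) (u : (ZMod (r ^ e))ˣ)
    (hu : ((u : (ZMod (r ^ e))ˣ) : ZMod (r ^ e)) = (Ideal.absNorm w.1.asIdeal : ZMod (r ^ e))) :
    u ∈ galExp L r e M := by
  have hr := (Fact.out : r.Prime)
  have hmem : ((r ^ e : ℕ) : 𝓞 L) ∉ w.1.asIdeal := by
    intro h
    rw [Nat.cast_pow] at h
    have h1 : (r : 𝓞 L) ∈ w.1.asIdeal := w.1.isPrime.mem_of_pow_mem e h
    exact hq (prime_eq_of_mem w.1 q.2 hr w.2 h1)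
  have := w.1.isPrime
  obtain ⟨σ, hσ⟩ := CycloNorm.exists_gal_pow_absNorm_prime (K := L) (E := M) (r ^ e)
    (pow_ne_zero _ hr.ne_zero) w.1.asIdeal w.1.ne_bot hmem
  exact ⟨σ, Ideal.absNorm w.1.asIdeal, hσ, hu.symm⟩

/-- The values of the local characters at `q ≠ r` are realised by `Gal(M / L)`. -/
theorem localChar_mem_galExp (q : Nat.Primes) (hq : (q : ℕ) ≠ r) (x : (SemiLocal L q)ˣ) :
    localChar L r e q x ∈ galExp L r e M := by
  obtain ⟨u, hu, hx⟩ := exists_localChar_eq_finprod L r e q hq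
  rw [hx x]
  refine finprod_induction (fun c => c ∈ galExp L r e M) (one_mem _)
    (fun _ _ ha hb => mul_mem ha hb) (fun w => ?_)
  exact zpow_mem (mem_galExp_of_absNorm L r e M q hq w (u w) (hu w)) _

/-- The values of the local characters at `q ≠ r` are realised by `Gal(M / L)`. -/
theorem exists_gal_localChar (q : Nat.Primes) (hq : (q : ℕ) ≠ r) (x : (SemiLocal L q)ˣ) :
    ∃ σ : M ≃ₐ[L] M, ∃ k : ℕ, (∀ t : M, t ^ (r ^ e) = 1 → σ t = t ^ k) ∧
      (k : ZMod (r ^ e)) = ((localChar L r e q x : (ZMod (r ^ e))ˣ) : ZMod (r ^ e)) :=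
  localChar_mem_galExp L r e M q hq x

/-- **Reciprocity**: up to the sign (the missing archimedean component), the value of the idelic
cyclotomic character is realised by an element of `Gal(M / L)` on the `r ^ e`-th roots of
unity. -/
theorem exists_gal_chi (a : ↥(finIdele L)) :
    ∃ σ : M ≃ₐ[L] M, ∃ k : ℕ, (∀ t : M, t ^ (r ^ e) = 1 → σ t = t ^ k) ∧
      ((k : ZMod (r ^ e)) = ((chi L r e a : (ZMod (r ^ e))ˣ) : ZMod (r ^ e)) ∨
        (k : ZMod (r ^ e)) = -((chi L r e a : (ZMod (r ^ e))ˣ) : ZMod (r ^ e))) := by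
  let rr : Nat.Primes := ⟨r, Fact.out⟩
  obtain ⟨c, w, hw, hcw⟩ := exists_principal_mul_isOneMod (L := L) rr ((a : IdeleProd L) rr)
    (M := e + 1) (Nat.succ_le_succ (Nat.zero_le e))
  set pc : ↥(finIdele L) := ⟨principal L c, principal_mem_finIdele c⟩ with hpc
  set a' : ↥(finIdele L) := a * pc⁻¹ with ha'
  have hchi : chi L r e a = chi L r e a' * chi L r e pc := by
    rw [ha', map_mul, map_inv, inv_mul_cancel_right]
  -- `chi a'` lies in `galExp`
  have hmem : chi L r e a' ∈ galExp L r e M := by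
    rw [chi_apply]
    refine finprod_induction (fun c => c ∈ galExp L r e M) (one_mem _)
      (fun _ _ ha hb => mul_mem ha hb) (fun q => ?_)
    by_cases hq : (q : ℕ) = r
    · have hqrr : q = rr := Subtype.ext hq
      subst hqrr
      have h1 : ((a' : ↥(finIdele L)) : IdeleProd L) rr = w := by
        show ((a : IdeleProd L) rr) * ((principal L c) rr)⁻¹ = w
        rw [hcw, mul_comm, inv_mul_cancel_left]
      rw [h1, localChar_eq_one_of_isOneMod (L := L) r e (Nat.succ_le_succ (Nat.zero_le e))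
        (Nat.le_succ e) hw]
      exact one_mem _
    · exact localChar_mem_galExp L r e M q hq _
  obtain ⟨σ, k, hσ, hk⟩ := hmem
  refine ⟨σ, k, hσ, ?_⟩
  rcases chi_principal L r e c with h1 | h1
  · left
    rw [hk, hchi, hpc, h1, mul_one]
  · right
    rw [hk, hchi, hpc, h1, mul_neg, mul_one, Units.val_neg, neg_neg]

/-- Subgroup form of `exists_gal_chi`. -/
theorem chi_mem_galExp_or_neg (a : ↥(finIdele L)) :
    chi L r e a ∈ galExp L r e M ∨ -chi L r e a ∈ galExp L r e M := by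
  obtain ⟨σ, k, hσ, hk | hk⟩ := exists_gal_chi L r e M a
  · exact Or.inl ⟨σ, k, hσ, hk⟩
  · exact Or.inr ⟨σ, k, hσ, by rw [hk, Units.val_neg]⟩

end Galois

end Fermat.Agent.CFT.Global.CycloChar
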