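/-
CFT program (P3), Global layer (helper32): **the norm of a semilocal Galois algebra is the
product of the conjugates**, and the resulting exact transitivity

  `semiLocalMap q f x = ∏ g : G', g • b  ⟹  N_{L ⊗ ℚ_q / ℚ_q}(x) = N_{L' ⊗ ℚ_q / ℚ_q}(b)`

for a Galois pair `(G', L', f : L →+* L')` (finite `G'` acting faithfully on `L'` with fixed
field `f(L)`).  This is the "norms" clause of the idelic cyclotomic character.

Proof of the first statement: with an `L`-basis `e` of `L'` indexed by `G'`, the elements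
`e h ⊗ 1` form a basis of `L' ⊗ ℚ_q` over `L ⊗ ℚ_q`; if `M` is the matrix of multiplication by
`b` and `E = (g • e h ⊗ 1)`, then `diag(g • b) * E = E * M`, and `det E` is a unit by Dedekind's
independence of characters.
-/
import Mathlib
import Fermat.Agent.CFT.Global.Defs

set_option autoImplicit false
set_option linter.unusedSectionVars false
set_option linter.unusedVariables false

namespace Fermat.Agent.CFT.Global.GaloisNorm

open scoped TensorProduct
open Matrix Fermat.Agent.CFT.Global

noncomputable section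

/-! ### The matrix lemma -/

/-- **Matrix form of "norm = product of conjugates".**  `B` free over `A` with basis `e`
indexed by `G`, `φ g` (`g : G`) `A`-algebra endomorphisms of `B`, and the matrix
`(φ g (e h))` has unit determinant.  Then `N_{B/A}(b) = ∏ g, φ g b`. -/
theorem algebraMap_norm_eq_prod {A B : Type*} [CommRing A] [CommRing B] [Algebra A B]
    {G : Type*} [Fintype G] [DecidableEq G] (e : Module.Basis G A B) (φ : G → B →ₐ[A] B)
    (hdet : IsUnit (Matrix.of fun g h => φ g (e h)).det) (b : B) :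
    algebraMap A B (Algebra.norm A b) = ∏ g, φ g b := by
  set E : Matrix G G B := Matrix.of fun g h => φ g (e h) with hE
  set M : Matrix G G A := Algebra.leftMulMatrix e b with hM
  have hmul : ∀ h : G, b * e h = ∑ k, M k h • e k := by
    intro h
    have h1 := Algebra.leftMulMatrix_mulVec_repr e b (e h)
    have h2 : e.repr (b * e h) = fun k => M k h := by
      ext k
      have := congrFun h1 k
      rw [← this, hM]
      simp [Matrix.mulVec, dotProduct, Module.Basis.repr_self, Finsupp.single_apply]
    conv_lhs => rw [← e.sum_repr (b * e h)]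
    simp [h2]
  have key : Matrix.diagonal (fun g => φ g b) * E = E * M.map (algebraMap A B) := by
    ext g h
    rw [Matrix.diagonal_mul, Matrix.mul_apply]
    simp only [hE, Matrix.of_apply, Matrix.map_apply]
    rw [← map_mul, hmul h, map_sum]
    refine Finset.sum_congr rfl fun k _ => ?_
    rw [Algebra.smul_def, map_mul, AlgHom.commutes, mul_comm]
  have hd := congrArg Matrix.det key
  rw [Matrix.det_mul, Matrix.det_mul, Matrix.det_diagonal, ← RingHom.mapMatrix_apply,
    ← RingHom.map_det, mul_comm] at hd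
  rw [Algebra.norm_eq_matrix_det e b]
  exact (hdet.mul_left_cancel hd).symm

/-! ### Dedekind -/

/-- **Dedekind.** For a finite group `G'` acting faithfully on a field `L'` and a family `e`
spanning `L'` over the fixed field, the matrix `(g • e h)` is invertible. -/
theorem det_smul_ne_zero {L' : Type*} [Field L'] {G' : Type*} [Group G'] [Fintype G']
    [DecidableEq G'] [MulSemiringAction G' L'] [FaithfulSMul G' L'] (e : G' → L')
    (hspan : ∀ y : L', ∃ c : G' → L', (∀ (h : G') (g : G'), g • c h = c h) ∧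
      y = ∑ h, c h * e h) :
    (Matrix.of fun g h : G' => g • e h).det ≠ 0 := by
  intro hdet
  obtain ⟨v, hv0, hv⟩ := Matrix.exists_vecMul_eq_zero_iff.mpr hdet
  have hv' : ∀ h, ∑ g, v g * (g • e h) = 0 := by
    intro h
    have := congrFun hv h
    simpa [Matrix.vecMul, dotProduct] using this
  have hall : ∀ y : L', ∑ g, v g * (g • y) = 0 := by
    intro y
    obtain ⟨c, hc, rfl⟩ := hspan y
    have h1 : ∀ g : G', g • (∑ h, c h * e h) = ∑ h, c h * (g • e h) := by
      intro g
      rw [Finset.smul_sum]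
      refine Finset.sum_congr rfl fun h _ => ?_
      rw [smul_mul', hc]
    simp_rw [h1, Finset.mul_sum]
    rw [Finset.sum_comm]
    refine Finset.sum_eq_zero fun h _ => ?_
    have : ∑ g, v g * (c h * (g • e h)) = c h * ∑ g, v g * (g • e h) := by
      rw [Finset.mul_sum]
      refine Finset.sum_congr rfl fun g _ => ?_
      ring
    rw [this, hv', mul_zero]
  have hli := linearIndependent_monoidHom L' L'
  have hinj : Function.Injective
      (fun g : G' => ((MulSemiringAction.toRingHom G' L' g : L' →+* L') : L' →* L')) := by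
    intro g g' hgg'
    apply eq_of_smul_eq_smul (α := L')
    intro y
    have := DFunLike.congr_fun hgg' y
    simpa using this
  have hli' := hli.comp _ hinj
  have h0 := Fintype.linearIndependent_iff.mp hli' v (by
    funext y
    simp only [Function.comp_apply, Finset.sum_apply, Pi.smul_apply, smul_eq_mul, Pi.zero_apply]
    exact hall y)
  exact hv0 (funext h0)

/-! ### `L' ⊗ ℚ_q` over `L ⊗ ℚ_q` -/

section Base

variable (q : ℕ) [Fact q.Prime] (L L' : Type) [Field L] [CharZero L] [Field L'] [CharZero L']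
  [Algebra L L']

/-- `L' ⊗ ℚ_q` as an algebra over `L ⊗ ℚ_q` (a local instance of this file). -/
@[reducible] def semiLocalAlgebra : Algebra (SemiLocal L q) (SemiLocal L' q) :=
  (semiLocalMap q (algebraMap L L')).toAlgebra

attribute [local instance] semiLocalAlgebra

theorem semiLocal_smul_def (a : SemiLocal L q) (t : SemiLocal L' q) :
    a • t = semiLocalMap q (algebraMap L L') a * t := rfl

theorem semiLocal_tmul_smul_tmul (l : L) (c : ℚ_[q]) (y : L') (d : ℚ_[q]) :
    (l ⊗ₜ[ℚ] c : SemiLocal L q) • (y ⊗ₜ[ℚ] d : SemiLocal L' q) = (l • y) ⊗ₜ[ℚ] (c * d) := by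
  rw [semiLocal_smul_def, semiLocalMap_tmul, Algebra.TensorProduct.tmul_mul_tmul, Algebra.smul_def]

theorem semiLocalMap_inj : Function.Injective (semiLocalMap q (algebraMap L L')) := by
  have h := Module.Flat.rTensor_preserves_injective_linearMap (M := ℚ_[q])
    ((algebraMap L L').toRatAlgHom.toLinearMap) (algebraMap L L').injective
  intro x y hxy
  apply h
  exact hxy

variable {L L'} {ι : Type} [DecidableEq ι]

/-- coordinates of `L' ⊗ ℚ_q` over `L ⊗ ℚ_q` with respect to an `L`-basis of `L'`. -/
def reprAdd (e : Module.Basis ι L L') : SemiLocal L' q ≃+ (ι →₀ SemiLocal L q) :=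
  ((LinearEquiv.rTensor ℚ_[q] (e.repr.restrictScalars ℚ)).trans
    (TensorProduct.finsuppLeft ℚ ℚ L ℚ_[q] ι)).toAddEquiv

theorem reprAdd_tmul_apply (e : Module.Basis ι L L') (y : L') (d : ℚ_[q]) (i : ι) :
    reprAdd q e (y ⊗ₜ[ℚ] d) i = (e.repr y i) ⊗ₜ[ℚ] d := by
  show (TensorProduct.finsuppLeft ℚ ℚ L ℚ_[q] ι) ((e.repr y) ⊗ₜ[ℚ] d) i = _
  rw [TensorProduct.finsuppLeft_apply_tmul_apply]

theorem reprAdd_smul (e : Module.Basis ι L L') (a : SemiLocal L q) (t : SemiLocal L' q) :
    reprAdd q e (a • t) = a • reprAdd q e t := by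
  induction t using TensorProduct.induction_on with
  | zero => simp
  | add t₁ t₂ h₁ h₂ => rw [smul_add, map_add, h₁, h₂, map_add, smul_add]
  | tmul y d =>
    induction a using TensorProduct.induction_on with
    | zero => simp
    | add a₁ a₂ h₁ h₂ => rw [add_smul, map_add, h₁, h₂, add_smul]
    | tmul l c =>
      ext i
      rw [semiLocal_tmul_smul_tmul, reprAdd_tmul_apply, Finsupp.smul_apply, reprAdd_tmul_apply,
        map_smul, Finsupp.smul_apply, smul_eq_mul, smul_eq_mul,
        Algebra.TensorProduct.tmul_mul_tmul]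

/-- the `L ⊗ ℚ_q`-basis `(e i ⊗ 1)` of `L' ⊗ ℚ_q`. -/
def semiLocalBasis (e : Module.Basis ι L L') : Module.Basis ι (SemiLocal L q) (SemiLocal L' q) :=
  Module.Basis.ofRepr
    { (reprAdd q e) with
      map_smul' := fun a t => reprAdd_smul q e a t }

theorem semiLocalBasis_apply (e : Module.Basis ι L L') (i : ι) :
    semiLocalBasis q e i = (e i) ⊗ₜ[ℚ] (1 : ℚ_[q]) := by
  apply (semiLocalBasis q e).repr.injective
  rw [Module.Basis.repr_self]
  ext j
  show _ = reprAdd q e ((e i) ⊗ₜ[ℚ] (1 : ℚ_[q])) j
  rw [reprAdd_tmul_apply, Module.Basis.repr_self, Finsupp.single_apply, Finsupp.single_apply]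
  split_ifs
  · rfl
  · rw [TensorProduct.zero_tmul]

/-! ### The Galois action -/

variable {G' : Type} [Group G'] [MulSemiringAction G' L']

/-- the action of `g : G'` on `L' ⊗ ℚ_q`, as an algebra endomorphism over `L ⊗ ℚ_q`. -/
def smulAlgHom (hfix : ∀ (g : G') (c : L), g • algebraMap L L' c = algebraMap L L' c) (g : G') :
    SemiLocal L' q →ₐ[SemiLocal L q] SemiLocal L' q :=
  { MulSemiringAction.toRingHom G' (SemiLocal L' q) g with
    commutes' := fun a => by
      show g • semiLocalMap q (algebraMap L L') a = semiLocalMap q (algebraMap L L') a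
      induction a using TensorProduct.induction_on with
      | zero => simp
      | tmul l c => rw [semiLocalMap_tmul, smul_tmul_eq, hfix]
      | add a₁ a₂ h₁ h₂ => rw [map_add, smul_add, h₁, h₂] }

theorem smulAlgHom_apply (hfix : ∀ (g : G') (c : L), g • algebraMap L L' c = algebraMap L L' c)
    (g : G') (t : SemiLocal L' q) : smulAlgHom q hfix g t = g • t := rfl

/-- **(N0)** the norm of `L' ⊗ ℚ_q` over `L ⊗ ℚ_q` is the product of the conjugates. -/
theorem semiLocalMap_norm_eq_prod [Fintype G'] [FaithfulSMul G' L']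
    (hfix : ∀ (g : G') (c : L), g • algebraMap L L' c = algebraMap L L' c)
    (e : Module.Basis G' L L') (b : SemiLocal L' q) :
    semiLocalMap q (algebraMap L L') (Algebra.norm (SemiLocal L q) b) = ∏ g : G', g • b := by
  classical
  have hspan : ∀ y : L', ∃ c : G' → L', (∀ (h : G') (g : G'), g • c h = c h) ∧
      y = ∑ h, c h * e h := by
    intro y
    refine ⟨fun h => algebraMap L L' (e.repr y h), fun h g => hfix g _, ?_⟩
    conv_lhs => rw [← e.sum_repr y]
    refine Finset.sum_congr rfl fun h _ => ?_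
    rw [Algebra.smul_def]
  have h0 := det_smul_ne_zero (fun h => e h) hspan
  let ι : L' →+* SemiLocal L' q :=
    (Algebra.TensorProduct.includeLeft (R := ℚ) (S := ℚ) (A := L') (B := ℚ_[q])).toRingHom
  have hE : (Matrix.of fun g h => smulAlgHom q hfix g (semiLocalBasis q e h)) =
      ι.mapMatrix (Matrix.of fun g h : G' => g • e h) := by
    ext g h
    rw [RingHom.mapMatrix_apply, Matrix.map_apply, Matrix.of_apply, Matrix.of_apply,
      smulAlgHom_apply, semiLocalBasis_apply, smul_tmul_eq]
    rfl
  have hdet : IsUnit (Matrix.of fun g h => smulAlgHom q hfix g (semiLocalBasis q e h)).det := by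
    rw [hE, ← RingHom.map_det]
    exact (isUnit_iff_ne_zero.mpr h0).map ι
  exact algebraMap_norm_eq_prod (semiLocalBasis q e) (smulAlgHom q hfix) hdet b

attribute [local instance] Algebra.TensorProduct.rightAlgebra

/-- **(N1)**, algebra form. -/
theorem norm_eq_of_semiLocalMap_eq_prod [Fintype G'] [FaithfulSMul G' L']
    (hfix : ∀ (g : G') (c : L), g • algebraMap L L' c = algebraMap L L' c)
    (e : Module.Basis G' L L') (x : SemiLocal L q) (b : SemiLocal L' q)
    (h : semiLocalMap q (algebraMap L L') x = ∏ g : G', g • b) :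
    Algebra.norm ℚ_[q] x = Algebra.norm ℚ_[q] b := by
  classical
  have h0 := semiLocalMap_norm_eq_prod q hfix e b
  have hx : x = Algebra.norm (SemiLocal L q) b := semiLocalMap_inj q L L' (h.trans h0.symm)
  rw [hx]
  have : IsScalarTower ℚ_[q] (SemiLocal L q) (SemiLocal L' q) :=
    IsScalarTower.of_algebraMap_eq (fun c => by
      show (1 : L') ⊗ₜ[ℚ] c = semiLocalMap q (algebraMap L L') ((1 : L) ⊗ₜ[ℚ] c)
      rw [semiLocalMap_tmul, map_one])
  have : Module.Free (SemiLocal L q) (SemiLocal L' q) :=
    Module.Free.of_basis (semiLocalBasis q e)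
  exact Algebra.norm_norm

end Base

/-! ### Galois pairs -/

section Pair

variable {L L' : Type} [Field L] [CharZero L] [Field L'] [CharZero L']
  {G' : Type} [Group G'] [Fintype G'] [MulSemiringAction G' L'] [FaithfulSMul G' L']

/-- an `L`-basis of `L'` indexed by `G'`, for a Galois pair `(G', L', f)`. -/
theorem exists_basis_of_fixed (f : L →+* L')
    (hfix : ∀ y : L', (∀ g : G', g • y = y) ↔ y ∈ f.range) :
    Nonempty (@Module.Basis G' L L' _ _ f.toAlgebra.toModule) := by
  classical
  let _ := f.toAlgebra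
  have hmem : ∀ a : L, f a ∈ FixedPoints.subfield G' L' := fun a g =>
    (hfix (f a)).mpr ⟨a, rfl⟩ g
  let f₀ : L →+* FixedPoints.subfield G' L' := f.codRestrict _ hmem
  have hbij : Function.Bijective f₀ := by
    refine ⟨f₀.injective, ?_⟩
    rintro ⟨y, hy⟩
    obtain ⟨a, ha⟩ := (hfix y).mp (fun g => hy g)
    exact ⟨a, Subtype.ext ha⟩
  let e₁ : L ≃+* FixedPoints.subfield G' L' := RingEquiv.ofBijective f₀ hbij
  have hcard : Module.finrank (FixedPoints.subfield G' L') L' = Fintype.card G' :=
    FixedPoints.finrank_eq_card G' L'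
  let b₀ : Module.Basis (Fin (Module.finrank (FixedPoints.subfield G' L') L'))
      (FixedPoints.subfield G' L') L' := Module.finBasis _ _
  let b₁ : Module.Basis G' (FixedPoints.subfield G' L') L' :=
    b₀.reindex (Fintype.equivOfCardEq (by rw [Fintype.card_fin, hcard]))
  refine ⟨b₁.mapCoeffs e₁.symm ?_⟩
  intro c x
  obtain ⟨a, rfl⟩ := e₁.surjective c
  rw [RingEquiv.symm_apply_apply]
  rfl

attribute [local instance] Algebra.TensorProduct.rightAlgebra

/-- **(N1) Exact norm transitivity for a Galois pair.**  `G'` finite, acting faithfully on `L'`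
with fixed field `f(L)`.  If the image of `x ∈ L ⊗ ℚ_q` in `L' ⊗ ℚ_q` is the `G'`-norm
`∏ g, g • b` of `b`, then `N_{(L ⊗ ℚ_q)/ℚ_q}(x) = N_{(L' ⊗ ℚ_q)/ℚ_q}(b)`. -/
theorem norm_eq_of_map_eq_prod (f : L →+* L')
    (hfix : ∀ y : L', (∀ g : G', g • y = y) ↔ y ∈ f.range) (q : ℕ) [Fact q.Prime]
    (x : SemiLocal L q) (b : SemiLocal L' q) (h : semiLocalMap q f x = ∏ g : G', g • b) :
    Algebra.norm ℚ_[q] x = Algebra.norm ℚ_[q] b := by
  let _ := f.toAlgebra
  obtain ⟨e⟩ := exists_basis_of_fixed f hfix
  exact norm_eq_of_semiLocalMap_eq_prod q (fun g c => (hfix (f c)).mpr ⟨c, rfl⟩ g) e x b h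

/-- **(N0) for a Galois pair**: the `G'`-norm of `b ∈ L' ⊗ ℚ_q` is the image of an element of
`L ⊗ ℚ_q` with the same `ℚ_q`-norm as `b`. -/
theorem exists_map_eq_prod (f : L →+* L')
    (hfix : ∀ y : L', (∀ g : G', g • y = y) ↔ y ∈ f.range) (q : ℕ) [Fact q.Prime]
    (b : SemiLocal L' q) :
    ∃ x : SemiLocal L q, semiLocalMap q f x = ∏ g : G', g • b ∧
      Algebra.norm ℚ_[q] x = Algebra.norm ℚ_[q] b := by
  let _ := f.toAlgebra
  obtain ⟨e⟩ := exists_basis_of_fixed f hfix
  have hfix' : ∀ (g : G') (c : L), g • algebraMap L L' c = algebraMap L L' c :=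
    fun g c => (hfix (f c)).mpr ⟨c, rfl⟩ g
  have h0 := semiLocalMap_norm_eq_prod q hfix' e b
  exact ⟨_, h0, norm_eq_of_semiLocalMap_eq_prod q hfix' e _ b h0⟩

end Pair

end

end Fermat.Agent.CFT.Global.GaloisNorm
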