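import Mathlib
import Fermat.Agent.CFT.Global.Defs
import Fermat.Agent.CFT.Global.QBridgeDefs
import Fermat.Agent.CFT.Global.QBridgeOrder
import Fermat.Agent.CFT.Global.WeakApprox
import Fermat.Agent.CFT.Global.CycloNorm

/-!
# The algebra norm of the semilocal algebras `L ⊗[ℚ] ℚ_[q]` over `ℚ_[q]`

Design-neutral facts about Mathlib's `Algebra.norm ℚ_[q]` on `L ⊗[ℚ] ℚ_[q]` (structure through
the right factor, `Algebra.TensorProduct.rightAlgebra`), for the idelic cyclotomic character: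

* `algNorm_tmul_one` : `N(a ⊗ 1) = N_{L/ℚ}(a)`;
* `algNorm_smul` : invariance under the automorphisms induced by field automorphisms of `L`;
* `algNorm_semiLocalMap` : base change, `N_{L'}(ι x) = N_L(x) ^ [L' : L]`;
* `algNorm_pow_card_eq_of_prod_smul` : for a finite group `G'` acting faithfully on `L'` with fixed
  field `f(L)` and `ι x = ∏ g, g • y`: `N_L(x) ^ |G'| = N_{L'}(y) ^ |G'|`;
* `algNorm_mu`, `norm_algNorm_le_one_of_mem_maxOrder`, `norm_algNorm_eq_one_of_mem_localUnits`,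
  `algNorm_one_add` : integrality, and `N(1 + q^k b) ∈ 1 + q^k ℤ_q` for `b` in the maximal order;
* `valHom`, `ordChar`, `unitPart` : the valuation and the unit part as homomorphisms on `ℚ_[q]ˣ`;
* `toZModPow_eq_one_of_pow_eq_one` : a root of unity of `ℤ_[p]` (`p` odd) congruent to `1` mod `p`
  is congruent to `1` modulo every power of `p`; `toZModPow_unitPart_pow_pred_eq_one` : the unit
  part of a root of unity of `ℚ_[p]` has trivial `(p-1)`-th power modulo `p ^ (s+1)`.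
-/

set_option autoImplicit false
set_option linter.unusedSectionVars false

open scoped TensorProduct

noncomputable section

namespace Fermat.Agent.CFT.Global.IdeleNorm

open Fermat.Agent.CFT.Global

attribute [local instance] Algebra.TensorProduct.rightAlgebra

/-! ### The semilocal algebra as a finite `ℚ_[q]`-algebra -/

section Local

variable (L : Type) [Field L] [NumberField L] (q : ℕ) [Fact q.Prime]

theorem finite_semiLocal : Module.Finite ℚ_[q] (SemiLocal L q) :=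
  Module.Finite.equiv (Algebra.TensorProduct.commRight ℚ ℚ_[q] L).toLinearEquiv

theorem finrank_semiLocal : Module.finrank ℚ_[q] (SemiLocal L q) = Module.finrank ℚ L := by
  rw [← (Algebra.TensorProduct.commRight ℚ ℚ_[q] L).toLinearEquiv.finrank_eq,
    Module.finrank_baseChange]

attribute [local instance] finite_semiLocal

theorem smul_tmul_right (c : ℚ_[q]) (a : L) (d : ℚ_[q]) :
    c • (a ⊗ₜ[ℚ] d : SemiLocal L q) = a ⊗ₜ[ℚ] (c * d) := by
  rw [Algebra.smul_def, Algebra.TensorProduct.right_algebraMap_apply,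
    Algebra.TensorProduct.tmul_mul_tmul, one_mul]

/-- **Norm of a principal element**: `N(a ⊗ 1) = N_{L/ℚ}(a)`. -/
theorem algNorm_tmul_one (a : L) :
    Algebra.norm ℚ_[q] (a ⊗ₜ[ℚ] (1 : ℚ_[q]) : SemiLocal L q) =
      algebraMap ℚ ℚ_[q] (Algebra.norm ℚ a) := by
  have h1 := Algebra.norm_eq_of_algEquiv (Algebra.TensorProduct.commRight ℚ ℚ_[q] L)
    ((1 : ℚ_[q]) ⊗ₜ[ℚ] a)
  have h2 : (Algebra.TensorProduct.commRight ℚ ℚ_[q] L) ((1 : ℚ_[q]) ⊗ₜ[ℚ] a) =
      a ⊗ₜ[ℚ] (1 : ℚ_[q]) := rfl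
  rw [h2] at h1
  rw [h1, Algebra.norm_apply, ← Algebra.baseChange_lmul, LinearMap.det_baseChange,
    ← Algebra.norm_apply]

/-- The norm is invariant under the automorphisms induced by field automorphisms of `L`. -/
theorem algNorm_smul {G : Type} [Group G] [MulSemiringAction G L] (g : G) (y : SemiLocal L q) :
    Algebra.norm ℚ_[q] (g • y) = Algebra.norm ℚ_[q] y := by
  let e : SemiLocal L q ≃ₐ[ℚ_[q]] SemiLocal L q :=
    { MulSemiringAction.toRingEquiv G (SemiLocal L q) g with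
      commutes' := fun c => by
        show g • ((1 : L) ⊗ₜ[ℚ] c : SemiLocal L q) = (1 : L) ⊗ₜ[ℚ] c
        rw [smul_tmul_eq, smul_one] }
  exact Algebra.norm_eq_of_algEquiv e y

end Local

/-! ### Base change -/

section BaseChange

variable (L L' : Type) [Field L] [NumberField L] [Field L'] [NumberField L'] [Algebra L L']
variable (q : ℕ) [Fact q.Prime]

attribute [local instance] finite_semiLocal

/-- `semiLocalMap` as a `ℚ_[q]`-algebra homomorphism. -/
def semiLocalAlgHom : SemiLocal L q →ₐ[ℚ_[q]] SemiLocal L' q :=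
  { semiLocalMap q (algebraMap L L') with
    commutes' := fun c => by
      show semiLocalMap q (algebraMap L L') ((1 : L) ⊗ₜ[ℚ] c) = (1 : L') ⊗ₜ[ℚ] c
      rw [semiLocalMap_tmul, map_one] }

theorem semiLocalAlgHom_apply (x : SemiLocal L q) :
    semiLocalAlgHom L L' q x = semiLocalMap q (algebraMap L L') x := rfl

/-- The comparison map `(L ⊗ ℚ_q)^ι → L' ⊗ ℚ_q` attached to an `L`-basis of `L'`. -/
def basisMap {ι : Type} [Fintype ι] (b : Module.Basis ι L L') :
    (ι → SemiLocal L q) →ₗ[ℚ_[q]] SemiLocal L' q :=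
  ∑ i : ι, (LinearMap.mulLeft ℚ_[q] ((b i) ⊗ₜ[ℚ] (1 : ℚ_[q]) : SemiLocal L' q)) ∘ₗ
    (semiLocalAlgHom L L' q).toLinearMap ∘ₗ LinearMap.proj i

theorem basisMap_apply {ι : Type} [Fintype ι] (b : Module.Basis ι L L')
    (y : ι → SemiLocal L q) :
    basisMap L L' q b y =
      ∑ i : ι, ((b i) ⊗ₜ[ℚ] (1 : ℚ_[q]) : SemiLocal L' q) *
        semiLocalMap q (algebraMap L L') (y i) := by
  simp [basisMap, semiLocalAlgHom_apply]

theorem basisMap_surjective {ι : Type} [Fintype ι] (b : Module.Basis ι L L') :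
    Function.Surjective (basisMap L L' q b) := by
  intro z
  show z ∈ LinearMap.range (basisMap L L' q b)
  induction z using TensorProduct.induction_on with
  | zero => exact zero_mem _
  | tmul l c =>
    refine ⟨fun i => (b.repr l i) ⊗ₜ[ℚ] c, ?_⟩
    rw [basisMap_apply]
    simp only [semiLocalMap_tmul, Algebra.TensorProduct.tmul_mul_tmul, one_mul]
    rw [← TensorProduct.sum_tmul]
    congr 1
    conv_rhs => rw [← b.sum_repr l]
    refine Finset.sum_congr rfl fun i _ => ?_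
    rw [Algebra.smul_def, mul_comm]
  | add z₁ z₂ h₁ h₂ => exact add_mem h₁ h₂

theorem basisMap_bijective {ι : Type} [Fintype ι] (b : Module.Basis ι L L') :
    Function.Bijective (basisMap L L' q b) := by
  have hs := basisMap_surjective L L' q b
  refine ⟨?_, hs⟩
  have hfin : Module.finrank ℚ_[q] (ι → SemiLocal L q) =
      Module.finrank ℚ_[q] (SemiLocal L' q) := by
    rw [Module.finrank_pi_fintype, finrank_semiLocal, Finset.sum_const, finrank_semiLocal,
      Finset.card_univ, smul_eq_mul, ← Module.finrank_eq_card_basis b,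
      mul_comm, Module.finrank_mul_finrank]
  exact (LinearMap.injective_iff_surjective_of_finrank_eq_finrank hfin).mpr hs

/-- **Base change of the norm**: `N_{L' ⊗ ℚ_q}(ι x) = N_{L ⊗ ℚ_q}(x) ^ [L' : L]`. -/
theorem algNorm_semiLocalMap (x : SemiLocal L q) :
    Algebra.norm ℚ_[q] (semiLocalMap q (algebraMap L L') x) =
      Algebra.norm ℚ_[q] x ^ Module.finrank L L' := by
  classical
  let b := Module.Free.chooseBasis L L'
  let e := LinearEquiv.ofBijective (basisMap L L' q b) (basisMap_bijective L L' q b)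
  have hconj : Algebra.lmul ℚ_[q] (SemiLocal L' q) (semiLocalMap q (algebraMap L L') x) =
      e.toLinearMap ∘ₗ
        (LinearMap.pi fun i => (Algebra.lmul ℚ_[q] (SemiLocal L q) x).comp (LinearMap.proj i))
          ∘ₗ e.symm.toLinearMap := by
    apply LinearMap.ext
    intro z
    obtain ⟨y, rfl⟩ := e.surjective z
    simp only [LinearMap.coe_comp, LinearEquiv.coe_coe, Function.comp_apply,
      LinearEquiv.symm_apply_apply]
    show _ * basisMap L L' q b y = basisMap L L' q b _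
    rw [basisMap_apply, basisMap_apply, Finset.mul_sum]
    refine Finset.sum_congr rfl fun i _ => ?_
    simp only [LinearMap.pi_apply, LinearMap.coe_comp, Function.comp_apply, LinearMap.proj_apply,
      Algebra.coe_lmul_eq_mul, LinearMap.mul_apply_apply, map_mul]
    ring
  rw [Algebra.norm_apply, hconj, LinearMap.det_conj, LinearMap.det_pi,
    Finset.prod_const, Finset.card_univ, ← Module.finrank_eq_card_chooseBasisIndex,
    ← Algebra.norm_apply]

end BaseChange

section BaseChangeHom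

variable {L L' : Type} [Field L] [NumberField L] [Field L'] [NumberField L']
variable (q : ℕ) [Fact q.Prime]

/-- Base change of the norm along a field embedding `f : L →+* L'` (the degree is taken for the
algebra structure `f.toAlgebra`). -/
theorem algNorm_semiLocalMap_hom (f : L →+* L') (x : SemiLocal L q) :
    Algebra.norm ℚ_[q] (semiLocalMap q f x) =
      Algebra.norm ℚ_[q] x ^ (@Module.finrank L L' _ _ f.toAlgebra.toModule) := by
  let _ := f.toAlgebra
  exact algNorm_semiLocalMap L L' q x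

/-- Artin: for a finite group `G'` acting faithfully on `L'` with fixed field `f(L)`, the degree
of `L'` over `L` (through `f`) is `|G'|`. -/
theorem finrank_eq_card_of_fixed {G' : Type} [Group G'] [Fintype G'] [MulSemiringAction G' L']
    [FaithfulSMul G' L'] (f : L →+* L')
    (hfix : ∀ y : L', (∀ g : G', g • y = y) ↔ y ∈ f.range) :
    @Module.finrank L L' _ _ f.toAlgebra.toModule = Fintype.card G' := by
  let _ := f.toAlgebra
  have hmem : ∀ a : L, f a ∈ FixedPoints.subfield G' L' := fun a g =>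
    (hfix (f a)).mpr ⟨a, rfl⟩ g
  let f₀ : L →+* FixedPoints.subfield G' L' := f.codRestrict _ hmem
  have hbij : Function.Bijective f₀ := by
    refine ⟨f₀.injective, ?_⟩
    rintro ⟨y, hy⟩
    obtain ⟨a, ha⟩ := (hfix y).mp (fun g => hy g)
    exact ⟨a, Subtype.ext ha⟩
  let e₁ : L ≃+* FixedPoints.subfield G' L' := RingEquiv.ofBijective f₀ hbij
  rw [← FixedPoints.finrank_eq_card G' L']
  exact Algebra.finrank_eq_of_equiv_equiv e₁ (RingEquiv.refl L') (by ext a; rfl)

/-- **Norms from a Galois pair**: if `G'` acts faithfully on `L'` with fixed field `f(L)` and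
`ι x = ∏ g, g • y`, then `N_L(x) ^ |G'| = N_{L'}(y) ^ |G'|`. -/
theorem algNorm_pow_card_eq_of_prod_smul {G' : Type} [Group G'] [Fintype G']
    [MulSemiringAction G' L'] [FaithfulSMul G' L'] (f : L →+* L')
    (hfix : ∀ y : L', (∀ g : G', g • y = y) ↔ y ∈ f.range)
    (x : SemiLocal L q) (y : SemiLocal L' q)
    (h : semiLocalMap q f x = ∏ g : G', g • y) :
    Algebra.norm ℚ_[q] x ^ Fintype.card G' = Algebra.norm ℚ_[q] y ^ Fintype.card G' := by
  have h1 := algNorm_semiLocalMap_hom q f x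
  rw [finrank_eq_card_of_fixed f hfix] at h1
  rw [← h1, h, map_prod]
  simp only [algNorm_smul, Finset.prod_const, Finset.card_univ]

end BaseChangeHom

/-! ### Integrality -/

section Integral

variable (L : Type) [Field L] [NumberField L] (q : ℕ) [Fact q.Prime]

attribute [local instance] finite_semiLocal

open Fermat.Agent.CFT.Global.QBridge Fermat.Agent.CFT.Global.WeakApprox NumberField

/-- The norm of an element of the maximal order, computed in `ℤ_[q] ⊗[ℤ] 𝓞 L`. -/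
theorem algNorm_mu (r : ℤ_[q] ⊗[ℤ] (𝓞 L)) :
    Algebra.norm ℚ_[q] (mu q L r) = ((Algebra.norm ℤ_[q] r : ℤ_[q]) : ℚ_[q]) := by
  classical
  let b := RingOfIntegers.basis L
  let B := Algebra.TensorProduct.basis ℤ_[q] b
  let B' : Module.Basis _ ℚ_[q] (SemiLocal L q) :=
    (Algebra.TensorProduct.basis ℚ_[q] (integralBasis L)).map
      (Algebra.TensorProduct.commRight ℚ ℚ_[q] L).toLinearEquiv
  have hB' : ∀ i, B' i = mu q L (B i) := by
    intro i
    show (Algebra.TensorProduct.commRight ℚ ℚ_[q] L)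
      (Algebra.TensorProduct.basis ℚ_[q] (integralBasis L) i) = mu q L (B i)
    rw [Algebra.TensorProduct.basis_apply, Algebra.TensorProduct.basis_apply, mu_tmul,
      integralBasis_apply]
    rfl
  have hsemi : ∀ (c : ℤ_[q]) (z : ℤ_[q] ⊗[ℤ] (𝓞 L)),
      mu q L (c • z) = (c : ℚ_[q]) • mu q L z := by
    intro c z
    induction z using TensorProduct.induction_on with
    | zero => simp
    | tmul c' y =>
      rw [TensorProduct.smul_tmul', mu_tmul, mu_tmul, smul_tmul_right, smul_eq_mul,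
        PadicInt.coe_mul]
    | add z₁ z₂ h₁ h₂ => rw [smul_add, map_add, h₁, h₂, map_add, smul_add]
  have hrepr : ∀ (z : ℤ_[q] ⊗[ℤ] (𝓞 L)) i,
      B'.repr (mu q L z) i = ((B.repr z i : ℤ_[q]) : ℚ_[q]) := by
    intro z i
    conv_lhs => rw [← B.sum_repr z]
    rw [map_sum]
    simp only [hsemi, ← hB']
    rw [B'.repr_sum_self]
  rw [Algebra.norm_eq_matrix_det B', Algebra.norm_eq_matrix_det B]
  have hmat : Algebra.leftMulMatrix B' (mu q L r) =
      (PadicInt.Coe.ringHom : ℤ_[q] →+* ℚ_[q]).mapMatrix (Algebra.leftMulMatrix B r) := by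
    ext i j
    rw [Algebra.leftMulMatrix_eq_repr_mul, RingHom.mapMatrix_apply, Matrix.map_apply,
      Algebra.leftMulMatrix_eq_repr_mul, hB', ← map_mul, hrepr]
    rfl
  rw [hmat, ← RingHom.map_det]
  rfl

/-- The norm of an element of the maximal order is a `q`-adic integer. -/
theorem norm_algNorm_le_one_of_mem_maxOrder {x : SemiLocal L q} (hx : x ∈ maxOrder q L) :
    ‖Algebra.norm ℚ_[q] x‖ ≤ 1 := by
  obtain ⟨r, rfl⟩ := exists_mu_eq q L hx
  rw [algNorm_mu]
  exact PadicInt.norm_le_one _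

/-- The norm of a local unit is a `q`-adic unit. -/
theorem norm_algNorm_eq_one_of_mem_localUnits {x : (SemiLocal L q)ˣ} (hx : x ∈ localUnits L q) :
    ‖Algebra.norm ℚ_[q] (x : SemiLocal L q)‖ = 1 := by
  obtain ⟨h1, h2⟩ := (mem_localUnits_iff_maxOrder x).mp hx
  have a1 := norm_algNorm_le_one_of_mem_maxOrder L q h1
  have a2 := norm_algNorm_le_one_of_mem_maxOrder L q h2
  have hmul : Algebra.norm ℚ_[q] (x : SemiLocal L q) *
      Algebra.norm ℚ_[q] ((x⁻¹ : (SemiLocal L q)ˣ) : SemiLocal L q) = 1 := by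
    rw [← map_mul, Units.mul_inv, map_one]
  have hn : ‖Algebra.norm ℚ_[q] (x : SemiLocal L q)‖ *
      ‖Algebra.norm ℚ_[q] ((x⁻¹ : (SemiLocal L q)ˣ) : SemiLocal L q)‖ = 1 := by
    rw [← norm_mul, hmul, norm_one]
  by_contra hne
  have hlt : ‖Algebra.norm ℚ_[q] (x : SemiLocal L q)‖ < 1 := lt_of_le_of_ne a1 hne
  have h3 : ‖Algebra.norm ℚ_[q] (x : SemiLocal L q)‖ *
      ‖Algebra.norm ℚ_[q] ((x⁻¹ : (SemiLocal L q)ˣ) : SemiLocal L q)‖ ≤
      ‖Algebra.norm ℚ_[q] (x : SemiLocal L q)‖ * 1 :=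
    mul_le_mul_of_nonneg_left a2 (norm_nonneg _)
  linarith

/-- The norm of an element of `1 + q ^ k * maxOrder` lies in `1 + q ^ k * ℤ_[q]`. -/
theorem algNorm_one_add (k : ℕ) {b : SemiLocal L q} (hb : b ∈ maxOrder q L) :
    ∃ t : ℤ_[q], Algebra.norm ℚ_[q] (1 + (q : SemiLocal L q) ^ k * b) =
      1 + (q : ℚ_[q]) ^ k * (t : ℚ_[q]) := by
  obtain ⟨r, rfl⟩ := exists_mu_eq q L hb
  have h1 : (1 : SemiLocal L q) + (q : SemiLocal L q) ^ k * mu q L r =
      mu q L (1 + (q : ℤ_[q] ⊗[ℤ] (𝓞 L)) ^ k * r) := by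
    rw [map_add, map_one, map_mul, map_pow, map_natCast]
  rw [h1, algNorm_mu]
  have h2 := CycloNorm.norm_sub_norm_mem_span (R := ℤ_[q])
    (S := ℤ_[q] ⊗[ℤ] (𝓞 L)) ((q : ℤ_[q]) ^ k)
    (1 + (q : ℤ_[q] ⊗[ℤ] (𝓞 L)) ^ k * r) 1 r (by
      rw [map_pow, map_natCast]; ring)
  obtain ⟨t, ht⟩ := Ideal.mem_span_singleton'.mp h2
  refine ⟨t, ?_⟩
  rw [map_one] at ht
  have h3 : Algebra.norm ℤ_[q] (1 + (q : ℤ_[q] ⊗[ℤ] (𝓞 L)) ^ k * r) =
      1 + (q : ℤ_[q]) ^ k * t := by
    rw [← sub_eq_iff_eq_add']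
    rw [← ht]; ring
  rw [h3]
  push_cast
  rfl

end Integral

/-! ### Valuation and unit part on `ℚ_[q]ˣ` -/

section Padic

variable (q : ℕ) [hq : Fact q.Prime]

/-- The `q`-adic valuation as a homomorphism `ℚ_[q]ˣ →* Multiplicative ℤ`. -/
def valHom : ℚ_[q]ˣ →* Multiplicative ℤ where
  toFun y := Multiplicative.ofAdd (Padic.valuation (y : ℚ_[q]))
  map_one' := by simp
  map_mul' y z := by
    rw [Units.val_mul, Padic.valuation_mul y.ne_zero z.ne_zero]
    rfl

theorem toAdd_valHom (y : ℚ_[q]ˣ) :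
    Multiplicative.toAdd (valHom q y) = Padic.valuation (y : ℚ_[q]) := rfl

/-- The character `y ↦ g ^ ord_q(y)` of `ℚ_[q]ˣ`. -/
def ordChar {M : Type} [CommGroup M] (g : M) : ℚ_[q]ˣ →* M :=
  (zpowersHom M g).comp (valHom q)

theorem ordChar_apply {M : Type} [CommGroup M] (g : M) (y : ℚ_[q]ˣ) :
    ordChar q g y = g ^ Padic.valuation (y : ℚ_[q]) := rfl

theorem valuation_eq_zero_of_norm_eq_one {y : ℚ_[q]} (h : ‖y‖ = 1) : Padic.valuation y = 0 := by
  have hy : y ≠ 0 := by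
    rintro rfl
    simp at h
  have h1 := Padic.norm_eq_zpow_neg_valuation hy
  rw [h] at h1
  have hq1 : (1 : ℝ) < q := by exact_mod_cast hq.out.one_lt
  have h2 := (zpow_eq_one_iff_right₀ (by positivity) hq1.ne').mp h1.symm
  omega

theorem ordChar_of_norm_eq_one {M : Type} [CommGroup M] (g : M) (y : ℚ_[q]ˣ)
    (h : ‖(y : ℚ_[q])‖ = 1) : ordChar q g y = 1 := by
  rw [ordChar_apply, valuation_eq_zero_of_norm_eq_one q h, zpow_zero]

theorem norm_mul_zpow_neg_valuation (y : ℚ_[q]ˣ) :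
    ‖(y : ℚ_[q]) * (q : ℚ_[q]) ^ (-Padic.valuation (y : ℚ_[q]))‖ = 1 := by
  have hq0 : (q : ℝ) ≠ 0 := by exact_mod_cast hq.out.ne_zero
  rw [norm_mul, Padic.norm_eq_zpow_neg_valuation y.ne_zero, Padic.norm_p_zpow, neg_neg,
    ← zpow_add₀ hq0, neg_add_cancel, zpow_zero]

/-- The unit part `y ↦ y * q ^ (-ord_q y)` as a homomorphism `ℚ_[q]ˣ →* ℤ_[q]ˣ`. -/
def unitPart : ℚ_[q]ˣ →* ℤ_[q]ˣ where
  toFun y := PadicInt.mkUnits (norm_mul_zpow_neg_valuation q y)
  map_one' := by
    apply Units.ext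
    apply Subtype.ext
    show ((1 : ℚ_[q]ˣ) : ℚ_[q]) * (q : ℚ_[q]) ^ (-Padic.valuation ((1 : ℚ_[q]ˣ) : ℚ_[q])) = 1
    simp
  map_mul' y z := by
    have hq0 : (q : ℚ_[q]) ≠ 0 := by exact_mod_cast hq.out.ne_zero
    apply Units.ext
    apply Subtype.ext
    show ((y * z : ℚ_[q]ˣ) : ℚ_[q]) *
        (q : ℚ_[q]) ^ (-Padic.valuation ((y * z : ℚ_[q]ˣ) : ℚ_[q])) =
      ((y : ℚ_[q]) * (q : ℚ_[q]) ^ (-Padic.valuation (y : ℚ_[q]))) *
        ((z : ℚ_[q]) * (q : ℚ_[q]) ^ (-Padic.valuation (z : ℚ_[q])))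
    rw [Units.val_mul, Padic.valuation_mul y.ne_zero z.ne_zero, neg_add, zpow_add₀ hq0]
    ring

theorem unitPart_coe (y : ℚ_[q]ˣ) :
    (((unitPart q y : ℤ_[q]ˣ) : ℤ_[q]) : ℚ_[q]) =
      (y : ℚ_[q]) * (q : ℚ_[q]) ^ (-Padic.valuation (y : ℚ_[q])) := rfl

theorem unitPart_of_norm_eq_one (y : ℚ_[q]ˣ) (h : ‖(y : ℚ_[q])‖ = 1) :
    (((unitPart q y : ℤ_[q]ˣ) : ℤ_[q]) : ℚ_[q]) = (y : ℚ_[q]) := by
  rw [unitPart_coe, valuation_eq_zero_of_norm_eq_one q h, neg_zero, zpow_zero, mul_one]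

end Padic

/-! ### Roots of unity of `ℚ_[p]`, `p` odd -/

section RootsOfUnity

variable (p : ℕ) [hp : Fact p.Prime]

/-- A unit of `ℤ_[p]` is congruent to a `(p-1)`-th root of unity: `u ^ (p - 1) ≡ 1 mod p`. -/
theorem toZMod_pow_pred (u : ℤ_[p]ˣ) : PadicInt.toZMod ((u : ℤ_[p]) ^ (p - 1)) = 1 := by
  rw [map_pow]
  apply ZMod.pow_card_sub_one_eq_one
  intro h
  have hu : IsUnit (PadicInt.toZMod (u : ℤ_[p])) := (u.isUnit).map _
  rw [h] at hu
  exact not_isUnit_zero hu

/-- `1 + p ℤ_[p]` is torsion-free (`p` odd), in the form: a root of unity `z ≡ 1 mod p` is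
`≡ 1` modulo every power of `p`. -/
theorem toZModPow_eq_one_of_pow_eq_one (hp2 : p ≠ 2) (s : ℕ) (z : ℤ_[p])
    (hz1 : PadicInt.toZMod z = 1) (n : ℕ) (hn : n ≠ 0) (hzn : z ^ n = 1) :
    PadicInt.toZModPow (s + 1) z = 1 := by
  set N := s + 1 + padicValNat p n with hN
  have hp1 : 1 < p := hp.out.one_lt
  have : NeZero (p ^ N) := ⟨pow_ne_zero _ hp.out.ne_zero⟩
  set a : ℕ := (PadicInt.toZModPow N z).val + p ^ N with ha_def
  have ha : (a : ZMod (p ^ N)) = PadicInt.toZModPow N z := by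
    rw [ha_def, Nat.cast_add, ZMod.natCast_zmod_val, ZMod.natCast_self, add_zero]
  have hpN : 1 < p ^ N := Nat.one_lt_pow (by omega) hp1
  have ha1 : 1 < a := by omega
  have han1 : 1 < a ^ n := Nat.one_lt_pow hn ha1
  have han : p ^ N ∣ a ^ n - 1 := by
    have h1 : ((a ^ n : ℕ) : ZMod (p ^ N)) = ((1 : ℕ) : ZMod (p ^ N)) := by
      rw [Nat.cast_pow, ha, ← map_pow, hzn, map_one, Nat.cast_one]
    exact (Nat.modEq_iff_dvd' han1.le).mp ((ZMod.natCast_eq_natCast_iff _ _ _).mp h1).symm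
  have hmem : (a : ℤ_[p]) - z ∈ Ideal.span {(p : ℤ_[p]) ^ N} := by
    rw [← PadicInt.ker_toZModPow, RingHom.mem_ker, map_sub, map_natCast, ha, sub_self]
  have hap : p ∣ a - 1 := by
    obtain ⟨c, hc⟩ := Ideal.mem_span_singleton.mp hmem
    have h2 : PadicInt.toZMod (a : ℤ_[p]) = 1 := by
      have h3 : (a : ℤ_[p]) = z + (p : ℤ_[p]) ^ N * c := by rw [← hc]; ring
      rw [h3, map_add, map_mul, map_pow, map_natCast, ZMod.natCast_self, hz1,
        zero_pow (by omega), zero_mul, add_zero]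
    rw [map_natCast] at h2
    have h4 : ((a : ℕ) : ZMod p) = ((1 : ℕ) : ZMod p) := by rw [h2, Nat.cast_one]
    exact (Nat.modEq_iff_dvd' ha1.le).mp ((ZMod.natCast_eq_natCast_iff _ _ _).mp h4).symm
  have hpa : ¬ p ∣ a := by
    intro h
    have h5 : p ∣ 1 := by
      have h6 : a = (a - 1) + 1 := by omega
      rw [h6] at h
      exact (Nat.dvd_add_right hap).mp h
    exact hp.out.one_lt.ne' (Nat.dvd_one.mp h5)
  have hlte := padicValNat.pow_sub_pow (hp.out.odd_of_ne_two hp2) ha1 hap hpa hn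
  rw [one_pow] at hlte
  have h7 : N ≤ padicValNat p (a ^ n - 1) := (padicValNat_dvd_iff_le (by omega)).mp han
  have h8 : s + 1 ≤ padicValNat p (a - 1) := by omega
  have h9 : p ^ (s + 1) ∣ a - 1 := (padicValNat_dvd_iff_le (by omega)).mpr h8
  have h10 : ((a : ℕ) : ZMod (p ^ (s + 1))) = ((1 : ℕ) : ZMod (p ^ (s + 1))) :=
    (ZMod.natCast_eq_natCast_iff _ _ _).mpr ((Nat.modEq_iff_dvd' ha1.le).mpr h9).symm
  rw [← PadicInt.cast_toZModPow (s + 1) N (by omega) z, ← ha,
    ZMod.cast_natCast (pow_dvd_pow p (by omega)), h10, Nat.cast_one]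

/-- The unit part of a root of unity of `ℚ_[p]` (`p` odd) has trivial `(p-1)`-th power modulo
every power of `p`. -/
theorem toZModPow_unitPart_pow_pred_eq_one (hp2 : p ≠ 2) (s : ℕ) (w : ℚ_[p]ˣ) (n : ℕ)
    (hn : n ≠ 0) (hw : w ^ n = 1) :
    (Units.map (PadicInt.toZModPow (s + 1)).toMonoidHom (unitPart p w)) ^ (p - 1) = 1 := by
  apply Units.ext
  rw [Units.val_pow_eq_pow_val, Units.coe_map, Units.val_one]
  show (PadicInt.toZModPow (s + 1)) ((unitPart p w : ℤ_[p]ˣ) : ℤ_[p]) ^ (p - 1) = 1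
  rw [← map_pow]
  apply toZModPow_eq_one_of_pow_eq_one p hp2 s _ (toZMod_pow_pred p _) n hn
  rw [← pow_mul, mul_comm, pow_mul, ← Units.val_pow_eq_pow_val, ← map_pow, hw, map_one,
    Units.val_one, one_pow]

end RootsOfUnity

end Fermat.Agent.CFT.Global.IdeleNorm
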