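/-
CFT program (P3), Global layer, [CycChar] part (3) (helper32; statements typed by helper17, board
row 1979): **functoriality of the idelic cyclotomic character** `chi L r e`:

* base change: `chi_{L'}(ι a) = chi_L(a) ^ [L' : L]`;
* Galois invariance: `chi (g • a) = chi a`;
* norms: for a Galois pair `(G', L', f)` over `L`, `ι x = ∏ g, g • b ⟹ chi_L x = chi_{L'} b`.

The first two are helper71's `IdeleNorm.algNorm_semiLocalMap` / `algNorm_smul`; the third is the
exact norm transitivity `GaloisNorm.norm_eq_of_map_eq_prod`.
-/
import Mathlib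
import Fermat.Agent.CFT.Global.CycloChar
import Fermat.Agent.CFT.Global.IdeleNorm
import Fermat.Agent.CFT.Global.GaloisNorm

set_option autoImplicit false

open scoped TensorProduct
open scoped Fermat.Agent.CFT.Global

noncomputable section

namespace Fermat.Agent.CFT.Global.CycloChar

open Fermat.Agent.CFT.Global

attribute [local instance] Algebra.TensorProduct.rightAlgebra

section Tower

variable {L L' : Type} [Field L] [NumberField L] [Field L'] [NumberField L']
variable (r e : ℕ) [Fact r.Prime]

/-! ### Local statements -/

theorem localNorm_map [Algebra L L'] (q : ℕ) [Fact q.Prime] (x : (SemiLocal L q)ˣ) :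
    localNorm L' q (Units.map (semiLocalMap q (algebraMap L L')).toMonoidHom x) =
      localNorm L q x ^ Module.finrank L L' := by
  apply Units.ext
  rw [Units.val_pow_eq_pow_val, coe_localNorm, coe_localNorm, normFun_eq_norm, normFun_eq_norm]
  exact IdeleNorm.algNorm_semiLocalMap L L' q (x : SemiLocal L q)

theorem localChar_map [Algebra L L'] (q : Nat.Primes) (x : (SemiLocal L q)ˣ) :
    localChar L' r e q (Units.map (semiLocalMap (q : ℕ) (algebraMap L L')).toMonoidHom x) =
      localChar L r e q x ^ Module.finrank L L' := by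
  rw [localChar_apply, localChar_apply, localNorm_map, map_pow]

theorem localNorm_smul {G : Type} [Group G] [MulSemiringAction G L] (g : G) (q : ℕ)
    [Fact q.Prime] (x : (SemiLocal L q)ˣ) : localNorm L q (g • x) = localNorm L q x := by
  apply Units.ext
  rw [coe_localNorm, coe_localNorm, normFun_eq_norm, normFun_eq_norm, coe_smul_units]
  exact IdeleNorm.algNorm_smul L q g (x : SemiLocal L q)

theorem localChar_smul {G : Type} [Group G] [MulSemiringAction G L] (g : G) (q : Nat.Primes)
    (x : (SemiLocal L q)ˣ) : localChar L r e q (g • x) = localChar L r e q x := by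
  rw [localChar_apply, localChar_apply, localNorm_smul]

theorem localNorm_eq_of_prod_smul {G' : Type} [Group G'] [Fintype G'] [MulSemiringAction G' L']
    [FaithfulSMul G' L'] (f : L →+* L') (hfix : ∀ y : L', (∀ g : G', g • y = y) ↔ y ∈ f.range)
    (q : ℕ) [Fact q.Prime] (x : (SemiLocal L q)ˣ) (b : (SemiLocal L' q)ˣ)
    (h : Units.map (semiLocalMap q f).toMonoidHom x = ∏ g : G', g • b) :
    localNorm L q x = localNorm L' q b := by
  apply Units.ext
  rw [coe_localNorm, coe_localNorm, normFun_eq_norm, normFun_eq_norm]
  refine GaloisNorm.norm_eq_of_map_eq_prod f hfix q (x : SemiLocal L q) (b : SemiLocal L' q) ?_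
  have h' := congrArg (fun u : (SemiLocal L' q)ˣ => (u : SemiLocal L' q)) h
  simp only [Units.coe_map, Units.coe_prod] at h'
  exact h'

theorem localChar_eq_of_prod_smul {G' : Type} [Group G'] [Fintype G'] [MulSemiringAction G' L']
    [FaithfulSMul G' L'] (f : L →+* L') (hfix : ∀ y : L', (∀ g : G', g • y = y) ↔ y ∈ f.range)
    (q : Nat.Primes) (x : (SemiLocal L q)ˣ) (b : (SemiLocal L' q)ˣ)
    (h : Units.map (semiLocalMap (q : ℕ) f).toMonoidHom x = ∏ g : G', g • b) :
    localChar L r e q x = localChar L' r e q b := by
  rw [localChar_apply, localChar_apply, localNorm_eq_of_prod_smul f hfix (q : ℕ) x b h]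

/-! ### Global statements -/

theorem chi_ideleProdMap [Algebra L L'] (a : ↥(finIdele L)) :
    chi L' r e ⟨ideleProdMap (algebraMap L L') a, ideleProdMap_mem_finIdele _ a.2⟩ =
      chi L r e a ^ Module.finrank L L' := by
  rw [chi_apply, chi_apply, finprod_pow (mulSupport_localChar_finite L r e a.2)]
  congr 1
  funext q
  exact localChar_map r e q ((a : IdeleProd L) q)

theorem chi_smul {G : Type} [Group G] [MulSemiringAction G L] (g : G) (a : ↥(finIdele L)) :
    chi L r e ⟨g • (a : IdeleProd L), smul_mem_finIdele G L g a.2⟩ = chi L r e a := by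
  apply chi_congr
  intro q
  exact localChar_smul r e g q ((a : IdeleProd L) q)

theorem chi_eq_of_prod_smul {G' : Type} [Group G'] [Fintype G'] [MulSemiringAction G' L']
    [FaithfulSMul G' L'] (f : L →+* L') (hfix : ∀ y : L', (∀ g : G', g • y = y) ↔ y ∈ f.range)
    (x : ↥(finIdele L)) (b : ↥(finIdele L'))
    (h : ideleProdMap f (x : IdeleProd L) = ∏ g : G', g • (b : IdeleProd L')) :
    chi L r e x = chi L' r e b := by
  rw [chi_apply, chi_apply]
  congr 1
  funext q
  refine localChar_eq_of_prod_smul r e f hfix q _ _ ?_
  have hq := congrFun h q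
  rw [ideleProdMap_apply, Finset.prod_apply] at hq
  exact hq

end Tower

end Fermat.Agent.CFT.Global.CycloChar
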