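import Mathlib
import Fermat.Agent.CFT.Global.Defs
import Fermat.Agent.CFT.Global.CountDict
import Fermat.Agent.CFT.Local.PowIndexQ

/-!
# Class field theory program (P3), global layer: `C_S(L) / p` is finite  ([A5])

`sClassModPFinite_of` : the finiteness of the `S`-class group ([A2], as a hypothesis) implies
that `C_S(L) / p C_S(L)` is finite, for every number field `L`, every finite set `S` of rational
primes and every prime `p`.

The other input, the finiteness of `(L ⊗[ℚ] ℚ_[q])ˣ` modulo `p`-th powers, is proved here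
unconditionally (`finite_local_quot_pow`) from the decomposition of `L ⊗[ℚ] ℚ_[q]` into its field
quotients and the index of the `p`-th powers in the multiplicative group of a finite extension
of `ℚ_[q]` (`Local.PowIndexQ.powIndex_holds`).
-/

set_option autoImplicit false

open scoped TensorProduct

namespace Fermat.Agent.CFT.Global.SClassModP

open Fermat.Agent.CFT.Global

/-! ### Pure group theory -/

/-- A quotient by a subgroup containing the kernel of a homomorphism to a finite group is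
finite. -/
theorem finite_quot_of_ker_le {G X : Type*} [Group G] [Group X] [Finite X] (ψ : G →* X)
    (K : Subgroup G) (h : ψ.ker ≤ K) : Finite (G ⧸ K) := by
  have h1 : ψ.ker.FiniteIndex := Subgroup.finiteIndex_ker ψ
  have h2 : K.FiniteIndex := Subgroup.finiteIndex_of_le h
  exact Subgroup.finite_quotient_of_finiteIndex

/-- A computation in a commutative group. -/
theorem aux_comm {M : Type*} [CommGroup M] (a b n sp : M) :
    sp⁻¹ / ((a * b) / (a * b * n * sp)) = n := by
  have h : a * b / (a * b * n * sp) = (n * sp)⁻¹ := by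
    rw [mul_assoc (a * b) n sp, div_mul_cancel_left]
  rw [h, div_eq_mul_inv, inv_inv, mul_comm n sp, inv_mul_cancel_left]

/-- `B ≤ A` of finite index and `B / p` finite imply `A / p` finite, in the shape needed for the
idele class groups: `J`, `N`, `T` subgroups of a commutative group, `T ≤ J`,
`[J : J ∩ N T]` finite and `T / T^p` finite; then `(J / J ∩ N) / p` is finite. -/
theorem finite_quot_smul_of_relIndex {M : Type} [CommGroup M] (J N T : Subgroup M) (p : ℕ)
    (hT : T ≤ J) (h : (N ⊔ T).relIndex J ≠ 0)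
    [Finite (↥T ⧸ (powMonoidHom p : ↥T →* ↥T).range)] :
    Finite ((↥(addSub J) ⧸ (addSub N).comap (addSub J).subtype) ⧸
      LinearMap.range (LinearMap.lsmul ℤ
        (↥(addSub J) ⧸ (addSub N).comap (addSub J).subtype) (p : ℤ))) := by
  classical
  have hfin1 : Finite (↥J ⧸ (N ⊔ T).subgroupOf J) := Subgroup.index_ne_zero_iff_finite.mp h
  -- the map from the two finite sets of representatives
  let f : (↥J ⧸ (N ⊔ T).subgroupOf J) × (↥T ⧸ (powMonoidHom p : ↥T →* ↥T).range) →
      ((↥(addSub J) ⧸ (addSub N).comap (addSub J).subtype) ⧸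
        LinearMap.range (LinearMap.lsmul ℤ
          (↥(addSub J) ⧸ (addSub N).comap (addSub J).subtype) (p : ℤ))) := fun ab =>
    Submodule.Quotient.mk (Submodule.Quotient.mk
      (⟨Additive.ofMul ((ab.1.out : M) * (ab.2.out : M)),
        J.mul_mem ab.1.out.2 (hT ab.2.out.2)⟩ : ↥(addSub J)))
  refine Finite.of_surjective f ?_
  intro y
  obtain ⟨y', rfl⟩ := Submodule.Quotient.mk_surjective _ y
  obtain ⟨⟨x, hx⟩, rfl⟩ := Submodule.Quotient.mk_surjective _ y'
  have hxJ : Additive.toMul x ∈ J := hx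
  set a : ↥J ⧸ (N ⊔ T).subgroupOf J := QuotientGroup.mk ⟨Additive.toMul x, hxJ⟩ with ha
  have h1 : (a.out)⁻¹ * ⟨Additive.toMul x, hxJ⟩ ∈ (N ⊔ T).subgroupOf J :=
    QuotientGroup.eq.mp (QuotientGroup.out_eq' a)
  have h1' : ((a.out : M))⁻¹ * Additive.toMul x ∈ N ⊔ T := h1
  obtain ⟨n, hn, t, ht, hnt⟩ := Subgroup.mem_sup.mp h1'
  set b : ↥T ⧸ (powMonoidHom p : ↥T →* ↥T).range := QuotientGroup.mk ⟨t, ht⟩ with hb
  have h2 : (b.out)⁻¹ * ⟨t, ht⟩ ∈ (powMonoidHom p : ↥T →* ↥T).range :=
    QuotientGroup.eq.mp (QuotientGroup.out_eq' b)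
  obtain ⟨s, hs⟩ := h2
  have hs' : (s : M) ^ p = ((b.out : M))⁻¹ * t := by
    have := congrArg (fun z : ↥T => (z : M)) hs
    simpa using this
  -- `x = a.out * n * b.out * s ^ p`
  have hxeq : Additive.toMul x = (a.out : M) * (b.out : M) * n * (s : M) ^ p := by
    rw [hs']
    have : Additive.toMul x = (a.out : M) * (n * t) := by rw [hnt, mul_inv_cancel_left]
    rw [this]
    simp only [mul_assoc, mul_left_comm, mul_comm, mul_inv_cancel_left]
  refine ⟨(a, b), ?_⟩
  show Submodule.Quotient.mk (Submodule.Quotient.mk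
      (⟨Additive.ofMul ((a.out : M) * (b.out : M)),
        J.mul_mem a.out.2 (hT b.out.2)⟩ : ↥(addSub J))) = _
  refine (Submodule.Quotient.eq _).2 ⟨-(Submodule.Quotient.mk
    (⟨Additive.ofMul (s : M), hT s.2⟩ : ↥(addSub J))), ?_⟩
  rw [LinearMap.lsmul_apply, ← Submodule.Quotient.mk_neg, ← Submodule.Quotient.mk_smul,
    ← Submodule.Quotient.mk_sub]
  refine (Submodule.Quotient.eq _).2 ?_
  show Additive.toMul (((p : ℤ) • -(⟨Additive.ofMul (s : M), hT s.2⟩ : ↥(addSub J)) -
    ((⟨Additive.ofMul ((a.out : M) * (b.out : M)),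
        J.mul_mem a.out.2 (hT b.out.2)⟩ : ↥(addSub J)) - ⟨x, hx⟩) : ↥(addSub J)) :
      Additive M) ∈ N
  have key : Additive.toMul (((p : ℤ) • -(⟨Additive.ofMul (s : M), hT s.2⟩ : ↥(addSub J)) -
    ((⟨Additive.ofMul ((a.out : M) * (b.out : M)),
        J.mul_mem a.out.2 (hT b.out.2)⟩ : ↥(addSub J)) - ⟨x, hx⟩) : ↥(addSub J)) :
      Additive M) = ((s : M)⁻¹) ^ (p : ℤ) / (((a.out : M) * (b.out : M)) / Additive.toMul x) :=
    rfl
  rw [key, zpow_natCast, inv_pow, hxeq, aux_comm]
  exact hn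

/-! ### The local input: `(L ⊗[ℚ] ℚ_[q])ˣ / p` is finite -/

section Local

attribute [local instance] Algebra.TensorProduct.rightAlgebra Ideal.Quotient.field

/-- `Fˣ / Fˣᵖ` is finite for a finite extension `F` of `ℚ_[q]`. -/
theorem finite_field_quot_pow (p : ℕ) (hp : p.Prime) (q : ℕ) [Fact q.Prime] (F : Type) [Field F]
    [Algebra ℚ_[q] F] [FiniteDimensional ℚ_[q] F] :
    Finite (Fˣ ⧸ (powMonoidHom p : Fˣ →* Fˣ).range) := by
  have h := (Fermat.Agent.CFT.Local.PowIndexQ.powIndex_holds q p hp F).1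
  refine Subgroup.index_ne_zero_iff_finite.mp ?_
  rw [h]
  have : NeZero p := ⟨hp.ne_zero⟩
  have hq : q ≠ 0 := (Fact.out : q.Prime).ne_zero
  exact mul_ne_zero (mul_ne_zero hp.ne_zero Nat.card_pos.ne') (pow_ne_zero _ hq)

/-- A reduced artinian ring whose field quotients have finitely many classes modulo `p`-th
powers has finitely many unit classes modulo `p`-th powers. -/
theorem finite_units_quot_pow_of_artinian (p : ℕ) (R : Type) [CommRing R] [IsArtinianRing R]
    [IsReduced R]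
    (hm : ∀ m : MaximalSpectrum R, Finite ((R ⧸ m.asIdeal)ˣ ⧸
      (powMonoidHom p : (R ⧸ m.asIdeal)ˣ →* (R ⧸ m.asIdeal)ˣ).range)) :
    Finite (Rˣ ⧸ (powMonoidHom p : Rˣ →* Rˣ).range) := by
  let E : Rˣ ≃* ∀ m : MaximalSpectrum R, (R ⧸ m.asIdeal)ˣ :=
    (Units.mapEquiv (IsArtinianRing.equivPi R).toMulEquiv).trans MulEquiv.piUnits
  let ψ : Rˣ →* ∀ m : MaximalSpectrum R,
      ((R ⧸ m.asIdeal)ˣ ⧸ (powMonoidHom p : (R ⧸ m.asIdeal)ˣ →* (R ⧸ m.asIdeal)ˣ).range) :=
    (MonoidHom.pi fun m => (QuotientGroup.mk' _).comp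
      (Pi.evalMonoidHom (fun m : MaximalSpectrum R => (R ⧸ m.asIdeal)ˣ) m)).comp E.toMonoidHom
  refine finite_quot_of_ker_le (X := ∀ m : MaximalSpectrum R,
      ((R ⧸ m.asIdeal)ˣ ⧸ (powMonoidHom p : (R ⧸ m.asIdeal)ˣ →* (R ⧸ m.asIdeal)ˣ).range)) ψ _ ?_
  intro u hu
  have hu' : ∀ m : MaximalSpectrum R, E u m ∈
      (powMonoidHom p : (R ⧸ m.asIdeal)ˣ →* (R ⧸ m.asIdeal)ˣ).range := fun m => by
    have h1 := congrFun (MonoidHom.mem_ker.mp hu) m
    exact (QuotientGroup.eq_one_iff _).mp h1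
  choose y hy using hu'
  refine ⟨E.symm y, ?_⟩
  apply E.injective
  rw [powMonoidHom_apply, map_pow, MulEquiv.apply_symm_apply]
  funext m
  exact hy m

/-- A finite reduced `ℚ_[q]`-algebra has finitely many unit classes modulo `p`-th powers. -/
theorem finite_units_quot_pow_of_finite (p : ℕ) (hp : p.Prime) (q : ℕ) [Fact q.Prime]
    (R : Type) [CommRing R] [Algebra ℚ_[q] R] [Module.Finite ℚ_[q] R] [IsReduced R] :
    Finite (Rˣ ⧸ (powMonoidHom p : Rˣ →* Rˣ).range) := by
  have hart : IsArtinianRing R := IsArtinianRing.of_finite ℚ_[q] R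
  refine finite_units_quot_pow_of_artinian p R (fun m => ?_)
  have : FiniteDimensional ℚ_[q] (R ⧸ m.asIdeal) :=
    Module.Finite.quotient ℚ_[q] m.asIdeal
  exact finite_field_quot_pow p hp q (R ⧸ m.asIdeal)

/-- **The local input**: `(L ⊗[ℚ] ℚ_[q])ˣ` modulo `p`-th powers is finite. -/
theorem finite_local_quot_pow (p : ℕ) (hp : p.Prime) (L : Type) [Field L] [NumberField L]
    (q : ℕ) [Fact q.Prime] :
    Finite ((SemiLocal L q)ˣ ⧸
      (powMonoidHom p : (SemiLocal L q)ˣ →* (SemiLocal L q)ˣ).range) := by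
  have hred : IsReduced (L ⊗[ℚ] ℚ_[q]) := CountDict.isReduced q L
  have hfin : Module.Finite ℚ_[q] (L ⊗[ℚ] ℚ_[q]) := CountDict.finite_right q L
  exact finite_units_quot_pow_of_finite p hp q (L ⊗[ℚ] ℚ_[q])

end Local

/-! ### `J_S(L) / p` is finite -/

/-- `J_S(L) = ∏_{q ∈ S} (L ⊗[ℚ] ℚ_[q])ˣ` modulo `p`-th powers is finite. -/
theorem finite_supportedOn_quot_pow (p : ℕ) (hp : p.Prime) (L : Type) [Field L] [NumberField L]
    (S : Finset Nat.Primes) :
    Finite (↥(supportedOn L S) ⧸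
      (powMonoidHom p : ↥(supportedOn L S) →* ↥(supportedOn L S)).range) := by
  classical
  have hq : ∀ q : S, Finite ((SemiLocal L (q : Nat.Primes))ˣ ⧸
      (powMonoidHom p : (SemiLocal L (q : Nat.Primes))ˣ →*
        (SemiLocal L (q : Nat.Primes))ˣ).range) :=
    fun q => finite_local_quot_pow p hp L (q : Nat.Primes)
  let ψ : ↥(supportedOn L S) →* ∀ q : S, ((SemiLocal L (q : Nat.Primes))ˣ ⧸
      (powMonoidHom p : (SemiLocal L (q : Nat.Primes))ˣ →*
        (SemiLocal L (q : Nat.Primes))ˣ).range) :=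
    MonoidHom.pi fun q => ((QuotientGroup.mk' _).comp
      (Pi.evalMonoidHom (fun q : Nat.Primes => (SemiLocal L q)ˣ) (q : Nat.Primes))).comp
        (supportedOn L S).subtype
  refine finite_quot_of_ker_le (X := ∀ q : S, ((SemiLocal L (q : Nat.Primes))ˣ ⧸
      (powMonoidHom p : (SemiLocal L (q : Nat.Primes))ˣ →*
        (SemiLocal L (q : Nat.Primes))ˣ).range)) ψ _ ?_
  intro x hx
  have hx' : ∀ q : S, (x : IdeleProd L) (q : Nat.Primes) ∈
      (powMonoidHom p : (SemiLocal L (q : Nat.Primes))ˣ →*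
        (SemiLocal L (q : Nat.Primes))ˣ).range := fun q => by
    have h1 := congrFun (MonoidHom.mem_ker.mp hx) q
    exact (QuotientGroup.eq_one_iff _).mp h1
  choose y hy using hx'
  let z : IdeleProd L := fun q => if h : q ∈ S then y ⟨q, h⟩ else 1
  have hz : z ∈ supportedOn L S := fun q hq => dif_neg hq
  refine ⟨⟨z, hz⟩, Subtype.ext ?_⟩
  funext q
  by_cases h : q ∈ S
  · show z q ^ p = (x : IdeleProd L) q
    have hzq : z q = y ⟨q, h⟩ := dif_pos h
    rw [hzq]
    exact hy ⟨q, h⟩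
  · show z q ^ p = (x : IdeleProd L) q
    have hzq : z q = 1 := dif_neg h
    rw [hzq, one_pow, x.2 q h]

/-! ### `C_S(L) / p` is finite -/

/-- **[A5]** from **[A2]**: if the `S`-class groups `J_L / (Lˣ · J_S · U^S)` are finite, then
`C_S(L) / p C_S(L)` is finite for every prime `p`. -/
theorem sClassModPFinite_of
    (hA2 : ∀ (L : Type) [Field L] [NumberField L] (S : Finset Nat.Primes),
      ((principal L).range ⊔ supportedOn L S ⊔ unitsOutside L S).relIndex (finIdele L) ≠ 0) :
    ∀ (p : ℕ) [Fact p.Prime] (L : Type) [Field L] [NumberField L] (S : Finset Nat.Primes),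
      Finite (ClassGroupSOf L S ⧸
        (LinearMap.range (LinearMap.lsmul ℤ (ClassGroupSOf L S) (p : ℤ)))) := by
  intro p hp L _ _ S
  have := finite_supportedOn_quot_pow p hp.out L S
  have h := hA2 L S
  have h' : (((principal L).range ⊔ unitsOutside L S) ⊔ supportedOn L S).relIndex
      (finIdele L) ≠ 0 := by
    rwa [sup_right_comm] at h
  exact finite_quot_smul_of_relIndex (finIdele L) ((principal L).range ⊔ unitsOutside L S)
    (supportedOn L S) p (supportedOn_le_finIdele L S) h'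

end Fermat.Agent.CFT.Global.SClassModP
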