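import Mathlib
import Fermat.Agent.CFT.Global.Plan
import Fermat.Agent.CFT.Global.IdeleStructure
import Fermat.Agent.CFT.Global.SClassModP

/-!
# Global plan, [A5]: the provider

`theorem sClassModPFinite_plan : Plan.SClassModPFinite`, unconditional, from
`Global/SClassModP.lean` and `[A2]` (`IdeleStructure.classGroupFinite`).
-/

set_option autoImplicit false

namespace Fermat.Agent.CFT.Global.SClassModP

/-- **[A5]** from **[A2]**, in Plan vocabulary. -/
theorem sClassModPFinite_of_plan : Plan.ClassGroupFinite → Plan.SClassModPFinite :=
  fun h => sClassModPFinite_of h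

/-- **[A5]**, unconditional: `C_S(L) / p C_S(L)` is finite. -/
theorem sClassModPFinite_plan : Plan.SClassModPFinite :=
  sClassModPFinite_of (fun L _ _ S => IdeleStructure.classGroupFinite L S)

end Fermat.Agent.CFT.Global.SClassModP
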