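import Fermat.Agent.CFT.Global.Plan
import Fermat.Agent.CFT.Global.IdeleStructurePlan
import Fermat.Agent.CFT.Global.SemiLocalGalois
import Fermat.Agent.CFT.Global.OrbitTransitivePlan
import Fermat.Agent.CFT.Global.OrbitProjBij
import Fermat.Agent.CFT.Global.UnramFinite
import Fermat.Agent.CFT.Global.SClassModPPlan
import Fermat.Agent.CFT.Global.LocUnitsHerbrandPlan
import Fermat.Agent.CFT.Global.IdeleH1
import Fermat.Agent.CFT.Global.ClassDescent
import Fermat.Agent.CFT.Global.ClassDescentS
import Fermat.Agent.CFT.Global.SClassComparePlan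
import Fermat.Agent.CFT.Global.ChainHolds
import Fermat.Agent.CFT.Global.KummerLimit
import Fermat.Agent.CFT.Global.LGChase.Final
import Fermat.Agent.CFT.Global.ExistHolds
import Fermat.Agent.CFT.Global.CrossTowerHolds
import Fermat.Agent.CFT.Global.Rec.Arith
import Fermat.Agent.CFT.Global.Rec.Assembly
import Fermat.Agent.CFT.Global.Rec.ClassChar
import Fermat.Agent.CFT.Global.Rec.CharSurj
import Fermat.Agent.CFT.Global.CycloAuxRec
import Fermat.Agent.CFT.Global.AuxL.Main
import Fermat.Agent.CFT.Global.AuxL.Unif
import Fermat.Agent.CFT.Global.AuxL.Frob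
import Fermat.Agent.CFT.Global.AuxL.Extract
import Fermat.Agent.CFT.Global.AuxL.Count
import Fermat.Agent.CFT.Bridge.LocCompMain
import Fermat.Agent.CFT.Bridge.LocClassP
import Fermat.Agent.CFT.Bridge.LocUnits
import Fermat.Agent.CFT.Glob.ClassPField
import Fermat.Agent.CFT.Glob.ClassExport

/-!
# P3 / CFT, Global layer (L6–L9): the providers of `Global/Plan.lean`, in ONE import

Every prop of `Fermat.Agent.CFT.Global.Plan` that is proved on main is re-exported here under the
name of the prop (lower-camel-case): `Provide.x : Plan.X`, UNCONDITIONALLY when all its inputs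
are on main, and otherwise in hypothesis form `Provide.x_of : Plan.Y → … → Plan.X`, the
hypotheses being exactly the props of the plan which are still missing.

This file only wires the landed leaves together; it contains no mathematics of its own.

State of this version (v5): EVERY prop of the plan that is consumed is proved UNCONDITIONALLY —
[A1]–[A6], [B1]–[B6], [C1]–[C6], [D1], [D2], [E1]–[E6], [F0], [F1], [F2], [F2c], [G1], [G2],
[G3], [G5], [G6], the `S`-class module `sClassModule` and the existence theorem `existenceModP`
(consumer text `ExistPlan.ExistenceModP`).  (Not provided: `Plan.ExistenceModP` [G4], a wording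
of the existence theorem which no consumer uses.)
-/

set_option autoImplicit false

open CategoryTheory
open scoped Fermat.Agent.CFT.Global

namespace Fermat.Agent.CFT.Global.Provide

open Fermat.Agent.CFT Fermat.Agent.CFT.Global Fermat.Agent.CFT.Herbrand

/-! ### A. Ideles -/

/-- [A1] -/
theorem principalLe : Plan.PrincipalLe := IdeleStructure.principalLe_plan

/-- [A2] -/
theorem classGroupFinite : Plan.ClassGroupFinite := IdeleStructure.classGroupFinite_plan

/-- [A3] -/
theorem classGroupTrivial : Plan.ClassGroupTrivial := IdeleStructure.classGroupTrivial_plan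

/-- [A4] -/
theorem sExact : Plan.SExact := IdeleStructure.sExact_plan

/-- [A5] -/
theorem sClassModPFinite : Plan.SClassModPFinite := SClassModP.sClassModPFinite_plan

/-- [A6] -/
theorem unramFinite : Plan.UnramFinite := UnramFinite.unramFinite

/-! ### B. Semilocal algebras -/

/-- [B1] -/
theorem semiLocalArtinian : Plan.SemiLocalArtinian := SemiLocalGalois.semiLocalArtinian

/-- [B2] -/
theorem orbitDecomp : Plan.OrbitDecomp := SemiLocalGalois.orbitDecomp

/-- [B3] -/
theorem orbitShapiro : Plan.OrbitShapiro := SemiLocalGalois.orbitShapiro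

/-- [B4] -/
theorem locFaithful : Plan.LocFaithful := SemiLocalGalois.locFaithful

/-- [B5] -/
theorem orbitTransitive : Plan.OrbitTransitive := OrbitTransitive.orbitTransitive_holds

/-- [B6] -/
theorem orbitProjBijective : Plan.OrbitProjBijective := OrbitProjBij.orbitProjBijective

/-! ### C. Local inputs -/

/-- [C1] -/
theorem locH1 : Plan.LocH1 := Bridge.LocCompMain.locH1

/-- [C2] -/
theorem locH2Card : Plan.LocH2Card := Bridge.LocCompMain.locH2Card

/-- [C3] -/
theorem locUnitsAcyclic : Plan.LocUnitsAcyclic := Bridge.LocUnits.locUnitsAcyclic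

/-- [C4] -/
theorem locUnitsHerbrand : Plan.LocUnitsHerbrand := LocUnitsHerbrand.locUnitsHerbrand_plan

/-- [C5] -/
theorem locHerbrand : Plan.LocHerbrand := Bridge.LocCompMain.locHerbrand

/-- [C6] -/
theorem locClassP : Plan.LocClassP := Bridge.LocClassP.locClassP

/-! ### D. Cohomology of the ideles -/

/-- `H¹(G, U_q(L)) = 0` at the unramified primes (the degree-one part of [C3]). -/
theorem locUnitsH1 : ClassDescentS.LocUnitsH1 := ChainHolds.locUnitsH1

/-- [D1] -/
theorem ideleH1 : Plan.IdeleH1 := ChainHolds.ideleH1

/-- [D2] -/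
theorem sIdeleH1 : Plan.SIdeleH1 := IdeleH1.sIdeleH1

/-! ### E. The inequalities and the class-formation axioms -/

/-- [E1] -/
theorem firstIneq : Plan.FirstIneq := ChainHolds.firstIneq

/-- [E2] -/
theorem secondIneq : Plan.SecondIneq := ChainHolds.secondIneq

/-- [E3] -/
theorem secondIneqGen : Plan.SecondIneqGen := ChainHolds.secondIneqGen

/-- [E4] -/
theorem cyclicAxiom : Plan.CyclicAxiom := ChainHolds.cyclicAxiom

/-- [E5] -/
theorem descentIso : Plan.DescentIso := ChainHolds.descentIso

/-- [E6] -/
theorem pGroupAxiom : Plan.PGroupAxiom := ChainHolds.pGroupAxiom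

/-! ### G. Towers and limits -/

/-- [G1] -/
theorem classDescent : Plan.ClassDescent := ClassDescent.classDescent

/-- [G2] -/
theorem classDescentS : Plan.ClassDescentS := ChainHolds.classDescentS

/-- [G3] -/
theorem sClassCompare : Plan.SClassCompare :=
  SClassCompare.sClassCompare_of_locUnitsAcyclic locUnitsAcyclic

/-- [G5] -/
theorem sUnitsPDiv : Plan.SUnitsPDiv := KummerLimit.sUnitsPDiv

/-- [G6] -/
theorem classCapitulation : Plan.ClassCapitulation := KummerLimit.classCapitulation

/-! ### F. Reciprocity -/

/-- The class character of the reciprocity package (`Rec.Plan.ClassChar`). -/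
theorem classChar : Rec.Plan.ClassChar :=
  Rec.ClassChar.classChar_of_surj Rec.CharSurj.chiSurj

/-- The crossing data of the reciprocity package (`Rec.Plan.CrossData`). -/
theorem crossData : Rec.Plan.CrossData :=
  Rec.Arith.crossData classChar CrossTowerHolds.crossTower

/-- [F0] -/
theorem cycloCrossing : Plan.CycloCrossing :=
  Rec.Assembly.cycloCrossing_of crossData pGroupAxiom

/-- [F1] -/
theorem classFormationP : Plan.ClassFormationP :=
  Glob.ClassPField.classFormationP_of_crossing pGroupAxiom cycloCrossing classDescent

/-- The reciprocity statement of the auxiliary layer (`AuxL.AuxRec`). -/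
theorem auxRec : AuxL.AuxRec :=
  CycloArtin.auxRec_of AuxL.Unif.auxUnif AuxL.Frob.auxFrob AuxL.Extract.auxExtract

/-- The auxiliary layer of the chase `Global/LGChase.lean`. -/
theorem auxLayer : LGChase.AuxLayer := AuxL.auxLayer auxRec AuxL.Count.auxCount

/-- [F2] -/
theorem localGlobalInj : Plan.LocalGlobalInj :=
  LGChase.localGlobalInj_of_pGroupAxiom pGroupAxiom auxLayer

/-- [F2c] (a special case of [F2]) -/
theorem localGlobalInjCyclic : Plan.LocalGlobalInjCyclic :=
  fun p _ hp2 G L _ _ _ _ _ _ hG q m hm _ =>
    localGlobalInj p hp2 G L (IsPGroup.of_card (n := 1) (by rw [hG, pow_one])) q m hm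

/-! ### The consumer forms -/

/-- The `S`-class module ([EX.g]). -/
theorem sClassModule : ExistPlan.SClassModule :=
  Glob.ClassExport.sClassModule classFormationP sClassCompare

/-- The existence theorem mod `p` (consumer text `ExistPlan.ExistenceModP`). -/
theorem existenceModP : ExistPlan.ExistenceModP :=
  ExistHolds.existenceModP_of_plan classFormationP locUnitsAcyclic

end Fermat.Agent.CFT.Global.Provide
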