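import Mathlib
import Fermat.Agent.CFT.Global.Defs
import Fermat.Agent.CFT.Global.QBridgeDiv
import Fermat.Agent.CFT.Global.SUnitMore
import Fermat.Agent.CFT.Bridge.CompPlace

/-!
# P3 / CFT, global layer, [AUX.N1b]: divisibility of `ord(α)` from the idele identity (helper46)

Setting of the auxiliary layer [AUX] (`LGChase.AuxLayer`): `Γ` a finite group acting on the
number field `Z`, `q` a prime, `a ∈ (Z ⊗ ℚ_q)ˣ` placed at `q`, and the **idele identity**

  (★)  `Pi.mulSingle q a = (∏ γ : Γ, γ • y) * principal Z α`   in `IdeleProd Z`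

(`y` an idele, `α ∈ Zˣ`): "the class of `a` is the norm of the class of `y`".  From (★) alone:

* `stab_dvd_divq_prod` (D0): `|Stab_Γ(P)| ∣ ord_P(N_Γ y)` for every prime `P` of `𝓞 Z`;
* `stab_dvd_ordZ_sub` (D1): `|Stab_Γ(P)| ∣ ord_P(α) - ord_P(a)`;
* `stab_dvd_ordZ` (D2): for `a` in the block of `m` (`orbitUnits Γ Z q m`) and `w` outside the
  `Γ`-orbit of the prime below `m`: `|Stab_Γ(w)| ∣ ord_w(α)`
  (`stab_dvd_ordZ_placeBelow`, `stab_dvd_ordZ_of_under` : other spellings of the hypothesis);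
* `stab_dvd_ordZ_sub_comp` (D3): at the prime below `m`: `|Stab| ∣ ord(α) - div(a)`;
  `decomp_dvd_ordZ_sub_local` (with `|D_w|` and the local normalised valuation),
  `decomp_dvd_divq_of_stab_dvd`, `decomp_dvd_divq_placeBelow` (consumer forms: once the
  reciprocity step gives `|Stab| ∣ ord(α)`, the decomposition group order divides `div(a)`).

Tools: `card_dvd_sum_of_right_invariant` (sums of coset-invariant functions), `smulPrime`,
`divq_smul` (equivariance of helper84's divisor map for the action of `Γ`),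
`divq_eq_zero_of_mem_orbitUnits`, `under_smul`.
-/

set_option autoImplicit false
set_option linter.style.haveILetI false
set_option linter.unusedSectionVars false

namespace Fermat.Agent.CFT.Global.AuxDiv

open TensorProduct NumberField IsDedekindDomain
open scoped Pointwise
open scoped Fermat.Agent.CFT.Global
open Fermat.Agent.CFT Fermat.Agent.CFT.Global
open Fermat.Agent.CFT.Global.SUnitLattice (primeMap primeMap_asIdeal)

/-- A function on a finite group which is right-invariant under a subgroup `H` has a sum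
divisible by the order of `H`. -/
theorem card_dvd_sum_of_right_invariant {Γ : Type} [Group Γ] [Fintype Γ] (H : Subgroup Γ)
    (F : Γ → ℤ) (hF : ∀ γ : Γ, ∀ h ∈ H, F (γ * h) = F γ) : (Nat.card H : ℤ) ∣ ∑ γ, F γ := by
  classical
  have hout : ∀ γ : Γ, (Quotient.out (QuotientGroup.mk γ : Γ ⧸ H))⁻¹ * γ ∈ H := fun γ =>
    QuotientGroup.eq.mp (QuotientGroup.out_eq' _)
  have hmk : ∀ (c : Γ ⧸ H) (h : H), (QuotientGroup.mk (Quotient.out c * (h : Γ)) : Γ ⧸ H) = c :=
    fun c h => by
      rw [QuotientGroup.mk_mul_of_mem _ h.2]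
      exact QuotientGroup.out_eq' c
  let e : Γ ≃ (Γ ⧸ H) × H :=
    { toFun := fun γ => (QuotientGroup.mk γ, ⟨_, hout γ⟩)
      invFun := fun p => Quotient.out p.1 * (p.2 : Γ)
      left_inv := fun γ => by simp
      right_inv := fun p => by
        obtain ⟨c, h⟩ := p
        refine Prod.ext (hmk c h) (Subtype.ext ?_)
        show (Quotient.out (QuotientGroup.mk (Quotient.out c * (h : Γ)) : Γ ⧸ H))⁻¹ *
          (Quotient.out c * (h : Γ)) = h
        rw [hmk c h, inv_mul_cancel_left] }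
  haveI : Fintype (Γ ⧸ H) := Fintype.ofFinite _
  haveI : Fintype H := Fintype.ofFinite _
  have h1 : ∑ γ, F γ = ∑ p : (Γ ⧸ H) × H, F (e.symm p) := (Equiv.sum_comp e.symm F).symm
  have h2 : ∀ c : Γ ⧸ H, ∑ h : H, F (e.symm (c, h)) = (Nat.card H : ℤ) * F (Quotient.out c) := by
    intro c
    have h3 : ∀ h : H, F (e.symm (c, h)) = F (Quotient.out c) := fun h => hF _ h.1 h.2
    rw [Finset.sum_congr rfl (fun h _ => h3 h), Finset.sum_const, Finset.card_univ,
      Nat.card_eq_fintype_card, nsmul_eq_mul]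
  rw [h1, Fintype.sum_prod_type, Finset.sum_congr rfl (fun c _ => h2 c), ← Finset.mul_sum]
  exact dvd_mul_right _ _

section Pair

variable (Γ : Type) [Group Γ] [Fintype Γ] (Z : Type) [Field Z] [NumberField Z]
  [MulSemiringAction Γ Z]

/-- The action of `γ` on the primes of `𝓞 Z` above `r`. -/
noncomputable def smulPrime (r : ℕ) [Fact r.Prime] (γ : Γ) (P : QBridge.PrimesOver r Z) :
    QBridge.PrimesOver r Z :=
  QBridge.primesOverMap r Z (MulSemiringAction.toRingEquiv Γ Z γ) P

theorem smulPrime_asIdeal (r : ℕ) [Fact r.Prime] (γ : Γ) (P : QBridge.PrimesOver r Z) :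
    (smulPrime Γ Z r γ P).1.asIdeal = γ • P.1.asIdeal := by
  show (primeMap (MulSemiringAction.toRingEquiv Γ Z γ) P.1).asIdeal = _
  rw [primeMap_asIdeal, Ideal.pointwise_smul_def]
  rfl

theorem primesOver_ext (r : ℕ) [Fact r.Prime] {P P' : QBridge.PrimesOver r Z}
    (h : P.1.asIdeal = P'.1.asIdeal) : P = P' :=
  Subtype.ext (HeightOneSpectrum.ext h)

/-- Equivariance of the divisor map for the action of `Γ`. -/
theorem divq_smul (r : ℕ) [Fact r.Prime] (γ : Γ) (y : (SemiLocal Z r)ˣ)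
    (P : QBridge.PrimesOver r Z) :
    Multiplicative.toAdd (QBridge.divq r Z (γ • y)) (smulPrime Γ Z r γ P) =
      Multiplicative.toAdd (QBridge.divq r Z y) P := by
  have h := QBridge.divq_map (MulSemiringAction.toRingEquiv Γ Z γ)
    (MulSemiringAction.toRingHom Γ (SemiLocal Z r) γ)
    (fun x => by
      show γ • (x ⊗ₜ[ℚ] (1 : ℚ_[r])) = _
      rw [smul_tmul_eq]; rfl)
    (fun c => by
      show γ • ((1 : Z) ⊗ₜ[ℚ] c) = _
      rw [smul_tmul_eq, smul_one]) y P
  exact h

theorem smulPrime_inv_smulPrime (r : ℕ) [Fact r.Prime] (γ : Γ) (P : QBridge.PrimesOver r Z) :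
    smulPrime Γ Z r γ (smulPrime Γ Z r γ⁻¹ P) = P := by
  apply primesOver_ext
  rw [smulPrime_asIdeal, smulPrime_asIdeal, smul_inv_smul]

/-- **(D0)** The order at `P` of a `Γ`-norm is divisible by the order of the stabilizer of `P`:
`ord_P(N_Γ y) = |Stab P| · Σ_{P' ∈ Γ P} ord_{P'}(y)`. -/
theorem stab_dvd_divq_prod (r : ℕ) [Fact r.Prime] (y : (SemiLocal Z r)ˣ)
    (P : QBridge.PrimesOver r Z) :
    (Nat.card (MulAction.stabilizer Γ P.1.asIdeal) : ℤ) ∣
      Multiplicative.toAdd (QBridge.divq r Z (∏ γ : Γ, γ • y)) P := by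
  have h1 : Multiplicative.toAdd (QBridge.divq r Z (∏ γ : Γ, γ • y)) P =
      ∑ γ : Γ, Multiplicative.toAdd (QBridge.divq r Z y) (smulPrime Γ Z r γ P) := by
    rw [map_prod, toAdd_prod, Finset.sum_apply]
    have h2 : ∀ γ : Γ, Multiplicative.toAdd (QBridge.divq r Z (γ • y)) P =
        Multiplicative.toAdd (QBridge.divq r Z y) (smulPrime Γ Z r γ⁻¹ P) := by
      intro γ
      have h3 := divq_smul Γ Z r γ y (smulPrime Γ Z r γ⁻¹ P)
      rwa [smulPrime_inv_smulPrime] at h3
    rw [Finset.sum_congr rfl (fun γ _ => h2 γ)]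
    exact Equiv.sum_comp (Equiv.inv Γ)
      (fun γ => Multiplicative.toAdd (QBridge.divq r Z y) (smulPrime Γ Z r γ P))
  rw [h1]
  refine card_dvd_sum_of_right_invariant (MulAction.stabilizer Γ P.1.asIdeal) _ ?_
  intro γ h hh
  have h4 : smulPrime Γ Z r (γ * h) P = smulPrime Γ Z r γ P := by
    apply primesOver_ext
    rw [smulPrime_asIdeal, smulPrime_asIdeal, mul_smul, MulAction.mem_stabilizer_iff.mp hh]
  rw [h4]

theorem principal_eq_lamq (r : Nat.Primes) (α : Zˣ) : principal Z α r = QBridge.lamq r Z α :=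
  Units.ext (principal_apply_coe Z α r)

/-- **(D1)** From the idele identity `a = N_Γ(y) · α` (`a` placed at `q`): at every prime `P`
of `𝓞 Z`, `ord_P(α) ≡ ord_P(a)` modulo the order of the stabilizer of `P`. -/
theorem stab_dvd_ordZ_sub (q : Nat.Primes) (a : (SemiLocal Z q)ˣ) (y : IdeleProd Z) (α : Zˣ)
    (h : (Pi.mulSingle q a : IdeleProd Z) = (∏ γ : Γ, γ • y) * principal Z α)
    (r : Nat.Primes) (P : QBridge.PrimesOver r Z) :
    (Nat.card (MulAction.stabilizer Γ P.1.asIdeal) : ℤ) ∣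
      QBridge.ordZ P.1 α -
        Multiplicative.toAdd (QBridge.divq r Z ((Pi.mulSingle q a : IdeleProd Z) r)) P := by
  have h1 : (Pi.mulSingle q a : IdeleProd Z) r = (∏ γ : Γ, γ • y r) * QBridge.lamq r Z α := by
    rw [h, Pi.mul_apply, Finset.prod_apply, principal_eq_lamq]
    rfl
  rw [h1, map_mul, toAdd_mul, Pi.add_apply, QBridge.divq_lamq]
  have h2 := stab_dvd_divq_prod Γ Z r (y r) P
  have h3 : QBridge.ordZ P.1 α -
      (Multiplicative.toAdd (QBridge.divq r Z (∏ γ : Γ, γ • y r)) P + QBridge.ordZ P.1 α) =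
      -Multiplicative.toAdd (QBridge.divq r Z (∏ γ : Γ, γ • y r)) P := by ring
  rw [h3]
  exact (dvd_neg).mpr h2

/-- An element of the block of `m` has trivial divisor at every prime above `q` outside the
`Γ`-orbit of the prime below `m`. -/
theorem divq_eq_zero_of_mem_orbitUnits (q : ℕ) [Fact q.Prime] (m : Ideal (SemiLocal Z q))
    [hm : m.IsMaximal] (a : (SemiLocal Z q)ˣ) (ha : a ∈ orbitUnits Γ Z q m)
    (P : QBridge.PrimesOver q Z)
    (hP : ∀ γ : Γ, P.1.asIdeal ≠ γ • Bridge.CompPlace.compCenter Z q m) :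
    Multiplicative.toAdd (QBridge.divq q Z a) P = 0 := by
  haveI : P.1.asIdeal.IsPrime := P.1.isPrime
  obtain ⟨m', hm', hc⟩ := Bridge.CompPlace.exists_compCenter_eq Z q P.1.asIdeal P.2
  haveI := hm'
  letI := Ideal.Quotient.field m'
  letI := Bridge.LocComp.compAlgebra Z q m'
  haveI := Bridge.LocComp.comp_finiteDimensional Z q m'
  have hPeq : P = Bridge.CompPlace.compPrimeOver Z q m' := primesOver_ext Z q hc.symm
  have hnot : ∀ g : Γ, ∃ x : SemiLocal Z q, ¬ (x ∈ m' ↔ g • x ∈ m) := by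
    intro g
    by_contra hcon0
    have hcon : ∀ x : SemiLocal Z q, x ∈ m' ↔ g • x ∈ m := fun x => by
      by_contra hx
      exact hcon0 ⟨x, hx⟩
    refine hP g⁻¹ ?_
    rw [← hc]
    ext x
    rw [Ideal.mem_inv_pointwise_smul_iff]
    exact (Bridge.CompPlace.smul_mem_compCenter_iff Γ Z q g m m' hcon x).symm
  have hone : Bridge.CompPlace.compUnits Z q m' a = 1 := by
    apply Units.ext
    rw [Bridge.CompPlace.coe_compUnits, Units.val_one]
    have h1 := ha m' hm' hnot
    have h2 : (Ideal.Quotient.mk m') ((a : SemiLocal Z q) - 1) = 0 :=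
      Ideal.Quotient.eq_zero_iff_mem.mpr h1
    rw [map_sub, map_one, sub_eq_zero] at h2
    exact h2
  rw [hPeq, Bridge.CompPlace.divq_eq_ordZ, hone]
  exact Local.OrdCore.ordZ_one q _

/-- **(D2)** From the idele identity `a = N_Γ(y) · α` with `a` in the block of `m`: at every
prime `w` of `𝓞 Z` outside the `Γ`-orbit of the prime below `m` (of any residue
characteristic), the order of the stabilizer of `w` divides `ord_w(α)`. -/
theorem stab_dvd_ordZ (q : Nat.Primes) (a : (SemiLocal Z q)ˣ) (y : IdeleProd Z) (α : Zˣ)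
    (h : (Pi.mulSingle q a : IdeleProd Z) = (∏ γ : Γ, γ • y) * principal Z α)
    (m : Ideal (SemiLocal Z q)) [hm : m.IsMaximal] (ha : a ∈ orbitUnits Γ Z q m)
    (w : HeightOneSpectrum (𝓞 Z))
    (hw : ∀ γ : Γ, w.asIdeal ≠ γ • Bridge.CompPlace.compCenter Z q m) :
    (Nat.card (MulAction.stabilizer Γ w.asIdeal) : ℤ) ∣ QBridge.ordZ w α := by
  by_cases hq : (((q : ℕ) : ℕ) : 𝓞 Z) ∈ w.asIdeal
  · have h1 := stab_dvd_ordZ_sub Γ Z q a y α h q ⟨w, hq⟩
    rw [Pi.mulSingle_eq_same,
      divq_eq_zero_of_mem_orbitUnits Γ Z q m a ha ⟨w, hq⟩ hw, sub_zero] at h1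
    exact h1
  · obtain ⟨r, hr, hrw⟩ := QBridge.exists_prime_mem w
    have hne : (⟨r, hr⟩ : Nat.Primes) ≠ q := by
      intro heq
      apply hq
      rw [← heq]
      exact hrw
    have h1 := stab_dvd_ordZ_sub Γ Z q a y α h ⟨r, hr⟩ ⟨w, hrw⟩
    have e : (Pi.mulSingle q a : IdeleProd Z) ⟨r, hr⟩ = 1 :=
      Pi.mulSingle_eq_of_ne (M := fun q : Nat.Primes => (SemiLocal Z q)ˣ) hne a
    rw [e, map_one, toAdd_one, Pi.zero_apply, sub_zero] at h1
    exact h1

/-- **(D3)** From the idele identity `a = N_Γ(y) · α`: at the prime below `m`,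
`ord(α) ≡ ord(a)` modulo the order of the stabilizer. -/
theorem stab_dvd_ordZ_sub_comp (q : Nat.Primes) (a : (SemiLocal Z q)ˣ) (y : IdeleProd Z)
    (α : Zˣ) (h : (Pi.mulSingle q a : IdeleProd Z) = (∏ γ : Γ, γ • y) * principal Z α)
    (m : Ideal (SemiLocal Z q)) [hm : m.IsMaximal] :
    (Nat.card (MulAction.stabilizer Γ (Bridge.CompPlace.compCenter Z q m)) : ℤ) ∣
      QBridge.ordZ (Bridge.CompPlace.compPlace Z q m) α -
        Multiplicative.toAdd (QBridge.divq q Z a) (Bridge.CompPlace.compPrimeOver Z q m) := by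
  have h1 := stab_dvd_ordZ_sub Γ Z q a y α h q (Bridge.CompPlace.compPrimeOver Z q m)
  rw [Pi.mulSingle_eq_same] at h1
  exact h1

/-- **(D3), consumer form.**  If moreover the stabilizer order divides `ord(α)` at the prime
below `m` (the output of the reciprocity step), then the order of the decomposition group
divides the divisor of `a` there. -/
theorem decomp_dvd_divq_of_stab_dvd (q : Nat.Primes) (a : (SemiLocal Z q)ˣ) (y : IdeleProd Z)
    (α : Zˣ) (h : (Pi.mulSingle q a : IdeleProd Z) = (∏ γ : Γ, γ • y) * principal Z α)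
    (m : Ideal (SemiLocal Z q)) [hm : m.IsMaximal]
    (hα : (Nat.card (MulAction.stabilizer Γ (Bridge.CompPlace.compCenter Z q m)) : ℤ) ∣
      QBridge.ordZ (Bridge.CompPlace.compPlace Z q m) α) :
    (Nat.card (decompGroup Γ Z q m) : ℤ) ∣
      Multiplicative.toAdd (QBridge.divq q Z a) (Bridge.CompPlace.compPrimeOver Z q m) := by
  rw [Bridge.CompPlace.card_decompGroup]
  have h1 := stab_dvd_ordZ_sub_comp Γ Z q a y α h m
  have h2 := dvd_sub hα h1
  rwa [sub_sub_cancel] at h2

/-- **(D3), local form.**  `ord(α) ≡ ord_w(a_w)` modulo `|D_w|`, with the normalised valuation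
of the local component `Z_w = (Z ⊗ ℚ_q) ⧸ m` on the right. -/
theorem decomp_dvd_ordZ_sub_local (q : Nat.Primes) (a : (SemiLocal Z q)ˣ) (y : IdeleProd Z)
    (α : Zˣ) (h : (Pi.mulSingle q a : IdeleProd Z) = (∏ γ : Γ, γ • y) * principal Z α)
    (m : Ideal (SemiLocal Z q)) [hm : m.IsMaximal] :
    letI := Ideal.Quotient.field m
    letI := Bridge.LocComp.compAlgebra Z q m
    (Nat.card (decompGroup Γ Z q m) : ℤ) ∣
      QBridge.ordZ (Bridge.CompPlace.compPlace Z q m) α -
        Local.ordZ q (SemiLocal Z q ⧸ m) (Bridge.CompPlace.compUnits Z q m a) := by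
  letI := Ideal.Quotient.field m
  letI := Bridge.LocComp.compAlgebra Z q m
  rw [Bridge.CompPlace.card_decompGroup, ← Bridge.CompPlace.divq_eq_ordZ]
  exact stab_dvd_ordZ_sub_comp Γ Z q a y α h m

/-- `compPlace` is helper42's `placeBelow`. -/
theorem compPlace_eq_placeBelow (q : ℕ) [Fact q.Prime] (M : MaximalSpectrum (SemiLocal Z q)) :
    haveI := M.isMaximal
    Bridge.CompPlace.compPlace Z q M.asIdeal = CountDict.placeBelow M := by
  haveI := M.isMaximal
  exact HeightOneSpectrum.ext (Bridge.CompPlace.compCenter_eq_placeBelow Z q M)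

/-- **(D2), `placeBelow` spelling.** -/
theorem stab_dvd_ordZ_placeBelow (q : Nat.Primes) (a : (SemiLocal Z q)ˣ) (y : IdeleProd Z)
    (α : Zˣ) (h : (Pi.mulSingle q a : IdeleProd Z) = (∏ γ : Γ, γ • y) * principal Z α)
    (M : MaximalSpectrum (SemiLocal Z q)) (ha : a ∈ orbitUnits Γ Z q M.asIdeal)
    (w : HeightOneSpectrum (𝓞 Z))
    (hw : ∀ γ : Γ, w.asIdeal ≠ γ • (CountDict.placeBelow M).asIdeal) :
    (Nat.card (MulAction.stabilizer Γ w.asIdeal) : ℤ) ∣ QBridge.ordZ w α := by
  haveI := M.isMaximal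
  refine stab_dvd_ordZ Γ Z q a y α h M.asIdeal ha w ?_
  rw [Bridge.CompPlace.compCenter_eq_placeBelow Z q M]
  exact hw

/-- **(D3), consumer form, `placeBelow` spelling** (the hypothesis `hdvd` of the unramified
block norm theorem). -/
theorem decomp_dvd_divq_placeBelow (q : Nat.Primes) (a : (SemiLocal Z q)ˣ) (y : IdeleProd Z)
    (α : Zˣ) (h : (Pi.mulSingle q a : IdeleProd Z) = (∏ γ : Γ, γ • y) * principal Z α)
    (M : MaximalSpectrum (SemiLocal Z q))
    (hα : (Nat.card (MulAction.stabilizer Γ (CountDict.placeBelow M).asIdeal) : ℤ) ∣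
      QBridge.ordZ (CountDict.placeBelow M) α) :
    (Nat.card (decompGroup Γ Z q M.asIdeal) : ℤ) ∣
      Multiplicative.toAdd (QBridge.divq q Z a)
        ⟨CountDict.placeBelow M, CountDict.natCast_mem_placeBelow M⟩ := by
  haveI := M.isMaximal
  have hP : (⟨CountDict.placeBelow M, CountDict.natCast_mem_placeBelow M⟩ :
      QBridge.PrimesOver q Z) = Bridge.CompPlace.compPrimeOver Z q M.asIdeal :=
    primesOver_ext Z q (Bridge.CompPlace.compCenter_eq_placeBelow Z q M).symm
  rw [hP]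
  refine decomp_dvd_divq_of_stab_dvd Γ Z q a y α h M.asIdeal ?_
  rw [Bridge.CompPlace.compCenter_eq_placeBelow Z q M, compPlace_eq_placeBelow Z q M]
  exact hα

/-! ### The same over a base field fixed by `Γ` -/

/-- Conjugate primes lie over the same prime of a base field fixed by `Γ`. -/
theorem under_smul (K : Type) [Field K] [NumberField K] [Algebra K Z]
    (hK : ∀ (γ : Γ) (x : K), γ • algebraMap K Z x = algebraMap K Z x) (γ : Γ)
    (I : Ideal (𝓞 Z)) : (γ • I).under (𝓞 K) = I.under (𝓞 K) := by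
  ext x
  rw [Ideal.mem_comap, Ideal.mem_comap, Ideal.mem_pointwise_smul_iff_inv_smul_mem]
  have hx : γ⁻¹ • algebraMap (𝓞 K) (𝓞 Z) x = algebraMap (𝓞 K) (𝓞 Z) x := by
    apply RingOfIntegers.ext
    show γ⁻¹ • ((algebraMap (𝓞 K) (𝓞 Z) x : 𝓞 Z) : Z) = _
    exact hK γ⁻¹ (x : K)
  rw [hx]

/-- **(D2), over a base field.**  `K ⊆ Z` fixed by `Γ`: at every prime `w` of `𝓞 Z` which does
not lie over the same prime of `K` as the prime below `m`, the order of the stabilizer of `w`
divides `ord_w(α)`. -/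
theorem stab_dvd_ordZ_of_under (K : Type) [Field K] [NumberField K] [Algebra K Z]
    (hK : ∀ (γ : Γ) (x : K), γ • algebraMap K Z x = algebraMap K Z x)
    (q : Nat.Primes) (a : (SemiLocal Z q)ˣ) (y : IdeleProd Z) (α : Zˣ)
    (h : (Pi.mulSingle q a : IdeleProd Z) = (∏ γ : Γ, γ • y) * principal Z α)
    (m : Ideal (SemiLocal Z q)) [hm : m.IsMaximal] (ha : a ∈ orbitUnits Γ Z q m)
    (w : HeightOneSpectrum (𝓞 Z))
    (hw : w.asIdeal.under (𝓞 K) ≠ (Bridge.CompPlace.compCenter Z q m).under (𝓞 K)) :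
    (Nat.card (MulAction.stabilizer Γ w.asIdeal) : ℤ) ∣ QBridge.ordZ w α := by
  refine stab_dvd_ordZ Γ Z q a y α h m ha w (fun γ heq => hw ?_)
  rw [heq, under_smul Γ Z K hK]

end Pair

end Fermat.Agent.CFT.Global.AuxDiv
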