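import Fermat.Agent.CFT.Global.CycloCharTower
import Fermat.Agent.CFT.Global.QBridgeNorm
import Fermat.Agent.CFT.Global.CycloNorm

/-!
# Reciprocity for the idelic cyclotomic character, and Artin symbols

For a number field `L`, a prime power `r ^ e` and a finite idele `a` of `L`, the character
`CycloChar.chi L r e a` is (up to the archimedean sign) the cyclotomic character of an
automorphism of every Galois extension `M / L`:  `exists_algEquiv_chi`.

`HasCyc σ c` says that `σ` acts on the `r ^ e`-th roots of unity by `t ↦ t ^ k`, `k ≡ c`;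
`IsArtin K r e M x σ` says that `σ` is an Artin symbol of the finite idele `x`.
-/

set_option autoImplicit false

open scoped TensorProduct
open scoped Fermat.Agent.CFT.Global

noncomputable section

namespace Fermat.Agent.CFT.Global.CycloArtin

open Fermat.Agent.CFT.Global Fermat.Agent.CFT.Global.QBridge NumberField
open Fermat.Agent.CFT.Global.CycloChar

/-! ### Automorphisms with a given cyclotomic character -/

section HasCyc

variable {K : Type} [Field K] {M : Type} [Field M] [Algebra K M] {m : ℕ}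

/-- `σ` acts on the `m`-th roots of unity of `M` by `t ↦ t ^ k` with `k ≡ c` modulo `m`. -/
def HasCyc (σ : M ≃ₐ[K] M) (c : (ZMod m)ˣ) : Prop :=
  ∃ k : ℕ, (∀ t : M, t ^ m = 1 → σ t = t ^ k) ∧ (k : ZMod m) = (c : ZMod m)

theorem pow_eq_pow_of_zmod_eq {t : M} (ht : t ^ m = 1) {k k' : ℕ}
    (h : (k : ZMod m) = (k' : ZMod m)) : t ^ k = t ^ k' := by
  have hmod : k ≡ k' [MOD m] := (ZMod.natCast_eq_natCast_iff k k' m).mp h
  rw [pow_eq_pow_mod k ht, pow_eq_pow_mod k' ht, hmod]

theorem hasCyc_one : HasCyc (1 : M ≃ₐ[K] M) (1 : (ZMod m)ˣ) :=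
  ⟨1, fun t _ => by simp, by simp⟩

theorem HasCyc.mul {σ τ : M ≃ₐ[K] M} {c d : (ZMod m)ˣ} (hσ : HasCyc σ c) (hτ : HasCyc τ d) :
    HasCyc (σ * τ) (c * d) := by
  obtain ⟨k, hk, hkc⟩ := hσ
  obtain ⟨k', hk', hkc'⟩ := hτ
  refine ⟨k * k', fun t ht => ?_, ?_⟩
  · rw [AlgEquiv.mul_apply, hk' t ht, map_pow, hk t ht, ← pow_mul]
  · rw [Units.val_mul, Nat.cast_mul, hkc, hkc']

theorem HasCyc.inv [NeZero m] {σ : M ≃ₐ[K] M} {c : (ZMod m)ˣ} (hσ : HasCyc σ c) :
    HasCyc σ⁻¹ c⁻¹ := by
  obtain ⟨k, hk, hkc⟩ := hσ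
  refine ⟨((c⁻¹ : (ZMod m)ˣ) : ZMod m).val, fun t ht => ?_, ZMod.natCast_zmod_val _⟩
  set s : M := σ⁻¹ t with hs
  have hσs : σ s = t := by
    rw [hs]
    exact AlgEquiv.apply_symm_apply σ t
  have hs1 : s ^ m = 1 := by
    apply σ.injective
    rw [map_pow, hσs, ht, map_one]
  have h1 : t = s ^ k := by rw [← hσs, hk s hs1]
  rw [h1, ← pow_mul]
  have h2 : ((k * ((c⁻¹ : (ZMod m)ˣ) : ZMod m).val : ℕ) : ZMod m) = ((1 : ℕ) : ZMod m) := by
    rw [Nat.cast_mul, ZMod.natCast_zmod_val, hkc, Units.mul_inv, Nat.cast_one]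
  rw [pow_eq_pow_of_zmod_eq hs1 h2, pow_one]

theorem HasCyc.pow {σ : M ≃ₐ[K] M} {c : (ZMod m)ˣ} (hσ : HasCyc σ c) (n : ℕ) :
    HasCyc (σ ^ n) (c ^ n) := by
  induction n with
  | zero => rw [pow_zero, pow_zero]; exact hasCyc_one
  | succ n ih => rw [pow_succ, pow_succ]; exact ih.mul hσ

theorem HasCyc.zpow [NeZero m] {σ : M ≃ₐ[K] M} {c : (ZMod m)ˣ} (hσ : HasCyc σ c) (n : ℤ) :
    HasCyc (σ ^ n) (c ^ n) := by
  cases n with
  | ofNat n => rw [Int.ofNat_eq_natCast, zpow_natCast, zpow_natCast]; exact hσ.pow n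
  | negSucc n => rw [zpow_negSucc, zpow_negSucc]; exact (hσ.pow (n + 1)).inv

/-- Two automorphisms with the same character agree on the `m`-th roots of unity. -/
theorem HasCyc.apply_eq {σ τ : M ≃ₐ[K] M} {c : (ZMod m)ˣ} (hσ : HasCyc σ c) (hτ : HasCyc τ c)
    {t : M} (ht : t ^ m = 1) : σ t = τ t := by
  obtain ⟨k, hk, hkc⟩ := hσ
  obtain ⟨k', hk', hkc'⟩ := hτ
  rw [hk t ht, hk' t ht]
  exact pow_eq_pow_of_zmod_eq ht (hkc.trans hkc'.symm)

/-- Two automorphisms with the same character are equal, if automorphisms are determined by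
their action on the `m`-th roots of unity. -/
theorem HasCyc.eq [NeZero m]
    (hinj : ∀ ρ : M ≃ₐ[K] M, (∀ t : M, t ^ m = 1 → ρ t = t) → ρ = 1)
    {σ τ : M ≃ₐ[K] M} {c : (ZMod m)ˣ} (hσ : HasCyc σ c) (hτ : HasCyc τ c) : σ = τ := by
  have h1 : HasCyc (τ⁻¹ * σ) (1 : (ZMod m)ˣ) := by
    have := hτ.inv.mul hσ
    rwa [inv_mul_cancel] at this
  have h2 : τ⁻¹ * σ = 1 := by
    apply hinj
    intro t ht
    have := h1.apply_eq (hasCyc_one (K := K) (M := M) (m := m)) ht
    simpa using this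
  exact (inv_mul_eq_one.mp h2).symm

/-- A finite product of characters of automorphisms is the character of an automorphism. -/
theorem exists_hasCyc_prod {ι : Type*} (s : Finset ι) (c : ι → (ZMod m)ˣ)
    (h : ∀ i ∈ s, ∃ σ : M ≃ₐ[K] M, HasCyc σ (c i)) :
    ∃ σ : M ≃ₐ[K] M, HasCyc σ (∏ i ∈ s, c i) := by
  classical
  induction s using Finset.induction_on with
  | empty => exact ⟨1, by rw [Finset.prod_empty]; exact hasCyc_one⟩
  | insert i s hi ih =>
    obtain ⟨σ, hσ⟩ := h i (Finset.mem_insert_self i s)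
    obtain ⟨τ, hτ⟩ := ih fun j hj => h j (Finset.mem_insert_of_mem hj)
    exact ⟨σ * τ, by rw [Finset.prod_insert hi]; exact hσ.mul hτ⟩

end HasCyc

theorem zpow_finset_sum_eq {G ι : Type*} [CommGroup G] (c : G) (s : Finset ι) (f : ι → ℤ) :
    c ^ (∑ i ∈ s, f i) = ∏ i ∈ s, c ^ f i := by
  classical
  induction s using Finset.induction_on with
  | empty => simp
  | insert i s hi ih => rw [Finset.sum_insert hi, Finset.prod_insert hi, zpow_add, ih]

section Recip

variable (L : Type) [Field L] [NumberField L] (r e : ℕ) [Fact r.Prime]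

theorem neZero_pow : NeZero (r ^ e) := ⟨pow_ne_zero e (Fact.out : r.Prime).ne_zero⟩

attribute [local instance] Algebra.TensorProduct.rightAlgebra in
/-- **Unramified values**: at `q ≠ r` the local character is `∏_{w ∣ q} N(w) ^ ord_w`. -/
theorem exists_unit_localChar_eq_finprod (q : Nat.Primes) (hq : (q : ℕ) ≠ r) :
    ∃ u : PrimesOver (q : ℕ) L → (ZMod (r ^ e))ˣ,
      (∀ w, ((u w : (ZMod (r ^ e))ˣ) : ZMod (r ^ e)) = (Ideal.absNorm w.1.asIdeal : ZMod (r ^ e))) ∧
      ∀ x : (SemiLocal L q)ˣ, localChar L r e q x =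
        ∏ᶠ w : PrimesOver (q : ℕ) L, u w ^ (Multiplicative.toAdd (divq (q : ℕ) L x) w) := by
  classical
  set c : (ZMod (r ^ e))ˣ := ZMod.unitOfCoprime (q : ℕ) (coprime_pow_of_ne (q : ℕ) r e hq) with hc
  refine ⟨fun w => c ^ fDeg (q : ℕ) L w, fun w => ?_, fun x => ?_⟩
  · rw [absNorm_eq_pow_fDeg (q : ℕ) L w, Units.val_pow_eq_pow_val, hc, ZMod.coe_unitOfCoprime,
      Nat.cast_pow]
  · have h1 : localChar L r e q x = c ^ Padic.valuation (normFun L (q : ℕ) (x : SemiLocal L q)) := by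
      rw [localChar_apply, padicChar_of_ne (q : ℕ) r e hq, coe_localNorm]
    rw [h1, normFun_eq_norm, valuation_norm_eq (q : ℕ) L x]
    have : Fintype (PrimesOver (q : ℕ) L) := Fintype.ofFinite _
    rw [finsum_eq_sum_of_fintype, finprod_eq_prod_of_fintype, zpow_finset_sum_eq]
    refine Finset.prod_congr rfl fun w _ => ?_
    rw [zpow_mul, zpow_natCast]

/-- A Frobenius at a prime `w ∤ r`: its character is the class of the absolute norm. -/
theorem exists_hasCyc_of_absNorm (M : Type) [Field M] [NumberField M] [Algebra L M] [IsGalois L M]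
    (q : Nat.Primes) (hq : (q : ℕ) ≠ r) (w : PrimesOver (q : ℕ) L) (c : (ZMod (r ^ e))ˣ)
    (hc : ((c : (ZMod (r ^ e))ˣ) : ZMod (r ^ e)) = (Ideal.absNorm w.1.asIdeal : ZMod (r ^ e))) :
    ∃ σ : M ≃ₐ[L] M, HasCyc σ c := by
  have hm0 : r ^ e ≠ 0 := pow_ne_zero e (Fact.out : r.Prime).ne_zero
  have hmq : ((r ^ e : ℕ) : 𝓞 L) ∉ w.1.asIdeal := by
    intro hmem
    have hcop : Nat.Coprime (q : ℕ) (r ^ e) := coprime_pow_of_ne (q : ℕ) r e hq
    have h1 : ((1 : ℤ) : 𝓞 L) ∈ w.1.asIdeal := by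
      have hb := Nat.Coprime.isCoprime hcop
      obtain ⟨a, b, hab⟩ := hb
      rw [← hab]
      push_cast
      exact add_mem (Ideal.mul_mem_left _ _ w.2) (Ideal.mul_mem_left _ _ (by exact_mod_cast hmem))
    have h2 : (1 : 𝓞 L) ∈ w.1.asIdeal := by exact_mod_cast h1
    exact w.1.isPrime.ne_top ((Ideal.eq_top_iff_one _).mpr h2)
  have := w.1.isPrime
  obtain ⟨σ, hσ⟩ := CycloNorm.exists_gal_pow_absNorm_prime (E := M) (r ^ e) hm0 w.1.asIdeal
    w.1.ne_bot hmq
  exact ⟨σ, Ideal.absNorm w.1.asIdeal, hσ, hc.symm⟩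

/-- **Local reciprocity** at `q ≠ r`: the local character is the cyclotomic character of an
automorphism (a product of Frobenius elements). -/
theorem exists_algEquiv_localChar (M : Type) [Field M] [NumberField M] [Algebra L M] [IsGalois L M]
    (q : Nat.Primes) (hq : (q : ℕ) ≠ r) (x : (SemiLocal L q)ˣ) :
    ∃ σ : M ≃ₐ[L] M, ∃ k : ℕ, (∀ t : M, t ^ (r ^ e) = 1 → σ t = t ^ k) ∧
      (k : ZMod (r ^ e)) = ((localChar L r e q x : (ZMod (r ^ e))ˣ) : ZMod (r ^ e)) := by
  classical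
  have := neZero_pow r e
  obtain ⟨u, hu, hx⟩ := exists_unit_localChar_eq_finprod L r e q hq
  have : Fintype (PrimesOver (q : ℕ) L) := Fintype.ofFinite _
  rw [hx x, finprod_eq_prod_of_fintype]
  refine exists_hasCyc_prod (K := L) (M := M) Finset.univ _ fun w _ => ?_
  obtain ⟨σ, hσ⟩ := exists_hasCyc_of_absNorm L r e M q hq w (u w) (hu w)
  exact ⟨σ ^ (Multiplicative.toAdd (divq (q : ℕ) L x) w), hσ.zpow _⟩

/-- **Reciprocity**: up to sign, the idelic character is the cyclotomic character of an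
automorphism of any Galois extension `M / L`. -/
theorem exists_algEquiv_chi (M : Type) [Field M] [NumberField M] [Algebra L M] [IsGalois L M]
    (a : ↥(finIdele L)) :
    ∃ σ : M ≃ₐ[L] M, ∃ k : ℕ, (∀ t : M, t ^ (r ^ e) = 1 → σ t = t ^ k) ∧
      ((k : ZMod (r ^ e)) = ((chi L r e a : (ZMod (r ^ e))ˣ) : ZMod (r ^ e)) ∨
        (k : ZMod (r ^ e)) = -((chi L r e a : (ZMod (r ^ e))ˣ) : ZMod (r ^ e))) := by
  classical
  have := neZero_pow r e
  obtain ⟨qr, hqr⟩ := exists_prime_eq r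
  -- move `a` by a principal idele so that the component at `r` is `≡ 1` modulo `r ^ (e + 1)`
  obtain ⟨c, w, hw, haw⟩ := exists_principal_mul_isOneMod (L := L) qr ((a : IdeleProd L) qr)
    (M := e + 1) (Nat.le_add_left 1 e)
  set b : ↥(finIdele L) := a * ⟨principal L c⁻¹, principal_mem_finIdele c⁻¹⟩ with hb
  have hbr : (b : IdeleProd L) qr = w := by
    show (a : IdeleProd L) qr * principal L c⁻¹ qr = w
    rw [haw, map_inv, Pi.inv_apply, mul_comm (principal L c qr), mul_assoc, mul_inv_cancel,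
      mul_one]
  have hchib : chi L r e b = chi L r e a ∨ chi L r e b = -chi L r e a := by
    rw [hb, map_mul]
    rcases chi_principal L r e c⁻¹ with h | h
    · left; rw [h, mul_one]
    · right; rw [h, mul_neg, mul_one]
  -- the character of `b` is a finite product of local characters at primes `≠ r`
  have hfin := mulSupport_localChar_finite L r e b.2
  have hprod : chi L r e b = ∏ q ∈ hfin.toFinset, localChar L r e q ((b : IdeleProd L) q) := by
    rw [chi_apply]
    exact finprod_eq_prod_of_mulSupport_toFinset_subset _ hfin (Finset.Subset.refl _)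
  have hex : ∃ σ : M ≃ₐ[L] M, HasCyc σ (chi L r e b) := by
    rw [hprod]
    refine exists_hasCyc_prod (K := L) (M := M) _ _ fun q hqmem => ?_
    by_cases hqq : (q : ℕ) = r
    · have hq' : q = qr := Subtype.ext (hqq.trans hqr.symm)
      subst hq'
      refine ⟨1, ?_⟩
      rw [hbr, localChar_eq_one_of_isOneMod (L := L) (r := r) (e := e) (Nat.le_add_left 1 e)
        (Nat.le_add_right e 1) hw]
      exact hasCyc_one
    · obtain ⟨σ, k, hk, hkc⟩ := exists_algEquiv_localChar L r e M q hqq ((b : IdeleProd L) q)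
      exact ⟨σ, k, hk, hkc⟩
  obtain ⟨σ, k, hk, hkc⟩ := hex
  refine ⟨σ, k, hk, ?_⟩
  rcases hchib with h | h
  · left; rw [hkc, h]
  · right; rw [hkc, h, Units.val_neg]

end Recip

/-! ### Artin symbols of finite ideles -/

section Artin

variable (K : Type) [Field K] [NumberField K] (r e : ℕ) [Fact r.Prime]
variable (M : Type) [Field M] [Algebra K M]

/-- `σ ∈ Aut(M/K)` is an *Artin symbol* of the finite idele `x` for the modulus `r ^ e`: it acts on
the `r ^ e`-th roots of unity of `M` by `t ↦ t ^ k` with `k ≡ ± chi x` modulo `r ^ e`.  (The sign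
is the archimedean component that the finite ideles omit.) -/
def IsArtin (x : ↥(finIdele K)) (σ : M ≃ₐ[K] M) : Prop :=
  HasCyc σ (chi K r e x) ∨ HasCyc σ (-chi K r e x)

variable {K r e M}

theorem IsArtin.mul {x y : ↥(finIdele K)} {σ τ : M ≃ₐ[K] M} (hx : IsArtin K r e M x σ)
    (hy : IsArtin K r e M y τ) : IsArtin K r e M (x * y) (σ * τ) := by
  unfold IsArtin
  rw [map_mul]
  rcases hx with h | h <;> rcases hy with h' | h'
  · left; exact h.mul h'
  · right; have := h.mul h'; rwa [mul_neg] at this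
  · right; have := h.mul h'; rwa [neg_mul] at this
  · left; have := h.mul h'; rwa [neg_mul_neg] at this

theorem isArtin_one : IsArtin K r e M 1 1 := by
  left
  rw [map_one]
  exact hasCyc_one

theorem isArtin_principal (u : Kˣ) :
    IsArtin K r e M ⟨principal K u, principal_mem_finIdele u⟩ 1 := by
  unfold IsArtin
  rcases chi_principal K r e u with h | h
  · left; rw [h]; exact hasCyc_one
  · right; rw [h, neg_neg]; exact hasCyc_one

/-- An Artin symbol stays one after multiplying the idele by a principal idele. -/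
theorem IsArtin.mul_principal {x : ↥(finIdele K)} {σ : M ≃ₐ[K] M} (hx : IsArtin K r e M x σ)
    (u : Kˣ) : IsArtin K r e M (x * ⟨principal K u, principal_mem_finIdele u⟩) σ := by
  have h := hx.mul (isArtin_principal (M := M) (r := r) (e := e) u)
  rwa [mul_one] at h

theorem IsArtin.inv {x : ↥(finIdele K)} {σ : M ≃ₐ[K] M} (hx : IsArtin K r e M x σ) :
    IsArtin K r e M x⁻¹ σ⁻¹ := by
  have : NeZero (r ^ e) := neZero_pow r e
  unfold IsArtin
  rw [map_inv]
  rcases hx with h | h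
  · left; exact h.inv
  · right; have := h.inv; rwa [inv_neg] at this

theorem IsArtin.pow {x : ↥(finIdele K)} {σ : M ≃ₐ[K] M} (hx : IsArtin K r e M x σ) (n : ℕ) :
    IsArtin K r e M (x ^ n) (σ ^ n) := by
  induction n with
  | zero => rw [pow_zero, pow_zero]; exact isArtin_one
  | succ n ih => rw [pow_succ, pow_succ]; exact ih.mul hx

/-- Two Artin symbols of the same idele have the same square, provided an automorphism of `M/K`
is determined by its action on the `r ^ e`-th roots of unity (e.g. `M = K(ζ_{r ^ e})`). -/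
theorem IsArtin.sq_eq (hinj : ∀ ρ : M ≃ₐ[K] M, (∀ t : M, t ^ (r ^ e) = 1 → ρ t = t) → ρ = 1)
    {x : ↥(finIdele K)} {σ τ : M ≃ₐ[K] M} (hσ : IsArtin K r e M x σ)
    (hτ : IsArtin K r e M x τ) : σ ^ 2 = τ ^ 2 := by
  have : NeZero (r ^ e) := neZero_pow r e
  have h1 : HasCyc (σ ^ 2) (chi K r e x ^ 2) := by
    rcases hσ with h | h
    · exact h.pow 2
    · have := h.pow 2; rwa [neg_sq] at this
  have h2 : HasCyc (τ ^ 2) (chi K r e x ^ 2) := by
    rcases hτ with h | h
    · exact h.pow 2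
    · have := h.pow 2; rwa [neg_sq] at this
  exact h1.eq hinj h2

/-- **Base change** (functoriality in the base field): if `σ'` is an Artin symbol over `K'` of
the image of `x`, every automorphism `σ` of `M/K` compatible with `σ'` along `h : M →+* M'` is an
Artin symbol of `x ^ [K' : K]`. -/
theorem IsArtin.of_baseChange {K' M' : Type} [Field K'] [NumberField K'] [Algebra K K']
    [Field M'] [Algebra K' M'] (h : M →+* M') (x : ↥(finIdele K)) {σ' : M' ≃ₐ[K'] M'}
    {σ : M ≃ₐ[K] M} (hcomp : ∀ y : M, h (σ y) = σ' (h y))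
    (hσ' : IsArtin K' r e M'
      ⟨ideleProdMap (algebraMap K K') x, ideleProdMap_mem_finIdele _ x.2⟩ σ') :
    IsArtin K r e M (x ^ Module.finrank K K') σ := by
  have key : ∀ c : (ZMod (r ^ e))ˣ, HasCyc σ' c → HasCyc σ c := by
    rintro c ⟨k, hk, hkc⟩
    refine ⟨k, fun t ht => ?_, hkc⟩
    apply h.injective
    rw [hcomp, map_pow]
    exact hk (h t) (by rw [← map_pow, ht, map_one])
  unfold IsArtin at hσ' ⊢
  rw [chi_ideleProdMap] at hσ'
  rw [map_pow]
  exact hσ'.imp (key _) (key _)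

end Artin

/-! ### Existence, norms, Frobenius -/

section Norms

variable {K : Type} [Field K] [NumberField K] {r e : ℕ} [Fact r.Prime]
variable {M : Type} [Field M] [Algebra K M] [NumberField M] [IsGalois K M]

variable (K r e M) in
/-- **Reciprocity**: every finite idele has an Artin symbol in every Galois extension. -/
theorem exists_isArtin (x : ↥(finIdele K)) : ∃ σ : M ≃ₐ[K] M, IsArtin K r e M x σ := by
  obtain ⟨σ, k, hk, hkc⟩ := exists_algEquiv_chi K r e M x
  refine ⟨σ, ?_⟩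
  rcases hkc with h | h
  · exact Or.inl ⟨k, hk, h⟩
  · exact Or.inr ⟨k, hk, by rw [h, Units.val_neg]⟩

/-- **Norms have an Artin symbol fixing the field they come from.**  `(Γ, Z)` is a Galois pair
over `f : K →+* Z` and `g : Z →+* M` is a `K`-embedding. -/
theorem exists_isArtin_of_norm {Z Γ : Type} [Field Z] [NumberField Z] [Group Γ] [Fintype Γ]
    [MulSemiringAction Γ Z] [FaithfulSMul Γ Z] (f : K →+* Z)
    (hfix : ∀ y : Z, (∀ γ : Γ, γ • y = y) ↔ y ∈ f.range) (g : Z →+* M)
    (hg : ∀ a : K, g (f a) = algebraMap K M a) (x : ↥(finIdele K)) (b : ↥(finIdele Z))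
    (h : ideleProdMap f (x : IdeleProd K) = ∏ γ : Γ, γ • (b : IdeleProd Z)) :
    ∃ τ : M ≃ₐ[K] M, IsArtin K r e M x τ ∧ ∀ z : Z, τ (g z) = g z := by
  let algZM : Algebra Z M := g.toAlgebra
  let algKZ : Algebra K Z := f.toAlgebra
  have : IsScalarTower K Z M := IsScalarTower.of_algebraMap_eq (fun a => (hg a).symm)
  have : IsGalois Z M := IsGalois.tower_top_of_isGalois K Z M
  obtain ⟨τ', hτ'⟩ := exists_isArtin Z r e M b
  refine ⟨τ'.restrictScalars K, ?_, fun z => τ'.commutes z⟩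
  unfold IsArtin at hτ' ⊢
  rw [chi_eq_of_prod_smul r e f hfix x b h]
  exact hτ'.imp (fun ⟨k, hk, hkc⟩ => ⟨k, hk, hkc⟩) (fun ⟨k, hk, hkc⟩ => ⟨k, hk, hkc⟩)

omit [NumberField K] [NumberField M] [IsGalois K M] [Algebra K M] in
/-- A Galois pair `(Γ, Z)` over `f : K →+* Z` gives a Galois extension for `f.toAlgebra`, of
degree `|Γ|`. -/
theorem isGalois_of_pair {Z Γ : Type} [Field Z] [Group Γ] [Fintype Γ]
    [MulSemiringAction Γ Z] [FaithfulSMul Γ Z] (f : K →+* Z)
    (hfix : ∀ y : Z, (∀ γ : Γ, γ • y = y) ↔ y ∈ f.range) :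
    letI : Algebra K Z := f.toAlgebra
    IsGalois K Z ∧ Nat.card Γ = Module.finrank K Z := by
  let _ : Algebra K Z := f.toAlgebra
  have : IsGaloisGroup Γ K Z :=
    { faithful := inferInstance
      commutes := ⟨fun γ a z => by
        show γ • (f a * z) = f a * γ • z
        rw [smul_mul', ((hfix (f a)).mpr ⟨a, rfl⟩ γ)]⟩
      isInvariant := ⟨fun z hz => by
        obtain ⟨a, ha⟩ := (hfix z).mp hz
        exact ⟨a, ha⟩⟩ }
  exact ⟨IsGaloisGroup.isGalois Γ K Z, IsGaloisGroup.card_eq_finrank Γ K Z⟩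

/-- **The kernel statement.**  If `x` times a principal idele is a norm from the Galois pair
`(Γ, Z)` of odd order, then every Artin symbol of `x` fixes `Z` (embedded in `M` by `g`),
provided automorphisms of `M/K` are determined by their action on the `r ^ e`-th roots of
unity (e.g. `M = K(ζ_{r ^ e})`). -/
theorem IsArtin.apply_eq_of_norm
    (hinj : ∀ ρ : M ≃ₐ[K] M, (∀ t : M, t ^ (r ^ e) = 1 → ρ t = t) → ρ = 1)
    {Z Γ : Type} [Field Z] [NumberField Z] [Group Γ] [Fintype Γ]
    [MulSemiringAction Γ Z] [FaithfulSMul Γ Z] (hodd : Odd (Nat.card Γ)) (f : K →+* Z)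
    (hfix : ∀ y : Z, (∀ γ : Γ, γ • y = y) ↔ y ∈ f.range) (g : Z →+* M)
    (hg : ∀ a : K, g (f a) = algebraMap K M a) (x : ↥(finIdele K)) (u : Kˣ) (b : ↥(finIdele Z))
    (h : ideleProdMap f ((x : IdeleProd K) * principal K u) = ∏ γ : Γ, γ • (b : IdeleProd Z))
    {σ : M ≃ₐ[K] M} (hσ : IsArtin K r e M x σ) (z : Z) : σ (g z) = g z := by
  obtain ⟨τ, hτ, hτfix⟩ := exists_isArtin_of_norm (r := r) (e := e) f hfix g hg
    (x * ⟨principal K u, principal_mem_finIdele u⟩) b h
  have hsq : σ ^ 2 = τ ^ 2 := (hσ.mul_principal u).sq_eq hinj hτ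
  let algKZ : Algebra K Z := f.toAlgebra
  obtain ⟨hgal, hcard⟩ := isGalois_of_pair f hfix
  let gA : Z →ₐ[K] M := { g with commutes' := hg }
  let E : IntermediateField K M := gA.fieldRange
  let eZ : Z ≃ₐ[K] E := AlgEquiv.ofInjectiveField gA
  have : Normal K E := Normal.of_algEquiv eZ
  have : IsGalois K E := IsGalois.of_algEquiv eZ
  have hτ1 : AlgEquiv.restrictNormalHom E τ = 1 := by
    ext y
    obtain ⟨y, z', rfl⟩ := y
    have h5 := AlgEquiv.restrictNormal_commutes τ E ⟨gA z', z', rfl⟩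
    exact h5.trans (hτfix z')
  have hρ2 : (AlgEquiv.restrictNormalHom E σ) ^ 2 = 1 := by
    rw [← map_pow, hsq, map_pow, hτ1, one_pow]
  have hcardE : Nat.card (E ≃ₐ[K] E) = Nat.card Γ := by
    rw [IsGalois.card_aut_eq_finrank, hcard]
    exact (eZ.toLinearEquiv.finrank_eq).symm
  have hρ1 : AlgEquiv.restrictNormalHom E σ = 1 := by
    have h1 : orderOf (AlgEquiv.restrictNormalHom E σ) ∣ 2 := orderOf_dvd_of_pow_eq_one hρ2
    have h2 : orderOf (AlgEquiv.restrictNormalHom E σ) ∣ Nat.card Γ := by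
      rw [← hcardE]
      exact orderOf_dvd_natCard _
    have h3 : orderOf (AlgEquiv.restrictNormalHom E σ) ∣ 1 := by
      have hcop : Nat.Coprime 2 (Nat.card Γ) := (Nat.coprime_two_left).mpr hodd
      have := Nat.dvd_gcd h1 h2
      rwa [Nat.Coprime.gcd_eq_one hcop] at this
    exact orderOf_eq_one_iff.mp (Nat.dvd_one.mp h3)
  have h4 := AlgEquiv.restrictNormal_commutes σ E ⟨gA z, z, rfl⟩
  have h5 : σ.restrictNormal E = 1 := hρ1
  rw [h5] at h4
  exact h4.symm

omit [NumberField M] [IsGalois K M] in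
/-- **Frobenius**: for an idele concentrated at `q ≠ r` with divisor supported at one prime `v`
above `q`, and `σ` acting on the `r ^ e`-th roots of unity by `t ↦ t ^ N(v)` (a Frobenius at `v`),
`σ ^ ord_v(x)` is an Artin symbol. -/
theorem isArtin_mulSingle_zpow (q : Nat.Primes) (hq : (q : ℕ) ≠ r) (x : (SemiLocal K q)ˣ)
    (v : PrimesOver (q : ℕ) K)
    (hsupp : ∀ w, w ≠ v → Multiplicative.toAdd (divq (q : ℕ) K x) w = 0) (σ : M ≃ₐ[K] M)
    (hσ : ∀ t : M, t ^ (r ^ e) = 1 → σ t = t ^ Ideal.absNorm v.1.asIdeal) :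
    IsArtin K r e M ⟨Pi.mulSingle q x, mulSingle_mem_finIdele K q x⟩
      (σ ^ (Multiplicative.toAdd (divq (q : ℕ) K x) v)) := by
  have : NeZero (r ^ e) := neZero_pow r e
  obtain ⟨u, hu, hformula⟩ := exists_unit_localChar_eq_finprod K r e q hq
  left
  rw [chi_mulSingle, hformula x, finprod_eq_single _ v (fun w hw => by rw [hsupp w hw, zpow_zero])]
  exact HasCyc.zpow ⟨_, hσ, (hu v).symm⟩ _

end Norms

end Fermat.Agent.CFT.Global.CycloArtin
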