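import Mathlib
import Fermat.Agent.CFT.Global.CycloNorm
import Fermat.Agent.CFT.Global.QBridgeDiv
import Fermat.Agent.Lib.CycloRecip

/-!
# P3 / CFT, Global: reciprocity for one auxiliary cyclotomic layer, in ideal vocabulary

The arithmetic core of `[AUX.N]` (local-global injectivity for one cyclic layer `E ⊆ K(ζ_ℓ)`),
WITHOUT any idelic character.

* `prod_core` : the product formula.  If `α = a₀ / b₀ ∈ Kˣ` with `a₀ ≡ b₀ mod ℓ` (so `α ≡ 1`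
  at `ℓ`) and `Δ ≤ (ZMod ℓ)ˣ` is a subgroup containing `N(u) ^ ord_u(α)` for all primes `u ≠ v`
  not dividing `ℓ`, then `N(v) ^ (2 * ord_v(α)) ∈ Δ`.
* `orderOf_frob_eq_card_stabilizer` : at an unramified prime the arithmetic Frobenius generates
  the decomposition group.
* `nrm_zpow_mem_iff` : for a layer `E ⊆ K(ζ_ℓ)` and a prime `Q ∌ ℓ` of `E` with trivial inertia,
  `N(u) ^ j ∈ χ(Gal(K(ζ_ℓ)/E))` iff `|Stab(Q)| ∣ j`.
* `stab_dvd_ordZ`, `stab_dvd_ordZ_of_frac` : the reciprocity statement for one layer: if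
  `|Stab(Q)| ∣ ord_Q(α)` at all primes `Q ∌ ℓ` not above `v`, then also at the primes above `v`.
-/

set_option autoImplicit false

namespace Fermat.Agent.CFT.Global.AuxRecip

open NumberField IsDedekindDomain IsDedekindDomain.HeightOneSpectrum
open Fermat.Agent.CFT.Global
open scoped Pointwise

section Core

variable {K : Type*} [Field K] [NumberField K] (ℓ : ℕ) [Fact ℓ.Prime]

/-- The class of the absolute norm of a prime `u ∤ ℓ` in `(ZMod ℓ)ˣ` (junk value `1` if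
`u ∣ ℓ`). -/
noncomputable def nrm (u : HeightOneSpectrum (𝓞 K)) : (ZMod ℓ)ˣ :=
  if h : Nat.Coprime (Ideal.absNorm u.asIdeal) ℓ then ZMod.unitOfCoprime _ h else 1

theorem nrm_val (u : HeightOneSpectrum (𝓞 K)) (h : Nat.Coprime (Ideal.absNorm u.asIdeal) ℓ) :
    ((nrm ℓ u : (ZMod ℓ)ˣ) : ZMod ℓ) = (Ideal.absNorm u.asIdeal : ZMod ℓ) := by
  rw [nrm, dif_pos h, ZMod.coe_unitOfCoprime]

omit [Fact ℓ.Prime] in
theorem not_coprime_of_mem (u : HeightOneSpectrum (𝓞 K)) (h : (ℓ : 𝓞 K) ∈ u.asIdeal) :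
    ¬ Nat.Coprime (Ideal.absNorm u.asIdeal) ℓ := by
  intro hc
  have h1 : ((Ideal.absNorm u.asIdeal : ℕ) : 𝓞 K) ∈ u.asIdeal := Ideal.absNorm_mem _
  obtain ⟨x, y, hxy⟩ := Nat.isCoprime_iff_coprime.mpr hc
  have h2 : ((x * (Ideal.absNorm u.asIdeal : ℤ) + y * (ℓ : ℤ) : ℤ) : 𝓞 K) ∈ u.asIdeal := by
    push_cast
    exact u.asIdeal.add_mem (u.asIdeal.mul_mem_left _ h1) (u.asIdeal.mul_mem_left _ h)
  rw [hxy] at h2
  exact u.isPrime.ne_top ((Ideal.eq_top_iff_one _).mpr (by simpa using h2))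

theorem nrm_eq_one_of_mem (u : HeightOneSpectrum (𝓞 K)) (h : (ℓ : 𝓞 K) ∈ u.asIdeal) :
    nrm ℓ u = 1 := by
  rw [nrm, dif_neg (not_coprime_of_mem ℓ u h)]

theorem coprime_of_not_mem (u : HeightOneSpectrum (𝓞 K)) (h : (ℓ : 𝓞 K) ∉ u.asIdeal) :
    Nat.Coprime (Ideal.absNorm u.asIdeal) ℓ := by
  rw [Nat.coprime_comm, (Fact.out : ℓ.Prime).coprime_iff_not_dvd]
  exact QBridge.not_dvd_absNorm u h

/-- Multiplicity of the prime `u` in the ideal `I`. -/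
noncomputable def cnt (u : HeightOneSpectrum (𝓞 K)) (I : Ideal (𝓞 K)) : ℕ :=
  (Associates.mk u.asIdeal).count (Associates.mk I).factors

theorem cnt_ne_zero_iff (u : HeightOneSpectrum (𝓞 K)) {I : Ideal (𝓞 K)} (hI : I ≠ 0) :
    cnt u I ≠ 0 ↔ u.asIdeal ∣ I :=
  Associates.count_ne_zero_iff_dvd hI u.irreducible

/-- The absolute norm of a nonzero ideal as a finite product over any finite set of primes
containing its prime factors. -/
theorem absNorm_eq_prod (I : Ideal (𝓞 K)) (hI : I ≠ 0) (S : Finset (HeightOneSpectrum (𝓞 K)))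
    (hS : ∀ u : HeightOneSpectrum (𝓞 K), u.asIdeal ∣ I → u ∈ S) :
    Ideal.absNorm I = ∏ u ∈ S, Ideal.absNorm u.asIdeal ^ cnt u I := by
  conv_lhs => rw [← Ideal.finprod_heightOneSpectrum_factorization hI]
  rw [map_finprod Ideal.absNorm (Ideal.hasFiniteMulSupport hI)]
  rw [finprod_eq_prod_of_mulSupport_subset (s := S)]
  · refine Finset.prod_congr rfl fun u _ => ?_
    rw [IsDedekindDomain.HeightOneSpectrum.maxPowDividing, map_pow, cnt]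
  · intro u hu
    rw [Function.mem_mulSupport] at hu
    refine Finset.mem_coe.mpr (hS u ((cnt_ne_zero_iff u hI).mp fun h0 => hu ?_))
    rw [IsDedekindDomain.HeightOneSpectrum.maxPowDividing]
    change Ideal.absNorm (u.asIdeal ^ cnt u I) = 1
    rw [h0, pow_zero, Ideal.one_eq_top, Ideal.absNorm_top]

/-- The class mod `ℓ` of the absolute norm of a nonzero ideal all of whose prime factors are
prime to `ℓ`. -/
theorem absNorm_cast_eq_prod (I : Ideal (𝓞 K)) (hI : I ≠ 0)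
    (hℓ : ∀ u : HeightOneSpectrum (𝓞 K), u.asIdeal ∣ I → (ℓ : 𝓞 K) ∉ u.asIdeal)
    (S : Finset (HeightOneSpectrum (𝓞 K)))
    (hS : ∀ u : HeightOneSpectrum (𝓞 K), u.asIdeal ∣ I → u ∈ S) :
    (Ideal.absNorm I : ZMod ℓ) = ((∏ u ∈ S, nrm ℓ u ^ cnt u I : (ZMod ℓ)ˣ) : ZMod ℓ) := by
  rw [absNorm_eq_prod I hI S hS, Nat.cast_prod, Units.coe_prod]
  refine Finset.prod_congr rfl fun u _ => ?_
  by_cases h0 : cnt u I = 0
  · rw [h0, pow_zero, pow_zero, Nat.cast_one, Units.val_one]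
  · have hdvd := (cnt_ne_zero_iff u hI).mp h0
    rw [Nat.cast_pow, Units.val_pow_eq_pow_val, nrm_val ℓ u (coprime_of_not_mem ℓ u (hℓ u hdvd))]

/-- `ord_u` of a nonzero integer of `K` is the multiplicity of `u` in its principal ideal. -/
theorem ordZ_eq_cnt (u : HeightOneSpectrum (𝓞 K)) (α : Kˣ) (a₀ : 𝓞 K) (ha : a₀ ≠ 0)
    (hα : (α : K) = (a₀ : K)) : QBridge.ordZ u α = (cnt u (Ideal.span {a₀}) : ℤ) := by
  rw [QBridge.ordZ_eq_iff, hα]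
  have h1 : ((a₀ : 𝓞 K) : K) = algebraMap (𝓞 K) K a₀ := rfl
  rw [h1, valuation_of_algebraMap, u.intValuation_if_neg ha]
  rfl

/-- `ord_u` of a quotient of nonzero integers. -/
theorem ordZ_eq_cnt_sub (u : HeightOneSpectrum (𝓞 K)) (α : Kˣ) (a₀ b₀ : 𝓞 K) (ha : a₀ ≠ 0)
    (hb : b₀ ≠ 0) (hα : (α : K) = (a₀ : K) / (b₀ : K)) :
    QBridge.ordZ u α = (cnt u (Ideal.span {a₀}) : ℤ) - (cnt u (Ideal.span {b₀}) : ℤ) := by
  have haK : (a₀ : K) ≠ 0 := by simpa using ha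
  have hbK : (b₀ : K) ≠ 0 := by simpa using hb
  have h1 : α = Units.mk0 (a₀ : K) haK * (Units.mk0 (b₀ : K) hbK)⁻¹ := by
    ext
    simp [hα, div_eq_mul_inv]
  rw [h1, QBridge.ordZ_mul, QBridge.ordZ_inv, ordZ_eq_cnt u _ a₀ ha rfl,
    ordZ_eq_cnt u _ b₀ hb rfl]
  ring

theorem zpow_two_mul_sub {G : Type*} [CommGroup G] (g : G) (a b : ℕ) :
    g ^ (2 * ((a : ℤ) - (b : ℤ))) = (g ^ a) ^ 2 * ((g ^ b) ^ 2)⁻¹ := by
  rw [mul_sub, zpow_sub, mul_comm 2 (a : ℤ), mul_comm 2 (b : ℤ), zpow_mul, zpow_mul,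
    zpow_natCast, zpow_natCast, zpow_ofNat, zpow_ofNat]

/-- **Product formula, mod `ℓ` form.**  Let `α = a₀ / b₀ ∈ Kˣ` with `a₀ ≡ b₀ mod ℓ` and `b₀`
prime to `ℓ`, and let `Δ ≤ (ZMod ℓ)ˣ` be any subgroup.  If `N(u) ^ ord_u(α) ∈ Δ` for every prime
`u ≠ v` of `K` not above `ℓ`, then `N(v) ^ (2 * ord_v(α)) ∈ Δ`. -/
theorem prod_core (Δ : Subgroup (ZMod ℓ)ˣ) (α : Kˣ) (a₀ b₀ y : 𝓞 K) (hb0 : b₀ ≠ 0)
    (hα : (α : K) = (a₀ : K) / (b₀ : K)) (h : a₀ - b₀ = (ℓ : 𝓞 K) * y)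
    (hb : ∀ u : HeightOneSpectrum (𝓞 K), (ℓ : 𝓞 K) ∈ u.asIdeal → b₀ ∉ u.asIdeal)
    (v : HeightOneSpectrum (𝓞 K))
    (hloc : ∀ u : HeightOneSpectrum (𝓞 K), u ≠ v → (ℓ : 𝓞 K) ∉ u.asIdeal →
      nrm ℓ u ^ QBridge.ordZ u α ∈ Δ) :
    nrm ℓ v ^ (2 * QBridge.ordZ v α) ∈ Δ := by
  classical
  have ha0 : a₀ ≠ 0 := by
    rintro rfl
    have h0 := α.ne_zero
    rw [hα] at h0
    simp at h0
  have hA : Ideal.span {a₀} ≠ (0 : Ideal (𝓞 K)) := by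
    rw [Ideal.zero_eq_bot, Ne, Ideal.span_singleton_eq_bot]
    exact ha0
  have hB : Ideal.span {b₀} ≠ (0 : Ideal (𝓞 K)) := by
    rw [Ideal.zero_eq_bot, Ne, Ideal.span_singleton_eq_bot]
    exact hb0
  have ha : ∀ u : HeightOneSpectrum (𝓞 K), (ℓ : 𝓞 K) ∈ u.asIdeal → a₀ ∉ u.asIdeal := by
    intro u hu hau
    apply hb u hu
    have hb' : b₀ = a₀ - (ℓ : 𝓞 K) * y := by rw [← h]; ring
    rw [hb']
    exact u.asIdeal.sub_mem hau (u.asIdeal.mul_mem_right _ hu)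
  set S : Finset (HeightOneSpectrum (𝓞 K)) :=
    (Ideal.finite_factors hA).toFinset ∪ (Ideal.finite_factors hB).toFinset with hS
  have hSA : ∀ u : HeightOneSpectrum (𝓞 K), u.asIdeal ∣ Ideal.span {a₀} → u ∈ S := fun u hu =>
    Finset.mem_union_left _ ((Set.Finite.mem_toFinset _).mpr hu)
  have hSB : ∀ u : HeightOneSpectrum (𝓞 K), u.asIdeal ∣ Ideal.span {b₀} → u ∈ S := fun u hu =>
    Finset.mem_union_right _ ((Set.Finite.mem_toFinset _).mpr hu)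
  have hdvdA : ∀ u : HeightOneSpectrum (𝓞 K), u.asIdeal ∣ Ideal.span {a₀} →
      (ℓ : 𝓞 K) ∉ u.asIdeal := fun u hu hℓu =>
    ha u hℓu (Ideal.dvd_span_singleton.mp hu)
  have hdvdB : ∀ u : HeightOneSpectrum (𝓞 K), u.asIdeal ∣ Ideal.span {b₀} →
      (ℓ : 𝓞 K) ∉ u.asIdeal := fun u hu hℓu =>
    hb u hℓu (Ideal.dvd_span_singleton.mp hu)
  have eA := absNorm_cast_eq_prod ℓ _ hA hdvdA S hSA
  have eB := absNorm_cast_eq_prod ℓ _ hB hdvdB S hSB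
  have hsq := CycloNorm.absNorm_span_sq_modEq ℓ a₀ b₀ y h
  have hsq' : ((Ideal.absNorm (Ideal.span {a₀}) : ℕ) : ZMod ℓ) ^ 2 =
      ((Ideal.absNorm (Ideal.span {b₀}) : ℕ) : ZMod ℓ) ^ 2 := by
    have h1 := (ZMod.natCast_eq_natCast_iff _ _ _).mpr hsq
    push_cast at h1
    exact h1
  rw [eA, eB] at hsq'
  have hP : (∏ u ∈ S, nrm ℓ u ^ cnt u (Ideal.span {a₀})) ^ 2 =
      (∏ u ∈ S, nrm ℓ u ^ cnt u (Ideal.span {b₀})) ^ 2 := by
    apply Units.ext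
    rw [Units.val_pow_eq_pow_val, Units.val_pow_eq_pow_val]
    exact hsq'
  have hprod : ∏ u ∈ S, nrm ℓ u ^ (2 * QBridge.ordZ u α) = 1 := by
    have hterm : ∀ u ∈ S, nrm ℓ u ^ (2 * QBridge.ordZ u α) =
        (nrm ℓ u ^ cnt u (Ideal.span {a₀})) ^ 2 *
          ((nrm ℓ u ^ cnt u (Ideal.span {b₀})) ^ 2)⁻¹ := by
      intro u _
      rw [ordZ_eq_cnt_sub u α a₀ b₀ ha0 hb0 hα, zpow_two_mul_sub]
    rw [Finset.prod_congr rfl hterm, Finset.prod_mul_distrib, Finset.prod_inv_distrib,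
      Finset.prod_pow, Finset.prod_pow, hP, mul_inv_cancel]
  by_cases hvS : v ∈ S
  · rw [← Finset.mul_prod_erase S _ hvS] at hprod
    have hmem : ∏ u ∈ S.erase v, nrm ℓ u ^ (2 * QBridge.ordZ u α) ∈ Δ := by
      refine Subgroup.prod_mem _ fun u hu => ?_
      have hne := Finset.ne_of_mem_erase hu
      by_cases hℓu : (ℓ : 𝓞 K) ∈ u.asIdeal
      · rw [nrm_eq_one_of_mem ℓ u hℓu, one_zpow]
        exact Δ.one_mem
      · rw [mul_comm, zpow_mul]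
        exact Δ.zpow_mem (hloc u hne hℓu) 2
    rw [eq_inv_of_mul_eq_one_left hprod]
    exact Δ.inv_mem hmem
  · have h1 : cnt v (Ideal.span {a₀}) = 0 := by
      by_contra h0
      exact hvS (hSA v ((cnt_ne_zero_iff v hA).mp h0))
    have h2 : cnt v (Ideal.span {b₀}) = 0 := by
      by_contra h0
      exact hvS (hSB v ((cnt_ne_zero_iff v hB).mp h0))
    rw [ordZ_eq_cnt_sub v α a₀ b₀ ha0 hb0 hα, h1, h2]
    simp

end Core

section FrobOrder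

variable {K E : Type*} [Field K] [NumberField K] [Field E] [NumberField E] [Algebra K E]
  [IsGalois K E]

theorem frob_pow_mk (F : Gal(E/K)) (Q : Ideal (𝓞 E)) (hF : IsArithFrobAt (𝓞 K) F Q) (k : ℕ)
    (x : 𝓞 E) :
    Ideal.Quotient.mk Q ((F ^ k) • x) =
      (Ideal.Quotient.mk Q x) ^ (Nat.card (𝓞 K ⧸ Q.under (𝓞 K)) ^ k) := by
  induction k generalizing x with
  | zero => simp
  | succ k ih =>
    rw [pow_succ, mul_smul, ih (F • x)]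
    have h := hF.mk_apply x
    rw [MulSemiringAction.toAlgHom_apply] at h
    rw [h, ← pow_mul, pow_succ']

theorem card_quot_le_of_pow_eq_one (F : Gal(E/K)) (Q : Ideal (𝓞 E)) [hQ : Q.IsPrime] (hQ0 : Q ≠ ⊥)
    (hF : IsArithFrobAt (𝓞 K) F Q) (n : ℕ) (hn : n ≠ 0) (hFn : F ^ n = 1) :
    Nat.card (𝓞 E ⧸ Q) ≤ Nat.card (𝓞 K ⧸ Q.under (𝓞 K)) ^ n := by
  have hfin : Finite (𝓞 E ⧸ Q) := Ideal.finiteQuotientOfFreeOfNeBot Q hQ0
  have := Fintype.ofFinite (𝓞 E ⧸ Q)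
  have hQmax : Q.IsMaximal := hQ.isMaximal hQ0
  let _ := Ideal.Quotient.field Q
  have hfinK : Finite (𝓞 K ⧸ Q.under (𝓞 K)) := hF.finite_quotient
  have hq1 : 1 < Nat.card (𝓞 K ⧸ Q.under (𝓞 K)) := Finite.one_lt_card
  have hqn : 1 < Nat.card (𝓞 K ⧸ Q.under (𝓞 K)) ^ n := Nat.one_lt_pow hn hq1
  have hroot : ∀ y : 𝓞 E ⧸ Q, y ^ (Nat.card (𝓞 K ⧸ Q.under (𝓞 K)) ^ n) = y := by
    intro y
    obtain ⟨x, rfl⟩ := Ideal.Quotient.mk_surjective y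
    have h1 := frob_pow_mk F Q hF n x
    rw [hFn, one_smul] at h1
    exact h1.symm
  have hsub : (Finset.univ : Finset (𝓞 E ⧸ Q)).val ⊆
      (Polynomial.X ^ (Nat.card (𝓞 K ⧸ Q.under (𝓞 K)) ^ n) - Polynomial.X :
        Polynomial (𝓞 E ⧸ Q)).roots := by
    intro y _
    rw [Polynomial.mem_roots (FiniteField.X_pow_card_sub_X_ne_zero _ hqn)]
    simp [hroot y]
  have h1 := Polynomial.card_le_degree_of_subset_roots hsub
  rw [FiniteField.X_pow_card_sub_X_natDegree_eq _ hqn, Finset.card_univ,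
    ← Nat.card_eq_fintype_card] at h1
  exact h1

/-- In the unramified case an arithmetic Frobenius generates the decomposition group. -/
theorem orderOf_frob_eq_card_stabilizer (F : Gal(E/K)) (Q : Ideal (𝓞 E)) [hQ : Q.IsPrime]
    (hQ0 : Q ≠ ⊥) (hF : IsArithFrobAt (𝓞 K) F Q) (hin : Q.inertia Gal(E/K) = ⊥) :
    orderOf F = Nat.card (MulAction.stabilizer Gal(E/K) Q) := by
  have hQmax : Q.IsMaximal := hQ.isMaximal hQ0
  have hu0 : Q.under (𝓞 K) ≠ ⊥ := by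
    intro h0
    exact hQ0 (Ideal.eq_bot_of_comap_eq_bot h0)
  have hup : (Q.under (𝓞 K)).IsPrime := Ideal.IsPrime.under (𝓞 K) Q
  have humax : (Q.under (𝓞 K)).IsMaximal := hup.isMaximal hu0
  have hfinK : Finite (𝓞 K ⧸ Q.under (𝓞 K)) := hF.finite_quotient
  have hq1 : 1 < Nat.card (𝓞 K ⧸ Q.under (𝓞 K)) := Finite.one_lt_card
  have hmem : F ∈ MulAction.stabilizer Gal(E/K) Q := hF.mem_stabilizer
  have hdvd : orderOf F ∣ Nat.card (MulAction.stabilizer Gal(E/K) Q) :=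
    Subgroup.orderOf_dvd_natCard _ hmem
  have hcard := Ideal.card_stabilizer_eq_card_inertia_mul_finrank (G := Gal(E/K))
    (Q.under (𝓞 K)) Q
  rw [hin, Subgroup.card_bot, one_mul] at hcard
  have hnorm := Ideal.absNorm_eq_pow_inertiaDeg'_of_liesOver Q (Q.under (𝓞 K)) hup hu0
  rw [Ideal.inertiaDeg'_eq_inertiaDeg (Q.under (𝓞 K)) Q, Ideal.absNorm_apply,
    Submodule.cardQuot_apply, Ideal.absNorm_apply, Submodule.cardQuot_apply] at hnorm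
  have hle := card_quot_le_of_pow_eq_one F Q hQ0 hF (orderOf F) (orderOf_pos F).ne'
    (pow_orderOf_eq_one F)
  rw [hnorm, Nat.pow_le_pow_iff_right hq1] at hle
  rw [hcard]
  rw [hcard] at hdvd
  refine Nat.le_antisymm (Nat.le_of_dvd ?_ hdvd) hle
  rw [← hcard]
  exact Nat.card_pos

/-- At a prime `Q` with trivial inertia, `ord_Q` of an element of the base field is `ord_u` at
the prime `u` below. -/
theorem ordZ_map_eq_of_inertia (Q : HeightOneSpectrum (𝓞 E)) (u : HeightOneSpectrum (𝓞 K))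
    (hu : Q.asIdeal.under (𝓞 K) = u.asIdeal) (hin : Q.asIdeal.inertia Gal(E/K) = ⊥) (α : Kˣ) :
    QBridge.ordZ Q (Units.map (algebraMap K E).toMonoidHom α) = QBridge.ordZ u α := by
  have hover : Q.asIdeal.LiesOver u.asIdeal := ⟨hu.symm⟩
  have hmaxu : u.asIdeal.IsMaximal := u.isMaximal
  have he : u.asIdeal.ramificationIdx' Q.asIdeal = 1 := by
    rw [Ideal.ramificationIdx'_eq_ramificationIdx u.asIdeal Q.asIdeal u.ne_bot,
      ← Ideal.ramificationIdxIn_eq_ramificationIdx u.asIdeal Q.asIdeal Gal(E/K),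
      ← Ideal.card_inertia_eq_ramificationIdxIn (G := Gal(E/K)) u.asIdeal Q.asIdeal, hin,
      Subgroup.card_bot]
  have hval := valuation_liesOver E u Q (α : K)
  rw [he, pow_one] at hval
  rw [QBridge.ordZ_eq_iff, ← QBridge.valuation_eq_exp_neg_ordZ u α, hval]
  rfl

end FrobOrder

section Layer

variable (K : Type*) [Field K] [NumberField K] {L : Type*} [Field L] [NumberField L] [Algebra K L]
  (ℓ : ℕ) [hℓ : Fact ℓ.Prime] [hcyc : IsCyclotomicExtension {ℓ} K L]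
  {ζ : L} (hζ : IsPrimitiveRoot ζ ℓ)

omit hcyc in
/-- Away from `ℓ`, the cyclotomic character of a Frobenius of `K(ζ_ℓ)/K` is the class of the
absolute norm of the prime below. -/
theorem exists_frob_autToPow [IsGalois K L] (QL : Ideal (𝓞 L)) [hQ : QL.IsPrime] (hQ0 : QL ≠ ⊥)
    (hℓQ : (ℓ : 𝓞 L) ∉ QL) (u : HeightOneSpectrum (𝓞 K)) (hu : QL.under (𝓞 K) = u.asIdeal) :
    ∃ σ : Gal(L/K), IsArithFrobAt (𝓞 K) σ QL ∧ hζ.autToPow K σ = nrm ℓ u := by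
  have hfin : Finite (𝓞 L ⧸ QL) := Ideal.finiteQuotientOfFreeOfNeBot QL hQ0
  have hn : ℓ ≠ 0 := hℓ.out.ne_zero
  refine ⟨arithFrobAt (𝓞 K) Gal(L/K) QL, IsArithFrobAt.arithFrobAt _ _ _, ?_⟩
  have h1 := CycloNorm.frob_apply_of_pow_eq_one (arithFrobAt (𝓞 K) Gal(L/K) QL) QL
    (IsArithFrobAt.arithFrobAt (𝓞 K) Gal(L/K) QL) hn hζ.pow_eq_one hℓQ
  have h2 := hζ.autToPow_spec K (arithFrobAt (𝓞 K) Gal(L/K) QL)
  rw [h1, pow_eq_pow_mod (Ideal.absNorm (QL.under (𝓞 K))) hζ.pow_eq_one] at h2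
  have h3 := hζ.pow_inj (ZMod.val_lt _) (Nat.mod_lt _ (Nat.pos_of_ne_zero hn)) h2
  have hℓu : (ℓ : 𝓞 K) ∉ u.asIdeal := by
    intro h
    apply hℓQ
    rw [← hu, Ideal.under_def, Ideal.mem_comap, map_natCast] at h
    exact h
  apply Units.ext
  rw [nrm_val ℓ u (coprime_of_not_mem ℓ u hℓu), ← hu, ← ZMod.natCast_mod, ← h3,
    ZMod.natCast_zmod_val]

/-- **Local reciprocity for the layer `E`, in norm form.**  For a prime `Q ∌ ℓ` of a layer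
`E ⊆ K(ζ_ℓ)` unramified at `Q`, lying over the prime `u` of `K`: a power `N(u) ^ j` lies in the
image under the cyclotomic character of `Gal(K(ζ_ℓ)/E)` exactly when the order of the
decomposition group of `Q` divides `j`. -/
theorem nrm_zpow_mem_iff (E : IntermediateField K L) [IsGalois K E]
    (Q : Ideal (𝓞 E)) [hQ : Q.IsPrime] (hQ0 : Q ≠ ⊥) (hℓQ : (ℓ : 𝓞 E) ∉ Q)
    (hin : Q.inertia Gal(E/K) = ⊥)
    (u : HeightOneSpectrum (𝓞 K)) (hu : Q.under (𝓞 K) = u.asIdeal) (j : ℤ) :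
    nrm ℓ u ^ j ∈ (E.fixingSubgroup).map (hζ.autToPow K) ↔
      (Nat.card (MulAction.stabilizer Gal(E/K) Q) : ℤ) ∣ j := by
  have hgal := IsCyclotomicExtension.isGalois {ℓ} K L
  have hQmax : Q.IsMaximal := hQ.isMaximal hQ0
  obtain ⟨QL, hQLmax, hQLover⟩ :=
    Ideal.exists_maximal_ideal_liesOver_of_isIntegral (S := 𝓞 L) Q
  have hQLp : QL.IsPrime := hQLmax.isPrime
  have hund : QL.under (𝓞 E) = Q := hQLover.over.symm
  have hund2 : QL.under (𝓞 K) = u.asIdeal := by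
    rw [← hu, ← hund, Ideal.under_under]
  have hQL0 : QL ≠ ⊥ := by
    rintro rfl
    apply hQ0
    rw [← hund]
    exact Ideal.under_bot _ _
  have hℓQL : (ℓ : 𝓞 L) ∉ QL := by
    intro h
    apply hℓQ
    rw [← hund, Ideal.under_def, Ideal.mem_comap, map_natCast]
    exact h
  obtain ⟨σ, hσ, hchi⟩ := exists_frob_autToPow K ℓ hζ QL hQL0 hℓQL u hund2
  have hF : IsArithFrobAt (𝓞 K) (AlgEquiv.restrictNormalHom E σ) Q := by
    have := Fermat.Agent.Lib.CycloRecip.isArithFrobAt_restrict (M := E) σ QL hσ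
    rwa [hund] at this
  have hord := orderOf_frob_eq_card_stabilizer (AlgEquiv.restrictNormalHom E σ) Q hQ0 hF hin
  rw [← hord, ← hchi, ← map_zpow, Subgroup.mem_map_iff_mem (hζ.autToPow_injective K),
    ← IntermediateField.restrictNormalHom_ker, MonoidHom.mem_ker, map_zpow,
    orderOf_dvd_iff_zpow_eq_one]

include hcyc hζ in
/-- **[AUX.R] (B): reciprocity for one auxiliary layer, ideal form.**  Let `E ⊆ K(ζ_ℓ)` be a
layer of odd degree over `K`, unramified outside `ℓ`, and let `α = a₀ / b₀ ∈ Kˣ` with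
`a₀ ≡ b₀ mod ℓ`, `b₀` prime to `ℓ`.  If for every prime `Q ∌ ℓ` of `E` not above the prime of `K`
below `𝔙`, the order of the decomposition group of `Q` divides `ord_Q(α)`, then the same holds
at `𝔙`. -/
theorem stab_dvd_ordZ (E : IntermediateField K L) [IsGalois K E]
    (hodd : Odd (Nat.card Gal(E/K)))
    (hunr : ∀ Q : Ideal (𝓞 E), Q.IsPrime → Q ≠ ⊥ → (ℓ : 𝓞 E) ∉ Q → Q.inertia Gal(E/K) = ⊥)
    (α : Kˣ) (a₀ b₀ y : 𝓞 K) (hb0 : b₀ ≠ 0) (hα : (α : K) = (a₀ : K) / (b₀ : K))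
    (h : a₀ - b₀ = (ℓ : 𝓞 K) * y)
    (hb : ∀ u : HeightOneSpectrum (𝓞 K), (ℓ : 𝓞 K) ∈ u.asIdeal → b₀ ∉ u.asIdeal)
    (𝔙 : HeightOneSpectrum (𝓞 E)) (h𝔙 : (ℓ : 𝓞 E) ∉ 𝔙.asIdeal)
    (H : ∀ Q : HeightOneSpectrum (𝓞 E), (ℓ : 𝓞 E) ∉ Q.asIdeal →
      Q.asIdeal.under (𝓞 K) ≠ 𝔙.asIdeal.under (𝓞 K) →
      (Nat.card (MulAction.stabilizer Gal(E/K) Q.asIdeal) : ℤ) ∣
        QBridge.ordZ Q (Units.map (algebraMap K E).toMonoidHom α)) :
    (Nat.card (MulAction.stabilizer Gal(E/K) 𝔙.asIdeal) : ℤ) ∣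
      QBridge.ordZ 𝔙 (Units.map (algebraMap K E).toMonoidHom α) := by
  have hv0 : 𝔙.asIdeal.under (𝓞 K) ≠ ⊥ := fun h0 =>
    𝔙.ne_bot (Ideal.eq_bot_of_comap_eq_bot h0)
  let v : HeightOneSpectrum (𝓞 K) :=
    ⟨𝔙.asIdeal.under (𝓞 K), Ideal.IsPrime.under (𝓞 K) 𝔙.asIdeal, hv0⟩
  have hv : 𝔙.asIdeal.under (𝓞 K) = v.asIdeal := rfl
  have hin𝔙 := hunr _ 𝔙.isPrime 𝔙.ne_bot h𝔙
  have key : nrm ℓ v ^ (2 * QBridge.ordZ v α) ∈ (E.fixingSubgroup).map (hζ.autToPow K) := by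
    refine prod_core ℓ _ α a₀ b₀ y hb0 hα h hb v ?_
    intro u hu hℓu
    have hmaxu : u.asIdeal.IsMaximal := u.isMaximal
    obtain ⟨Q, hQmax, hQover⟩ :=
      Ideal.exists_maximal_ideal_liesOver_of_isIntegral (S := 𝓞 E) u.asIdeal
    have hQu : Q.under (𝓞 K) = u.asIdeal := hQover.over.symm
    have hQ0 : Q ≠ ⊥ := by
      rintro rfl
      apply u.ne_bot
      rw [← hQu]
      exact Ideal.under_bot _ _
    have hℓQ : (ℓ : 𝓞 E) ∉ Q := by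
      intro hmem
      apply hℓu
      rw [← hQu, Ideal.under_def, Ideal.mem_comap, map_natCast]
      exact hmem
    have hinQ := hunr Q hQmax.isPrime hQ0 hℓQ
    have hne : Q.under (𝓞 K) ≠ 𝔙.asIdeal.under (𝓞 K) := by
      rw [hQu, hv]
      intro heq
      exact hu (HeightOneSpectrum.ext heq)
    have hH := H ⟨Q, hQmax.isPrime, hQ0⟩ hℓQ hne
    rw [ordZ_map_eq_of_inertia ⟨Q, hQmax.isPrime, hQ0⟩ u hQu hinQ α] at hH
    have hQp : Q.IsPrime := hQmax.isPrime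
    exact (nrm_zpow_mem_iff K ℓ hζ E Q hQ0 hℓQ hinQ u hQu _).mpr hH
  have h𝔙p : 𝔙.asIdeal.IsPrime := 𝔙.isPrime
  have h1 := (nrm_zpow_mem_iff K ℓ hζ E 𝔙.asIdeal 𝔙.ne_bot h𝔙 hin𝔙 v hv _).mp key
  have hoddS : Odd (Nat.card (MulAction.stabilizer Gal(E/K) 𝔙.asIdeal)) :=
    Odd.of_dvd_nat hodd (Subgroup.card_subgroup_dvd_card _)
  have hcop : IsCoprime (Nat.card (MulAction.stabilizer Gal(E/K) 𝔙.asIdeal) : ℤ) 2 := by
    exact_mod_cast Nat.isCoprime_iff_coprime.mpr (Nat.coprime_two_right.mpr hoddS)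
  rw [ordZ_map_eq_of_inertia 𝔙 v hv hin𝔙 α]
  exact hcop.dvd_of_dvd_mul_left h1

include hcyc hζ in
/-- **[AUX.R] (c)**: `stab_dvd_ordZ` with the congruence data in the existential form
"`α = a₀ / b₀` with `a₀ ≡ b₀ ≡ 1 mod ℓ`". -/
theorem stab_dvd_ordZ_of_frac (E : IntermediateField K L) [IsGalois K E]
    (hodd : Odd (Nat.card Gal(E/K)))
    (hunr : ∀ Q : Ideal (𝓞 E), Q.IsPrime → Q ≠ ⊥ → (ℓ : 𝓞 E) ∉ Q → Q.inertia Gal(E/K) = ⊥)
    (α : Kˣ)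
    (hfrac : ∃ a₀ b₀ : 𝓞 K, b₀ ≠ 0 ∧ (α : K) * b₀ = a₀ ∧
      a₀ - b₀ ∈ Ideal.span {(ℓ : 𝓞 K)} ∧ b₀ - 1 ∈ Ideal.span {(ℓ : 𝓞 K)})
    (𝔙 : HeightOneSpectrum (𝓞 E)) (h𝔙 : (ℓ : 𝓞 E) ∉ 𝔙.asIdeal)
    (H : ∀ Q : HeightOneSpectrum (𝓞 E), (ℓ : 𝓞 E) ∉ Q.asIdeal →
      Q.asIdeal.under (𝓞 K) ≠ 𝔙.asIdeal.under (𝓞 K) →
      (Nat.card (MulAction.stabilizer Gal(E/K) Q.asIdeal) : ℤ) ∣
        QBridge.ordZ Q (Units.map (algebraMap K E).toMonoidHom α)) :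
    (Nat.card (MulAction.stabilizer Gal(E/K) 𝔙.asIdeal) : ℤ) ∣
      QBridge.ordZ 𝔙 (Units.map (algebraMap K E).toMonoidHom α) := by
  obtain ⟨a₀, b₀, hb0, hα, hab, hb1⟩ := hfrac
  obtain ⟨y, hy⟩ := Ideal.mem_span_singleton.mp hab
  have hbK : (b₀ : K) ≠ 0 := by simpa using hb0
  refine stab_dvd_ordZ K ℓ hζ E hodd hunr α a₀ b₀ y hb0 (eq_div_of_mul_eq hbK hα) hy ?_ 𝔙 h𝔙 H
  intro u hu hbu
  have h1 : b₀ - 1 ∈ u.asIdeal := by
    obtain ⟨z, hz⟩ := Ideal.mem_span_singleton.mp hb1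
    rw [hz]
    exact u.asIdeal.mul_mem_right _ hu
  have h2 : (1 : 𝓞 K) ∈ u.asIdeal := by
    have h3 := u.asIdeal.sub_mem hbu h1
    rwa [sub_sub_cancel] at h3
  exact u.isPrime.ne_top ((Ideal.eq_top_iff_one _).mpr h2)

end Layer

end Fermat.Agent.CFT.Global.AuxRecip
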