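import Mathlib
import Fermat.Agent.CFT.Global.Defs
import Fermat.Agent.CFT.Global.SemiLocalGalois

/-!
# Class field theory program (P3), global layer: the block of a place is a direct factor

For a number field `L` with an action of a group `G` and a rational prime `q`, the block
`orbitUnits G L q m = ∏_{w' ∈ G·w} L_{w'}ˣ` of a place is a `G`-stable direct factor of the unit
group of the semilocal algebra `L ⊗[ℚ] ℚ_[q]`: the retraction is `x ↦ x·e + (1 - e)`, where `e`
is the (`G`-invariant) idempotent of the orbit, produced by the Chinese remainder theorem.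

* `orbitIdem`, `orbitIdem_mul_self`, `smul_orbitIdem` : the idempotent of the orbit;
* `retractHom : (SemiLocal L q)ˣ →* (SemiLocal L q)ˣ`, `retractHom_mem`, `retractHom_of_mem`,
  `smul_retractHom` : the retraction on units;
* `blockRetract : localRep G L q ⟶ orbitRep G L q m` with `orbitToLocal ≫ blockRetract = 𝟙`;
* `isZero_of_local` : for every additive functor-free statement we need — if the cohomology of
  a subgroup `N` with coefficients in `(L ⊗ ℚ_q)ˣ` vanishes in degree `n`, so does the cohomology
  with coefficients in the block ([LG.c] `BlockH1`, hypothesis form).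
-/

set_option autoImplicit false

open CategoryTheory
open scoped TensorProduct Fermat.Agent.CFT.Global

namespace Fermat.Agent.CFT.Global.BlockH1

open Fermat.Agent.CFT Fermat.Agent.CFT.Global Fermat.Agent.CFT.Global.SemiLocalGalois

section

variable (G L : Type) [Group G] [Field L] [NumberField L] [MulSemiringAction G L]
variable (q : ℕ) [Fact q.Prime] (m : Ideal (SemiLocal L q))

/-- `L ⊗[ℚ] ℚ_[q]` is Artinian (local instance for this file). -/
local instance instArtinianSemiLocal : IsArtinianRing (SemiLocal L q) :=
  (semiLocalArtinian L q).1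

/-- `L ⊗[ℚ] ℚ_[q]` is reduced (local instance for this file). -/
local instance instReducedSemiLocal : IsReduced (SemiLocal L q) :=
  (semiLocalArtinian L q).2

open Classical in
theorem exists_orbitIdem :
    ∃ e : SemiLocal L q,
      (∀ m' : Ideal (SemiLocal L q), m'.IsMaximal → InOrbit G m' m → e - 1 ∈ m') ∧
      (∀ m' : Ideal (SemiLocal L q), m'.IsMaximal → ¬ InOrbit G m' m → e ∈ m') := by
  obtain ⟨e, he⟩ := exists_forall_sub_mem (A := SemiLocal L q)
    (fun m' : MaximalSpectrum (SemiLocal L q) => if InOrbit G m'.asIdeal m then 1 else 0)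
  refine ⟨e, fun m' hm' h => ?_, fun m' hm' h => ?_⟩
  · have h1 := he ⟨m', hm'⟩
    simpa [h] using h1
  · have h1 := he ⟨m', hm'⟩
    simpa [h] using h1

/-- The idempotent of the orbit of `m`: `≡ 1` modulo the maximal ideals in the orbit, `≡ 0`
modulo the others. -/
noncomputable def orbitIdem : SemiLocal L q := (exists_orbitIdem G L q m).choose

theorem orbitIdem_sub_one_mem {m' : Ideal (SemiLocal L q)} (hm' : m'.IsMaximal)
    (h : InOrbit G m' m) : orbitIdem G L q m - 1 ∈ m' :=
  (exists_orbitIdem G L q m).choose_spec.1 m' hm' h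

theorem orbitIdem_mem {m' : Ideal (SemiLocal L q)} (hm' : m'.IsMaximal)
    (h : ¬ InOrbit G m' m) : orbitIdem G L q m ∈ m' :=
  (exists_orbitIdem G L q m).choose_spec.2 m' hm' h

/-- An element which is `≡ 0` modulo the orbit, times an element which is `≡ 0` modulo the
other maximal ideals, is zero. -/
theorem mul_eq_zero_of_orbit {a b : SemiLocal L q}
    (ha : ∀ m' : Ideal (SemiLocal L q), m'.IsMaximal → InOrbit G m' m → a ∈ m')
    (hb : ∀ m' : Ideal (SemiLocal L q), m'.IsMaximal → ¬ InOrbit G m' m → b ∈ m') :
    a * b = 0 := by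
  apply eq_zero_of_forall_mem
  intro m' hm'
  by_cases h : InOrbit G m' m
  · exact m'.mul_mem_right _ (ha m' hm' h)
  · exact m'.mul_mem_left _ (hb m' hm' h)

theorem orbitIdem_mul_self :
    orbitIdem G L q m * orbitIdem G L q m = orbitIdem G L q m := by
  have h := mul_eq_zero_of_orbit G L q m (a := orbitIdem G L q m - 1) (b := orbitIdem G L q m)
    (fun m' hm' h => orbitIdem_sub_one_mem G L q m hm' h)
    (fun m' hm' h => orbitIdem_mem G L q m hm' h)
  linear_combination h

theorem smul_orbitIdem (g : G) : g • orbitIdem G L q m = orbitIdem G L q m := by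
  rw [← sub_eq_zero]
  apply eq_zero_of_forall_mem
  intro m' hm'
  have ht : (translate m' g).IsMaximal := translate_isMaximal hm' g
  have hio : InOrbit G (translate m' g) m' := ⟨g, fun a => Iff.rfl⟩
  by_cases h : InOrbit G m' m
  · have h1 : orbitIdem G L q m - 1 ∈ translate m' g :=
      orbitIdem_sub_one_mem G L q m ht (hio.trans h)
    have h2 : g • (orbitIdem G L q m - 1) ∈ m' := h1
    rw [smul_sub, smul_one] at h2
    have h3 := orbitIdem_sub_one_mem G L q m hm' h
    have : g • orbitIdem G L q m - orbitIdem G L q m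
        = (g • orbitIdem G L q m - 1) - (orbitIdem G L q m - 1) := by ring
    rw [this]
    exact m'.sub_mem h2 h3
  · have h1 : orbitIdem G L q m ∈ translate m' g :=
      orbitIdem_mem G L q m ht (fun h' => h (hio.symm.trans h'))
    have h2 : g • orbitIdem G L q m ∈ m' := h1
    exact m'.sub_mem h2 (orbitIdem_mem G L q m hm' h)

/-- The retraction of `(L ⊗ ℚ_q)ˣ` onto the block of `m`: `x ↦ x·e + (1 - e)`. -/
noncomputable def retractHom : (SemiLocal L q)ˣ →* (SemiLocal L q)ˣ where
  toFun x :=
    { val := (x : SemiLocal L q) * orbitIdem G L q m + (1 - orbitIdem G L q m)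
      inv := ((x⁻¹ : (SemiLocal L q)ˣ) : SemiLocal L q) * orbitIdem G L q m
        + (1 - orbitIdem G L q m)
      val_inv := by
        have he := orbitIdem_mul_self G L q m
        have hx : (x : SemiLocal L q) * ((x⁻¹ : (SemiLocal L q)ˣ) : SemiLocal L q) = 1 :=
          x.mul_inv
        linear_combination
          ((x : SemiLocal L q) * ((x⁻¹ : (SemiLocal L q)ˣ) : SemiLocal L q)
            - (x : SemiLocal L q) - ((x⁻¹ : (SemiLocal L q)ˣ) : SemiLocal L q) + 1) * he
          + orbitIdem G L q m * hx
      inv_val := by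
        have he := orbitIdem_mul_self G L q m
        have hx : ((x⁻¹ : (SemiLocal L q)ˣ) : SemiLocal L q) * (x : SemiLocal L q) = 1 :=
          x.inv_mul
        linear_combination
          (((x⁻¹ : (SemiLocal L q)ˣ) : SemiLocal L q) * (x : SemiLocal L q)
            - (x : SemiLocal L q) - ((x⁻¹ : (SemiLocal L q)ˣ) : SemiLocal L q) + 1) * he
          + orbitIdem G L q m * hx }
  map_one' := by
    apply Units.ext
    show (1 : SemiLocal L q) * orbitIdem G L q m + (1 - orbitIdem G L q m) = 1
    ring
  map_mul' x y := by
    apply Units.ext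
    show ((x : SemiLocal L q) * (y : SemiLocal L q)) * orbitIdem G L q m
        + (1 - orbitIdem G L q m)
      = ((x : SemiLocal L q) * orbitIdem G L q m + (1 - orbitIdem G L q m))
        * ((y : SemiLocal L q) * orbitIdem G L q m + (1 - orbitIdem G L q m))
    have he := orbitIdem_mul_self G L q m
    linear_combination
      (-(x : SemiLocal L q) * (y : SemiLocal L q) + (x : SemiLocal L q) + (y : SemiLocal L q)
        - 1) * he

theorem retractHom_coe (x : (SemiLocal L q)ˣ) :
    ((retractHom G L q m x : (SemiLocal L q)ˣ) : SemiLocal L q)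
      = (x : SemiLocal L q) * orbitIdem G L q m + (1 - orbitIdem G L q m) := rfl

theorem retractHom_mem (x : (SemiLocal L q)ˣ) : retractHom G L q m x ∈ orbitUnits G L q m := by
  rw [mem_orbitUnits_iff]
  intro m' hm' h
  rw [retractHom_coe]
  have : (x : SemiLocal L q) * orbitIdem G L q m + (1 - orbitIdem G L q m) - 1
      = ((x : SemiLocal L q) - 1) * orbitIdem G L q m := by ring
  rw [this]
  exact m'.mul_mem_left _ (orbitIdem_mem G L q m hm' h)

theorem retractHom_of_mem {x : (SemiLocal L q)ˣ} (hx : x ∈ orbitUnits G L q m) :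
    retractHom G L q m x = x := by
  apply Units.ext
  rw [retractHom_coe]
  rw [mem_orbitUnits_iff] at hx
  have h := mul_eq_zero_of_orbit G L q m (a := orbitIdem G L q m - 1)
    (b := (x : SemiLocal L q) - 1)
    (fun m' hm' h => orbitIdem_sub_one_mem G L q m hm' h)
    (fun m' hm' h => hx m' hm' h)
  linear_combination h

theorem smul_retractHom (g : G) (x : (SemiLocal L q)ˣ) :
    g • retractHom G L q m x = retractHom G L q m (g • x) := by
  apply Units.ext
  rw [coe_smul_units, retractHom_coe, retractHom_coe, coe_smul_units, smul_add, smul_mul',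
    smul_sub, smul_one, smul_orbitIdem]

/-- **The block is a direct factor**: the `G`-equivariant retraction
`(L ⊗ ℚ_q)ˣ → ∏_{w' ∈ G·w} L_{w'}ˣ`. -/
noncomputable def blockRetract : localRep G L q ⟶ orbitRep G L q m :=
  Rep.ofHom ⟨LinearMap.codRestrict (addSub (orbitUnits G L q m))
      (MonoidHom.toAdditive (retractHom G L q m)).toIntLinearMap
      (fun x => retractHom_mem G L q m (Additive.toMul x)),
    fun g => by
      apply LinearMap.ext
      intro x
      apply Subtype.ext
      exact congrArg Additive.ofMul (smul_retractHom G L q m g (Additive.toMul x)).symm⟩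

theorem orbitToLocal_blockRetract :
    orbitToLocal G L q m ≫ blockRetract G L q m = 𝟙 (orbitRep G L q m) := by
  apply Rep.hom_ext
  apply Representation.IntertwiningMap.ext
  apply LinearMap.ext
  intro x
  apply Subtype.ext
  exact congrArg Additive.ofMul (retractHom_of_mem G L q m x.2)

/-- **[LG.c] `BlockH1`, hypothesis form, every degree**: for a subgroup `N` of `G`, if
`Hⁿ(N, (L ⊗ ℚ_q)ˣ) = 0` then `Hⁿ(N, ∏_{w' ∈ G·w} L_{w'}ˣ) = 0`. -/
theorem isZero_of_local (N : Subgroup G) (n : ℕ)
    (h : Limits.IsZero (groupCohomology (Rep.res N.subtype (localRep G L q)) n)) :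
    Limits.IsZero (groupCohomology (Rep.res N.subtype (orbitRep G L q m)) n) := by
  have h1 : (Rep.resFunctor N.subtype ⋙ groupCohomology.functor ℤ N n).map
        (orbitToLocal G L q m) ≫
      (Rep.resFunctor N.subtype ⋙ groupCohomology.functor ℤ N n).map (blockRetract G L q m)
        = 𝟙 _ := by
    rw [← CategoryTheory.Functor.map_comp, orbitToLocal_blockRetract, CategoryTheory.Functor.map_id]
  refine (Limits.IsZero.iff_id_eq_zero _).2 ?_
  have h2 : (Rep.resFunctor N.subtype ⋙ groupCohomology.functor ℤ N n).map
      (orbitToLocal G L q m) = 0 := h.eq_of_tgt _ _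
  rw [h2, Limits.zero_comp] at h1
  exact h1.symm

end

end Fermat.Agent.CFT.Global.BlockH1
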