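/-
CFT program, layer Global: the norm group of a block at an unramified place (helper65, leaf
[AUX.N2] = step (7) of the auxiliary-layer argument).

For a Galois pair `(Γ, Z)`, a maximal ideal `m` of `A_q(Z) = Z ⊗[ℚ] ℚ_[q]` with decomposition
group `D` and prime `𝔙 = placeBelow m` of `𝓞 Z` with trivial inertia: a `Γ`-invariant element
`a` of the block `orbitRep Γ Z q m` with `|D| ∣ ord_𝔙(a)` is a `Γ`-norm from the block.

* `block_norm_of_uniformizer` : hypothesis "some `Γ`-invariant `π ∈ Zˣ` has `ord_𝔙 π = 1`";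
* `block_norm_of_inertia` : hypothesis `𝔙.inertia Γ = ⊥` (Mathlib's inertia group);
* `block_norm_units_of_inertia` : the same in multiplicative form.
-/
import Mathlib
import Fermat.Agent.CFT.Global.BlockNorm.Shapiro
import Fermat.Agent.CFT.Global.BlockNorm.Uniformizer
import Fermat.Agent.CFT.Global.BlockNorm.Comp

set_option autoImplicit false
set_option linter.style.haveILetI false

noncomputable section

namespace Fermat.Agent.CFT.Global.BlockNorm

open TensorProduct NumberField IsDedekindDomain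
open Fermat.Agent.CFT Fermat.Agent.CFT.Global Fermat.Agent.CFT.Global.CountDict
open scoped Fermat.Agent.CFT.Global Pointwise

attribute [local instance] Algebra.TensorProduct.rightAlgebra Ideal.Quotient.field

variable (Γ Z : Type) [Group Γ] [Fintype Γ] [Field Z] [NumberField Z] [MulSemiringAction Γ Z]
  [FaithfulSMul Γ Z]
variable (q : ℕ) [Fact q.Prime] (m : MaximalSpectrum (SemiLocal Z q))

/-- **[AUX.N2], uniformizer form.**  If some `Γ`-invariant element of `Z` is a uniformizer at
the prime below `m`, then a `Γ`-invariant element `a` of the block of `m` whose divisor at that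
prime is divisible by the order of the decomposition group is a `Γ`-norm from the block. -/
theorem block_norm_of_uniformizer (π : Zˣ) (hfix : ∀ γ : Γ, γ • (π : Z) = π)
    (hord : QBridge.ordZ (placeBelow m) π = 1)
    (a : (orbitRep Γ Z q m.asIdeal).V) (ha : ∀ γ : Γ, (orbitRep Γ Z q m.asIdeal).ρ γ a = a)
    (hdvd : (Nat.card (decompGroup Γ Z q m.asIdeal) : ℤ) ∣
      Multiplicative.toAdd (QBridge.divq q Z (Additive.toMul a.1 : (SemiLocal Z q)ˣ))
        ⟨placeBelow m, natCast_mem_placeBelow m⟩) :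
    ∃ b : (orbitRep Γ Z q m.asIdeal).V, (orbitRep Γ Z q m.asIdeal).ρ.norm b = a := by
  classical
  letI : Fintype (decompGroup Γ Z q m.asIdeal) := Fintype.ofFinite _
  -- the component of `a`
  let x : (SemiLocal Z q ⧸ m.asIdeal)ˣ :=
    Units.map (Ideal.Quotient.mk m.asIdeal : SemiLocal Z q →* _)
      (Additive.toMul a.1 : (SemiLocal Z q)ˣ)
  have hx : ∀ d : decompGroup Γ Z q m.asIdeal, d • (x : SemiLocal Z q ⧸ m.asIdeal) = x := by
    intro d
    have h1 := congrArg (fun z : (orbitRep Γ Z q m.asIdeal).V =>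
      Ideal.Quotient.mk m.asIdeal ((Additive.toMul z.1 : (SemiLocal Z q)ˣ) : SemiLocal Z q))
      (ha (d : Γ))
    exact h1
  have hdvd' : (Fintype.card (decompGroup Γ Z q m.asIdeal) : ℤ) ∣
      Local.ordZ q (SemiLocal Z q ⧸ m.asIdeal) x := by
    rw [ordZ_mk_eq_divq, ← Nat.card_eq_fintype_card]
    exact hdvd
  obtain ⟨w, hw⟩ := comp_norm_of_dvd Γ Z q m π hfix hord x hx hdvd'
  exact shapiro_norm_units Γ Z q m.asIdeal m.isMaximal a ha w hw

/-- **[AUX.N2], inertia form.**  If the prime `𝔙 = placeBelow m` of `𝓞 Z` has trivial inertia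
group in `Γ`, then a `Γ`-invariant element `a` of the block of `m` with `|D_𝔙| ∣ ord_𝔙(a)` is a
`Γ`-norm from the block. -/
theorem block_norm_of_inertia (hur : (placeBelow m).asIdeal.inertia Γ = ⊥)
    (a : (orbitRep Γ Z q m.asIdeal).V) (ha : ∀ γ : Γ, (orbitRep Γ Z q m.asIdeal).ρ γ a = a)
    (hdvd : (Nat.card (decompGroup Γ Z q m.asIdeal) : ℤ) ∣
      Multiplicative.toAdd (QBridge.divq q Z (Additive.toMul a.1 : (SemiLocal Z q)ˣ))
        ⟨placeBelow m, natCast_mem_placeBelow m⟩) :
    ∃ b : (orbitRep Γ Z q m.asIdeal).V, (orbitRep Γ Z q m.asIdeal).ρ.norm b = a := by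
  obtain ⟨π, hfix, hord⟩ := exists_fixed_uniformizer Γ Z (placeBelow m) hur
  exact block_norm_of_uniformizer Γ Z q m π hfix hord a ha hdvd

end Fermat.Agent.CFT.Global.BlockNorm
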