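import Mathlib
import Fermat.Agent.CFT.Global.Defs
import Fermat.Agent.CFT.Global.LGChase
import Fermat.Agent.CFT.Global.IdeleH1
import Fermat.Agent.CFT.Global.BlockH1
import Fermat.Agent.CFT.Global.BlockDescent

/-!
# Class field theory program (P3), global layer: the two semilocal leaves of the [F2] chase

`LGChase.BlockTower` ([BT]) and `LGChase.BlockH1` ([BH1]), unconditional:

* `blockTower : LGChase.BlockTower` — from `BlockDescent.map_mem_orbitUnits` and
  `BlockDescent.exists_of_fixed`;
* `blockH1 : LGChase.BlockH1` — the block is a direct factor of `(L ⊗ ℚ_q)ˣ`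
  (`BlockH1.isZero_of_local`) and Hilbert 90 for the semilocal algebra
  (`IdeleH1.isZero_H1_localRep`, applied to the Galois pair `(N, L)`).
-/

set_option autoImplicit false

open CategoryTheory
open scoped Fermat.Agent.CFT.Global

namespace Fermat.Agent.CFT.Global.BlockProvide

open Fermat.Agent.CFT Fermat.Agent.CFT.Global

/-- **[BT]** Galois descent for the blocks along a tower. -/
theorem blockTower : LGChase.BlockTower := by
  intro L L' G G' _ _ _ _ _ _ _ _ _ _ f π h q _ m' hm'
  exact ⟨fun x hx => BlockDescent.map_mem_orbitUnits h q m' hm' hx,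
    fun y hy hfix => BlockDescent.exists_of_fixed h q m' hy hfix⟩

/-- **[BH1]** Hilbert 90 for the blocks: `H¹(N, ∏_{w' ∈ G·w} L_{w'}ˣ) = 0` for every subgroup
`N ≤ G` (every ideal `m`). -/
theorem isZero_H1_block (G L : Type) [Group G] [Fintype G] [Field L] [NumberField L]
    [MulSemiringAction G L] [FaithfulSMul G L] (q : ℕ) [Fact q.Prime]
    (m : Ideal (SemiLocal L q)) (N : Subgroup G) :
    Limits.IsZero (groupCohomology (Rep.res N.subtype (orbitRep G L q m)) 1) := by
  classical
  have hN : FaithfulSMul N L := ⟨fun {a b} hab => Subtype.ext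
    (FaithfulSMul.eq_of_smul_eq_smul (M := G) (α := L) (fun x => hab x))⟩
  exact BlockH1.isZero_of_local G L q m N 1 (IdeleH1.isZero_H1_localRep N L q)

/-- **[BH1]** in the vocabulary of the [F2] chase. -/
theorem blockH1 : LGChase.BlockH1 := by
  intro G L _ _ _ _ _ _ q _ m _ N
  exact isZero_H1_block G L q m N

end Fermat.Agent.CFT.Global.BlockProvide
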