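import Mathlib
import Fermat.Agent.CFT.Global.CycloNorm

/-!
# Cyclic cyclotomic `p`-extensions with large local degrees

For a number field `K`, an odd prime `p` and `s : ℕ`, the `p`-part `pPart` of
`K(ζ_{p^(s+1)})/K` (fixed field of the elements of order dividing `p - 1`) is a cyclic
extension of `p`-power degree, and for `s` large all decomposition groups above a given finite
set of primes of `K` (primes above `p` included) have order divisible by `p ^ N`.
-/

set_option autoImplicit false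
set_option linter.unusedSectionVars false

namespace Fermat.Agent.CFT.Global.CycloExists

open NumberField IntermediateField
open scoped Pointwise

/-- (C1a) Every `(p-1)`-th power in `(ZMod (p^(s+1)))ˣ` has order dividing `p^s`. -/
theorem orderOf_pow_pred_dvd {p : ℕ} [hp : Fact p.Prime] (s : ℕ) (u : (ZMod (p ^ (s + 1)))ˣ) :
    orderOf (u ^ (p - 1)) ∣ p ^ s := by
  apply orderOf_dvd_of_pow_eq_one
  rw [← pow_mul]
  have hcard : Nat.card (ZMod (p ^ (s + 1)))ˣ = (p - 1) * p ^ s := by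
    rw [Nat.card_eq_fintype_card, ZMod.card_units_eq_totient, Nat.totient_prime_pow_succ hp.out,
      mul_comm]
  rw [← hcard]
  exact pow_card_eq_one'

/-- (C1) Growth of the order: for `a ≥ 2` prime to the odd prime `p`, the order of `a^(p-1)`
in `(ZMod (p^(s+1)))ˣ` is divisible by `p^N` as soon as `s ≥ N + v_p(a^(p-1) - 1)`. -/
theorem pow_dvd_orderOf_pow_pred {p : ℕ} [hp : Fact p.Prime] (hp2 : p ≠ 2) (a : ℕ) (ha : 2 ≤ a)
    (hpa : ¬ p ∣ a) (N s : ℕ) (hs : N + padicValNat p (a ^ (p - 1) - 1) ≤ s)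
    (u : (ZMod (p ^ (s + 1)))ˣ) (hu : (u : ZMod (p ^ (s + 1))) = (a : ZMod (p ^ (s + 1)))) :
    p ^ N ∣ orderOf (u ^ (p - 1)) := by
  have hodd : Odd p := hp.out.odd_of_ne_two hp2
  have hp1 : 1 ≤ p - 1 := by have := hp.out.two_le; omega
  set w := a ^ (p - 1) with hw
  have hw2 : 1 < w := by
    calc 1 < a := ha
      _ = a ^ 1 := (pow_one a).symm
      _ ≤ a ^ (p - 1) := Nat.pow_le_pow_right (by omega) hp1
  have hpw : p ∣ w - 1 := by
    have hcop : Nat.Coprime a p := (Nat.Coprime.symm ((Nat.Prime.coprime_iff_not_dvd hp.out).mpr hpa))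
    have := Nat.ModEq.pow_totient hcop
    rw [Nat.totient_prime hp.out] at this
    exact (Nat.modEq_iff_dvd' hw2.le).mp this.symm
  have hpw' : ¬ p ∣ w := fun h => hpa (hp.out.dvd_of_dvd_pow h)
  obtain ⟨k, hk, hok⟩ := (Nat.dvd_prime_pow hp.out).mp (orderOf_pow_pred_dvd s u)
  rw [hok]
  apply pow_dvd_pow
  -- `(u^(p-1))^(p^k) = 1` gives `p^(s+1) ∣ w^(p^k) - 1`
  have h1 : (u ^ (p - 1)) ^ (p ^ k) = 1 := by rw [← hok]; exact pow_orderOf_eq_one _
  have h2 : ((w ^ (p ^ k) : ℕ) : ZMod (p ^ (s + 1))) = ((1 : ℕ) : ZMod (p ^ (s + 1))) := by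
    have := congrArg Units.val h1
    simp only [Units.val_pow_eq_pow_val, hu, Units.val_one] at this
    rw [hw]
    push_cast
    exact this
  have h3 : 1 ≤ w ^ (p ^ k) := Nat.one_le_pow _ _ (by omega)
  have h4 : p ^ (s + 1) ∣ w ^ (p ^ k) - 1 := by
    rw [ZMod.natCast_eq_natCast_iff] at h2
    exact (Nat.modEq_iff_dvd' h3).mp h2.symm
  have hne : w ^ (p ^ k) - 1 ≠ 0 := by
    have : 1 < w ^ (p ^ k) := Nat.one_lt_pow (pow_ne_zero _ hp.out.ne_zero) hw2
    omega
  have h5 := (padicValNat_dvd_iff_le hne).mp h4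
  have h6 := padicValNat.pow_sub_pow hodd hw2 (by simpa using hpw) hpw'
    (n := p ^ k) (pow_ne_zero _ hp.out.ne_zero)
  rw [one_pow, padicValNat.prime_pow] at h6
  omega

section Setup

variable (K : Type*) [Field K] [NumberField K] {L : Type*} [Field L] [NumberField L] [Algebra K L]
  (p : ℕ) [hp : Fact p.Prime] (s : ℕ) [hcyc : IsCyclotomicExtension {p ^ (s + 1)} K L]
  {ζ : L} (hζ : IsPrimitiveRoot ζ (p ^ (s + 1)))

/-- The composite `σ ↦ χ(σ)^(p-1)`, whose kernel is the prime-to-`p` part of `Gal(K(ζ)/K)`. -/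
noncomputable def chiPow : Gal(L/K) →* (ZMod (p ^ (s + 1)))ˣ :=
  (powMonoidHom (p - 1) : (ZMod (p ^ (s + 1)))ˣ →* (ZMod (p ^ (s + 1)))ˣ).comp (hζ.autToPow K)

theorem chiPow_apply (σ : Gal(L/K)) : chiPow K p s hζ σ = (hζ.autToPow K σ) ^ (p - 1) := rfl

/-- The prime-to-`p` part `{σ | χ(σ)^(p-1) = 1}` of `Gal(K(ζ)/K)`. -/
noncomputable def torsionPart : Subgroup Gal(L/K) := (chiPow K p s hζ).ker

instance torsionPart_normal : (torsionPart K p s hζ).Normal := MonoidHom.normal_ker _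

/-- The `p`-part of `K(ζ_{p^(s+1)})/K`: the fixed field of the prime-to-`p` part. -/
noncomputable def pPart : IntermediateField K L := fixedField (torsionPart K p s hζ)

include hcyc in
theorem isGalois_top : IsGalois K L := IsCyclotomicExtension.isGalois {p ^ (s + 1)} K L

instance pPart_isGalois : IsGalois K (pPart K p s hζ) := by
  have := isGalois_top K (L := L) p s
  unfold pPart
  infer_instance

include hcyc hζ in
theorem isCyclic_top (hp2 : p ≠ 2) : IsCyclic Gal(L/K) := by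
  have := ZMod.isCyclic_units_of_prime_pow p hp.out hp2 (s + 1)
  exact isCyclic_of_injective (hζ.autToPow K) (hζ.autToPow_injective K)

/-- restriction to the `p`-part -/
noncomputable def res : Gal(L/K) →* Gal((pPart K p s hζ)/K) :=
  AlgEquiv.restrictNormalHom (pPart K p s hζ)

theorem res_surjective : Function.Surjective (res K p s hζ) := by
  have := isGalois_top K (L := L) p s
  exact AlgEquiv.restrictNormalHom_surjective L

theorem res_ker : (res K p s hζ).ker = torsionPart K p s hζ := by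
  have := isGalois_top K (L := L) p s
  unfold res
  rw [IntermediateField.restrictNormalHom_ker]
  exact fixingSubgroup_fixedField _

theorem pPart_isCyclic (hp2 : p ≠ 2) : IsCyclic Gal((pPart K p s hζ)/K) := by
  have := isCyclic_top K p s hζ hp2
  exact isCyclic_of_surjective (res K p s hζ) (res_surjective K p s hζ)

theorem res_pow_eq_one_iff (σ : Gal(L/K)) (n : ℕ) :
    (res K p s hζ σ) ^ n = 1 ↔ ((hζ.autToPow K σ) ^ (p - 1)) ^ n = 1 := by
  rw [← map_pow, ← MonoidHom.mem_ker, res_ker, torsionPart, MonoidHom.mem_ker, chiPow_apply,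
    map_pow, ← pow_mul, ← pow_mul, mul_comm]

theorem orderOf_res (σ : Gal(L/K)) :
    orderOf (res K p s hζ σ) = orderOf ((hζ.autToPow K σ) ^ (p - 1)) :=
  orderOf_eq_orderOf_iff.mpr (res_pow_eq_one_iff K p s hζ σ)

theorem pPart_pow_eq_one (τ : Gal((pPart K p s hζ)/K)) : τ ^ (p ^ s) = 1 := by
  obtain ⟨σ, rfl⟩ := res_surjective K p s hζ τ
  rw [res_pow_eq_one_iff]
  exact orderOf_dvd_iff_pow_eq_one.mp (orderOf_pow_pred_dvd s _)

end Setup

section Restrict

variable {K L : Type*} [Field K] [NumberField K] [Field L] [NumberField L] [Algebra K L]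
  (E : IntermediateField K L) [Normal K E]

/-- Restriction to a normal intermediate field commutes with the actions on rings of integers. -/
theorem algebraMap_restrict_smul (σ : Gal(L/K)) (x : 𝓞 E) :
    algebraMap (𝓞 E) (𝓞 L) ((AlgEquiv.restrictNormalHom E σ) • x) =
      σ • algebraMap (𝓞 E) (𝓞 L) x := by
  apply RingOfIntegers.ext
  change algebraMap E L ((AlgEquiv.restrictNormalHom E σ) (algebraMap (𝓞 E) E x)) =
    σ (algebraMap E L (algebraMap (𝓞 E) E x))
  exact AlgEquiv.restrictNormal_commutes σ E _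

/-- Restriction maps the decomposition group of a prime of `𝓞 L` into the decomposition group
of the prime below it. -/
theorem restrict_mem_stabilizer (QL : Ideal (𝓞 L)) (σ : Gal(L/K))
    (hσ : σ ∈ MulAction.stabilizer Gal(L/K) QL) :
    AlgEquiv.restrictNormalHom E σ ∈ MulAction.stabilizer Gal(E/K) (QL.under (𝓞 E)) := by
  rw [MulAction.mem_stabilizer_iff] at hσ ⊢
  ext x
  rw [Ideal.mem_pointwise_smul_iff_inv_smul_mem, Ideal.under_def, Ideal.mem_comap, Ideal.mem_comap,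
    ← map_inv, algebraMap_restrict_smul, ← Ideal.mem_pointwise_smul_iff_inv_smul_mem, hσ]

end Restrict

/-- (C4a) `p = ∏ (1 - μ)` over the primitive `p^(s+1)`-th roots of unity. -/
theorem natCast_eq_prod_one_sub {R : Type*} [CommRing R] [IsDomain R] {p : ℕ} [hp : Fact p.Prime]
    (s : ℕ) {z : R} (hz : IsPrimitiveRoot z (p ^ (s + 1))) :
    (p : R) = ∏ μ ∈ primitiveRoots (p ^ (s + 1)) R, (1 - μ) := by
  have h := Polynomial.cyclotomic_eq_prod_X_sub_primitiveRoots hz
  have h2 := congrArg (Polynomial.eval 1) h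
  rw [Polynomial.eval_one_cyclotomic_prime_pow, Polynomial.eval_prod] at h2
  rw [h2]
  exact Finset.prod_congr rfl (fun μ _ => by simp)

/-- (C4a') `(1 - ζ)^φ(p^(s+1))` divides `p`. -/
theorem one_sub_pow_totient_dvd {R : Type*} [CommRing R] [IsDomain R] {p : ℕ} [hp : Fact p.Prime]
    (s : ℕ) {z : R} (hz : IsPrimitiveRoot z (p ^ (s + 1))) :
    (1 - z) ^ (p ^ s * (p - 1)) ∣ (p : R) := by
  have hn : 0 < p ^ (s + 1) := pow_pos hp.out.pos _
  have hn' : NeZero (p ^ (s + 1)) := ⟨hn.ne'⟩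
  rw [natCast_eq_prod_one_sub s hz, ← Nat.totient_prime_pow_succ hp.out, ← hz.card_primitiveRoots,
    ← Finset.prod_const]
  apply Finset.prod_dvd_prod_of_dvd
  intro μ hμ
  have hμ' := (mem_primitiveRoots hn).mp hμ
  obtain ⟨i, -, rfl⟩ := hz.eq_pow_of_pow_eq_one hμ'.pow_eq_one
  exact one_sub_dvd_one_sub_pow z i

/-- (C4b) A prime containing `p` contains `1 - ζ`. -/
theorem one_sub_mem_of_natCast_mem {R : Type*} [CommRing R] [IsDomain R] {p : ℕ}
    [hp : Fact p.Prime] (s : ℕ) {z : R} (hz : IsPrimitiveRoot z (p ^ (s + 1))) (Q : Ideal R)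
    [hQ : Q.IsPrime] (hpQ : (p : R) ∈ Q) : 1 - z ∈ Q := by
  have hn : 0 < p ^ (s + 1) := pow_pos hp.out.pos _
  have hn' : NeZero (p ^ (s + 1)) := ⟨hn.ne'⟩
  rw [natCast_eq_prod_one_sub s hz] at hpQ
  obtain ⟨μ, hμ, hμQ⟩ := (hQ.prod_mem_iff).mp hpQ
  have hμ' := (mem_primitiveRoots hn).mp hμ
  obtain ⟨i, -, rfl⟩ := hμ'.eq_pow_of_pow_eq_one hz.pow_eq_one
  exact Q.mem_of_dvd (one_sub_dvd_one_sub_pow μ i) hμQ

section Ram

variable {L : Type*} [Field L] [NumberField L] (p : ℕ) [hp : Fact p.Prime] (s : ℕ)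

/-- (C4c) A prime of `𝓞 L` above `p` has absolute ramification index at least `φ(p^(s+1))`
when `L` contains a primitive `p^(s+1)`-th root of unity. -/
theorem le_ramificationIdx_int {z : 𝓞 L} (hz : IsPrimitiveRoot z (p ^ (s + 1)))
    (QL : Ideal (𝓞 L)) [hQ : QL.IsPrime] (hpQ : (p : 𝓞 L) ∈ QL) :
    p ^ s * (p - 1) ≤ QL.ramificationIdx ℤ := by
  have hprime : (Ideal.span {(p : ℤ)}).IsPrime :=
    (Ideal.span_singleton_prime (by exact_mod_cast hp.out.ne_zero)).mpr
      (Nat.prime_iff_prime_int.mp hp.out)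
  have hmax : (Ideal.span {(p : ℤ)}).IsMaximal :=
    hprime.isMaximal (by simpa using hp.out.ne_zero)
  have hover : QL.LiesOver (Ideal.span {(p : ℤ)}) := by
    constructor
    have hle : Ideal.span {(p : ℤ)} ≤ QL.under ℤ := by
      rw [Ideal.span_singleton_le_iff_mem, Ideal.under_def, Ideal.mem_comap]
      simpa using hpQ
    exact hmax.eq_of_le (Ideal.IsPrime.under ℤ QL).ne_top hle
  have hmap : (Ideal.span {(p : ℤ)}).map (algebraMap ℤ (𝓞 L)) = Ideal.span {(p : 𝓞 L)} := by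
    rw [Ideal.map_span, Set.image_singleton]
    simp
  have hne : (Ideal.span {(p : ℤ)}).map (algebraMap ℤ (𝓞 L)) ≠ ⊥ := by
    rw [hmap, Ne, Ideal.span_singleton_eq_bot]
    exact_mod_cast hp.out.ne_zero
  rw [Ideal.IsDedekindDomain.ramificationIdx_eq_multiplicity (Ideal.span {(p : ℤ)}) QL hne]
  have hQ0 : QL ≠ ⊥ := by
    rintro rfl
    have : (p : 𝓞 L) = 0 := by simpa using hpQ
    exact hp.out.ne_zero (by exact_mod_cast this)
  have hfin : FiniteMultiplicity QL ((Ideal.span {(p : ℤ)}).map (algebraMap ℤ (𝓞 L))) :=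
    FiniteMultiplicity.of_prime_left (Ideal.prime_of_isPrime hQ0 hQ) hne
  apply hfin.le_multiplicity_of_pow_dvd
  rw [Ideal.dvd_iff_le, hmap, Ideal.span_singleton_le_iff_mem]
  exact Ideal.mem_of_dvd _ (one_sub_pow_totient_dvd s hz)
    (Ideal.pow_mem_pow (one_sub_mem_of_natCast_mem s hz QL hpQ) _)

end Ram

section Decomp

variable (K : Type*) [Field K] [NumberField K] {L : Type*} [Field L] [NumberField L] [Algebra K L]
  [IsGalois K L] (p : ℕ) [hp : Fact p.Prime] (s : ℕ)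

/-- (C4d) Above `p`: the decomposition group contains an element of large order. -/
theorem exists_mem_stabilizer_orderOf_ge (hG : IsCyclic Gal(L/K)) {z : 𝓞 L}
    (hz : IsPrimitiveRoot z (p ^ (s + 1))) (QL : Ideal (𝓞 L)) [hQ : QL.IsPrime]
    (hpQ : (p : 𝓞 L) ∈ QL) :
    ∃ σ ∈ MulAction.stabilizer Gal(L/K) QL,
      p ^ s * (p - 1) ≤ orderOf σ * (QL.under (𝓞 K)).ramificationIdx ℤ := by
  have hQ0 : QL ≠ ⊥ := by
    rintro rfl
    have : (p : 𝓞 L) = 0 := by simpa using hpQ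
    exact hp.out.ne_zero (by exact_mod_cast this)
  set q := QL.under (𝓞 K) with hq
  have hqp : q.IsPrime := Ideal.IsPrime.under (𝓞 K) QL
  have hover : QL.LiesOver q := ⟨rfl⟩
  have h1 := le_ramificationIdx_int p s hz QL hpQ
  have h2 : QL.ramificationIdx ℤ = q.ramificationIdx ℤ * QL.ramificationIdx (𝓞 K) :=
    Ideal.ramificationIdx_tower q QL
  have h3 : Nat.card (MulAction.stabilizer Gal(L/K) QL) =
      q.ramificationIdxIn (𝓞 L) * q.inertiaDegIn (𝓞 L) :=
    Ideal.card_stabilizer_eq q QL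
  have h4 : q.ramificationIdxIn (𝓞 L) = QL.ramificationIdx (𝓞 K) :=
    Ideal.ramificationIdxIn_eq_ramificationIdx q QL Gal(L/K)
  have h5 : q.inertiaDegIn (𝓞 L) ≠ 0 := Ideal.inertiaDegIn_ne_zero Gal(L/K)
  have hD : IsCyclic (MulAction.stabilizer Gal(L/K) QL) := Subgroup.isCyclic _
  obtain ⟨g, hg⟩ := hD.exists_generator
  refine ⟨g.1, g.2, ?_⟩
  have h6 : orderOf g.1 = Nat.card (MulAction.stabilizer Gal(L/K) QL) := by
    rw [Subgroup.orderOf_coe]
    exact orderOf_eq_card_of_forall_mem_zpowers hg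
  rw [h6, h3, h4]
  calc p ^ s * (p - 1) ≤ QL.ramificationIdx ℤ := h1
    _ = q.ramificationIdx ℤ * QL.ramificationIdx (𝓞 K) := h2
    _ ≤ QL.ramificationIdx (𝓞 K) * q.inertiaDegIn (𝓞 L) * q.ramificationIdx ℤ := by
      have : 1 ≤ q.inertiaDegIn (𝓞 L) := Nat.one_le_iff_ne_zero.mpr h5
      nlinarith [Nat.zero_le (q.ramificationIdx ℤ * QL.ramificationIdx (𝓞 K))]

end Decomp


section Main

variable (K : Type*) [Field K] [NumberField K] {L : Type*} [Field L] [NumberField L] [Algebra K L]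
  (p : ℕ) [hp : Fact p.Prime] (s : ℕ) [hcyc : IsCyclotomicExtension {p ^ (s + 1)} K L]
  {ζ : L} (hζ : IsPrimitiveRoot ζ (p ^ (s + 1)))

/-- (C3) Away from `p`: the Frobenius lies in the decomposition group and its cyclotomic
character is the absolute norm of the prime below. -/
theorem exists_mem_stabilizer_autToPow (QL : Ideal (𝓞 L)) [hQ : QL.IsPrime] (hQ0 : QL ≠ ⊥)
    (hpQ : (p : 𝓞 L) ∉ QL) :
    ∃ σ ∈ MulAction.stabilizer Gal(L/K) QL,
      ((hζ.autToPow K σ : (ZMod (p ^ (s + 1)))ˣ) : ZMod (p ^ (s + 1))) =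
        ((Ideal.absNorm (QL.under (𝓞 K)) : ℕ) : ZMod (p ^ (s + 1))) := by
  have := isGalois_top K (L := L) p s
  have hfin : Finite (𝓞 L ⧸ QL) := Ideal.finiteQuotientOfFreeOfNeBot QL hQ0
  have hn : p ^ (s + 1) ≠ 0 := pow_ne_zero _ hp.out.ne_zero
  have hm : ((p ^ (s + 1) : ℕ) : 𝓞 L) ∉ QL := by
    intro h
    rw [Nat.cast_pow] at h
    exact hpQ (hQ.mem_of_pow_mem _ h)
  refine ⟨arithFrobAt (𝓞 K) Gal(L/K) QL, IsArithFrobAt.arithFrobAt_mem_stabilizer _ _ _, ?_⟩
  have h1 := CycloNorm.frob_apply_of_pow_eq_one (arithFrobAt (𝓞 K) Gal(L/K) QL) QL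
    (IsArithFrobAt.arithFrobAt (𝓞 K) Gal(L/K) QL) hn hζ.pow_eq_one hm
  have h2 := hζ.autToPow_spec K (arithFrobAt (𝓞 K) Gal(L/K) QL)
  rw [h1, pow_eq_pow_mod (Ideal.absNorm (QL.under (𝓞 K))) hζ.pow_eq_one] at h2
  have h3 := hζ.pow_inj (ZMod.val_lt _) (Nat.mod_lt _ (Nat.pos_of_ne_zero hn)) h2
  rw [← ZMod.natCast_mod, ← h3, ZMod.natCast_zmod_val]

/-- Common tail: an element of the decomposition group of `QL` whose `(p-1)`-th power has
character of order divisible by `p^N` forces `p^N ∣ |D(Q ∩ pPart)|`. -/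
theorem dvd_card_stabilizer_of_orderOf (N : ℕ) (QL : Ideal (𝓞 L)) (σ : Gal(L/K))
    (hσ : σ ∈ MulAction.stabilizer Gal(L/K) QL)
    (hdiv : p ^ N ∣ orderOf ((hζ.autToPow K σ) ^ (p - 1))) :
    p ^ N ∣ Nat.card (MulAction.stabilizer Gal((pPart K p s hζ)/K)
      (QL.under (𝓞 (pPart K p s hζ)))) := by
  have h1 : res K p s hζ σ ∈ MulAction.stabilizer Gal((pPart K p s hζ)/K)
      (QL.under (𝓞 (pPart K p s hζ))) := restrict_mem_stabilizer (pPart K p s hζ) QL σ hσ
  rw [← orderOf_res] at hdiv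
  exact hdiv.trans (Subgroup.orderOf_dvd_natCard _ h1)

/-- The decomposition groups in the `p`-part have order divisible by `p^N` for `s` large
(explicit bound). Version for a prime `QL` of the big field. -/
theorem pow_dvd_card_stabilizer_under (hp2 : p ≠ 2) (N : ℕ) (QL : Ideal (𝓞 L)) [hQ : QL.IsPrime]
    (hQ0 : QL ≠ ⊥)
    (hs : N + padicValNat p (Ideal.absNorm (QL.under (𝓞 K)) ^ (p - 1) - 1) +
      (QL.under (𝓞 K)).ramificationIdx ℤ ≤ s) :
    p ^ N ∣ Nat.card (MulAction.stabilizer Gal((pPart K p s hζ)/K)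
      (QL.under (𝓞 (pPart K p s hζ)))) := by
  have hgal := isGalois_top K (L := L) p s
  have hn : NeZero (p ^ (s + 1)) := ⟨pow_ne_zero _ hp.out.ne_zero⟩
  set q := QL.under (𝓞 K) with hq
  have hqp : q.IsPrime := Ideal.IsPrime.under (𝓞 K) QL
  by_cases hpQ : (p : 𝓞 L) ∈ QL
  · -- ramified case
    obtain ⟨σ, hσ, hord⟩ := exists_mem_stabilizer_orderOf_ge K p s (isCyclic_top K p s hζ hp2)
      hζ.toInteger_isPrimitiveRoot QL hpQ
    apply dvd_card_stabilizer_of_orderOf K p s hζ N QL σ hσ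
    set u := hζ.autToPow K σ with hu
    have ho : orderOf u = orderOf σ := orderOf_injective _ (hζ.autToPow_injective K) σ
    obtain ⟨j, hj, hoj⟩ := (Nat.dvd_prime_pow hp.out).mp (orderOf_pow_pred_dvd s u)
    rw [hoj]
    apply pow_dvd_pow
    have hp1 : 0 < p - 1 := by have := hp.out.two_le; omega
    have h1 : orderOf u ≤ p ^ j * (p - 1) := by
      have h2 := orderOf_pow u (n := p - 1)
      rw [hoj] at h2
      have h3 : Nat.gcd (orderOf u) (p - 1) ∣ orderOf u := Nat.gcd_dvd_left _ _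
      have h4 : Nat.gcd (orderOf u) (p - 1) ≤ p - 1 := Nat.le_of_dvd hp1 (Nat.gcd_dvd_right _ _)
      have h5 : orderOf u = p ^ j * Nat.gcd (orderOf u) (p - 1) := by
        rw [h2, Nat.div_mul_cancel h3]
      calc orderOf u = p ^ j * Nat.gcd (orderOf u) (p - 1) := h5
        _ ≤ p ^ j * (p - 1) := Nat.mul_le_mul_left _ h4
    rw [ho] at h1
    set e := q.ramificationIdx ℤ with he
    -- `p^s (p-1) ≤ orderOf σ * e ≤ p^j (p-1) e`
    have h6 : p ^ s ≤ p ^ j * e := by
      have h7 : p ^ s * (p - 1) ≤ p ^ j * (p - 1) * e :=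
        hord.trans (Nat.mul_le_mul_right _ h1)
      have h8 : p ^ s * (p - 1) ≤ p ^ j * e * (p - 1) := by
        rw [mul_right_comm]; exact h7
      exact Nat.le_of_mul_le_mul_right h8 hp1
    by_contra hlt
    rw [not_le] at hlt
    have he_lt : e < p ^ e := Nat.lt_pow_self hp.out.one_lt
    have h9 : p ^ j * e < p ^ j * p ^ e :=
      Nat.mul_lt_mul_of_pos_left he_lt (pow_pos hp.out.pos _)
    have h10 : p ^ j * p ^ e ≤ p ^ s := by
      rw [← pow_add]
      exact Nat.pow_le_pow_right hp.out.pos (by omega)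
    omega
  · -- unramified case
    obtain ⟨σ, hσ, hchi⟩ := exists_mem_stabilizer_autToPow K p s hζ QL hQ0 hpQ
    apply dvd_card_stabilizer_of_orderOf K p s hζ N QL σ hσ
    have hq0 : q ≠ ⊥ := by
      intro h0
      have hQL : QL = ⊥ := Ideal.eq_bot_of_comap_eq_bot (R := 𝓞 K) h0
      exact hQ0 hQL
    have hqmax : q.IsMaximal := hqp.isMaximal hq0
    have hpq : (p : 𝓞 K) ∉ q := by
      intro h
      apply hpQ
      have : algebraMap (𝓞 K) (𝓞 L) (p : 𝓞 K) ∈ QL := h
      simpa using this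
    have hsup : q ⊔ Ideal.span {(p : 𝓞 K)} = ⊤ := by
      by_contra hne
      have := hqmax.eq_of_le hne le_sup_left
      apply hpq
      rw [this]
      exact Ideal.mem_sup_right (Ideal.subset_span rfl)
    have hcop := CycloNorm.coprime_absNorm p q hsup
    have hpa : ¬ p ∣ Ideal.absNorm q := by
      intro hdvd
      have := Nat.Coprime.eq_one_of_dvd hcop.symm hdvd
      exact hp.out.one_lt.ne' this
    have ha2 : 2 ≤ Ideal.absNorm q := by
      have h0 : Ideal.absNorm q ≠ 0 := by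
        rw [Ne, Ideal.absNorm_eq_zero_iff]; exact hq0
      have h1 : Ideal.absNorm q ≠ 1 := by
        rw [Ne, Ideal.absNorm_eq_one_iff]; exact hqp.ne_top
      omega
    exact pow_dvd_orderOf_pow_pred hp2 (Ideal.absNorm q) ha2 hpa N s (by omega) _ hchi

/-- The decomposition groups in the `p`-part have order divisible by `p^N` for `s` large
(explicit bound). Version for a prime `Q` of the `p`-part itself. -/
theorem pow_dvd_card_stabilizer (hp2 : p ≠ 2) (N : ℕ) (Q : Ideal (𝓞 (pPart K p s hζ)))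
    [hQ : Q.IsPrime] (hQ0 : Q.under (𝓞 K) ≠ ⊥)
    (hs : N + padicValNat p (Ideal.absNorm (Q.under (𝓞 K)) ^ (p - 1) - 1) +
      (Q.under (𝓞 K)).ramificationIdx ℤ ≤ s) :
    p ^ N ∣ Nat.card (MulAction.stabilizer Gal((pPart K p s hζ)/K) Q) := by
  have hQne : Q ≠ ⊥ := by
    rintro rfl
    exact hQ0 (Ideal.under_bot (𝓞 K) (𝓞 (pPart K p s hζ)))
  have hQmax : Q.IsMaximal := hQ.isMaximal hQne
  obtain ⟨QL, hQLmax, hQLover⟩ :=
    Ideal.exists_maximal_ideal_liesOver_of_isIntegral (S := 𝓞 L) Q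
  have hQLp : QL.IsPrime := hQLmax.isPrime
  have hund : QL.under (𝓞 (pPart K p s hζ)) = Q := hQLover.over.symm
  have hund2 : QL.under (𝓞 K) = Q.under (𝓞 K) := by
    rw [← hund, Ideal.under_under]
  have hQL0 : QL ≠ ⊥ := by
    rintro rfl
    apply hQne
    rw [← hund]
    exact Ideal.under_bot _ _
  have := pow_dvd_card_stabilizer_under K p s hζ hp2 N QL hQL0 (by rw [hund2]; exact hs)
  rwa [hund] at this

end Main

/-- **Existence of cyclic cyclotomic `p`-extensions with large local degrees.** -/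
theorem exists_cyclic_cyclotomic (K : Type*) [Field K] [NumberField K] (p : ℕ) [hp : Fact p.Prime]
    (hp2 : p ≠ 2) (N : ℕ) (T : Finset (Ideal (𝓞 K))) (hT : ∀ q ∈ T, q.IsPrime ∧ q ≠ ⊥) :
    ∃ (s : ℕ) (E : IntermediateField K (CyclotomicField (p ^ (s + 1)) K)),
      IsGalois K E ∧ IsCyclic Gal(E/K) ∧ (∃ k, Nat.card Gal(E/K) = p ^ k) ∧
      ∀ q ∈ T, ∀ Q : Ideal (𝓞 E), Q.IsPrime → Q.under (𝓞 K) = q →
        p ^ N ∣ Nat.card (MulAction.stabilizer Gal(E/K) Q) := by
  classical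
  let bound : Ideal (𝓞 K) → ℕ := fun q =>
    N + padicValNat p (Ideal.absNorm q ^ (p - 1) - 1) + q.ramificationIdx ℤ
  let s := T.sup bound
  have hn : NeZero (p ^ (s + 1)) := ⟨pow_ne_zero _ hp.out.ne_zero⟩
  have hζ := IsCyclotomicExtension.zeta_spec (p ^ (s + 1)) K (CyclotomicField (p ^ (s + 1)) K)
  refine ⟨s, pPart K p s hζ, inferInstance, pPart_isCyclic K p s hζ hp2, ?_, ?_⟩
  · have hpg : IsPGroup p Gal((pPart K p s hζ)/K) := fun τ => ⟨s, pPart_pow_eq_one K p s hζ τ⟩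
    exact (IsPGroup.iff_card.mp hpg)
  · intro q hq Q hQ hQq
    have hle : bound q ≤ s := Finset.le_sup (f := bound) hq
    exact pow_dvd_card_stabilizer K p s hζ hp2 N Q (by rw [hQq]; exact (hT q hq).2)
      (by rw [hQq]; exact hle)

end Fermat.Agent.CFT.Global.CycloExists
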