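import Mathlib
import Fermat.Agent.CFT.Global.CycloNorm
import Fermat.Agent.CFT.Global.CycloExists
import Fermat.Agent.Lib.InertiaTower

/-!
# An auxiliary cyclic `p`-layer inside `K(ζ_ℓ)` with large local degree at one prime

For a number field `K`, a prime number `p`, a nonzero prime `v` of `𝓞 K` (of any residue
characteristic, `v ∣ p` included) and `N : ℕ` there are a prime number `ℓ ≠ p` outside any given
finite set, not below `v`, and a cyclic extension `E / K` of `p`-power degree inside `K(ζ_ℓ)`,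
unramified at every prime not above `ℓ` (in particular at `v`), in which the decomposition groups
above `v` have order divisible by `p ^ N`.

The prime `ℓ` is a prime factor of `1 + u + ⋯ + u ^ (p - 1)`, `u = (N v) ^ (p ^ (M - 1))`, so that
`N v` has order exactly `p ^ M` modulo `ℓ`; the field `E` is the fixed field of the prime-to-`p`
part of `Gal(K(ζ_ℓ)/K)`.
-/

set_option autoImplicit false
set_option linter.unusedSectionVars false

namespace Fermat.Agent.CFT.Global.CycloAux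

open NumberField IntermediateField
open scoped Pointwise

/-! ### A prime `ℓ` modulo which `a` has order exactly `p ^ M` -/

/-- `1 + u + ⋯ + u ^ (p - 1)` is not divisible by `p ^ 2` when `u = w ^ p`. -/
theorem not_sq_dvd_geom_sum {p : ℕ} [hp : Fact p.Prime] (w : ℕ) :
    ¬ p ^ 2 ∣ ∑ i ∈ Finset.range p, (w ^ p) ^ i := by
  intro hdvd
  have hdvdZ : ((p : ℤ)) ^ 2 ∣ ∑ i ∈ Finset.range p, ((w : ℤ) ^ p) ^ i := by
    have := Int.natCast_dvd_natCast.mpr hdvd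
    push_cast at this
    exact this
  have hpZ : (p : ℤ) ∣ ∑ i ∈ Finset.range p, ((w : ℤ) ^ p) ^ i :=
    Dvd.dvd.trans (dvd_pow_self _ two_ne_zero) hdvdZ
  -- `w ^ p ≡ 1 mod p`
  have h1 : (p : ℤ) ∣ ((w : ℤ) ^ p) ^ p - 1 := by
    rw [← geom_sum_mul]
    exact Dvd.dvd.mul_right hpZ _
  -- Fermat: `x ^ p ≡ x mod p`
  have hfer : ∀ x : ℤ, (p : ℤ) ∣ x ^ p - x := by
    intro x
    have h := ZMod.pow_card (x : ZMod p)
    have h2 : (((x ^ p - x : ℤ)) : ZMod p) = 0 := by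
      push_cast
      rw [h, sub_self]
    exact (ZMod.intCast_zmod_eq_zero_iff_dvd _ _).mp h2
  have h2 : (p : ℤ) ∣ (w : ℤ) ^ p - 1 := by
    have := hfer ((w : ℤ) ^ p)
    have h3 := dvd_sub h1 this
    have : ((w : ℤ) ^ p) ^ p - 1 - (((w : ℤ) ^ p) ^ p - (w : ℤ) ^ p) = (w : ℤ) ^ p - 1 := by ring
    rwa [this] at h3
  have h3 : (p : ℤ) ∣ (w : ℤ) - 1 := by
    have := hfer (w : ℤ)
    have h4 := dvd_sub h2 this
    have : (w : ℤ) ^ p - 1 - ((w : ℤ) ^ p - (w : ℤ)) = (w : ℤ) - 1 := by ring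
    rwa [this] at h4
  -- hence `w ^ p ≡ 1 mod p ^ 2`
  have h4 : (p : ℤ) ^ 2 ∣ (w : ℤ) ^ p - 1 := by
    have := dvd_sub_pow_of_dvd_sub (R := ℤ) (p := p) (a := (w : ℤ)) (b := 1) h3 1
    simpa using this
  -- so the sum is `≡ p mod p ^ 2`
  have h5 : (p : ℤ) ^ 2 ∣ (∑ i ∈ Finset.range p, ((w : ℤ) ^ p) ^ i) - p := by
    have : (∑ i ∈ Finset.range p, ((w : ℤ) ^ p) ^ i) - p =
        ∑ i ∈ Finset.range p, (((w : ℤ) ^ p) ^ i - 1) := by
      rw [Finset.sum_sub_distrib]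
      simp
    rw [this]
    apply Finset.dvd_sum
    intro i _
    exact h4.trans (sub_one_dvd_pow_sub_one _ _)
  have h6 : (p : ℤ) ^ 2 ∣ (p : ℤ) := by
    have := dvd_sub hdvdZ h5
    rwa [sub_sub_cancel] at this
  have h7 : p ^ 2 ∣ p := by exact_mod_cast h6
  have h8 := Nat.le_of_dvd hp.out.pos h7
  have h9 : p < p ^ 2 := by
    have := hp.out.one_lt
    nlinarith
  omega

/-- For `a ≥ 2`, a prime `p` and `M ≥ 2` there is a prime `ℓ ≠ p`, not dividing `a`, modulo which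
`a` has order exactly `p ^ M`. -/
theorem exists_prime_orderOf_eq (a : ℕ) (ha : 2 ≤ a) (p : ℕ) [hp : Fact p.Prime] (M : ℕ)
    (hM : 2 ≤ M) :
    ∃ ℓ : ℕ, ℓ.Prime ∧ ℓ ≠ p ∧ ¬ ℓ ∣ a ∧ orderOf ((a : ℕ) : ZMod ℓ) = p ^ M := by
  obtain ⟨M', rfl⟩ : ∃ M', M = M' + 2 := ⟨M - 2, by omega⟩
  set w := a ^ p ^ M' with hw
  set Φ := ∑ i ∈ Finset.range p, (w ^ p) ^ i with hΦ
  have hw1 : 1 ≤ w := Nat.one_le_pow _ _ (by omega)
  have hw2 : 2 ≤ w ^ p := by
    calc 2 ≤ a := ha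
      _ = a ^ 1 := (pow_one a).symm
      _ ≤ a ^ (p ^ M' * p) := Nat.pow_le_pow_right (by omega)
          (Nat.mul_pos (pow_pos hp.out.pos _) hp.out.pos)
      _ = w ^ p := by rw [hw, pow_mul]
  -- `Φ > p`
  have hΦp : p < Φ := by
    have h1 : ∀ i ∈ Finset.range p, 1 ≤ (w ^ p) ^ i := fun i _ => Nat.one_le_pow _ _ (by omega)
    have h2 : (1 : ℕ) < (w ^ p) ^ 1 := by rw [pow_one]; omega
    have h3 : ∑ i ∈ Finset.range p, 1 < ∑ i ∈ Finset.range p, (w ^ p) ^ i :=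
      Finset.sum_lt_sum h1 ⟨1, Finset.mem_range.mpr hp.out.one_lt, h2⟩
    simpa using h3
  have hnsq : ¬ p ^ 2 ∣ Φ := not_sq_dvd_geom_sum w
  -- a prime factor of `Φ` different from `p`
  obtain ⟨ℓ, hℓ, hℓp, hℓΦ⟩ : ∃ ℓ : ℕ, ℓ.Prime ∧ ℓ ≠ p ∧ ℓ ∣ Φ := by
    by_cases hpΦ : p ∣ Φ
    · obtain ⟨c, hc⟩ := hpΦ
      have hc1 : c ≠ 1 := by
        rintro rfl
        rw [mul_one] at hc
        omega
      have hpc : ¬ p ∣ c := by
        rintro ⟨d, rfl⟩
        apply hnsq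
        rw [hc]
        exact ⟨d, by ring⟩
      refine ⟨c.minFac, Nat.minFac_prime hc1, ?_, (Nat.minFac_dvd c).trans ⟨p, by rw [hc]; ring⟩⟩
      intro h
      exact hpc (h ▸ Nat.minFac_dvd c)
    · have hΦ1 : Φ ≠ 1 := by have := hp.out.one_lt; omega
      refine ⟨Φ.minFac, Nat.minFac_prime hΦ1, ?_, Nat.minFac_dvd Φ⟩
      intro h
      exact hpΦ (h ▸ Nat.minFac_dvd Φ)
  have : Fact ℓ.Prime := ⟨hℓ⟩
  set x : ZMod ℓ := ((w ^ p : ℕ) : ZMod ℓ) with hx
  have hsum : ∑ i ∈ Finset.range p, x ^ i = 0 := by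
    have h := (ZMod.natCast_eq_zero_iff Φ ℓ).mpr hℓΦ
    rw [hΦ] at h
    push_cast at h
    rw [hx]
    push_cast
    exact h
  have hxp : x ^ p = 1 := by
    have h := geom_sum_mul x p
    rw [hsum, zero_mul] at h
    exact (sub_eq_zero.mp h.symm)
  have hx1 : x ≠ 1 := by
    intro h1
    rw [h1] at hsum
    simp only [one_pow, Finset.sum_const, Finset.card_range, nsmul_eq_mul, mul_one] at hsum
    have hdvd := (ZMod.natCast_eq_zero_iff p ℓ).mp hsum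
    exact hℓp ((Nat.prime_dvd_prime_iff_eq hℓ hp.out).mp hdvd)
  have hxa : x = ((a : ℕ) : ZMod ℓ) ^ p ^ (M' + 1) := by
    rw [hx, hw]
    push_cast
    rw [← pow_mul, ← pow_succ]
  refine ⟨ℓ, hℓ, hℓp, ?_, ?_⟩
  · intro hdvd
    have h0 : ((a : ℕ) : ZMod ℓ) = 0 := (ZMod.natCast_eq_zero_iff a ℓ).mpr hdvd
    rw [hxa, h0, zero_pow (pow_ne_zero _ hp.out.ne_zero)] at hxp
    rw [zero_pow hp.out.ne_zero] at hxp
    exact zero_ne_one hxp
  · apply orderOf_eq_prime_pow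
    · rw [← hxa]; exact hx1
    · rw [pow_succ, pow_mul, ← hxa]; exact hxp

/-! ### Inertia fixes roots of unity of order prime to the residue characteristic -/

/-- A root of unity `w` of order dividing `r` which is `≡ 1` modulo a prime not containing `r`
equals `1`. -/
theorem eq_one_of_pow_eq_one_of_sub_one_mem {R : Type*} [CommRing R] [IsDomain R] (Q : Ideal R)
    {r : ℕ} (hr : (r : R) ∉ Q) {w : R} (hw : w ^ r = 1) (hw1 : w - 1 ∈ Q) :
    w = 1 := by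
  by_contra hne
  have h := geom_sum_mul w r
  rw [hw, sub_self] at h
  have h0 : ∑ i ∈ Finset.range r, w ^ i = 0 := by
    rcases mul_eq_zero.mp h with h | h
    · exact h
    · exact absurd (sub_eq_zero.mp h) hne
  apply hr
  have h1 : (∑ i ∈ Finset.range r, w ^ i) - r ∈ Q := by
    have : (∑ i ∈ Finset.range r, w ^ i) - r = ∑ i ∈ Finset.range r, (w ^ i - 1) := by
      rw [Finset.sum_sub_distrib]
      simp
    rw [this]
    apply Ideal.sum_mem
    intro i _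
    exact Q.mem_of_dvd (sub_one_dvd_pow_sub_one w i) hw1
  rw [h0, zero_sub] at h1
  have := neg_mem h1
  rwa [neg_neg] at this

section Inertia

variable {K L : Type*} [Field K] [NumberField K] [Field L] [NumberField L] [Algebra K L]

/-- An element of the inertia group of a prime `Q` of `𝓞 L` fixes the `r`-th roots of unity of
`L` when `r ∉ Q`. -/
theorem inertia_apply_of_pow_eq_one (Q : Ideal (𝓞 L)) (σ : Gal(L/K))
    (hσ : σ ∈ Q.inertia Gal(L/K)) {r : ℕ} (hr0 : r ≠ 0) (hr : (r : 𝓞 L) ∉ Q) {t : L}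
    (ht : t ^ r = 1) : σ t = t := by
  have hint : IsIntegral ℤ t := by
    refine ⟨Polynomial.X ^ r - 1, Polynomial.monic_X_pow_sub_C 1 hr0, ?_⟩
    simp [ht]
  obtain ⟨z, hz⟩ : ∃ z : 𝓞 L, (z : L) = t := ⟨⟨t, hint⟩, rfl⟩
  have hzr : z ^ r = 1 := by
    apply RingOfIntegers.ext
    change (algebraMap (𝓞 L) L) (z ^ r) = (algebraMap (𝓞 L) L) 1
    rw [map_pow, map_one]
    change (z : L) ^ r = 1
    rw [hz, ht]
  obtain ⟨r', rfl⟩ : ∃ r', r = r' + 1 := ⟨r - 1, by omega⟩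
  -- `w = σ z * z ^ r'` is a root of unity congruent to `1`
  set w : 𝓞 L := σ • z * z ^ r' with hwdef
  have hσz : (σ • z) ^ (r' + 1) = 1 := by
    rw [← smul_pow', hzr, smul_one]
  have hw : w ^ (r' + 1) = 1 := by
    rw [hwdef, mul_pow, hσz, one_mul, ← pow_mul, mul_comm, pow_mul, hzr, one_pow]
  have hw1 : w - 1 ∈ Q := by
    have h1 : σ • z - z ∈ Q := hσ z
    have h2 : w - 1 = (σ • z - z) * z ^ r' := by
      rw [hwdef, sub_mul, ← pow_succ', hzr]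
    rw [h2]
    exact Ideal.mul_mem_right _ _ h1
  have hweq := eq_one_of_pow_eq_one_of_sub_one_mem Q hr hw hw1
  have h3 : σ • z = z := by
    have h4 : σ • z = σ • z * (z ^ r' * z) := by rw [← pow_succ, hzr, mul_one]
    rw [h4, ← mul_assoc, ← hwdef, hweq, one_mul]
  have h5 := congrArg (fun y : 𝓞 L => (y : L)) h3
  simp only [Fermat.Agent.Lib.InertiaTower.coe_smul_int, hz] at h5
  exact h5

end Inertia

/-! ### The `p`-layer of `K(ζ_ℓ) / K` -/

section Setup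

variable (K : Type*) [Field K] [NumberField K] {L : Type*} [Field L] [NumberField L] [Algebra K L]
  (ℓ : ℕ) [hℓ : Fact ℓ.Prime] [hcyc : IsCyclotomicExtension {ℓ} K L]
  {ζ : L} (hζ : IsPrimitiveRoot ζ ℓ) (p : ℕ)

/-- The composite `σ ↦ χ(σ) ^ m`, `m` the prime-to-`p` part of `ℓ - 1`; its kernel is the
prime-to-`p` part of `Gal(K(ζ_ℓ)/K)`. -/
noncomputable def chiM : Gal(L/K) →* (ZMod ℓ)ˣ :=
  (powMonoidHom (ordCompl[p] (ℓ - 1)) : (ZMod ℓ)ˣ →* (ZMod ℓ)ˣ).comp (hζ.autToPow K)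

theorem chiM_apply (σ : Gal(L/K)) :
    chiM K ℓ hζ p σ = (hζ.autToPow K σ) ^ (ordCompl[p] (ℓ - 1)) := rfl

/-- The prime-to-`p` part of `Gal(K(ζ_ℓ)/K)`. -/
noncomputable def primeToP : Subgroup Gal(L/K) := (chiM K ℓ hζ p).ker

instance primeToP_normal : (primeToP K ℓ hζ p).Normal := MonoidHom.normal_ker _

/-- The `p`-layer of `K(ζ_ℓ)/K`: the fixed field of the prime-to-`p` part of the Galois group. -/
noncomputable def pLayer : IntermediateField K L := fixedField (primeToP K ℓ hζ p)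

include hcyc in
theorem isGalois_top : IsGalois K L := IsCyclotomicExtension.isGalois {ℓ} K L

instance pLayer_isGalois : IsGalois K (pLayer K ℓ hζ p) := by
  have := isGalois_top K (L := L) ℓ
  unfold pLayer
  infer_instance

include hcyc hζ in
theorem isCyclic_top : IsCyclic Gal(L/K) :=
  isCyclic_of_injective (hζ.autToPow K) (hζ.autToPow_injective K)

/-- Restriction to the `p`-layer. -/
noncomputable def res : Gal(L/K) →* Gal((pLayer K ℓ hζ p)/K) :=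
  AlgEquiv.restrictNormalHom (pLayer K ℓ hζ p)

theorem res_surjective : Function.Surjective (res K ℓ hζ p) := by
  have := isGalois_top K (L := L) ℓ
  exact AlgEquiv.restrictNormalHom_surjective L

theorem res_ker : (res K ℓ hζ p).ker = primeToP K ℓ hζ p := by
  have := isGalois_top K (L := L) ℓ
  unfold res
  rw [IntermediateField.restrictNormalHom_ker]
  exact fixingSubgroup_fixedField _

theorem pLayer_isCyclic : IsCyclic Gal((pLayer K ℓ hζ p)/K) := by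
  have := isCyclic_top K ℓ hζ
  exact isCyclic_of_surjective (res K ℓ hζ p) (res_surjective K ℓ hζ p)

theorem res_pow_eq_one_iff (σ : Gal(L/K)) (n : ℕ) :
    (res K ℓ hζ p σ) ^ n = 1 ↔ ((hζ.autToPow K σ) ^ (ordCompl[p] (ℓ - 1))) ^ n = 1 := by
  rw [← map_pow, ← MonoidHom.mem_ker, res_ker, primeToP, MonoidHom.mem_ker, chiM_apply,
    map_pow, ← pow_mul, ← pow_mul, mul_comm]

theorem orderOf_res (σ : Gal(L/K)) :
    orderOf (res K ℓ hζ p σ) = orderOf ((hζ.autToPow K σ) ^ (ordCompl[p] (ℓ - 1))) :=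
  orderOf_eq_orderOf_iff.mpr (res_pow_eq_one_iff K ℓ hζ p σ)

/-- The Galois group of the `p`-layer is killed by the `p`-part of `ℓ - 1`. -/
theorem pLayer_pow_eq_one (τ : Gal((pLayer K ℓ hζ p)/K)) :
    τ ^ (p ^ (ℓ - 1).factorization p) = 1 := by
  obtain ⟨σ, rfl⟩ := res_surjective K ℓ hζ p τ
  rw [res_pow_eq_one_iff, ← pow_mul, mul_comm, Nat.ordProj_mul_ordCompl_eq_self]
  exact ZMod.units_pow_card_sub_one_eq_one ℓ _

/-- Restriction to the `p`-layer preserves `p`-power orders. -/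
theorem orderOf_res_of_orderOf_eq [hp : Fact p.Prime] (σ : Gal(L/K)) (M : ℕ)
    (hσ : orderOf (hζ.autToPow K σ) = p ^ M) : orderOf (res K ℓ hζ p σ) = p ^ M := by
  rw [orderOf_res, ← hσ]
  apply Nat.Coprime.orderOf_pow
  rw [hσ]
  apply Nat.Coprime.pow_left
  apply Nat.coprime_ordCompl hp.out
  have := hℓ.out.two_le
  omega

/-- Away from `ℓ`: the Frobenius lies in the decomposition group and its cyclotomic character is
the absolute norm of the prime below. -/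
theorem exists_mem_stabilizer_autToPow (QL : Ideal (𝓞 L)) [hQ : QL.IsPrime] (hQ0 : QL ≠ ⊥)
    (hℓQ : (ℓ : 𝓞 L) ∉ QL) :
    ∃ σ ∈ MulAction.stabilizer Gal(L/K) QL,
      ((hζ.autToPow K σ : (ZMod ℓ)ˣ) : ZMod ℓ) =
        ((Ideal.absNorm (QL.under (𝓞 K)) : ℕ) : ZMod ℓ) := by
  have := isGalois_top K (L := L) ℓ
  have hfin : Finite (𝓞 L ⧸ QL) := Ideal.finiteQuotientOfFreeOfNeBot QL hQ0
  have hn : ℓ ≠ 0 := hℓ.out.ne_zero
  refine ⟨arithFrobAt (𝓞 K) Gal(L/K) QL, IsArithFrobAt.arithFrobAt_mem_stabilizer _ _ _, ?_⟩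
  have h1 := CycloNorm.frob_apply_of_pow_eq_one (arithFrobAt (𝓞 K) Gal(L/K) QL) QL
    (IsArithFrobAt.arithFrobAt (𝓞 K) Gal(L/K) QL) hn hζ.pow_eq_one hℓQ
  have h2 := hζ.autToPow_spec K (arithFrobAt (𝓞 K) Gal(L/K) QL)
  rw [h1, pow_eq_pow_mod (Ideal.absNorm (QL.under (𝓞 K))) hζ.pow_eq_one] at h2
  have h3 := hζ.pow_inj (ZMod.val_lt _) (Nat.mod_lt _ (Nat.pos_of_ne_zero hn)) h2
  rw [← ZMod.natCast_mod, ← h3, ZMod.natCast_zmod_val]

include hcyc hζ in
/-- `K(ζ_ℓ) / K` is unramified at the primes not containing `ℓ`. -/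
theorem inertia_top_eq_bot (QL : Ideal (𝓞 L)) (hℓQ : (ℓ : 𝓞 L) ∉ QL) :
    QL.inertia Gal(L/K) = ⊥ := by
  rw [Subgroup.eq_bot_iff_forall]
  intro σ hσ
  apply hζ.autToPow_injective K
  have h1 := inertia_apply_of_pow_eq_one QL σ hσ hℓ.out.ne_zero hℓQ hζ.pow_eq_one
  have h2 := hζ.autToPow_spec K σ
  rw [h1] at h2
  have h3 : ζ ^ (((hζ.autToPow K σ : (ZMod ℓ)ˣ) : ZMod ℓ)).val = ζ ^ 1 := by rw [h2, pow_one]
  have h4 := hζ.pow_inj (ZMod.val_lt _) hℓ.out.one_lt h3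
  rw [map_one]
  apply Units.ext
  rw [Units.val_one, ← ZMod.natCast_zmod_val (((hζ.autToPow K σ : (ZMod ℓ)ˣ) : ZMod ℓ)), h4,
    Nat.cast_one]

/-- The `p`-layer of `K(ζ_ℓ) / K` is unramified at the primes not containing `ℓ`. -/
theorem inertia_pLayer_eq_bot (Q : Ideal (𝓞 (pLayer K ℓ hζ p))) (hQ : Q.IsPrime) (hQ0 : Q ≠ ⊥)
    (hℓQ : (ℓ : 𝓞 (pLayer K ℓ hζ p)) ∉ Q) :
    Q.inertia Gal((pLayer K ℓ hζ p)/K) = ⊥ := by
  have hgal := isGalois_top K (L := L) ℓ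
  have hQmax : Q.IsMaximal := hQ.isMaximal hQ0
  obtain ⟨QL, hQLmax, hQLover⟩ :=
    Ideal.exists_maximal_ideal_liesOver_of_isIntegral (S := 𝓞 L) Q
  have hQLp : QL.IsPrime := hQLmax.isPrime
  have hund : QL.under (𝓞 (pLayer K ℓ hζ p)) = Q := hQLover.over.symm
  have hℓQL : (ℓ : 𝓞 L) ∉ QL := by
    intro h
    apply hℓQ
    rw [← hund, Ideal.under_def, Ideal.mem_comap, map_natCast]
    exact h
  rw [Subgroup.eq_bot_iff_forall]
  intro τ hτ
  have hτ' : τ ∈ (QL.under (𝓞 (pLayer K ℓ hζ p))).inertia Gal((pLayer K ℓ hζ p)/K) := by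
    rw [hund]; exact hτ
  obtain ⟨τ', hτ'res, hτ'in⟩ := Fermat.Agent.Lib.InertiaTower.exists_inertia_lift QL τ hτ'
  rw [inertia_top_eq_bot K ℓ hζ QL hℓQL, Subgroup.mem_bot] at hτ'in
  rw [← hτ'res, hτ'in, map_one]

/-- The decomposition groups of the `p`-layer above a prime `v ∌ ℓ` of `K` whose norm has order
`p ^ M` modulo `ℓ` have order divisible by `p ^ M`. -/
theorem pow_dvd_card_stabilizer [hp : Fact p.Prime] (M : ℕ) (Q : Ideal (𝓞 (pLayer K ℓ hζ p)))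
    (hQ : Q.IsPrime) (hQ0 : Q ≠ ⊥) (hℓQ : (ℓ : 𝓞 (pLayer K ℓ hζ p)) ∉ Q)
    (hord : orderOf ((Ideal.absNorm (Q.under (𝓞 K)) : ℕ) : ZMod ℓ) = p ^ M) :
    p ^ M ∣ Nat.card (MulAction.stabilizer Gal((pLayer K ℓ hζ p)/K) Q) := by
  have hgal := isGalois_top K (L := L) ℓ
  have hQmax : Q.IsMaximal := hQ.isMaximal hQ0
  obtain ⟨QL, hQLmax, hQLover⟩ :=
    Ideal.exists_maximal_ideal_liesOver_of_isIntegral (S := 𝓞 L) Q
  have hQLp : QL.IsPrime := hQLmax.isPrime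
  have hund : QL.under (𝓞 (pLayer K ℓ hζ p)) = Q := hQLover.over.symm
  have hund2 : QL.under (𝓞 K) = Q.under (𝓞 K) := by
    rw [← hund, Ideal.under_under]
  have hQL0 : QL ≠ ⊥ := by
    rintro rfl
    apply hQ0
    rw [← hund]
    exact Ideal.under_bot _ _
  have hℓQL : (ℓ : 𝓞 L) ∉ QL := by
    intro h
    apply hℓQ
    rw [← hund, Ideal.under_def, Ideal.mem_comap, map_natCast]
    exact h
  obtain ⟨σ, hσ, hchi⟩ := exists_mem_stabilizer_autToPow K ℓ hζ QL hQL0 hℓQL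
  have h1 : res K ℓ hζ p σ ∈ MulAction.stabilizer Gal((pLayer K ℓ hζ p)/K)
      (QL.under (𝓞 (pLayer K ℓ hζ p))) :=
    CycloExists.restrict_mem_stabilizer (pLayer K ℓ hζ p) QL σ hσ
  rw [hund] at h1
  have h2 : orderOf (hζ.autToPow K σ) = p ^ M := by
    rw [← orderOf_units, hchi, hund2, hord]
  have h3 := orderOf_res_of_orderOf_eq K ℓ hζ p σ M h2
  rw [← h3]
  exact Subgroup.orderOf_dvd_natCard _ h1

end Setup

/-- **The auxiliary cyclic `p`-layer.**  For a nonzero prime `v` of `𝓞 K`, a prime number `p`,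
`N : ℕ` and a finite set `T` of natural numbers there are a prime number `ℓ ∉ T`, `ℓ ≠ p`, not
below `v`, and an intermediate field `E` of `K(ζ_ℓ) / K`, cyclic of `p`-power degree over `K`,
unramified at every prime not containing `ℓ`, such that the decomposition groups of the primes
of `E` above `v` have order divisible by `p ^ N`. -/
theorem exists_cyclic_aux (K : Type*) [Field K] [NumberField K] (p : ℕ) [hp : Fact p.Prime]
    (N : ℕ) (v : Ideal (𝓞 K)) (hv : v.IsPrime) (hv0 : v ≠ ⊥) (T : Finset ℕ) :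
    ∃ (ℓ : ℕ) (_ : Fact ℓ.Prime) (E : IntermediateField K (CyclotomicField ℓ K)),
      ℓ ∉ T ∧ ℓ ≠ p ∧ (ℓ : 𝓞 K) ∉ v ∧ IsGalois K E ∧ IsCyclic Gal(E/K) ∧
      (∃ k, Nat.card Gal(E/K) = p ^ k) ∧
      (∀ Q : Ideal (𝓞 E), Q.IsPrime → Q ≠ ⊥ → (ℓ : 𝓞 E) ∉ Q → Q.inertia Gal(E/K) = ⊥) ∧
      ∀ Q : Ideal (𝓞 E), Q.IsPrime → Q.under (𝓞 K) = v →
        p ^ N ∣ Nat.card (MulAction.stabilizer Gal(E/K) Q) := by
  classical
  set a := Ideal.absNorm v with ha
  have ha2 : 2 ≤ a := by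
    have h0 : a ≠ 0 := by
      rw [ha, Ne, Ideal.absNorm_eq_zero_iff]; exact hv0
    have h1 : a ≠ 1 := by
      rw [ha, Ne, Ideal.absNorm_eq_one_iff]; exact hv.ne_top
    omega
  -- the exponent
  set M := max (max N 2) (T.sup id + 1) with hM
  have hM2 : 2 ≤ M := le_trans (le_max_right N 2) (le_max_left _ _)
  have hMN : N ≤ M := le_trans (le_max_left N 2) (le_max_left _ _)
  have hMT : ∀ t ∈ T, t < M := by
    intro t ht
    have h1 : t ≤ T.sup id := Finset.le_sup (f := id) ht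
    have h2 : T.sup id + 1 ≤ M := le_max_right _ _
    omega
  obtain ⟨ℓ, hℓ, hℓp, hℓa, hord⟩ := exists_prime_orderOf_eq a ha2 p M hM2
  have hℓF : Fact ℓ.Prime := ⟨hℓ⟩
  -- `ℓ > p ^ M`
  have hℓM : p ^ M < ℓ := by
    have ha0 : ((a : ℕ) : ZMod ℓ) ≠ 0 := by
      rw [Ne, ZMod.natCast_eq_zero_iff]; exact hℓa
    have h1 := ZMod.orderOf_dvd_card_sub_one ha0
    rw [hord] at h1
    have h2 := Nat.le_of_dvd (by have := hℓ.two_le; omega) h1
    have := hℓ.two_le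
    omega
  have hℓT : ℓ ∉ T := by
    intro hmem
    have h1 := hMT ℓ hmem
    have h2 : M < p ^ M := Nat.lt_pow_self hp.out.one_lt
    omega
  -- `ℓ` is not below `v`
  have hℓv : (ℓ : 𝓞 K) ∉ v := by
    intro hmem
    have hav : ((a : ℕ) : 𝓞 K) ∈ v := Ideal.absNorm_mem v
    have hcop : Nat.Coprime ℓ a := (Nat.Prime.coprime_iff_not_dvd hℓ).mpr hℓa
    have h1 : ((Nat.gcd ℓ a : ℕ) : 𝓞 K) ∈ v := by
      have hb := Nat.gcd_eq_gcd_ab ℓ a
      have h2 : ((Nat.gcd ℓ a : ℕ) : 𝓞 K) =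
          (ℓ : 𝓞 K) * ((Nat.gcdA ℓ a : ℤ) : 𝓞 K) + (a : 𝓞 K) * ((Nat.gcdB ℓ a : ℤ) : 𝓞 K) := by
        have h3 := congrArg (fun z : ℤ => (z : 𝓞 K)) hb
        simp only [Int.cast_natCast, Int.cast_add, Int.cast_mul] at h3
        exact h3
      rw [h2]
      exact v.add_mem (v.mul_mem_right _ hmem) (v.mul_mem_right _ hav)
    rw [hcop, Nat.cast_one] at h1
    exact hv.ne_top ((Ideal.eq_top_iff_one v).mpr h1)
  have hζ := IsCyclotomicExtension.zeta_spec ℓ K (CyclotomicField ℓ K)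
  refine ⟨ℓ, hℓF, pLayer K ℓ hζ p, hℓT, hℓp, hℓv, inferInstance, pLayer_isCyclic K ℓ hζ p,
    ?_, ?_, ?_⟩
  · have hpg : IsPGroup p Gal((pLayer K ℓ hζ p)/K) :=
      fun τ => ⟨(ℓ - 1).factorization p, pLayer_pow_eq_one K ℓ hζ p τ⟩
    exact IsPGroup.iff_card.mp hpg
  · intro Q hQ hQ0 hℓQ
    exact inertia_pLayer_eq_bot K ℓ hζ p Q hQ hQ0 hℓQ
  · intro Q hQ hQv
    have hQ0 : Q ≠ ⊥ := by
      rintro rfl
      apply hv0
      rw [← hQv]
      exact Ideal.under_bot _ _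
    have hℓQ : (ℓ : 𝓞 (pLayer K ℓ hζ p)) ∉ Q := by
      intro h
      apply hℓv
      rw [← hQv, Ideal.under_def, Ideal.mem_comap, map_natCast]
      exact h
    have h1 := pow_dvd_card_stabilizer K ℓ hζ p M Q hQ hQ0 hℓQ (by rw [hQv]; exact hord)
    exact (pow_dvd_pow p hMN).trans h1

end Fermat.Agent.CFT.Global.CycloAux
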