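import Fermat.Agent.CFT.Global.CycloArtin

/-!
# The Artin-map core of the auxiliary layer

`K` a number field, `ℓ` a prime, `Z` a subextension of `K(ζ_ℓ)/K`, Galois of odd degree over
`K`.  If a finite idele `(x at q) ^ n` of `K`, times a principal idele, is a norm from `Z`, then
there is an automorphism of `K(ζ_ℓ)/K` fixing `Z` and acting on the `ℓ`-th roots of unity by
`t ↦ t ^ k` with `k ≡ ± chi_q(x) ^ n` modulo `ℓ`  (`exists_fix_of_norm_mulSingle`).  In Frobenius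
form: if `x` is a uniformizer at `v` and `φ` a Frobenius at `v`, then `φ ^ n` fixes `Z`
(`zpow_fix_of_norm_mulSingle`).
-/

set_option autoImplicit false

open scoped TensorProduct Pointwise
open scoped Fermat.Agent.CFT.Global

noncomputable section

namespace Fermat.Agent.CFT.Global.CycloArtin

open Fermat.Agent.CFT.Global Fermat.Agent.CFT.Global.QBridge NumberField
open Fermat.Agent.CFT.Global.CycloChar

/-- An automorphism of `K(ζ_ℓ)/K` is determined by its action on the `ℓ`-th roots of unity. -/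
theorem eq_one_of_cyclotomicField (K : Type) [Field K] [CharZero K] (ℓ : ℕ) [NeZero ℓ]
    (ρ : Gal(CyclotomicField ℓ K/K))
    (h : ∀ t : CyclotomicField ℓ K, t ^ ℓ = 1 → ρ t = t) : ρ = 1 := by
  have hζ := IsCyclotomicExtension.zeta_spec ℓ K (CyclotomicField ℓ K)
  have htop := IsCyclotomicExtension.adjoin_primitive_root_eq_top (A := K) hζ
  have h1 : (ρ : CyclotomicField ℓ K →ₐ[K] CyclotomicField ℓ K) =
      AlgHom.id K (CyclotomicField ℓ K) := by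
    apply AlgHom.ext_of_adjoin_eq_top htop
    intro t ht
    rw [Set.mem_singleton_iff] at ht
    subst ht
    exact h _ hζ.pow_eq_one
  ext t
  exact congrArg (fun φ : CyclotomicField ℓ K →ₐ[K] CyclotomicField ℓ K => φ t) h1

/-- **The Artin-map core of the auxiliary layer**, for a Galois pair `(Γ, Z)` over
`f : K →+* Z` of odd order, embedded in `K(ζ_ℓ)` by `g`. -/
theorem exists_fix_of_norm_mulSingle (K : Type) [Field K] [NumberField K] (ℓ : ℕ) [Fact ℓ.Prime]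
    {Z Γ : Type} [Field Z] [NumberField Z] [Group Γ] [Fintype Γ] [MulSemiringAction Γ Z]
    [FaithfulSMul Γ Z] (hodd : Odd (Nat.card Γ)) (f : K →+* Z)
    (hfix : ∀ y : Z, (∀ γ : Γ, γ • y = y) ↔ y ∈ f.range) (g : Z →+* CyclotomicField ℓ K)
    (hg : ∀ a : K, g (f a) = algebraMap K (CyclotomicField ℓ K) a)
    (q : Nat.Primes) (x : (SemiLocal K q)ˣ) (n : ℤ) (u : Kˣ) (b : ↥(finIdele Z))
    (h : ideleProdMap f ((Pi.mulSingle q x : IdeleProd K) ^ n * principal K u) =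
      ∏ γ : Γ, γ • (b : IdeleProd Z)) :
    ∃ τ : Gal(CyclotomicField ℓ K/K), (∀ z : Z, τ (g z) = g z) ∧
      ∃ k : ℕ, (∀ t : CyclotomicField ℓ K, t ^ ℓ = 1 → τ t = t ^ k) ∧
        ((k : ZMod (ℓ ^ 1)) = ((localChar K ℓ 1 q x ^ n : (ZMod (ℓ ^ 1))ˣ) : ZMod (ℓ ^ 1)) ∨
          (k : ZMod (ℓ ^ 1)) = -((localChar K ℓ 1 q x ^ n : (ZMod (ℓ ^ 1))ˣ) : ZMod (ℓ ^ 1))) := by
  have : NeZero ℓ := ⟨(Fact.out : ℓ.Prime).ne_zero⟩
  have : IsGalois K (CyclotomicField ℓ K) := IsCyclotomicExtension.isGalois {ℓ} K _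
  have hinj : ∀ ρ : Gal(CyclotomicField ℓ K/K),
      (∀ t : CyclotomicField ℓ K, t ^ (ℓ ^ 1) = 1 → ρ t = t) → ρ = 1 := by
    intro ρ hρ
    exact eq_one_of_cyclotomicField K ℓ ρ fun t ht => hρ t (by rwa [pow_one])
  set X : ↥(finIdele K) := ⟨Pi.mulSingle q x, mulSingle_mem_finIdele K q x⟩ ^ n with hX
  have hXcoe : (X : IdeleProd K) = (Pi.mulSingle q x : IdeleProd K) ^ n := by
    rw [hX, Subgroup.coe_zpow]
  have hchi : chi K ℓ 1 X = localChar K ℓ 1 q x ^ n := by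
    rw [hX, map_zpow, chi_mulSingle]
  obtain ⟨τ, hτ⟩ := exists_isArtin K ℓ 1 (CyclotomicField ℓ K) X
  have hτfix : ∀ z : Z, τ (g z) = g z := by
    intro z
    exact IsArtin.apply_eq_of_norm (r := ℓ) (e := 1) hinj hodd f hfix g hg X u b
      (by rw [hXcoe]; exact h) hτ z
  refine ⟨τ, hτfix, ?_⟩
  unfold IsArtin at hτ
  rw [hchi] at hτ
  rcases hτ with ⟨k, hk, hkc⟩ | ⟨k, hk, hkc⟩
  · exact ⟨k, fun t ht => hk t (by rwa [pow_one]), Or.inl hkc⟩
  · exact ⟨k, fun t ht => hk t (by rwa [pow_one]), Or.inr (by rw [hkc, Units.val_neg])⟩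

/-- Reduction of a character modulo `ℓ ^ 1` to a character modulo `ℓ`. -/
def redPowOne (ℓ : ℕ) : (ZMod (ℓ ^ 1))ˣ →* (ZMod ℓ)ˣ :=
  Units.map ((ZMod.castHom (show ℓ ∣ ℓ ^ 1 from by rw [pow_one]) (ZMod ℓ) :
    ZMod (ℓ ^ 1) →+* ZMod ℓ) : ZMod (ℓ ^ 1) →* ZMod ℓ)

theorem coe_redPowOne (ℓ : ℕ) (c : (ZMod (ℓ ^ 1))ˣ) :
    ((redPowOne ℓ c : (ZMod ℓ)ˣ) : ZMod ℓ) =
      ZMod.castHom (show ℓ ∣ ℓ ^ 1 from by rw [pow_one]) (ZMod ℓ) (c : ZMod (ℓ ^ 1)) := rfl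

/-- If `(c : ZMod (ℓ ^ 1))` is the class of the natural number `N`, then so is its reduction. -/
theorem coe_redPowOne_of_natCast (ℓ : ℕ) (c : (ZMod (ℓ ^ 1))ˣ) (N : ℕ)
    (h : (c : ZMod (ℓ ^ 1)) = (N : ZMod (ℓ ^ 1))) :
    ((redPowOne ℓ c : (ZMod ℓ)ˣ) : ZMod ℓ) = (N : ZMod ℓ) := by
  rw [coe_redPowOne, h, map_natCast]

/-- The form of `exists_fix_of_norm_mulSingle` with the character read modulo `ℓ`. -/
theorem exists_fix_of_norm_mulSingle' (K : Type) [Field K] [NumberField K] (ℓ : ℕ)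
    [Fact ℓ.Prime] {Z Γ : Type} [Field Z] [NumberField Z] [Group Γ] [Fintype Γ]
    [MulSemiringAction Γ Z] [FaithfulSMul Γ Z] (hodd : Odd (Nat.card Γ)) (f : K →+* Z)
    (hfix : ∀ y : Z, (∀ γ : Γ, γ • y = y) ↔ y ∈ f.range) (g : Z →+* CyclotomicField ℓ K)
    (hg : ∀ a : K, g (f a) = algebraMap K (CyclotomicField ℓ K) a)
    (q : Nat.Primes) (x : (SemiLocal K q)ˣ) (n : ℤ) (u : Kˣ) (b : ↥(finIdele Z))
    (h : ideleProdMap f ((Pi.mulSingle q x : IdeleProd K) ^ n * principal K u) =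
      ∏ γ : Γ, γ • (b : IdeleProd Z)) :
    ∃ τ : Gal(CyclotomicField ℓ K/K), (∀ z : Z, τ (g z) = g z) ∧
      ∃ k : ℕ, (∀ t : CyclotomicField ℓ K, t ^ ℓ = 1 → τ t = t ^ k) ∧
        ((k : ZMod ℓ) = ((redPowOne ℓ (localChar K ℓ 1 q x) ^ n : (ZMod ℓ)ˣ) : ZMod ℓ) ∨
          (k : ZMod ℓ) = -((redPowOne ℓ (localChar K ℓ 1 q x) ^ n : (ZMod ℓ)ˣ) : ZMod ℓ)) := by
  obtain ⟨τ, hτ, k, hk, hkc⟩ := exists_fix_of_norm_mulSingle K ℓ hodd f hfix g hg q x n u b h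
  refine ⟨τ, hτ, k, hk, ?_⟩
  have e1 : (k : ZMod ℓ) =
      ZMod.castHom (show ℓ ∣ ℓ ^ 1 from by rw [pow_one]) (ZMod ℓ) (k : ZMod (ℓ ^ 1)) :=
    (map_natCast _ k).symm
  rw [← map_zpow, coe_redPowOne, e1]
  rcases hkc with h1 | h1
  · left; rw [h1]
  · right; rw [h1, map_neg]

theorem IsArtin.zpow {K : Type} [Field K] [NumberField K] {r e : ℕ} [Fact r.Prime] {M : Type}
    [Field M] [Algebra K M] {x : ↥(finIdele K)} {σ : M ≃ₐ[K] M} (hx : IsArtin K r e M x σ)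
    (n : ℤ) : IsArtin K r e M (x ^ n) (σ ^ n) := by
  cases n with
  | ofNat n => rw [Int.ofNat_eq_natCast, zpow_natCast, zpow_natCast]; exact hx.pow n
  | negSucc n => rw [zpow_negSucc, zpow_negSucc]; exact (hx.pow (n + 1)).inv

/-- **The reciprocity step of the auxiliary layer** (Frobenius form).  `(Γ, Z)` a Galois pair of
odd order over `f : K →+* Z`, embedded in `K(ζ_ℓ)` by `g`; `x` a unit of `K ⊗ ℚ_q` (`q ≠ ℓ`)
whose divisor is the prime `v`; `φ` an automorphism of `K(ζ_ℓ)/K` acting on the `ℓ`-th roots of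
unity by `t ↦ t ^ N(v)` (a Frobenius at `v`).  If `(x at q) ^ n` times a principal idele is a
norm from `Z`, then `φ ^ n` fixes `Z`. -/
theorem zpow_fix_of_norm_mulSingle (K : Type) [Field K] [NumberField K] (ℓ : ℕ) [Fact ℓ.Prime]
    {Z Γ : Type} [Field Z] [NumberField Z] [Group Γ] [Fintype Γ] [MulSemiringAction Γ Z]
    [FaithfulSMul Γ Z] (hodd : Odd (Nat.card Γ)) (f : K →+* Z)
    (hfix : ∀ y : Z, (∀ γ : Γ, γ • y = y) ↔ y ∈ f.range) (g : Z →+* CyclotomicField ℓ K)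
    (hg : ∀ a : K, g (f a) = algebraMap K (CyclotomicField ℓ K) a)
    (q : Nat.Primes) (hq : (q : ℕ) ≠ ℓ) (x : (SemiLocal K q)ˣ) (v : PrimesOver (q : ℕ) K)
    (hv : Multiplicative.toAdd (divq (q : ℕ) K x) v = 1)
    (hsupp : ∀ w, w ≠ v → Multiplicative.toAdd (divq (q : ℕ) K x) w = 0)
    (φ : Gal(CyclotomicField ℓ K/K))
    (hφ : ∀ t : CyclotomicField ℓ K, t ^ ℓ = 1 → φ t = t ^ Ideal.absNorm v.1.asIdeal)
    (n : ℤ) (u : Kˣ) (b : ↥(finIdele Z))
    (h : ideleProdMap f ((Pi.mulSingle q x : IdeleProd K) ^ n * principal K u) =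
      ∏ γ : Γ, γ • (b : IdeleProd Z)) :
    ∀ z : Z, (φ ^ n) (g z) = g z := by
  have : NeZero ℓ := ⟨(Fact.out : ℓ.Prime).ne_zero⟩
  have : IsGalois K (CyclotomicField ℓ K) := IsCyclotomicExtension.isGalois {ℓ} K _
  have hinj : ∀ ρ : Gal(CyclotomicField ℓ K/K),
      (∀ t : CyclotomicField ℓ K, t ^ (ℓ ^ 1) = 1 → ρ t = t) → ρ = 1 := by
    intro ρ hρ
    exact eq_one_of_cyclotomicField K ℓ ρ fun t ht => hρ t (by rwa [pow_one])
  have h1 : IsArtin K ℓ 1 (CyclotomicField ℓ K)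
      ⟨Pi.mulSingle q x, mulSingle_mem_finIdele K q x⟩ φ := by
    have h2 := isArtin_mulSingle_zpow (r := ℓ) (e := 1) (M := CyclotomicField ℓ K) q hq x v hsupp φ
      (fun t ht => hφ t (by rwa [pow_one] at ht))
    rwa [hv, zpow_one] at h2
  have h3 := h1.zpow n
  intro z
  exact IsArtin.apply_eq_of_norm (r := ℓ) (e := 1) hinj hodd f hfix g hg _ u b
    (by rw [Subgroup.coe_zpow]; exact h) h3 z

set_option synthInstance.maxHeartbeats 400000 in
/-- `zpow_fix_of_norm_mulSingle` for an intermediate field `E` of `K(ζ_ℓ)/K`, Galois of odd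
degree over `K`, with its Galois group. -/
theorem zpow_fix_of_norm_mulSingle_gal (K : Type) [Field K] [NumberField K] (ℓ : ℕ)
    [Fact ℓ.Prime] (E : IntermediateField K (CyclotomicField ℓ K)) [IsGalois K E]
    [NumberField E] [Fintype Gal(E/K)] (hodd : Odd (Nat.card Gal(E/K)))
    (q : Nat.Primes) (hq : (q : ℕ) ≠ ℓ) (x : (SemiLocal K q)ˣ) (v : PrimesOver (q : ℕ) K)
    (hv : Multiplicative.toAdd (divq (q : ℕ) K x) v = 1)
    (hsupp : ∀ w, w ≠ v → Multiplicative.toAdd (divq (q : ℕ) K x) w = 0)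
    (φ : Gal(CyclotomicField ℓ K/K))
    (hφ : ∀ t : CyclotomicField ℓ K, t ^ ℓ = 1 → φ t = t ^ Ideal.absNorm v.1.asIdeal)
    (n : ℤ) (u : Kˣ) (b : ↥(finIdele E))
    (h : ideleProdMap (algebraMap K E) ((Pi.mulSingle q x : IdeleProd K) ^ n * principal K u) =
      ∏ γ : Gal(E/K), γ • (b : IdeleProd E)) :
    ∀ z : E, (φ ^ n) (z : CyclotomicField ℓ K) = z := by
  have hfix : ∀ y : E, (∀ γ : Gal(E/K), γ • y = y) ↔ y ∈ (algebraMap K E).range := by
    intro y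
    rw [RingHom.mem_range]
    exact (IsGalois.mem_range_algebraMap_iff_fixed (F := K) (E := E) y).symm
  exact zpow_fix_of_norm_mulSingle K ℓ hodd (algebraMap K E) hfix
    (algebraMap E (CyclotomicField ℓ K)) (fun a => rfl) q hq x v hv hsupp φ hφ n u b h

end Fermat.Agent.CFT.Global.CycloArtin
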