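import Mathlib
import Fermat.Agent.CFT.Global.Defs
import Fermat.Agent.CFT.Global.QBridgeDefs

/-!
# The idelic cyclotomic character, part 1: local norms and the product formula over `ℚ`

For a number field `L` and a prime `q`, the semilocal algebra `L ⊗[ℚ] ℚ_[q]` is a free
`ℚ_[q]`-algebra of rank `[L : ℚ]`; `normFun L q` is its norm to `ℚ_[q]`.

* `normFun_tmul_one` : the norm of `u ⊗ 1` is the norm of `u`;
* `exists_normFun_eq` : the norm of an element of the maximal order is a `q`-adic integer;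
* `exists_normFun_one_add` : the norm of `1 + q ^ e * y`, `y` in the maximal order, is `≡ 1`
  modulo `q ^ e`;
* `normFun_eq_norm` : `normFun` is `Algebra.norm ℚ_[q]` for `Algebra.TensorProduct.rightAlgebra`;
* `padicChar q r e : ℚ_[q]ˣ →* (ZMod (r ^ e))ˣ` : the `q`-component of the cyclotomic character
  modulo `r ^ e` (`x ↦ q ^ v_q(x)` for `q ≠ r`, `x ↦ (unit part of x mod r ^ e)⁻¹` for `q = r`);
* `ratGood` : the product formula — for `c ∈ ℚˣ` the product over all primes `q` of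
  `padicChar q r e c` is `±1` (the sign is the archimedean component).
-/

set_option autoImplicit false

open scoped TensorProduct

noncomputable section

namespace Fermat.Agent.CFT.Global.CycloChar

open Fermat.Agent.CFT.Global Fermat.Agent.CFT.Global.QBridge NumberField

section Norm

variable (L : Type) [Field L] [NumberField L] (q : ℕ) [Fact q.Prime]

def normFun : SemiLocal L q →* ℚ_[q] :=
  (Algebra.norm ℚ_[q] : ℚ_[q] ⊗[ℚ] L →* ℚ_[q]).comp
    ((Algebra.TensorProduct.comm ℚ L ℚ_[q] : L ⊗[ℚ] ℚ_[q] ≃ₐ[ℚ] ℚ_[q] ⊗[ℚ] L) :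
      L ⊗[ℚ] ℚ_[q] →* ℚ_[q] ⊗[ℚ] L)

theorem normFun_apply (x : SemiLocal L q) :
    normFun L q x = Algebra.norm ℚ_[q] (Algebra.TensorProduct.comm ℚ L ℚ_[q] x) := rfl

/-- The `ℚ_[q]`-basis of `ℚ_[q] ⊗[ℚ] L` given by an integral basis of `L`. -/
def qBasis : Module.Basis (Module.Free.ChooseBasisIndex ℤ (𝓞 L)) ℚ_[q] (ℚ_[q] ⊗[ℚ] L) :=
  Algebra.TensorProduct.basis ℚ_[q] (integralBasis L)

/-- The matrix of multiplication by `x` in the basis `qBasis`. -/
def mulMat (x : SemiLocal L q) :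
    Matrix (Module.Free.ChooseBasisIndex ℤ (𝓞 L)) (Module.Free.ChooseBasisIndex ℤ (𝓞 L)) ℚ_[q] :=
  Algebra.leftMulMatrix (qBasis L q) (Algebra.TensorProduct.comm ℚ L ℚ_[q] x)

theorem normFun_eq_det (x : SemiLocal L q) : normFun L q x = (mulMat L q x).det := by
  rw [normFun_apply, Algebra.norm_eq_matrix_det (qBasis L q)]
  rfl

theorem mulMat_add (x y : SemiLocal L q) : mulMat L q (x + y) = mulMat L q x + mulMat L q y := by
  simp [mulMat]

theorem mulMat_neg (x : SemiLocal L q) : mulMat L q (-x) = -mulMat L q x := by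
  simp [mulMat]

theorem mulMat_zero : mulMat L q 0 = 0 := by
  simp [mulMat]

theorem mulMat_one : mulMat L q 1 = 1 := by
  simp [mulMat]

theorem mulMat_mul (x y : SemiLocal L q) : mulMat L q (x * y) = mulMat L q x * mulMat L q y := by
  simp [mulMat]

theorem mulMat_natCast (n : ℕ) : mulMat L q (n : SemiLocal L q) = (n : ℚ_[q]) • 1 := by
  simp only [mulMat, map_natCast]
  ext i j
  simp [Matrix.one_apply, Matrix.natCast_apply]

theorem mulMat_tmul (y : 𝓞 L) (c : ℤ_[q]) (i j : Module.Free.ChooseBasisIndex ℤ (𝓞 L)) :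
    mulMat L q ((y : L) ⊗ₜ[ℚ] (c : ℚ_[q])) i j =
      ((c * (((RingOfIntegers.basis L).repr (y * RingOfIntegers.basis L j) i : ℤ) : ℤ_[q]) :
        ℤ_[q]) : ℚ_[q]) := by
  rw [mulMat, Algebra.leftMulMatrix_eq_repr_mul, Algebra.TensorProduct.comm_tmul, qBasis,
    Algebra.TensorProduct.basis_apply, Algebra.TensorProduct.tmul_mul_tmul, mul_one,
    Algebra.TensorProduct.basis_repr_tmul, integralBasis_apply]
  have h : (y : L) * algebraMap (𝓞 L) L (RingOfIntegers.basis L j) =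
      algebraMap (𝓞 L) L (y * RingOfIntegers.basis L j) := by
    rw [map_mul]
  rw [h, Finsupp.smul_apply, Finsupp.mapRange_apply, integralBasis_repr_apply]
  simp

/-- For `x` in the maximal order, the matrix of multiplication by `x` has entries in `ℤ_[q]`. -/
theorem exists_mulMat_eq {x : SemiLocal L q} (hx : x ∈ maxOrder q L) :
    ∃ T : Matrix (Module.Free.ChooseBasisIndex ℤ (𝓞 L)) (Module.Free.ChooseBasisIndex ℤ (𝓞 L))
      ℤ_[q], mulMat L q x = T.map (algebraMap ℤ_[q] ℚ_[q]) := by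
  rw [mem_maxOrder_iff_addClosure] at hx
  induction hx using AddSubgroup.closure_induction with
  | mem x hx =>
    obtain ⟨y, c, rfl⟩ := hx
    refine ⟨fun i j => c * (((RingOfIntegers.basis L).repr (y * RingOfIntegers.basis L j) i : ℤ) :
      ℤ_[q]), ?_⟩
    ext i j
    rw [mulMat_tmul]
    rfl
  | zero => exact ⟨0, by rw [mulMat_zero]; exact (Matrix.map_zero _ (map_zero _)).symm⟩
  | add x y _ _ hx hy =>
    obtain ⟨T, hT⟩ := hx
    obtain ⟨T', hT'⟩ := hy
    exact ⟨T + T', by rw [mulMat_add, hT, hT', Matrix.map_add]; intro a b; exact map_add _ a b⟩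
  | neg x _ hx =>
    obtain ⟨T, hT⟩ := hx
    exact ⟨-T, by rw [mulMat_neg, hT, Matrix.map_neg]; intro a; exact map_neg _ a⟩

/-- (P2) The norm of an element of the maximal order is a `q`-adic integer. -/
theorem exists_normFun_eq {x : SemiLocal L q} (hx : x ∈ maxOrder q L) :
    ∃ d : ℤ_[q], normFun L q x = (d : ℚ_[q]) := by
  obtain ⟨T, hT⟩ := exists_mulMat_eq L q hx
  refine ⟨T.det, ?_⟩
  rw [normFun_eq_det, hT]
  exact ((algebraMap ℤ_[q] ℚ_[q]).map_det T).symm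

theorem mapMatrix_one_add_smul {n R S : Type*} [Fintype n] [DecidableEq n] [CommRing R]
    [CommRing S] (f : R →+* S) (c : R) (T : Matrix n n R) :
    f.mapMatrix (1 + c • T) = 1 + f c • f.mapMatrix T := by
  rw [map_add, map_one]
  congr 1
  ext i j
  simp

/-- (P3) The norm of `1 + q ^ e * y`, `y` in the maximal order, is `≡ 1` modulo `q ^ e`. -/
theorem exists_normFun_one_add {y : SemiLocal L q} (hy : y ∈ maxOrder q L) (e : ℕ) :
    ∃ d : ℤ_[q], normFun L q (1 + (q : SemiLocal L q) ^ e * y) = (d : ℚ_[q]) ∧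
      PadicInt.toZModPow e d = 1 := by
  obtain ⟨T, hT⟩ := exists_mulMat_eq L q hy
  refine ⟨(1 + (q : ℤ_[q]) ^ e • T).det, ?_, ?_⟩
  · rw [normFun_eq_det, mulMat_add, mulMat_one, mulMat_mul, ← Nat.cast_pow, mulMat_natCast, hT]
    have h := (algebraMap ℤ_[q] ℚ_[q]).map_det (1 + (q : ℤ_[q]) ^ e • T)
    rw [show ((1 + (q : ℤ_[q]) ^ e • T).det : ℚ_[q]) =
      algebraMap ℤ_[q] ℚ_[q] (1 + (q : ℤ_[q]) ^ e • T).det from rfl, h,
      mapMatrix_one_add_smul, Matrix.smul_mul, Matrix.one_mul, map_pow, map_natCast,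
      Nat.cast_pow]
    rfl
  · rw [RingHom.map_det, mapMatrix_one_add_smul]
    have h0 : (PadicInt.toZModPow e) ((q : ℤ_[q]) ^ e) = 0 :=
      RingHom.mem_ker.mp (by rw [PadicInt.ker_toZModPow]; exact Ideal.mem_span_singleton_self _)
    rw [h0, zero_smul, add_zero, Matrix.det_one]

theorem lmul_one_tmul (u : L) :
    Algebra.lmul ℚ_[q] (ℚ_[q] ⊗[ℚ] L) ((1 : ℚ_[q]) ⊗ₜ[ℚ] u) =
      (Algebra.lmul ℚ L u).baseChange ℚ_[q] := by
  apply TensorProduct.AlgebraTensorModule.ext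
  intro a m
  simp [Algebra.TensorProduct.tmul_mul_tmul]

/-- (P1) The norm of `u ⊗ 1` is the norm of `u`. -/
theorem normFun_tmul_one (u : L) :
    normFun L q (u ⊗ₜ[ℚ] (1 : ℚ_[q])) = ((Algebra.norm ℚ u : ℚ) : ℚ_[q]) := by
  rw [normFun_apply, Algebra.TensorProduct.comm_tmul, Algebra.norm_apply, lmul_one_tmul,
    LinearMap.det_baseChange, Algebra.norm_apply]
  rfl

/-- The norm of `1 ⊗ c` is `c ^ [L : ℚ]`. -/
theorem normFun_one_tmul (c : ℚ_[q]) :
    normFun L q ((1 : L) ⊗ₜ[ℚ] c) = c ^ Module.finrank ℚ L := by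
  rw [normFun_apply, Algebra.TensorProduct.comm_tmul]
  have h : (c ⊗ₜ[ℚ] (1 : L) : ℚ_[q] ⊗[ℚ] L) = algebraMap ℚ_[q] (ℚ_[q] ⊗[ℚ] L) c := rfl
  rw [h, Algebra.norm_algebraMap]
  congr 1
  simp

end Norm

/-! ### Comparison with the right algebra structure -/

section RightAlg

variable (L : Type) [Field L] [NumberField L] (q : ℕ) [Fact q.Prime]

attribute [local instance] Algebra.TensorProduct.rightAlgebra

/-- The commutation `L ⊗[ℚ] ℚ_[q] ≃ ℚ_[q] ⊗[ℚ] L` as an isomorphism of `ℚ_[q]`-algebras (for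
Mathlib's `Algebra.TensorProduct.rightAlgebra` on the source). -/
def commEquiv : L ⊗[ℚ] ℚ_[q] ≃ₐ[ℚ_[q]] ℚ_[q] ⊗[ℚ] L :=
  { Algebra.TensorProduct.comm ℚ L ℚ_[q] with
    commutes' := fun c => by
      show Algebra.TensorProduct.comm ℚ L ℚ_[q] ((1 : L) ⊗ₜ[ℚ] c) = c ⊗ₜ[ℚ] (1 : L)
      rw [Algebra.TensorProduct.comm_tmul] }

/-- `normFun` is Mathlib's `Algebra.norm ℚ_[q]` for the right `ℚ_[q]`-algebra structure
`Algebra.TensorProduct.rightAlgebra` on `L ⊗[ℚ] ℚ_[q]`. -/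
theorem normFun_eq_norm (x : SemiLocal L q) :
    normFun L q x = Algebra.norm ℚ_[q] (x : L ⊗[ℚ] ℚ_[q]) :=
  Algebra.norm_eq_of_algEquiv (commEquiv L q) x

end RightAlg

/-! ### The local components of the character on `ℚ_[q]ˣ` -/

section Padic

variable (q : ℕ) [Fact q.Prime]

def valHom : ℚ_[q]ˣ →* Multiplicative ℤ where
  toFun x := Multiplicative.ofAdd (Padic.valuation (x : ℚ_[q]))
  map_one' := by simp
  map_mul' x y := by
    rw [Units.val_mul, Padic.valuation_mul x.ne_zero y.ne_zero, ofAdd_add]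

theorem norm_eq_one_iff_valuation (x : ℚ_[q]ˣ) :
    ‖(x : ℚ_[q])‖ = 1 ↔ Padic.valuation (x : ℚ_[q]) = 0 := by
  have hq1 : (1 : ℝ) < q := by exact_mod_cast (Fact.out : q.Prime).one_lt
  rw [Padic.norm_eq_zpow_neg_valuation x.ne_zero]
  constructor
  · intro h
    have h2 := (zpow_right_injective₀ (by linarith) hq1.ne') (h.trans (zpow_zero (q : ℝ)).symm)
    simpa using h2
  · intro h
    rw [h]
    simp

theorem norm_unitPart (x : ℚ_[q]ˣ) :
    ‖(x : ℚ_[q]) * (q : ℚ_[q]) ^ (-Padic.valuation (x : ℚ_[q]))‖ = 1 := by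
  have hq0 : (0 : ℝ) < q := by exact_mod_cast (Fact.out : q.Prime).pos
  rw [norm_mul, Padic.norm_eq_zpow_neg_valuation x.ne_zero, norm_zpow, Padic.norm_p,
    inv_zpow', neg_neg, ← zpow_add₀ hq0.ne']
  simp

def unitPart : ℚ_[q]ˣ →* ℤ_[q]ˣ where
  toFun x := PadicInt.mkUnits (norm_unitPart q x)
  map_one' := by
    apply Units.ext
    apply Subtype.ext
    rw [PadicInt.mkUnits_eq]
    simp
  map_mul' x y := by
    have hq0 : (q : ℚ_[q]) ≠ 0 := by exact_mod_cast (Fact.out : q.Prime).ne_zero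
    apply Units.ext
    apply Subtype.ext
    show ((x * y : ℚ_[q]ˣ) : ℚ_[q]) * (q : ℚ_[q]) ^ (-Padic.valuation ((x * y : ℚ_[q]ˣ) : ℚ_[q]))
      = ((x : ℚ_[q]) * (q : ℚ_[q]) ^ (-Padic.valuation (x : ℚ_[q]))) *
        ((y : ℚ_[q]) * (q : ℚ_[q]) ^ (-Padic.valuation (y : ℚ_[q])))
    rw [Units.val_mul, Padic.valuation_mul x.ne_zero y.ne_zero, neg_add, zpow_add₀ hq0]
    ring

theorem coe_unitPart (x : ℚ_[q]ˣ) :
    (((unitPart q x : ℤ_[q]ˣ) : ℤ_[q]) : ℚ_[q]) =
      (x : ℚ_[q]) * (q : ℚ_[q]) ^ (-Padic.valuation (x : ℚ_[q])) := rfl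

theorem coe_unitPart_of_norm (x : ℚ_[q]ˣ) (h : ‖(x : ℚ_[q])‖ = 1) :
    (((unitPart q x : ℤ_[q]ˣ) : ℤ_[q]) : ℚ_[q]) = x := by
  rw [coe_unitPart, (norm_eq_one_iff_valuation q x).mp h]
  simp

variable (r e : ℕ) [Fact r.Prime]

theorem coprime_pow_of_ne (h : q ≠ r) : Nat.Coprime q (r ^ e) :=
  Nat.Coprime.pow_right e
    ((Nat.coprime_primes (Fact.out : q.Prime) (Fact.out : r.Prime)).mpr h)

def padicChar : ℚ_[q]ˣ →* (ZMod (r ^ e))ˣ :=
  if h : q = r then
    ((Units.map (((ZMod.castHom (show r ^ e ∣ q ^ e from h ▸ dvd_rfl) (ZMod (r ^ e))).comp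
      (PadicInt.toZModPow e)) : ℤ_[q] →* ZMod (r ^ e))).comp (unitPart q))⁻¹
  else
    (zpowersHom (ZMod (r ^ e))ˣ (ZMod.unitOfCoprime q (coprime_pow_of_ne q r e h))).comp
      (valHom q)

theorem padicChar_of_ne (h : q ≠ r) (x : ℚ_[q]ˣ) :
    padicChar q r e x =
      ZMod.unitOfCoprime q (coprime_pow_of_ne q r e h) ^ Padic.valuation (x : ℚ_[q]) := by
  rw [padicChar, dif_neg h]
  rfl

theorem padicChar_self (x : ℚ_[r]ˣ) :
    padicChar r r e x = (Units.map ((PadicInt.toZModPow e : ℤ_[r] →+* ZMod (r ^ e)) :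
      ℤ_[r] →* ZMod (r ^ e)) (unitPart r x))⁻¹ := by
  rw [padicChar, dif_pos rfl]
  rw [MonoidHom.inv_apply]
  congr 1
  apply Units.ext
  simp [ZMod.castHom_self]

theorem padicChar_eq_one_of_norm (h : q ≠ r) (x : ℚ_[q]ˣ) (hx : ‖(x : ℚ_[q])‖ = 1) :
    padicChar q r e x = 1 := by
  rw [padicChar_of_ne q r e h, (norm_eq_one_iff_valuation q x).mp hx, zpow_zero]

/-- For `q = r` and `x` a `q`-adic integer of norm one, the inverse of the character is the
reduction of `x` modulo `r ^ e`. -/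
theorem coe_inv_padicChar_self (x : ℚ_[r]ˣ) (d : ℤ_[r]) (hd : (x : ℚ_[r]) = (d : ℚ_[r]))
    (hn : ‖(x : ℚ_[r])‖ = 1) :
    (((padicChar r r e x)⁻¹ : (ZMod (r ^ e))ˣ) : ZMod (r ^ e)) = PadicInt.toZModPow e d := by
  rw [padicChar_self, inv_inv, Units.coe_map]
  have : ((unitPart r x : ℤ_[r]ˣ) : ℤ_[r]) = d := by
    apply Subtype.ext
    rw [coe_unitPart_of_norm r x hn, hd]
  show PadicInt.toZModPow e ((unitPart r x : ℤ_[r]ˣ) : ℤ_[r]) = _
  rw [this]

end Padic

/-! ### The product formula over `ℚ` -/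

section Rat

variable (r e : ℕ) [Fact r.Prime]

/-- The `q`-component of the character on `ℚˣ`. -/
def ratChar (q : Nat.Primes) : ℚˣ →* (ZMod (r ^ e))ˣ :=
  (padicChar q r e).comp (Units.map ((Rat.castHom ℚ_[(q : ℕ)] : ℚ →+* ℚ_[(q : ℕ)]) : ℚ →* ℚ_[(q : ℕ)]))

theorem ratChar_apply (q : Nat.Primes) (c : ℚˣ) :
    ratChar r e q c = padicChar q r e
      (Units.map ((Rat.castHom ℚ_[(q : ℕ)] : ℚ →+* ℚ_[(q : ℕ)]) : ℚ →* ℚ_[(q : ℕ)]) c) := rfl

/-- The statement of the product formula for `c`. -/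
def RatGood (c : ℚˣ) : Prop :=
  (Function.mulSupport fun q : Nat.Primes => ratChar r e q c).Finite ∧
    (∏ᶠ q : Nat.Primes, ratChar r e q c = 1 ∨ ∏ᶠ q : Nat.Primes, ratChar r e q c = -1)

theorem RatGood.mul {c d : ℚˣ} (hc : RatGood r e c) (hd : RatGood r e d) :
    RatGood r e (c * d) := by
  have hfun : (fun q : Nat.Primes => ratChar r e q (c * d)) =
      fun q => ratChar r e q c * ratChar r e q d := by
    funext q
    rw [map_mul]
  refine ⟨?_, ?_⟩
  · rw [hfun]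
    exact (hc.1.union hd.1).subset (Function.mulSupport_mul _ _)
  · rw [hfun, finprod_mul_distrib hc.1 hd.1]
    rcases hc.2 with h1 | h1 <;> rcases hd.2 with h2 | h2 <;> rw [h1, h2] <;> simp

theorem RatGood.inv {c : ℚˣ} (hc : RatGood r e c) : RatGood r e c⁻¹ := by
  have hfun : (fun q : Nat.Primes => ratChar r e q c⁻¹) =
      fun q => (ratChar r e q c)⁻¹ := by
    funext q
    rw [map_inv]
  refine ⟨?_, ?_⟩
  · rw [hfun, Function.mulSupport_fun_inv]
    exact hc.1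
  · rw [hfun, finprod_inv_distrib]
    rcases hc.2 with h1 | h1 <;> rw [h1] <;> simp

theorem ratGood_one : RatGood r e 1 := by
  have hfun : (fun q : Nat.Primes => ratChar r e q 1) = fun _ => 1 := by
    funext q
    rw [map_one]
  refine ⟨?_, Or.inl ?_⟩
  · rw [hfun]
    simp
  · rw [hfun, finprod_one]

/-- The image of a nonzero rational in `ℚ_[q]ˣ`. -/
theorem coe_ratUnit (q : Nat.Primes) (c : ℚˣ) :
    ((Units.map ((Rat.castHom ℚ_[(q : ℕ)] : ℚ →+* ℚ_[(q : ℕ)]) : ℚ →* ℚ_[(q : ℕ)]) c :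
      ℚ_[(q : ℕ)]ˣ) : ℚ_[(q : ℕ)]) = ((c : ℚ) : ℚ_[(q : ℕ)]) := rfl

theorem ratChar_eq_one_of_padicValRat (q : Nat.Primes) (hq : (q : ℕ) ≠ r) (c : ℚˣ)
    (hv : padicValRat q (c : ℚ) = 0) : ratChar r e q c = 1 := by
  rw [ratChar_apply, padicChar_of_ne (q : ℕ) r e hq, coe_ratUnit, Padic.valuation_ratCast, hv,
    zpow_zero]

theorem ratChar_neg_one_of_ne (q : Nat.Primes) (hq : (q : ℕ) ≠ r) : ratChar r e q (-1) = 1 := by
  apply ratChar_eq_one_of_padicValRat r e q hq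
  simp

theorem ratChar_neg_one_self (q : Nat.Primes) (hq : (q : ℕ) = r) : ratChar r e q (-1) = -1 := by
  subst hq
  rw [ratChar_apply]
  have h := coe_inv_padicChar_self (q : ℕ) e
    (Units.map ((Rat.castHom ℚ_[(q : ℕ)] : ℚ →+* ℚ_[(q : ℕ)]) : ℚ →* ℚ_[(q : ℕ)]) (-1)) (-1)
    (by rw [coe_ratUnit]; simp) (by rw [coe_ratUnit]; simp)
  rw [map_neg, map_one] at h
  have h2 : (padicChar (q : ℕ) (q : ℕ) e
      (Units.map ((Rat.castHom ℚ_[(q : ℕ)] : ℚ →+* ℚ_[(q : ℕ)]) : ℚ →* ℚ_[(q : ℕ)]) (-1)))⁻¹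
        = -1 :=
    Units.ext (by rw [h]; simp)
  rw [inv_eq_iff_eq_inv] at h2
  rw [h2]
  simp

theorem exists_prime_eq : ∃ qr : Nat.Primes, (qr : ℕ) = r := ⟨⟨r, Fact.out⟩, rfl⟩

theorem ratGood_neg_one : RatGood r e (-1) := by
  obtain ⟨qr, hqr⟩ := exists_prime_eq r
  have hsub : (Function.mulSupport fun q : Nat.Primes => ratChar r e q (-1)) ⊆
      (({qr} : Finset Nat.Primes) : Set Nat.Primes) := by
    intro q hq
    rw [Function.mem_mulSupport] at hq
    by_contra hne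
    apply hq
    apply ratChar_neg_one_of_ne
    intro h
    apply hne
    rw [Finset.coe_singleton, Set.mem_singleton_iff]
    exact Subtype.ext (h.trans hqr.symm)
  refine ⟨(Finset.finite_toSet _).subset hsub, Or.inr ?_⟩
  rw [finprod_eq_prod_of_mulSupport_subset _ hsub, Finset.prod_singleton]
  exact ratChar_neg_one_self r e qr hqr

/-- A prime number as a unit of `ℚ`. -/
def primeUnit (ℓ : Nat.Primes) : ℚˣ := Units.mk0 ((ℓ : ℕ) : ℚ) (by exact_mod_cast ℓ.2.ne_zero)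

theorem coe_primeUnit (ℓ : Nat.Primes) : ((primeUnit ℓ : ℚˣ) : ℚ) = ((ℓ : ℕ) : ℚ) := rfl

theorem ratChar_prime_of_ne (ℓ : Nat.Primes) (q : Nat.Primes) (hq : (q : ℕ) ≠ r)
    (hqℓ : q ≠ ℓ) : ratChar r e q (primeUnit ℓ) = 1 := by
  apply ratChar_eq_one_of_padicValRat r e q hq
  rw [coe_primeUnit, padicValRat.of_nat]
  have : padicValNat q ℓ = 0 := by
    apply padicValNat.eq_zero_of_not_dvd
    intro hdvd
    exact hqℓ (Subtype.ext ((Nat.prime_dvd_prime_iff_eq q.2 ℓ.2).mp hdvd))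
  simp [this]

theorem ratChar_prime_self (ℓ : Nat.Primes) (hℓr : (ℓ : ℕ) ≠ r) :
    ratChar r e ℓ (primeUnit ℓ) = ZMod.unitOfCoprime ℓ (coprime_pow_of_ne ℓ r e hℓr) := by
  rw [ratChar_apply, padicChar_of_ne (ℓ : ℕ) r e hℓr, coe_ratUnit, coe_primeUnit,
    Rat.cast_natCast, Padic.valuation_p, zpow_one]

theorem ratChar_prime_at_r (ℓ qr : Nat.Primes) (hqr : (qr : ℕ) = r) (hℓr : (ℓ : ℕ) ≠ r) :
    ratChar r e qr (primeUnit ℓ) = (ZMod.unitOfCoprime ℓ (coprime_pow_of_ne ℓ r e hℓr))⁻¹ := by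
  subst hqr
  rw [ratChar_apply]
  have hnorm : ‖((((ℓ : ℕ) : ℚ)) : ℚ_[(qr : ℕ)])‖ = 1 := by
    rw [Rat.cast_natCast, Padic.norm_natCast_eq_one_iff]
    exact ((Nat.coprime_primes ℓ.2 qr.2).mpr hℓr).symm
  have h := coe_inv_padicChar_self (qr : ℕ) e
    (Units.map ((Rat.castHom ℚ_[(qr : ℕ)] : ℚ →+* ℚ_[(qr : ℕ)]) : ℚ →* ℚ_[(qr : ℕ)])
      (primeUnit ℓ)) ((ℓ : ℕ) : ℤ_[(qr : ℕ)])
    (by rw [coe_ratUnit, coe_primeUnit]; simp)
    (by rw [coe_ratUnit, coe_primeUnit]; exact hnorm)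
  rw [map_natCast] at h
  rw [← inv_eq_iff_eq_inv]
  exact Units.ext (by rw [h]; simp)

theorem ratChar_r_at_r (qr : Nat.Primes) (hqr : (qr : ℕ) = r) :
    ratChar r e qr (primeUnit qr) = 1 := by
  subst hqr
  rw [ratChar_apply, padicChar_self, inv_eq_one]
  have h1 : unitPart (qr : ℕ) (Units.map ((Rat.castHom ℚ_[(qr : ℕ)] : ℚ →+* ℚ_[(qr : ℕ)]) :
      ℚ →* ℚ_[(qr : ℕ)]) (primeUnit qr)) = 1 := by
    apply Units.ext
    apply Subtype.ext
    rw [coe_unitPart, coe_ratUnit, coe_primeUnit]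
    have hr0 : ((qr : ℕ) : ℚ_[(qr : ℕ)]) ≠ 0 := by exact_mod_cast qr.2.ne_zero
    rw [Rat.cast_natCast, Padic.valuation_p, zpow_neg, zpow_one, mul_inv_cancel₀ hr0]
    rfl
  rw [h1, map_one]

theorem ratGood_prime (ℓ : Nat.Primes) : RatGood r e (primeUnit ℓ) := by
  classical
  obtain ⟨qr, hqr⟩ := exists_prime_eq r
  have hsub : (Function.mulSupport fun q : Nat.Primes => ratChar r e q (primeUnit ℓ)) ⊆
      (({ℓ, qr} : Finset Nat.Primes) : Set Nat.Primes) := by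
    intro q hq
    rw [Function.mem_mulSupport] at hq
    by_contra hne
    apply hq
    rw [Finset.coe_insert, Finset.coe_singleton, Set.mem_insert_iff, Set.mem_singleton_iff,
      not_or] at hne
    exact ratChar_prime_of_ne r e ℓ q (fun h => hne.2 (Subtype.ext (h.trans hqr.symm))) hne.1
  refine ⟨(Finset.finite_toSet _).subset hsub, Or.inl ?_⟩
  rw [finprod_eq_prod_of_mulSupport_subset _ hsub]
  by_cases hℓr : ℓ = qr
  · subst hℓr
    rw [Finset.pair_eq_singleton, Finset.prod_singleton]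
    exact ratChar_r_at_r r e ℓ hqr
  · have hℓr' : (ℓ : ℕ) ≠ r := fun h => hℓr (Subtype.ext (h.trans hqr.symm))
    rw [Finset.prod_pair hℓr, ratChar_prime_self r e ℓ hℓr',
      ratChar_prime_at_r r e ℓ qr hqr hℓr', mul_inv_cancel]

theorem ratGood_natCast (n : ℕ) : ∀ hn : (n : ℚ) ≠ 0, RatGood r e (Units.mk0 (n : ℚ) hn) := by
  induction n using Nat.recOnMul with
  | zero => intro hn; exact absurd (by simp) hn
  | one =>
    intro hn
    have : Units.mk0 ((1 : ℕ) : ℚ) hn = 1 := Units.ext (by simp)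
    rw [this]
    exact ratGood_one r e
  | prime p hp =>
    intro hn
    exact ratGood_prime r e ⟨p, hp⟩
  | mul a b ha hb =>
    intro hn
    have ha0 : (a : ℚ) ≠ 0 := by
      rintro h
      apply hn
      push_cast
      rw [h, zero_mul]
    have hb0 : (b : ℚ) ≠ 0 := by
      rintro h
      apply hn
      push_cast
      rw [h, mul_zero]
    have : Units.mk0 ((a * b : ℕ) : ℚ) hn = Units.mk0 (a : ℚ) ha0 * Units.mk0 (b : ℚ) hb0 :=
      Units.ext (by simp)
    rw [this]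
    exact (ha ha0).mul r e (hb hb0)

/-- **Product formula**: for a nonzero rational `c`, the product of the local characters of `c`
over all primes is `±1`. -/
theorem ratGood (c : ℚˣ) : RatGood r e c := by
  have hnum : ((c : ℚ).num.natAbs : ℚ) ≠ 0 := by
    have : (c : ℚ).num ≠ 0 := Rat.num_ne_zero.mpr c.ne_zero
    exact_mod_cast Int.natAbs_ne_zero.mpr this
  have hden : ((c : ℚ).den : ℚ) ≠ 0 := by exact_mod_cast (c : ℚ).den_ne_zero
  rcases Int.natAbs_eq (c : ℚ).num with h | h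
  · have : c = Units.mk0 _ hnum * (Units.mk0 _ hden)⁻¹ := by
      apply Units.ext
      rw [Units.val_mul, Units.val_inv_eq_inv_val, Units.val_mk0, Units.val_mk0, ← div_eq_mul_inv]
      conv_lhs => rw [← Rat.num_div_den (c : ℚ), h]
      simp
    rw [this]
    exact (ratGood_natCast r e _ hnum).mul r e (ratGood_natCast r e _ hden).inv
  · have : c = -1 * (Units.mk0 _ hnum * (Units.mk0 _ hden)⁻¹) := by
      apply Units.ext
      rw [Units.val_mul, Units.val_mul, Units.val_inv_eq_inv_val, Units.val_mk0, Units.val_mk0,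
        ← div_eq_mul_inv]
      conv_lhs => rw [← Rat.num_div_den (c : ℚ), h]
      simp
      ring
    rw [this]
    exact (ratGood_neg_one r e).mul r e
      ((ratGood_natCast r e _ hnum).mul r e (ratGood_natCast r e _ hden).inv)

end Rat

end Fermat.Agent.CFT.Global.CycloChar
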