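/-
CFT program, layer Global: the cyclotomic tower of a Galois pair (helper13).

For a group `G` acting on a field `L` of characteristic zero and `n ≠ 0`:

* `L' := CyclotomicField n L`, `f := algebraMap L L'`;
* `towerGroup n G L` : the group of pairs `(σ, g)`, `σ` a ring automorphism of `L'` with
  `σ (f a) = f (g • a)`; it acts on `L'` through `σ`;
* `towerπ : towerGroup n G L →* G` (second projection) and the cyclotomic character
  `towerχ : towerGroup n G L →* (ZMod n)ˣ`.

Main results: `isTower` (`Global.IsTower f π`), `smul_root` (`x • t = t ^ χ x` on `n`-th roots of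
unity), `eq_one_of_π_of_χ` (`(π, χ)` is injective) and the packaged statement
`exists_cyclotomic_tower`.
-/
import Mathlib
import Fermat.Agent.CFT.Global.Defs

set_option autoImplicit false

noncomputable section

namespace Fermat.Agent.CFT.Global.CycloPair

open Polynomial

section Construction

variable (n : ℕ) [NeZero n] (G : Type) [Group G] (L : Type) [Field L] [CharZero L]
  [MulSemiringAction G L]

/-- The group of pairs `(σ, g)`: `σ` an automorphism of `L(ζ_n)` extending the action of `g`
on `L`. -/
def towerGroup : Subgroup (RingAut (CyclotomicField n L) × G) where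
  carrier := {x | ∀ a : L, x.1 (algebraMap L (CyclotomicField n L) a) =
    algebraMap L (CyclotomicField n L) (x.2 • a)}
  one_mem' := fun a => by
    show (1 : RingAut (CyclotomicField n L)) _ = algebraMap L _ ((1 : G) • a)
    rw [one_smul, RingAut.one_apply]
  mul_mem' := by
    intro x y hx hy a
    show (x.1 * y.1) _ = algebraMap L _ ((x.2 * y.2) • a)
    rw [RingAut.mul_apply, hy a, hx, mul_smul]
  inv_mem' := by
    intro x hx a
    show x.1⁻¹ _ = algebraMap L _ (x.2⁻¹ • a)
    have h := hx (x.2⁻¹ • a)
    rw [smul_inv_smul] at h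
    rw [← h, RingAut.inv_apply, RingEquiv.symm_apply_apply]

omit [NeZero n] [CharZero L] in
theorem mem_towerGroup (x : RingAut (CyclotomicField n L) × G) :
    x ∈ towerGroup n G L ↔ ∀ a : L, x.1 (algebraMap L (CyclotomicField n L) a) =
      algebraMap L (CyclotomicField n L) (x.2 • a) := Iff.rfl

/-- The action of `towerGroup n G L` on `L(ζ_n)`, through the first component. -/
instance towerAction : MulSemiringAction (towerGroup n G L) (CyclotomicField n L) :=
  MulSemiringAction.compHom _
    ((MonoidHom.fst (RingAut (CyclotomicField n L)) G).comp (towerGroup n G L).subtype)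

omit [NeZero n] [CharZero L] in
theorem smul_def (x : towerGroup n G L) (y : CyclotomicField n L) : x • y = x.1.1 y := rfl

/-- The projection `G' → G`. -/
def towerπ : towerGroup n G L →* G :=
  (MonoidHom.snd (RingAut (CyclotomicField n L)) G).comp (towerGroup n G L).subtype

omit [NeZero n] [CharZero L] in
theorem towerπ_apply (x : towerGroup n G L) : towerπ n G L x = x.1.2 := rfl

/-- The chosen primitive `n`-th root of unity of `L(ζ_n)`. -/
def towerζ : CyclotomicField n L := IsCyclotomicExtension.zeta n L (CyclotomicField n L)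

theorem towerζ_spec : IsPrimitiveRoot (towerζ n L) n :=
  IsCyclotomicExtension.zeta_spec n L (CyclotomicField n L)

/-- The cyclotomic character of `towerGroup n G L`. -/
def towerχ : towerGroup n G L →* (ZMod n)ˣ :=
  (modularCyclotomicCharacter (CyclotomicField n L) (towerζ_spec n L).card_rootsOfUnity).comp
    ((MonoidHom.fst (RingAut (CyclotomicField n L)) G).comp (towerGroup n G L).subtype)

end Construction

/-! ### Properties -/

section Properties

variable (n : ℕ) [NeZero n] (G : Type) [Group G] (L : Type) [Field L] [CharZero L]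
  [MulSemiringAction G L]

/-- The character describes the action on all `n`-th roots of unity. -/
theorem smul_root (x : towerGroup n G L) (t : CyclotomicField n L) (ht : t ^ n = 1) :
    x • t = t ^ ((towerχ n G L x : (ZMod n)ˣ) : ZMod n).val := by
  have hu : IsUnit t := IsUnit.of_pow_eq_one ht (NeZero.ne n)
  have hmem : hu.unit ∈ rootsOfUnity n (CyclotomicField n L) := by
    rw [mem_rootsOfUnity]
    apply Units.ext
    rw [Units.val_pow_eq_pow_val, IsUnit.unit_spec, ht, Units.val_one]
  have h := modularCyclotomicCharacter.spec (CyclotomicField n L)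
    (towerζ_spec n L).card_rootsOfUnity x.1.1 hmem
  rw [IsUnit.unit_spec] at h
  exact h

theorem smul_towerζ (x : towerGroup n G L) :
    x • towerζ n L = towerζ n L ^ ((towerχ n G L x : (ZMod n)ˣ) : ZMod n).val :=
  smul_root n G L x _ (towerζ_spec n L).pow_eq_one

/-- An element of `G'` is determined by its images under `π` and `χ`. -/
theorem eq_one_of_π_of_χ (x : towerGroup n G L) (hπ : towerπ n G L x = 1)
    (hχ : towerχ n G L x = 1) : x = 1 := by
  have hx := x.2
  rw [mem_towerGroup] at hx
  have h2 : x.1.2 = 1 := hπ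
  have hcomm : ∀ a : L, x.1.1 (algebraMap L (CyclotomicField n L) a) =
      algebraMap L (CyclotomicField n L) a := by
    intro a
    rw [hx a, h2, one_smul]
  have hζ : x.1.1 (towerζ n L) = towerζ n L := by
    have h := smul_towerζ n G L x
    rw [hχ, Units.val_one, ZMod.val_one_eq_one_mod,
      ← pow_eq_pow_mod 1 (towerζ_spec n L).pow_eq_one, pow_one] at h
    exact h
  have h1 : (AlgEquiv.ofRingEquiv (f := x.1.1) hcomm : CyclotomicField n L →ₐ[L]
      CyclotomicField n L) = AlgHom.id L (CyclotomicField n L) := by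
    apply AlgHom.ext_of_adjoin_eq_top
      (IsCyclotomicExtension.adjoin_primitive_root_eq_top (towerζ_spec n L))
    intro t ht
    rw [Set.mem_singleton_iff] at ht
    rw [ht]
    exact hζ
  have h3 : x.1.1 = 1 := by
    apply RingEquiv.ext
    intro y
    exact congrArg (fun φ : CyclotomicField n L →ₐ[L] CyclotomicField n L => φ y) h1
  apply Subtype.ext
  exact Prod.ext h3 h2

/-- `(π, χ)` is injective. -/
theorem prod_injective :
    Function.Injective ((towerπ n G L).prod (towerχ n G L)) := by
  rw [injective_iff_map_eq_one]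
  intro x hx
  rw [MonoidHom.prod_apply, Prod.mk_eq_one] at hx
  exact eq_one_of_π_of_χ n G L x hx.1 hx.2

instance towerFinite [Finite G] : Finite (towerGroup n G L) :=
  Finite.of_injective _ (prod_injective n G L)

instance towerFintype [Finite G] : Fintype (towerGroup n G L) := Fintype.ofFinite _

/-- The action of `G'` is faithful as soon as the action of `G` is. -/
instance towerFaithful [FaithfulSMul G L] : FaithfulSMul (towerGroup n G L) (CyclotomicField n L) where
  eq_of_smul_eq_smul := by
    intro x y h
    have hx := x.2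
    have hy := y.2
    rw [mem_towerGroup] at hx hy
    have h1 : x.1.1 = y.1.1 := RingEquiv.ext h
    have h2 : x.1.2 = y.1.2 := by
      apply eq_of_smul_eq_smul (α := L)
      intro a
      apply (algebraMap L (CyclotomicField n L)).injective
      rw [← hx a, ← hy a, h1]
    exact Subtype.ext (Prod.ext h1 h2)

/-- Every `g ∈ G` extends to `L(ζ_n)`. -/
theorem exists_extension [NumberField L] (g : G) :
    ∃ σ : RingAut (CyclotomicField n L), ∀ a : L,
      σ (algebraMap L (CyclotomicField n L) a) = algebraMap L (CyclotomicField n L) (g • a) := by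
  set τ : L →+* CyclotomicField n L :=
    (algebraMap L (CyclotomicField n L)).comp (MulSemiringAction.toRingHom G L g) with hτ
  have hsplit : ((cyclotomic n L).map τ).Splits := by
    rw [map_cyclotomic, ← map_cyclotomic n (algebraMap L (CyclotomicField n L))]
    exact IsCyclotomicExtension.splits_cyclotomic L (CyclotomicField n L) (Set.mem_singleton n)
  have inst : IsSplittingField L (CyclotomicField n L) (cyclotomic n L) :=
    IsCyclotomicExtension.splitting_field_cyclotomic n L (CyclotomicField n L)
  let φ := @Polynomial.IsSplittingField.lift (CyclotomicField n L) L (CyclotomicField n L) _ _ _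
    _ τ.toAlgebra (cyclotomic n L) inst hsplit
  have hφ : ∀ a : L, φ (algebraMap L (CyclotomicField n L) a) = τ a := fun a =>
    @AlgHom.commutes L (CyclotomicField n L) (CyclotomicField n L) _ _ _ _ τ.toAlgebra φ a
  have hbij : Function.Bijective (φ : CyclotomicField n L → CyclotomicField n L) :=
    AlgHom.bijective (RingHom.toRatAlgHom (@AlgHom.toRingHom L (CyclotomicField n L)
      (CyclotomicField n L) _ _ _ _ τ.toAlgebra φ))
  refine ⟨RingEquiv.ofBijective (@AlgHom.toRingHom L (CyclotomicField n L)
      (CyclotomicField n L) _ _ _ _ τ.toAlgebra φ) hbij, fun a => ?_⟩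
  exact hφ a

/-- **The tower property**: `f = algebraMap L L(ζ_n)` with `π : G' → G`. -/
theorem isTower [NumberField L] :
    IsTower (algebraMap L (CyclotomicField n L)) (towerπ n G L) where
  surj := by
    intro g
    obtain ⟨σ, hσ⟩ := exists_extension n G L g
    exact ⟨⟨(σ, g), hσ⟩, rfl⟩
  equivariant := by
    intro x a
    have hx := x.2
    rw [mem_towerGroup] at hx
    rw [smul_def, hx a]
    rfl
  fixed := by
    intro y hy
    have hgal : IsGalois L (CyclotomicField n L) :=
      IsCyclotomicExtension.isGalois {n} L (CyclotomicField n L)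
    have h := (IsGalois.mem_range_algebraMap_iff_fixed (F := L) y).2 (by
      intro s
      have hmem : ((s.toRingEquiv : RingAut (CyclotomicField n L)), (1 : G)) ∈ towerGroup n G L := by
        rw [mem_towerGroup]
        intro a
        rw [one_smul]
        exact s.commutes a
      exact hy ⟨_, hmem⟩ (by rw [MonoidHom.mem_ker]; rfl))
    exact h

/-- The invariants of `G'` are the images of the invariants of `G`. -/
theorem fixed_iff [NumberField L] (y : CyclotomicField n L) :
    (∀ x : towerGroup n G L, x • y = y) ↔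
      ∃ a : L, (∀ g : G, g • a = a) ∧ algebraMap L (CyclotomicField n L) a = y := by
  have hT := isTower n G L
  constructor
  · intro h
    obtain ⟨a, rfl⟩ := hT.fixed y (fun x _ => h x)
    refine ⟨a, fun g => ?_, rfl⟩
    obtain ⟨x, rfl⟩ := hT.surj g
    apply (algebraMap L (CyclotomicField n L)).injective
    rw [hT.equivariant x a]
    exact h x
  · rintro ⟨a, ha, rfl⟩ x
    rw [← hT.equivariant x a, ha]

/-- `L(ζ_n)` is generated by `L` and `ζ_n`. -/
theorem closure_eq_top :
    Subfield.closure (Set.range (algebraMap L (CyclotomicField n L)) ∪ {towerζ n L}) = ⊤ := by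
  rw [eq_top_iff]
  intro y _
  have h1 : y ∈ Algebra.adjoin L ({towerζ n L} : Set (CyclotomicField n L)) := by
    rw [IsCyclotomicExtension.adjoin_primitive_root_eq_top (towerζ_spec n L)]
    exact Algebra.mem_top
  set K := Subfield.closure (Set.range (algebraMap L (CyclotomicField n L)) ∪ {towerζ n L})
    with hK
  let S : Subalgebra L (CyclotomicField n L) :=
    { K.toSubring.toSubsemiring with
      algebraMap_mem' := fun a => Subfield.subset_closure (Or.inl ⟨a, rfl⟩) }
  have h2 : Algebra.adjoin L ({towerζ n L} : Set (CyclotomicField n L)) ≤ S := by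
    apply Algebra.adjoin_le
    intro t ht
    exact Subfield.subset_closure (Or.inr ht)
  exact h2 h1

/-- The kernel of `π` embeds into `(ZMod n)ˣ`. -/
theorem χ_injective_on_ker :
    Function.Injective ((towerχ n G L).comp (towerπ n G L).ker.subtype) := by
  rw [injective_iff_map_eq_one]
  intro x hx
  apply Subtype.ext
  exact eq_one_of_π_of_χ n G L x.1 x.2 hx

theorem card_ker_dvd : Nat.card (towerπ n G L).ker ∣ Nat.card (ZMod n)ˣ :=
  Subgroup.card_dvd_of_injective _ (χ_injective_on_ker n G L)

theorem card_ker_dvd_totient : Nat.card (towerπ n G L).ker ∣ n.totient := by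
  have h := card_ker_dvd n G L
  have h2 : Nat.card (ZMod n)ˣ = n.totient := by
    rw [Nat.card_eq_fintype_card, ZMod.card_units_eq_totient]
  rwa [h2] at h

/-- If `x ∈ G'` fixes the image of a primitive `d`-th root of unity of `L` (`d ∣ n`), then
`χ x ≡ 1 mod d`. -/
theorem unitsMap_χ_eq_one_of_smul {d : ℕ} (hd : d ∣ n) (ζ₀ : L) (hζ₀ : IsPrimitiveRoot ζ₀ d)
    (x : towerGroup n G L)
    (hx : x • algebraMap L (CyclotomicField n L) ζ₀ = algebraMap L (CyclotomicField n L) ζ₀) :
    ZMod.unitsMap hd (towerχ n G L x) = 1 := by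
  have hd0 : d ≠ 0 := by
    rintro rfl
    exact NeZero.ne n (Nat.eq_zero_of_zero_dvd hd)
  have : NeZero d := ⟨hd0⟩
  set t := algebraMap L (CyclotomicField n L) ζ₀ with ht
  have htd : IsPrimitiveRoot t d :=
    hζ₀.map_of_injective (algebraMap L (CyclotomicField n L)).injective
  have htn : t ^ n = 1 := by
    obtain ⟨c, rfl⟩ := hd
    rw [pow_mul, htd.pow_eq_one, one_pow]
  set v := ((towerχ n G L x : (ZMod n)ˣ) : ZMod n).val with hv
  have h1 : t ^ v = t := by
    rw [← smul_root n G L x t htn]
    exact hx
  have h2 : t ^ (v + (d - 1)) = 1 := by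
    rw [pow_add, h1, ← pow_succ', Nat.sub_add_cancel (Nat.pos_of_ne_zero hd0), htd.pow_eq_one]
  have h3 : d ∣ v + (d - 1) := (htd.pow_eq_one_iff_dvd _).1 h2
  have h4 : ((v + (d - 1) : ℕ) : ZMod d) = 0 := (ZMod.natCast_eq_zero_iff _ _).2 h3
  have h5 : (((d - 1 : ℕ) : ZMod d)) + 1 = 0 := by
    have : (((d - 1 : ℕ) + 1 : ℕ) : ZMod d) = 0 := by
      rw [Nat.sub_add_cancel (Nat.pos_of_ne_zero hd0)]
      exact ZMod.natCast_self d
    rwa [Nat.cast_add, Nat.cast_one] at this
  have h6 : ((v : ℕ) : ZMod d) = 1 := by
    rw [Nat.cast_add] at h4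
    linear_combination h4 - h5
  apply Units.ext
  rw [ZMod.unitsMap_def, Units.coe_map, Units.val_one]
  show ZMod.castHom hd (ZMod d) ((towerχ n G L x : (ZMod n)ˣ) : ZMod n) = 1
  rw [ZMod.castHom_apply, ← ZMod.natCast_val]
  exact h6

/-- If `ζ₀ ∈ L` is a primitive `d`-th root of unity fixed by `G`, then `χ ≡ 1 mod d`. -/
theorem unitsMap_χ_eq_one [NumberField L] {d : ℕ} (hd : d ∣ n) (ζ₀ : L)
    (hζ₀ : IsPrimitiveRoot ζ₀ d) (hfix : ∀ g : G, g • ζ₀ = ζ₀) (x : towerGroup n G L) :
    ZMod.unitsMap hd (towerχ n G L x) = 1 := by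
  apply unitsMap_χ_eq_one_of_smul n G L hd ζ₀ hζ₀ x
  rw [← (isTower n G L).equivariant x ζ₀, hfix]

/-- On the kernel of `π`, `χ ≡ 1` modulo the order of any root of unity of `L`. -/
theorem unitsMap_χ_eq_one_of_mem_ker [NumberField L] {d : ℕ} (hd : d ∣ n) (ζ₀ : L)
    (hζ₀ : IsPrimitiveRoot ζ₀ d) (x : towerGroup n G L) (hx : x ∈ (towerπ n G L).ker) :
    ZMod.unitsMap hd (towerχ n G L x) = 1 := by
  apply unitsMap_χ_eq_one_of_smul n G L hd ζ₀ hζ₀ x
  rw [← (isTower n G L).equivariant x ζ₀, MonoidHom.mem_ker.1 hx, one_smul]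

end Properties

/-! ### Prime powers -/

section PrimePower

/-- The kernel of `(ℤ/p^k)ˣ → (ℤ/p)ˣ` is a `p`-group. -/
theorem isPGroup_ker_unitsMap (p k : ℕ) [Fact p.Prime] (hk : 0 < k) :
    IsPGroup p (ZMod.unitsMap (dvd_pow_self p hk.ne')).ker := by
  have hp : p.Prime := Fact.out
  have : NeZero (p ^ k) := ⟨pow_ne_zero k hp.ne_zero⟩
  set φ := ZMod.unitsMap (dvd_pow_self p hk.ne') with hφ
  have hsurj : Function.Surjective φ := ZMod.unitsMap_surjective _
  have h1 : Nat.card φ.ker * φ.ker.index = Nat.card (ZMod (p ^ k))ˣ := Subgroup.card_mul_index _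
  have h2 : φ.ker.index = p - 1 := by
    rw [Subgroup.index_ker, MonoidHom.range_eq_top.2 hsurj, Subgroup.card_top,
      Nat.card_eq_fintype_card, ZMod.card_units]
  have h3 : Nat.card (ZMod (p ^ k))ˣ = p ^ (k - 1) * (p - 1) := by
    rw [Nat.card_eq_fintype_card, ZMod.card_units_eq_totient, Nat.totient_prime_pow hp hk]
  rw [h2, h3] at h1
  have h4 : Nat.card φ.ker = p ^ (k - 1) :=
    Nat.eq_of_mul_eq_mul_right (Nat.sub_pos_of_lt hp.one_lt) h1
  exact IsPGroup.of_card h4

variable (p k : ℕ) [Fact p.Prime] [NeZero (p ^ k)] (G : Type) [Group G] (L : Type) [Field L]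
  [NumberField L] [MulSemiringAction G L]

/-- If `ζ_p ∈ L`, the kernel of `π : G' → G` for `L(ζ_{p^k})` is a `p`-group. -/
theorem isPGroup_ker (ζ₀ : L) (hζ₀ : IsPrimitiveRoot ζ₀ p) :
    IsPGroup p (towerπ (p ^ k) G L).ker := by
  rcases Nat.eq_zero_or_pos k with hk | hk
  · -- `k = 0`: the kernel is trivial
    have hcard := card_ker_dvd_totient (p ^ k) G L
    have h1 : (p ^ k).totient = 1 := by rw [hk, pow_zero, Nat.totient_one]
    rw [h1, Nat.dvd_one] at hcard
    exact IsPGroup.of_card (n := 0) (by rw [hcard, pow_zero])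
  · have hK := isPGroup_ker_unitsMap p k hk
    let ψ : (towerπ (p ^ k) G L).ker →* (ZMod.unitsMap (dvd_pow_self p hk.ne')).ker :=
      ((towerχ (p ^ k) G L).comp (towerπ (p ^ k) G L).ker.subtype).codRestrict _ (fun x => by
        rw [MonoidHom.mem_ker]
        exact unitsMap_χ_eq_one_of_mem_ker (p ^ k) G L (dvd_pow_self p hk.ne') ζ₀ hζ₀ x.1 x.2)
    refine hK.of_injective ψ ?_
    intro x y hxy
    apply χ_injective_on_ker (p ^ k) G L
    exact congrArg Subtype.val hxy

end PrimePower

/-! ### The packaged statement -/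

/-- **The cyclotomic tower of a Galois pair.**  For a Galois pair `(G, L)` and `n ≠ 0` there is a
Galois pair `(G', L')`, `L' = L(ζ_n)`, with a tower map to `(G, L)` and a character
`χ : G' → (ℤ/n)ˣ` describing the action on `ζ_n`, such that `(π, χ)` is injective. -/
theorem exists_cyclotomic_tower (n : ℕ) [NeZero n] (G L : Type) [Group G] [Fintype G] [Field L]
    [NumberField L] [MulSemiringAction G L] [FaithfulSMul G L] :
    ∃ (L' : Type) (_ : Field L') (_ : NumberField L') (G' : Type) (_ : Group G') (_ : Fintype G')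
      (_ : MulSemiringAction G' L') (f : L →+* L') (π : G' →* G) (ζ : L')
      (χ : G' →* (ZMod n)ˣ),
      FaithfulSMul G' L' ∧ IsTower f π ∧ IsPrimitiveRoot ζ n ∧
      (∀ (g : G') (t : L'), t ^ n = 1 → g • t = t ^ ((χ g : (ZMod n)ˣ) : ZMod n).val) ∧
      (∀ g : G', π g = 1 → χ g = 1 → g = 1) ∧
      Subfield.closure (Set.range f ∪ {ζ}) = ⊤ :=
  ⟨CyclotomicField n L, inferInstance, inferInstance, towerGroup n G L, inferInstance,
    inferInstance, inferInstance, algebraMap L (CyclotomicField n L), towerπ n G L, towerζ n L,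
    towerχ n G L, inferInstance, isTower n G L, towerζ_spec n L, smul_root n G L,
    eq_one_of_π_of_χ n G L, closure_eq_top n L⟩

end Fermat.Agent.CFT.Global.CycloPair
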