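import Mathlib
import Fermat.Agent.CFT.Global.CycloPair

/-
# [CycDegree] exact degree of the `p`-power cyclotomic layer (helper42)

Let `p` be an odd prime, `a ≥ 1`, and let `L` be a field of characteristic `0`
containing a primitive `p ^ a`-th root of unity but no primitive `p ^ (a + 1)`-th one.
Then `L(ζ_{p^(a+m)}) / L` is cyclic of degree EXACTLY `p ^ m`, and the cyclotomic
character identifies its Galois group with the units of `ZMod (p ^ (a + m))` that are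
`≡ 1 mod p ^ a`.

* `card_gal`, `isCyclic_gal` : for any `M` with `[IsCyclotomicExtension {p ^ (a + m)} L M]`.
* `kerEquivGal`, `card_ker_towerπ`, `isCyclic_ker_towerπ`, `exists_mem_ker_towerχ_eq` :
  the same statements in the `CycloPair` vocabulary
  (`towerπ`, `towerχ` of `Fermat.Agent.CFT.Global.CycloPair`).
-/

set_option autoImplicit false

noncomputable section

namespace Fermat.Agent.CFT.Global.CycloDegree

/-! ### 1. Lifting the exponent -/

/-- LTE for an odd prime `p`: if `p ∣ u - 1`, `u ≥ 2`, then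
`v_p(u ^ (p ^ k) - 1) = v_p(u - 1) + k`. -/
theorem padicValNat_pow_prime_pow_sub_one {p : ℕ} [hp : Fact p.Prime] (hp2 : p ≠ 2) {u : ℕ}
    (hu : 2 ≤ u) (hpu : p ∣ u - 1) (k : ℕ) :
    padicValNat p (u ^ (p ^ k) - 1) = padicValNat p (u - 1) + k := by
  have hodd : Odd p := hp.out.odd_of_ne_two hp2
  have hpu' : ¬ p ∣ u := by
    intro h
    have h1 : p ∣ u - (u - 1) := Nat.dvd_sub h hpu
    have h2 : u - (u - 1) = 1 := by omega
    rw [h2] at h1
    exact hp.out.one_lt.ne' (Nat.dvd_one.mp h1)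
  have h6 := padicValNat.pow_sub_pow hodd (show 1 < u by omega) hpu hpu'
    (n := p ^ k) (pow_ne_zero _ hp.out.ne_zero)
  rw [one_pow, padicValNat.prime_pow] at h6
  exact h6

/-- If `p ^ a ∣ u - 1` (`a ≥ 1`, `p` odd) then `p ^ (a + k) ∣ u ^ (p ^ k) - 1`. -/
theorem pow_dvd_pow_prime_pow_sub_one {p : ℕ} [hp : Fact p.Prime] (hp2 : p ≠ 2) {u a : ℕ}
    (ha : 1 ≤ a) (hu : 1 ≤ u) (hpu : p ^ a ∣ u - 1) (k : ℕ) :
    p ^ (a + k) ∣ u ^ (p ^ k) - 1 := by
  rcases Nat.lt_or_ge u 2 with h | h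
  · have hu1 : u = 1 := by omega
    rw [hu1, one_pow]
    exact dvd_zero _
  · have hpu1 : p ∣ u - 1 := (dvd_pow_self p (by omega)).trans hpu
    have hne : u - 1 ≠ 0 := by omega
    have hne' : u ^ (p ^ k) - 1 ≠ 0 := by
      have : 1 < u ^ (p ^ k) := Nat.one_lt_pow (pow_ne_zero _ hp.out.ne_zero) (by omega)
      omega
    rw [padicValNat_dvd_iff_le hne', padicValNat_pow_prime_pow_sub_one hp2 h hpu1]
    have := (padicValNat_dvd_iff_le hne).mp hpu
    omega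

/-- If `p ^ a ∣ u - 1` but `p ^ (a + 1) ∤ u - 1` (`a ≥ 1`, `p` odd) and
`p ^ (a + m) ∣ u ^ (p ^ k) - 1`, then `m ≤ k`. -/
theorem le_of_pow_dvd_pow_prime_pow_sub_one {p : ℕ} [hp : Fact p.Prime] (hp2 : p ≠ 2)
    {u a m k : ℕ} (ha : 1 ≤ a) (hu : 1 ≤ u) (hpu : p ^ a ∣ u - 1) (hpu' : ¬ p ^ (a + 1) ∣ u - 1)
    (h : p ^ (a + m) ∣ u ^ (p ^ k) - 1) : m ≤ k := by
  have h2 : 2 ≤ u := by
    by_contra hlt
    have hu1 : u = 1 := by omega
    apply hpu'
    rw [hu1]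
    exact dvd_zero _
  have hpu1 : p ∣ u - 1 := (dvd_pow_self p (by omega)).trans hpu
  have hne : u - 1 ≠ 0 := by omega
  have hne' : u ^ (p ^ k) - 1 ≠ 0 := by
    have : 1 < u ^ (p ^ k) := Nat.one_lt_pow (pow_ne_zero _ hp.out.ne_zero) (by omega)
    omega
  rw [padicValNat_dvd_iff_le hne', padicValNat_pow_prime_pow_sub_one hp2 h2 hpu1] at h
  have h3 : ¬ (a + 1 ≤ padicValNat p (u - 1)) := fun h4 => hpu' ((padicValNat_dvd_iff_le hne).mpr h4)
  omega

/-! ### 2. The Galois group of `L(ζ_{p^(a+m)})/L` -/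

section Field

variable {p : ℕ} [hp : Fact p.Prime] (L : Type*) [Field L] [CharZero L] {M : Type*} [Field M]
  [Algebra L M] (a m : ℕ) [hcyc : IsCyclotomicExtension {p ^ (a + m)} L M]
  {ζ : M} (hζ : IsPrimitiveRoot ζ (p ^ (a + m)))

theorem neZero_pow : NeZero (p ^ (a + m)) := ⟨pow_ne_zero _ hp.out.ne_zero⟩

attribute [local instance] neZero_pow

/-- The exponent of `σ` on `ζ`. -/
def expo (σ : M ≃ₐ[L] M) : ℕ := (hζ.autToPow L σ : ZMod (p ^ (a + m))).val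

theorem apply_zeta (σ : M ≃ₐ[L] M) : σ ζ = ζ ^ expo L a m hζ σ :=
  (hζ.autToPow_spec L σ).symm

theorem pow_apply_zeta (σ : M ≃ₐ[L] M) (k : ℕ) : (σ ^ k) ζ = ζ ^ (expo L a m hζ σ ^ k) := by
  induction k with
  | zero => simp
  | succ k ih =>
    rw [pow_succ', AlgEquiv.mul_apply, ih, map_pow, apply_zeta L a m hζ σ, ← pow_mul, pow_succ']

include hcyc hζ in
theorem eq_one_of_apply_zeta (τ : M ≃ₐ[L] M) (h : τ ζ = ζ) : τ = 1 := by
  have htop := IsCyclotomicExtension.adjoin_primitive_root_eq_top (A := L) hζ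
  ext y
  have hy : y ∈ Algebra.adjoin L {ζ} := by
    rw [htop]; exact Algebra.mem_top
  show τ y = y
  induction hy using Algebra.adjoin_induction with
  | mem x hx =>
    rw [Set.mem_singleton_iff] at hx
    rw [hx, h]
  | algebraMap r => exact τ.commutes r
  | add x y _ _ hx hy => rw [map_add, hx, hy]
  | mul x y _ _ hx hy => rw [map_mul, hx, hy]

theorem one_le_expo (ha : 1 ≤ a) (σ : M ≃ₐ[L] M) : 1 ≤ expo L a m hζ σ := by
  by_contra hlt
  have h0 : expo L a m hζ σ = 0 := by omega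
  have h1 := apply_zeta L a m hζ σ
  rw [h0, pow_zero] at h1
  have h2 : ζ = 1 := by
    have := congrArg σ.symm h1
    rwa [AlgEquiv.symm_apply_apply, map_one] at this
  have h3 : 1 < p ^ (a + m) := Nat.one_lt_pow (by omega) hp.out.one_lt
  exact hζ.ne_one h3 h2

/-- `σ` fixes `ζ ^ (p ^ j)` iff `p ^ (a + m - j) ∣ expo σ - 1`, in the form used below. -/
theorem apply_zeta_pow_eq_iff (ha : 1 ≤ a) (σ : M ≃ₐ[L] M) (j b : ℕ) (hb : b + j = a + m) :
    σ (ζ ^ (p ^ j)) = ζ ^ (p ^ j) ↔ p ^ b ∣ expo L a m hζ σ - 1 := by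
  have h1 := one_le_expo L a m hζ ha σ
  have hζ0 : ζ ≠ 0 := hζ.ne_zero (NeZero.ne _)
  rw [map_pow, apply_zeta L a m hζ σ, ← pow_mul]
  have h2 : ζ ^ (expo L a m hζ σ * p ^ j) = ζ ^ ((expo L a m hζ σ - 1) * p ^ j) * ζ ^ (p ^ j) := by
    rw [← pow_add, ← Nat.succ_mul, Nat.succ_eq_add_one, Nat.sub_add_cancel h1]
  rw [h2]
  constructor
  · intro h
    have h3 : ζ ^ ((expo L a m hζ σ - 1) * p ^ j) = 1 :=
      mul_right_cancel₀ (pow_ne_zero _ hζ0) (h.trans (one_mul _).symm)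
    rw [hζ.pow_eq_one_iff_dvd, ← hb, pow_add] at h3
    exact Nat.dvd_of_mul_dvd_mul_right (pow_pos hp.out.pos j) h3
  · intro h
    have h3 : ζ ^ ((expo L a m hζ σ - 1) * p ^ j) = 1 := by
      rw [hζ.pow_eq_one_iff_dvd, ← hb, pow_add]
      exact Nat.mul_dvd_mul_right h _
    rw [h3, one_mul]

/-- A root of unity of `M` of order dividing `p ^ b` lies in `L` as soon as `L` contains a
primitive `p ^ b`-th root of unity. -/
theorem mem_range_of_pow_eq_one {b : ℕ} (hL : ∃ ξ : L, IsPrimitiveRoot ξ (p ^ b)) {t : M}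
    (ht : t ^ (p ^ b) = 1) : t ∈ Set.range (algebraMap L M) := by
  obtain ⟨ξ, hξ⟩ := hL
  have hξ' : IsPrimitiveRoot (algebraMap L M ξ) (p ^ b) :=
    hξ.map_of_injective (algebraMap L M).injective
  have : NeZero (p ^ b) := ⟨pow_ne_zero _ hp.out.ne_zero⟩
  obtain ⟨i, -, hi⟩ := hξ'.eq_pow_of_pow_eq_one ht
  exact ⟨ξ ^ i, by rw [map_pow, hi]⟩

/-- Lemma A: if `ζ_{p^a} ∈ L`, every `σ` has exponent `≡ 1` mod `p ^ a`. -/
theorem pow_dvd_expo_sub_one (ha : 1 ≤ a) (hL : ∃ ξ : L, IsPrimitiveRoot ξ (p ^ a))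
    (σ : M ≃ₐ[L] M) : p ^ a ∣ expo L a m hζ σ - 1 := by
  rw [← apply_zeta_pow_eq_iff L a m hζ ha σ m a rfl]
  have h1 : (ζ ^ (p ^ m)) ^ (p ^ a) = 1 := by
    rw [← pow_mul, ← pow_add, add_comm]
    exact hζ.pow_eq_one
  obtain ⟨x, hx⟩ := mem_range_of_pow_eq_one L hL h1
  rw [← hx]
  exact σ.commutes x

include hcyc hζ in
/-- Lemma D: every element of the Galois group has order dividing `p ^ m`. -/
theorem pow_prime_pow_eq_one (hp2 : p ≠ 2) (ha : 1 ≤ a) (hL : ∃ ξ : L, IsPrimitiveRoot ξ (p ^ a))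
    (σ : M ≃ₐ[L] M) : σ ^ (p ^ m) = 1 := by
  apply eq_one_of_apply_zeta L a m hζ
  rw [pow_apply_zeta L a m hζ]
  have h1 := one_le_expo L a m hζ ha σ
  have h2 := pow_dvd_pow_prime_pow_sub_one hp2 ha h1 (pow_dvd_expo_sub_one L a m hζ ha hL σ) m
  have h3 : 1 ≤ expo L a m hζ σ ^ (p ^ m) := Nat.one_le_pow _ _ h1
  have h4 : ζ ^ (expo L a m hζ σ ^ (p ^ m) - 1) = 1 := by
    rw [hζ.pow_eq_one_iff_dvd]
    exact h2
  calc ζ ^ (expo L a m hζ σ ^ (p ^ m)) = ζ ^ (expo L a m hζ σ ^ (p ^ m) - 1 + 1) := by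
        rw [Nat.sub_add_cancel h3]
    _ = ζ := by rw [pow_succ, h4, one_mul]

include hcyc hζ in
/-- Lemma B: an element whose exponent is `≢ 1` mod `p ^ (a + 1)` has order exactly `p ^ m`. -/
theorem orderOf_eq_of_not_dvd (hp2 : p ≠ 2) (ha : 1 ≤ a)
    (hL : ∃ ξ : L, IsPrimitiveRoot ξ (p ^ a)) (σ : M ≃ₐ[L] M)
    (hσ : ¬ p ^ (a + 1) ∣ expo L a m hζ σ - 1) : orderOf σ = p ^ m := by
  have h1 := one_le_expo L a m hζ ha σ
  have hdvd : orderOf σ ∣ p ^ m :=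
    orderOf_dvd_of_pow_eq_one (pow_prime_pow_eq_one L a m hζ hp2 ha hL σ)
  obtain ⟨k, hk, hok⟩ := (Nat.dvd_prime_pow hp.out).mp hdvd
  have h2 : σ ^ (p ^ k) = 1 := by rw [← hok]; exact pow_orderOf_eq_one σ
  have h3 : (σ ^ (p ^ k)) ζ = ζ := by rw [h2]; rfl
  rw [pow_apply_zeta L a m hζ] at h3
  have h4 : 1 ≤ expo L a m hζ σ ^ (p ^ k) := Nat.one_le_pow _ _ h1
  have hζ0 : ζ ≠ 0 := hζ.ne_zero (NeZero.ne _)
  have h5 : ζ ^ (expo L a m hζ σ ^ (p ^ k) - 1) = 1 := by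
    have h6 : ζ ^ (expo L a m hζ σ ^ (p ^ k) - 1) * ζ = ζ := by
      rw [← pow_succ, Nat.sub_add_cancel h4]
      exact h3
    exact mul_right_cancel₀ hζ0 (h6.trans (one_mul _).symm)
  rw [hζ.pow_eq_one_iff_dvd] at h5
  have h7 := le_of_pow_dvd_pow_prime_pow_sub_one hp2 ha h1
    (pow_dvd_expo_sub_one L a m hζ ha hL σ) hσ h5
  rw [hok]
  have h8 : k = m := le_antisymm hk h7
  rw [h8]

include hcyc hζ in
/-- Lemma C: if `ζ_{p^(a+1)} ∉ L` and `m ≥ 1`, some `σ` has exponent `≢ 1` mod `p ^ (a + 1)`. -/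
theorem exists_not_dvd (ha : 1 ≤ a) (hm : 1 ≤ m)
    (hL' : ¬ ∃ ξ : L, IsPrimitiveRoot ξ (p ^ (a + 1))) :
    ∃ σ : M ≃ₐ[L] M, ¬ p ^ (a + 1) ∣ expo L a m hζ σ - 1 := by
  by_contra hcon
  rw [not_exists] at hcon
  have hgal : IsGalois L M := IsCyclotomicExtension.isGalois {p ^ (a + m)} L M
  have hfd : FiniteDimensional L M := IsCyclotomicExtension.finiteDimensional {p ^ (a + m)} L M
  have hfix : ∀ σ : M ≃ₐ[L] M, σ (ζ ^ (p ^ (m - 1))) = ζ ^ (p ^ (m - 1)) := by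
    intro σ
    rw [apply_zeta_pow_eq_iff L a m hζ ha σ (m - 1) (a + 1) (by omega)]
    exact not_not.mp (hcon σ)
  obtain ⟨y, hy⟩ := (IsGalois.mem_range_algebraMap_iff_fixed (ζ ^ (p ^ (m - 1)))).mpr hfix
  have hprim : IsPrimitiveRoot (ζ ^ (p ^ (m - 1))) (p ^ (a + 1)) := by
    refine hζ.pow (pow_pos hp.out.pos _) ?_
    rw [← pow_add]
    congr 1
    omega
  rw [← hy] at hprim
  exact hL' ⟨y, hprim.of_map_of_injective (algebraMap L M).injective⟩

include hcyc hζ in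
/-- **Exact degree.**  `p` odd, `a ≥ 1`, `ζ_{p^a} ∈ L`, `ζ_{p^(a+1)} ∉ L`: the Galois group of
`L(ζ_{p^(a+m)})/L` has order exactly `p ^ m`. -/
theorem card_gal (hp2 : p ≠ 2) (ha : 1 ≤ a) (hL : ∃ ξ : L, IsPrimitiveRoot ξ (p ^ a))
    (hL' : ¬ ∃ ξ : L, IsPrimitiveRoot ξ (p ^ (a + 1))) :
    Nat.card (M ≃ₐ[L] M) = p ^ m := by
  have hfd : FiniteDimensional L M := IsCyclotomicExtension.finiteDimensional {p ^ (a + m)} L M
  have hcycZ := ZMod.isCyclic_units_of_prime_pow p hp.out hp2 (a + m)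
  have hcycG : IsCyclic (M ≃ₐ[L] M) :=
    isCyclic_of_injective (hζ.autToPow L) (hζ.autToPow_injective L)
  obtain ⟨g, hg⟩ := hcycG.exists_generator
  have hcard : orderOf g = Nat.card (M ≃ₐ[L] M) := orderOf_eq_card_of_forall_mem_zpowers hg
  have hdvd : Nat.card (M ≃ₐ[L] M) ∣ p ^ m := by
    rw [← hcard]
    exact orderOf_dvd_of_pow_eq_one (pow_prime_pow_eq_one L a m hζ hp2 ha hL g)
  rcases Nat.eq_zero_or_pos m with hm | hm
  · subst hm
    rw [pow_zero] at hdvd ⊢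
    exact Nat.dvd_one.mp hdvd
  · obtain ⟨σ, hσ⟩ := exists_not_dvd L a m hζ ha hm hL'
    have h1 := orderOf_eq_of_not_dvd L a m hζ hp2 ha hL σ hσ
    have h2 : p ^ m ∣ Nat.card (M ≃ₐ[L] M) := by
      rw [← h1]
      exact orderOf_dvd_natCard σ
    exact Nat.dvd_antisymm hdvd h2

include hζ in
/-- The Galois group of `L(ζ_{p^(a+m)})/L` is cyclic for odd `p`. -/
theorem isCyclic_gal (hp2 : p ≠ 2) : IsCyclic (M ≃ₐ[L] M) := by
  have hcycZ := ZMod.isCyclic_units_of_prime_pow p hp.out hp2 (a + m)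
  exact isCyclic_of_injective (hζ.autToPow L) (hζ.autToPow_injective L)

end Field

/-! ### 3. The statements for the cyclotomic tower of a Galois pair (`CycloPair` vocabulary) -/

section Pair

open Fermat.Agent.CFT.Global.CycloPair

variable (n : ℕ) [NeZero n] (G : Type) [Group G] (L : Type) [Field L] [CharZero L]
  [MulSemiringAction G L]

theorem snd_eq_one_of_mem_ker (x : (towerπ n G L).ker) : x.1.1.2 = 1 := x.2

theorem apply_algebraMap_of_mem_ker (x : (towerπ n G L).ker) (r : L) :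
    x.1.1.1 (algebraMap L (CyclotomicField n L) r) = algebraMap L (CyclotomicField n L) r := by
  have h := x.1.2 r
  rw [snd_eq_one_of_mem_ker n G L x, one_smul] at h
  exact h

/-- The kernel of `towerπ` is `Gal(L(ζ_n)/L)`. -/
def kerEquivGal : (towerπ n G L).ker ≃* (CyclotomicField n L ≃ₐ[L] CyclotomicField n L) where
  toFun x := AlgEquiv.ofRingEquiv (f := (x.1.1.1 : CyclotomicField n L ≃+* CyclotomicField n L))
    (apply_algebraMap_of_mem_ker n G L x)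
  invFun σ := ⟨⟨(σ.toRingEquiv, 1), fun r => by
    show σ (algebraMap L (CyclotomicField n L) r) = algebraMap L _ ((1 : G) • r)
    rw [one_smul, σ.commutes]⟩, rfl⟩
  left_inv x := by
    apply Subtype.ext
    apply Subtype.ext
    apply Prod.ext
    · rfl
    · exact (snd_eq_one_of_mem_ker n G L x).symm
  right_inv σ := by
    ext y
    rfl
  map_mul' x y := by
    ext z
    rfl

theorem kerEquivGal_apply (x : (towerπ n G L).ker) (y : CyclotomicField n L) :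
    kerEquivGal n G L x y = x.1 • y := rfl

end Pair

section PairPrimePower

open Fermat.Agent.CFT.Global.CycloPair

variable (p : ℕ) [hp : Fact p.Prime] (a m : ℕ) (G : Type) [Group G] (L : Type) [Field L]
  [CharZero L] [MulSemiringAction G L]

attribute [local instance] neZero_pow

/-- **Exact degree of the cyclotomic tower.**  `p` odd, `a ≥ 1`, `ζ_{p^a} ∈ L`,
`ζ_{p^(a+1)} ∉ L`: the kernel of `towerπ (p ^ (a + m)) G L` (`= Gal(L(ζ_{p^(a+m)})/L)`) has order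
exactly `p ^ m`. -/
theorem card_ker_towerπ (hp2 : p ≠ 2) (ha : 1 ≤ a) (hL : ∃ ξ : L, IsPrimitiveRoot ξ (p ^ a))
    (hL' : ¬ ∃ ξ : L, IsPrimitiveRoot ξ (p ^ (a + 1))) :
    Nat.card (towerπ (p ^ (a + m)) G L).ker = p ^ m := by
  rw [Nat.card_congr (kerEquivGal (p ^ (a + m)) G L).toEquiv]
  exact card_gal L a m (towerζ_spec (p ^ (a + m)) L) hp2 ha hL hL'

/-- The kernel of `towerπ (p ^ (a + m)) G L` is cyclic for odd `p`. -/
theorem isCyclic_ker_towerπ (hp2 : p ≠ 2) : IsCyclic (towerπ (p ^ (a + m)) G L).ker := by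
  have h := isCyclic_gal L a m (towerζ_spec (p ^ (a + m)) L) hp2
  exact isCyclic_of_surjective (kerEquivGal (p ^ (a + m)) G L).symm
    (kerEquivGal (p ^ (a + m)) G L).symm.surjective

/-- The kernel of reduction `(ℤ/p^(a+m))ˣ → (ℤ/p^a)ˣ` has order `p ^ m` (`a ≥ 1`). -/
theorem card_ker_unitsMap (ha : 1 ≤ a) :
    Nat.card (ZMod.unitsMap (pow_dvd_pow p (Nat.le_add_right a m))).ker = p ^ m := by
  have hsurj := ZMod.unitsMap_surjective (pow_dvd_pow p (Nat.le_add_right a m))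
  have h1 := Subgroup.card_eq_card_quotient_mul_card_subgroup
    (ZMod.unitsMap (pow_dvd_pow p (Nat.le_add_right a m))).ker
  rw [Nat.card_congr (QuotientGroup.quotientKerEquivOfSurjective _ hsurj).toEquiv,
    Nat.card_eq_fintype_card, Nat.card_eq_fintype_card (α := (ZMod (p ^ a))ˣ),
    ZMod.card_units_eq_totient, ZMod.card_units_eq_totient,
    Nat.totient_prime_pow hp.out (by omega), Nat.totient_prime_pow hp.out (by omega)] at h1
  have h2 : p ^ (a + m - 1) = p ^ (a - 1) * p ^ m := by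
    rw [← pow_add]
    congr 1
    omega
  rw [h2] at h1
  have h3 : 0 < p ^ (a - 1) * (p - 1) :=
    Nat.mul_pos (pow_pos hp.out.pos _) (by have := hp.out.two_le; omega)
  have h4 : p ^ (a - 1) * (p - 1) * p ^ m = p ^ (a - 1) * (p - 1) *
      Nat.card (ZMod.unitsMap (pow_dvd_pow p (Nat.le_add_right a m))).ker := by
    rw [← h1]
    ring
  exact (Nat.eq_of_mul_eq_mul_left h3 h4).symm

/-- **The cyclotomic character maps `Gal(L(ζ_{p^(a+m)})/L)` ONTO the units `≡ 1 mod p^a`.** -/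
theorem exists_mem_ker_towerχ_eq (hp2 : p ≠ 2) (ha : 1 ≤ a)
    (hL : ∃ ξ : L, IsPrimitiveRoot ξ (p ^ a))
    (hL' : ¬ ∃ ξ : L, IsPrimitiveRoot ξ (p ^ (a + 1))) (u : (ZMod (p ^ (a + m)))ˣ)
    (hu : ZMod.unitsMap (pow_dvd_pow p (Nat.le_add_right a m)) u = 1) :
    ∃ x : towerGroup (p ^ (a + m)) G L, x ∈ (towerπ (p ^ (a + m)) G L).ker ∧
      towerχ (p ^ (a + m)) G L x = u := by
  obtain ⟨ξ, hξ⟩ := hL
  -- the restricted character `ker π → ker (unitsMap)`
  let ψ : (towerπ (p ^ (a + m)) G L).ker →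
      (ZMod.unitsMap (pow_dvd_pow p (Nat.le_add_right a m))).ker := fun x =>
    ⟨towerχ (p ^ (a + m)) G L x.1, by
      rw [MonoidHom.mem_ker]
      apply unitsMap_χ_eq_one_of_smul (p ^ (a + m)) G L _ ξ hξ x.1
      rw [CycloPair.smul_def]
      exact apply_algebraMap_of_mem_ker (p ^ (a + m)) G L x ξ⟩
  have hψ : Function.Injective ψ := by
    intro x y hxy
    apply χ_injective_on_ker (p ^ (a + m)) G L
    exact congrArg Subtype.val hxy
  have hcard : Nat.card (ZMod.unitsMap (pow_dvd_pow p (Nat.le_add_right a m))).ker ≤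
      Nat.card (towerπ (p ^ (a + m)) G L).ker := by
    rw [card_ker_unitsMap p a m ha, card_ker_towerπ p a m G L hp2 ha ⟨ξ, hξ⟩ hL']
  have hfin : Finite (towerπ (p ^ (a + m)) G L).ker :=
    Nat.finite_of_card_ne_zero (by
      rw [card_ker_towerπ p a m G L hp2 ha ⟨ξ, hξ⟩ hL']
      exact pow_ne_zero _ hp.out.ne_zero)
  obtain ⟨x, hx⟩ := (hψ.bijective_of_nat_card_le hcard).2 ⟨u, hu⟩
  exact ⟨x.1, x.2, congrArg Subtype.val hx⟩

end PairPrimePower

end Fermat.Agent.CFT.Global.CycloDegree
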