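import Mathlib
import Fermat.Agent.CFT.Global.CycloExists
import Fermat.Agent.CFT.Global.CycloAux

/-
# [CycExact] the cyclic cyclotomic layer of exact degree `p ^ m` (helper42)

For a number field `K`, an odd prime `p` and `m : ℕ` there is, inside `K(ζ_{p^(s+1)})` for a
suitable `s`, an intermediate field `E`, Galois and cyclic over `K` of degree EXACTLY `p ^ m`,
unramified outside `p`, on which the sign `±1` (and all of the prime-to-`p` torsion of the
cyclotomic character) acts trivially.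

* `layer K p s hζ e` : the fixed field of `{σ | χ(σ) ^ e = 1}` (`χ` the cyclotomic character of
  `K(ζ_{p^(s+1)})/K`); `layer_isGalois`, `layer_isCyclic`, `card_layer`, `layer_le_pPart`,
  `apply_eq_of_natCast_eq_or_neg`, `inertia_layer_eq_bot`, `res`, `res_surjective`, `res_ker`.
* `pow_dvd_card_gal` : `p ^ m ∣ [K(ζ_{p^(s+1)}) : K]` for `s ≥ m + v_p([K:ℚ])`.
* `exists_cyclic_cyclotomic_exact` : the packaged existence statement.
* `exists_intermediate_of_dvd` : a cyclic Galois extension has a cyclic subextension of every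
  degree `d ∣ [L:K]`.
-/

set_option autoImplicit false
set_option linter.unusedSectionVars false

namespace Fermat.Agent.CFT.Global.CycloExact

open NumberField IntermediateField
open scoped Pointwise

/-! ### 1. Cyclic groups -/

/-- For a finite cyclic group `G` with an injective character `χ` into a commutative group and
`e ∣ |G|`, the image of `g ↦ χ(g) ^ e` has order `|G| / e`. -/
theorem card_range_pow_comp {G H : Type*} [Group G] [CommGroup H] (hG : IsCyclic G)
    (χ : G →* H) (hχ : Function.Injective χ) (e : ℕ) (he0 : e ≠ 0) (he : e ∣ Nat.card G) :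
    Nat.card (((powMonoidHom e : H →* H).comp χ).range) = Nat.card G / e := by
  obtain ⟨g, hg⟩ := hG.exists_generator
  have htop : (⊤ : Subgroup G) = Subgroup.zpowers g := by
    ext x
    simp [hg x]
  rw [MonoidHom.range_eq_map, htop, MonoidHom.map_zpowers, Nat.card_zpowers]
  change orderOf ((χ g) ^ e) = _
  rw [orderOf_pow' _ he0, orderOf_injective χ hχ, orderOf_eq_card_of_forall_mem_zpowers hg,
    Nat.gcd_eq_right he]

section Setup

variable (K : Type*) [Field K] [NumberField K] {L : Type*} [Field L] [NumberField L] [Algebra K L]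
  (p : ℕ) [hp : Fact p.Prime] (s : ℕ) [hcyc : IsCyclotomicExtension {p ^ (s + 1)} K L]
  {ζ : L} (hζ : IsPrimitiveRoot ζ (p ^ (s + 1)))

/-- `σ ↦ χ(σ) ^ e`, `χ` the cyclotomic character of `K(ζ_{p^(s+1)})/K`. -/
noncomputable def chiE (e : ℕ) : Gal(L/K) →* (ZMod (p ^ (s + 1)))ˣ :=
  (powMonoidHom e : (ZMod (p ^ (s + 1)))ˣ →* (ZMod (p ^ (s + 1)))ˣ).comp (hζ.autToPow K)

theorem chiE_apply (e : ℕ) (σ : Gal(L/K)) : chiE K p s hζ e σ = (hζ.autToPow K σ) ^ e := rfl

/-- The subgroup `{σ | χ(σ) ^ e = 1}` of `Gal(K(ζ)/K)`. -/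
noncomputable def layerSub (e : ℕ) : Subgroup Gal(L/K) := (chiE K p s hζ e).ker

theorem mem_layerSub (e : ℕ) (σ : Gal(L/K)) :
    σ ∈ layerSub K p s hζ e ↔ (hζ.autToPow K σ) ^ e = 1 := Iff.rfl

instance layerSub_normal (e : ℕ) : (layerSub K p s hζ e).Normal := MonoidHom.normal_ker _

/-- The fixed field of `{σ | χ(σ) ^ e = 1}`. -/
noncomputable def layer (e : ℕ) : IntermediateField K L := fixedField (layerSub K p s hζ e)

instance layer_isGalois (e : ℕ) : IsGalois K (layer K p s hζ e) := by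
  have := CycloExists.isGalois_top K (L := L) p s
  unfold layer
  infer_instance

/-- restriction to the layer -/
noncomputable def res (e : ℕ) : Gal(L/K) →* Gal((layer K p s hζ e)/K) :=
  AlgEquiv.restrictNormalHom (layer K p s hζ e)

theorem res_surjective (e : ℕ) : Function.Surjective (res K p s hζ e) := by
  have := CycloExists.isGalois_top K (L := L) p s
  exact AlgEquiv.restrictNormalHom_surjective L

theorem res_ker (e : ℕ) : (res K p s hζ e).ker = layerSub K p s hζ e := by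
  have := CycloExists.isGalois_top K (L := L) p s
  unfold res
  rw [IntermediateField.restrictNormalHom_ker]
  exact fixingSubgroup_fixedField _

theorem layer_isCyclic (hp2 : p ≠ 2) (e : ℕ) : IsCyclic Gal((layer K p s hζ e)/K) := by
  have := CycloExists.isCyclic_top K p s hζ hp2
  exact isCyclic_of_surjective (res K p s hζ e) (res_surjective K p s hζ e)

/-- The layer cut out by `e ∣ [K(ζ):K]` has degree `[K(ζ):K] / e`. -/
theorem card_layer (hp2 : p ≠ 2) (e : ℕ) (he0 : e ≠ 0) (he : e ∣ Nat.card Gal(L/K)) :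
    Nat.card Gal((layer K p s hζ e)/K) = Nat.card Gal(L/K) / e := by
  have hcycl := CycloExists.isCyclic_top K p s hζ hp2
  have h1 : (res K p s hζ e).ker.index = Nat.card (res K p s hζ e).range :=
    Subgroup.index_ker _
  rw [MonoidHom.range_eq_top.mpr (res_surjective K p s hζ e), Subgroup.card_top] at h1
  rw [← h1, res_ker]
  unfold layerSub
  rw [Subgroup.index_ker]
  exact card_range_pow_comp hcycl (hζ.autToPow K) (hζ.autToPow_injective K) e he0 he


/-! ### 2. The degree of `K(ζ_{p^(s+1)})/K` -/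

include hcyc hζ in
/-- `p ^ m ∣ [K(ζ_{p^(s+1)}) : K]` as soon as `s ≥ m + v_p([K:ℚ])`. -/
theorem pow_dvd_card_gal (m : ℕ) (hs : m + padicValNat p (Module.finrank ℚ K) ≤ s) :
    p ^ m ∣ Nat.card Gal(L/K) := by
  have hgal := CycloExists.isGalois_top K (L := L) p s
  have hn : NeZero (p ^ (s + 1)) := ⟨pow_ne_zero _ hp.out.ne_zero⟩
  rw [IsGalois.card_aut_eq_finrank]
  have hF : IsCyclotomicExtension {p ^ (s + 1)} ℚ ℚ⟮ζ⟯ :=
    hζ.intermediateField_adjoin_isCyclotomicExtension ℚ
  have h1 : Module.finrank ℚ ℚ⟮ζ⟯ = (p ^ (s + 1)).totient :=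
    IsCyclotomicExtension.finrank ℚ⟮ζ⟯
      (Polynomial.cyclotomic.irreducible_rat (pow_pos hp.out.pos _))
  have h2 : Module.finrank ℚ ℚ⟮ζ⟯ * Module.finrank ℚ⟮ζ⟯ L = Module.finrank ℚ L :=
    Module.finrank_mul_finrank ℚ ℚ⟮ζ⟯ L
  have h3 : Module.finrank ℚ K * Module.finrank K L = Module.finrank ℚ L :=
    Module.finrank_mul_finrank ℚ K L
  have h4 : p ^ s ∣ Module.finrank ℚ K * Module.finrank K L := by
    rw [h3, ← h2, h1, Nat.totient_prime_pow_succ hp.out]
    exact Dvd.dvd.mul_right (Dvd.intro _ rfl) _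
  have hK0 : Module.finrank ℚ K ≠ 0 := Module.finrank_pos.ne'
  have hL0 : Module.finrank K L ≠ 0 := Module.finrank_pos.ne'
  rw [padicValNat_dvd_iff_le (mul_ne_zero hK0 hL0), padicValNat.mul hK0 hL0] at h4
  rw [padicValNat_dvd_iff_le hL0]
  omega

/-! ### 3. The torsion of the character acts trivially on the layers of `p`-power degree -/

include hcyc in
/-- If `[K(ζ):K] = p ^ m * e`, the prime-to-`p` part `{σ | χ(σ) ^ (p-1) = 1}` lies in
`{σ | χ(σ) ^ e = 1}`. -/
theorem torsionPart_le_layerSub (m e : ℕ) (he : Nat.card Gal(L/K) = p ^ m * e) :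
    CycloExists.torsionPart K p s hζ ≤ layerSub K p s hζ e := by
  intro σ hσ
  have h1 : (hζ.autToPow K σ) ^ (p - 1) = 1 := hσ
  rw [mem_layerSub]
  have h2 : orderOf (hζ.autToPow K σ) ∣ p - 1 := orderOf_dvd_of_pow_eq_one h1
  have h3 : orderOf (hζ.autToPow K σ) ∣ p ^ m * e := by
    rw [orderOf_injective (hζ.autToPow K) (hζ.autToPow_injective K), ← he]
    exact orderOf_dvd_natCard σ
  have hcop : Nat.Coprime (orderOf (hζ.autToPow K σ)) (p ^ m) := by
    apply Nat.Coprime.pow_right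
    apply Nat.Coprime.coprime_dvd_left h2
    have h5 : 1 ≤ p := hp.out.one_le
    have h4 : Nat.Coprime (p - 1) (p - 1 + 1) := by simp
    rwa [Nat.sub_add_cancel h5] at h4
  exact orderOf_dvd_iff_pow_eq_one.mp (hcop.dvd_of_dvd_mul_left h3)

/-- The layers of `p`-power degree lie in the `p`-part. -/
theorem layer_le_pPart (m e : ℕ) (he : Nat.card Gal(L/K) = p ^ m * e) :
    layer K p s hζ e ≤ CycloExists.pPart K p s hζ := by
  intro x hx σ
  exact hx ⟨σ.1, torsionPart_le_layerSub K p s hζ m e he σ.2⟩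

include hcyc in
/-- The exponent of an automorphism acting on the `p ^ (s+1)`-th roots of unity by `t ↦ t ^ k` is
the cyclotomic character. -/
theorem autToPow_eq_of_forall (σ : Gal(L/K)) (k : ℕ)
    (hσ : ∀ t : L, t ^ (p ^ (s + 1)) = 1 → σ t = t ^ k) :
    ((hζ.autToPow K σ : (ZMod (p ^ (s + 1)))ˣ) : ZMod (p ^ (s + 1))) = (k : ZMod (p ^ (s + 1))) := by
  have hn : NeZero (p ^ (s + 1)) := ⟨pow_ne_zero _ hp.out.ne_zero⟩
  have h1 := hζ.autToPow_spec K σ
  rw [hσ ζ hζ.pow_eq_one, pow_eq_pow_mod k hζ.pow_eq_one] at h1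
  have h3 := hζ.pow_inj (ZMod.val_lt _) (Nat.mod_lt _ (Nat.pos_of_ne_zero hn.out)) h1
  rw [← ZMod.natCast_mod k, ← h3, ZMod.natCast_zmod_val]

include hcyc in
/-- Two automorphisms whose exponents on `μ_{p^(s+1)}` agree up to sign agree on every layer of
`p`-power degree (`p` odd). -/
theorem apply_eq_of_natCast_eq_or_neg (hp2 : p ≠ 2) (m e : ℕ)
    (he : Nat.card Gal(L/K) = p ^ m * e) (σ σ' : Gal(L/K)) (k k' : ℕ)
    (hσ : ∀ t : L, t ^ (p ^ (s + 1)) = 1 → σ t = t ^ k)
    (hσ' : ∀ t : L, t ^ (p ^ (s + 1)) = 1 → σ' t = t ^ k')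
    (hk : (k : ZMod (p ^ (s + 1))) = k' ∨ (k : ZMod (p ^ (s + 1))) = -k')
    (x : L) (hx : x ∈ layer K p s hζ e) : σ x = σ' x := by
  have h1 := autToPow_eq_of_forall K p s hζ σ k hσ
  have h2 := autToPow_eq_of_forall K p s hζ σ' k' hσ'
  have hodd : Even (p - 1) := by
    have := hp.out.odd_of_ne_two hp2
    exact Nat.Prime.even_sub_one hp.out hp2
  have h3 : hζ.autToPow K σ = hζ.autToPow K σ' ∨ hζ.autToPow K σ = -hζ.autToPow K σ' := by
    rcases hk with hk | hk
    · left
      apply Units.ext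
      rw [h1, h2, hk]
    · right
      apply Units.ext
      rw [Units.val_neg, h1, h2, hk]
  have h4 : (hζ.autToPow K (σ'⁻¹ * σ)) ^ (p - 1) = 1 := by
    rw [map_mul, map_inv]
    rcases h3 with h3 | h3
    · rw [h3, inv_mul_cancel, one_pow]
    · rw [h3, mul_neg, inv_mul_cancel, hodd.neg_one_pow]
  have h5 : σ'⁻¹ * σ ∈ layerSub K p s hζ e :=
    torsionPart_le_layerSub K p s hζ m e he h4
  have h6 : (σ'⁻¹ * σ) x = x := hx ⟨_, h5⟩
  have h7 : σ' ((σ'⁻¹ * σ) x) = σ x := by
    rw [AlgEquiv.mul_apply]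
    exact AlgEquiv.apply_symm_apply σ' (σ x)
  rw [← h7, h6]

/-! ### 4. Unramified outside `p` -/

include hcyc hζ in
/-- `K(ζ_{p^(s+1)}) / K` is unramified at the primes not containing `p`. -/
theorem inertia_top_eq_bot (QL : Ideal (𝓞 L)) [hQ : QL.IsPrime] (hpQ : (p : 𝓞 L) ∉ QL) :
    QL.inertia Gal(L/K) = ⊥ := by
  have hn : NeZero (p ^ (s + 1)) := ⟨pow_ne_zero _ hp.out.ne_zero⟩
  have hpQ' : ((p ^ (s + 1) : ℕ) : 𝓞 L) ∉ QL := by
    rw [Nat.cast_pow]
    exact fun h => hpQ (hQ.mem_of_pow_mem _ h)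
  rw [Subgroup.eq_bot_iff_forall]
  intro σ hσ
  apply hζ.autToPow_injective K
  have h1 := CycloAux.inertia_apply_of_pow_eq_one QL σ hσ hn.out hpQ' hζ.pow_eq_one
  have h2 := hζ.autToPow_spec K σ
  rw [h1] at h2
  have h3 : ζ ^ (((hζ.autToPow K σ : (ZMod (p ^ (s + 1)))ˣ) : ZMod (p ^ (s + 1)))).val = ζ ^ 1 := by
    rw [h2, pow_one]
  have h4 := hζ.pow_inj (ZMod.val_lt _)
    (Nat.one_lt_pow (Nat.succ_ne_zero s) hp.out.one_lt) h3
  rw [map_one]
  apply Units.ext
  rw [Units.val_one,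
    ← ZMod.natCast_zmod_val (((hζ.autToPow K σ : (ZMod (p ^ (s + 1)))ˣ) : ZMod (p ^ (s + 1)))),
    h4, Nat.cast_one]

/-- Every layer of `K(ζ_{p^(s+1)}) / K` is unramified at the primes not containing `p`. -/
theorem inertia_layer_eq_bot (e : ℕ) (Q : Ideal (𝓞 (layer K p s hζ e))) (hQ : Q.IsPrime)
    (hQ0 : Q ≠ ⊥) (hpQ : (p : 𝓞 (layer K p s hζ e)) ∉ Q) :
    Q.inertia Gal((layer K p s hζ e)/K) = ⊥ := by
  have hgal := CycloExists.isGalois_top K (L := L) p s
  have hQmax : Q.IsMaximal := hQ.isMaximal hQ0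
  obtain ⟨QL, hQLmax, hQLover⟩ :=
    Ideal.exists_maximal_ideal_liesOver_of_isIntegral (S := 𝓞 L) Q
  have hQLp : QL.IsPrime := hQLmax.isPrime
  have hund : QL.under (𝓞 (layer K p s hζ e)) = Q := hQLover.over.symm
  have hpQL : (p : 𝓞 L) ∉ QL := by
    intro h
    apply hpQ
    rw [← hund, Ideal.under_def, Ideal.mem_comap, map_natCast]
    exact h
  rw [Subgroup.eq_bot_iff_forall]
  intro τ hτ
  have hτ' : τ ∈ (QL.under (𝓞 (layer K p s hζ e))).inertia Gal((layer K p s hζ e)/K) := by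
    rw [hund]; exact hτ
  obtain ⟨τ', hτ'res, hτ'in⟩ := Fermat.Agent.Lib.InertiaTower.exists_inertia_lift QL τ hτ'
  rw [inertia_top_eq_bot K p s hζ QL hpQL, Subgroup.mem_bot] at hτ'in
  rw [← hτ'res, hτ'in, map_one]

end Setup

/-! ### 5. The layer of exact degree `p ^ m` -/

/-- **Cyclic cyclotomic layer of exact degree `p ^ m`** over an arbitrary number field `K`
(`p` odd).  For some `s ≥ s₀` there is an intermediate field `E` of `K(ζ_{p^(s+1)})/K`, Galois and
cyclic over `K` of degree exactly `p ^ m`, such that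

* automorphisms of `K(ζ_{p^(s+1)})/K` whose exponents on `μ_{p^(s+1)}` agree up to sign agree on
  `E` (so a relation "`σ` acts on `μ_{p^(s+1)}` by `± c`" determines `σ|_E`);
* more generally every automorphism whose exponent is killed by `p - 1` is trivial on `E`;
* `E / K` is unramified at the primes not containing `p`. -/
theorem exists_cyclic_cyclotomic_exact (K : Type*) [Field K] [NumberField K] (p : ℕ)
    [hp : Fact p.Prime] (hp2 : p ≠ 2) (m s₀ : ℕ) :
    ∃ (s : ℕ) (E : IntermediateField K (CyclotomicField (p ^ (s + 1)) K)),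
      s₀ ≤ s ∧ IsGalois K E ∧ IsCyclic Gal(E/K) ∧ Nat.card Gal(E/K) = p ^ m ∧
      (∀ (σ σ' : Gal(CyclotomicField (p ^ (s + 1)) K/K)) (k k' : ℕ),
        (∀ t : CyclotomicField (p ^ (s + 1)) K, t ^ (p ^ (s + 1)) = 1 → σ t = t ^ k) →
        (∀ t : CyclotomicField (p ^ (s + 1)) K, t ^ (p ^ (s + 1)) = 1 → σ' t = t ^ k') →
        ((k : ZMod (p ^ (s + 1))) = k' ∨ (k : ZMod (p ^ (s + 1))) = -k') →
        ∀ x ∈ E, σ x = σ' x) ∧
      (∀ (σ : Gal(CyclotomicField (p ^ (s + 1)) K/K)) (k : ℕ),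
        (∀ t : CyclotomicField (p ^ (s + 1)) K, t ^ (p ^ (s + 1)) = 1 → σ t = t ^ k) →
        (k : ZMod (p ^ (s + 1))) ^ (p - 1) = 1 → ∀ x ∈ E, σ x = x) ∧
      (∀ Q : Ideal (𝓞 E), Q.IsPrime → Q ≠ ⊥ → (p : 𝓞 E) ∉ Q → Q.inertia Gal(E/K) = ⊥) := by
  classical
  set s := max s₀ (m + padicValNat p (Module.finrank ℚ K)) with hs
  have hn : NeZero (p ^ (s + 1)) := ⟨pow_ne_zero _ hp.out.ne_zero⟩
  have hζ := IsCyclotomicExtension.zeta_spec (p ^ (s + 1)) K (CyclotomicField (p ^ (s + 1)) K)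
  have hgal := CycloExists.isGalois_top K (L := CyclotomicField (p ^ (s + 1)) K) p s
  have hdvd : p ^ m ∣ Nat.card Gal(CyclotomicField (p ^ (s + 1)) K/K) :=
    pow_dvd_card_gal K p s hζ m (le_max_right _ _)
  set n := Nat.card Gal(CyclotomicField (p ^ (s + 1)) K/K) with hndef
  have hn0 : n ≠ 0 := Nat.card_pos.ne'
  have he : n = p ^ m * (n / p ^ m) := (Nat.mul_div_cancel' hdvd).symm
  have he0 : n / p ^ m ≠ 0 := by
    intro h
    rw [h, mul_zero] at he
    exact hn0 he
  refine ⟨s, layer K p s hζ (n / p ^ m), le_max_left _ _, inferInstance,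
    layer_isCyclic K p s hζ hp2 _, ?_, ?_, ?_, ?_⟩
  · rw [card_layer K p s hζ hp2 _ he0 (Nat.div_dvd_of_dvd hdvd)]
    exact Nat.div_div_self hdvd hn0
  · intro σ σ' k k' hσ hσ' hk x hx
    exact apply_eq_of_natCast_eq_or_neg K p s hζ hp2 m _ he σ σ' k k' hσ hσ' hk x hx
  · intro σ k hσ hk x hx
    have h1 := autToPow_eq_of_forall K p s hζ σ k hσ
    have h2 : (hζ.autToPow K σ) ^ (p - 1) = 1 := by
      apply Units.ext
      rw [Units.val_pow_eq_pow_val, h1, hk, Units.val_one]
    exact hx ⟨σ, torsionPart_le_layerSub K p s hζ m _ he h2⟩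
  · intro Q hQ hQ0 hpQ
    exact inertia_layer_eq_bot K p s hζ _ Q hQ hQ0 hpQ

/-! ### 6. Generic: intermediate fields of a cyclic extension -/

/-- A finite Galois extension with cyclic group has, for every `d ∣ [L:K]`, an intermediate field
`E`, Galois and cyclic over `K`, of degree `d`. -/
theorem exists_intermediate_of_dvd {K L : Type*} [Field K] [Field L] [Algebra K L]
    [FiniteDimensional K L] [IsGalois K L] (hG : IsCyclic Gal(L/K)) (d : ℕ)
    (hd : d ∣ Module.finrank K L) :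
    ∃ E : IntermediateField K L, IsGalois K E ∧ IsCyclic Gal(E/K) ∧ Nat.card Gal(E/K) = d ∧
      Module.finrank K E = d := by
  obtain ⟨g, hg⟩ := hG.exists_generator
  have hcard : Nat.card Gal(L/K) = Module.finrank K L := IsGalois.card_aut_eq_finrank K L
  have hn0 : Module.finrank K L ≠ 0 := Module.finrank_pos.ne'
  have hd0 : d ≠ 0 := by
    rintro rfl
    exact hn0 (Nat.eq_zero_of_zero_dvd hd)
  have hcomm : ∀ a b : Gal(L/K), a * b = b * a := by
    intro a b
    obtain ⟨i, rfl⟩ := Subgroup.mem_zpowers_iff.mp (hg a)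
    obtain ⟨j, rfl⟩ := Subgroup.mem_zpowers_iff.mp (hg b)
    rw [← zpow_add, ← zpow_add, add_comm]
  let H : Subgroup Gal(L/K) := Subgroup.zpowers (g ^ d)
  have hHn : H.Normal := ⟨fun a ha b => by rw [hcomm b a, mul_inv_cancel_right]; exact ha⟩
  have hHcard : Nat.card H = Module.finrank K L / d := by
    rw [Nat.card_zpowers, orderOf_pow' _ hd0, orderOf_eq_card_of_forall_mem_zpowers hg, hcard,
      Nat.gcd_eq_right hd]
  have hidx : H.index = d := by
    have h1 := H.card_mul_index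
    rw [hHcard, hcard] at h1
    have h2 : Module.finrank K L / d * d = Module.finrank K L := Nat.div_mul_cancel hd
    have h3 : Module.finrank K L / d ≠ 0 := by
      intro h
      rw [h, zero_mul] at h2
      exact hn0 h2.symm
    exact Nat.eq_of_mul_eq_mul_left (Nat.pos_of_ne_zero h3) (h1.trans h2.symm)
  have hgalE : IsGalois K (fixedField H) := IsGalois.of_fixedField_normal_subgroup H
  have hcardE : Nat.card Gal((fixedField H)/K) = d := by
    rw [← Nat.card_congr (IsGalois.normalAutEquivQuotient H).toEquiv, ← Subgroup.index_eq_card,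
      hidx]
  refine ⟨fixedField H, hgalE, ?_, hcardE, ?_⟩
  · have hq : IsCyclic (Gal(L/K) ⧸ H) :=
      isCyclic_of_surjective (QuotientGroup.mk' H) (QuotientGroup.mk'_surjective H)
    exact isCyclic_of_surjective (IsGalois.normalAutEquivQuotient H).toMonoidHom
      (IsGalois.normalAutEquivQuotient H).surjective
  · rw [← IsGalois.card_aut_eq_finrank K (fixedField H), hcardE]

end Fermat.Agent.CFT.Global.CycloExact
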