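import Fermat.Agent.CFT.Global.CycloArtin

/-!
# The two basic properties of the idelic cyclotomic character, in contract form

Self-contained statements (they do not refer to any plan file):
`chiNorm` (norm compatibility, `= CycloChar.chi_eq_of_prod_smul`) and
`chiGal` ("lands in Galois", `= CycloArtin.exists_algEquiv_chi`).
-/

set_option autoImplicit false

open scoped Fermat.Agent.CFT.Global

namespace Fermat.Agent.CFT.Global.CycloProvide

open Fermat.Agent.CFT.Global

/-- Norm compatibility of the idelic cyclotomic character. -/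
theorem chiNorm :
    ∀ (L L' : Type) [Field L] [NumberField L] [Field L'] [NumberField L'] (r e : ℕ)
      [Fact r.Prime] (G' : Type) [Group G'] [Fintype G'] [MulSemiringAction G' L']
      [FaithfulSMul G' L'] (f : L →+* L'), (∀ y : L', (∀ g : G', g • y = y) ↔ y ∈ f.range) →
      ∀ (x : ↥(finIdele L)) (b : ↥(finIdele L')),
        ideleProdMap f (x : IdeleProd L) = ∏ g : G', g • (b : IdeleProd L') →
        CycloChar.chi L r e x = CycloChar.chi L' r e b := by
  intro L L' _ _ _ _ r e _ G' _ _ _ _ f hfix x b h
  exact CycloChar.chi_eq_of_prod_smul r e f hfix x b h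

/-- The idelic cyclotomic character lands in Galois. -/
theorem chiGal :
    ∀ (L : Type) [Field L] [NumberField L] (r e : ℕ) [Fact r.Prime]
      (M : Type) [Field M] [NumberField M] [Algebra L M] [IsGalois L M] (a : ↥(finIdele L)),
      ∃ σ : M ≃ₐ[L] M, ∃ k : ℕ, (∀ t : M, t ^ (r ^ e) = 1 → σ t = t ^ k) ∧
        ((k : ZMod (r ^ e)) = ((CycloChar.chi L r e a : (ZMod (r ^ e))ˣ) : ZMod (r ^ e)) ∨
          (k : ZMod (r ^ e)) = -((CycloChar.chi L r e a : (ZMod (r ^ e))ˣ) : ZMod (r ^ e))) := by
  intro L _ _ r e _ M _ _ _ _ a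
  exact CycloArtin.exists_algEquiv_chi L r e M a

end Fermat.Agent.CFT.Global.CycloProvide
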