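/-
CFT program, layer Global, L7 (second inequality): `[L7.8]` the Frobenius substitute
`Plan.Frob` (helper13).

`frob_of_step0`: `Plan.Frob p K` from the Plan props `KummerField`, `KummerSat`, `PlaceChar`,
`PrimSum` and the statement `Step0 p` ("an element that is not a `p`-th power is not a `p`-th
power at some place outside any finite set"), which is the consequence of the first inequality.
-/
import Mathlib
import Fermat.Agent.CFT.Global.L7Plan
import Fermat.Agent.CFT.Global.L7Count

set_option autoImplicit false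

namespace Fermat.Agent.CFT.Global.L7Frob

open TensorProduct
open Fermat.Agent.CFT.Global.L7

/-! ### Generic lemmas on idempotents -/

section Idem

variable {A : Type*} [CommRing A]

/-- Distinct primitive idempotents are orthogonal. -/
theorem IsPrimIdem.mul_eq_zero_of_ne {e f : A} (he : IsPrimIdem e) (hf : IsPrimIdem f)
    (hne : e ≠ f) : e * f = 0 := by
  by_contra h
  obtain ⟨y, hy⟩ := he.2.2 f h
  have h' : f * e ≠ 0 := by rwa [mul_comm]
  obtain ⟨z, hz⟩ := hf.2.2 e h'
  have hee : e * e = e := he.1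
  have hff : f * f = f := hf.1
  have h1 : e * f = e := by
    calc e * f = (e * f * y) * f := by rw [hy]
      _ = e * (f * f) * y := by ring
      _ = e * f * y := by rw [hff]
      _ = e := hy
  have h2 : f * e = f := by
    calc f * e = (f * e * z) * e := by rw [hz]
      _ = f * (e * e) * z := by ring
      _ = f * e * z := by rw [hee]
      _ = f := hz
  exact hne (by rw [← h1, mul_comm, h2])

variable {ι : Type*}

/-- A family of pairwise orthogonal elements with sum `1` consists of idempotents. -/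
theorem idem_of_orth (s : Finset ι) (f : ι → A)
    (horth : ∀ i ∈ s, ∀ j ∈ s, i ≠ j → f i * f j = 0) (hsum : ∑ i ∈ s, f i = 1) {i : ι}
    (hi : i ∈ s) : f i * f i = f i := by
  have h1 : f i * ∑ j ∈ s, f j = f i * f i := by
    rw [Finset.mul_sum]
    refine Finset.sum_eq_single i (fun j hj hji => horth i hi j hj (Ne.symm hji)) ?_
    intro h
    exact absurd hi h
  rw [← h1, hsum, mul_one]

/-- Multiplying by an element absorbed by every factor. -/
theorem mul_prod_eq_of_absorb (t : Finset ι) (g : ι → A) (c : A)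
    (h : ∀ i ∈ t, c * g i = c) : c * ∏ i ∈ t, g i = c := by
  classical
  induction t using Finset.induction_on with
  | empty => simp
  | insert a t ha ih =>
    rw [Finset.prod_insert ha, ← mul_assoc, h a (Finset.mem_insert_self a t)]
    exact ih fun i hi => h i (Finset.mem_insert_of_mem hi)

/-- For pairwise orthogonal `f i` with sum `1`, an element is the product of its parts. -/
theorem prod_part_eq (s : Finset ι) (f : ι → A)
    (horth : ∀ i ∈ s, ∀ j ∈ s, i ≠ j → f i * f j = 0) (hsum : ∑ i ∈ s, f i = 1) (u : A) :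
    ∏ i ∈ s, (f i * u + (1 - f i)) = u := by
  classical
  have key : ∀ j ∈ s, f j * ∏ i ∈ s, (f i * u + (1 - f i)) = f j * u := by
    intro j hj
    have hjj := idem_of_orth s f horth hsum hj
    rw [← Finset.mul_prod_erase s _ hj, ← mul_assoc]
    have h1 : f j * (f j * u + (1 - f j)) = u * f j := by
      linear_combination (u - 1) * hjj
    rw [h1, mul_assoc, mul_prod_eq_of_absorb, mul_comm]
    intro i hi
    have hij : f j * f i = 0 :=
      horth j hj i (Finset.mem_of_mem_erase hi) (Ne.symm (Finset.ne_of_mem_erase hi))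
    linear_combination (u - 1) * hij
  calc ∏ i ∈ s, (f i * u + (1 - f i))
      = (∑ j ∈ s, f j) * ∏ i ∈ s, (f i * u + (1 - f i)) := by rw [hsum, one_mul]
    _ = ∑ j ∈ s, f j * u := by
        rw [Finset.sum_mul]
        exact Finset.sum_congr rfl key
    _ = u := by rw [← Finset.sum_mul, hsum, one_mul]

/-- A unit that is a `p`-th power on every part is a `p`-th power. -/
theorem exists_pow_of_parts (p : ℕ) (s : Finset ι) (f : ι → A)
    (horth : ∀ i ∈ s, ∀ j ∈ s, i ≠ j → f i * f j = 0) (hsum : ∑ i ∈ s, f i = 1) (u : Aˣ)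
    (h : ∀ i ∈ s, ∃ y : Aˣ, f i * (u : A) + (1 - f i) = ((y ^ p : Aˣ) : A)) :
    ∃ y : Aˣ, u = y ^ p := by
  classical
  choose! y hy using h
  refine ⟨∏ i ∈ s, y i, ?_⟩
  apply Units.ext
  rw [← Finset.prod_pow, Units.coe_prod, ← prod_part_eq s f horth hsum (u : A)]
  exact Finset.prod_congr rfl hy

/-- `part` commutes with ring homomorphisms. -/
theorem map_part {B : Type*} [CommRing B] (φ : A →+* B) (e : A) (he : IsIdempotentElem e)
    (he' : IsIdempotentElem (φ e)) (u : Aˣ) :
    Units.map (φ : A →* B) (part e he u) = part (φ e) he' (Units.map (φ : A →* B) u) := by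
  apply Units.ext
  simp [map_add, map_mul, map_sub]

end Idem

/-! ### Base change of the diagonal map -/

section BaseChange

variable (K F : Type) [Field K] [NumberField K] [Field F] [NumberField F] [Algebra K F]

theorem map_baseCh_loc (q : Nat.Primes) (x : Kˣ) :
    Units.map (baseCh K F q : Aq K q →* Aq F q) (loc K q x) =
      loc F q (Units.map (algebraMap K F : K →* F) x) := by
  apply Units.ext
  rfl

end BaseChange

/-! ### The statement consumed from the first inequality -/

/-- **Step 0**: in a number field `F ∋ ζ_p`, an element which is not a `p`-th power is not a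
`p`-th power in `A_q(F)` for some `q` outside any given finite set. -/
def Step0 (p : ℕ) : Prop :=
  ∀ (F : Type) [Field F] [NumberField F] (ζ : F), IsPrimitiveRoot ζ p → ∀ x : Fˣ,
    (∀ c : Fˣ, c ^ p ≠ x) → ∀ T : Finset Nat.Primes,
      ∃ q : Nat.Primes, q ∉ T ∧ ¬ ∃ y : (Aq F q)ˣ, loc F q x = y ^ p

/-! ### The core: one auxiliary field `F` in which `a` is a `p`-th power -/

section Core

variable (p : ℕ) [Fact p.Prime] (K : Type) [Field K] [NumberField K]

/-- If `a` becomes a `p`-th power in `F ⊇ K` and `x` is not a `p`-th power in `A_q(F)`, `q ∉ S`,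
then some place `(q, e)` of `K` has `a` a `p`-th power and `x` not a `p`-th power. -/
theorem frob_core (hPC : Plan.PlaceChar p K) (hPS : Plan.PrimSum K) (ζ : K)
    (hζ : IsPrimitiveRoot ζ p) (S : Finset Nat.Primes) (a x : Kˣ) (ha : a ∈ sUnits K S)
    (hx : x ∈ sUnits K S) (F : Type) [Field F] [NumberField F] [Algebra K F] (α : Fˣ)
    (hα : α ^ p = Units.map (algebraMap K F : K →* F) a) (q : Nat.Primes) (hqS : q ∉ S)
    (hqp : (q : ℕ) ≠ p)
    (hq : ¬ ∃ y : (Aq F q)ˣ, loc F q (Units.map (algebraMap K F : K →* F) x) = y ^ p) :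
    ∃ e : Aq K q, IsPrimIdem e ∧ ∃ he : IsIdempotentElem e,
      (∃ y : (Aq K q)ˣ, part e he (loc K q a) = y ^ p) ∧
        ¬ ∃ y : (Aq K q)ˣ, part e he (loc K q x) = y ^ p := by
  by_contra hcon
  have H : ∀ e : Aq K q, IsPrimIdem e → ∀ he : IsIdempotentElem e,
      (∃ y : (Aq K q)ˣ, part e he (loc K q a) = y ^ p) →
        ∃ y : (Aq K q)ˣ, part e he (loc K q x) = y ^ p := by
    intro e hep he hA
    by_contra hB
    exact hcon ⟨e, hep, he, hA, hB⟩
  apply hq
  obtain ⟨s, hs, hsum⟩ := hPS q
  set φ : Aq K q →+* Aq F q := baseCh K F q with hφ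
  have horth : ∀ e ∈ s, ∀ e' ∈ s, e ≠ e' → φ e * φ e' = 0 := by
    intro e he e' he' hne
    rw [← map_mul, IsPrimIdem.mul_eq_zero_of_ne (hs e he) (hs e' he') hne, map_zero]
  have hsum' : ∑ e ∈ s, φ e = 1 := by rw [← map_sum, hsum, map_one]
  refine exists_pow_of_parts p s (fun e => φ e) horth hsum' _ ?_
  intro e hes
  have he : IsIdempotentElem e := (hs e hes).1
  have he' : IsIdempotentElem (φ e) := by
    show φ e * φ e = φ e
    rw [← map_mul, he.eq]
  -- it suffices to show that the image of `part e (loc x)` is a `p`-th power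
  suffices hsuff : ∃ Y : (Aq F q)ˣ,
      Units.map (φ : Aq K q →* Aq F q) (part e he (loc K q x)) = Y ^ p by
    obtain ⟨Y, hY⟩ := hsuff
    refine ⟨Y, ?_⟩
    rw [← hY, map_part φ e he he', map_baseCh_loc]
    rfl
  by_cases hA : ∃ y : (Aq K q)ˣ, part e he (loc K q a) = y ^ p
  · obtain ⟨y, hy⟩ := H e (hs e hes) he hA
    exact ⟨Units.map (φ : Aq K q →* Aq F q) y, by rw [hy, map_pow]⟩
  · obtain ⟨ψ, hψ⟩ := hPC ζ hζ q hqp e (hs e hes) he
    set ua : ↥(Uq K q) := ⟨loc K q a, ha q hqS⟩ with hua
    set ux : ↥(Uq K q) := ⟨loc K q x, hx q hqS⟩ with hux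
    have hψa : ψ ua ≠ 1 := fun h1 => hA ((hψ ua).1 h1)
    obtain ⟨m, hm⟩ := exists_pow_eq_of_ne_one p hψa (ψ ux)
    have h1 : ψ (ux * (ua ^ m)⁻¹) = 1 := by
      rw [map_mul, map_inv, map_pow, hm, mul_inv_cancel]
    obtain ⟨y, hy⟩ := (hψ _).1 h1
    have hy' : part e he (loc K q x) = y ^ p * part e he (loc K q a) ^ m := by
      have h2 : ((ux * (ua ^ m)⁻¹ : ↥(Uq K q)) : (Aq K q)ˣ) = loc K q x * (loc K q a ^ m)⁻¹ := rfl
      rw [h2, map_mul, map_inv, map_pow] at hy
      rw [← hy, inv_mul_cancel_right]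
    have h3 : Units.map (φ : Aq K q →* Aq F q) (part e he (loc K q a)) =
        part (φ e) he' (loc F q α) ^ p := by
      rw [map_part φ e he he', map_baseCh_loc, ← hα, map_pow, map_pow]
    refine ⟨Units.map (φ : Aq K q →* Aq F q) y * part (φ e) he' (loc F q α) ^ m, ?_⟩
    rw [hy', map_mul, map_pow, map_pow, h3, mul_pow, ← pow_mul, ← pow_mul, mul_comm m p]

end Core

/-! ### `Plan.Frob` -/

/-- **[L7.8]** `Plan.Frob p K` from the Kummer leaves, the place leaves and `Step0`. -/
theorem frob_of_step0 (p : ℕ) (hp : p.Prime) (K : Type) [Field K] [NumberField K]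
    (hS0 : Step0 p)
    (hKF : ∀ (F : Type) [Field F] [NumberField F], Plan.KummerField p F)
    (hKS : ∀ (F N : Type) [Field F] [NumberField F] [Field N] [NumberField N] [Algebra F N]
      [FiniteDimensional F N], Plan.KummerSat p F N)
    (hPC : Plan.PlaceChar p K) (hPS : Plan.PrimSum K) : Plan.Frob p K := by
  have : Fact p.Prime := ⟨hp⟩
  intro ζ hζ S hpS a ha x hx hxa T
  have hqp : ∀ q : Nat.Primes, q ∉ S → (q : ℕ) ≠ p := by
    intro q hq hqp
    apply hq
    have : q = ⟨p, hp⟩ := Subtype.ext hqp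
    rw [this]
    exact hpS hp
  by_cases hap : ∃ c : Kˣ, c ^ p = a
  · -- `a` is a `p`-th power in `K`: take `F = K`
    obtain ⟨c₀, hc₀⟩ := hap
    have hxp : ∀ c : Kˣ, c ^ p ≠ x := fun c hc => hxa 0 c (by rw [pow_zero, one_mul, hc])
    obtain ⟨q, hqT, hq⟩ := hS0 K ζ hζ x hxp (T ∪ S)
    have hqT' : q ∉ T := fun h => hqT (Finset.mem_union_left _ h)
    have hqS : q ∉ S := fun h => hqT (Finset.mem_union_right _ h)
    have hid : ∀ u : Kˣ, Units.map (algebraMap K K : K →* K) u = u := fun u => Units.ext rfl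
    refine ⟨q, hqT', hqS, ?_⟩
    exact frob_core p K hPC hPS ζ hζ S a x ha hx K c₀ (by rw [hid, hc₀]) q hqS (hqp q hqS)
      (by rw [hid]; exact hq)
  · -- `a` is not a `p`-th power: `F = K(a^{1/p})`
    have hap' : ∀ c : Kˣ, c ^ p ≠ a := fun c hc => hap ⟨c, hc⟩
    obtain ⟨F, instF, instNF, instAlg, instFD, instGal, hcard, α, hα, hadj⟩ := hKF K ζ hζ a hap'
    have hα0 : α ≠ 0 := by
      rintro rfl
      rw [zero_pow hp.ne_zero] at hα
      exact a.ne_zero ((map_eq_zero (algebraMap K F)).1 hα.symm)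
    have hxF : ∀ c : Fˣ, c ^ p ≠ Units.map (algebraMap K F : K →* F) x := by
      intro c hc
      have hβ : ∃ β : F, β ^ p = algebraMap K F x := by
        refine ⟨(c : F), ?_⟩
        have := congrArg (fun u : Fˣ => (u : F)) hc
        simpa using this
      obtain ⟨m, c', hm⟩ := hKS K F ζ hζ hcard a α hα hadj x hβ
      exact hxa m c' hm
    have hζF : IsPrimitiveRoot (algebraMap K F ζ) p :=
      hζ.map_of_injective (algebraMap K F).injective
    obtain ⟨q, hqT, hq⟩ := hS0 F (algebraMap K F ζ) hζF _ hxF (T ∪ S)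
    have hqT' : q ∉ T := fun h => hqT (Finset.mem_union_left _ h)
    have hqS : q ∉ S := fun h => hqT (Finset.mem_union_right _ h)
    refine ⟨q, hqT', hqS, ?_⟩
    refine frob_core p K hPC hPS ζ hζ S a x ha hx F (Units.mk0 α hα0) ?_ q hqS (hqp q hqS) hq
    apply Units.ext
    rw [Units.val_pow_eq_pow_val, Units.val_mk0, hα]
    rfl

end Fermat.Agent.CFT.Global.L7Frob
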