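/-
CFT program, layer Global, L7 (second inequality): `[L7.8]` Step 0 and the final form of the
Frobenius substitute `Plan.Frob` (helper13).

* `step0_of_plan` / `step0`: `L7Frob.Step0 p` ("an element of a number field `F ∋ ζ_p` which is
  not a `p`-th power is not a `p`-th power in `A_q(F)` for some `q` outside any finite set")
  from the first inequality `Plan.FirstIneq p` and weak approximation `Plan.WeakApprox p`.
* `frob_of_plan` / `frob`: `Plan.Frob p K`.
-/
import Mathlib
import Fermat.Agent.CFT.Global.L7Plan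
import Fermat.Agent.CFT.Global.L7Frob
import Fermat.Agent.CFT.Global.L7Split
import Fermat.Agent.CFT.Global.L7PrimSum
import Fermat.Agent.CFT.Global.L7Kummer
import Fermat.Agent.CFT.Global.L7PlaceChar

set_option autoImplicit false

namespace Fermat.Agent.CFT.Global.L7FrobStep0

open TensorProduct
open Fermat.Agent.CFT.Global.L7

/-! ### Norms of base-changed elements -/

section Norm

variable (K L : Type) [Field K] [NumberField K] [Field L] [NumberField L] [Algebra K L]
  [FiniteDimensional K L]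

/-- The norm of a base-changed unit is its `#Gal`-th power. -/
theorem normq_baseCh (q : Nat.Primes) (z : (Aq K q)ˣ) :
    normq K L q (Units.map (baseCh K L q : Aq K q →* Aq L q) z) =
      Units.map (baseCh K L q : Aq K q →* Aq L q) z ^ Nat.card (L ≃ₐ[K] L) := by
  rw [normq_apply]
  have h : ∀ g : L ≃ₐ[K] L,
      Units.map ((galAct K L q g : Aq L q ≃+* Aq L q) : Aq L q →* Aq L q)
        (Units.map (baseCh K L q : Aq K q →* Aq L q) z) =
          Units.map (baseCh K L q : Aq K q →* Aq L q) z := by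
    intro g
    apply Units.ext
    exact L7Split.galAct_baseCh K L q g z
  rw [Finset.prod_congr rfl (fun g _ => h g), Finset.prod_const, Finset.card_univ,
    Nat.card_eq_fintype_card]

/-- `#Gal`-th powers are norms. -/
theorem isNormq_pow_card (q : Nat.Primes) (z : (Aq K q)ˣ) :
    IsNormq K L q (z ^ Nat.card (L ≃ₐ[K] L)) :=
  ⟨Units.map (baseCh K L q : Aq K q →* Aq L q) z, by rw [normq_baseCh, map_pow]⟩

theorem isNormq_one (q : Nat.Primes) : IsNormq K L q 1 :=
  ⟨1, by rw [map_one, map_one]⟩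

theorem isNormq_mul (q : Nat.Primes) {x y : (Aq K q)ˣ} (hx : IsNormq K L q x)
    (hy : IsNormq K L q y) : IsNormq K L q (x * y) := by
  obtain ⟨u, hu⟩ := hx
  obtain ⟨v, hv⟩ := hy
  exact ⟨u * v, by rw [map_mul, hu, hv, map_mul]⟩

theorem isNormq_inv (q : Nat.Primes) {x : (Aq K q)ˣ} (hx : IsNormq K L q x) :
    IsNormq K L q x⁻¹ := by
  obtain ⟨u, hu⟩ := hx
  exact ⟨u⁻¹, by rw [map_inv, hu, map_inv]⟩

theorem isNormq_pow (q : Nat.Primes) {x : (Aq K q)ˣ} (hx : IsNormq K L q x) (n : ℕ) :
    IsNormq K L q (x ^ n) := by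
  obtain ⟨u, hu⟩ := hx
  exact ⟨u ^ n, by rw [map_pow, hu, map_pow]⟩

end Norm

/-! ### Step 0 -/

/-- **Step 0**, hypothesis form over the Plan props. -/
theorem step0_of_plan (p : ℕ) (hFI : Plan.FirstIneq p)
    (hKF : ∀ (F : Type) [Field F] [NumberField F], Plan.KummerField p F)
    (hSN : ∀ (F N : Type) [Field F] [NumberField F] [Field N] [NumberField N] [Algebra F N]
      [FiniteDimensional F N], Plan.SplitNorm p F N)
    (hWA : ∀ (F : Type) [Field F] [NumberField F], Plan.WeakApprox p F) : L7Frob.Step0 p := by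
  intro F _ _ ζ hζ x hx T
  by_contra hcon
  have hpow : ∀ q : Nat.Primes, q ∉ T → ∃ y : (Aq F q)ˣ, loc F q x = y ^ p := by
    intro q hq
    by_contra h
    exact hcon ⟨q, hq, h⟩
  obtain ⟨N, instN, instNN, instAlg, instFD, instGal, hcard, α, hα, hadj⟩ := hKF F ζ hζ x hx
  obtain ⟨S₁, hS₁⟩ := hFI F N ⟨ζ, hζ⟩ hcard
  obtain ⟨S₂, hTS₂, hS₂⟩ := hWA F T
  apply hS₁ (S₁ ∪ S₂) Finset.subset_union_left
  intro Y hY
  obtain ⟨b, hb, z, hz, hyz⟩ := hS₂ (trunc F T Y) (trunc_mem_Jsupp F T Y)
  have hbS : b ∈ sUnits F (S₁ ∪ S₂) :=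
    fun q hq => hb q (fun h => hq (Finset.mem_union_right _ h))
  have hW : Y * (locS F (S₁ ∪ S₂) b)⁻¹ ∈ Jsupp F (S₁ ∪ S₂) ⊓ normGroup F N := by
    refine ⟨(Jsupp F (S₁ ∪ S₂)).mul_mem hY
      ((Jsupp F (S₁ ∪ S₂)).inv_mem (trunc_mem_Jsupp F _ _)), ?_⟩
    intro q
    by_cases hqT : q ∈ T
    · have hqS : q ∈ S₁ ∪ S₂ := Finset.mem_union_right _ (hTS₂ hqT)
      have h1 : (Y * (locS F (S₁ ∪ S₂) b)⁻¹) q = (z q) ^ p := by
        have h2 := congrFun hyz q
        rw [trunc_apply_of_mem F Y hqT] at h2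
        have h3 : locS F (S₁ ∪ S₂) b q = loc F q b := trunc_apply_of_mem F _ hqS
        have h4 : locS F T b q = loc F q b := trunc_apply_of_mem F _ hqT
        show Y q * (locS F (S₁ ∪ S₂) b q)⁻¹ = _
        rw [h2, h3, Pi.mul_apply, h4, Pi.pow_apply, mul_comm, ← mul_assoc, inv_mul_cancel,
          one_mul]
      rw [h1, ← hcard]
      exact isNormq_pow_card F N q (z q)
    · have h5 := hSN F N ζ hζ hcard x α hα hadj q 1 IsIdempotentElem.one
        (by
          obtain ⟨y, hy⟩ := hpow q hqT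
          exact ⟨y, by rw [L7PrimSum.part_one]; exact hy⟩)
        ((Y * (locS F (S₁ ∪ S₂) b)⁻¹) q)
      rwa [L7PrimSum.part_one] at h5
  have hYeq : Y = (Y * (locS F (S₁ ∪ S₂) b)⁻¹) * locS F (S₁ ∪ S₂) b := by
    rw [inv_mul_cancel_right]
  rw [hYeq]
  exact Subgroup.mul_mem_sup hW (Subgroup.mem_map_of_mem _ hbS)

/-- **Step 0** from the first inequality and weak approximation (`p` prime). -/
theorem step0 (p : ℕ) (hp : p.Prime) (hFI : Plan.FirstIneq p)
    (hWA : ∀ (F : Type) [Field F] [NumberField F], Plan.WeakApprox p F) : L7Frob.Step0 p :=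
  step0_of_plan p hFI (fun F _ _ => L7Kummer.kummerField p hp F)
    (fun F N _ _ _ _ _ _ => L7Split.splitNorm p F N) hWA

/-! ### `Plan.Frob` -/

/-- **[L7.8]** `Plan.Frob p K`, hypothesis form over the Plan props. -/
theorem frob_of_plan (p : ℕ) (hp : p.Prime) (K : Type) [Field K] [NumberField K]
    (hFI : Plan.FirstIneq p)
    (hKF : ∀ (F : Type) [Field F] [NumberField F], Plan.KummerField p F)
    (hKS : ∀ (F N : Type) [Field F] [NumberField F] [Field N] [NumberField N] [Algebra F N]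
      [FiniteDimensional F N], Plan.KummerSat p F N)
    (hSN : ∀ (F N : Type) [Field F] [NumberField F] [Field N] [NumberField N] [Algebra F N]
      [FiniteDimensional F N], Plan.SplitNorm p F N)
    (hWA : ∀ (F : Type) [Field F] [NumberField F], Plan.WeakApprox p F)
    (hPC : Plan.PlaceChar p K) (hPS : ∀ (F : Type) [Field F] [NumberField F], Plan.PrimSum F) :
    Plan.Frob p K :=
  L7Frob.frob_of_step0 p hp K (step0_of_plan p hFI hKF hSN hWA) hKF hKS hPC (hPS K)

/-- **[L7.8]** `Plan.Frob p K` from the first inequality and weak approximation only (all the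
other leaves are on main). -/
theorem frob (p : ℕ) (hp : p.Prime) (K : Type) [Field K] [NumberField K]
    (hFI : Plan.FirstIneq p)
    (hWA : ∀ (F : Type) [Field F] [NumberField F], Plan.WeakApprox p F) : Plan.Frob p K :=
  L7Frob.frob_of_step0 p hp K (step0 p hp hFI hWA) (fun F _ _ => L7Kummer.kummerField p hp F)
    (fun F N _ _ _ _ _ _ => L7Kummer.kummerSat p F N) (L7Place.placeCharStmt p hp K)
    (L7PrimSum.primSum K)

end Fermat.Agent.CFT.Global.L7FrobStep0
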