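/-
CFT program, layer Global: the contract `LGChase.BlockTower` ([BT]) as a theorem.

`LGChase.BlockTower` (helper45's hypothesis of `LGChase.localGlobalInj`) is a direct corollary of
the orbit descent of `Global/OrbitDescent.lean`: in a tower `(G', L')` over `(G, L)` the block of
the place below `m'` maps into the block of `m'`, and a `ker π`-invariant element of the block of
`m'` comes from the block below.
-/
import Mathlib
import Fermat.Agent.CFT.Global.LGChase
import Fermat.Agent.CFT.Global.OrbitDescent

set_option autoImplicit false

open scoped Fermat.Agent.CFT.Global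

namespace Fermat.Agent.CFT.Global.OrbitDescent

open Fermat.Agent.CFT Fermat.Agent.CFT.Global

/-- [BT] **Blocks in a tower**: the contract `LGChase.BlockTower` holds. -/
theorem blockTower : LGChase.BlockTower := by
  intro L L' G G' _ _ _ _ _ _ _ _ _ _ f π h q _ m' hm'
  refine ⟨fun x hx => (map_mem_orbitUnits_iff h q m' hm' x).2 hx, fun y hy hfix => ?_⟩
  obtain ⟨u, hu⟩ := exists_unit_of_fixed h q y
    (fun n hn => congrArg Units.val (hfix n hn))
  exact ⟨u, (map_mem_orbitUnits_iff h q m' hm' u).1 (hu ▸ hy), hu⟩

end Fermat.Agent.CFT.Global.OrbitDescent
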