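import Mathlib
import Fermat.Agent.CFT.Global.UnitNorm
import Fermat.Agent.CFT.Global.SUnitDescent
import Fermat.Agent.CFT.Global.L7Invariants
import Fermat.Agent.CFT.Global.Defs
import Fermat.Agent.CFT.Glob.UnramReduced

/-!
# The norm group of a relatively unramified extension, in divisor vocabulary

`L/K` a finite Galois extension of number fields, `q` a rational prime, raw model of
`L7Defs`/`FIDefs` (`Aq`, `Uq`, `baseCh`, `normq`) and the divisor map `QBridge.divq`.

* `RelUnram K L q` : every prime of `L` above `q` has ramification index `1` over `K`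
  (`K/ℚ` may be ramified at `q`); it follows from the triviality of the inertia groups
  (`relUnram_of_inertia`) or from `UnramAt L q` (`relUnram_of_unramAt`).
* `divq_baseCh` : `div_L(ι x)(u) = div_K(x)(u ∩ K)` for relatively unramified `L/K`;
  `divq_normq` : the divisor of a norm is the sum of the translates of the divisor.
* `exists_normq_eq` : if moreover every unit of `U_q(K)` is the norm of a unit of `U_q(L)`,
  then `x ∈ A_q(K)ˣ` is a norm from `A_q(L)ˣ` as soon as `|Stab(u)| ∣ ord_{u ∩ K}(x)` for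
  every prime `u` of `L` above `q`.
-/

set_option autoImplicit false
set_option linter.unusedSectionVars false
set_option linter.style.haveILetI false
set_option warn.classDefReducibility false

noncomputable section

namespace Fermat.Agent.CFT.Global.RelUnramNorm

open NumberField IsDedekindDomain TensorProduct
open Fermat.Agent.CFT.Global.L7 Fermat.Agent.CFT.Global.FI
open Fermat.Agent.CFT.Global.QBridge
open Fermat.Agent.CFT.Global
open Fermat.Agent.CFT.Global.SUnitLattice (primeMap)
open scoped Pointwise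

attribute [local instance] Fermat.Agent.CFT.Global.SignLattice.PM.permAction
attribute [local instance] Fermat.Agent.CFT.Global.FIDivisor.primesAction

variable (K L : Type) [Field K] [NumberField K] [Field L] [NumberField L] [Algebra K L]

/-- `L/K` is *relatively unramified above `q`*: the valuation at every prime `u` of `L` above `q`
restricts to the valuation of the prime of `K` below `u` (ramification index `1`). -/
def RelUnram (q : Nat.Primes) : Prop :=
  ∀ u : HeightOneSpectrum (𝓞 L), ((q : ℕ) : 𝓞 L) ∈ u.asIdeal → ∀ x : K,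
    u.valuation L (algebraMap K L x) = (SUnitDescent.under K u).valuation K x

/-- The prime of `K` below a prime of `L` above `q`. -/
def underOver (q : Nat.Primes) (u : PrimesOver (q : ℕ) L) : PrimesOver (q : ℕ) K :=
  ⟨SUnitDescent.under K u.1, (SUnitDescent.natCast_mem_under K u.1 (q : ℕ)).mpr u.2⟩

/-- Ramification index one gives the compatibility of the valuations. -/
theorem valuation_eq_of_ramificationIdx_eq_one (u : HeightOneSpectrum (𝓞 L))
    (h : u.asIdeal.ramificationIdx (𝓞 K) = 1) (x : K) :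
    u.valuation L (algebraMap K L x) = (SUnitDescent.under K u).valuation K x := by
  rw [← HeightOneSpectrum.valuation_liesOver L (SUnitDescent.under K u) u x,
    Ideal.ramificationIdx'_eq_ramificationIdx (SUnitDescent.under K u).asIdeal u.asIdeal
      (SUnitDescent.under K u).ne_bot, h, pow_one]

/-- If `q` is unramified in `L` (over `ℚ`), then `L/K` is relatively unramified above `q`. -/
theorem relUnram_of_unramAt (q : Nat.Primes) (hL : UnramAt L (q : ℕ)) : RelUnram K L q := by
  intro u hu x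
  apply valuation_eq_of_ramificationIdx_eq_one
  have h1 : Algebra.IsUnramifiedAt ℤ u.asIdeal :=
    (Fermat.Agent.CFT.Glob.UnramReduced.isReduced_quotient_span_iff_isUnramifiedAt L (q : ℕ)
      q.2).mp hL u.asIdeal hu
  have h2 : Algebra.IsUnramifiedAt (𝓞 K) u.asIdeal :=
    Algebra.IsUnramifiedAt.of_restrictScalars (R := ℤ) u.asIdeal
  exact Ideal.ramificationIdx_eq_one u.asIdeal (𝓞 K)

/-- If the inertia groups of the primes of `L` above `q` are trivial, then `L/K` is relatively
unramified above `q`. -/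
theorem relUnram_of_inertia [FiniteDimensional K L] [IsGalois K L] (q : Nat.Primes)
    (hI : ∀ Q : Ideal (𝓞 L), Q.IsPrime → ((q : ℕ) : 𝓞 L) ∈ Q → Q.inertia (L ≃ₐ[K] L) = ⊥) :
    RelUnram K L q := by
  intro u hu x
  apply valuation_eq_of_ramificationIdx_eq_one
  have h1 := Ideal.card_inertia_eq_ramificationIdxIn (G := L ≃ₐ[K] L)
    (SUnitDescent.under K u).asIdeal u.asIdeal
  rw [hI u.asIdeal u.isPrime hu,
    Ideal.ramificationIdxIn_eq_ramificationIdx (SUnitDescent.under K u).asIdeal u.asIdeal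
      (L ≃ₐ[K] L)] at h1
  rw [← h1]
  simp

/-- The stabiliser of a prime above `q` (action `FIDivisor.primesAction`) is the stabiliser of
its ideal for Mathlib's pointwise action. -/
theorem stabilizer_eq_stabilizer_asIdeal (q : Nat.Primes) (u : PrimesOver (q : ℕ) L) :
    MulAction.stabilizer (L ≃ₐ[K] L) u =
      MulAction.stabilizer (L ≃ₐ[K] L) (u.1.asIdeal : Ideal (𝓞 L)) := by
  ext g
  rw [MulAction.mem_stabilizer_iff, MulAction.mem_stabilizer_iff, SUnitDescent.smul_asIdeal_eq]
  constructor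
  · intro h
    have h1 := congrArg (fun w : PrimesOver (q : ℕ) L => (w : HeightOneSpectrum (𝓞 L))) h
    simp only [FIDivisor.coe_smul_primesOver] at h1
    rw [h1]
  · intro h
    apply Subtype.ext
    rw [FIDivisor.coe_smul_primesOver]
    exact HeightOneSpectrum.ext h

theorem underOver_surjective (q : Nat.Primes) : Function.Surjective (underOver K L q) := by
  intro v
  obtain ⟨w, hw⟩ := SUnitDescent.exists_under_eq (F := K) (N := L) v.1
  have hq : ((q : ℕ) : 𝓞 L) ∈ w.asIdeal := by
    rw [← SUnitDescent.natCast_mem_under K w (q : ℕ), hw]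
    exact v.2
  exact ⟨⟨w, hq⟩, Subtype.ext hw⟩

theorem underOver_smul [FiniteDimensional K L] [IsGalois K L] (q : Nat.Primes) (g : L ≃ₐ[K] L)
    (u : PrimesOver (q : ℕ) L) :
    underOver K L q (g • u) = underOver K L q u := by
  apply Subtype.ext
  show SUnitDescent.under K ((g • u : PrimesOver (q : ℕ) L) : HeightOneSpectrum (𝓞 L)) = _
  rw [FIDivisor.coe_smul_primesOver]
  exact SUnitDescent.under_primeMap K g u.1

theorem exists_smul_eq_of_underOver_eq [FiniteDimensional K L] [IsGalois K L] (q : Nat.Primes)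
    (u u' : PrimesOver (q : ℕ) L) (h : underOver K L q u = underOver K L q u') :
    ∃ g : L ≃ₐ[K] L, u' = g • u := by
  have h1 : SUnitDescent.under K u.1 = SUnitDescent.under K u'.1 := congrArg Subtype.val h
  obtain ⟨g, hg⟩ := SUnitDescent.exists_primeMap_eq_of_under_eq K u.1 u'.1 h1
  refine ⟨g, Subtype.ext ?_⟩
  rw [FIDivisor.coe_smul_primesOver]
  exact hg

/-- The base change of a principal element. -/
theorem baseCh_lamq (q : Nat.Primes) (a : Kˣ) :
    Units.map (baseCh K L q : Aq K q →* Aq L q) (lamq (q : ℕ) K a) =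
      lamq (q : ℕ) L (Units.map (algebraMap K L : K →* L) a) :=
  Units.ext rfl

theorem galAct_baseCh' (q : Nat.Primes) (g : L ≃ₐ[K] L) (z : Aq K q) :
    galAct K L q g (baseCh K L q z) = baseCh K L q z := by
  induction z using TensorProduct.induction_on with
  | zero => simp
  | tmul x c => rw [baseCh_tmul, galAct_tmul, g.commutes]
  | add x y hx hy => rw [map_add, map_add, hx, hy]

theorem actA_baseCh (q : Nat.Primes) (g : L ≃ₐ[K] L) (x : (Aq K q)ˣ) :
    actA K L q g (Units.map (baseCh K L q : Aq K q →* Aq L q) x) =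
      Units.map (baseCh K L q : Aq K q →* Aq L q) x :=
  Units.ext (galAct_baseCh' K L q g (x : Aq K q))

variable {K L} in
/-- **The divisor of a base change** (relatively unramified case):
`div_L(ι x)(u) = div_K(x)(u ∩ K)`. -/
theorem divq_baseCh {q : Nat.Primes} (h : RelUnram K L q) (x : (Aq K q)ˣ)
    (u : PrimesOver (q : ℕ) L) :
    Multiplicative.toAdd (divq (q : ℕ) L (Units.map (baseCh K L q : Aq K q →* Aq L q) x)) u =
      Multiplicative.toAdd (divq (q : ℕ) K x) (underOver K L q u) := by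
  obtain ⟨a, w, hw, hx⟩ := exists_lamq_mul x
  have hw' : Units.map (baseCh K L q : Aq K q →* Aq L q) w ∈ orderUnits (q : ℕ) L := by
    rw [← FIDivisor.Uq_eq_orderUnits, ← L7Invariants.mem_Uq_iff_baseCh, FIDivisor.Uq_eq_orderUnits]
    exact hw
  have hx' : Units.map (baseCh K L q : Aq K q →* Aq L q) x =
      lamq (q : ℕ) L (Units.map (algebraMap K L : K →* L) a) *
        Units.map (baseCh K L q : Aq K q →* Aq L q) w := by
    rw [hx, map_mul, baseCh_lamq]
  rw [divq_of_eq hw' hx' u, divq_of_eq hw hx (underOver K L q u)]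
  show -WithZero.log (u.1.valuation L (algebraMap K L (a : K))) =
    -WithZero.log ((SUnitDescent.under K u.1).valuation K (a : K))
  rw [h u.1 u.2 (a : K)]

variable [FiniteDimensional K L]

/-- The norm is fixed by the Galois action. -/
theorem actA_normq (q : Nat.Primes) (g : L ≃ₐ[K] L) (z : (Aq L q)ˣ) :
    actA K L q g (normq K L q z) = normq K L q z := by
  rw [normq_eq_prod, map_prod]
  refine Fintype.prod_equiv (Equiv.mulLeft g) _ _ (fun h => ?_)
  show actA K L q g (actA K L q h z) = actA K L q (g * h) z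
  rw [map_mul]
  rfl

/-- The divisor of a norm is the sum of the translates of the divisor. -/
theorem divq_normq (q : Nat.Primes) (y : (Aq L q)ˣ) :
    (Multiplicative.toAdd (divq (q : ℕ) L (normq K L q y)) : PrimesOver (q : ℕ) L → ℤ) =
      ∑ g : L ≃ₐ[K] L, g • (Multiplicative.toAdd (divq (q : ℕ) L y) : PrimesOver (q : ℕ) L → ℤ) := by
  rw [normq_eq_prod, map_prod, toAdd_prod]
  exact Finset.sum_congr rfl fun g _ => UnitNorm.divq_actA K L q g y

variable [IsGalois K L]

open Classical in
/-- The sum of the translates of the basis vector at `u₀` is `|Stab(u₀)|` on the primes above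
`u₀ ∩ K` and `0` elsewhere. -/
theorem sum_smul_single (q : Nat.Primes) (u₀ u : PrimesOver (q : ℕ) L) :
    (∑ g : L ≃ₐ[K] L, g • (Pi.single u₀ (1 : ℤ) : PrimesOver (q : ℕ) L → ℤ)) u =
      if underOver K L q u = underOver K L q u₀ then
        (Nat.card (MulAction.stabilizer (L ≃ₐ[K] L) u₀) : ℤ) else 0 := by
  classical
  rw [Finset.sum_apply]
  have hterm : ∀ g : L ≃ₐ[K] L,
      (g • (Pi.single u₀ (1 : ℤ) : PrimesOver (q : ℕ) L → ℤ)) u =
        if g⁻¹ • u = u₀ then 1 else 0 := by
    intro g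
    rw [SignLattice.PM.smul_apply, Pi.single_apply]
  simp_rw [hterm]
  split_ifs with hu
  · obtain ⟨g₀, hg₀⟩ := exists_smul_eq_of_underOver_eq K L q u₀ u hu.symm
    rw [← Equiv.sum_comp (Equiv.mulLeft g₀)]
    have h2 : ∀ k : L ≃ₐ[K] L, ((Equiv.mulLeft g₀ k)⁻¹ • u = u₀) ↔
        k ∈ MulAction.stabilizer (L ≃ₐ[K] L) u₀ := by
      intro k
      rw [Equiv.coe_mulLeft, hg₀, mul_inv_rev, mul_smul, inv_smul_smul, MulAction.mem_stabilizer_iff,
        inv_smul_eq_iff, eq_comm]
    simp_rw [h2]
    rw [Finset.sum_boole, Nat.card_eq_fintype_card, Fintype.card_subtype]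
  · refine Finset.sum_eq_zero fun g _ => ?_
    rw [if_neg]
    intro hg
    apply hu
    rw [← hg, underOver_smul]

variable {K L}

theorem toAdd_divq_mul {q : ℕ} [Fact q.Prime] {F : Type} [Field F] [NumberField F]
    (x y : (F ⊗[ℚ] ℚ_[q])ˣ) :
    Multiplicative.toAdd (divq q F (x * y)) =
      Multiplicative.toAdd (divq q F x) + Multiplicative.toAdd (divq q F y) := by
  rw [map_mul, toAdd_mul]

theorem toAdd_divq_inv {q : ℕ} [Fact q.Prime] {F : Type} [Field F] [NumberField F]
    (x : (F ⊗[ℚ] ℚ_[q])ˣ) :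
    Multiplicative.toAdd (divq q F x⁻¹) = -Multiplicative.toAdd (divq q F x) := by
  rw [map_inv, toAdd_inv]

theorem toAdd_divq_pow {q : ℕ} [Fact q.Prime] {F : Type} [Field F] [NumberField F]
    (x : (F ⊗[ℚ] ℚ_[q])ˣ) (n : ℕ) :
    Multiplicative.toAdd (divq q F (x ^ n)) = n • Multiplicative.toAdd (divq q F x) := by
  rw [map_pow, toAdd_pow]

theorem toAdd_divq_zpow {q : ℕ} [Fact q.Prime] {F : Type} [Field F] [NumberField F]
    (x : (F ⊗[ℚ] ℚ_[q])ˣ) (n : ℤ) :
    Multiplicative.toAdd (divq q F (x ^ n)) = n • Multiplicative.toAdd (divq q F x) := by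
  rw [map_zpow, toAdd_zpow]

theorem toAdd_divq_prod {q : ℕ} [Fact q.Prime] {F : Type} [Field F] [NumberField F]
    {ι : Type} (s : Finset ι) (f : ι → (F ⊗[ℚ] ℚ_[q])ˣ) :
    Multiplicative.toAdd (divq q F (∏ i ∈ s, f i)) =
      ∑ i ∈ s, Multiplicative.toAdd (divq q F (f i)) := by
  rw [map_prod, toAdd_prod]

open Classical in
/-- **Uniformizer step.**  If `π ∈ A_q(K)ˣ` has divisor the prime `v = u₀ ∩ K`, then
`ι(π ^ f)`, `f = |Stab(u₀)|`, is a norm from `A_q(L)ˣ`. -/
theorem exists_normq_eq_pow {q : Nat.Primes} (h : RelUnram K L q)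
    (hH0 : ∀ ε ∈ Uq K q, ∃ y ∈ Uq L q,
      normq K L q y = Units.map (baseCh K L q : Aq K q →* Aq L q) ε)
    (u₀ : PrimesOver (q : ℕ) L) (π : (Aq K q)ˣ)
    (hπ : ∀ v, Multiplicative.toAdd (divq (q : ℕ) K π) v =
      if v = underOver K L q u₀ then 1 else 0) :
    ∃ y : (Aq L q)ˣ, normq K L q y = Units.map (baseCh K L q : Aq K q →* Aq L q)
      (π ^ Nat.card (MulAction.stabilizer (L ≃ₐ[K] L) u₀)) := by
  classical
  obtain ⟨z, hz⟩ := divq_surjective (q := (q : ℕ)) (L := L)
    (Multiplicative.ofAdd (Pi.single u₀ (1 : ℤ)))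
  have hz' : (Multiplicative.toAdd (divq (q : ℕ) L z) : PrimesOver (q : ℕ) L → ℤ) =
      Pi.single u₀ 1 := by rw [hz]; rfl
  set f := Nat.card (MulAction.stabilizer (L ≃ₐ[K] L) u₀) with hf
  set B := Units.map (baseCh K L q : Aq K q →* Aq L q) (π ^ f) with hB
  set ε := normq K L q z * B⁻¹ with hεdef
  have hε : ε ∈ orderUnits (q : ℕ) L := by
    rw [← divq_eq_one_iff]
    apply Multiplicative.toAdd.injective
    funext u
    rw [hεdef, toAdd_divq_mul, toAdd_divq_inv, Pi.add_apply, Pi.neg_apply, divq_normq, hz',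
      sum_smul_single, hB, divq_baseCh h, toAdd_divq_pow, Pi.smul_apply, hπ, ← hf]
    show _ = (0 : ℤ)
    split_ifs <;> simp
  have hinv : ∀ g : L ≃ₐ[K] L, actA K L q g ε = ε := by
    intro g
    rw [hεdef, map_mul, map_inv, actA_normq, hB, actA_baseCh]
  obtain ⟨εK, hεK⟩ := L7Invariants.exists_units_baseCh_eq K L q ε hinv
  have hεK' : εK ∈ Uq K q := by
    rw [L7Invariants.mem_Uq_iff_baseCh K L q εK, hεK, FIDivisor.Uq_eq_orderUnits]
    exact hε
  obtain ⟨y', -, hN⟩ := hH0 εK hεK'
  refine ⟨z * y'⁻¹, ?_⟩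
  rw [map_mul, map_inv, hN, hεK, hεdef, mul_inv_rev, inv_inv, mul_comm B, mul_inv_cancel_left]

/-- **The norm group of a relatively unramified extension** (sufficiency): if `L/K` is
relatively unramified above `q`, every unit of `U_q(K)` is the norm of a unit, and
`|Stab(u)| ∣ ord_{u ∩ K}(x)` for every prime `u` of `L` above `q`, then `x ∈ A_q(K)ˣ` is a norm
from `A_q(L)ˣ`. -/
theorem exists_normq_eq {q : Nat.Primes} (h : RelUnram K L q)
    (hH0 : ∀ ε ∈ Uq K q, ∃ y ∈ Uq L q,
      normq K L q y = Units.map (baseCh K L q : Aq K q →* Aq L q) ε)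
    (x : (Aq K q)ˣ)
    (hx : ∀ u : PrimesOver (q : ℕ) L, (Nat.card (MulAction.stabilizer (L ≃ₐ[K] L) u) : ℤ) ∣
      Multiplicative.toAdd (divq (q : ℕ) K x) (underOver K L q u)) :
    ∃ y : (Aq L q)ˣ, normq K L q y = Units.map (baseCh K L q : Aq K q →* Aq L q) x := by
  classical
  letI : Fintype (PrimesOver (q : ℕ) K) := Fintype.ofFinite _
  choose sec hsec using underOver_surjective K L q
  have hπ : ∀ v : PrimesOver (q : ℕ) K, ∃ π : (Aq K q)ˣ,
      (Multiplicative.toAdd (divq (q : ℕ) K π) : PrimesOver (q : ℕ) K → ℤ) = Pi.single v 1 := by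
    intro v
    obtain ⟨π, hπ⟩ := divq_surjective (q := (q : ℕ)) (L := K)
      (Multiplicative.ofAdd (Pi.single v (1 : ℤ)))
    exact ⟨π, by rw [hπ]; rfl⟩
  choose π hπ using hπ
  set f : PrimesOver (q : ℕ) K → ℕ := fun v =>
    Nat.card (MulAction.stabilizer (L ≃ₐ[K] L) (sec v)) with hf
  have hy : ∀ v : PrimesOver (q : ℕ) K, ∃ y : (Aq L q)ˣ,
      normq K L q y = Units.map (baseCh K L q : Aq K q →* Aq L q) (π v ^ f v) := by
    intro v
    refine exists_normq_eq_pow h hH0 (sec v) (π v) (fun v' => ?_)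
    rw [hπ v, Pi.single_apply, hsec v]
  choose y hy using hy
  have hn : ∀ v : PrimesOver (q : ℕ) K, ∃ n : ℤ,
      Multiplicative.toAdd (divq (q : ℕ) K x) v = (f v : ℤ) * n := by
    intro v
    have := hx (sec v)
    rw [hsec v] at this
    exact this
  choose n hn using hn
  set x' := x * (∏ v, (π v ^ f v) ^ n v)⁻¹ with hx'def
  have hx' : x' ∈ Uq K q := by
    rw [FIDivisor.Uq_eq_orderUnits, ← divq_eq_one_iff]
    apply Multiplicative.toAdd.injective
    funext v₀
    rw [hx'def, toAdd_divq_mul, toAdd_divq_inv, toAdd_divq_prod, Pi.add_apply, Pi.neg_apply,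
      Finset.sum_apply]
    have h1 : ∀ v, Multiplicative.toAdd (divq (q : ℕ) K ((π v ^ f v) ^ n v)) v₀ =
        if v₀ = v then (f v : ℤ) * n v else 0 := by
      intro v
      rw [toAdd_divq_zpow, toAdd_divq_pow, hπ v, Pi.smul_apply, Pi.smul_apply, Pi.single_apply]
      split_ifs <;> simp [mul_comm]
    simp_rw [h1]
    rw [Finset.sum_ite_eq Finset.univ v₀, if_pos (Finset.mem_univ v₀), hn v₀]
    show _ = (0 : ℤ)
    ring
  obtain ⟨y'', -, hN⟩ := hH0 x' hx'
  refine ⟨y'' * ∏ v, y v ^ n v, ?_⟩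
  rw [map_mul, hN, map_prod]
  simp_rw [map_zpow, hy]
  rw [← Finset.prod_congr rfl (fun v _ => (map_zpow (Units.map (baseCh K L q : Aq K q →* Aq L q))
    (π v ^ f v) (n v))), ← map_prod, ← map_mul, hx'def, inv_mul_cancel_right]

/-- `exists_normq_eq` with the stabilisers of the prime ideals (Mathlib's pointwise action). -/
theorem exists_normq_eq' {q : Nat.Primes} (h : RelUnram K L q)
    (hH0 : ∀ ε ∈ Uq K q, ∃ y ∈ Uq L q,
      normq K L q y = Units.map (baseCh K L q : Aq K q →* Aq L q) ε)
    (x : (Aq K q)ˣ)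
    (hx : ∀ u : PrimesOver (q : ℕ) L,
      (Nat.card (MulAction.stabilizer (L ≃ₐ[K] L) (u.1.asIdeal : Ideal (𝓞 L))) : ℤ) ∣
        Multiplicative.toAdd (divq (q : ℕ) K x) (underOver K L q u)) :
    ∃ y : (Aq L q)ˣ, normq K L q y = Units.map (baseCh K L q : Aq K q →* Aq L q) x := by
  refine exists_normq_eq h hH0 x (fun u => ?_)
  rw [stabilizer_eq_stabilizer_asIdeal]
  exact hx u

end Fermat.Agent.CFT.Global.RelUnramNorm
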