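import Mathlib
import Fermat.Agent.CFT.Global.LocUnitsRaw
import Fermat.Agent.CFT.Global.RelUnramNorm
import Fermat.Agent.CFT.Global.FirstIneq
import Fermat.Agent.CFT.Local.UnitsCoh

/-!
# Class field theory program (P3), global layer: local units of a relatively unramified
cyclic extension are norms

`L/K` a finite Galois extension of number fields, `q` a rational prime such that `L/K` is
relatively unramified above `q` (`RelUnramNorm.RelUnram K L q`; `K/ℚ` may be ramified at `q`).
Raw vocabulary of `L7Defs`/`FIDefs` (`Aq`, `Uq`, `baseCh`, `normq`, `actA`).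

* `exists_loc_div_mem_Uq_rel` : if `b ∈ A_q(L)ˣ` has `g b / b ∈ U_q(L)` for all `g ∈ Gal(L/K)`,
  then `b ∈ Kˣ · U_q(L)` (invariant divisors descend);
* `isZero_H1_localUnitsRep_rel` : `H¹(Gal(L/K), U_q(L)) = 0`;
* `h0_localUnits_rel` : for `L/K` cyclic, `|Ĥ⁰(Gal(L/K), U_q(L))| = 1`;
* `exists_unit_normq_eq` : for `L/K` cyclic, every unit of `U_q(K)` is the norm of a unit of
  `U_q(L)` (the hypothesis `hH0` of `RelUnramNorm.exists_normq_eq`);
* `exists_normq_eq_of_dvd` : for `L/K` cyclic and relatively unramified above `q`,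
  `x ∈ A_q(K)ˣ` is a norm from `A_q(L)ˣ` as soon as `|Stab(u)| ∣ ord_{u ∩ K}(x)` for every
  prime `u` of `L` above `q`.
-/

set_option autoImplicit false
set_option linter.unusedSectionVars false
set_option linter.style.haveILetI false
set_option warn.classDefReducibility false

open scoped TensorProduct
open scoped Fermat.Agent.CFT.Global

noncomputable section

namespace Fermat.Agent.CFT.Global.RelUnitsNorm

open NumberField IsDedekindDomain HeightOneSpectrum
open Fermat.Agent.CFT.Global Fermat.Agent.CFT.Herbrand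
open Fermat.Agent.CFT.Global.QBridge Fermat.Agent.CFT.Global.SUnitDescent
open Fermat.Agent.CFT.Global.L7 Fermat.Agent.CFT.Global.FI
open Fermat.Agent.CFT.Global.RelUnramNorm

/-! ## Generic: from the descent of invariant divisors to `H¹ = 0` and `Ĥ⁰ = 0` -/

section Generic

variable (G L : Type) [Group G] [Fintype G] [Field L] [NumberField L] [MulSemiringAction G L]
  [FaithfulSMul G L]

/-- `H¹(G, U_q(L)) = 0` as soon as every `b ∈ A_q(L)ˣ` with `g b / b ∈ U_q(L)` for all `g` is the
product of a `G`-fixed element and a unit. -/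
theorem isZero_H1_localUnitsRep_of (q : ℕ) [Fact q.Prime]
    (hdesc : ∀ b : (SemiLocal L q)ˣ, (∀ g : G, g • b / b ∈ localUnits L q) →
      ∃ a : (SemiLocal L q)ˣ, (∀ g : G, g • a = a) ∧ b / a ∈ localUnits L q) :
    CategoryTheory.Limits.IsZero (groupCohomology (localUnitsRep G L q) 1) := by
  apply IdeleH1.isZero_H1_of_forall
  intro f hf
  let c : G → (SemiLocal L q)ˣ := fun g => Additive.toMul (f g).1
  have hc : ∀ g, c g ∈ localUnits L q := fun g => (f g).2
  have hcoc : ∀ g h : G, c (g * h) = g • c h * c g := fun g h =>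
    congrArg (fun z : ↥(addSub (localUnits L q)) => (Additive.toMul z.1 : (SemiLocal L q)ˣ))
      (hf g h)
  have hloc : ∃ b : (SemiLocal L q)ˣ, ∀ g : G, g • b / b = c g := by
    obtain ⟨y, hy⟩ := ClassDescentS.exists_of_isZero_H1 (localRep G L q)
      (IdeleH1.isZero_H1_localRep G L q) (fun g => Additive.ofMul (c g))
      (fun g h => congrArg Additive.ofMul (hcoc g h))
    exact ⟨Additive.toMul y, fun g => hy g⟩
  obtain ⟨b, hb⟩ := hloc
  obtain ⟨a, hafix, hadiv⟩ := hdesc b (fun g => by rw [hb]; exact hc g)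
  refine ⟨⟨Additive.ofMul (b / a), hadiv⟩, fun g => ?_⟩
  apply Subtype.ext
  show Additive.ofMul (g • (b / a) / (b / a)) = Additive.ofMul (c g)
  congr 1
  rw [smul_div', hafix, div_div_div_cancel_right, hb]

/-- For a cyclic Galois pair with `H¹(G, U_q(L)) = 0`: `|Ĥ⁻¹(G, U_q(L))| = 1`. -/
theorem hm1_localUnits_of_isZero [IsCyclic G] (q : ℕ) [Fact q.Prime]
    (hz : CategoryTheory.Limits.IsZero (groupCohomology (localUnitsRep G L q) 1)) :
    hm1 (ofRepresentation (localUnitsRep G L q).ρ) = 1 := by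
  obtain ⟨g, hg⟩ := IsCyclic.exists_generator (α := G)
  rw [hm1, AddSubgroup.relIndex_eq_one]
  intro a ha
  have ha' : (localUnitsRep G L q).ρ.norm a = 0 := by
    rw [AddMonoidHom.mem_ker, nEnd_apply] at ha
    rw [Representation.norm, LinearMap.sum_apply]
    exact ha
  obtain ⟨b, hb⟩ := LocUnitsRaw.exists_sub_of_norm_eq_zero (localUnitsRep G L q) g hg hz a ha'
  have hmem : a ∈ (dEnd (ofRepresentation (localUnitsRep G L q).ρ) g).range := ⟨b, hb⟩
  exact (le_iSup (fun g : G => (dEnd (ofRepresentation (localUnitsRep G L q).ρ) g).range) g) hmem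

/-- For a cyclic Galois pair with `H¹(G, U_q(L)) = 0`: `|Ĥ⁰(G, U_q(L))| = 1`. -/
theorem h0_localUnits_of_isZero [IsCyclic G] (q : ℕ) [Fact q.Prime]
    (hz : CategoryTheory.Limits.IsZero (groupCohomology (localUnitsRep G L q) 1)) :
    h0 (ofRepresentation (localUnitsRep G L q).ρ) = 1 := by
  obtain ⟨hfin, hherb⟩ := LocUnitsHerbrand.locUnitsHerbrand G L q
  have h1 := hm1_localUnits_of_isZero G L q hz
  rw [herbrand, h1, Nat.cast_one, div_one] at hherb
  exact_mod_cast hherb

/-- For a cyclic Galois pair with `H¹(G, U_q(L)) = 0`, every `G`-invariant local unit is the norm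
of a local unit. -/
theorem exists_prod_smul_eq_of_isZero [IsCyclic G] (q : ℕ) [Fact q.Prime]
    (hz : CategoryTheory.Limits.IsZero (groupCohomology (localUnitsRep G L q) 1))
    (u : (SemiLocal L q)ˣ) (hu : u ∈ localUnits L q) (hfix : ∀ g : G, g • u = u) :
    ∃ w ∈ localUnits L q, ∏ g : G, g • w = u :=
  (Fermat.Agent.CFT.Local.UnitsCoh.h0_subRep_eq_one_iff (G := G) (localUnits L q)
    (fun g _ hx => smul_mem_localUnits G L q g hx)).mp (h0_localUnits_of_isZero G L q hz)
    u hu hfix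

end Generic

/-! ## Relatively unramified extensions -/

section Relative

variable (K L : Type) [Field K] [NumberField K] [Field L] [NumberField L] [Algebra K L]

/-- For `L/K` relatively unramified above `q`, the order at a prime `w` of `L` above `q` of an
element of `K` is its order at the prime of `K` below `w`. -/
theorem ordZ_algebraMap_rel {q : Nat.Primes} (h : RelUnram K L q)
    (w : HeightOneSpectrum (𝓞 L)) (hw : ((q : ℕ) : 𝓞 L) ∈ w.asIdeal) (a : Kˣ) :
    ordZ w (Units.map (algebraMap K L : K →* L) a) = ordZ (under K w) a := by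
  show -WithZero.log (w.valuation L (algebraMap K L (a : K))) = _
  rw [h w hw (a : K)]
  rfl

attribute [local instance] Fermat.Agent.CFT.Global.SignLattice.PM.permAction
attribute [local instance] Fermat.Agent.CFT.Global.FIDivisor.primesAction

variable [IsGalois K L] [FiniteDimensional K L]

/-- **Invariant divisors descend along a relatively unramified extension**: if `b ∈ A_q(L)ˣ` has
`g b / b ∈ U_q(L)` for all `g ∈ Gal(L/K)` and `L/K` is relatively unramified above `q`, then
`b ∈ Kˣ · U_q(L)`. -/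
theorem exists_loc_div_mem_Uq_rel {q : Nat.Primes} (h : RelUnram K L q)
    (b : (Aq L q)ˣ) (hb : ∀ g : L ≃ₐ[K] L, actA K L q g b / b ∈ Uq L q) :
    ∃ a : Kˣ, b / loc L q (Units.map (algebraMap K L : K →* L) a) ∈ Uq L q := by
  classical
  set D : PrimesOver (q : ℕ) L → ℤ := Multiplicative.toAdd (divq (q : ℕ) L b) with hD
  -- the divisor of `b` is invariant
  have hinv : ∀ (g : L ≃ₐ[K] L) (w : PrimesOver (q : ℕ) L), D (g • w) = D w := by
    intro g w
    have h1 : divq (q : ℕ) L (actA K L q g⁻¹ b) = divq (q : ℕ) L b := by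
      have h := hb g⁻¹
      rw [FIDivisor.Uq_eq_orderUnits, ← divq_eq_one_iff, map_div, div_eq_one] at h
      exact h
    have h2 := UnitNorm.divq_actA K L q g⁻¹ b
    rw [h1] at h2
    have h3 := congrFun h2 w
    rw [SignLattice.PM.smul_apply, inv_inv] at h3
    exact h3.symm
  -- a prime of `L` above each prime of `K`
  choose wv hwv using fun v : HeightOneSpectrum (𝓞 K) => exists_under_eq K (N := L) v
  let n : HeightOneSpectrum (𝓞 K) → ℤ := fun v =>
    if h : ((q : ℕ) : 𝓞 L) ∈ (wv v).asIdeal then D ⟨wv v, h⟩ else 0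
  obtain ⟨a, ha⟩ := exists_ordZ_eq (finite_setOf_natCast_mem (q : ℕ) K).toFinset n
  refine ⟨a, ?_⟩
  rw [FIDivisor.Uq_eq_orderUnits, ← divq_eq_one_iff, map_div, div_eq_one]
  apply Multiplicative.toAdd.injective
  funext w
  have e1 : Multiplicative.toAdd
      (divq (q : ℕ) L (loc L q (Units.map (algebraMap K L : K →* L) a))) w =
        ordZ w.1 (Units.map (algebraMap K L : K →* L) a) := divq_lamq _ w
  rw [e1, ordZ_algebraMap_rel K L h w.1 w.2 a]
  have hqv : ((q : ℕ) : 𝓞 K) ∈ (under K w.1).asIdeal := (natCast_mem_under K w.1 q).mpr w.2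
  rw [ha (under K w.1) ((Set.Finite.mem_toFinset _).mpr hqv)]
  have hq' : ((q : ℕ) : 𝓞 L) ∈ (wv (under K w.1)).asIdeal :=
    (natCast_mem_under K _ q).mp (by rw [hwv]; exact hqv)
  have hn : n (under K w.1) = D ⟨wv (under K w.1), hq'⟩ := dif_pos hq'
  rw [hn]
  obtain ⟨g, hg⟩ := exists_primeMap_eq_of_under_eq K (wv (under K w.1)) w.1 (hwv _)
  have hw : w = g • (⟨wv (under K w.1), hq'⟩ : PrimesOver (q : ℕ) L) :=
    Subtype.ext (by rw [FIDivisor.coe_smul_primesOver]; exact hg)
  calc Multiplicative.toAdd (divq (q : ℕ) L b) w = D w := rfl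
    _ = D (g • (⟨wv (under K w.1), hq'⟩ : PrimesOver (q : ℕ) L)) := congrArg D hw
    _ = D ⟨wv (under K w.1), hq'⟩ := hinv g _

/-! ### The Galois group `Gal(L/K)` as a Galois pair -/

/-- The action of `Gal(L/K)` on `L ⊗[ℚ] ℚ_[q]` (Galois pair vocabulary) is `L7.galAct`. -/
theorem smul_eq_galAct (q : Nat.Primes) (g : L ≃ₐ[K] L) (x : SemiLocal L (q : ℕ)) :
    g • x = L7.galAct K L q g x := by
  induction x using TensorProduct.induction_on with
  | zero => simp
  | tmul a b => rfl
  | add x y hx hy => rw [smul_add, map_add, hx, hy]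

theorem smul_units_eq (q : Nat.Primes) (g : L ≃ₐ[K] L) (y : (SemiLocal L (q : ℕ))ˣ) :
    g • y = actA K L q g y := by
  apply Units.ext
  rw [coe_smul_units]
  exact smul_eq_galAct K L q g y

/-- The norm `∏ g, g • y` of the Galois pair `(Gal(L/K), L)` is `L7.normq`. -/
theorem prod_smul_eq_normq (q : Nat.Primes) (y : (SemiLocal L (q : ℕ))ˣ) :
    ∏ g : L ≃ₐ[K] L, g • y = normq K L q y := by
  rw [normq_eq_prod]
  exact Finset.prod_congr rfl (fun g _ => smul_units_eq K L q g y)

/-- **`H¹(Gal(L/K), U_q(L)) = 0`** for `L/K` relatively unramified above `q`. -/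
theorem isZero_H1_localUnitsRep_rel (q : Nat.Primes) (h : RelUnram K L q) :
    haveI : Fact (q : ℕ).Prime := ⟨q.2⟩
    CategoryTheory.Limits.IsZero (groupCohomology (localUnitsRep (L ≃ₐ[K] L) L (q : ℕ)) 1) := by
  haveI : Fact (q : ℕ).Prime := ⟨q.2⟩
  apply isZero_H1_localUnitsRep_of
  intro b hb
  obtain ⟨a, ha⟩ := exists_loc_div_mem_Uq_rel K L h b (fun g => by
    have h' := hb g
    rw [smul_units_eq K L q g b] at h'
    exact h')
  refine ⟨L7.loc L q (Units.map (algebraMap K L : K →* L) a), fun g => ?_, ha⟩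
  apply Units.ext
  show g • ((algebraMap K L (a : K)) ⊗ₜ[ℚ] (1 : ℚ_[(q : ℕ)]) : SemiLocal L (q : ℕ)) = _
  rw [smul_tmul_eq]
  show (g (algebraMap K L (a : K))) ⊗ₜ[ℚ] (1 : ℚ_[(q : ℕ)]) = _
  rw [g.commutes]
  rfl

/-- For `L/K` cyclic and relatively unramified above `q`: `|Ĥ⁰(Gal(L/K), U_q(L))| = 1`. -/
theorem h0_localUnits_rel [IsCyclic (L ≃ₐ[K] L)] (q : Nat.Primes) (h : RelUnram K L q) :
    haveI : Fact (q : ℕ).Prime := ⟨q.2⟩
    h0 (ofRepresentation (localUnitsRep (L ≃ₐ[K] L) L (q : ℕ)).ρ) = 1 := by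
  haveI : Fact (q : ℕ).Prime := ⟨q.2⟩
  exact h0_localUnits_of_isZero (L ≃ₐ[K] L) L (q : ℕ) (isZero_H1_localUnitsRep_rel K L q h)

/-- **Units are norms of units** along a cyclic extension `L/K` relatively unramified above `q`:
every `ε ∈ U_q(K)` is the norm of some `y ∈ U_q(L)`. -/
theorem exists_unit_normq_eq [IsCyclic (L ≃ₐ[K] L)] {q : Nat.Primes} (h : RelUnram K L q) :
    ∀ ε ∈ Uq K q, ∃ y ∈ Uq L q,
      normq K L q y = Units.map (baseCh K L q : Aq K q →* Aq L q) ε := by
  haveI : Fact (q : ℕ).Prime := ⟨q.2⟩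
  intro ε hε
  obtain ⟨w, hw, hwu⟩ := exists_prod_smul_eq_of_isZero (L ≃ₐ[K] L) L (q : ℕ)
    (isZero_H1_localUnitsRep_rel K L q h)
    (Units.map (baseCh K L q : Aq K q →* Aq L q) ε) (baseCh_mem_Uq K L q ε hε)
    (fun g => by rw [smul_units_eq K L q g]; exact actA_baseCh K L q g ε)
  exact ⟨w, hw, by rw [← prod_smul_eq_normq K L q w]; exact hwu⟩

/-- **The norm group of a cyclic extension relatively unramified above `q`**: `x ∈ A_q(K)ˣ` is a
norm from `A_q(L)ˣ` as soon as `|Stab(u)| ∣ ord_{u ∩ K}(x)` for every prime `u` of `L` above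
`q` (`RelUnramNorm.exists_normq_eq`, unconditionally). -/
theorem exists_normq_eq_of_dvd [IsCyclic (L ≃ₐ[K] L)] {q : Nat.Primes} (h : RelUnram K L q)
    (x : (Aq K q)ˣ)
    (hx : ∀ u : PrimesOver (q : ℕ) L, (Nat.card (MulAction.stabilizer (L ≃ₐ[K] L) u) : ℤ) ∣
      Multiplicative.toAdd (divq (q : ℕ) K x) (underOver K L q u)) :
    ∃ y : (Aq L q)ˣ, normq K L q y = Units.map (baseCh K L q : Aq K q →* Aq L q) x :=
  exists_normq_eq h (exists_unit_normq_eq K L h) x hx

end Relative

end Fermat.Agent.CFT.Global.RelUnitsNorm
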