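import Mathlib
import Fermat.Agent.CFT.Global.RelUnramNorm

/-!
# The divisor of a norm

`L/K` a finite Galois extension of number fields with group `G`, `q` a rational prime.  For a
function `c` on the primes of `L` above `q` (e.g. the divisor of `y ∈ A_q(L)ˣ`):

* `sum_smul_apply` : `(∑_g g • c)(u) = |Stab(u)| · ∑_{u' ∩ K = u ∩ K} c(u')`;
* `divq_normq_apply`, `stabilizer_dvd_divq_normq` : `ord_u(N y) = |Stab(u)| · ∑_{u'} ord_{u'}(y)`,
  in particular `|Stab(u)| ∣ ord_u(N y)` (no unramifiedness needed);
* `dvd_of_normq_eq` : if `L/K` is relatively unramified above `q` and `ι(x) = N(y)`, then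
  `|Stab(u)| ∣ ord_{u ∩ K}(x)` (the converse of `RelUnramNorm.exists_normq_eq`).
-/

set_option autoImplicit false
set_option linter.unusedSectionVars false
set_option linter.style.haveILetI false
set_option warn.classDefReducibility false

noncomputable section

namespace Fermat.Agent.CFT.Global.RelUnramNorm

open NumberField IsDedekindDomain TensorProduct
open Fermat.Agent.CFT.Global.L7 Fermat.Agent.CFT.Global.FI
open Fermat.Agent.CFT.Global.QBridge
open Fermat.Agent.CFT.Global

attribute [local instance] Fermat.Agent.CFT.Global.SignLattice.PM.permAction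
attribute [local instance] Fermat.Agent.CFT.Global.FIDivisor.primesAction

variable (K L : Type) [Field K] [NumberField K] [Field L] [NumberField L] [Algebra K L]
  [FiniteDimensional K L] [IsGalois K L]

/-- Conjugate primes have stabilisers of the same order. -/
theorem card_stabilizer_smul (q : Nat.Primes) (g : L ≃ₐ[K] L) (u : PrimesOver (q : ℕ) L) :
    Nat.card (MulAction.stabilizer (L ≃ₐ[K] L) (g • u)) =
      Nat.card (MulAction.stabilizer (L ≃ₐ[K] L) u) := by
  rw [MulAction.stabilizer_smul_eq_stabilizer_map_conj]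
  exact (Nat.card_congr ((MulAction.stabilizer (L ≃ₐ[K] L) u).equivMapOfInjective
    (MulAut.conj g).toMonoidHom (MulAut.conj g).injective).toEquiv).symm

theorem card_stabilizer_eq_of_underOver_eq (q : Nat.Primes) (u u' : PrimesOver (q : ℕ) L)
    (h : underOver K L q u = underOver K L q u') :
    Nat.card (MulAction.stabilizer (L ≃ₐ[K] L) u') =
      Nat.card (MulAction.stabilizer (L ≃ₐ[K] L) u) := by
  obtain ⟨g, rfl⟩ := exists_smul_eq_of_underOver_eq K L q u u' h
  exact card_stabilizer_smul K L q g u

open Classical in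
/-- **The norm of a function on the primes above `q`**:
`(∑_g g • c)(u) = |Stab(u)| · ∑_{u' ∩ K = u ∩ K} c(u')`. -/
theorem sum_smul_apply (q : Nat.Primes) (c : PrimesOver (q : ℕ) L → ℤ)
    (u : PrimesOver (q : ℕ) L) :
    (∑ g : L ≃ₐ[K] L, g • c) u =
      (Nat.card (MulAction.stabilizer (L ≃ₐ[K] L) u) : ℤ) *
        ∑ᶠ u' : PrimesOver (q : ℕ) L,
          if underOver K L q u' = underOver K L q u then c u' else 0 := by
  classical
  letI : Fintype (PrimesOver (q : ℕ) L) := Fintype.ofFinite _
  rw [finsum_eq_sum_of_fintype, Finset.sum_apply]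
  have h1 : ∀ g : L ≃ₐ[K] L, (g • c) u =
      ∑ u' : PrimesOver (q : ℕ) L, c u' *
        (g • (Pi.single u' (1 : ℤ) : PrimesOver (q : ℕ) L → ℤ)) u := by
    intro g
    rw [SignLattice.PM.smul_apply]
    simp_rw [SignLattice.PM.smul_apply, Pi.single_apply]
    rw [Finset.sum_eq_single (g⁻¹ • u)]
    · simp
    · intro b _ hb
      rw [if_neg (Ne.symm hb), mul_zero]
    · intro h
      exact absurd (Finset.mem_univ _) h
  simp_rw [h1]
  rw [Finset.sum_comm, Finset.mul_sum]
  refine Finset.sum_congr rfl fun u' _ => ?_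
  rw [← Finset.mul_sum]
  have h2 := sum_smul_single K L q u' u
  rw [Finset.sum_apply] at h2
  rw [h2]
  by_cases hu : underOver K L q u' = underOver K L q u
  · rw [if_pos hu, if_pos hu.symm, card_stabilizer_eq_of_underOver_eq K L q u u' hu.symm]
    ring
  · rw [if_neg hu, if_neg (fun h => hu h.symm)]
    ring

open Classical in
/-- **The divisor of a norm**: `ord_u(N y) = |Stab(u)| · ∑_{u' ∩ K = u ∩ K} ord_{u'}(y)`. -/
theorem divq_normq_apply (q : Nat.Primes) (y : (Aq L q)ˣ) (u : PrimesOver (q : ℕ) L) :
    Multiplicative.toAdd (divq (q : ℕ) L (normq K L q y)) u =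
      (Nat.card (MulAction.stabilizer (L ≃ₐ[K] L) u) : ℤ) *
        ∑ᶠ u' : PrimesOver (q : ℕ) L,
          if underOver K L q u' = underOver K L q u then
            Multiplicative.toAdd (divq (q : ℕ) L y) u' else 0 := by
  rw [divq_normq, sum_smul_apply]

/-- The valuation of a norm at `u` is divisible by the order of the decomposition group. -/
theorem stabilizer_dvd_divq_normq (q : Nat.Primes) (y : (Aq L q)ˣ) (u : PrimesOver (q : ℕ) L) :
    (Nat.card (MulAction.stabilizer (L ≃ₐ[K] L) u) : ℤ) ∣
      Multiplicative.toAdd (divq (q : ℕ) L (normq K L q y)) u := by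
  classical
  rw [divq_normq_apply]
  exact Dvd.intro _ rfl

variable {K L} in
/-- **Necessity**: if `L/K` is relatively unramified above `q` and `ι(x)` is a norm, then
`|Stab(u)| ∣ ord_{u ∩ K}(x)` for every prime `u` of `L` above `q`. -/
theorem dvd_of_normq_eq {q : Nat.Primes} (h : RelUnram K L q) (x : (Aq K q)ˣ) (y : (Aq L q)ˣ)
    (hy : normq K L q y = Units.map (baseCh K L q : Aq K q →* Aq L q) x)
    (u : PrimesOver (q : ℕ) L) :
    (Nat.card (MulAction.stabilizer (L ≃ₐ[K] L) u) : ℤ) ∣
      Multiplicative.toAdd (divq (q : ℕ) K x) (underOver K L q u) := by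
  rw [← divq_baseCh h x u, ← hy]
  exact stabilizer_dvd_divq_normq K L q y u

end Fermat.Agent.CFT.Global.RelUnramNorm
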