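import Fermat.Agent.CFT.Global.SemiLocalUnits

/-!
# Class field theory program (P3), global layer: norms are componentwise

`Ĥ⁰` of a finite product of coinduced modules: if `B` is the product of the modules coinduced
from `A i` (`H i ≤ G`), and in every `A i` each `H i`-invariant is a norm, then each
`G`-invariant of `B` is a norm (`exists_norm_of_family`, hypotheses in the elementary form of
`Coh.Semilocal.map_family_bijective'`).  Applications to the semilocal modules of a number field:

* `exists_norm_localUnitsRep` : the local units `U_q(L)` (components `O_wˣ`);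
* `exists_norm_localRep` : `(L ⊗[ℚ] ℚ_[q])ˣ` (components `L_wˣ`);
* `exists_norm_orbitRep` : one block `∏_{w' ∈ G·w} L_{w'}ˣ` (component `L_wˣ`).
-/

set_option autoImplicit false

universe u

open scoped TensorProduct
open CategoryTheory

namespace Fermat.Agent.CFT.Global.SemiLocalNorm

open Fermat.Agent.CFT.Global Fermat.Agent.CFT.Global.SemiLocalGalois
  Fermat.Agent.CFT.Global.SemiLocalOrbits Fermat.Agent.CFT.Global.SemiLocalUnits
open scoped Fermat.Agent.CFT.Global

/-! ### Generic: a finite product of coinduced modules -/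

section Family

open Rep

variable {k G : Type u} [CommRing k] [Group G] [Fintype G]

/-- A sum over a group of a function supported on a subgroup. -/
theorem sum_dite_mem {M : Type*} [AddCommMonoid M] (S : Subgroup G) [Fintype S]
    [DecidablePred (· ∈ S)] (φ : S → M) :
    ∑ g : G, (if hg : g ∈ S then φ ⟨g, hg⟩ else 0) = ∑ h : S, φ h := by
  classical
  have h1 : ∑ g : G, (if hg : g ∈ S then φ ⟨g, hg⟩ else 0) =
      ∑ g ∈ Finset.univ.filter (· ∈ S), (if hg : g ∈ S then φ ⟨g, hg⟩ else 0) := by
    refine (Finset.sum_subset (Finset.filter_subset _ _) (fun g _ hg => ?_)).symm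
    rw [Finset.mem_filter] at hg
    exact dif_neg (fun h => hg ⟨Finset.mem_univ _, h⟩)
  rw [h1, Finset.sum_subtype (Finset.univ.filter (· ∈ S)) (p := (· ∈ S)) (fun x => by simp)]
  refine Fintype.sum_equiv (Equiv.refl _) _ _ (fun h => ?_)
  exact dif_pos h.2

variable {ι : Type*} {H : ι → Subgroup G} {B : Rep.{u} k G} {A : ∀ i, Rep.{u} k (H i)}
  (f : ∀ i, res (H i).subtype B ⟶ A i)

/-- **Invariants are norms, semilocal form.**  If `B` is the product of the modules coinduced
from the `A i` (hypotheses in elementary form, as in `Coh.Semilocal.map_family_bijective'`) and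
in every `A i` each invariant is a norm, then each invariant of `B` is a norm. -/
theorem exists_norm_of_family [∀ i, Fintype (H i)]
    (hinj : ∀ b : B.V, (∀ (i : ι) (g : G), (f i).hom (B.ρ g b) = 0) → b = 0)
    (hsurj : ∀ F : ∀ i, G → (A i).V,
      (∀ (i : ι) (h : H i) (g : G), F i ((h : G) * g) = (A i).ρ h (F i g)) →
      ∃ b : B.V, ∀ (i : ι) (g : G), (f i).hom (B.ρ g b) = F i g)
    (hN : ∀ (i : ι) (a : (A i).V), (∀ h : H i, (A i).ρ h a = a) →
      ∃ b : (A i).V, ∑ h : H i, (A i).ρ h b = a)
    (a : B.V) (ha : ∀ g : G, B.ρ g a = a) : ∃ b : B.V, ∑ g : G, B.ρ g b = a := by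
  classical
  -- the components of `a` are invariant, hence norms
  have hinv : ∀ (i : ι) (h : H i), (A i).ρ h ((f i).hom a) = (f i).hom a := by
    intro i h
    have h1 := Rep.hom_comm_apply (f i) h a
    rw [← h1]
    exact congrArg (f i).hom (ha (h : G))
  choose c hc using fun i => hN i ((f i).hom a) (hinv i)
  -- the coinduced functions supported on the subgroups
  obtain ⟨b, hb⟩ := hsurj
    (fun i g => if hg : g ∈ H i then (A i).ρ ⟨g, hg⟩ (c i) else 0)
    (fun i h g => by
      by_cases hg : g ∈ H i
      · have hhg : (h : G) * g ∈ H i := (H i).mul_mem h.2 hg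
        rw [dif_pos hhg, dif_pos hg]
        have : (⟨(h : G) * g, hhg⟩ : H i) = h * ⟨g, hg⟩ := rfl
        rw [this, map_mul]
        rfl
      · have hhg : (h : G) * g ∉ H i := fun hh => hg (by
          have := (H i).mul_mem ((H i).inv_mem h.2) hh
          rwa [inv_mul_cancel_left] at this)
        rw [dif_neg hhg, dif_neg hg, map_zero])
  refine ⟨b, ?_⟩
  have h0 : (∑ g : G, B.ρ g b) - a = 0 := by
    apply hinj
    intro i g
    have h1 : B.ρ g ((∑ g : G, B.ρ g b) - a) = (∑ g : G, B.ρ g b) - a := by
      rw [map_sub, ha g, map_sum]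
      congr 1
      have : ∀ g' : G, B.ρ g (B.ρ g' b) = B.ρ (g * g') b := fun g' => by rw [map_mul]; rfl
      simp_rw [this]
      exact Fintype.sum_equiv (Equiv.mulLeft g) _ _ (fun g' => rfl)
    rw [h1, map_sub, map_sum]
    simp_rw [hb]
    rw [sum_dite_mem (H i) (fun h => (A i).ρ h (c i)), sub_eq_zero, ← hc i]
  exact sub_eq_zero.1 h0

end Family

/-! ### The semilocal modules of a number field -/

section Apply

set_option maxSynthPendingDepth 2

variable (G L : Type) [Group G] [Fintype G] [Field L] [NumberField L] [MulSemiringAction G L]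
variable (q : ℕ) [Fact q.Prime]
variable [∀ m : Ideal (SemiLocal L q), Fintype (decompGroup G L q m)]

/-- **Norms of local units are componentwise**: if in every `O_wˣ` (`w ∣ q`) each
`D_w`-invariant is a norm, then each `G`-invariant of `U_q(L)` is a norm. -/
theorem exists_norm_localUnitsRep
    (hN : ∀ m : Ideal (SemiLocal L q), m.IsMaximal → ∀ a : (localCompUnitsRep G L q m).V,
      (∀ d : decompGroup G L q m, (localCompUnitsRep G L q m).ρ d a = a) →
      ∃ b : (localCompUnitsRep G L q m).V,
        ∑ d : decompGroup G L q m, (localCompUnitsRep G L q m).ρ d b = a)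
    (a : (localUnitsRep G L q).V) (ha : ∀ g : G, (localUnitsRep G L q).ρ g a = a) :
    ∃ b : (localUnitsRep G L q).V, ∑ g : G, (localUnitsRep G L q).ρ g b = a :=
  exists_norm_of_family (H := fun i : Orbits G L q => decompGroup G L q (rep G L q i))
    (A := fun i => localCompUnitsRep G L q (rep G L q i))
    (fun i => localUnitsProj G L q (rep G L q i) (rep_isMaximal G L q i))
    (localUnits_inj G L q) (localUnits_surj G L q)
    (fun i => hN _ (rep_isMaximal G L q i)) a ha

/-- **Norms of `(L ⊗[ℚ] ℚ_[q])ˣ` are componentwise**: if in every `L_wˣ` (`w ∣ q`) each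
`D_w`-invariant is a norm, then each `G`-invariant of `(L ⊗[ℚ] ℚ_[q])ˣ` is a norm. -/
theorem exists_norm_localRep
    (hN : ∀ m : Ideal (SemiLocal L q), m.IsMaximal → ∀ a : (localCompRep G L q m).V,
      (∀ d : decompGroup G L q m, (localCompRep G L q m).ρ d a = a) →
      ∃ b : (localCompRep G L q m).V,
        ∑ d : decompGroup G L q m, (localCompRep G L q m).ρ d b = a)
    (a : (localRep G L q).V) (ha : ∀ g : G, (localRep G L q).ρ g a = a) :
    ∃ b : (localRep G L q).V, ∑ g : G, (localRep G L q).ρ g b = a :=
  exists_norm_of_family (H := fun i : Orbits G L q => decompGroup G L q (rep G L q i))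
    (A := fun i => localCompRep G L q (rep G L q i))
    (fun i => localProj G L q (rep G L q i))
    (localRep_inj G L q) (localRep_surj G L q)
    (fun i => hN _ (rep_isMaximal G L q i)) a ha

/-- **Norms of a block are computed on one component**: if in `L_wˣ` each `D_w`-invariant is a
norm, then each `G`-invariant of the block `∏_{w' ∈ G·w} L_{w'}ˣ` is a norm. -/
theorem exists_norm_orbitRep (m : Ideal (SemiLocal L q)) (hm : m.IsMaximal)
    (hN : ∀ a : (localCompRep G L q m).V,
      (∀ d : decompGroup G L q m, (localCompRep G L q m).ρ d a = a) →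
      ∃ b : (localCompRep G L q m).V,
        ∑ d : decompGroup G L q m, (localCompRep G L q m).ρ d b = a)
    (a : (orbitRep G L q m).V) (ha : ∀ g : G, (orbitRep G L q m).ρ g a = a) :
    ∃ b : (orbitRep G L q m).V, ∑ g : G, (orbitRep G L q m).ρ g b = a :=
  exists_norm_of_family (ι := Unit) (H := fun _ => decompGroup G L q m)
    (A := fun _ => localCompRep G L q m) (fun _ => orbitProj G L q m)
    (fun b hb => orbit_inj G L q m b (hb ()))
    (fun F hF => by
      obtain ⟨b, hb⟩ := orbit_surj G L q m hm (F ()) (hF ())
      exact ⟨b, fun _ g => hb g⟩)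
    (fun _ => hN) a ha

end Apply

end Fermat.Agent.CFT.Global.SemiLocalNorm
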