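import Fermat.Agent.CFT.Global.SemiLocalGalois

/-!
# Class field theory program (P3), global layer: the semilocal Shapiro lemma for `(L ⊗[ℚ] ℚ_[q])ˣ`

For a group `G` acting on a number field `L`, the unit group of `L ⊗[ℚ] ℚ_[q]` is the product,
over the orbits of maximal ideals (`= ` the places of the fixed field above `q`), of the modules
coinduced from the local components.  Hence, with `m_i` representatives of the orbits,

  `Hⁿ(G, (L ⊗[ℚ] ℚ_[q])ˣ) → ∏ i, Hⁿ(D_{m_i}, ((L ⊗[ℚ] ℚ_[q]) ⧸ m_i)ˣ)`

is bijective (`localRep_family_bijective`), and the same holds for the `S`-ideles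
`J_S(L) = ∏_{q ∈ S} (L ⊗[ℚ] ℚ_[q])ˣ` (`sIdeleRep_family_bijective`).  Vanishing criteria:
`isZero_localRep`, `isZero_sIdeleRep`.
-/

set_option autoImplicit false

open scoped TensorProduct
open CategoryTheory

namespace Fermat.Agent.CFT.Global.SemiLocalOrbits

open Fermat.Agent.CFT.Global Fermat.Agent.CFT.Global.SemiLocalGalois
open scoped Fermat.Agent.CFT.Global

section Orbits

variable (G L : Type) [Group G] [Field L] [NumberField L] [MulSemiringAction G L]
variable (q : ℕ) [Fact q.Prime]

/-- The relation "same orbit" on the maximal ideals of `L ⊗[ℚ] ℚ_[q]`. -/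
def orbitSetoid : Setoid {m : Ideal (SemiLocal L q) // m.IsMaximal} where
  r m' m := InOrbit G m'.1 m.1
  iseqv := ⟨fun m => InOrbit.refl G m.1, fun h => h.symm, fun h₁ h₂ => h₁.trans h₂⟩

/-- The orbits of maximal ideals of `L ⊗[ℚ] ℚ_[q]`: the places of the fixed field above `q`. -/
abbrev Orbits : Type := Quotient (orbitSetoid G L q)

instance instFiniteOrbits : Finite (Orbits G L q) := by
  have h1 : IsArtinianRing (SemiLocal L q) := (semiLocalArtinian L q).1
  have h2 : Finite {m : Ideal (SemiLocal L q) // m.IsMaximal} :=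
    Finite.of_equiv _ (MaximalSpectrum.equivSubtype (SemiLocal L q))
  exact Quotient.finite _

/-- The chosen representative of an orbit. -/
noncomputable def rep (i : Orbits G L q) : Ideal (SemiLocal L q) :=
  (Quotient.out (s := orbitSetoid G L q) i).1

theorem rep_isMaximal (i : Orbits G L q) : (rep G L q i).IsMaximal :=
  (Quotient.out (s := orbitSetoid G L q) i).2

/-- Every maximal ideal is a translate of a representative. -/
theorem exists_inOrbit_rep (m : Ideal (SemiLocal L q)) (hm : m.IsMaximal) :
    ∃ i : Orbits G L q, InOrbit G m (rep G L q i) := by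
  refine ⟨Quotient.mk (orbitSetoid G L q) ⟨m, hm⟩, ?_⟩
  have h : (orbitSetoid G L q).r
      (Quotient.out (s := orbitSetoid G L q) (Quotient.mk (orbitSetoid G L q) ⟨m, hm⟩)) ⟨m, hm⟩ :=
    Quotient.mk_out (s := orbitSetoid G L q) ⟨m, hm⟩
  exact InOrbit.symm h

/-- Distinct representatives lie in distinct orbits. -/
theorem eq_of_inOrbit_rep {i j : Orbits G L q} (h : InOrbit G (rep G L q i) (rep G L q j)) :
    i = j := by
  have h1 : Quotient.mk (orbitSetoid G L q) (Quotient.out (s := orbitSetoid G L q) i) =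
      Quotient.mk (orbitSetoid G L q) (Quotient.out (s := orbitSetoid G L q) j) :=
    Quotient.sound (s := orbitSetoid G L q) h
  rwa [Quotient.out_eq, Quotient.out_eq] at h1

/-- A unit all of whose translates are `≡ 1` modulo the representatives is `1`. -/
theorem unit_eq_one_of_forall (u : (SemiLocal L q)ˣ)
    (h : ∀ (i : Orbits G L q) (g : G), g • (u : SemiLocal L q) - 1 ∈ rep G L q i) : u = 1 := by
  have : IsArtinianRing (SemiLocal L q) := (semiLocalArtinian L q).1
  have : IsReduced (SemiLocal L q) := (semiLocalArtinian L q).2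
  apply Units.ext
  rw [Units.val_one, ← sub_eq_zero]
  apply eq_zero_of_forall_mem
  intro m hm
  obtain ⟨i, g, hg⟩ := exists_inOrbit_rep G L q m hm
  rw [hg, smul_sub, smul_one]
  exact h i g

/-- Every family of equivariant functions with values in the local components of the
representatives comes from a unit of `L ⊗[ℚ] ℚ_[q]`. -/
theorem exists_unit_family
    (F : ∀ i : Orbits G L q, G → (localCompRep G L q (rep G L q i)).V)
    (hF : ∀ (i : Orbits G L q) (h : decompGroup G L q (rep G L q i)) (g : G),
      F i ((h : G) * g) = (localCompRep G L q (rep G L q i)).ρ h (F i g)) :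
    ∃ u : (SemiLocal L q)ˣ, ∀ (i : Orbits G L q) (g : G),
      Additive.ofMul (Units.map (Ideal.Quotient.mk (rep G L q i)).toMonoidHom (g • u)) =
        F i g := by
  classical
  have : Fintype (Orbits G L q) := Fintype.ofFinite _
  have hex : ∀ i : Orbits G L q, ∃ b : (orbitRep G L q (rep G L q i)).V, ∀ g : G,
      (orbitProj G L q (rep G L q i)).hom ((orbitRep G L q (rep G L q i)).ρ g b) = F i g :=
    fun i => orbit_surj G L q (rep G L q i) (rep_isMaximal G L q i) (F i) (hF i)
  choose b hb using hex
  -- the units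
  let v : Orbits G L q → (SemiLocal L q)ˣ := fun i => Additive.toMul (b i).1
  have hv : ∀ i, v i ∈ orbitUnits G L q (rep G L q i) := fun i => (b i).2
  have hvF : ∀ (i : Orbits G L q) (g : G),
      Additive.ofMul (Units.map (Ideal.Quotient.mk (rep G L q i)).toMonoidHom (g • v i)) =
        F i g := fun i g => hb i g
  refine ⟨∏ i, v i, fun i g => ?_⟩
  rw [Finset.smul_prod', map_prod, Finset.prod_eq_single i, hvF]
  · intro j _ hji
    apply Units.ext
    show Ideal.Quotient.mk (rep G L q i) (g • (v j : SemiLocal L q)) = 1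
    rw [← map_one (Ideal.Quotient.mk (rep G L q i)), Ideal.Quotient.eq]
    -- `v j ≡ 1` modulo the translate `g⁻¹ m_i`, which is not in the orbit of `m_j`
    have hmax := translate_isMaximal (rep_isMaximal G L q i) g
    have hno : ¬ InOrbit G (translate (rep G L q i) g) (rep G L q j) := by
      intro h
      have h1 : InOrbit G (translate (rep G L q i) g) (rep G L q i) := ⟨g, fun a => Iff.rfl⟩
      exact hji (eq_of_inOrbit_rep G L q (h1.symm.trans h)).symm
    have h2 := (mem_orbitUnits_iff G L q).1 (hv j) _ hmax hno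
    rw [mem_translate, smul_sub, smul_one] at h2
    exact h2
  · intro h
    exact absurd (Finset.mem_univ _) h

/-! ### The cohomology of `(L ⊗[ℚ] ℚ_[q])ˣ` -/

/-- Elementary form of the product decomposition: injectivity. -/
theorem localRep_inj (b : (localRep G L q).V)
    (hb : ∀ (i : Orbits G L q) (g : G),
      (localProj G L q (rep G L q i)).hom ((localRep G L q).ρ g b) = 0) : b = 0 := by
  have hu : (Additive.toMul b : (SemiLocal L q)ˣ) = 1 := by
    apply unit_eq_one_of_forall G L q
    intro i g
    have h1 := hb i g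
    have h2 : Ideal.Quotient.mk (rep G L q i)
        (g • ((Additive.toMul b : (SemiLocal L q)ˣ) : SemiLocal L q)) = 1 :=
      congrArg (fun z : Additive (SemiLocal L q ⧸ rep G L q i)ˣ =>
        ((Additive.toMul z : (SemiLocal L q ⧸ rep G L q i)ˣ) : SemiLocal L q ⧸ rep G L q i)) h1
    rw [← map_one (Ideal.Quotient.mk (rep G L q i)), Ideal.Quotient.eq] at h2
    exact h2
  exact hu

/-- Elementary form of the product decomposition: surjectivity. -/
theorem localRep_surj
    (F : ∀ i : Orbits G L q, G → (localCompRep G L q (rep G L q i)).V)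
    (hF : ∀ (i : Orbits G L q) (h : decompGroup G L q (rep G L q i)) (g : G),
      F i ((h : G) * g) = (localCompRep G L q (rep G L q i)).ρ h (F i g)) :
    ∃ b : (localRep G L q).V, ∀ (i : Orbits G L q) (g : G),
      (localProj G L q (rep G L q i)).hom ((localRep G L q).ρ g b) = F i g := by
  obtain ⟨u, hu⟩ := exists_unit_family G L q F hF
  exact ⟨Additive.ofMul u, fun i g => hu i g⟩

/-- `(L ⊗[ℚ] ℚ_[q])ˣ` is the product of the modules coinduced from the local components of the
orbit representatives. -/
theorem localRep_total_bijective :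
    Function.Bijective fun (b : (localRep G L q).V) (i : Orbits G L q) =>
      (Rep.resCoindToHom (decompGroup G L q (rep G L q i)).subtype (localRep G L q)
        (localCompRep G L q (rep G L q i)) (localProj G L q (rep G L q i))).hom b :=
  Coh.Semilocal.total_bijective_of_forall (localRep_inj G L q) (localRep_surj G L q)

/-- **Semilocal Shapiro lemma** for `(L ⊗[ℚ] ℚ_[q])ˣ`:
`Hⁿ(G, (L ⊗[ℚ] ℚ_[q])ˣ) → ∏_{w mod G} Hⁿ(D_w, L_wˣ)` is bijective. -/
theorem localRep_family_bijective (n : ℕ) :
    Function.Bijective fun (x : groupCohomology (localRep G L q) n) (i : Orbits G L q) =>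
      (groupCohomology.map (decompGroup G L q (rep G L q i)).subtype
        (localProj G L q (rep G L q i)) n).hom x :=
  Coh.Semilocal.map_family_bijective' (localRep_inj G L q) (localRep_surj G L q) n

/-- If `Hⁿ(D_w, L_wˣ) = 0` for all places `w ∣ q` then `Hⁿ(G, (L ⊗[ℚ] ℚ_[q])ˣ) = 0`. -/
theorem isZero_localRep (n : ℕ)
    (h : ∀ m : Ideal (SemiLocal L q), m.IsMaximal →
      Limits.IsZero (groupCohomology (localCompRep G L q m) n)) :
    Limits.IsZero (groupCohomology (localRep G L q) n) :=
  Coh.Semilocal.isZero_of_family (localRep_total_bijective G L q) n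
    (fun i => h _ (rep_isMaximal G L q i))

end Orbits

/-! ### The `S`-ideles `J_S(L) = ∏_{q ∈ S} (L ⊗[ℚ] ℚ_[q])ˣ` -/

section SIdele

variable (G L : Type) [Group G] [Field L] [NumberField L] [MulSemiringAction G L]
variable (S : Finset Nat.Primes)

/-- The projection of `J_S(L)` onto the component `((L ⊗[ℚ] ℚ_[q]) ⧸ m)ˣ`, equivariant for the
decomposition group. -/
noncomputable def sIdeleProj (q : Nat.Primes) (m : Ideal (SemiLocal L q)) :
    Rep.res (decompGroup G L q m).subtype (sIdeleRep G L S) ⟶ localCompRep G L q m :=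
  Rep.ofHom ⟨(MonoidHom.toAdditive
      (Units.map (Ideal.Quotient.mk m).toMonoidHom)).toIntLinearMap ∘ₗ
      (MonoidHom.toAdditive
        (Pi.evalMonoidHom (fun q : Nat.Primes => (SemiLocal L q)ˣ) q)).toIntLinearMap ∘ₗ
        (addSub (supportedOn L S)).subtype,
    fun d => by
      apply LinearMap.ext
      intro x
      rfl⟩

/-- The index set of the product decomposition of `J_S(L)`: pairs of a prime `q ∈ S` and an
orbit of maximal ideals of `L ⊗[ℚ] ℚ_[q]`. -/
abbrev SOrbits : Type := Σ q : S, Orbits G L ((q : Nat.Primes) : ℕ)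

/-- Elementary form of the product decomposition of `J_S(L)`: injectivity. -/
theorem sIdeleRep_inj (b : (sIdeleRep G L S).V)
    (hb : ∀ (i : SOrbits G L S) (g : G),
      (sIdeleProj G L S i.1 (rep G L (i.1 : Nat.Primes) i.2)).hom
        ((sIdeleRep G L S).ρ g b) = 0) : b = 0 := by
  have hx : (Additive.toMul b.1 : IdeleProd L) = 1 := by
    funext q
    by_cases hq : q ∈ S
    · apply unit_eq_one_of_forall G L q
      intro i g
      have h1 := hb ⟨⟨q, hq⟩, i⟩ g
      have h2 : Ideal.Quotient.mk (rep G L q i)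
          (g • (((Additive.toMul b.1 : IdeleProd L) q : (SemiLocal L q)ˣ) : SemiLocal L q)) = 1 :=
        congrArg (fun z : Additive (SemiLocal L q ⧸ rep G L q i)ˣ =>
          ((Additive.toMul z : (SemiLocal L q ⧸ rep G L q i)ˣ) : SemiLocal L q ⧸ rep G L q i)) h1
      rw [← map_one (Ideal.Quotient.mk (rep G L q i)), Ideal.Quotient.eq] at h2
      exact h2
    · exact b.2 q hq
  apply Subtype.ext
  exact hx

/-- Elementary form of the product decomposition of `J_S(L)`: surjectivity. -/
theorem sIdeleRep_surj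
    (F : ∀ i : SOrbits G L S, G → (localCompRep G L i.1 (rep G L (i.1 : Nat.Primes) i.2)).V)
    (hF : ∀ (i : SOrbits G L S) (h : decompGroup G L i.1 (rep G L (i.1 : Nat.Primes) i.2))
      (g : G), F i ((h : G) * g) =
        (localCompRep G L i.1 (rep G L (i.1 : Nat.Primes) i.2)).ρ h (F i g)) :
    ∃ b : (sIdeleRep G L S).V, ∀ (i : SOrbits G L S) (g : G),
      (sIdeleProj G L S i.1 (rep G L (i.1 : Nat.Primes) i.2)).hom
        ((sIdeleRep G L S).ρ g b) = F i g := by
  classical
  have hex : ∀ q : S, ∃ u : (SemiLocal L (q : Nat.Primes))ˣ,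
      ∀ (i : Orbits G L ((q : Nat.Primes) : ℕ)) (g : G),
      Additive.ofMul (Units.map (Ideal.Quotient.mk (rep G L (q : Nat.Primes) i)).toMonoidHom
        (g • u)) = F ⟨q, i⟩ g := fun q =>
    exists_unit_family G L (q : Nat.Primes) (fun i => F ⟨q, i⟩) (fun i => hF ⟨q, i⟩)
  choose u hu using hex
  let x : IdeleProd L := fun q => if h : q ∈ S then u ⟨q, h⟩ else 1
  have hx : x ∈ supportedOn L S := fun q hq => dif_neg hq
  refine ⟨⟨Additive.ofMul x, hx⟩, ?_⟩
  rintro ⟨⟨q, hq⟩, i⟩ g
  have hxq : x q = u ⟨q, hq⟩ := dif_pos hq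
  have h1 := hu ⟨q, hq⟩ i g
  rw [← hxq] at h1
  exact h1

/-- `J_S(L)` is the product of the modules coinduced from the local components. -/
theorem sIdeleRep_total_bijective :
    Function.Bijective fun (b : (sIdeleRep G L S).V) (i : SOrbits G L S) =>
      (Rep.resCoindToHom (decompGroup G L i.1 (rep G L (i.1 : Nat.Primes) i.2)).subtype
        (sIdeleRep G L S) (localCompRep G L i.1 (rep G L (i.1 : Nat.Primes) i.2))
        (sIdeleProj G L S i.1 (rep G L (i.1 : Nat.Primes) i.2))).hom b :=
  Coh.Semilocal.total_bijective_of_forall (sIdeleRep_inj G L S) (sIdeleRep_surj G L S)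

/-- **Semilocal Shapiro lemma** for the `S`-ideles:
`Hⁿ(G, J_S(L)) → ∏_{q ∈ S} ∏_{w ∣ q mod G} Hⁿ(D_w, L_wˣ)` is bijective. -/
theorem sIdeleRep_family_bijective (n : ℕ) :
    Function.Bijective fun (x : groupCohomology (sIdeleRep G L S) n) (i : SOrbits G L S) =>
      (groupCohomology.map (decompGroup G L i.1 (rep G L (i.1 : Nat.Primes) i.2)).subtype
        (sIdeleProj G L S i.1 (rep G L (i.1 : Nat.Primes) i.2)) n).hom x :=
  Coh.Semilocal.map_family_bijective' (sIdeleRep_inj G L S) (sIdeleRep_surj G L S) n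

/-- If `Hⁿ(D_w, L_wˣ) = 0` for all places `w` above the primes of `S` then
`Hⁿ(G, J_S(L)) = 0`. -/
theorem isZero_sIdeleRep (n : ℕ)
    (h : ∀ q ∈ S, ∀ m : Ideal (SemiLocal L q), m.IsMaximal →
      Limits.IsZero (groupCohomology (localCompRep G L q m) n)) :
    Limits.IsZero (groupCohomology (sIdeleRep G L S) n) :=
  Coh.Semilocal.isZero_of_family (sIdeleRep_total_bijective G L S) n
    (fun i => h _ i.1.2 _ (rep_isMaximal G L (i.1 : Nat.Primes) i.2))

end SIdele

end Fermat.Agent.CFT.Global.SemiLocalOrbits
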