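import Fermat.Agent.CFT.Global.SemiLocalOrbits

/-!
# Class field theory program (P3), global layer: the semilocal Shapiro lemma for the local units

For a group `G` acting on a number field `L` and a prime `q`, the local units
`U_q(L) ≤ (L ⊗[ℚ] ℚ_[q])ˣ` (units which are integral over `ℤ_[q]` together with their inverse)
are the product, over the orbits of maximal ideals, of the modules coinduced from the unit groups
`compUnits L q m` of the rings of integers of the local components `(L ⊗[ℚ] ℚ_[q]) ⧸ m`:

* `isInt_iff_forall_mk`, `mem_localUnits_iff_forall` : integrality is componentwise;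
* `localCompUnitsRep G L q m` : the `D_m`-module of the units of the integers of the component;
* `localUnitsRep_family_bijective` : `Hⁿ(G, U_q(L)) → ∏_{w mod G} Hⁿ(D_w, O_wˣ)` is bijective;
* `isZero_localUnitsRep` : vanishing criterion.
-/

set_option autoImplicit false

open scoped TensorProduct
open CategoryTheory

namespace Fermat.Agent.CFT.Global.SemiLocalUnits

open Fermat.Agent.CFT.Global Fermat.Agent.CFT.Global.SemiLocalGalois
  Fermat.Agent.CFT.Global.SemiLocalOrbits
open scoped Fermat.Agent.CFT.Global

/-! ### Integrality in an Artinian reduced ring is componentwise -/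

section Abstract

variable {R A : Type*} [CommRing R] [CommRing A] (f : R →+* A)

/-- Integrality is preserved by ring homomorphisms. -/
theorem isIntegralElem_comp {B : Type*} [CommRing B] (ψ : A →+* B) {x : A}
    (hx : f.IsIntegralElem x) : (ψ.comp f).IsIntegralElem (ψ x) := by
  obtain ⟨p, hp, h⟩ := hx
  exact ⟨p, hp, by rw [← Polynomial.hom_eval₂, h, map_zero]⟩

/-- Integrality of the class modulo an ideal, in terms of the ideal. -/
theorem isIntegralElem_mk_iff (m : Ideal A) (x : A) :
    ((Ideal.Quotient.mk m).comp f).IsIntegralElem (Ideal.Quotient.mk m x) ↔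
      ∃ p : Polynomial R, p.Monic ∧ Polynomial.eval₂ f x p ∈ m := by
  constructor
  · rintro ⟨p, hp, h⟩
    refine ⟨p, hp, ?_⟩
    rw [← Polynomial.hom_eval₂, Ideal.Quotient.eq_zero_iff_mem] at h
    exact h
  · rintro ⟨p, hp, h⟩
    refine ⟨p, hp, ?_⟩
    rw [← Polynomial.hom_eval₂, Ideal.Quotient.eq_zero_iff_mem]
    exact h

/-- **Integrality is componentwise** in an Artinian reduced ring. -/
theorem isIntegralElem_iff_forall_mk [IsArtinianRing A] [IsReduced A] (x : A) :
    f.IsIntegralElem x ↔ ∀ m : Ideal A, m.IsMaximal →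
      ((Ideal.Quotient.mk m).comp f).IsIntegralElem (Ideal.Quotient.mk m x) := by
  constructor
  · intro h m _
    exact isIntegralElem_comp f _ h
  · intro h
    classical
    have : Fintype (MaximalSpectrum A) := Fintype.ofFinite _
    have h' : ∀ m : MaximalSpectrum A, ∃ p : Polynomial R, p.Monic ∧
        Polynomial.eval₂ f x p ∈ m.asIdeal :=
      fun m => (isIntegralElem_mk_iff f m.asIdeal x).1 (h m.asIdeal m.isMaximal)
    choose p hp hpx using h'
    refine ⟨∏ m, p m, Polynomial.monic_prod_of_monic _ _ (fun m _ => hp m), ?_⟩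
    apply eq_zero_of_forall_mem
    intro m hm
    rw [Polynomial.eval₂_finsetProd,
      ← Finset.mul_prod_erase Finset.univ _ (Finset.mem_univ (⟨m, hm⟩ : MaximalSpectrum A))]
    exact m.mul_mem_right _ (hpx ⟨m, hm⟩)

end Abstract

/-! ### The units of the integers of a local component -/

section Comp

variable (G L : Type) [Group G] [Field L] [NumberField L] [MulSemiringAction G L]
variable (q : ℕ) [Fact q.Prime]

/-- The structure map `ℤ_[q] → (L ⊗[ℚ] ℚ_[q]) ⧸ m`. -/
noncomputable def compInt (m : Ideal (SemiLocal L q)) : ℤ_[q] →+* SemiLocal L q ⧸ m :=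
  (Ideal.Quotient.mk m).comp (intHom L q)

/-- The unit group of the ring of integers of the local component `(L ⊗[ℚ] ℚ_[q]) ⧸ m`: the
units which are integral over `ℤ_[q]` together with their inverse. -/
noncomputable def compUnits (m : Ideal (SemiLocal L q)) : Subgroup (SemiLocal L q ⧸ m)ˣ where
  carrier := {u | (compInt L q m).IsIntegralElem (u : SemiLocal L q ⧸ m) ∧
    (compInt L q m).IsIntegralElem ((u⁻¹ : (SemiLocal L q ⧸ m)ˣ) : SemiLocal L q ⧸ m)}
  one_mem' := by
    have h := (compInt L q m).isIntegralElem_map (x := (1 : ℤ_[q]))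
    rw [map_one] at h
    exact ⟨h, by rw [inv_one]; exact h⟩
  mul_mem' := by
    rintro a b ⟨ha, ha'⟩ ⟨hb, hb'⟩
    refine ⟨RingHom.IsIntegralElem.mul _ ha hb, ?_⟩
    rw [mul_inv_rev]
    exact RingHom.IsIntegralElem.mul _ hb' ha'
  inv_mem' := by
    rintro a ⟨ha, ha'⟩
    exact ⟨ha', by rw [inv_inv]; exact ha⟩

theorem mem_compUnits_iff (m : Ideal (SemiLocal L q)) (u : (SemiLocal L q ⧸ m)ˣ) :
    u ∈ compUnits L q m ↔ (compInt L q m).IsIntegralElem (u : SemiLocal L q ⧸ m) ∧
      (compInt L q m).IsIntegralElem ((u⁻¹ : (SemiLocal L q ⧸ m)ˣ) : SemiLocal L q ⧸ m) :=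
  Iff.rfl

/-- Integrality over `ℤ_[q]` in `L ⊗[ℚ] ℚ_[q]` is componentwise. -/
theorem isInt_iff_forall_mk (x : SemiLocal L q) :
    IsInt L q x ↔ ∀ m : Ideal (SemiLocal L q), m.IsMaximal →
      (compInt L q m).IsIntegralElem (Ideal.Quotient.mk m x) := by
  have : IsArtinianRing (SemiLocal L q) := (semiLocalArtinian L q).1
  have : IsReduced (SemiLocal L q) := (semiLocalArtinian L q).2
  exact isIntegralElem_iff_forall_mk (intHom L q) x

/-- A unit of `L ⊗[ℚ] ℚ_[q]` is a local unit iff all its components are. -/
theorem mem_localUnits_iff_forall (u : (SemiLocal L q)ˣ) :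
    u ∈ localUnits L q ↔ ∀ m : Ideal (SemiLocal L q), m.IsMaximal →
      Units.map (Ideal.Quotient.mk m).toMonoidHom u ∈ compUnits L q m := by
  rw [mem_localUnits_iff, isInt_iff_forall_mk, isInt_iff_forall_mk]
  constructor
  · rintro ⟨h1, h2⟩ m hm
    exact ⟨h1 m hm, h2 m hm⟩
  · intro h
    exact ⟨fun m hm => (h m hm).1, fun m hm => (h m hm).2⟩

/-- The decomposition group acts on the local component compatibly with the structure map
from `ℤ_[q]`. -/
theorem decompQuotHom_comp_compInt (m : Ideal (SemiLocal L q)) (d : decompGroup G L q m) :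
    (decompQuotHom G L q m d).comp (compInt L q m) = compInt L q m := by
  ext z
  show decompQuotHom G L q m d (Ideal.Quotient.mk m ((1 : L) ⊗ₜ[ℚ] (z : ℚ_[q]))) =
    Ideal.Quotient.mk m ((1 : L) ⊗ₜ[ℚ] (z : ℚ_[q]))
  rw [decompQuotHom_mk, smul_tmul_eq, smul_one]

/-- The unit group of the integers of the local component is stable under the decomposition
group. -/
theorem smul_mem_compUnits (m : Ideal (SemiLocal L q)) (d : decompGroup G L q m)
    (u : (SemiLocal L q ⧸ m)ˣ) (hu : u ∈ compUnits L q m) :
    Units.map (decompQuotHom G L q m d).toMonoidHom u ∈ compUnits L q m := by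
  have h1 := isIntegralElem_comp (compInt L q m) (decompQuotHom G L q m d) hu.1
  have h2 := isIntegralElem_comp (compInt L q m) (decompQuotHom G L q m d) hu.2
  rw [decompQuotHom_comp_compInt] at h1 h2
  refine ⟨h1, ?_⟩
  rw [← map_inv]
  exact h2

/-- The units of the integers of the local component `(L ⊗[ℚ] ℚ_[q]) ⧸ m` as a module over the
decomposition group. -/
noncomputable def localCompUnitsRep (m : Ideal (SemiLocal L q)) : Rep ℤ (decompGroup G L q m) :=
  subRep (decompGroup G L q m) (compUnits L q m)
    (fun d u hu => smul_mem_compUnits G L q m d u hu)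

/-- The inclusion `O_wˣ → L_wˣ`. -/
noncomputable def localCompUnitsIncl (m : Ideal (SemiLocal L q)) :
    localCompUnitsRep G L q m ⟶ localCompRep G L q m := subRepIncl _ _ _

set_option maxSynthPendingDepth 2

/-- The projection `U_q(L) → O_wˣ`, equivariant for the decomposition group. -/
noncomputable def localUnitsProj (m : Ideal (SemiLocal L q)) (hm : m.IsMaximal) :
    Rep.res (decompGroup G L q m).subtype (localUnitsRep G L q) ⟶ localCompUnitsRep G L q m :=
  Rep.ofHom ⟨LinearMap.codRestrict (addSub (compUnits L q m))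
      ((MonoidHom.toAdditive (Units.map (Ideal.Quotient.mk m).toMonoidHom)).toIntLinearMap ∘ₗ
        (addSub (localUnits L q)).subtype)
      (fun x => (mem_localUnits_iff_forall L q (Additive.toMul x.1)).1 x.2 m hm),
    fun d => by
      apply LinearMap.ext
      intro x
      rfl⟩

/-! ### Integrality and translation -/

/-- The action of `G` commutes with evaluation of polynomials over `ℤ_[q]`. -/
theorem smul_eval₂_intHom (g : G) (x : SemiLocal L q) (p : Polynomial ℤ_[q]) :
    g • Polynomial.eval₂ (intHom L q) x p = Polynomial.eval₂ (intHom L q) (g • x) p := by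
  have h1 : (MulSemiringAction.toRingHom G (SemiLocal L q) g).comp (intHom L q) = intHom L q := by
    ext z
    show g • ((1 : L) ⊗ₜ[ℚ] (z : ℚ_[q]) : SemiLocal L q) = (1 : L) ⊗ₜ[ℚ] (z : ℚ_[q])
    rw [smul_tmul_eq, smul_one]
  have h2 := Polynomial.hom_eval₂ p (intHom L q) (MulSemiringAction.toRingHom G (SemiLocal L q) g) x
  rw [h1] at h2
  exact h2

/-- Integrality of a component is transported along the action of `G`. -/
theorem isIntegralElem_mk_smul_iff {m' m : Ideal (SemiLocal L q)} (g : G)
    (hg : ∀ a : SemiLocal L q, a ∈ m' ↔ g • a ∈ m) (x : SemiLocal L q) :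
    (compInt L q m').IsIntegralElem (Ideal.Quotient.mk m' x) ↔
      (compInt L q m).IsIntegralElem (Ideal.Quotient.mk m (g • x)) := by
  unfold compInt
  rw [isIntegralElem_mk_iff, isIntegralElem_mk_iff]
  constructor
  · rintro ⟨p, hp, h⟩
    exact ⟨p, hp, by rw [← smul_eval₂_intHom]; exact (hg _).1 h⟩
  · rintro ⟨p, hp, h⟩
    exact ⟨p, hp, by rw [← smul_eval₂_intHom] at h; exact (hg _).2 h⟩

/-- Membership in the unit group of the integers of a component is transported along the action
of `G`. -/
theorem map_mem_compUnits_smul_iff {m' m : Ideal (SemiLocal L q)} (g : G)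
    (hg : ∀ a : SemiLocal L q, a ∈ m' ↔ g • a ∈ m) (u : (SemiLocal L q)ˣ) :
    Units.map (Ideal.Quotient.mk m').toMonoidHom u ∈ compUnits L q m' ↔
      Units.map (Ideal.Quotient.mk m).toMonoidHom (g • u) ∈ compUnits L q m := by
  rw [mem_compUnits_iff, mem_compUnits_iff, ← map_inv, ← map_inv, ← smul_inv']
  exact and_congr (isIntegralElem_mk_smul_iff G L q g hg _)
    (isIntegralElem_mk_smul_iff G L q g hg _)

/-- A unit is a local unit iff its translates have integral components at the orbit
representatives. -/
theorem mem_localUnits_iff_forall_rep (u : (SemiLocal L q)ˣ) :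
    u ∈ localUnits L q ↔ ∀ (i : Orbits G L q) (g : G),
      Units.map (Ideal.Quotient.mk (rep G L q i)).toMonoidHom (g • u) ∈
        compUnits L q (rep G L q i) := by
  rw [mem_localUnits_iff_forall]
  constructor
  · intro h i g
    have hmax := translate_isMaximal (rep_isMaximal G L q i) g
    exact (map_mem_compUnits_smul_iff G L q (m' := translate (rep G L q i) g) g
      (fun a => Iff.rfl) u).1 (h _ hmax)
  · intro h m hm
    obtain ⟨i, g, hg⟩ := exists_inOrbit_rep G L q m hm
    exact (map_mem_compUnits_smul_iff G L q g hg u).2 (h i g)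

/-! ### The cohomology of the local units -/

/-- Elementary form of the product decomposition of the local units: injectivity. -/
theorem localUnits_inj (b : (localUnitsRep G L q).V)
    (hb : ∀ (i : Orbits G L q) (g : G),
      (localUnitsProj G L q (rep G L q i) (rep_isMaximal G L q i)).hom
        ((localUnitsRep G L q).ρ g b) = 0) : b = 0 := by
  have hu : (Additive.toMul b.1 : (SemiLocal L q)ˣ) = 1 := by
    apply unit_eq_one_of_forall G L q
    intro i g
    have h1 := hb i g
    have h2 : Ideal.Quotient.mk (rep G L q i)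
        (g • ((Additive.toMul b.1 : (SemiLocal L q)ˣ) : SemiLocal L q)) = 1 :=
      congrArg (fun z : (localCompUnitsRep G L q (rep G L q i)).V =>
        ((Additive.toMul z.1 : (SemiLocal L q ⧸ rep G L q i)ˣ) : SemiLocal L q ⧸ rep G L q i)) h1
    rw [← map_one (Ideal.Quotient.mk (rep G L q i)), Ideal.Quotient.eq] at h2
    exact h2
  exact Subtype.ext hu

/-- Elementary form of the product decomposition of the local units: surjectivity. -/
theorem localUnits_surj
    (F : ∀ i : Orbits G L q, G → (localCompUnitsRep G L q (rep G L q i)).V)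
    (hF : ∀ (i : Orbits G L q) (h : decompGroup G L q (rep G L q i)) (g : G),
      F i ((h : G) * g) = (localCompUnitsRep G L q (rep G L q i)).ρ h (F i g)) :
    ∃ b : (localUnitsRep G L q).V, ∀ (i : Orbits G L q) (g : G),
      (localUnitsProj G L q (rep G L q i) (rep_isMaximal G L q i)).hom
        ((localUnitsRep G L q).ρ g b) = F i g := by
  obtain ⟨u, hu⟩ := exists_unit_family G L q
    (fun i g => (localCompUnitsIncl G L q (rep G L q i)).hom (F i g))
    (fun i h g => by
      have h1 := congrArg (localCompUnitsIncl G L q (rep G L q i)).hom (hF i h g)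
      exact h1)
  have hmem : u ∈ localUnits L q := by
    rw [mem_localUnits_iff_forall_rep G L q]
    intro i g
    have h1 := hu i g
    have h2 : Units.map (Ideal.Quotient.mk (rep G L q i)).toMonoidHom (g • u) =
        Additive.toMul (F i g).1 := congrArg Additive.toMul h1
    rw [h2]
    exact (F i g).2
  exact ⟨⟨Additive.ofMul u, hmem⟩, fun i g => Subtype.ext (hu i g)⟩

/-- `U_q(L)` is the product of the modules coinduced from the unit groups of the integers of the
local components of the orbit representatives. -/
theorem localUnitsRep_total_bijective :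
    Function.Bijective fun (b : (localUnitsRep G L q).V) (i : Orbits G L q) =>
      (Rep.resCoindToHom (decompGroup G L q (rep G L q i)).subtype (localUnitsRep G L q)
        (localCompUnitsRep G L q (rep G L q i))
        (localUnitsProj G L q (rep G L q i) (rep_isMaximal G L q i))).hom b :=
  Coh.Semilocal.total_bijective_of_forall (localUnits_inj G L q) (localUnits_surj G L q)

/-- **Semilocal Shapiro lemma for the local units**:
`Hⁿ(G, U_q(L)) → ∏_{w mod G} Hⁿ(D_w, O_wˣ)` is bijective. -/
theorem localUnitsRep_family_bijective (n : ℕ) :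
    Function.Bijective fun (x : groupCohomology (localUnitsRep G L q) n) (i : Orbits G L q) =>
      (groupCohomology.map (decompGroup G L q (rep G L q i)).subtype
        (localUnitsProj G L q (rep G L q i) (rep_isMaximal G L q i)) n).hom x :=
  Coh.Semilocal.map_family_bijective' (localUnits_inj G L q) (localUnits_surj G L q) n

/-- If `Hⁿ(D_w, O_wˣ) = 0` for all places `w ∣ q` then `Hⁿ(G, U_q(L)) = 0`. -/
theorem isZero_localUnitsRep (n : ℕ)
    (h : ∀ m : Ideal (SemiLocal L q), m.IsMaximal →
      Limits.IsZero (groupCohomology (localCompUnitsRep G L q m) n)) :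
    Limits.IsZero (groupCohomology (localUnitsRep G L q) n) :=
  Coh.Semilocal.isZero_of_family (localUnitsRep_total_bijective G L q) n
    (fun i => h _ (rep_isMaximal G L q i))

end Comp

end Fermat.Agent.CFT.Global.SemiLocalUnits
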