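import Fermat.Agent.CFT.Global.SemiLocalNorm
import Fermat.Agent.CFT.Global.Plan
import Fermat.Agent.CFT.Bridge.CompPlace
import Fermat.Agent.CFT.Local.UnitsCoh

/-!
# Class field theory program (P3), global layer: `[C3]` — the cohomology of the local units at an
unramified prime

For a finite group `G` acting faithfully on a number field `L` and a prime `q` unramified in
`L`, the `G`-module `U_q(L)` of local units is cohomologically trivial:
`Hⁿ(G, U_q(L)) = 0` for `n ≥ 1` and `Ĥ⁰(G, U_q(L)) = 0` (`locUnitsAcyclic : Plan.LocUnitsAcyclic`).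

Route: the semilocal Shapiro lemma for the local units (`Global/SemiLocalUnits`,
`Global/SemiLocalNorm`) reduces to one local component `E = (L ⊗[ℚ] ℚ_[q]) ⧸ m` with its
decomposition group `D`; the dictionary `compUnits L q m = Local.unitGroup q E`
(`compUnits_eq_unitGroup`) and `D ≃ Gal(E/E^D)` reduce to the Local layer
(`Local.UnitsCoh.isZero_unitGroupRep`, `Local.UnitsCoh.exists_norm_of_fixed`); the component is
unramified over `E^D` by `Bridge.CompDict.isUnram_of_isReduced`.
-/

set_option autoImplicit false
set_option linter.style.haveILetI false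
set_option linter.unusedSectionVars false

open scoped TensorProduct
open CategoryTheory

namespace Fermat.Agent.CFT.Global.SemiLocalUnitsLocal

open Fermat.Agent.CFT Fermat.Agent.CFT.Global Fermat.Agent.CFT.Global.SemiLocalGalois
  Fermat.Agent.CFT.Global.SemiLocalOrbits Fermat.Agent.CFT.Global.SemiLocalUnits
open scoped Fermat.Agent.CFT.Global

/-! ### Generic: a finite group acting on a finite extension of `ℚ_[q]` -/

section Generic

variable (q : ℕ) [Fact q.Prime] (D : Type) [Group D] [Finite D] (E : Type) [Field E]
  [Algebra ℚ_[q] E] [MulSemiringAction D E] [FaithfulSMul D E]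
  (hc : ∀ (d : D) (c : ℚ_[q]), d • algebraMap ℚ_[q] E c = algebraMap ℚ_[q] E c)

include hc in
/-- The unit group of the integers is stable under a group acting by `ℚ_[q]`-algebra
automorphisms. -/
theorem smul_mem_unitGroup_gen (d : D) (u : Eˣ) (hu : u ∈ Local.unitGroup q E) :
    d • u ∈ Local.unitGroup q E := by
  letI := Bridge.LocComp.fixAlgebra q D E hc
  haveI := Bridge.LocComp.fix_isScalarTower q D E hc
  exact Local.UnitsCoh.smul_mem_unitGroup q (FixedPoints.subfield D E) E
    (FixedPoints.toAlgAutMulEquiv D E d) u hu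

/-- The cohomology of the `D`-module `𝒪_Eˣ` is the Galois cohomology of the units of `E` over the
fixed field. -/
noncomputable def cohIsoUnitGroup (n : ℕ) :
    letI := Bridge.LocComp.fixAlgebra q D E hc
    haveI := Bridge.LocComp.fix_isScalarTower q D E hc
    groupCohomology (subRep D (Local.unitGroup q E) (smul_mem_unitGroup_gen q D E hc)) n ≅
      groupCohomology (Local.UnitsCoh.unitGroupRep q (FixedPoints.subfield D E) E) n :=
  letI := Bridge.LocComp.fixAlgebra q D E hc
  haveI := Bridge.LocComp.fix_isScalarTower q D E hc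
  groupCohomology.mapIso (FixedPoints.toAlgAutMulEquiv D E) (LinearEquiv.refl ℤ _)
    (fun g => by
      ext x
      rfl) n

/-- In an unramified extension every `D`-invariant unit is a norm (form for the `D`-module
`𝒪_Eˣ`). -/
theorem exists_norm_unitGroup_gen [Fintype D] [FiniteDimensional ℚ_[q] E]
    (hun : letI := Bridge.LocComp.fixAlgebra q D E hc
      Local.IsUnram q (FixedPoints.subfield D E) E)
    (a : (subRep D (Local.unitGroup q E) (smul_mem_unitGroup_gen q D E hc)).V)
    (ha : ∀ d : D, (subRep D (Local.unitGroup q E) (smul_mem_unitGroup_gen q D E hc)).ρ d a = a) :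
    ∃ b : (subRep D (Local.unitGroup q E) (smul_mem_unitGroup_gen q D E hc)).V,
      ∑ d : D, (subRep D (Local.unitGroup q E) (smul_mem_unitGroup_gen q D E hc)).ρ d b = a := by
  letI := Bridge.LocComp.fixAlgebra q D E hc
  haveI := Bridge.LocComp.fix_isScalarTower q D E hc
  haveI := Bridge.LocComp.fix_finiteDimensional q D E hc
  have hfix : ∀ σ : E ≃ₐ[FixedPoints.subfield D E] E,
      σ • Local.UnitsCoh.valSub (Local.unitGroup q E) (smul_mem_unitGroup_gen q D E hc) a =
        Local.UnitsCoh.valSub (Local.unitGroup q E) (smul_mem_unitGroup_gen q D E hc) a := by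
    intro σ
    obtain ⟨d, rfl⟩ := (FixedPoints.toAlgAutMulEquiv D E).surjective σ
    exact congrArg (Local.UnitsCoh.valSub (Local.unitGroup q E)
      (smul_mem_unitGroup_gen q D E hc)) (ha d)
  obtain ⟨w, hw, hwu⟩ := Local.UnitsCoh.exists_norm_of_fixed q (FixedPoints.subfield D E) E hun
    (Local.UnitsCoh.valSub (Local.unitGroup q E) (smul_mem_unitGroup_gen q D E hc) a)
    (Local.UnitsCoh.valSub_mem (Local.unitGroup q E) (smul_mem_unitGroup_gen q D E hc) a) hfix
  refine ⟨Local.UnitsCoh.mkSub (Local.unitGroup q E) (smul_mem_unitGroup_gen q D E hc) w hw,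
    Local.UnitsCoh.valSub_injective (Local.unitGroup q E) (smul_mem_unitGroup_gen q D E hc) ?_⟩
  rw [Local.UnitsCoh.valSub_sum, ← hwu]
  exact Fintype.prod_equiv (FixedPoints.toAlgAutMulEquiv D E).toEquiv _ _ (fun d => rfl)

end Generic

/-! ### The local components of the semilocal algebra -/

section Global

set_option maxSynthPendingDepth 2

variable (G : Type) [Group G] (L : Type) [Field L] [NumberField L] [MulSemiringAction G L]
variable (q : ℕ) [Fact q.Prime] (m : Ideal (SemiLocal L q))

variable [hm : m.IsMaximal]

/-- The structure map `ℤ_[q] → (L ⊗[ℚ] ℚ_[q]) ⧸ m` is the algebra map of the Local layer. -/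
theorem compInt_eq_algebraMap :
    letI := Ideal.Quotient.field m
    letI := Bridge.LocComp.compAlgebra L q m
    letI := Local.intAlgebra q (SemiLocal L q ⧸ m)
    compInt L q m = algebraMap ℤ_[q] (SemiLocal L q ⧸ m) := rfl

/-- **Dictionary**: the unit group of the integers of a local component, in the Global and in
the Local vocabulary. -/
theorem compUnits_eq_unitGroup :
    letI := Ideal.Quotient.field m
    letI := Bridge.LocComp.compAlgebra L q m
    compUnits L q m = Local.unitGroup q (SemiLocal L q ⧸ m) := by
  letI := Ideal.Quotient.field m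
  letI := Bridge.LocComp.compAlgebra L q m
  ext u
  exact Iff.rfl

/-- **The units of the integers of an unramified local component are cohomologically trivial in
positive degrees**: `Hⁿ(D_w, O_wˣ) = 0` for `n ≥ 1` when `q` is unramified in `L`. -/
theorem isZero_localCompUnitsRep [Fintype G] [FaithfulSMul G L] (hun : UnramAt L q) (n : ℕ)
    (hn : 1 ≤ n) : Limits.IsZero (groupCohomology (localCompUnitsRep G L q m) n) := by
  letI := Ideal.Quotient.field m
  letI := Bridge.LocComp.compAlgebra L q m
  haveI := Bridge.LocComp.comp_finiteDimensional L q m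
  haveI : FaithfulSMul (decompGroup G L q m) (SemiLocal L q ⧸ m) := locFaithful G L q m hm
  have hc := Bridge.LocComp.decomp_smul_algebraMap G L q m
  letI := Bridge.LocComp.fixAlgebra q (decompGroup G L q m) (SemiLocal L q ⧸ m) hc
  haveI := Bridge.LocComp.fix_isScalarTower q (decompGroup G L q m) (SemiLocal L q ⧸ m) hc
  haveI := Bridge.LocComp.fix_finiteDimensional q (decompGroup G L q m) (SemiLocal L q ⧸ m) hc
  have hunr : Local.IsUnram q (FixedPoints.subfield (decompGroup G L q m) (SemiLocal L q ⧸ m))
      (SemiLocal L q ⧸ m) :=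
    Bridge.CompDict.isUnram_of_isReduced q L (SemiLocal L q ⧸ m) (Bridge.CompPlace.compEmb L q m)
      (Bridge.CompPlace.compEmb_adjoin L q m) _ hun
  have h1 := Local.UnitsCoh.isZero_unitGroupRep q
    (FixedPoints.subfield (decompGroup G L q m) (SemiLocal L q ⧸ m)) (SemiLocal L q ⧸ m) hunr n hn
  have h2 := Limits.IsZero.of_iso h1
    (cohIsoUnitGroup q (decompGroup G L q m) (SemiLocal L q ⧸ m) hc n)
  exact h2

/-- **In an unramified local component every `D_w`-invariant unit is the norm of a unit**
(`Ĥ⁰(D_w, O_wˣ) = 0`). -/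
theorem exists_norm_localCompUnitsRep [Fintype G] [FaithfulSMul G L]
    [Fintype (decompGroup G L q m)] (hun : UnramAt L q)
    (a : (localCompUnitsRep G L q m).V)
    (ha : ∀ d : decompGroup G L q m, (localCompUnitsRep G L q m).ρ d a = a) :
    ∃ b : (localCompUnitsRep G L q m).V,
      ∑ d : decompGroup G L q m, (localCompUnitsRep G L q m).ρ d b = a := by
  letI := Ideal.Quotient.field m
  letI := Bridge.LocComp.compAlgebra L q m
  haveI := Bridge.LocComp.comp_finiteDimensional L q m
  haveI : FaithfulSMul (decompGroup G L q m) (SemiLocal L q ⧸ m) := locFaithful G L q m hm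
  have hc := Bridge.LocComp.decomp_smul_algebraMap G L q m
  letI := Bridge.LocComp.fixAlgebra q (decompGroup G L q m) (SemiLocal L q ⧸ m) hc
  haveI := Bridge.LocComp.fix_isScalarTower q (decompGroup G L q m) (SemiLocal L q ⧸ m) hc
  have hunr : Local.IsUnram q (FixedPoints.subfield (decompGroup G L q m) (SemiLocal L q ⧸ m))
      (SemiLocal L q ⧸ m) :=
    Bridge.CompDict.isUnram_of_isReduced q L (SemiLocal L q ⧸ m) (Bridge.CompPlace.compEmb L q m)
      (Bridge.CompPlace.compEmb_adjoin L q m) _ hun
  exact exists_norm_unitGroup_gen q (decompGroup G L q m) (SemiLocal L q ⧸ m) hc hunr a ha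

end Global

/-! ### `[C3]`: the local units at an unramified prime -/

section C3

open Fermat.Agent.CFT.Herbrand

variable (G L : Type) [Group G] [Fintype G] [Field L] [NumberField L] [MulSemiringAction G L]
  [FaithfulSMul G L] (q : ℕ) [Fact q.Prime]

/-- `Hⁿ(G, U_q(L)) = 0` for `n ≥ 1` at an unramified prime (every finite `G`). -/
theorem isZero_localUnitsRep_of_unramAt (hun : UnramAt L q) (n : ℕ) (hn : 1 ≤ n) :
    Limits.IsZero (groupCohomology (localUnitsRep G L q) n) :=
  isZero_localUnitsRep G L q n (fun m hm => by
    haveI := hm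
    exact isZero_localCompUnitsRep G L q m hun n hn)

/-- At an unramified prime every `G`-invariant local unit is the norm of a local unit. -/
theorem exists_norm_localUnitsRep_of_unramAt (hun : UnramAt L q)
    (a : (localUnitsRep G L q).V) (ha : ∀ g : G, (localUnitsRep G L q).ρ g a = a) :
    ∃ b : (localUnitsRep G L q).V, ∑ g : G, (localUnitsRep G L q).ρ g b = a := by
  classical
  exact SemiLocalNorm.exists_norm_localUnitsRep G L q (fun m hm a ha => by
    haveI := hm
    exact exists_norm_localCompUnitsRep G L q m hun a ha) a ha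

/-- `Ĥ⁰(G, U_q(L)) = 0` at an unramified prime (every finite `G`). -/
theorem h0_localUnitsRep_of_unramAt (hun : UnramAt L q) :
    h0 (ofRepresentation (localUnitsRep G L q).ρ) = 1 := by
  rw [h0, AddSubgroup.relIndex_eq_one]
  intro x hx
  obtain ⟨b, hb⟩ := exists_norm_localUnitsRep_of_unramAt G L q hun x (fun g => hx g)
  exact ⟨b, by rw [nEnd_apply]; exact hb⟩

end C3

/-- **[C3]** `Plan.LocUnitsAcyclic`: the local units at an unramified prime are cohomologically
trivial. -/
theorem locUnitsAcyclic : Plan.LocUnitsAcyclic := by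
  intro G L _ _ _ _ _ _ q _ hun
  exact ⟨fun n hn => isZero_localUnitsRep_of_unramAt G L q hun n hn,
    h0_localUnitsRep_of_unramAt G L q hun⟩

end Fermat.Agent.CFT.Global.SemiLocalUnitsLocal
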