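import Mathlib

/-!
# Norm surjectivity on the split part of a Kummer algebra (L7.4)

`B` is a commutative ring with an endomorphism `σ` ("cyclic of order `p`"), `ζ` a `σ`-fixed
`p`-th root of unity with vanishing character sums, `e` a `σ`-fixed idempotent and `u` with
`u ^ p = e`, `u * e = u`, `σ u = ζ * u` (a Kummer generator which is a `p`-th root of `1` on the
`e`-part).  Then the character idempotents `eps i = p⁻¹ * e * ∑_{k<p} (ζ^i u)^k` are orthogonal
idempotents with sum `e`, permuted cyclically by `σ`, and consequently every `σ`-fixed `x`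
which is `1` off `e` is the Galois norm `∏_{k<p} σ^k y` of `y = 1 + (x - 1) * eps 0`.
-/

set_option autoImplicit false
set_option linter.unusedSectionVars false

namespace Fermat.Agent.CFT.Global.SplitNorm

open Finset

section

variable {B : Type*} [CommRing B] (σ : B →+* B) (p : ℕ) (ζ e u pinv : B)

/-- The unnormalised character idempotent `g i = e * ∑_{k<p} (ζ^i u)^k`. -/
def gsum (i : ℕ) : B := e * ∑ k ∈ range p, (ζ ^ i * u) ^ k

/-- The character idempotent `eps i = p⁻¹ * e * ∑_{k<p} (ζ^i u)^k`. -/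
def eps (i : ℕ) : B := pinv * gsum p ζ e u i

variable (hζp : ζ ^ p = 1)
  (hsum : ∀ m, 0 < m → m < p → ∑ k ∈ range p, ζ ^ (m * k) = 0)
  (hpinv : (p : B) * pinv = 1)
  (he : e * e = e) (hu : u ^ p = e) (hue : u * e = u)

include hζp in
theorem gsum_add_period (i : ℕ) : gsum p ζ e u (i + p) = gsum p ζ e u i := by
  unfold gsum
  rw [pow_add, hζp, mul_one]

include he in
theorem e_mul_gsum (i : ℕ) : e * gsum p ζ e u i = gsum p ζ e u i := by
  unfold gsum
  rw [← mul_assoc, he]

include hζp he hu hue in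
/-- `ζ^i u` acts trivially on `g i`. -/
theorem w_mul_gsum (i : ℕ) : (ζ ^ i * u) * gsum p ζ e u i = gsum p ζ e u i := by
  have hwp : (ζ ^ i * u) ^ p = e := by
    rw [mul_pow, ← pow_mul, mul_comm i p, pow_mul, hζp, one_pow, one_mul, hu]
  have hwe : (ζ ^ i * u) * e = ζ ^ i * u := by rw [mul_assoc, hue]
  unfold gsum
  have h1 : (ζ ^ i * u) * ∑ k ∈ range p, (ζ ^ i * u) ^ k =
      ∑ k ∈ range p, (ζ ^ i * u) ^ k - 1 + (ζ ^ i * u) ^ p := by
    have h2 := geom_sum_succ (x := ζ ^ i * u) (n := p)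
    have h3 := geom_sum_succ' (x := ζ ^ i * u) (n := p)
    rw [h3] at h2
    linear_combination (-1 : B) * h2
  calc (ζ ^ i * u) * (e * ∑ k ∈ range p, (ζ ^ i * u) ^ k)
      = e * ((ζ ^ i * u) * ∑ k ∈ range p, (ζ ^ i * u) ^ k) := by ring
    _ = e * (∑ k ∈ range p, (ζ ^ i * u) ^ k - 1 + (ζ ^ i * u) ^ p) := by rw [h1]
    _ = e * ∑ k ∈ range p, (ζ ^ i * u) ^ k - e + e * e := by rw [hwp]; ring
    _ = e * ∑ k ∈ range p, (ζ ^ i * u) ^ k := by rw [he]; ring

include hζp he hu hue in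
theorem w_pow_mul_gsum (i k : ℕ) : (ζ ^ i * u) ^ k * gsum p ζ e u i = gsum p ζ e u i := by
  induction k with
  | zero => simp
  | succ k ih =>
    rw [pow_succ, mul_assoc, w_mul_gsum p ζ e u hζp he hu hue, ih]

include hζp he hu hue in
/-- For `i ≤ j`, `g j * g i = (∑_k ζ^((j-i) k)) * g i`. -/
theorem gsum_mul_gsum_of_le {i j : ℕ} (hij : i ≤ j) :
    gsum p ζ e u j * gsum p ζ e u i = (∑ k ∈ range p, ζ ^ ((j - i) * k)) * gsum p ζ e u i := by
  have key : ∀ k, (ζ ^ j * u) ^ k * gsum p ζ e u i = ζ ^ ((j - i) * k) * gsum p ζ e u i := by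
    intro k
    have h1 : (ζ ^ j * u) ^ k = ζ ^ ((j - i) * k) * (ζ ^ i * u) ^ k := by
      rw [pow_mul, ← mul_pow, ← mul_assoc, ← pow_add, Nat.sub_add_cancel hij]
    rw [h1, mul_assoc, w_pow_mul_gsum p ζ e u hζp he hu hue]
  calc gsum p ζ e u j * gsum p ζ e u i
      = (∑ k ∈ range p, (ζ ^ j * u) ^ k) * (e * gsum p ζ e u i) := by
        unfold gsum; ring
    _ = (∑ k ∈ range p, (ζ ^ j * u) ^ k) * gsum p ζ e u i := by
        rw [e_mul_gsum p ζ e u he]
    _ = ∑ k ∈ range p, (ζ ^ j * u) ^ k * gsum p ζ e u i := by rw [sum_mul]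
    _ = ∑ k ∈ range p, ζ ^ ((j - i) * k) * gsum p ζ e u i := sum_congr rfl (fun k _ => key k)
    _ = (∑ k ∈ range p, ζ ^ ((j - i) * k)) * gsum p ζ e u i := by rw [sum_mul]

include hζp hsum he hu hue in
/-- Orthogonality of the `g i`, `i < p`. -/
theorem gsum_mul_gsum_of_ne {i j : ℕ} (hi : i < p) (hj : j < p) (hij : i ≠ j) :
    gsum p ζ e u i * gsum p ζ e u j = 0 := by
  rcases lt_or_gt_of_ne hij with h | h
  · rw [mul_comm, gsum_mul_gsum_of_le p ζ e u hζp he hu hue h.le,
      hsum (j - i) (by omega) (by omega), zero_mul]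
  · rw [gsum_mul_gsum_of_le p ζ e u hζp he hu hue h.le,
      hsum (i - j) (by omega) (by omega), zero_mul]

include hζp he hu hue in
theorem gsum_mul_self (i : ℕ) : gsum p ζ e u i * gsum p ζ e u i = (p : B) * gsum p ζ e u i := by
  rw [gsum_mul_gsum_of_le p ζ e u hζp he hu hue le_rfl]
  simp

include hζp hsum hpinv he hu hue in
/-- The `eps i`, `i < p`, are orthogonal. -/
theorem eps_mul_eps_of_ne {i j : ℕ} (hi : i < p) (hj : j < p) (hij : i ≠ j) :
    eps p ζ e u pinv i * eps p ζ e u pinv j = 0 := by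
  unfold eps
  calc pinv * gsum p ζ e u i * (pinv * gsum p ζ e u j)
      = pinv * pinv * (gsum p ζ e u i * gsum p ζ e u j) := by ring
    _ = 0 := by rw [gsum_mul_gsum_of_ne p ζ e u hζp hsum he hu hue hi hj hij, mul_zero]

include hζp hpinv he hu hue in
/-- The `eps i` are idempotent. -/
theorem eps_mul_self (i : ℕ) :
    eps p ζ e u pinv i * eps p ζ e u pinv i = eps p ζ e u pinv i := by
  unfold eps
  calc pinv * gsum p ζ e u i * (pinv * gsum p ζ e u i)
      = pinv * pinv * (gsum p ζ e u i * gsum p ζ e u i) := by ring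
    _ = pinv * ((p : B) * pinv) * gsum p ζ e u i := by
        rw [gsum_mul_self p ζ e u hζp he hu hue]; ring
    _ = pinv * gsum p ζ e u i := by rw [hpinv, mul_one]

include hsum hpinv in
/-- The `eps i`, `i < p`, sum to `e`. -/
theorem sum_eps (hp : p ≠ 0) : ∑ i ∈ range p, eps p ζ e u pinv i = e := by
  unfold eps gsum
  have h1 : ∑ i ∈ range p, pinv * (e * ∑ k ∈ range p, (ζ ^ i * u) ^ k) =
      pinv * e * ∑ k ∈ range p, (∑ i ∈ range p, ζ ^ (k * i)) * u ^ k := by
    rw [← mul_sum, ← mul_sum, mul_assoc]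
    congr 2
    rw [sum_comm]
    refine sum_congr rfl (fun k _ => ?_)
    rw [sum_mul]
    refine sum_congr rfl (fun i _ => ?_)
    rw [mul_pow, ← pow_mul, mul_comm i k]
  rw [h1]
  have h2 : ∑ k ∈ range p, (∑ i ∈ range p, ζ ^ (k * i)) * u ^ k = (p : B) := by
    rw [sum_eq_single_of_mem 0 (mem_range.mpr (Nat.pos_of_ne_zero hp))]
    · simp
    · intro k hk hk0
      rw [hsum k (Nat.pos_of_ne_zero hk0) (mem_range.mp hk), zero_mul]
  rw [h2]
  calc pinv * e * (p : B) = e * ((p : B) * pinv) := by ring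
    _ = e := by rw [hpinv, mul_one]

include hζp in
theorem eps_add_period (i : ℕ) : eps p ζ e u pinv (i + p) = eps p ζ e u pinv i := by
  unfold eps
  rw [gsum_add_period p ζ e u hζp]

variable (hσζ : σ ζ = ζ) (hσpinv : σ pinv = pinv) (hσe : σ e = e) (hσu : σ u = ζ * u)

include hσζ hσe hσu in
theorem map_gsum (i : ℕ) : σ (gsum p ζ e u i) = gsum p ζ e u (i + 1) := by
  unfold gsum
  rw [map_mul, map_sum, hσe]
  congr 1
  refine sum_congr rfl (fun k _ => ?_)
  rw [map_pow, map_mul, map_pow, hσζ, hσu, pow_succ, mul_assoc]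

include hσζ hσpinv hσe hσu in
/-- `σ` permutes the `eps i` cyclically. -/
theorem map_eps (i : ℕ) : σ (eps p ζ e u pinv i) = eps p ζ e u pinv (i + 1) := by
  unfold eps
  rw [map_mul, hσpinv, map_gsum σ p ζ e u hσζ hσe hσu]

include hσζ hσpinv hσe hσu in
theorem iterate_map_eps (k i : ℕ) : σ^[k] (eps p ζ e u pinv i) = eps p ζ e u pinv (i + k) := by
  induction k generalizing i with
  | zero => simp
  | succ k ih =>
    rw [Function.iterate_succ_apply, map_eps σ p ζ e u pinv hσζ hσpinv hσe hσu, ih]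
    congr 1
    omega

include hζp hsum hpinv he hu hue in
/-- Product formula for orthogonal idempotents. -/
theorem prod_one_add_mul_eps (c : B) (n : ℕ) (hn : n ≤ p) :
    ∏ k ∈ range n, (1 + c * eps p ζ e u pinv k) = 1 + c * ∑ k ∈ range n, eps p ζ e u pinv k := by
  induction n with
  | zero => simp
  | succ n ih =>
    rw [prod_range_succ, sum_range_succ, ih (by omega)]
    have horth : (∑ k ∈ range n, eps p ζ e u pinv k) * eps p ζ e u pinv n = 0 := by
      rw [sum_mul]
      refine sum_eq_zero (fun k hk => ?_)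
      have hk' := mem_range.mp hk
      exact eps_mul_eps_of_ne p ζ e u pinv hζp hsum hpinv he hu hue (by omega) (by omega)
        (by omega)
    linear_combination c * c * horth

include hζp hsum hpinv he hu hue hσζ hσpinv hσe hσu in
/-- **Norm formula on the split part (L7.4).** For `σ`-fixed `x`, the Galois norm of
`y = 1 + (x - 1) * eps 0` is `1 + (x - 1) * e`. -/
theorem norm_split (hp : p ≠ 0) (x : B) (hx : σ x = x) :
    ∏ k ∈ range p, σ^[k] (1 + (x - 1) * eps p ζ e u pinv 0) = 1 + (x - 1) * e := by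
  have hiter : ∀ k, σ^[k] (1 + (x - 1) * eps p ζ e u pinv 0) =
      1 + (x - 1) * eps p ζ e u pinv k := by
    intro k
    have h1 : ∀ (k : ℕ) (z : B), σ z = z → σ^[k] z = z := by
      intro k z hz
      induction k with
      | zero => rfl
      | succ k ih => rw [Function.iterate_succ_apply, hz, ih]
    have hmul : ∀ (k : ℕ) (a b : B), σ^[k] (a * b) = σ^[k] a * σ^[k] b := by
      intro k
      induction k with
      | zero => intro a b; rfl
      | succ k ih => intro a b; rw [Function.iterate_succ_apply, map_mul, ih]; rfl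
    have hadd : ∀ (k : ℕ) (a b : B), σ^[k] (a + b) = σ^[k] a + σ^[k] b := by
      intro k
      induction k with
      | zero => intro a b; rfl
      | succ k ih => intro a b; rw [Function.iterate_succ_apply, map_add, ih]; rfl
    rw [hadd, hmul, h1 k 1 (map_one σ), h1 k (x - 1) (by rw [map_sub, hx, map_one]),
      iterate_map_eps σ p ζ e u pinv hσζ hσpinv hσe hσu, zero_add]
  rw [prod_congr rfl (fun k _ => hiter k),
    prod_one_add_mul_eps p ζ e u pinv hζp hsum hpinv he hu hue (x - 1) p le_rfl,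
    sum_eps p ζ e u pinv hsum hpinv hp]

include hζp hsum hpinv he hu hue hσζ hσpinv hσe hσu in
/-- **L7.4, final form.** A `σ`-fixed `x` with `(1 - e) * x = 1 - e` is a Galois norm. -/
theorem exists_norm_eq (hp : p ≠ 0) (x : B) (hx : σ x = x) (hxe : (1 - e) * x = 1 - e) :
    ∃ y : B, ∏ k ∈ range p, σ^[k] y = x := by
  refine ⟨1 + (x - 1) * eps p ζ e u pinv 0, ?_⟩
  rw [norm_split σ p ζ e u pinv hζp hsum hpinv he hu hue hσζ hσpinv hσe hσu hp x hx]
  linear_combination -hxe

include hζp hsum hpinv he hu hue hσζ hσpinv hσe hσu in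
/-- **L7.4, unit form.** A `σ`-fixed unit `x` with `(1 - e) * x = 1 - e` is the Galois norm of
a unit. -/
theorem exists_unit_norm_eq (hp : p ≠ 0) (x : Bˣ) (hx : σ (x : B) = x)
    (hxe : (1 - e) * (x : B) = 1 - e) :
    ∃ y : Bˣ, ∏ k ∈ range p, σ^[k] (y : B) = x := by
  have hinv : (1 + ((x : B) - 1) * eps p ζ e u pinv 0) *
      (1 + (((x⁻¹ : Bˣ) : B) - 1) * eps p ζ e u pinv 0) = 1 := by
    have h1 := eps_mul_self p ζ e u pinv hζp hpinv he hu hue 0
    have h2 : (x : B) * ((x⁻¹ : Bˣ) : B) = 1 := Units.mul_inv x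
    linear_combination ((x : B) - 1) * (((x⁻¹ : Bˣ) : B) - 1) * h1 +
      eps p ζ e u pinv 0 * h2
  refine ⟨Units.mkOfMulEqOne _ _ hinv, ?_⟩
  rw [Units.val_mkOfMulEqOne,
    norm_split σ p ζ e u pinv hζp hsum hpinv he hu hue hσζ hσpinv hσe hσu hp x hx]
  linear_combination -hxe

end

/-- Character sums vanish when the `1 - ζ^m` are regular (e.g. in a domain with `ζ^m ≠ 1`). -/
theorem sum_pow_mul_eq_zero {B : Type*} [CommRing B] (p : ℕ) (ζ : B) (hζp : ζ ^ p = 1) (m : ℕ)
    (hreg : IsLeftRegular (ζ ^ m - 1)) : ∑ k ∈ range p, ζ ^ (m * k) = 0 := by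
  have h1 : (ζ ^ m - 1) * ∑ k ∈ range p, ζ ^ (m * k) = 0 := by
    have h2 : ∑ k ∈ range p, ζ ^ (m * k) = ∑ k ∈ range p, (ζ ^ m) ^ k :=
      sum_congr rfl (fun k _ => by rw [pow_mul])
    rw [h2, mul_comm, geom_sum_mul, ← pow_mul, mul_comm m p, pow_mul, hζp, one_pow, sub_self]
  exact hreg (show (ζ ^ m - 1) * _ = (ζ ^ m - 1) * 0 by rw [h1, mul_zero])

/-- The character-sum hypothesis for the image of a primitive `p`-th root of unity of a field
under any ring homomorphism (e.g. `K → K ⊗[ℚ] ℚ_[q]`). -/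
theorem sum_pow_mul_eq_zero_of_isPrimitiveRoot {K B : Type*} [Field K] [CommRing B] (f : K →+* B)
    {p : ℕ} {ζ : K} (hζ : IsPrimitiveRoot ζ p) (m : ℕ) (hm0 : 0 < m) (hmp : m < p) :
    ∑ k ∈ range p, (f ζ) ^ (m * k) = 0 := by
  have hne : ζ ^ m - 1 ≠ 0 := sub_ne_zero.mpr (hζ.pow_ne_one_of_pos_of_lt hm0.ne' hmp)
  have hunit : IsUnit ((f ζ) ^ m - 1) := by
    have := (IsUnit.mk0 _ hne).map f
    simpa using this
  refine sum_pow_mul_eq_zero p (f ζ) ?_ m hunit.isRegular.left
  rw [← map_pow, hζ.pow_eq_one, map_one]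

/-- Kummer instantiation: if `σ α = ζ α`, `α^p = a`, `e a = e b^p`, `e b c = e` with `b`, `c`,
`e` fixed by `σ`, then `u := e * α * c` satisfies the hypotheses on `u`. -/
theorem kummer_u {B : Type*} [CommRing B] (σ : B →+* B) (p : ℕ) (ζ e a b c α : B)
    (he : e * e = e) (hσe : σ e = e) (hσc : σ c = c) (hσα : σ α = ζ * α) (hα : α ^ p = a)
    (hab : e * a = e * b ^ p) (hbc : e * b * c = e) (hp : p ≠ 0) :
    (e * α * c) ^ p = e ∧ (e * α * c) * e = e * α * c ∧ σ (e * α * c) = ζ * (e * α * c) := by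
  have hep' : ∀ n : ℕ, e ^ (n + 1) = e := by
    intro n
    induction n with
    | zero => simp
    | succ n ih => rw [pow_succ, ih, he]
  have hep : e ^ p = e := by
    obtain ⟨n, hn⟩ := Nat.exists_eq_succ_of_ne_zero hp
    rw [hn]
    exact hep' n
  refine ⟨?_, ?_, ?_⟩
  · have h1 : (e * α * c) ^ p = (e * a) * c ^ p * e ^ p := by
      rw [mul_pow, mul_pow, hα, hep]
      have : e * a * c ^ p * e = e * e * a * c ^ p := by ring
      rw [this, he]
    have h2 : (e * b * c) ^ p = e ^ p := by rw [hbc]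
    rw [h1, hab, hep]
    rw [mul_pow, mul_pow, hep] at h2
    calc e * b ^ p * c ^ p * e = (e * b ^ p * c ^ p) * e := by ring
      _ = e * e := by rw [h2]
      _ = e := he
  · calc e * α * c * e = e * e * α * c := by ring
      _ = e * α * c := by rw [he]
  · rw [map_mul, map_mul, hσe, hσc, hσα]; ring

end Fermat.Agent.CFT.Global.SplitNorm
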