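import Mathlib
import Fermat.Agent.CFT.Global.QBridge
import Fermat.Agent.CFT.Global.QBridgeOrder
import Fermat.Agent.CFT.Global.WeakApprox

/-!
# Weak approximation for units of the semilocal algebras

For a number field `F`, finitely many primes `q ∈ S`, units `x q ∈ (F ⊗[ℚ] ℚ_[q])ˣ` and an
exponent `e`, there is `b ∈ Fˣ` with `b ⊗ 1 ∈ x q * (1 + q ^ e * maxOrder)` for all primes `q ∈ S`
(`exists_global_mul_one_add`): `Fˣ` is dense in `∏_{q ∈ S} A_q(F)ˣ`.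
-/

set_option autoImplicit false

noncomputable section

namespace Fermat.Agent.CFT.Global.WeakApprox

open TensorProduct NumberField Fermat.Agent.CFT.Global.QBridge

/-- **Density of `Fˣ` in `∏_{q ∈ S} A_q(F)ˣ`.**  For finitely many primes `q ∈ S`, units
`x q ∈ (F ⊗[ℚ] ℚ_[q])ˣ` and `e : ℕ`, there is `b ∈ Fˣ` with
`b ⊗ 1 = x q * (1 + q ^ e * y)`, `y` in the maximal order, for all primes `q ∈ S`. -/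
theorem exists_global_mul_one_add (F : Type*) [Field F] [NumberField F] (S : Finset ℕ)
    (x : ∀ (q : ℕ) [Fact q.Prime], (F ⊗[ℚ] ℚ_[q])ˣ) (e : ℕ) :
    ∃ b : Fˣ, ∀ (q : ℕ) [Fact q.Prime], q ∈ S →
      ∃ y ∈ maxOrder q F,
        ((b : F) ⊗ₜ[ℚ] (1 : ℚ_[q])) =
          (x q : F ⊗[ℚ] ℚ_[q]) * (1 + (q : F ⊗[ℚ] ℚ_[q]) ^ e * y) := by
  classical
  have key : ∀ q : ℕ, ∃ N : ℕ, ∀ [Fact q.Prime],
      (q : F ⊗[ℚ] ℚ_[q]) ^ N * (((x q)⁻¹ : (F ⊗[ℚ] ℚ_[q])ˣ) : F ⊗[ℚ] ℚ_[q]) ∈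
        maxOrder q F := by
    intro q
    by_cases hq : q.Prime
    · have : Fact q.Prime := ⟨hq⟩
      obtain ⟨N, hN⟩ := exists_pow_mul_mem_maxOrder
        ((((x q)⁻¹ : (F ⊗[ℚ] ℚ_[q])ˣ) : F ⊗[ℚ] ℚ_[q]))
      exact ⟨N, fun {_} => hN⟩
    · exact ⟨0, fun {h} => absurd h.out hq⟩
  choose N hN using key
  set M : ℕ := (e + 1) + ∑ q ∈ S, N q with hM
  obtain ⟨b, hb⟩ := exists_simul_approx F S
    (fun q _ => ((x q : (F ⊗[ℚ] ℚ_[q])ˣ) : F ⊗[ℚ] ℚ_[q])) M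
  have hloc : ∀ (q : ℕ) [Fact q.Prime], q ∈ S →
      ∃ y ∈ maxOrder q F,
        (b ⊗ₜ[ℚ] (1 : ℚ_[q])) =
          (x q : F ⊗[ℚ] ℚ_[q]) * (1 + (q : F ⊗[ℚ] ℚ_[q]) ^ (e + 1) * y) := by
    intro q _ hqS
    obtain ⟨y, hy, hby⟩ := hb q hqS
    have hle : N q ≤ ∑ q ∈ S, N q := Finset.single_le_sum (f := fun q => N q)
      (fun _ _ => Nat.zero_le _) hqS
    obtain ⟨k, hk⟩ := Nat.exists_eq_add_of_le hle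
    have hqmem : ∀ j : ℕ, (q : F ⊗[ℚ] ℚ_[q]) ^ j ∈ maxOrder q F :=
      fun j => pow_mem (natCast_mem _ q) j
    refine ⟨(q : F ⊗[ℚ] ℚ_[q]) ^ k *
      ((q : F ⊗[ℚ] ℚ_[q]) ^ N q * (((x q)⁻¹ : (F ⊗[ℚ] ℚ_[q])ˣ) : F ⊗[ℚ] ℚ_[q])) * y,
      mul_mem (mul_mem (hqmem k) (hN q)) hy, ?_⟩
    have hxx : (x q : F ⊗[ℚ] ℚ_[q]) * (((x q)⁻¹ : (F ⊗[ℚ] ℚ_[q])ˣ) : F ⊗[ℚ] ℚ_[q]) = 1 :=
      Units.mul_inv _
    rw [hby, hM, hk]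
    linear_combination (-(q : F ⊗[ℚ] ℚ_[q]) ^ (e + 1 + (N q + k)) * y) * hxx
  have hfin : ∀ (q : ℕ) [Fact q.Prime], ∀ y ∈ maxOrder q F, ∀ c : F ⊗[ℚ] ℚ_[q],
      c = (x q : F ⊗[ℚ] ℚ_[q]) * (1 + (q : F ⊗[ℚ] ℚ_[q]) ^ (e + 1) * y) →
      ∃ y' ∈ maxOrder q F, c = (x q : F ⊗[ℚ] ℚ_[q]) * (1 + (q : F ⊗[ℚ] ℚ_[q]) ^ e * y') := by
    intro q _ y hy c hc
    refine ⟨(q : F ⊗[ℚ] ℚ_[q]) * y, mul_mem (natCast_mem _ q) hy, ?_⟩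
    rw [hc]
    ring
  by_cases hb0 : b = 0
  · refine ⟨1, fun q _ hqS => ?_⟩
    obtain ⟨y, hy, hz⟩ := hloc q hqS
    rw [hb0, TensorProduct.zero_tmul] at hz
    obtain ⟨u', -, hu'⟩ := exists_inv_one_add_mul (q := q) (L := F)
      (b := (q : F ⊗[ℚ] ℚ_[q]) ^ e * y) (mul_mem (pow_mem (natCast_mem _ q) e) hy)
    have h1 : (1 : F ⊗[ℚ] ℚ_[q]) + (q : F ⊗[ℚ] ℚ_[q]) ^ (e + 1) * y =
        1 + (q : F ⊗[ℚ] ℚ_[q]) * ((q : F ⊗[ℚ] ℚ_[q]) ^ e * y) := by ring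
    have hunit : IsUnit ((x q : F ⊗[ℚ] ℚ_[q]) * (1 + (q : F ⊗[ℚ] ℚ_[q]) ^ (e + 1) * y)) := by
      rw [h1]
      exact (x q).isUnit.mul (IsUnit.of_mul_eq_one _ hu')
    rw [← hz] at hunit
    have hsub : Subsingleton (F ⊗[ℚ] ℚ_[q]) :=
      subsingleton_of_zero_eq_one (isUnit_zero_iff.mp hunit)
    exact ⟨0, zero_mem _, Subsingleton.elim _ _⟩
  · refine ⟨Units.mk0 b hb0, fun q _ hqS => ?_⟩
    obtain ⟨y, hy, hz⟩ := hloc q hqS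
    exact hfin q y hy _ hz

/-- The one-prime form: `A_q(F)ˣ = λ_q(Fˣ) · (1 + q ^ e * maxOrder)`. -/
theorem exists_eq_tmul_mul_one_add (q : ℕ) [Fact q.Prime] (F : Type*) [Field F] [NumberField F]
    (x : (F ⊗[ℚ] ℚ_[q])ˣ) (e : ℕ) :
    ∃ (b : Fˣ), ∃ y ∈ maxOrder q F,
      ((b : F) ⊗ₜ[ℚ] (1 : ℚ_[q])) = (x : F ⊗[ℚ] ℚ_[q]) * (1 + (q : F ⊗[ℚ] ℚ_[q]) ^ e * y) := by
  classical
  obtain ⟨b, hb⟩ := exists_global_mul_one_add F {q}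
    (fun q' hq' => if h : q' = q then h ▸ x else 1) e
  obtain ⟨y, hy, hby⟩ := hb q (Finset.mem_singleton_self q)
  refine ⟨b, y, hy, ?_⟩
  rw [hby, dif_pos rfl]

end Fermat.Agent.CFT.Global.WeakApprox
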